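/-
S18 moonshot, package [P6 DESCENT-Q] (helper99): the `q ↦ q^s` descent (blueprint 15, Step 5).
Mathlib + Prelude `qExpand` only.

* `mem_range_qExpand_iff` : `x ∈ range (q ↦ q^s)` iff all coefficients off `sℤ` vanish.
* `mem_range_qExpand_of_pow` (ROOT DESCENT): `g ∈ L((q))`, `(m : L) ≠ 0`, `g^m ∈ L((q^s))`,
  `s ∣ ord g`  ⟹  `g ∈ L((q^s))`.
* `sum_ne_zero_of_order` / `relrank_ge` (INDEPENDENCE): elements of `q`-orders `≡ 0, 1, …, s-1 mod s`
  are linearly independent over any subfield of `L((q^s))`.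
* `descent` (DEGREE SQUEEZE): `E ≤ F`, `E ⊆ L((q^s))`, `[F : E] ≤ d < 2 s`, `F` contains elements of
  every order class mod `s`; then every `g ∈ F` with `g^m ∈ L((q^s))`, `s ∣ ord g` lies in `E`.
-/
import Mathlib
import Fermat.Prelude.Def_ModularCurve_X0ModL

set_option autoImplicit false
set_option linter.unusedSectionVars false
set_option linter.unusedVariables false

namespace Fermat.Agent.S18.DescentQ99

open HahnSeries PowerSeries ModularCurve

variable {L : Type*} [Field L]

/-! ### Power series supported on multiples of `s` -/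

/-- `w ∈ L[[X^s]]`. -/
def SuppDvd (s : ℕ) (w : PowerSeries L) : Prop := ∀ k : ℕ, ¬ s ∣ k → PowerSeries.coeff k w = 0

theorem SuppDvd.mul {s : ℕ} {w w' : PowerSeries L} (h : SuppDvd s w) (h' : SuppDvd s w') :
    SuppDvd s (w * w') := by
  intro k hk
  rw [PowerSeries.coeff_mul]
  apply Finset.sum_eq_zero
  rintro ⟨i, j⟩ hij
  rw [Finset.HasAntidiagonal.mem_antidiagonal] at hij
  simp only at hij
  by_cases hi : s ∣ i
  · have hj : ¬ s ∣ j := fun hj => hk (hij ▸ dvd_add hi hj)
    rw [h' j hj, mul_zero]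
  · rw [h i hi, zero_mul]

theorem SuppDvd.one (s : ℕ) : SuppDvd s (1 : PowerSeries L) := by
  intro k hk
  rw [PowerSeries.coeff_one, if_neg]
  rintro rfl
  exact hk (dvd_zero s)

theorem SuppDvd.pow {s : ℕ} {w : PowerSeries L} (h : SuppDvd s w) (n : ℕ) : SuppDvd s (w ^ n) := by
  induction n with
  | zero => rw [pow_zero]; exact SuppDvd.one s
  | succ n ih => rw [pow_succ]; exact ih.mul h

theorem SuppDvd.sub {s : ℕ} {w w' : PowerSeries L} (h : SuppDvd s w) (h' : SuppDvd s w') :
    SuppDvd s (w - w') := by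
  intro k hk
  rw [map_sub, h k hk, h' k hk, sub_zero]

/-- **Root descent for power series**: if `u` has nonzero constant term, `m` is invertible in `L`
and `u^m ∈ L[[X^s]]`, then `u ∈ L[[X^s]]`. -/
theorem suppDvd_of_pow {s m : ℕ} (hm : (m : L) ≠ 0) (u : PowerSeries L)
    (hu0 : PowerSeries.constantCoeff u ≠ 0) (hum : SuppDvd s (u ^ m)) : SuppDvd s u := by
  classical
  -- good part and bad part
  set a : PowerSeries L := PowerSeries.mk fun k => if s ∣ k then PowerSeries.coeff k u else 0 with ha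
  have haS : SuppDvd s a := by
    intro k hk
    rw [ha, PowerSeries.coeff_mk, if_neg hk]
  set b : PowerSeries L := u - a with hb
  have hbcoeff : ∀ k, PowerSeries.coeff k b = if s ∣ k then 0 else PowerSeries.coeff k u := by
    intro k
    rw [hb, map_sub, ha, PowerSeries.coeff_mk]
    split_ifs <;> simp
  by_contra hcon
  -- minimal bad index
  have hex : ∃ k, PowerSeries.coeff k b ≠ 0 := by
    by_contra hno
    apply hcon
    intro k hk
    have h1 : PowerSeries.coeff k b = 0 := by
      by_contra h2; exact hno ⟨k, h2⟩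
    rw [hbcoeff, if_neg hk] at h1
    exact h1
  set r := Nat.find hex with hr
  have hr1 : PowerSeries.coeff r b ≠ 0 := Nat.find_spec hex
  have hr2 : ∀ k < r, PowerSeries.coeff k b = 0 := fun k hk => by
    by_contra h; exact Nat.find_min hex hk h
  have hrs : ¬ s ∣ r := by
    intro h
    apply hr1
    rw [hbcoeff, if_pos h]
  -- the geometric sum
  set S : PowerSeries L := ∑ i ∈ Finset.range m, u ^ i * a ^ (m - 1 - i) with hS
  have hSb : S * b = u ^ m - a ^ m := geom_sum₂_mul u a m
  have hc : PowerSeries.constantCoeff a = PowerSeries.constantCoeff u := by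
    rw [← PowerSeries.coeff_zero_eq_constantCoeff_apply, ← PowerSeries.coeff_zero_eq_constantCoeff_apply,
      ha, PowerSeries.coeff_mk, if_pos (dvd_zero s)]
  have hS0 : PowerSeries.constantCoeff S = (m : L) * PowerSeries.constantCoeff u ^ (m - 1) := by
    rw [hS, map_sum]
    have : ∀ i ∈ Finset.range m, PowerSeries.constantCoeff (u ^ i * a ^ (m - 1 - i)) =
        PowerSeries.constantCoeff u ^ (m - 1) := by
      intro i hi
      rw [Finset.mem_range] at hi
      rw [map_mul, map_pow, map_pow, hc, ← _root_.pow_add]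
      congr 1
      omega
    rw [Finset.sum_congr rfl this, Finset.sum_const, Finset.card_range, nsmul_eq_mul]
  -- coefficient `r` of `S * b`
  have h1 : PowerSeries.coeff r (S * b) = PowerSeries.constantCoeff S * PowerSeries.coeff r b := by
    rw [PowerSeries.coeff_mul, Finset.sum_eq_single (0, r)]
    · simp
    · rintro ⟨i, j⟩ hij hne
      rw [Finset.HasAntidiagonal.mem_antidiagonal] at hij
      simp only at hij
      have hj : j < r := by
        rcases Nat.eq_zero_or_pos i with rfl | hi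
        · exfalso; apply hne; simp only [zero_add] at hij; rw [hij]
        · omega
      rw [hr2 j hj, mul_zero]
    · intro h; exact absurd (by simp) h
  have h2 : PowerSeries.coeff r (S * b) = 0 := by
    rw [hSb]
    exact (hum.sub (haS.pow m)) r hrs
  rw [h1, hS0] at h2
  rcases mul_eq_zero.mp h2 with h3 | h3
  · rcases mul_eq_zero.mp h3 with h4 | h4
    · exact hm h4
    · exact hu0 (pow_eq_zero_iff (n := m - 1) (by
        intro h0
        -- m - 1 = 0: then pow = 1 ≠ 0
        rw [h0, pow_zero] at h4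
        exact one_ne_zero h4) |>.mp h4)
  · exact hr1 h3

/-! ### Laurent series in `q^s` -/

variable (s : ℕ) [NeZero s]

theorem mem_range_qExpand_iff (x : LaurentSeries L) :
    x ∈ Set.range (qExpand L s) ↔ ∀ k : ℤ, ¬ (s : ℤ) ∣ k → x.coeff k = 0 := by
  constructor
  · rintro ⟨y, rfl⟩ k hk
    exact qExpand_coeff_of_not_dvd s y hk
  · intro h
    have hs1 : (1 : ℤ) ≤ (s : ℤ) := by exact_mod_cast Nat.one_le_iff_ne_zero.mpr (NeZero.ne s)
    have hbdd : BddBelow (Function.support fun k : ℤ => x.coeff ((s : ℤ) * k)) := by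
      refine ⟨min x.order 0, ?_⟩
      intro k hk
      rw [Function.mem_support] at hk
      have h1 : x.order ≤ (s : ℤ) * k := HahnSeries.order_le_of_coeff_ne_zero hk
      rcases le_or_gt 0 k with h0 | h0
      · exact le_trans (min_le_right _ _) h0
      · have h2 : (s : ℤ) * k ≤ k := by nlinarith
        exact le_trans (min_le_left _ _) (le_trans h1 h2)
    refine ⟨HahnSeries.ofSuppBddBelow (fun k : ℤ => x.coeff ((s : ℤ) * k)) hbdd, ?_⟩
    ext k
    by_cases hk : (s : ℤ) ∣ k
    · obtain ⟨k', rfl⟩ := hk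
      rw [qExpand_coeff_mul]
      rfl
    · rw [qExpand_coeff_of_not_dvd s _ hk, h k hk]

omit [NeZero s] in
theorem pow_eq_single_mul (g : LaurentSeries L) (m : ℕ) :
    g ^ m = HahnSeries.single ((m : ℤ) * g.order) (1 : L) *
      HahnSeries.ofPowerSeries ℤ L (g.powerSeriesPart ^ m) := by
  conv_lhs => rw [← LaurentSeries.single_order_mul_powerSeriesPart g]
  rw [mul_pow, HahnSeries.single_pow, one_pow, map_pow, nsmul_eq_mul]

/-- **Root descent**: if `g^m ∈ L((q^s))`, `m` invertible in `L` and `s ∣ ord g`, then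
`g ∈ L((q^s))`. -/
theorem mem_range_qExpand_of_pow {m : ℕ} (hm : (m : L) ≠ 0) (g : LaurentSeries L)
    (hgm : g ^ m ∈ Set.range (qExpand L s)) (hord : (s : ℤ) ∣ g.order) :
    g ∈ Set.range (qExpand L s) := by
  by_cases hg0 : g = 0
  · exact ⟨0, by rw [map_zero, hg0]⟩
  rw [mem_range_qExpand_iff] at hgm ⊢
  set u := g.powerSeriesPart with hu
  have hu0 : PowerSeries.constantCoeff u ≠ 0 := by
    rw [← PowerSeries.coeff_zero_eq_constantCoeff_apply, hu, LaurentSeries.powerSeriesPart_coeff,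
      Nat.cast_zero, add_zero]
    exact fun h => hg0 (HahnSeries.coeff_order_eq_zero.mp h)
  have hum : SuppDvd s (u ^ m) := by
    intro n hn
    have h1 : (g ^ m).coeff ((n : ℤ) + (m : ℤ) * g.order) = PowerSeries.coeff n (u ^ m) := by
      rw [pow_eq_single_mul, HahnSeries.coeff_single_mul_add, one_mul,
        HahnSeries.ofPowerSeries_apply_coeff]
    rw [← h1]
    apply hgm
    intro hdvd
    apply hn
    have h2 : (s : ℤ) ∣ (n : ℤ) := by
      have h3 : (s : ℤ) ∣ (m : ℤ) * g.order := Dvd.dvd.mul_left hord _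
      exact (dvd_add_left h3).mp hdvd
    exact_mod_cast h2
  have hus := suppDvd_of_pow hm u hu0 hum
  intro k hk
  rcases lt_or_ge k g.order with hlt | hge
  · exact HahnSeries.coeff_eq_zero_of_lt_order hlt
  · obtain ⟨n, hn⟩ := Int.eq_ofNat_of_zero_le (sub_nonneg.mpr hge)
    have hk' : k = g.order + (n : ℤ) := by omega
    rw [hk', ← LaurentSeries.powerSeriesPart_coeff]
    apply hus
    intro hdvd
    apply hk
    rw [hk']
    exact dvd_add hord (by exact_mod_cast hdvd)

/-! ### Independence of elements of distinct order classes mod `s` -/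

theorem order_dvd_of_mem_range {c : LaurentSeries L} (hc : c ∈ Set.range (qExpand L s))
    (hc0 : c ≠ 0) : (s : ℤ) ∣ c.order := by
  by_contra h
  exact (HahnSeries.coeff_order_eq_zero.not.mpr hc0) (((mem_range_qExpand_iff s c).mp hc) _ h)

/-- If `Σ c_i x_i = 0` with `c_i ∈ L((q^s))` and `ord x_i ≡ i mod s`, then all `c_i = 0`. -/
theorem eq_zero_of_sum_eq_zero (x c : Fin s → LaurentSeries L) (hx0 : ∀ i, x i ≠ 0)
    (hxo : ∀ i, (x i).order % (s : ℤ) = ((i : ℕ) : ℤ))
    (hc : ∀ i, c i ∈ Set.range (qExpand L s)) (hsum : ∑ i, c i * x i = 0) : ∀ i, c i = 0 := by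
  classical
  by_contra hcon
  rw [not_forall] at hcon
  obtain ⟨j, hj⟩ := hcon
  set T : Finset (Fin s) := Finset.univ.filter fun i => c i ≠ 0 with hT
  have hTne : T.Nonempty := ⟨j, by rw [hT, Finset.mem_filter]; exact ⟨Finset.mem_univ _, hj⟩⟩
  obtain ⟨i0, hi0T, hmin⟩ := Finset.exists_min_image T (fun i => (c i * x i).order) hTne
  have hmem : ∀ i, i ∈ T ↔ c i ≠ 0 := fun i => by rw [hT, Finset.mem_filter]; simp
  have hord : ∀ i, c i ≠ 0 → (c i * x i).order = (c i).order + (x i).order := fun i hi =>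
    HahnSeries.order_mul hi (hx0 i)
  have hres : ∀ i, c i ≠ 0 → (c i * x i).order % (s : ℤ) = ((i : ℕ) : ℤ) := by
    intro i hi
    rw [hord i hi]
    obtain ⟨t, ht⟩ := order_dvd_of_mem_range s (hc i) hi
    rw [ht, add_comm, Int.add_mul_emod_self_left, hxo i]
  have hc0 : c i0 ≠ 0 := (hmem i0).mp hi0T
  set n := (c i0 * x i0).order with hn
  have hcoeff := congrArg (fun y : LaurentSeries L => y.coeff n) hsum
  simp only [HahnSeries.coeff_sum, HahnSeries.coeff_zero] at hcoeff
  rw [Finset.sum_eq_single i0] at hcoeff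
  · have hne : c i0 * x i0 ≠ 0 := mul_ne_zero hc0 (hx0 i0)
    exact (HahnSeries.coeff_order_eq_zero.not.mpr hne) hcoeff
  · intro i _ hi
    by_cases hci : c i = 0
    · rw [hci, zero_mul, HahnSeries.coeff_zero]
    · apply HahnSeries.coeff_eq_zero_of_lt_order
      have h1 : n ≤ (c i * x i).order := hmin i ((hmem i).mpr hci)
      have h2 : n ≠ (c i * x i).order := by
        intro heq
        have h3 := hres i hci
        rw [← heq, hn, hres i0 hc0] at h3
        apply hi
        exact Fin.ext (by exact_mod_cast h3.symm)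
      exact lt_of_le_of_ne h1 h2
  · intro h; exact absurd (Finset.mem_univ _) h

/-- Elements of every order class mod `s` in `F` force `[F : E] ≥ s` for `E ⊆ L((q^s))`. -/
theorem le_relrank {E F : IntermediateField L (LaurentSeries L)} (hEF : E ≤ F)
    (hE : ∀ y ∈ E, y ∈ Set.range (qExpand L s))
    (x : Fin s → LaurentSeries L) (hxF : ∀ i, x i ∈ F) (hx0 : ∀ i, x i ≠ 0)
    (hxo : ∀ i, (x i).order % (s : ℤ) = ((i : ℕ) : ℤ)) :
    (s : Cardinal) ≤ E.relrank F := by
  classical
  rw [IntermediateField.relrank_eq_rank_of_le hEF]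
  have hli : LinearIndependent ↥E
      (fun i : Fin s => (⟨x i, hxF i⟩ : ↥(IntermediateField.extendScalars hEF))) := by
    rw [Fintype.linearIndependent_iff]
    intro c hc i
    have h1 := congrArg (IntermediateField.extendScalars hEF).val hc
    rw [map_sum, map_zero] at h1
    have h2 : ∑ i, (c i : LaurentSeries L) * x i = 0 := by
      rw [← h1]
      refine Finset.sum_congr rfl fun i _ => ?_
      rfl
    have h3 := eq_zero_of_sum_eq_zero s x (fun i => (c i : LaurentSeries L)) hx0 hxo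
      (fun i => hE _ (c i).2) h2 i
    exact Subtype.ext h3
  have := hli.cardinal_lift_le_rank
  simpa using this

/-- **Degree squeeze.** -/
theorem le_of_relrank {E F' F : IntermediateField L (LaurentSeries L)} (h1 : E ≤ F') (h2 : F' ≤ F)
    {d : ℕ} (hd : E.relrank F ≤ (d : Cardinal)) (hs : (s : Cardinal) ≤ F'.relrank F)
    (hds : d < 2 * s) : F' ≤ E := by
  rw [← IntermediateField.relrank_eq_one_iff]
  have hmul := IntermediateField.relrank_mul_relrank h1 h2
  have hlt : E.relrank F < Cardinal.aleph0 := lt_of_le_of_lt hd (Cardinal.natCast_lt_aleph0)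
  have hb0 : F'.relrank F ≠ 0 := by
    intro h0
    rw [h0] at hs
    have : (s : Cardinal) = 0 := nonpos_iff_eq_zero.mp hs
    exact NeZero.ne s (by exact_mod_cast this)
  have ha0 : E.relrank F' ≠ 0 := by
    rw [IntermediateField.relrank_eq_rank_of_le h1]
    exact (rank_pos (R := ↥E) (M := ↥(IntermediateField.extendScalars h1))).ne'
  rw [← hmul] at hlt hd
  have hfin := (Cardinal.mul_lt_aleph0_iff_of_ne_zero ha0 hb0).mp hlt
  obtain ⟨a, ha⟩ := Cardinal.lt_aleph0.mp hfin.1
  obtain ⟨b, hb⟩ := Cardinal.lt_aleph0.mp hfin.2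
  rw [ha, hb] at hd
  rw [hb] at hs
  rw [ha] at ha0 ⊢
  have hd' : a * b ≤ d := by exact_mod_cast hd
  have hs' : s ≤ b := by exact_mod_cast hs
  have ha1 : a ≠ 0 := by exact_mod_cast ha0
  have : a = 1 := by
    by_contra hne
    have ha2 : 2 ≤ a := by omega
    have : 2 * s ≤ a * b := Nat.mul_le_mul ha2 hs'
    omega
  rw [this]; simp

/-- **The `q^s`-descent** (blueprint 15, Step 5).  `E ≤ F` intermediate fields of `L((q))`,
`E ⊆ L((q^s))`, `[F : E] ≤ d < 2 s`, and `F` contains nonzero elements of every `q`-order class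
mod `s`.  Then every `g ∈ F` with `g^m ∈ L((q^s))` (`m` invertible in `L`) and `s ∣ ord g` lies
in `E`. -/
theorem descent {E F : IntermediateField L (LaurentSeries L)} (hEF : E ≤ F)
    (hE : ∀ y ∈ E, y ∈ Set.range (qExpand L s)) {d : ℕ} (hd : E.relrank F ≤ (d : Cardinal))
    (hds : d < 2 * s)
    (x : Fin s → LaurentSeries L) (hxF : ∀ i, x i ∈ F) (hx0 : ∀ i, x i ≠ 0)
    (hxo : ∀ i, (x i).order % (s : ℤ) = ((i : ℕ) : ℤ))
    {m : ℕ} (hm : (m : L) ≠ 0) (g : LaurentSeries L) (hgF : g ∈ F)
    (hgm : g ^ m ∈ Set.range (qExpand L s)) (hord : (s : ℤ) ∣ g.order) : g ∈ E := by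
  set R : IntermediateField L (LaurentSeries L) := (qExpandAlgHomC L s).fieldRange with hR
  have hRmem : ∀ y, y ∈ R ↔ y ∈ Set.range (qExpand L s) := by
    intro y
    rw [hR, AlgHom.mem_fieldRange]
    rfl
  have h1 : E ≤ F ⊓ R := le_inf hEF fun y hy => (hRmem y).mpr (hE y hy)
  have h2 : F ⊓ R ≤ F := inf_le_left
  have hs : (s : Cardinal) ≤ (F ⊓ R).relrank F :=
    le_relrank s h2 (fun y hy => (hRmem y).mp (inf_le_right (a := F) hy)) x hxF hx0 hxo
  have h3 := le_of_relrank s h1 h2 hd hs hds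
  apply h3
  exact ⟨hgF, (hRmem g).mpr (mem_range_qExpand_of_pow s hm g hgm hord)⟩

/-! ### The concrete witnesses `x_i = j^(s - i)` -/

omit [NeZero s] in
theorem order_jqModC : (jqModC L).order = -1 := by
  have hne : jqModC L ≠ 0 := jqModC_ne_zero_of_nontrivial L
  apply le_antisymm
  · apply HahnSeries.order_le_of_coeff_ne_zero
    rw [coeff_jqModC_neg_one]
    exact one_ne_zero
  · by_contra hlt
    rw [not_le] at hlt
    exact (HahnSeries.coeff_order_eq_zero.not.mpr hne) (coeff_jqModC_of_lt L hlt)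

/-- The witnesses `x_i := j^(s - i)`, of `q`-order `i - s ≡ i mod s`. -/
noncomputable def wit (i : Fin s) : LaurentSeries L := jqModC L ^ (s - (i : ℕ))

theorem wit_ne_zero (i : Fin s) : wit (L := L) s i ≠ 0 :=
  pow_ne_zero _ (jqModC_ne_zero_of_nontrivial L)

theorem wit_order (i : Fin s) : (wit (L := L) s i).order % (s : ℤ) = ((i : ℕ) : ℤ) := by
  rw [wit, HahnSeries.order_pow, order_jqModC, nsmul_eq_mul]
  have hi : (i : ℕ) < s := i.2
  have h1 : ((s - (i : ℕ) : ℕ) : ℤ) * (-1) = ((i : ℕ) : ℤ) + (s : ℤ) * (-1) := by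
    push_cast [Nat.cast_sub hi.le]; ring
  rw [h1, Int.add_mul_emod_self_left]
  exact Int.emod_eq_of_lt (by positivity) (by exact_mod_cast hi)

theorem wit_mem {F : IntermediateField L (LaurentSeries L)} (hj : jqModC L ∈ F) (i : Fin s) :
    wit (L := L) s i ∈ F := pow_mem hj _

/-- **The `q^s`-descent**, with the witnesses supplied by `j ∈ F`. -/
theorem descent_of_jq_mem {E F : IntermediateField L (LaurentSeries L)} (hEF : E ≤ F)
    (hE : ∀ y ∈ E, y ∈ Set.range (qExpand L s)) {d : ℕ} (hd : E.relrank F ≤ (d : Cardinal))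
    (hds : d < 2 * s) (hj : jqModC L ∈ F)
    {m : ℕ} (hm : (m : L) ≠ 0) (g : LaurentSeries L) (hgF : g ∈ F)
    (hgm : g ^ m ∈ Set.range (qExpand L s)) (hord : (s : ℤ) ∣ g.order) : g ∈ E :=
  descent s hEF hE hd hds (wit s) (wit_mem s hj) (wit_ne_zero s) (wit_order s) hm g hgF hgm hord

/-- Variant for `E = σ_s(F₀)` (image of `F₀` under `q ↦ q^s`): produces the preimage. -/
theorem exists_preimage_of_pow {F₀ F : IntermediateField L (LaurentSeries L)}
    (hEF : F₀.map (qExpandAlgHomC L s) ≤ F) {d : ℕ}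
    (hd : (F₀.map (qExpandAlgHomC L s)).relrank F ≤ (d : Cardinal))
    (hds : d < 2 * s) (hj : jqModC L ∈ F)
    {m : ℕ} (hm : (m : L) ≠ 0) (g : LaurentSeries L) (hgF : g ∈ F)
    (hgm : g ^ m ∈ Set.range (qExpand L s)) (hord : (s : ℤ) ∣ g.order) :
    ∃ g₀ ∈ F₀, qExpand L s g₀ = g := by
  have hE : ∀ y ∈ F₀.map (qExpandAlgHomC L s), y ∈ Set.range (qExpand L s) := by
    rintro y ⟨z, -, rfl⟩
    exact ⟨z, rfl⟩
  obtain ⟨g₀, hg₀, hg⟩ := descent_of_jq_mem s hEF hE hd hds hj hm g hgF hgm hord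
  exact ⟨g₀, hg₀, hg⟩

end Fermat.Agent.S18.DescentQ99
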