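/-
S18 SPINE (helper33, blueprint 14 v2 + blueprint 15): the TOP-LEVEL decomposition of S18 into four
statements phrased ONLY with Prelude primitives (`coeffMap`, `qExpand`, `Place.ord`, `Pic0.mk`), and
the assembly `s18_of_spine` (complete proof).  Package owners prove
  `theorem normalize : NormalizeStatement`      ([NORMALIZE], the ONLY use of the hypothesis `h`)
  `theorem level     : LevelStatement`          ((T) = Lemma K + genus equality at a torsion-free level)
  `theorem descent   : DescentStatement`        ([DESCENT] via `q ↦ q^s`)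
  `theorem transfer  : TransferStatement`       (glue: `σ_s : F_N → F_{sN}`)
  `theorem cuspInfty : CuspInftyStatement`      (the place `q = 0` of `F_N`)
in their own files; `Fermat/Agent/S18.lean` is then `s18_of_spine normalize level descent transfer cuspInfty`.
-/
import Fermat.Statements.S18

set_option autoImplicit false

open ModularCurve AlgebraicCurve HahnSeries

noncomputable section

namespace Fermat.Agent.S18.Spine33

/-- The constant field `ℚ̄`. -/
abbrev Kb : Type := AlgebraicClosure ℚ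

/-- The function field of `X₀(N)` over `ℚ̄` (Prelude), as a type. -/
abbrev FK (N : ℕ) : Type := ↥(modularFunctionFieldBar N)

section Concrete

variable (A : ValuationSubring Kb)

/-- The residue field of `A`. -/
abbrev kA : Type := IsLocalRing.ResidueField A

/-- coefficientwise inclusion `A((q)) → ℚ̄((q))` -/
def incl : LaurentSeries A →+* LaurentSeries Kb := coeffMap A.subtype

/-- coefficientwise reduction `A((q)) → k((q))` -/
def red : LaurentSeries A →+* LaurentSeries (kA A) := coeffMap (IsLocalRing.residue A)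

/-- `f ≡ 1` for the Gauss valuation of level `N`: `f = U / V` with `U, V ∈ A((q)) ∩ F_N` having the
SAME nonzero reduction, lying in `F̄_N`. -/
def IsOneUnit (N : ℕ) (f : LaurentSeries Kb) : Prop :=
  ∃ U V : LaurentSeries A,
    incl A U ∈ modularFunctionFieldBar N ∧ incl A V ∈ modularFunctionFieldBar N ∧
    red A U ∈ modularFunctionFieldFullC (kA A) N ∧ red A U ≠ 0 ∧ red A U = red A V ∧
    f * incl A V = incl A U

end Concrete

/-- every place of `F_N` sees `f` as an `m`-th power up to a unit -/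
def LocallyPower (N m : ℕ) (f : FK N) : Prop :=
  ∀ P : Place Kb (FK N), (m : ℤ) ∣ P.ord f

/-- the auxiliary level is torsion-free of genus `0`-type: `4 ∣ M` (ℓ odd) or `9 ∣ M` (ℓ = 2) -/
def GoodLevel (ℓ M : ℕ) : Prop := (ℓ ≠ 2 ∧ 4 ∣ M) ∨ (ℓ = 2 ∧ 9 ∣ M)

/-- the pairs `(s, N)` for which `[F_{sN} : σ_s F_N] < 2 s` -/
def DescentPair (s N : ℕ) : Prop :=
  s = 1 ∨ (s = 4 ∧ ¬ 2 ∣ N) ∨ (s = 2 ∧ 2 ∣ N ∧ ¬ 4 ∣ N) ∨ (s = 9 ∧ ¬ 3 ∣ N) ∨
    (s = 3 ∧ 3 ∣ N ∧ ¬ 9 ∣ N)

/-- **[NORMALIZE]** (the only use of `h`). -/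
def NormalizeStatement : Prop :=
  ∀ (N : ℕ) [NeZero N] (ℓ : ℕ) [Fact ℓ.Prime], ¬ ℓ ∣ N →
    ∀ (A : ValuationSubring Kb), A.LiesOverPrime ℓ → ReductionInputsModL A N →
    ∀ (m : ℕ), ¬ ℓ ∣ m → ∀ z : JZero N, m • z = 0 → reductionModL A N z = 0 →
      ∃ (D : Divisor.degZero (K := Kb) (F := FK N)) (f : FK N), f ≠ 0 ∧ Pic0.mk D = z ∧
        (∀ P : Place Kb (FK N), (m : ℤ) * (D : Divisor Kb (FK N)) P = P.ord f) ∧
        IsOneUnit A N (f : LaurentSeries Kb)

/-- **(T)** at a good level `M` prime to `ℓ`: a one-unit which is locally an `m`-th power is an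
`m`-th power (`ℓ ∤ m`). -/
def LevelStatement : Prop :=
  ∀ (M : ℕ) [NeZero M] (ℓ : ℕ) [Fact ℓ.Prime], ¬ ℓ ∣ M → GoodLevel ℓ M →
    ∀ (A : ValuationSubring Kb), A.LiesOverPrime ℓ → ∀ (m : ℕ), ¬ ℓ ∣ m →
    ∀ f : FK M, f ≠ 0 → LocallyPower M m f → IsOneUnit A M (f : LaurentSeries Kb) →
      ∃ u : FK M, u ^ m = f

/-- **[DESCENT]**: an `m`-th root of `f(q^s)` in `F_{sN}` gives an `m`-th root of `f` in `F_N`. -/
def DescentStatement : Prop :=
  ∀ (N s : ℕ) [NeZero N] [NeZero s], DescentPair s N → ∀ (m : ℕ), 0 < m →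
    ∀ f : FK N, f ≠ 0 → (m : ℤ) ∣ (f : LaurentSeries Kb).order →
      (∃ u : LaurentSeries Kb, u ∈ modularFunctionFieldBar (s * N) ∧
        u ^ m = qExpand Kb s (f : LaurentSeries Kb)) →
      ∃ v : FK N, v ^ m = f

/-- **[TRANSFER]**: `σ_s : f(q) ↦ f(q^s)` maps `F_N` into `F_{sN}` and preserves the two hypotheses
of (T). -/
def TransferStatement : Prop :=
  ∀ (N s : ℕ) [NeZero N] [NeZero s] (f : FK N),
    ∃ hmem : qExpand Kb s (f : LaurentSeries Kb) ∈ modularFunctionFieldBar (s * N),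
      (∀ m : ℕ, LocallyPower N m f →
        LocallyPower (s * N) m (⟨qExpand Kb s (f : LaurentSeries Kb), hmem⟩ : FK (s * N))) ∧
      (∀ A : ValuationSubring Kb, IsOneUnit A N (f : LaurentSeries Kb) →
        IsOneUnit A (s * N) (qExpand Kb s (f : LaurentSeries Kb)))

/-- **[CUSPinf]**: the `q`-order is the order at a place of `F_N`. -/
def CuspInftyStatement : Prop :=
  ∀ (N : ℕ) [NeZero N] (f : FK N), f ≠ 0 →
    ∃ P : Place Kb (FK N), P.ord f = (f : LaurentSeries Kb).order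

/-! ### choice of the auxiliary level -/

theorem exists_aux (ℓ N : ℕ) (hℓ : ℓ.Prime) (hℓN : ¬ ℓ ∣ N) :
    ∃ s : ℕ, s ≠ 0 ∧ DescentPair s N ∧ GoodLevel ℓ (s * N) ∧ ¬ ℓ ∣ s * N := by
  by_cases h2 : ℓ = 2
  · subst h2
    have hodd : ¬ 2 ∣ N := hℓN
    by_cases h9 : 9 ∣ N
    · refine ⟨1, one_ne_zero, Or.inl rfl, Or.inr ⟨rfl, by simpa using h9⟩, by simpa using hodd⟩
    · by_cases h3 : 3 ∣ N
      · refine ⟨3, by norm_num, Or.inr (Or.inr (Or.inr (Or.inr ⟨rfl, h3, h9⟩))),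
          Or.inr ⟨rfl, ?_⟩, ?_⟩
        · obtain ⟨c, rfl⟩ := h3
          exact ⟨c, by ring⟩
        · intro h
          rcases (Nat.Prime.dvd_mul Nat.prime_two).mp h with h | h
          · omega
          · exact hodd h
      · refine ⟨9, by norm_num, Or.inr (Or.inr (Or.inr (Or.inl ⟨rfl, h3⟩))),
          Or.inr ⟨rfl, Dvd.intro _ rfl⟩, ?_⟩
        intro h
        rcases (Nat.Prime.dvd_mul Nat.prime_two).mp h with h | h
        · omega
        · exact hodd h
  · have hℓ4 : ¬ ℓ ∣ 4 := by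
      intro h
      have h' : ℓ ∣ 2 ^ 2 := by simpa using h
      have := (Nat.prime_dvd_prime_iff_eq hℓ Nat.prime_two).mp (hℓ.dvd_of_dvd_pow h')
      exact h2 this
    have hℓ2 : ¬ ℓ ∣ 2 := fun h => h2 ((Nat.prime_dvd_prime_iff_eq hℓ Nat.prime_two).mp h)
    by_cases h4 : 4 ∣ N
    · refine ⟨1, one_ne_zero, Or.inl rfl, Or.inl ⟨h2, by simpa using h4⟩, by simpa using hℓN⟩
    · by_cases h2N : 2 ∣ N
      · refine ⟨2, by norm_num, Or.inr (Or.inr (Or.inl ⟨rfl, h2N, h4⟩)), Or.inl ⟨h2, ?_⟩, ?_⟩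
        · obtain ⟨c, rfl⟩ := h2N
          exact ⟨c, by ring⟩
        · intro h
          rcases (Nat.Prime.dvd_mul hℓ).mp h with h | h
          · exact hℓ2 h
          · exact hℓN h
      · refine ⟨4, by norm_num, Or.inr (Or.inl ⟨rfl, h2N⟩), Or.inl ⟨h2, Dvd.intro _ rfl⟩, ?_⟩
        intro h
        rcases (Nat.Prime.dvd_mul hℓ).mp h with h | h
        · exact hℓ4 h
        · exact hℓN h

/-! ### the assembly -/

theorem s18_of_spine (hNorm : NormalizeStatement) (hLevel : LevelStatement)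
    (hDesc : DescentStatement) (hTrans : TransferStatement) (hCusp : CuspInftyStatement)
    (N : ℕ) [NeZero N] {ℓ : ℕ} [Fact ℓ.Prime] (hℓN : ¬ ℓ ∣ N)
    (A : ValuationSubring (AlgebraicClosure ℚ)) (hA : A.LiesOverPrime ℓ)
    (h : ModularCurve.ReductionInputsModL A N) (m : ℕ) (hm : ¬ ℓ ∣ m) (z : ModularCurve.JZero N)
    (hmz : m • z = 0) (hz : ModularCurve.reductionModL A N z = 0) :
    z = 0 := by
  have hm0 : 0 < m := Nat.pos_of_ne_zero (by rintro rfl; exact hm (dvd_zero ℓ))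
  obtain ⟨D, f, hf0, hDz, hDf, hunit⟩ := hNorm N ℓ hℓN A hA h m hm z hmz hz
  obtain ⟨s, hs0, hpair, hgood, hℓs⟩ := exists_aux ℓ N (Fact.out) hℓN
  haveI : NeZero s := ⟨hs0⟩
  haveI : NeZero (s * N) := ⟨Nat.mul_ne_zero hs0 (NeZero.ne N)⟩
  -- `f` is locally an `m`-th power
  have hloc : LocallyPower N m f := fun P => ⟨(D : Divisor Kb (FK N)) P, (hDf P).symm⟩
  obtain ⟨hmem, hT1, hT2⟩ := hTrans N s f
  -- the transferred element is nonzero
  have hf0' : (⟨qExpand Kb s (f : LaurentSeries Kb), hmem⟩ : FK (s * N)) ≠ 0 := by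
    intro h0
    have h1 : qExpand Kb s (f : LaurentSeries Kb) = 0 := congrArg Subtype.val h0
    have h2 : (f : LaurentSeries Kb) = 0 := by
      apply qExpand_injective (R := Kb) s
      rw [h1, map_zero]
    exact hf0 (Subtype.ext h2)
  obtain ⟨u, hu⟩ := hLevel (s * N) ℓ hℓs hgood A hA m hm _ hf0' (hT1 m hloc) (hT2 A hunit)
  -- order divisibility at the cusp `∞`
  obtain ⟨Pinf, hPinf⟩ := hCusp N f hf0
  have hord : (m : ℤ) ∣ (f : LaurentSeries Kb).order := by
    rw [← hPinf]; exact hloc Pinf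
  obtain ⟨v, hv⟩ := hDesc N s hpair m hm0 f hf0 hord
    ⟨(u : LaurentSeries Kb), u.2, by
      have := congrArg Subtype.val hu
      simpa using this⟩
  -- `D = div v`
  have hv0 : v ≠ 0 := by
    rintro rfl
    rw [zero_pow hm0.ne'] at hv
    exact hf0 hv.symm
  have hDv : ∀ P : Place Kb (FK N), (D : Divisor Kb (FK N)) P = P.ord v := by
    intro P
    have h1 : P.ord f = (m : ℤ) * P.ord v := by
      rw [← hv, ← zpow_natCast, P.ord_zpow]
    have h2 := hDf P
    rw [h1] at h2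
    exact mul_left_cancel₀ (by exact_mod_cast hm0.ne') h2
  have hprin : (D : Divisor Kb (FK N)) ∈ Divisor.principal (K := Kb) (F := FK N) :=
    ⟨v, hv0, hDv⟩
  rw [← hDz]
  exact (QuotientAddGroup.eq_zero_iff D).mpr hprin

end Fermat.Agent.S18.Spine33
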