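/-
S18 leaf (helper26): **the DESCENT plug of the S18 spine**, `descent : Spine33.DescentStatement`.

Inputs: helper99's abstract `q ↦ q^s` descent (`DescentQ99.exists_preimage_of_pow`), the S28 upper
bounds (S5)(S6) of `KEY0` for `[F_{pM} : σ_p F_M]`, the modular equation data of S28 (`ModEq`),
and the identification `modularFunctionFieldBar N = modularFunctionFieldFullC ℚ̄ N`.
-/
import Mathlib
import Fermat.Agent.S18.Spine33
import Fermat.Agent.S18.DescentQ99
import Fermat.Agent.S18.BarFullC26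
import Fermat.Agent.S28.ModEq
import Fermat.Agent.S28.KeyUpper

set_option autoImplicit false

noncomputable section

namespace Fermat.Agent.S18.Descent26

open ModularCurve HahnSeries IntermediateField Polynomial Fermat.Agent.S28 Fermat.Agent.S28.KEY0

/-! ### Roots data over an arbitrary field with enough roots of unity -/

section Roots

variable (K : Type) [Field K]

/-- The roots data of the modular equation of level `r` over a field containing a primitive
`r`-th root of unity. -/
def rootsData (r : ℕ) [NeZero r] (D : ModEqData r) (ζ : Kˣ) (hζ : IsPrimitiveRoot (ζ : K) r) :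
    RootsData K r where
  Φ := D.Phi
  monic := D.monic
  natDegree_eq := D.natDegree_eq
  ρ b := twist (ζ ^ b) (jqModC K)
  c b := (((ζ ^ b) ^ (-1 : ℤ) : Kˣ) : K)
  roots := by
    have h := D.roots K ζ (hζ.isRoot_cyclotomic (Nat.pos_of_ne_zero (NeZero.ne r)))
    have : NeZero (r * r) := ⟨Nat.mul_ne_zero (NeZero.ne r) (NeZero.ne r)⟩
    rw [tq_eq, tq_eq]
    exact h
  ρ_zero := by rw [pow_zero, twist_one]
  leads b _ := leadsAt_twist_jqModC _
  c_ne_zero b _ := Units.ne_zero _
  c_ne_one b hb hb0 := by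
    intro h
    have h1 : ((ζ ^ b) ^ (-1 : ℤ) : Kˣ) = 1 := Units.ext h
    rw [zpow_neg_one, inv_eq_one] at h1
    have h2 : ((ζ : Kˣ) : K) ^ b = 1 := by
      have := congrArg (fun u : Kˣ => (u : K)) h1
      simpa using this
    exact hζ.pow_ne_one_of_pos_of_lt hb0 hb h2

theorem nonempty_rootsData [IsAlgClosed K] [CharZero K] (r : ℕ) (hr : r.Prime) :
    Nonempty (RootsData K r) := by
  have : NeZero r := ⟨hr.ne_zero⟩
  have : NeZero (r : K) := ⟨by exact_mod_cast hr.ne_zero⟩
  obtain ⟨ζ, hζ⟩ := HasEnoughRootsOfUnity.exists_primitiveRoot K r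
  have hu : IsUnit ζ := hζ.isUnit (NeZero.ne r)
  exact ⟨rootsData K r (modEqStatement r hr).some hu.unit (by rw [IsUnit.unit_spec]; exact hζ)⟩

end Roots

/-! ### Degree bounds -/

section Degree

variable (K : Type) [Field K] [IsAlgClosed K] [CharZero K]

/-- (S5)+(S6): `[L_{pM} : σ_p L_M] ≤ p` if `p ∣ M`, `≤ p + 1` otherwise. -/
theorem relrank_LLp_LL_le (p M : ℕ) (hp : p.Prime) (hM : M ≠ 0) :
    (LLp K p M).relrank (LL K (p * M)) ≤ ((if p ∣ M then p else p + 1 : ℕ) : Cardinal) := by
  have D : ∀ r, r.Prime → r ∣ p * M → RootsData K r :=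
    fun r hr _ => (nonempty_rootsData K r hr).some
  rw [LL_mul_eq (RingHom.id K) p M hp hM D]
  exact relrank_LLp_le (RingHom.id K) p M hp (D p hp (dvd_mul_right p M))

omit [IsAlgClosed K] [CharZero K] in
theorem LLp_le_LL (p M : ℕ) : LLp K p M ≤ LL K (p * M) := by
  unfold LLp
  rw [adjoin_le_iff]
  rintro x ⟨d, hd, rfl⟩
  exact tq_mem_LL (mul_dvd_mul_left p hd)

omit [IsAlgClosed K] [CharZero K] in
/-- `σ_a ∘ σ_b = σ_{ab}` on intermediate fields. -/
theorem map_map_qExpand (F : IntermediateField K (LaurentSeries K)) (a b : ℕ) [NeZero a] [NeZero b]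
    [NeZero (a * b)] :
    (F.map (qExpandAlgHomC K b)).map (qExpandAlgHomC K a) = F.map (qExpandAlgHomC K (a * b)) := by
  rw [IntermediateField.map_map]
  congr 1
  ext x
  simp [qExpand_qExpand]

/-- prime step: `[L_{pM} : σ_p L_M]`. -/
theorem relrank_map_prime_le (p M : ℕ) [NeZero p] (hp : p.Prime) (hM : M ≠ 0) :
    ((LL K M).map (qExpandAlgHomC K p)).relrank (LL K (p * M)) ≤
      ((if p ∣ M then p else p + 1 : ℕ) : Cardinal) := by
  rw [map_LL K p M hM]
  exact relrank_LLp_LL_le K p M hp hM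

/-- square step for `p ∤ N`: `[L_{p²N} : σ_{p²} L_N] ≤ (p+1) p`. -/
theorem relrank_map_prime_sq_le (p N : ℕ) [NeZero p] [NeZero (p * p)] (hp : p.Prime) (hN : N ≠ 0)
    (hpN : ¬ p ∣ N) :
    ((LL K N).map (qExpandAlgHomC K (p * p))).relrank (LL K (p * (p * N))) ≤
      (((p + 1) * p : ℕ) : Cardinal) := by
  have hpN0 : p * N ≠ 0 := Nat.mul_ne_zero hp.ne_zero hN
  set A := (LL K N).map (qExpandAlgHomC K (p * p)) with hA
  set B := (LL K (p * N)).map (qExpandAlgHomC K p) with hB
  set C := LL K (p * (p * N)) with hC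
  have hA' : A = ((LL K N).map (qExpandAlgHomC K p)).map (qExpandAlgHomC K p) := by
    rw [hA, map_map_qExpand]
  have hAB : A ≤ B := by
    rw [hA', hB]
    apply IntermediateField.map_mono
    rw [map_LL K p N hN]
    exact LLp_le_LL K p N
  have hBC : B ≤ C := by
    rw [hB, hC, map_LL K p (p * N) hpN0]
    exact LLp_le_LL K p (p * N)
  have e1 : A.relrank B ≤ ((p + 1 : ℕ) : Cardinal) := by
    rw [hA', hB, relrank_map_map]
    have := relrank_map_prime_le K p N hp hN
    rwa [if_neg hpN] at this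
  have e2 : B.relrank C ≤ ((p : ℕ) : Cardinal) := by
    have := relrank_map_prime_le K p (p * N) hp hpN0
    rwa [if_pos (dvd_mul_right p N)] at this
  calc A.relrank C = A.relrank B * B.relrank C := (relrank_mul_relrank hAB hBC).symm
    _ ≤ ((p + 1 : ℕ) : Cardinal) * ((p : ℕ) : Cardinal) := mul_le_mul' e1 e2
    _ = (((p + 1) * p : ℕ) : Cardinal) := by push_cast; rfl

end Degree

/-! ### Orders -/

section Order

variable {K : Type*} [Field K]

theorem order_qExpand (s : ℕ) [NeZero s] (f : LaurentSeries K) (hf : f ≠ 0) :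
    (qExpand K s f).order = (s : ℤ) * f.order := by
  have hy : qExpand K s f ≠ 0 := fun h => hf (qExpand_injective (R := K) s (by rw [h, map_zero]))
  have hs : (0 : ℤ) < s := by exact_mod_cast Nat.pos_of_ne_zero (NeZero.ne s)
  apply le_antisymm
  · apply HahnSeries.order_le_of_coeff_ne_zero
    rw [qExpand_coeff_mul]
    exact HahnSeries.coeff_order_eq_zero.not.mpr hf
  · have h1 := HahnSeries.coeff_order_eq_zero.not.mpr hy
    have h2 : (s : ℤ) ∣ (qExpand K s f).order := by
      by_contra h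
      exact h1 (qExpand_coeff_of_not_dvd s f h)
    obtain ⟨k, hk⟩ := h2
    rw [hk, qExpand_coeff_mul] at h1
    rw [hk]
    exact mul_le_mul_of_nonneg_left (HahnSeries.order_le_of_coeff_ne_zero h1) hs.le

end Order

/-! ### The descent over an algebraically closed field of characteristic zero -/

section Main

variable (K : Type) [Field K] [IsAlgClosed K] [CharZero K]

/-- the degree bound needed by `DescentQ99.exists_preimage_of_pow` in the four nontrivial cases -/
theorem exists_bound (N s : ℕ) [NeZero N] [NeZero s] (hpair : Spine33.DescentPair s N) (hs : s ≠ 1) :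
    ∃ d : ℕ, d < 2 * s ∧
      ((LL K N).map (qExpandAlgHomC K s)).relrank (LL K (s * N)) ≤ (d : Cardinal) := by
  have hN : N ≠ 0 := NeZero.ne N
  rcases hpair with h | ⟨rfl, h2⟩ | ⟨rfl, h2, h4⟩ | ⟨rfl, h3⟩ | ⟨rfl, h3, h9⟩
  · exact absurd h hs
  · refine ⟨6, by norm_num, ?_⟩
    have := relrank_map_prime_sq_le K 2 N Nat.prime_two hN h2
    have e : 2 * (2 * N) = 4 * N := by ring
    rw [e] at this
    exact this
  · refine ⟨2, by norm_num, ?_⟩
    have := relrank_map_prime_le K 2 N Nat.prime_two hN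
    rwa [if_pos h2] at this
  · refine ⟨12, by norm_num, ?_⟩
    have := relrank_map_prime_sq_le K 3 N Nat.prime_three hN h3
    have e : 3 * (3 * N) = 9 * N := by ring
    rw [e] at this
    exact this
  · refine ⟨3, by norm_num, ?_⟩
    have := relrank_map_prime_le K 3 N Nat.prime_three hN
    rwa [if_pos h3] at this

/-- **DESCENT** over `K`: an `m`-th root of `f(q^s)` in `F_{sN}` comes from an `m`-th root of `f`
in `F_N`. -/
theorem exists_root (N s : ℕ) [NeZero N] [NeZero s] [NeZero (s * N)]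
    (hpair : Spine33.DescentPair s N) (m : ℕ) (hm : 0 < m)
    (f : LaurentSeries K) (_hfN : f ∈ modularFunctionFieldFullC K N) (hf0 : f ≠ 0)
    (hord : (m : ℤ) ∣ f.order) (u : LaurentSeries K)
    (huM : u ∈ modularFunctionFieldFullC K (s * N)) (hum : u ^ m = qExpand K s f) :
    ∃ v ∈ modularFunctionFieldFullC K N, v ^ m = f := by
  by_cases hs : s = 1
  · subst hs
    refine ⟨u, ?_, ?_⟩
    · rw [← LL_eq] at huM ⊢
      rwa [one_mul] at huM
    · rw [hum, qExpand_one_apply]
  obtain ⟨d, hds, hd⟩ := exists_bound K N s hpair hs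
  have hmK : (m : K) ≠ 0 := by exact_mod_cast hm.ne'
  have hEF : (LL K N).map (qExpandAlgHomC K s) ≤ LL K (s * N) := by
    rw [map_LL K s N (NeZero.ne N)]
    exact LLp_le_LL K s N
  have hj : jqModC K ∈ LL K (s * N) := by
    rw [← tq_one]
    exact tq_mem_LL (one_dvd _)
  have huM' : u ∈ LL K (s * N) := by rw [LL_eq]; exact huM
  have hgm : u ^ m ∈ Set.range (qExpand K s) := ⟨f, hum.symm⟩
  have hordu : (s : ℤ) ∣ u.order := by
    obtain ⟨k, hk⟩ := hord
    have h1 : (u ^ m).order = (m : ℤ) * u.order := by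
      rw [HahnSeries.order_pow, nsmul_eq_mul]
    have h2 : (u ^ m).order = (s : ℤ) * f.order := by
      rw [hum, order_qExpand s f hf0]
    have h3 : (m : ℤ) * u.order = (m : ℤ) * ((s : ℤ) * k) := by
      rw [← h1, h2, hk]; ring
    have hm0 : (m : ℤ) ≠ 0 := by exact_mod_cast hm.ne'
    exact ⟨k, mul_left_cancel₀ hm0 h3⟩
  obtain ⟨g₀, hg₀, hg⟩ :=
    DescentQ99.exists_preimage_of_pow s hEF hd hds hj hmK u huM' hgm hordu
  refine ⟨g₀, by rw [← LL_eq]; exact hg₀, ?_⟩
  apply qExpand_injective (R := K) s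
  rw [map_pow, hg, hum]

end Main

/-! ### The spine statement -/

theorem descent : Spine33.DescentStatement := by
  intro N s _ _ hpair m hm f hf0 hord hu
  obtain ⟨u, huM, hum⟩ := hu
  have : NeZero (s * N) := ⟨Nat.mul_ne_zero (NeZero.ne s) (NeZero.ne N)⟩
  have hfN : (f : LaurentSeries Spine33.Kb) ∈ modularFunctionFieldFullC Spine33.Kb N := by
    rw [← BarFullC26.modularFunctionFieldBar_eq_fullC]
    exact f.2
  have hf0' : (f : LaurentSeries Spine33.Kb) ≠ 0 := fun h => hf0 (Subtype.ext h)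
  have huM' : u ∈ modularFunctionFieldFullC Spine33.Kb (s * N) := by
    rw [← BarFullC26.modularFunctionFieldBar_eq_fullC]
    exact huM
  obtain ⟨v, hvN, hv⟩ :=
    exists_root Spine33.Kb N s hpair m hm (f : LaurentSeries Spine33.Kb) hfN hf0' hord u huM' hum
  have hvN' : v ∈ modularFunctionFieldBar N := by
    rw [BarFullC26.modularFunctionFieldBar_eq_fullC]
    exact hvN
  exact ⟨⟨v, hvN'⟩, Subtype.ext hv⟩

end Fermat.Agent.S18.Descent26
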