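/-
S18 moonshot, package [CHAR0]-COUNT, numeric half (helper34).

Pure numerics on the Prelude's genus numerics: for levels `M` with `4 ∣ M` or `9 ∣ M`
the elliptic counts `nuTwo M`, `nuThree M` vanish; the small values
`dedekindPsi 4 = 6`, `dedekindPsi 9 = 12`, `cuspCount 4 = 3`, `cuspCount 9 = 4`.
-/
import Mathlib
import Fermat.Prelude.Def_ModularCurve_GenusNumerics

set_option autoImplicit false

namespace Fermat.Agent.S18.Char0Num34

open ModularCurve

lemma no_root_sq_add_one_four : ∀ y : ZMod 4, ¬ (y ^ 2 + 1 = 0) := by decide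

lemma no_root_sq_add_one_three : ∀ y : ZMod 3, ¬ (y ^ 2 + 1 = 0) := by decide

lemma no_root_cyclo_two : ∀ y : ZMod 2, ¬ (y ^ 2 + y + 1 = 0) := by decide

lemma no_root_cyclo_nine : ∀ y : ZMod 9, ¬ (y ^ 2 + y + 1 = 0) := by decide

/-- `x² + 1` has no root in `ZMod M` when some `d ∣ M` has none. -/
lemma nuTwo_eq_zero_of_dvd {M d : ℕ} (hd : d ∣ M)
    (h : ∀ y : ZMod d, ¬ (y ^ 2 + 1 = 0)) : nuTwo M = 0 := by
  unfold nuTwo
  have : IsEmpty {x : ZMod M // x ^ 2 + 1 = 0} := by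
    refine ⟨fun x => h (ZMod.castHom hd (ZMod d) x.1) ?_⟩
    have h2 := congrArg (ZMod.castHom hd (ZMod d)) x.2
    rw [map_add, map_pow, map_one, map_zero] at h2
    exact h2
  exact Nat.card_of_isEmpty

lemma nuThree_eq_zero_of_dvd {M d : ℕ} (hd : d ∣ M)
    (h : ∀ y : ZMod d, ¬ (y ^ 2 + y + 1 = 0)) : nuThree M = 0 := by
  unfold nuThree
  have : IsEmpty {x : ZMod M // x ^ 2 + x + 1 = 0} := by
    refine ⟨fun x => h (ZMod.castHom hd (ZMod d) x.1) ?_⟩
    have h2 := congrArg (ZMod.castHom hd (ZMod d)) x.2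
    rw [map_add, map_add, map_pow, map_one, map_zero] at h2
    exact h2
  exact Nat.card_of_isEmpty

/-- `ν₂(M) = 0` if `4 ∣ M` or `9 ∣ M`. -/
theorem nuTwo_eq_zero {M : ℕ} (h : 4 ∣ M ∨ 9 ∣ M) : nuTwo M = 0 := by
  rcases h with h | h
  · exact nuTwo_eq_zero_of_dvd h no_root_sq_add_one_four
  · exact nuTwo_eq_zero_of_dvd (Dvd.dvd.trans (by norm_num : 3 ∣ 9) h) no_root_sq_add_one_three

/-- `ν₃(M) = 0` if `4 ∣ M` or `9 ∣ M`. -/
theorem nuThree_eq_zero {M : ℕ} (h : 4 ∣ M ∨ 9 ∣ M) : nuThree M = 0 := by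
  rcases h with h | h
  · exact nuThree_eq_zero_of_dvd (Dvd.dvd.trans (by norm_num : 2 ∣ 4) h) no_root_cyclo_two
  · exact nuThree_eq_zero_of_dvd h no_root_cyclo_nine

theorem dedekindPsi_four : dedekindPsi 4 = 6 := by
  unfold dedekindPsi
  have h : (Nat.divisors 4) = {1, 2, 4} := by decide
  rw [h, Finset.sum_filter]
  have h4 : ¬ Squarefree (4 : ℕ) := by
    rw [Nat.squarefree_iff_prime_squarefree]
    intro hh
    exact hh 2 Nat.prime_two (by norm_num)
  have h2 : Squarefree (2 : ℕ) := Nat.prime_two.squarefree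
  simp [h4, h2]

theorem dedekindPsi_nine : dedekindPsi 9 = 12 := by
  unfold dedekindPsi
  have h : (Nat.divisors 9) = {1, 3, 9} := by decide
  rw [h, Finset.sum_filter]
  have h9 : ¬ Squarefree (9 : ℕ) := by
    rw [Nat.squarefree_iff_prime_squarefree]
    intro hh
    exact hh 3 Nat.prime_three (by norm_num)
  have h3 : Squarefree (3 : ℕ) := Nat.prime_three.squarefree
  simp [h9, h3]

theorem cuspCount_four : cuspCount 4 = 3 := by
  unfold cuspCount
  have h : (Nat.divisors 4) = {1, 2, 4} := by decide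
  rw [h]
  simp

theorem cuspCount_nine : cuspCount 9 = 4 := by
  unfold cuspCount
  have h : (Nat.divisors 9) = {1, 3, 9} := by decide
  rw [h]
  simp [Nat.totient_prime Nat.prime_three]

end Fermat.Agent.S18.Char0Num34
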