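import Mathlib
import Fermat.Agent.S28.SubstInterface
import Fermat.Agent.S28.ModEq
import Fermat.Agent.S28.KEY0
import Fermat.Agent.S28.KeyLowerMain

/-!
# S18 / [CUSP-LITE] (C-BASE), concrete half: the embeddings of `F̄_{p²}` into `k((q))`

`k` algebraically closed, `p` prime with `(p : k) ≠ 0`, `F₂ = modularFunctionFieldFullC k (p * p)
= k(t, t_p, t_{p²})`, `F₁ = k(t, t_p)`.  The minimal polynomial of `t_{p²}` over `F₁` is
`Ψ = Φ_p(X, t_p) / (X - t)` (degree `p`), whose roots in `k((q))` are `t_{p²}` and the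
`t(ζ^b q)`, `1 ≤ b < p`.  This gives `p` embeddings of `F₂` into `k((q))` over `F₁`.
-/

set_option autoImplicit false

noncomputable section

open IntermediateField Polynomial

namespace Fermat.Agent.S18.CuspBase81

/-! ### A general extension lemma -/

section General

variable {k Ω : Type*} [Field k] [Field Ω] [Algebra k Ω]

/-- If `E₂ = E₁(α)` inside `Ω`, `α` is integral over `E₁` and `β ∈ Ω` is a root of the minimal
polynomial of `α` over `E₁`, then there is a `k`-embedding `E₂ → Ω` which is the identity on `E₁`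
and sends `α` to `β`. -/
theorem exists_algHom_of_root (E₁ E₂ : IntermediateField k Ω) (α : Ω) (h : E₂ = E₁ ⊔ k⟮α⟯)
    (hα : IsIntegral E₁ α) (β : Ω) (hβ : aeval β (minpoly E₁ α) = 0) :
    ∃ φ : E₂ →ₐ[k] Ω, (∀ x : E₂, (x : Ω) ∈ E₁ → φ x = x) ∧ (∀ x : E₂, (x : Ω) = α → φ x = β) := by
  have hβ' : β ∈ (minpoly E₁ α).aroots Ω := by
    rw [mem_aroots]
    exact ⟨minpoly.ne_zero hα, hβ⟩
  set τ : E₁⟮α⟯ →ₐ[E₁] Ω := (algHomAdjoinIntegralEquiv E₁ hα).symm ⟨β, hβ'⟩ with hτ
  have hτgen : τ (AdjoinSimple.gen E₁ α) = β := by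
    rw [hτ, algHomAdjoinIntegralEquiv_symm_apply_gen]
  have hE : E₂ = (E₁⟮α⟯).restrictScalars k := by
    rw [h, restrictScalars_adjoin_eq_sup]
  have hmem : ∀ x : E₂, (x : Ω) ∈ E₁⟮α⟯ := by
    intro x
    have h2 : (x : Ω) ∈ (E₁⟮α⟯).restrictScalars k := hE ▸ x.2
    exact h2
  refine ⟨{ toFun := fun x => τ ⟨x.1, hmem x⟩
            map_one' := ?_
            map_mul' := ?_
            map_zero' := ?_
            map_add' := ?_
            commutes' := ?_ }, ?_, ?_⟩
  · exact map_one τ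
  · intro x y
    rw [← map_mul]
    rfl
  · exact map_zero τ
  · intro x y
    rw [← map_add]
    rfl
  · intro c
    have h1 : (⟨((algebraMap k E₂ c : E₂) : Ω), hmem _⟩ : E₁⟮α⟯)
        = algebraMap E₁ E₁⟮α⟯ (algebraMap k E₁ c) := rfl
    show τ ⟨((algebraMap k E₂ c : E₂) : Ω), hmem _⟩ = algebraMap k Ω c
    rw [h1, τ.commutes]
    rfl
  · intro x hx
    have h1 : (⟨(x : Ω), hmem x⟩ : E₁⟮α⟯) = algebraMap E₁ E₁⟮α⟯ ⟨x, hx⟩ := rfl
    show τ ⟨(x : Ω), hmem x⟩ = x
    rw [h1, τ.commutes]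
    rfl
  · intro x hx
    have h1 : (⟨(x : Ω), hmem x⟩ : E₁⟮α⟯) = AdjoinSimple.gen E₁ α := by
      apply Subtype.ext
      rw [AdjoinSimple.coe_gen]
      exact hx
    show τ ⟨(x : Ω), hmem x⟩ = β
    rw [h1, hτgen]

end General

/-! ### Orders of Laurent series -/

section Orders

open HahnSeries

variable {k : Type*} [Field k]

theorem order_eq_of_leads {x : LaurentSeries k} {n : ℤ} (h1 : ∀ m : ℤ, m < n → x.coeff m = 0)
    (h2 : x.coeff n ≠ 0) : x.order = n := by
  have hx : x ≠ 0 := by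
    rintro rfl
    exact h2 (HahnSeries.coeff_zero)
  apply le_antisymm (HahnSeries.order_le_of_coeff_ne_zero h2)
  by_contra hlt
  rw [not_le] at hlt
  exact hx (HahnSeries.coeff_order_eq_zero.mp (h1 _ hlt))

theorem zero_le_order_of_coeff {x : LaurentSeries k} (h1 : ∀ m : ℤ, m < 0 → x.coeff m = 0) :
    0 ≤ x.order := by
  by_cases hx : x = 0
  · rw [hx, HahnSeries.order_zero]
  · by_contra hlt
    rw [not_le] at hlt
    exact hx (HahnSeries.coeff_order_eq_zero.mp (h1 _ hlt))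

theorem order_inv' {x : LaurentSeries k} (hx : x ≠ 0) : (x⁻¹).order = -x.order := by
  have h := HahnSeries.order_mul hx (inv_ne_zero hx)
  rw [mul_inv_cancel₀ hx, HahnSeries.order_one] at h
  linarith

end Orders

/-! ### The concrete setting -/

section Concrete

open HahnSeries ModularCurve
open Fermat.Agent.S28 Fermat.Agent.S28.KEY0

variable (k : Type) [Field k] (p : ℕ) [NeZero p]

/-- ROOTS, in `PhiAt` form. -/
theorem roots_PhiAt (D : ModEqData p) (ζ : kˣ) (hζ : (cyclotomic p k).IsRoot (ζ : k)) :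
    PhiAt D.Phi (tq k p) =
      (X - Polynomial.C (tq k (p * p))) *
        ∏ b ∈ Finset.range p, (X - Polynomial.C (twist (ζ ^ b) (jqModC k))) := by
  have : NeZero (p * p) := ⟨Nat.mul_ne_zero (NeZero.ne p) (NeZero.ne p)⟩
  rw [tq_eq, tq_eq]
  exact D.roots k ζ hζ

theorem eval_t (D : ModEqData p) (ζ : kˣ) (hζ : (cyclotomic p k).IsRoot (ζ : k)) :
    (PhiAt D.Phi (tq k p)).eval (jqModC k) = 0 := by
  rw [roots_PhiAt k p D ζ hζ, eval_mul, eval_prod]
  apply mul_eq_zero_of_right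
  apply Finset.prod_eq_zero (Finset.mem_range.mpr (Nat.pos_of_ne_zero (NeZero.ne p)))
  rw [pow_zero, twist_one]
  simp

theorem eval_tpp (D : ModEqData p) (ζ : kˣ) (hζ : (cyclotomic p k).IsRoot (ζ : k)) :
    (PhiAt D.Phi (tq k p)).eval (tq k (p * p)) = 0 := by
  rw [roots_PhiAt k p D ζ hζ, eval_mul]
  apply mul_eq_zero_of_left
  simp

theorem eval_tp_t (D : ModEqData p) (ζ : kˣ) (hζ : (cyclotomic p k).IsRoot (ζ : k)) :
    (PhiAt D.Phi (jqModC k)).eval (tq k p) = 0 := by
  apply qExpand_injective (R := k) p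
  rw [map_eval_PhiAt, map_zero, ← tq_eq, qExpand_tq k p p (NeZero.ne p)]
  exact eval_tpp k p D ζ hζ

theorem LL_prime (hp : p.Prime) : LL k p = k⟮jqModC k⟯ ⊔ k⟮tq k p⟯ := by
  apply le_antisymm
  · unfold LL
    rw [adjoin_le_iff]
    rintro x ⟨d, hd, rfl⟩
    rcases (Nat.dvd_prime hp).mp hd with h | h
    · rw [h, tq_one]
      exact (le_sup_left : k⟮jqModC k⟯ ≤ _) (mem_adjoin_simple_self k _)
    · rw [h]
      exact (le_sup_right : k⟮tq k p⟯ ≤ _) (mem_adjoin_simple_self k _)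
  · apply sup_le
    · rw [adjoin_simple_le_iff, ← tq_one]
      exact tq_mem_LL (one_dvd _)
    · rw [adjoin_simple_le_iff]
      exact tq_mem_LL dvd_rfl

theorem LL_le_LL_sq : LL k p ≤ LL k (p * p) := by
  unfold LL
  apply adjoin.mono
  rintro x ⟨d, hd, rfl⟩
  exact ⟨d, hd.trans (dvd_mul_right p p), rfl⟩

theorem LL_prime_sq (hp : p.Prime) : LL k (p * p) = LL k p ⊔ k⟮tq k (p * p)⟯ := by
  apply le_antisymm
  · unfold LL
    rw [adjoin_le_iff]
    rintro x ⟨d, hd, rfl⟩
    rw [← sq] at hd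
    obtain ⟨m, hm, rfl⟩ := (Nat.dvd_prime_pow hp).mp hd
    interval_cases m
    · rw [pow_zero]
      exact (le_sup_left : adjoin k _ ≤ _) (subset_adjoin k _ ⟨1, one_dvd p, rfl⟩)
    · rw [pow_one]
      exact (le_sup_left : adjoin k _ ≤ _) (subset_adjoin k _ ⟨p, dvd_rfl, rfl⟩)
    · rw [sq]
      exact (le_sup_right : k⟮tq k (p * p)⟯ ≤ _) (mem_adjoin_simple_self k _)
  · apply sup_le (LL_le_LL_sq k p)
    rw [adjoin_simple_le_iff]
    exact tq_mem_LL dvd_rfl

theorem t_mem_LL : jqModC k ∈ LL k p := by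
  rw [← tq_one]
  exact tq_mem_LL (one_dvd p)

theorem isIntegral_tpp (D : ModEqData p) (ζ : kˣ) (hζ : (cyclotomic p k).IsRoot (ζ : k)) :
    IsIntegral (LL k p) (tq k (p * p)) := by
  refine ⟨PhiE (LL k p) D.Phi ⟨tq k p, tq_mem_LL dvd_rfl⟩, PhiE_monic _ D.monic _, ?_⟩
  rw [← aeval_def, aeval_PhiE]
  exact eval_tpp k p D ζ hζ

theorem dedekindPsi_prime_sq (hp : p.Prime) : ModularCurve.dedekindPsi (p * p) = p * (p + 1) := by
  rw [Fermat.Agent.S28.Psi.dedekindPsi_mul_of_dvd hp hp.ne_zero dvd_rfl]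
  have h1 := Fermat.Agent.S28.Psi.dedekindPsi_mul_of_not_dvd (p := p) (M := 1) hp one_ne_zero
    (by simpa using hp.one_lt.ne')
  rw [mul_one, dedekindPsi_one, mul_one] at h1
  rw [h1]

/-- `p ≤ [F₂ : F₁]`, from KEYL (lower bound `ψ(p²) ≤ [F₂ : k(t)]`) and `[F₁ : k(t)] ≤ p + 1`. -/
theorem le_natDegree_minpoly (hD : ModEqStatement) [IsAlgClosed k] (hp : p.Prime)
    (hpk : (p : k) ≠ 0) (D : ModEqData p) (ζ : kˣ) (hζ : (cyclotomic p k).IsRoot (ζ : k)) :
    p ≤ (minpoly (LL k p) (tq k (p * p))).natDegree := by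
  have : NeZero (p * p) := ⟨Nat.mul_ne_zero (NeZero.ne p) (NeZero.ne p)⟩
  set A : IntermediateField k (LaurentSeries k) := k⟮jqModC k⟯ with hA
  have hAB : A ≤ LL k p := by
    rw [hA, adjoin_simple_le_iff]
    exact t_mem_LL k p
  have hBC : LL k p ≤ LL k (p * p) := LL_le_LL_sq k p
  have h1 := relrank_mul_relrank hAB hBC
  have h2 : A.relrank (LL k p) ≤ ((p + 1 : ℕ) : Cardinal) := by
    rw [LL_prime k p hp]
    have ht : jqModC k ∈ A := mem_adjoin_simple_self k _
    have := relrank_sup_simple_le A (tq k p) (PhiE A D.Phi ⟨jqModC k, ht⟩)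
      (PhiE_monic A D.monic _) (by rw [aeval_PhiE]; exact eval_tp_t k p D ζ hζ)
    rwa [PhiE_natDegree A D.monic, D.natDegree_eq] at this
  have h3 : (LL k p).relrank (LL k (p * p))
      = ((minpoly (LL k p) (tq k (p * p))).natDegree : Cardinal) := by
    rw [LL_prime_sq k p hp]
    exact Fermat.Agent.S28.KeyLower.relrank_sup_adjoin_simple (LL k p) (isIntegral_tpp k p D ζ hζ)
  have hNK : ((p * p : ℕ) : k) ≠ 0 := by
    push_cast
    exact mul_ne_zero hpk hpk
  have h4 := Fermat.Agent.S28.KeyLower.keyLower_algClosed hD k (p * p) hNK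
  rw [← LL_eq k (p * p), dedekindPsi_prime_sq p hp] at h4
  have h5 : ((p * (p + 1) : ℕ) : Cardinal)
      ≤ ((p + 1 : ℕ) : Cardinal) * ((minpoly (LL k p) (tq k (p * p))).natDegree : Cardinal) := by
    calc ((p * (p + 1) : ℕ) : Cardinal) ≤ A.relrank (LL k (p * p)) := h4
      _ = A.relrank (LL k p) * (LL k p).relrank (LL k (p * p)) := h1.symm
      _ ≤ ((p + 1 : ℕ) : Cardinal) * (LL k p).relrank (LL k (p * p)) := mul_le_mul' h2 le_rfl
      _ = _ := by rw [h3]
  have h6 : p * (p + 1) ≤ (p + 1) * (minpoly (LL k p) (tq k (p * p))).natDegree := by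
    exact_mod_cast h5
  rw [mul_comm p (p + 1)] at h6
  exact Nat.le_of_mul_le_mul_left h6 (Nat.succ_pos p)

/-- The minimal polynomial of `t_{p²}` over `F₁ = k(t, t_p)`, mapped to `k((q))[X]`, is
`(X - t_{p²}) ∏_{0 < b < p} (X - t(ζ^b q))`. -/
theorem map_minpoly_eq (hD : ModEqStatement) [IsAlgClosed k] (hp : p.Prime)
    (hpk : (p : k) ≠ 0) (D : ModEqData p) (ζ : kˣ) (hζ : (cyclotomic p k).IsRoot (ζ : k)) :
    (minpoly (LL k p) (tq k (p * p))).map (algebraMap (LL k p) (LaurentSeries k)) =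
      (X - Polynomial.C (tq k (p * p))) *
        ∏ b ∈ (Finset.range p).erase 0, (X - Polynomial.C (twist (ζ ^ b) (jqModC k))) := by
  set B := LL k p with hB
  set y₁ : B := ⟨tq k p, tq_mem_LL dvd_rfl⟩ with hy₁
  set a₁ : B := ⟨jqModC k, t_mem_LL k p⟩ with ha₁
  set P := PhiE B D.Phi y₁ with hP
  have hPm : P.Monic := PhiE_monic B D.monic _
  have hPd : P.natDegree = p + 1 := by rw [hP, PhiE_natDegree B D.monic, D.natDegree_eq]
  have hroot : P.IsRoot a₁ := by
    rw [Polynomial.IsRoot.def]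
    apply (algebraMap B (LaurentSeries k)).injective
    rw [map_zero, ← Polynomial.eval₂_hom, ← Polynomial.eval_map, map_PhiE]
    exact eval_t k p D ζ hζ
  set Q := P /ₘ (X - Polynomial.C a₁) with hQ
  have hmul : (X - Polynomial.C a₁) * Q = P := Polynomial.mul_divByMonic_eq_iff_isRoot.mpr hroot
  have hQm : Q.Monic :=
    (Polynomial.monic_X_sub_C a₁).of_mul_monic_left (by rw [hmul]; exact hPm)
  have hQd : Q.natDegree = p := by
    rw [hQ, Polynomial.natDegree_divByMonic _ (Polynomial.monic_X_sub_C a₁), hPd,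
      Polynomial.natDegree_X_sub_C]
    rfl
  have hQmap : Q.map (algebraMap B (LaurentSeries k)) =
      (X - Polynomial.C (tq k (p * p))) *
        ∏ b ∈ (Finset.range p).erase 0, (X - Polynomial.C (twist (ζ ^ b) (jqModC k))) := by
    have h := congrArg (Polynomial.map (algebraMap B (LaurentSeries k))) hmul
    rw [Polynomial.map_mul, Polynomial.map_sub, Polynomial.map_X, Polynomial.map_C, map_PhiE,
      roots_PhiAt k p D ζ hζ,
      ← Finset.mul_prod_erase (Finset.range p) _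
        (Finset.mem_range.mpr (Nat.pos_of_ne_zero (NeZero.ne p))), pow_zero, twist_one] at h
    have h0 : (algebraMap B (LaurentSeries k)) a₁ = jqModC k := rfl
    rw [h0] at h
    apply mul_left_cancel₀ (Polynomial.X_sub_C_ne_zero (jqModC k))
    rw [h]
    ring
  have hQroot : aeval (tq k (p * p)) Q = 0 := by
    rw [aeval_def, eval₂_eq_eval_map, hQmap, eval_mul]
    apply mul_eq_zero_of_left
    simp
  have hint := isIntegral_tpp k p D ζ hζ
  have hdvd : minpoly B (tq k (p * p)) ∣ Q := minpoly.dvd B _ hQroot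
  have heq : Q = minpoly B (tq k (p * p)) :=
    Polynomial.eq_of_monic_of_dvd_of_natDegree_le (minpoly.monic hint) hQm hdvd
      (by rw [hQd]; exact le_natDegree_minpoly k p hD hp hpk D ζ hζ)
  rw [← heq, hQmap]

/-- The `b`-th embedding of `F₂ = k(t, t_p, t_{p²})` over `F₁ = k(t, t_p)`:
`t_{p²} ↦ t_{p²}` for `b = 0` and `t_{p²} ↦ t(ζ^b q)` for `0 < b < p`. -/
theorem exists_emb (hD : ModEqStatement) [IsAlgClosed k] (hp : p.Prime)
    (hpk : (p : k) ≠ 0) (D : ModEqData p) (ζ : kˣ) (hζ : (cyclotomic p k).IsRoot (ζ : k))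
    (b : ℕ) (hb : b < p) :
    ∃ φ : LL k (p * p) →ₐ[k] LaurentSeries k,
      (∀ x : LL k (p * p), (x : LaurentSeries k) ∈ LL k p → φ x = x) ∧
      (∀ x : LL k (p * p), (x : LaurentSeries k) = tq k (p * p) →
        φ x = if b = 0 then tq k (p * p) else twist (ζ ^ b) (jqModC k)) := by
  apply exists_algHom_of_root (LL k p) (LL k (p * p)) (tq k (p * p)) (LL_prime_sq k p hp)
    (isIntegral_tpp k p D ζ hζ)
  rw [aeval_def, eval₂_eq_eval_map, map_minpoly_eq k p hD hp hpk D ζ hζ, eval_mul]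
  split_ifs with h0
  · apply mul_eq_zero_of_left
    simp
  · apply mul_eq_zero_of_right
    rw [eval_prod]
    apply Finset.prod_eq_zero (Finset.mem_erase.mpr ⟨h0, Finset.mem_range.mpr hb⟩)
    simp

/-! ### Orders of the generators and separation -/

theorem order_jqModC : (jqModC k).order = -1 := by
  apply order_eq_of_leads
  · intro m hm
    exact coeff_jqModC_of_lt k hm
  · rw [coeff_jqModC_neg_one]
    exact one_ne_zero

theorem order_tq (d : ℕ) (hd : d ≠ 0) : (tq k d).order = -(d : ℤ) := by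
  have h := leadsAt_tq k d hd
  apply order_eq_of_leads h.1
  rw [h.2]
  exact one_ne_zero

theorem coeff_twist_jq_neg_one (c : kˣ) : (twist c (jqModC k)).coeff (-1) = ((c⁻¹ : kˣ) : k) := by
  rw [twist_coeff, coeff_jqModC_neg_one, mul_one, zpow_neg_one]

theorem coeff_twist_jq_of_lt (c : kˣ) {m : ℤ} (hm : m < -1) : (twist c (jqModC k)).coeff m = 0 := by
  rw [twist_coeff, coeff_jqModC_of_lt k hm, mul_zero]

theorem order_twist_jq (c : kˣ) : (twist c (jqModC k)).order = -1 := by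
  apply order_eq_of_leads
  · intro m hm
    exact coeff_twist_jq_of_lt k c hm
  · rw [coeff_twist_jq_neg_one]
    exact Units.ne_zero _

theorem tq_ne_zero (d : ℕ) (hd : d ≠ 0) : tq k d ≠ 0 := by
  intro h
  have h2 := (leadsAt_tq k d hd).2
  rw [h, HahnSeries.coeff_zero] at h2
  exact one_ne_zero h2.symm

theorem twist_jq_ne_zero (c : kˣ) : twist c (jqModC k) ≠ 0 := by
  intro h
  have h2 := coeff_twist_jq_neg_one k c
  rw [h, HahnSeries.coeff_zero] at h2
  exact Units.ne_zero _ h2.symm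

/-- The target of `t_{p²}` under the `b`-th embedding. -/
def target (ζ : kˣ) (b : ℕ) : LaurentSeries k :=
  if b = 0 then tq k (p * p) else twist (ζ ^ b) (jqModC k)

theorem target_ne_zero (ζ : kˣ) (b : ℕ) : target k p ζ b ≠ 0 := by
  unfold target
  split_ifs
  · exact tq_ne_zero k _ (Nat.mul_ne_zero (NeZero.ne p) (NeZero.ne p))
  · exact twist_jq_ne_zero k _

theorem order_target_zero (ζ : kˣ) : (target k p ζ 0).order = -((p * p : ℕ) : ℤ) := by
  unfold target
  rw [if_pos rfl]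
  exact order_tq k _ (Nat.mul_ne_zero (NeZero.ne p) (NeZero.ne p))

theorem order_target_pos (ζ : kˣ) {b : ℕ} (hb : b ≠ 0) : (target k p ζ b).order = -1 := by
  unfold target
  rw [if_neg hb]
  exact order_twist_jq k _

/-- Separation of the `p` embeddings, stated on the values of the three generators.  For
`i ≠ j < p` there are `e₁ e₂ : ℤ`-exponent patterns... here in explicit form: an element
`u = f(t, t_p, t_{p²})` with `f` one of three explicit shapes. -/
theorem separation (hp : p.Prime) (ζ : kˣ) (hprim : IsPrimitiveRoot ζ p)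
    {Fld : Type*} [Field Fld] [Algebra k Fld]
    (yt ytp ytpp : Fld) (σ τ : Fld →ₐ[k] LaurentSeries k) {i j : ℕ} (hi : i < p) (hj : j < p)
    (hij : i ≠ j)
    (hσt : σ yt = jqModC k) (hσtp : σ ytp = tq k p) (hσtpp : σ ytpp = target k p ζ i)
    (hτt : τ yt = jqModC k) (hτtp : τ ytp = tq k p) (hτtpp : τ ytpp = target k p ζ j) :
    ∃ u : Fld, 0 ≤ (σ u).order ∧ (τ u).order < 0 := by
  have hp2 : (2 : ℤ) ≤ p := by exact_mod_cast hp.two_le
  have hpp : (p : ℤ) * 2 ≤ ((p * p : ℕ) : ℤ) := by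
    push_cast
    nlinarith
  have htp0 : tq k p ≠ 0 := tq_ne_zero k p hp.ne_zero
  have hotp : (tq k p).order = -(p : ℤ) := order_tq k p hp.ne_zero
  by_cases hi0 : i = 0
  · -- `i = 0`, `j ≠ 0`: `u = t_p / t_{p²}`
    have hj0 : j ≠ 0 := fun h => hij (hi0.trans h.symm)
    refine ⟨ytp * ytpp⁻¹, ?_, ?_⟩
    · rw [map_mul, map_inv₀, hσtp, hσtpp, HahnSeries.order_mul htp0
        (inv_ne_zero (target_ne_zero k p ζ i)), order_inv' (target_ne_zero k p ζ i), hotp, hi0,
        order_target_zero]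
      linarith
    · rw [map_mul, map_inv₀, hτtp, hτtpp, HahnSeries.order_mul htp0
        (inv_ne_zero (target_ne_zero k p ζ j)), order_inv' (target_ne_zero k p ζ j), hotp,
        order_target_pos k p ζ hj0]
      linarith
  · by_cases hj0 : j = 0
    · -- `i ≠ 0`, `j = 0`: `u = t_{p²} / t_p`
      refine ⟨ytpp * ytp⁻¹, ?_, ?_⟩
      · rw [map_mul, map_inv₀, hσtp, hσtpp, HahnSeries.order_mul (target_ne_zero k p ζ i)
          (inv_ne_zero htp0), order_inv' htp0, hotp, order_target_pos k p ζ hi0]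
        linarith
      · rw [map_mul, map_inv₀, hτtp, hτtpp, HahnSeries.order_mul (target_ne_zero k p ζ j)
          (inv_ne_zero htp0), order_inv' htp0, hotp, hj0, order_target_zero]
        linarith
    · -- `i, j ≠ 0`: `u = t_{p²} - ζ^{-i} t`
      set c : k := (((ζ ^ i)⁻¹ : kˣ) : k) with hc
      refine ⟨ytpp - algebraMap k Fld c * yt, ?_, ?_⟩
      · rw [map_sub, map_mul, AlgHom.commutes, hσt, hσtpp, target, if_neg hi0]
        apply zero_le_order_of_coeff
        intro m hm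
        rw [HahnSeries.coeff_sub, algebraMap_laurentSeries_eq_single,
          HahnSeries.coeff_single_zero_mul]
        rcases lt_or_eq_of_le (show m ≤ -1 by omega) with h | h
        · rw [coeff_twist_jq_of_lt k _ h, coeff_jqModC_of_lt k h]
          simp
        · rw [h, coeff_twist_jq_neg_one, coeff_jqModC_neg_one, hc]
          simp
      · rw [map_sub, map_mul, AlgHom.commutes, hτt, hτtpp, target, if_neg hj0]
        have hne : (twist (ζ ^ j) (jqModC k)
            - algebraMap k (LaurentSeries k) c * jqModC k).coeff (-1) ≠ 0 := by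
          rw [HahnSeries.coeff_sub, algebraMap_laurentSeries_eq_single,
            HahnSeries.coeff_single_zero_mul, coeff_twist_jq_neg_one,
            coeff_jqModC_neg_one, hc, mul_one, sub_ne_zero]
          intro h
          have h2 : (ζ ^ j)⁻¹ = (ζ ^ i)⁻¹ := Units.ext h
          have h3 : ζ ^ j = ζ ^ i := inv_injective h2
          exact hij (hprim.pow_inj hj hi h3).symm
        have := HahnSeries.order_le_of_coeff_ne_zero hne
        omega

end Concrete

/-! ### Final form -/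

section Final

open HahnSeries ModularCurve
open Fermat.Agent.S28 Fermat.Agent.S28.KEY0

/-- **(C-BASE), concrete half, detailed form** (in the `KEY0` model `LL k (p * p)` of
`modularFunctionFieldFullC k (p * p)`): for `k` algebraically closed and `(p : k) ≠ 0` there are a
primitive `p`-th root of unity `ζ` and `p` embeddings `σ b : k(t, t_p, t_{p²}) → k((q))` which are
the identity on `k(t, t_p)`, with `σ 0 t_{p²} = t_{p²}` and `σ b t_{p²} = t(ζ^b q)` for
`0 < b < p`; they are pairwise separated. -/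
theorem exists_embeddings_LL (hD : ModEqStatement) (k : Type) [Field k] [IsAlgClosed k] (p : ℕ)
    (hp : p.Prime) (hpk : (p : k) ≠ 0) :
    ∃ ζ : kˣ, IsPrimitiveRoot ζ p ∧
    ∃ σ : Fin p → (LL k (p * p) →ₐ[k] LaurentSeries k),
      (∀ i, ∀ x : LL k (p * p), (x : LaurentSeries k) ∈ LL k p → σ i x = x) ∧
      (∀ i, ∀ x : LL k (p * p), (x : LaurentSeries k) = tq k (p * p) →
        σ i x = if (i : ℕ) = 0 then tq k (p * p) else twist (ζ ^ (i : ℕ)) (jqModC k)) ∧
      (∀ i j, i ≠ j → ∃ u : LL k (p * p), 0 ≤ (σ i u).order ∧ (σ j u).order < 0) := by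
  have : NeZero p := ⟨hp.ne_zero⟩
  obtain ⟨ζ, hprim, hζ⟩ := Fermat.Agent.S28.KeyLower.exists_zeta k p hp.pos hpk
  obtain ⟨D⟩ := hD p hp
  refine ⟨ζ, hprim, ?_⟩
  choose σ h1 h2 using fun b : Fin p => exists_emb k p hD hp hpk D ζ hζ b.1 b.2
  refine ⟨σ, h1, h2, ?_⟩
  intro i j hij
  have ht : jqModC k ∈ LL k (p * p) := LL_le_LL_sq k p (t_mem_LL k p)
  have htp : tq k p ∈ LL k (p * p) := tq_mem_LL (dvd_mul_right p p)
  have htpp : tq k (p * p) ∈ LL k (p * p) := tq_mem_LL dvd_rfl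
  exact separation k p hp ζ hprim (⟨jqModC k, ht⟩ : LL k (p * p)) ⟨tq k p, htp⟩
    ⟨tq k (p * p), htpp⟩ (σ i) (σ j) i.2 j.2 (Fin.val_ne_of_ne hij)
    (h1 i _ (t_mem_LL k p)) (h1 i _ (tq_mem_LL dvd_rfl)) (h2 i _ rfl)
    (h1 j _ (t_mem_LL k p)) (h1 j _ (tq_mem_LL dvd_rfl)) (h2 j _ rfl)

/-- **(C-BASE), concrete half**, in the shape consumed by `CuspBaseAbs78`
(`σ`, `hord`, `hsep`): `p` pairwise separated `k`-embeddings of
`F̄_{p²} = modularFunctionFieldFullC k N`, `N = p * p`, into `k((q))`, all fixing `t = jqModC k`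
(so `(σ i t).order = -1`). -/
theorem exists_embeddings (hD : ModEqStatement) (k : Type) [Field k] [IsAlgClosed k] (p : ℕ)
    (hp : p.Prime) (hpk : (p : k) ≠ 0) (N : ℕ) [NeZero N] (hN : N = p * p) :
    ∃ σ : Fin p → (modularFunctionFieldFullC k N →ₐ[k] LaurentSeries k),
      (∀ i, ∀ x : modularFunctionFieldFullC k N, (x : LaurentSeries k) = jqModC k →
        σ i x = jqModC k) ∧
      (∀ i, ∀ x : modularFunctionFieldFullC k N, (x : LaurentSeries k) = jqModC k →
        (σ i x).order = -1) ∧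
      (∀ i j, i ≠ j → ∃ u : modularFunctionFieldFullC k N,
        0 ≤ (σ i u).order ∧ (σ j u).order < 0) := by
  subst hN
  have : NeZero p := ⟨hp.ne_zero⟩
  rw [← LL_eq k (p * p)]
  obtain ⟨ζ, -, σ, h1, -, h3⟩ := exists_embeddings_LL hD k p hp hpk
  have key : ∀ i, ∀ x : LL k (p * p), (x : LaurentSeries k) = jqModC k → σ i x = jqModC k := by
    intro i x hx
    rw [h1 i x (by rw [hx]; exact t_mem_LL k p), hx]
  refine ⟨σ, key, ?_, h3⟩
  intro i x hx
  rw [key i x hx]
  exact order_jqModC k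

end Final

end Fermat.Agent.S18.CuspBase81
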