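/-
S18 / [SEP] (helper72): standalone SEPARABILITY of `F̄_M = modularFunctionFieldFullC k M` over `k(t)`,
`t = jqModC k`, for ANY field `k` (of type `Type`) with `(M : k) ≠ 0`.

This is the hypothesis `[Algebra.IsSeparable (RatFunc k) F]` of the characteristic-free
Dedekind–Weber / Riemann–Hurwitz packages (`DW63`, `RH75`, `RH92`) for the special fibre.

Proof.  For a prime `p` with `(p : k) ≠ 0`, `Φ_p(X, t(q^p))` is, over the algebraic closure, the ROOTS
product `(X - t(q^{p²})) ∏_{b<p} (X - t(ζ^b q))` (S28 `ModEqData.roots`) with `p + 1` DISTINCT roots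
(compare the coefficients of `q⁻¹`), hence separable; `q ↦ q^p` and `coeffMap` are injective ring
homomorphisms, so `Φ_p(X, t)` is separable over `k((q))`, and so is its image `Φ_p(X, t(q^d))` under
`q ↦ q^d`.  As `t(q^{dp})` is a root of `Φ_p(X, t(q^d))` (S28 `P1.p1Statement`), induction over the
prime factors of `d` (tower property of the relative separable closure) shows that every `t(q^d)`,
`d ∣ M`, lies in the separable closure of `k(t)` in `k((q))`.

Main results:
* `separable_evalInner_qExpand` : `Φ_p(X, t(q^d))` is a separable polynomial over `k((q))`;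
* `qExpand_mem_separableClosure` : `t(q^d) ∈ separableClosure k(t) k((q))` if `(d : k) ≠ 0`;
* `fullC_le_separableClosure`    : `F̄_M ≤ separableClosure k(t) k((q))`;
* `isSeparable_fullC`            : every element of `F̄_M` is separable over `k(t)`;
* `algebra_isSeparable_ratFunc`  : for ANY algebra structure `Algebra (RatFunc k) F̄_M` compatible
    with `k` and sending `X ↦ t`:  `Algebra.IsSeparable (RatFunc k) F̄_M`.
No sorry.
-/
import Mathlib
import Fermat.Agent.S28.ModEq
import Fermat.Agent.S28.PrimeIrredMain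

set_option autoImplicit false
set_option linter.unusedSectionVars false
set_option linter.style.haveILetI false

noncomputable section

namespace Fermat.Agent.S18.Sep72

open HahnSeries ModularCurve Polynomial IntermediateField
open Fermat.Agent.S28 Fermat.Agent.S28.Subst

/-! ### Step 1: the ROOTS product is separable -/

section WithZeta

variable (K : Type) [Field K] (p : ℕ) [NeZero p]

theorem coeff_neg_one_twist_jq (c : Kˣ) :
    (twist c (jqModC K)).coeff (-1) = ((c⁻¹ : Kˣ) : K) := by
  rw [twist_coeff, coeff_jqModC_neg_one, mul_one, zpow_neg_one]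

theorem coeff_neg_one_qExpand_sq (hp : 2 ≤ p) :
    (qExpand K (p * p) (jqModC K)).coeff (-1) = 0 := by
  refine qExpand_coeff_of_not_dvd (p * p) _ ?_
  intro h
  have h1 : ((p * p : ℕ) : ℤ) ∣ 1 := (dvd_neg (a := ((p * p : ℕ) : ℤ)) (b := (1 : ℤ))).mp h
  have h2 : (p * p : ℕ) ∣ 1 := by exact_mod_cast h1
  have h3 : p * p = 1 := Nat.dvd_one.mp h2
  nlinarith

/-- the ROOTS product has `p + 1` distinct roots, hence is separable -/
theorem separable_rootsProduct (hp : 2 ≤ p) (ζ : Kˣ) (hζ : IsPrimitiveRoot ζ p) :
    ((X - Polynomial.C (qExpand K (p * p) (jqModC K))) *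
      ∏ b ∈ Finset.range p, (X - Polynomial.C (twist (ζ ^ b) (jqModC K)))).Separable := by
  have hinj : ∀ b ∈ Finset.range p, ∀ b' ∈ Finset.range p,
      twist (ζ ^ b) (jqModC K) = twist (ζ ^ b') (jqModC K) → b = b' := by
    intro b hb b' hb' h
    have h1 := congrArg (fun z : LaurentSeries K => z.coeff (-1)) h
    simp only [coeff_neg_one_twist_jq] at h1
    have h2 : (ζ ^ b)⁻¹ = (ζ ^ b')⁻¹ := Units.ext h1
    have h3 : ζ ^ b = ζ ^ b' := inv_injective h2
    exact hζ.pow_inj (Finset.mem_range.mp hb) (Finset.mem_range.mp hb') h3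
  have hne : ∀ b : ℕ, qExpand K (p * p) (jqModC K) ≠ twist (ζ ^ b) (jqModC K) := by
    intro b h
    have h1 := congrArg (fun z : LaurentSeries K => z.coeff (-1)) h
    simp only [coeff_neg_one_twist_jq, coeff_neg_one_qExpand_sq K p hp] at h1
    exact (Units.ne_zero _) h1.symm
  refine Separable.mul (separable_X_sub_C) (separable_prod_X_sub_C_iff'.mpr hinj) ?_
  refine IsCoprime.prod_right fun b _ => ?_
  exact isCoprime_X_sub_C_of_isUnit_sub (sub_ne_zero.mpr (hne b)).isUnit

/-- `Φ_p(X, t(q^p))` is separable over a field with a primitive `p`-th root of unity. -/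
theorem separable_evalInner_tp_of_zeta (hp : 2 ≤ p) (D : ModEqData p) (ζ : K)
    (hζ : IsPrimitiveRoot ζ p) :
    (evalInner D.Phi (qExpand K p (jqModC K))).Separable := by
  have hp0 : 0 < p := by omega
  have hcyc : (Polynomial.cyclotomic p K).IsRoot ζ := hζ.isRoot_cyclotomic hp0
  set ζu : Kˣ := (hζ.isUnit hp0.ne').unit with hζu
  have hζu_val : (ζu : K) = ζ := IsUnit.unit_spec _
  have hζu_prim : IsPrimitiveRoot ζu p := by
    rw [← IsPrimitiveRoot.coe_units_iff, hζu_val]
    exact hζ
  have hcyc' : (Polynomial.cyclotomic p K).IsRoot (ζu : K) := by rw [hζu_val]; exact hcyc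
  have hroots : evalInner D.Phi (qExpand K p (jqModC K)) =
      (X - Polynomial.C (qExpand K (p * p) (jqModC K))) *
        ∏ b ∈ Finset.range p, (X - Polynomial.C (twist (ζu ^ b) (jqModC K))) :=
    D.roots K ζu hcyc'
  rw [hroots]
  exact separable_rootsProduct K p hp ζu hζu_prim

/-- `Φ_p(X, t)` is separable over a field with a primitive `p`-th root of unity. -/
theorem separable_evalInner_t_of_zeta (hp : 2 ≤ p) (D : ModEqData p) (ζ : K)
    (hζ : IsPrimitiveRoot ζ p) :
    (evalInner D.Phi (jqModC K)).Separable := by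
  have h := separable_evalInner_tp_of_zeta K p hp D ζ hζ
  rw [← evalInner_map (qExpand K p) D.Phi (jqModC K)] at h
  exact (separable_map (qExpand K p)).mp h

end WithZeta

/-! ### Step 2: any field -/

section AnyField

variable (k : Type) [Field k] (p : ℕ) [NeZero p]

/-- `Φ_p(X, t)` is separable over `k((q))` when `(p : k) ≠ 0`. -/
theorem separable_evalInner_t (hp : p.Prime) (hpk : (p : k) ≠ 0) (D : ModEqData p) :
    (evalInner D.Phi (jqModC k)).Separable := by
  have hp2 : 2 ≤ p := hp.two_le
  have hp0 : 0 < p := hp.pos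
  let f : k →+* AlgebraicClosure k := algebraMap k (AlgebraicClosure k)
  have hpK : (p : AlgebraicClosure k) ≠ 0 := by
    have h1 : f (p : k) = (p : AlgebraicClosure k) := map_natCast f p
    rw [← h1]
    exact (map_ne_zero f).mpr hpk
  haveI : NeZero (p : AlgebraicClosure k) := ⟨hpK⟩
  obtain ⟨ζ, hζ⟩ : ∃ ζ : AlgebraicClosure k, IsPrimitiveRoot ζ p := by
    obtain ⟨ζ, hζ⟩ := IsAlgClosed.exists_root (Polynomial.cyclotomic p (AlgebraicClosure k))
      (by
        rw [Polynomial.degree_cyclotomic]
        exact_mod_cast (Nat.totient_pos.mpr hp0).ne')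
    exact ⟨ζ, Polynomial.isRoot_cyclotomic_iff.mp hζ⟩
  have h := separable_evalInner_t_of_zeta (AlgebraicClosure k) p hp2 D ζ hζ
  rw [← coeffMap_jqModC f, ← evalInner_map (coeffMap f) D.Phi (jqModC k)] at h
  exact (separable_map (coeffMap f)).mp h

/-- `Φ_p(X, t(q^d))` is separable over `k((q))` when `(p : k) ≠ 0`. -/
theorem separable_evalInner_qExpand (hp : p.Prime) (hpk : (p : k) ≠ 0) (D : ModEqData p)
    (d : ℕ) [NeZero d] :
    (evalInner D.Phi (qExpand k d (jqModC k))).Separable := by
  rw [← evalInner_map (qExpand k d) D.Phi (jqModC k)]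
  exact (separable_evalInner_t k p hp hpk D).map

/-- `t(q^{dp})` is a root of `Φ_p(X, t(q^d))`. -/
theorem eval_evalInner_qExpand (hp : p.Prime) (hpk : (p : k) ≠ 0) (D : ModEqData p)
    (d : ℕ) [NeZero d] :
    (evalInner D.Phi (qExpand k d (jqModC k))).eval (qExpand k (d * p) (jqModC k)) = 0 := by
  have h0 : (evalInner D.Phi (jqModC k)).eval (qExpand k p (jqModC k)) = 0 :=
    (P1.p1Statement p hp.two_le D k hpk).2.1
  have h := congrArg (qExpand k d) h0
  rw [map_zero, ← Polynomial.eval_map_apply, evalInner_map, qExpand_qExpand] at h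
  exact h

end AnyField

/-! ### Step 3: the tower argument -/

section Tower

variable (k : Type) [Field k]

/-- `k(t)` inside `k((q))` -/
abbrev kt : IntermediateField k (LaurentSeries k) := k⟮jqModC k⟯

/-- the relative separable closure of `k(t)` in `k((q))` -/
abbrev sepCl : IntermediateField ↥(kt k) (LaurentSeries k) :=
  separableClosure ↥(kt k) (LaurentSeries k)

theorem mem_sepCl_of_isSeparable_sepCl {x : LaurentSeries k}
    (hx : IsSeparable ↥(sepCl k) x) : x ∈ sepCl k := by
  have h1 : x ∈ separableClosure ↥(sepCl k) (LaurentSeries k) :=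
    mem_separableClosure_iff.mpr hx
  rw [separableClosure.separableClosure_eq_bot, IntermediateField.mem_bot] at h1
  obtain ⟨s, hs⟩ := h1
  rw [← hs]
  exact s.2

theorem jq_mem_sepCl : jqModC k ∈ sepCl k := by
  have h : jqModC k = algebraMap ↥(kt k) (LaurentSeries k)
      ⟨jqModC k, mem_adjoin_simple_self k _⟩ := rfl
  rw [h]
  exact IntermediateField.algebraMap_mem _ _

/-- one prime step of the tower -/
theorem step_mem_sepCl (p : ℕ) [NeZero p] (hp : p.Prime) (hpk : (p : k) ≠ 0) (D : ModEqData p)
    (d : ℕ) [NeZero d] (hd : qExpand k d (jqModC k) ∈ sepCl k) :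
    qExpand k (d * p) (jqModC k) ∈ sepCl k := by
  apply mem_sepCl_of_isSeparable_sepCl
  -- the polynomial over the separable closure
  set y : ↥(sepCl k) := ⟨qExpand k d (jqModC k), hd⟩ with hy
  set Q : Polynomial ↥(sepCl k) := evalInner D.Phi y with hQ
  have hQmap : Q.map (algebraMap ↥(sepCl k) (LaurentSeries k)) =
      evalInner D.Phi (qExpand k d (jqModC k)) :=
    evalInner_map _ D.Phi y
  have hQsep : Q.Separable := by
    have h := separable_evalInner_qExpand k p hp hpk D d
    rw [← hQmap] at h
    exact (separable_map _).mp h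
  have hroot : Polynomial.aeval (qExpand k (d * p) (jqModC k)) Q = 0 := by
    rw [Polynomial.aeval_def, ← Polynomial.eval_map, hQmap]
    exact eval_evalInner_qExpand k p hp hpk D d
  exact hQsep.of_dvd (minpoly.dvd _ _ hroot)

/-- every `t(q^d)` with `(d : k) ≠ 0` is separable over `k(t)` -/
theorem qExpand_mem_sepCl (hME : ModEqStatement) (d : ℕ) :
    ∀ (hd0 : d ≠ 0), (d : k) ≠ 0 →
      @qExpand k _ d ⟨hd0⟩ (jqModC k) ∈ sepCl k := by
  induction d using induction_on_primes with
  | zero => intro h; exact absurd rfl h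
  | one =>
    intro h1 _
    haveI : NeZero (1 : ℕ) := ⟨h1⟩
    rw [qExpand_one_apply]
    exact jq_mem_sepCl k
  | prime_mul p a hp ih =>
    intro hpa hpak
    have ha0 : a ≠ 0 := fun h => hpa (by rw [h, mul_zero])
    have hp0 : p ≠ 0 := hp.ne_zero
    haveI : NeZero a := ⟨ha0⟩
    haveI : NeZero p := ⟨hp0⟩
    haveI : NeZero (p * a) := ⟨hpa⟩
    haveI : NeZero (a * p) := ⟨by rw [mul_comm]; exact hpa⟩
    have hcast : ((p * a : ℕ) : k) = (p : k) * (a : k) := by push_cast; ring
    rw [hcast] at hpak
    have hpk : (p : k) ≠ 0 := left_ne_zero_of_mul hpak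
    have hak : (a : k) ≠ 0 := right_ne_zero_of_mul hpak
    obtain ⟨D⟩ := hME p hp
    have h1 := step_mem_sepCl k p hp hpk D a (ih ha0 hak)
    rw [qExpand_congr (R := k) (mul_comm a p)] at h1
    exact h1

theorem natCast_ne_zero_of_dvd {M d : ℕ} (hM : (M : k) ≠ 0) (hd : d ∣ M) : (d : k) ≠ 0 := by
  obtain ⟨c, rfl⟩ := hd
  intro h
  apply hM
  push_cast
  rw [h, zero_mul]

/-- **`F̄_M` is contained in the separable closure of `k(t)` in `k((q))`.** -/
theorem fullC_le_separableClosure (hME : ModEqStatement) (M : ℕ) [NeZero M] (hM : (M : k) ≠ 0) :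
    modularFunctionFieldFullC k M ≤ (sepCl k).restrictScalars k := by
  rw [modularFunctionFieldFullC, adjoin_le_iff]
  rintro x ⟨d, hne, hdvd, rfl⟩
  exact qExpand_mem_sepCl k hME d (NeZero.ne d) (natCast_ne_zero_of_dvd k hM hdvd)

/-- every element of `F̄_M` is separable over `k(t)`. -/
theorem isSeparable_fullC (hME : ModEqStatement) (M : ℕ) [NeZero M] (hM : (M : k) ≠ 0)
    {x : LaurentSeries k} (hx : x ∈ modularFunctionFieldFullC k M) :
    IsSeparable ↥(kt k) x :=
  mem_separableClosure_iff.mp (fullC_le_separableClosure k hME M hM hx)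

end Tower

/-! ### Step 4: the `RatFunc` form -/

section RatFuncForm

variable (k : Type) [Field k] (M : ℕ) [NeZero M]
  [Algebra (RatFunc k) ↥(modularFunctionFieldFullC k M)]
  [IsScalarTower k (RatFunc k) ↥(modularFunctionFieldFullC k M)]

/-- the composite `RatFunc k → F̄_M → k((q))` -/
def phi : RatFunc k →+* LaurentSeries k :=
  (algebraMap ↥(modularFunctionFieldFullC k M) (LaurentSeries k)).comp
    (algebraMap (RatFunc k) ↥(modularFunctionFieldFullC k M))

theorem phi_algebraMap (c : k) :
    phi k M (algebraMap k (RatFunc k) c) = algebraMap k (LaurentSeries k) c := by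
  rw [phi, RingHom.comp_apply,
    ← IsScalarTower.algebraMap_apply k (RatFunc k) ↥(modularFunctionFieldFullC k M),
    ← IsScalarTower.algebraMap_apply k ↥(modularFunctionFieldFullC k M) (LaurentSeries k)]

theorem phi_poly
    (hX : ((algebraMap (RatFunc k) ↥(modularFunctionFieldFullC k M) RatFunc.X :
      ↥(modularFunctionFieldFullC k M)) : LaurentSeries k) = jqModC k) (r : Polynomial k) :
    phi k M (algebraMap (Polynomial k) (RatFunc k) r) = Polynomial.aeval (jqModC k) r := by
  induction r using Polynomial.induction_on' with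
  | add a b ha hb => rw [map_add, map_add, map_add, ha, hb]
  | monomial n a =>
    rw [← Polynomial.C_mul_X_pow_eq_monomial, map_mul, map_mul, map_pow, map_pow, map_mul,
      map_pow, Polynomial.aeval_X, Polynomial.aeval_C, RatFunc.algebraMap_X, RatFunc.algebraMap_C,
      ← RatFunc.algebraMap_eq_C, phi_algebraMap]
    congr 2

theorem phi_mem_kt
    (hX : ((algebraMap (RatFunc k) ↥(modularFunctionFieldFullC k M) RatFunc.X :
      ↥(modularFunctionFieldFullC k M)) : LaurentSeries k) = jqModC k) (r : RatFunc k) :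
    phi k M r ∈ kt k := by
  rw [← RatFunc.num_div_denom r, map_div₀, phi_poly k M hX, phi_poly k M hX]
  refine div_mem ?_ ?_
  · exact IntermediateField.algebra_adjoin_le_adjoin k _
      (Polynomial.aeval_mem_adjoin_singleton k (jqModC k))
  · exact IntermediateField.algebra_adjoin_le_adjoin k _
      (Polynomial.aeval_mem_adjoin_singleton k (jqModC k))

/-- `RatFunc k → k(t)` -/
def phi'
    (hX : ((algebraMap (RatFunc k) ↥(modularFunctionFieldFullC k M) RatFunc.X :
      ↥(modularFunctionFieldFullC k M)) : LaurentSeries k) = jqModC k) :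
    RatFunc k →+* ↥(kt k) :=
  (phi k M).codRestrict (kt k) (phi_mem_kt k M hX)

theorem phi'_surjective
    (hX : ((algebraMap (RatFunc k) ↥(modularFunctionFieldFullC k M) RatFunc.X :
      ↥(modularFunctionFieldFullC k M)) : LaurentSeries k) = jqModC k) :
    Function.Surjective (phi' k M hX) := by
  rintro ⟨x, hx⟩
  obtain ⟨r, s, hrs⟩ := IntermediateField.mem_adjoin_simple_iff k x |>.mp hx
  refine ⟨algebraMap (Polynomial k) (RatFunc k) r / algebraMap (Polynomial k) (RatFunc k) s, ?_⟩
  apply Subtype.ext
  show phi k M _ = x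
  rw [map_div₀, phi_poly k M hX, phi_poly k M hX, hrs]

/-- **Separability of `F̄_M` over `k(t)` in `RatFunc` form**: for any `RatFunc k`-algebra structure
on `F̄_M = modularFunctionFieldFullC k M` compatible with the `k`-structure and sending `X` to
`t = jqModC k`, the extension is separable as soon as `(M : k) ≠ 0`. -/
theorem algebra_isSeparable_ratFunc (hME : ModEqStatement) (hM : (M : k) ≠ 0)
    (hX : ((algebraMap (RatFunc k) ↥(modularFunctionFieldFullC k M) RatFunc.X :
      ↥(modularFunctionFieldFullC k M)) : LaurentSeries k) = jqModC k) :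
    Algebra.IsSeparable (RatFunc k) ↥(modularFunctionFieldFullC k M) := by
  refine ⟨fun y => ?_⟩
  have hy : IsSeparable ↥(kt k) (y : LaurentSeries k) := isSeparable_fullC k hME M hM y.2
  set P := minpoly ↥(kt k) (y : LaurentSeries k) with hP
  have hPsep : P.Separable := hy
  obtain ⟨P', hP'⟩ := Polynomial.map_surjective (phi' k M hX) (phi'_surjective k M hX) P
  have hsep' : P'.Separable := (separable_map (phi' k M hX)).mp (by rw [hP']; exact hPsep)
  have hroot : Polynomial.aeval y P' = 0 := by
    apply (algebraMap ↥(modularFunctionFieldFullC k M) (LaurentSeries k)).injective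
    rw [map_zero, Polynomial.aeval_def, Polynomial.hom_eval₂]
    have hcomp : (algebraMap ↥(modularFunctionFieldFullC k M) (LaurentSeries k)).comp
        (algebraMap (RatFunc k) ↥(modularFunctionFieldFullC k M)) =
        (algebraMap ↥(kt k) (LaurentSeries k)).comp (phi' k M hX) := by
      ext r; rfl
    rw [hcomp, ← Polynomial.eval₂_map, hP', ← Polynomial.aeval_def]
    exact minpoly.aeval _ _
  exact hsep'.of_dvd (minpoly.dvd _ _ hroot)

/-- the version with the proved `modEqStatement` of S28 plugged in -/
theorem algebra_isSeparable_ratFunc' (hM : (M : k) ≠ 0)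
    (hX : ((algebraMap (RatFunc k) ↥(modularFunctionFieldFullC k M) RatFunc.X :
      ↥(modularFunctionFieldFullC k M)) : LaurentSeries k) = jqModC k) :
    Algebra.IsSeparable (RatFunc k) ↥(modularFunctionFieldFullC k M) :=
  algebra_isSeparable_ratFunc k M modEqStatement hM hX

end RatFuncForm

/-- every element of `F̄_M` is separable over `k(t)` (S28 `modEqStatement` plugged in). -/
theorem isSeparable_fullC' (k : Type) [Field k] (M : ℕ) [NeZero M] (hM : (M : k) ≠ 0)
    {x : LaurentSeries k} (hx : x ∈ modularFunctionFieldFullC k M) :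
    IsSeparable ↥(kt k) x :=
  isSeparable_fullC k modEqStatement M hM hx

end Fermat.Agent.S18.Sep72
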