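/-
S18 / L-INST (ii) core (helper72): the `RatFunc k`-setting on the special fibre
`F̄_M = modularFunctionFieldFullC k M`, `x̄ = jqModC k`, for ANY field `k : Type` with `(M : k) ≠ 0`:
with `letI := S20.T1Setup.algRat (transcendental_xbar k M)` (`X ↦ x̄`)

* `isSeparable_algRat`      : `Algebra.IsSeparable (RatFunc k) F̄_M`          (from `Sep72`);
* `finiteDimensional_algRat`: `FiniteDimensional (RatFunc k) F̄_M`            (finitely many generators
    `t(q^d)`, `d ∣ M`, each integral over `RatFunc k` because separable; no degree input needed);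
* `finiteDimensional_adjoin_xbar` : `FiniteDimensional k⟮x̄⟯ F̄_M` (the `S24.IsFunctionFieldOver` shape).
No sorry.
-/
import Mathlib
import Fermat.Agent.S18.Sep72
import Fermat.Agent.S20.T1Setup
import Fermat.Agent.S28.PrimeIrredCore
import Fermat.Agent.S28.KeyLowerMain

set_option autoImplicit false
set_option linter.unusedSectionVars false
set_option linter.style.haveILetI false

noncomputable section

namespace Fermat.Agent.S18.SepInst72

open HahnSeries ModularCurve Polynomial IntermediateField
open Fermat.Agent.S28 Fermat.Agent.S20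

variable (k : Type) [Field k] (M : ℕ) [NeZero M]

/-- `x̄ = t = jqModC k` as an element of `F̄_M`. -/
def xbar : ↥(modularFunctionFieldFullC k M) := ⟨jqModC k, jqModC_mem_full k M⟩

@[simp] theorem coe_xbar : ((xbar k M : ↥(modularFunctionFieldFullC k M)) : LaurentSeries k) =
    jqModC k := rfl

theorem transcendental_xbar : Transcendental k (xbar k M) := by
  have h : Transcendental k
      (algebraMap ↥(modularFunctionFieldFullC k M) (LaurentSeries k) (xbar k M)) :=
    P1.transcendental_jq k
  exact (transcendental_algebraMap_iff
    (algebraMap ↥(modularFunctionFieldFullC k M) (LaurentSeries k)).injective).mp h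

theorem algebraMap_X_coe :
    letI := T1Setup.algRat (transcendental_xbar k M)
    ((algebraMap (RatFunc k) ↥(modularFunctionFieldFullC k M) RatFunc.X :
      ↥(modularFunctionFieldFullC k M)) : LaurentSeries k) = jqModC k := by
  letI := T1Setup.algRat (transcendental_xbar k M)
  rw [T1Setup.algebraMap_X (transcendental_xbar k M)]
  rfl

/-- **Separability** of `F̄_M` over `RatFunc k` (`X ↦ t`). -/
theorem isSeparable_algRat (hM : (M : k) ≠ 0) :
    letI := T1Setup.algRat (transcendental_xbar k M)
    Algebra.IsSeparable (RatFunc k) ↥(modularFunctionFieldFullC k M) := by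
  letI := T1Setup.algRat (transcendental_xbar k M)
  haveI := T1Setup.isScalarTower_K (transcendental_xbar k M)
  exact Sep72.algebra_isSeparable_ratFunc' k M hM (algebraMap_X_coe k M)

/-- the generators `t(q^d)`, `d ∣ M`, as elements of `F̄_M` -/
def gens : Set ↥(modularFunctionFieldFullC k M) :=
  {y | (y : LaurentSeries k) ∈ divisorExpansionsC k M}

theorem finite_divisorExpansionsC : (divisorExpansionsC k M).Finite := by
  classical
  have hsub : divisorExpansionsC k M ⊆
      (fun d : ℕ => if h : d ≠ 0 then @qExpand k _ d ⟨h⟩ (jqModC k) else 0) ''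
        (Nat.divisors M : Set ℕ) := by
    rintro x ⟨d, hne, hd, rfl⟩
    refine ⟨d, ?_, ?_⟩
    · exact Finset.mem_coe.mpr (Nat.mem_divisors.mpr ⟨hd, NeZero.ne M⟩)
    · simp only
      rw [dif_pos (NeZero.ne d)]
  exact ((Nat.divisors M).finite_toSet.image _).subset hsub

theorem finite_gens : (gens k M).Finite := by
  have hinj : Set.InjOn (fun y : ↥(modularFunctionFieldFullC k M) => (y : LaurentSeries k))
      (gens k M) := fun a _ b _ h => Subtype.ext h
  refine Set.Finite.of_finite_image ?_ hinj
  refine (finite_divisorExpansionsC k M).subset ?_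
  rintro _ ⟨y, hy, rfl⟩
  exact hy

/-- `F̄_M` is generated over `RatFunc k` by the `t(q^d)`. -/
theorem adjoin_gens_eq_top :
    letI := T1Setup.algRat (transcendental_xbar k M)
    IntermediateField.adjoin (RatFunc k) (gens k M) = ⊤ := by
  letI := T1Setup.algRat (transcendental_xbar k M)
  haveI := T1Setup.isScalarTower_K (transcendental_xbar k M)
  rw [eq_top_iff]
  intro y _
  -- the image in `k((q))`
  let T : IntermediateField (RatFunc k) ↥(modularFunctionFieldFullC k M) :=
    IntermediateField.adjoin (RatFunc k) (gens k M)
  let G : IntermediateField k (LaurentSeries k) :=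
    (T.restrictScalars k).map (modularFunctionFieldFullC k M).val
  have hle : modularFunctionFieldFullC k M ≤ G := by
    rw [modularFunctionFieldFullC, adjoin_le_iff]
    intro x hx
    have hxF : x ∈ modularFunctionFieldFullC k M := subset_adjoin k _ hx
    refine ⟨⟨x, hxF⟩, ?_, rfl⟩
    show (⟨x, hxF⟩ : ↥(modularFunctionFieldFullC k M)) ∈ T
    exact IntermediateField.subset_adjoin (RatFunc k) _ hx
  obtain ⟨y', hy', hyy'⟩ := hle y.2
  have : y' = y := Subtype.ext hyy'
  rw [← this]
  exact hy'

/-- **Finite-dimensionality** of `F̄_M` over `RatFunc k` (`X ↦ t`). -/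
theorem finiteDimensional_algRat (hM : (M : k) ≠ 0) :
    letI := T1Setup.algRat (transcendental_xbar k M)
    FiniteDimensional (RatFunc k) ↥(modularFunctionFieldFullC k M) := by
  letI := T1Setup.algRat (transcendental_xbar k M)
  haveI := T1Setup.isScalarTower_K (transcendental_xbar k M)
  haveI hsep := isSeparable_algRat k M hM
  haveI : Finite (gens k M) := (finite_gens k M).to_subtype
  haveI hfd : FiniteDimensional (RatFunc k)
      ↥(IntermediateField.adjoin (RatFunc k) (gens k M)) :=
    IntermediateField.finiteDimensional_adjoin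
      (fun y _ => (Algebra.IsSeparable.isSeparable (RatFunc k) y).isIntegral)
  rw [adjoin_gens_eq_top k M] at hfd
  exact (IntermediateField.topEquiv (F := RatFunc k)
    (E := ↥(modularFunctionFieldFullC k M))).toLinearEquiv.finiteDimensional

set_option synthInstance.maxHeartbeats 400000 in
/-- **Finite-dimensionality** of `F̄_M` over `k(x̄)` (the `S24.IsFunctionFieldOver` shape). -/
theorem finiteDimensional_adjoin_xbar (hM : (M : k) ≠ 0) :
    FiniteDimensional ↥(k⟮xbar k M⟯) ↥(modularFunctionFieldFullC k M) := by
  letI := T1Setup.algRat (transcendental_xbar k M)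
  haveI := finiteDimensional_algRat k M hM
  exact Module.Finite.of_equiv_equiv (A₁ := RatFunc k) (B₁ := ↥(modularFunctionFieldFullC k M))
    (A₂ := ↥(k⟮xbar k M⟯)) (B₂ := ↥(modularFunctionFieldFullC k M))
    (RatFunc.algEquivOfTranscendental (xbar k M) (transcendental_xbar k M)).toRingEquiv
    (RingEquiv.refl _) (T1Setup.comp_eq (transcendental_xbar k M))

set_option synthInstance.maxHeartbeats 400000 in
/-- `F̄_M` is a function field over `k` with variable `x̄ = t` (S24 shape). -/
theorem isFunctionFieldOver_xbar (hM : (M : k) ≠ 0) :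
    Fermat.Agent.S24.IsFunctionFieldOver k (xbar k M) :=
  ⟨transcendental_xbar k M, finiteDimensional_adjoin_xbar k M hM⟩

/-! ### degrees: `finrank (RatFunc k)` (DW63 shape) versus `relrank` (S28 shape) -/

theorem map_adjoin_xbar :
    (k⟮xbar k M⟯).map (modularFunctionFieldFullC k M).val = k⟮jqModC k⟯ := by
  rw [IntermediateField.adjoin_map, Set.image_singleton]
  rfl

theorem map_top_val :
    (⊤ : IntermediateField k ↥(modularFunctionFieldFullC k M)).map
      (modularFunctionFieldFullC k M).val = modularFunctionFieldFullC k M := by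
  rw [← AlgHom.fieldRange_eq_map, IntermediateField.fieldRange_val]

set_option synthInstance.maxHeartbeats 400000 in
/-- `[F̄_M : k(x̄)]` computed inside `F̄_M` equals the `relfinrank` computed inside `k((q))`. -/
theorem finrank_adjoin_xbar_eq_relfinrank :
    Module.finrank ↥(k⟮xbar k M⟯) ↥(modularFunctionFieldFullC k M) =
      IntermediateField.relfinrank (k⟮jqModC k⟯) (modularFunctionFieldFullC k M) := by
  rw [← IntermediateField.relfinrank_top_right,
    ← IntermediateField.relfinrank_map_map _ _ (modularFunctionFieldFullC k M).val,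
    map_adjoin_xbar, map_top_val]

set_option synthInstance.maxHeartbeats 400000 in
/-- the same for `relrank` -/
theorem rank_adjoin_xbar_eq_relrank :
    Module.rank ↥(k⟮xbar k M⟯) ↥(modularFunctionFieldFullC k M) =
      IntermediateField.relrank (k⟮jqModC k⟯) (modularFunctionFieldFullC k M) := by
  rw [← IntermediateField.relrank_top_right,
    ← IntermediateField.relrank_map_map _ _ (modularFunctionFieldFullC k M).val,
    map_adjoin_xbar, map_top_val]

set_option synthInstance.maxHeartbeats 400000 in
/-- **degree dictionary**: `finrank (RatFunc k) F̄_M` (DW63 / RH92 shape) is the `relfinrank` of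
`k(t) ⊆ F̄_M` inside `k((q))` (S28 / BRIDGE shape). -/
theorem finrank_algRat_eq_relfinrank :
    letI := T1Setup.algRat (transcendental_xbar k M)
    Module.finrank (RatFunc k) ↥(modularFunctionFieldFullC k M) =
      IntermediateField.relfinrank (k⟮jqModC k⟯) (modularFunctionFieldFullC k M) := by
  letI := T1Setup.algRat (transcendental_xbar k M)
  rw [T1Setup.finrank_eq (transcendental_xbar k M), finrank_adjoin_xbar_eq_relfinrank]

set_option synthInstance.maxHeartbeats 400000 in
/-- **degree dictionary**, cardinal form (needs finite-dimensionality, i.e. `(M : k) ≠ 0`). -/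
theorem natCast_finrank_algRat_eq_relrank (hM : (M : k) ≠ 0) :
    letI := T1Setup.algRat (transcendental_xbar k M)
    ((Module.finrank (RatFunc k) ↥(modularFunctionFieldFullC k M) : ℕ) : Cardinal) =
      IntermediateField.relrank (k⟮jqModC k⟯) (modularFunctionFieldFullC k M) := by
  letI := T1Setup.algRat (transcendental_xbar k M)
  haveI := finiteDimensional_adjoin_xbar k M hM
  rw [T1Setup.finrank_eq (transcendental_xbar k M), Module.finrank_eq_rank,
    rank_adjoin_xbar_eq_relrank]

/-- **lower bound** `ψ(M) ≤ [F̄_M : k(t)]` in `finrank (RatFunc k)` form, `k` algebraically closed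
(S28 `keyLower_algClosed`). -/
theorem dedekindPsi_le_finrank_algRat [IsAlgClosed k] (hM : (M : k) ≠ 0) :
    letI := T1Setup.algRat (transcendental_xbar k M)
    dedekindPsi M ≤ Module.finrank (RatFunc k) ↥(modularFunctionFieldFullC k M) := by
  letI := T1Setup.algRat (transcendental_xbar k M)
  have h := KeyLower.keyLower_algClosed modEqStatement k M hM
  rw [show fieldT k = k⟮jqModC k⟯ from rfl, ← natCast_finrank_algRat_eq_relrank k M hM] at h
  exact_mod_cast h

end Fermat.Agent.S18.SepInst72
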