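import Mathlib
import Fermat.Agent.S18.Descent26
import Fermat.Agent.S18.SepInst72
import Fermat.Agent.S28.PrimeIrredMain
import Fermat.Agent.S28.KeyLowerMain
import Fermat.Agent.S24.Defs

/-!
# S18 (helper14, dispatch D7 bonus): the degree of the special fibre, `[F̄_M : k(t)] = ψ(M)`

`k : Type` an algebraically closed field with `(M : k) ≠ 0`, `F̄_M = modularFunctionFieldFullC k M`,
`t = jqModC k`.
* `≤` : S28 `KEY0` over `k` (roots data of the modular equations at primitive roots of unity of `k`,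
  `Descent26.rootsData`; the comparison `hP1` from S28 `P1.p1Statement`);
* `≥` : S28 `KeyLower.keyLower_algClosed`.
Exported in `relrank`, `relfinrank`, `finrank k⟮x̄⟯`, `S24.degOver` and `finrank (RatFunc k)` form.
-/

set_option autoImplicit false
set_option linter.style.haveILetI false

noncomputable section

namespace Fermat.Agent.S18.DegreeBar14

open ModularCurve HahnSeries IntermediateField Polynomial
open Fermat.Agent.S28 Fermat.Agent.S28.KEY0 Fermat.Agent.S20

variable (k : Type) [Field k] [IsAlgClosed k]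

/-- Roots data over an algebraically closed field in which `r ≠ 0`. -/
theorem nonempty_rootsData (r : ℕ) (hr : r.Prime) (hrk : (r : k) ≠ 0) :
    Nonempty (RootsData k r) := by
  haveI : NeZero r := ⟨hr.ne_zero⟩
  haveI : NeZero (r : k) := ⟨hrk⟩
  obtain ⟨ζ, hζ⟩ := HasEnoughRootsOfUnity.exists_primitiveRoot k r
  have hu : IsUnit ζ := hζ.isUnit (NeZero.ne r)
  exact ⟨Descent26.rootsData k r (modEqStatement r hr).some hu.unit
    (by rw [IsUnit.unit_spec]; exact hζ)⟩

omit [IsAlgClosed k] in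
variable {k} in
theorem natCast_ne_zero_of_dvd {r M : ℕ} (hM : (M : k) ≠ 0) (h : r ∣ M) : (r : k) ≠ 0 := by
  rintro hr
  obtain ⟨c, rfl⟩ := h
  apply hM
  rw [Nat.cast_mul, hr, zero_mul]

/-- **KEY0 over `k`**: `[F̄_M : k(t)] ≤ ψ(M)`. -/
theorem relrank_fullC_le (M : ℕ) [NeZero M] (hM : (M : k) ≠ 0) :
    (k⟮jqModC k⟯).relrank (modularFunctionFieldFullC k M) ≤ (dedekindPsi M : Cardinal) := by
  refine relrank_modularFunctionFieldFullC_le (RingHom.id k) M
    (fun r hr hrM => (nonempty_rootsData k r hr (natCast_ne_zero_of_dvd hM hrM)).some) ?_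
  intro p hp hpM
  haveI : NeZero p := ⟨hp.ne_zero⟩
  obtain ⟨-, -, -, -, h1, h2⟩ := P1.p1Statement p hp.two_le (modEqStatement p hp).some k
    (natCast_ne_zero_of_dvd hM hpM)
  have e : fieldTTp k p = k⟮jqModC k⟯ ⊔ k⟮tq k p⟯ := by
    unfold fieldTTp
    rw [tq_eq, ← adjoin_union]
    rfl
  rw [← e]
  have h1' : (k⟮jqModC k⟯).relrank (fieldTTp k p) = ((p + 1 : ℕ) : Cardinal) := h1
  have h2' : (k⟮tq k p⟯).relrank (fieldTTp k p) = ((p + 1 : ℕ) : Cardinal) := by
    rw [tq_eq]
    exact h2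
  rw [h1', h2']

/-- **Degree of the special fibre**, `relrank` form. -/
theorem relrank_fullC_eq (M : ℕ) [NeZero M] (hM : (M : k) ≠ 0) :
    (k⟮jqModC k⟯).relrank (modularFunctionFieldFullC k M) = (dedekindPsi M : Cardinal) :=
  le_antisymm (relrank_fullC_le k M hM) (KeyLower.keyLower_algClosed modEqStatement k M hM)

/-- `relfinrank` form. -/
theorem relfinrank_fullC_eq (M : ℕ) [NeZero M] (hM : (M : k) ≠ 0) :
    (k⟮jqModC k⟯).relfinrank (modularFunctionFieldFullC k M) = dedekindPsi M := by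
  rw [relfinrank_eq_toNat_relrank, relrank_fullC_eq k M hM, Cardinal.toNat_natCast]

/-- `finrank` over `k(x̄)` inside `F̄_M`. -/
theorem finrank_adjoin_xbar_eq (M : ℕ) [NeZero M] (hM : (M : k) ≠ 0) :
    Module.finrank ↥(k⟮SepInst72.xbar k M⟯) ↥(modularFunctionFieldFullC k M) = dedekindPsi M := by
  rw [SepInst72.finrank_adjoin_xbar_eq_relfinrank, relfinrank_fullC_eq k M hM]

/-- `S24.degOver` form (`x̄ = ⟨jqModC k, _⟩`). -/
theorem degOver_eq (M : ℕ) [NeZero M] (hM : (M : k) ≠ 0) :
    Fermat.Agent.S24.degOver k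
      (⟨jqModC k, jqModC_mem_full k M⟩ : ↥(modularFunctionFieldFullC k M)) = dedekindPsi M :=
  finrank_adjoin_xbar_eq k M hM

/-- `finrank (RatFunc k)` form for the `S20.T1Setup.algRat` structure (`X ↦ t`). -/
theorem finrank_algRat_eq (M : ℕ) [NeZero M] (hM : (M : k) ≠ 0) :
    letI := T1Setup.algRat (SepInst72.transcendental_xbar k M)
    Module.finrank (RatFunc k) ↥(modularFunctionFieldFullC k M) = dedekindPsi M := by
  letI := T1Setup.algRat (SepInst72.transcendental_xbar k M)
  rw [SepInst72.finrank_algRat_eq_relfinrank, relfinrank_fullC_eq k M hM]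

end Fermat.Agent.S18.DegreeBar14
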