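/-
S18 project (blueprint 14), package [CUSP-ORBIT] part 1 (helper78): the place of a function field
`F/K` attached to a `K`-algebra embedding `σ : F →ₐ[K] K((w))` into a Laurent series field
(a "Puiseux embedding at a cusp"), any characteristic.

* `valued_eq_exp_neg_order` : Mathlib's `w`-adic valuation of `K((w))` is `exp (-order)`;
* `embPlace σ h : Place K F` (`h : ∃ x, (σ x).order < 0`): valuation ring `{f | 0 ≤ (σ f).order}`;
* `mem_embPlace_iff`, `embPlace_eq_of_order_eq`;
* `exists_order_eq_mul_ord` : `∃ g > 0, ∀ f, (σ f).order = g * (embPlace σ h).ord f`.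
-/
import Mathlib
import Fermat.Agent.S24.Pkg_FF0

set_option autoImplicit false

open AlgebraicCurve HahnSeries WithZero

namespace Fermat.Agent.S18.EmbPlace78

open Fermat.Agent.S24

/-! ### The `w`-adic valuation of `K((w))` in terms of `order` -/

section Laurent

variable {K : Type*} [Field K]

theorem forall_coeff_lt_eq_zero_iff (x : LaurentSeries K) (D : ℤ) (hx : x ≠ 0) :
    (∀ n < D, x.coeff n = 0) ↔ D ≤ x.order := by
  constructor
  · intro h
    by_contra hlt
    exact (coeff_order_eq_zero.not.2 hx) (h _ (not_le.mp hlt))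
  · intro h n hn
    exact coeff_eq_zero_of_lt_order (lt_of_lt_of_le hn h)

theorem valued_le_exp_neg_iff (x : LaurentSeries K) (D : ℤ) (hx : x ≠ 0) :
    Valued.v x ≤ exp (-D) ↔ D ≤ x.order := by
  rw [LaurentSeries.valuation_le_iff_coeff_lt_eq_zero, forall_coeff_lt_eq_zero_iff x D hx]

theorem valued_eq_exp_neg_order (x : LaurentSeries K) (hx : x ≠ 0) :
    Valued.v x = exp (-(x.order)) := by
  have hv0 : (Valued.v x : ℤᵐ⁰) ≠ 0 := (Valuation.ne_zero_iff _).2 hx
  obtain ⟨k, hk⟩ : ∃ k : ℤ, (Valued.v x : ℤᵐ⁰) = exp (-k) :=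
    ⟨-(log (Valued.v x)), by rw [neg_neg, exp_log hv0]⟩
  have h1 : ∀ D : ℤ, D ≤ k ↔ D ≤ x.order := fun D => by
    rw [← valued_le_exp_neg_iff x D hx, hk, exp_le_exp]
    omega
  have : k = x.order := le_antisymm ((h1 k).1 le_rfl) ((h1 _).2 le_rfl)
  rw [hk, this]

theorem valued_le_one_iff (x : LaurentSeries K) : Valued.v x ≤ (1 : ℤᵐ⁰) ↔ 0 ≤ x.order := by
  rcases eq_or_ne x 0 with rfl | hx
  · simp
  · have := valued_le_exp_neg_iff x 0 hx
    rwa [neg_zero, exp_zero] at this

theorem order_inv (x : LaurentSeries K) : (x⁻¹).order = -x.order := by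
  rcases eq_or_ne x 0 with rfl | hx
  · simp
  have h := order_mul hx (inv_ne_zero hx)
  rw [mul_inv_cancel₀ hx, order_one] at h
  omega

end Laurent

/-! ### The place of an embedding -/

section Place

variable {K F : Type*} [Field K] [Field F] [Algebra K F]

/-- the `ℤᵐ⁰`-valued valuation `f ↦ exp (-(σ f).order)` on `F` -/
noncomputable def embVal (σ : F →ₐ[K] LaurentSeries K) : Valuation F ℤᵐ⁰ :=
  (Valued.v : Valuation (LaurentSeries K) ℤᵐ⁰).comap (σ : F →+* LaurentSeries K)

theorem embVal_apply (σ : F →ₐ[K] LaurentSeries K) (f : F) : embVal σ f = Valued.v (σ f) := rfl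

theorem embVal_eq (σ : F →ₐ[K] LaurentSeries K) {f : F} (hf : f ≠ 0) :
    embVal σ f = exp (-((σ f).order)) := by
  rw [embVal_apply, valued_eq_exp_neg_order _ ((map_ne_zero σ).2 hf)]

theorem embVal_le_one_iff (σ : F →ₐ[K] LaurentSeries K) (f : F) :
    embVal σ f ≤ 1 ↔ 0 ≤ (σ f).order := by
  rw [embVal_apply, valued_le_one_iff]

theorem order_algebraMap (σ : F →ₐ[K] LaurentSeries K) (a : K) :
    (σ (algebraMap K F a)).order = 0 := by
  rw [AlgHom.commutes]
  rcases eq_or_ne a 0 with rfl | ha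
  · simp
  · rw [LaurentSeries.algebraMap_apply]
    exact order_single ha

theorem isCyclic_valueGroup (w : Valuation F ℤᵐ⁰) :
    IsCyclic (MonoidWithZeroHom.valueGroup (MonoidWithZeroHom.ofClass w)) := by
  have : IsCyclic (ℤᵐ⁰)ˣ :=
    isCyclic_of_surjective (WithZero.unitsWithZeroEquiv (α := Multiplicative ℤ)).symm
      (WithZero.unitsWithZeroEquiv (α := Multiplicative ℤ)).symm.surjective
  infer_instance

theorem nontrivial_valueGroup (w : Valuation F ℤᵐ⁰) (hnt : ∃ x : F, w x ≠ 0 ∧ w x ≠ 1) :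
    Nontrivial (MonoidWithZeroHom.valueGroup (MonoidWithZeroHom.ofClass w)) := by
  obtain ⟨x, hx0, hx1⟩ := hnt
  refine ⟨⟨⟨Units.mk0 (w x) hx0, MonoidWithZeroHom.mem_valueGroup _ ⟨x, rfl⟩⟩, 1, ?_⟩⟩
  intro h
  apply hx1
  have := congrArg (fun u : MonoidWithZeroHom.valueGroup (MonoidWithZeroHom.ofClass w) =>
    ((u : (ℤᵐ⁰)ˣ) : ℤᵐ⁰)) h
  simpa using this

theorem embVal_nontrivial (σ : F →ₐ[K] LaurentSeries K) (h : ∃ x : F, (σ x).order < 0) :
    ∃ x : F, embVal σ x ≠ 0 ∧ embVal σ x ≠ 1 := by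
  obtain ⟨x, hx⟩ := h
  have hx0 : x ≠ 0 := by
    rintro rfl
    simp at hx
  refine ⟨x, (Valuation.ne_zero_iff _).2 hx0, fun h1 => ?_⟩
  have := (embVal_le_one_iff σ x).1 h1.le
  omega

/-- **The place of `F/K` attached to an embedding `σ : F → K((w))`** with some `σ x` of negative
order. -/
noncomputable def embPlace (σ : F →ₐ[K] LaurentSeries K) (h : ∃ x : F, (σ x).order < 0) :
    Place K F where
  toValuationSubring := (embVal σ).valuationSubring
  algebraMap_mem' a := by
    rw [Valuation.mem_valuationSubring_iff, embVal_le_one_iff, order_algebraMap]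
  ne_top' := by
    obtain ⟨x, hx⟩ := h
    intro htop
    have h1 : embVal σ x ≤ 1 :=
      (Valuation.mem_valuationSubring_iff _ _).mp (htop ▸ ValuationSubring.mem_top x)
    have := (embVal_le_one_iff σ x).1 h1
    omega
  isPrincipalIdealRing' := by
    have := isCyclic_valueGroup (embVal σ)
    have := nontrivial_valueGroup (embVal σ) (embVal_nontrivial σ h)
    exact Valuation.valuationSubring_isPrincipalIdealRing (embVal σ)

theorem mem_embPlace_iff (σ : F →ₐ[K] LaurentSeries K) (h : ∃ x : F, (σ x).order < 0) (f : F) :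
    f ∈ (embPlace σ h).toValuationSubring ↔ 0 ≤ (σ f).order := by
  show f ∈ (embVal σ).valuationSubring ↔ _
  rw [Valuation.mem_valuationSubring_iff, embVal_le_one_iff]

theorem embPlace_eq_of_order_eq {σ τ : F →ₐ[K] LaurentSeries K} (hσ : ∃ x : F, (σ x).order < 0)
    (hτ : ∃ x : F, (τ x).order < 0) (h : ∀ f : F, (σ f).order = (τ f).order) :
    embPlace σ hσ = embPlace τ hτ := by
  apply Place.ext
  ext f
  rw [mem_embPlace_iff, mem_embPlace_iff, h f]

theorem ord_embPlace_nonneg_iff (σ : F →ₐ[K] LaurentSeries K) (h : ∃ x : F, (σ x).order < 0)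
    (f : F) : 0 ≤ (embPlace σ h).ord f ↔ 0 ≤ (σ f).order := by
  rcases eq_or_ne f 0 with rfl | hf
  · simp
  · rw [← mem_embPlace_iff σ h, FF.mem_iff_ord_nonneg _ hf]

/-- `order ∘ σ` is a positive multiple of the normalised order function of the place. -/
theorem exists_order_eq_mul_ord (σ : F →ₐ[K] LaurentSeries K) (h : ∃ x : F, (σ x).order < 0) :
    ∃ g : ℤ, 0 < g ∧ ∀ f : F, (σ f).order = g * (embPlace σ h).ord f := by
  set P := embPlace σ h with hP
  obtain ⟨π, hπ⟩ := IsDiscreteValuationRing.exists_irreducible P.toValuationSubring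
  have hπ0 : (π : F) ≠ 0 := fun h0 => hπ.ne_zero (Subtype.ext h0)
  have hπord : P.ord (π : F) = 1 := P.ord_coe_irreducible hπ
  -- units have order zero
  have hunit : ∀ u : P.toValuationSubringˣ, (σ ((u : P.toValuationSubring) : F)).order = 0 := by
    intro u
    have h1 : 0 ≤ (σ ((u : P.toValuationSubring) : F)).order :=
      (mem_embPlace_iff σ h _).1 (u : P.toValuationSubring).2
    have h2 : 0 ≤ (σ (((u⁻¹ : P.toValuationSubringˣ) : P.toValuationSubring) : F)).order :=
      (mem_embPlace_iff σ h _).1 ((u⁻¹ : P.toValuationSubringˣ) : P.toValuationSubring).2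
    have h3 : (((u⁻¹ : P.toValuationSubringˣ) : P.toValuationSubring) : F)
        = (((u : P.toValuationSubring) : F))⁻¹ := by
      have h4 : ((u : P.toValuationSubring) : F)
          * (((u⁻¹ : P.toValuationSubringˣ) : P.toValuationSubring) : F) = 1 :=
        congrArg Subtype.val u.mul_inv
      exact eq_inv_of_mul_eq_one_right h4
    rw [h3, map_inv₀, order_inv] at h2
    omega
  have hgpos : 0 < (σ (π : F)).order := by
    have h1 : 0 ≤ (σ (π : F)).order := (mem_embPlace_iff σ h _).1 π.2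
    have h2 : ¬ 0 ≤ (σ ((π : F)⁻¹)).order := by
      intro hh
      have hmem : (π : F)⁻¹ ∈ P.toValuationSubring := (mem_embPlace_iff σ h _).2 hh
      have := (FF.mem_iff_ord_nonneg P (inv_ne_zero hπ0)).1 hmem
      rw [P.ord_inv, hπord] at this
      omega
    rw [map_inv₀, order_inv] at h2
    omega
  refine ⟨(σ (π : F)).order, hgpos, fun f => ?_⟩
  rcases eq_or_ne f 0 with rfl | hf
  · simp
  obtain ⟨u, hu⟩ := P.exists_unit_mul_zpow hf hπ
  have hσπ0 : σ (π : F) ≠ 0 := (map_ne_zero σ).2 hπ0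
  have hzpow : ∀ k : ℤ, (σ ((π : F) ^ k)).order = k * (σ (π : F)).order := by
    intro k
    induction k using Int.induction_on with
    | zero => simp
    | succ n ih =>
      rw [zpow_add_one₀ hπ0, map_mul, order_mul ((map_ne_zero σ).2 (zpow_ne_zero _ hπ0)) hσπ0, ih]
      ring
    | pred n ih =>
      rw [zpow_sub_one₀ hπ0, map_mul, map_inv₀,
        order_mul ((map_ne_zero σ).2 (zpow_ne_zero _ hπ0)) (inv_ne_zero hσπ0), ih, order_inv]
      ring
  have hu0 : ((u : P.toValuationSubring) : F) ≠ 0 := by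
    simp [ne_eq, ZeroMemClass.coe_eq_zero]
  conv_lhs => rw [hu]
  rw [map_mul, order_mul ((map_ne_zero σ).2 hu0) ((map_ne_zero σ).2 (zpow_ne_zero _ hπ0)),
    hunit u, hzpow, zero_add, mul_comm]

end Place

end Fermat.Agent.S18.EmbPlace78
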