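/-
S18 / blueprint 14, package [FF]-CONST (helper30): CHAR-FREE, SEPARABILITY-FREE existence of places
(Stichtenoth 1.1.6 + 1.1.19/1.1.20) for the Prelude `Place` API.

`K` any field, `F/K` a field with `[F : K(x)] < ∞` for ONE transcendental `x` (no separability, no
hypothesis on the characteristic):
* `isPrincipalIdealRing_of_valuationSubring` : every valuation subring `V ≠ ⊤` of `F` containing
  `K` is a discrete valuation ring (PID) -- so it IS a Prelude place (`placeOfValuationSubring`);
* `exists_place_not_mem` / `exists_place_ord_neg` : every `y` transcendental over `K` has a pole;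
  `exists_place_ord_pos` : and a zero;  `exists_place` : places exist;
* `isAlgebraic_of_forall_ord_nonneg` : pole-free ⇒ algebraic over `K`;
* `const_of_forall_ord_nonneg`, `const_of_forall_ord_eq_zero` (`K` algebraically closed):
  pole-free ⇒ constant  (= the `hconst` input of [FF]-DEG and the char-`ℓ` input of [NORMALIZE]).
-/
import Mathlib
import Fermat.Prelude.Def_AlgebraicCurve_DivisorClassGroup
import Fermat.Agent.S24.H30Zeros

set_option autoImplicit false
set_option linter.unusedSectionVars false
set_option linter.style.haveILetI false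

open AlgebraicCurve IntermediateField Polynomial

namespace Fermat.Agent.S18.FFConst30

variable {K F : Type*} [Field K] [Field F] [Algebra K F]

theorem zpow_mul_inj {Γ : Type*} [LinearOrderedCommGroupWithZero Γ] {a b b' : Γ} (ha0 : 0 < a)
    (ha1 : a < 1) (hb : a < b ∧ b ≤ 1) (hb' : a < b' ∧ b' ≤ 1) {k k' : ℤ}
    (h : a ^ k * b = a ^ k' * b') : b = b' := by
  have key : ∀ {c c' : Γ} {m m' : ℤ}, a < c ∧ c ≤ 1 → a < c' ∧ c' ≤ 1 → m < m' →
      a ^ m * c = a ^ m' * c' → False := by
    intro c c' m m' hc hc' hlt heq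
    have ha : a ≠ 0 := ha0.ne'
    have h1 : c = a ^ (m' - m) * c' := by
      rw [zpow_sub₀ ha, div_mul_eq_mul_div, ← heq, mul_div_assoc, mul_comm, div_mul_cancel₀]
      exact zpow_ne_zero _ ha
    have h2 : a ^ (m' - m) ≤ a := by
      have := zpow_le_zpow_right_of_le_one₀ ha0 ha1.le (show (1 : ℤ) ≤ m' - m by omega)
      simpa using this
    have h3 : c ≤ a := by
      rw [h1]
      calc a ^ (m' - m) * c' ≤ a * 1 := mul_le_mul' h2 hc'.2
        _ = a := mul_one a
    exact absurd hc.1 (not_lt.mpr h3)
  rcases lt_trichotomy k k' with hlt | heq | hgt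
  · exact (key hb hb' hlt h).elim
  · subst heq
    exact mul_left_cancel₀ (zpow_ne_zero _ ha0.ne') h
  · exact (key hb' hb hgt h.symm).elim

section valsub

variable (V : ValuationSubring F)

/-- nonzero constants are units of `V`. -/
theorem valuation_algebraMap (hK : ∀ a : K, algebraMap K F a ∈ V) {a : K} (ha : a ≠ 0) :
    V.valuation (algebraMap K F a) = 1 := by
  have h1 : V.valuation (algebraMap K F a) ≤ 1 := (V.valuation_le_one_iff _).mpr (hK a)
  have h2 : V.valuation (algebraMap K F a⁻¹) ≤ 1 := (V.valuation_le_one_iff _).mpr (hK a⁻¹)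
  have h3 : V.valuation (algebraMap K F a) * V.valuation (algebraMap K F a⁻¹) = 1 := by
    rw [← map_mul, ← map_mul, mul_inv_cancel₀ ha, map_one, map_one]
  apply le_antisymm h1
  calc (1 : V.ValueGroup) = V.valuation (algebraMap K F a) * V.valuation (algebraMap K F a⁻¹) :=
        h3.symm
    _ ≤ V.valuation (algebraMap K F a) * 1 := by gcongr
    _ = V.valuation (algebraMap K F a) := mul_one _

/-- the valuation of a polynomial in a non-unit `x` is read off from its trailing degree. -/
theorem valuation_aeval (hK : ∀ a : K, algebraMap K F a ∈ V) {x : F} (hx0 : x ≠ 0)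
    (hx1 : V.valuation x < 1) {P : K[X]} (hP : P ≠ 0) :
    V.valuation (aeval x P) = V.valuation x ^ P.natTrailingDegree := by
  classical
  have hvx : 0 < V.valuation x := zero_lt_iff.mpr ((Valuation.ne_zero_iff _).mpr hx0)
  have hterm : ∀ i ∈ P.support,
      V.valuation (algebraMap K F (P.coeff i) * x ^ i) = V.valuation x ^ i := by
    intro i hi
    rw [map_mul, valuation_algebraMap V hK (Polynomial.mem_support_iff.mp hi), one_mul, map_pow]
  rw [aeval_def, eval₂_eq_sum, Polynomial.sum_def]
  rw [Valuation.map_sum_eq_of_lt (v := V.valuation) (j := P.natTrailingDegree)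
    (natTrailingDegree_mem_support_of_nonzero hP)]
  · exact hterm _ (natTrailingDegree_mem_support_of_nonzero hP)
  · intro i hi
    rw [Finset.mem_sdiff, Finset.mem_singleton] at hi
    rw [hterm i hi.1, hterm _ (natTrailingDegree_mem_support_of_nonzero hP)]
    have hle : P.natTrailingDegree ≤ i := natTrailingDegree_le_of_mem_supp i hi.1
    have hlt : P.natTrailingDegree < i := lt_of_le_of_ne hle (Ne.symm hi.2)
    exact pow_lt_pow_right_of_lt_one₀ hvx hx1 hlt

theorem aeval_ne_zero (hK : ∀ a : K, algebraMap K F a ∈ V) {x : F} (hx0 : x ≠ 0)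
    (hx1 : V.valuation x < 1) {P : K[X]} (hP : P ≠ 0) : aeval x P ≠ 0 := by
  intro h
  have h1 := valuation_aeval V hK hx0 hx1 hP
  rw [h, map_zero] at h1
  exact pow_ne_zero _ ((Valuation.ne_zero_iff _).mpr hx0) h1.symm

/-- a non-unit of `V` is transcendental over `K`. -/
theorem transcendental_of_valuation_lt_one (hK : ∀ a : K, algebraMap K F a ∈ V) {x : F}
    (hx0 : x ≠ 0) (hx1 : V.valuation x < 1) : Transcendental K x := by
  rintro ⟨P, hP, hPx⟩
  exact aeval_ne_zero V hK hx0 hx1 hP hPx

/-- the valuation of a nonzero element of `K(x)` is an integral power of the valuation of `x`. -/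
theorem exists_zpow_of_mem_adjoin (hK : ∀ a : K, algebraMap K F a ∈ V) {x : F} (hx0 : x ≠ 0)
    (hx1 : V.valuation x < 1) {c : F} (hc : c ∈ K⟮x⟯) (hc0 : c ≠ 0) :
    ∃ k : ℤ, V.valuation c = V.valuation x ^ k := by
  obtain ⟨r, s, hrs⟩ := (mem_adjoin_simple_iff K c).mp hc
  have hr : r ≠ 0 := by
    rintro rfl
    rw [map_zero, zero_div] at hrs
    exact hc0 hrs
  have hs : s ≠ 0 := by
    rintro rfl
    rw [map_zero, div_zero] at hrs
    exact hc0 hrs
  refine ⟨(r.natTrailingDegree : ℤ) - s.natTrailingDegree, ?_⟩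
  rw [hrs, map_div₀, valuation_aeval V hK hx0 hx1 hr, valuation_aeval V hK hx0 hx1 hs,
    zpow_sub₀ ((Valuation.ne_zero_iff _).mpr hx0), zpow_natCast, zpow_natCast]

/-- elements with pairwise distinct valuations in the fundamental domain `(v x, 1]` are linearly
independent over `K(x)`. -/
theorem linearIndependent_of_valuation (hK : ∀ a : K, algebraMap K F a ∈ V) {x : F} (hx0 : x ≠ 0)
    (hx1 : V.valuation x < 1) {ι : Type*} [Fintype ι] (z : ι → F)
    (hz : ∀ i, V.valuation x < V.valuation (z i) ∧ V.valuation (z i) ≤ 1)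
    (hinj : Function.Injective fun i => V.valuation (z i)) :
    LinearIndependent K⟮x⟯ z := by
  classical
  have hvx : 0 < V.valuation x := zero_lt_iff.mpr ((Valuation.ne_zero_iff _).mpr hx0)
  rw [Fintype.linearIndependent_iff]
  intro c hsum
  by_contra hne
  push Not at hne
  set s : Finset ι := Finset.univ.filter (fun i => c i ≠ 0) with hs
  have hmem : ∀ i, i ∈ s ↔ c i ≠ 0 := fun i => by simp [hs]
  have hsne : s.Nonempty := by
    obtain ⟨i, hi⟩ := hne
    exact ⟨i, (hmem i).mpr hi⟩
  have hsmul : ∀ i, c i • z i = ((c i : K⟮x⟯) : F) * z i := fun i => by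
    rw [Algebra.smul_def]; rfl
  -- the valuations of the coefficients
  have hk : ∀ i ∈ s, ∃ k : ℤ, V.valuation ((c i : K⟮x⟯) : F) = V.valuation x ^ k := by
    intro i hi
    have h0 : ((c i : K⟮x⟯) : F) ≠ 0 := by
      intro h
      exact (hmem i).mp hi (Subtype.ext h)
    exact exists_zpow_of_mem_adjoin V hK hx0 hx1 (c i).2 h0
  obtain ⟨j, hj, hmax⟩ := s.exists_max_image (fun i => V.valuation (c i • z i)) hsne
  have hsum' : ∑ i ∈ s, c i • z i = 0 := by
    rw [← hsum]
    apply Finset.sum_subset (Finset.subset_univ _)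
    intro i _ hi
    have : c i = 0 := by
      by_contra h
      exact hi ((hmem i).mpr h)
    rw [this, zero_smul]
  have hdist : ∀ i ∈ s, i ≠ j → V.valuation (c i • z i) ≠ V.valuation (c j • z j) := by
    intro i hi hij heq
    obtain ⟨k, hk1⟩ := hk i hi
    obtain ⟨k', hk2⟩ := hk j hj
    rw [hsmul, hsmul, map_mul, map_mul, hk1, hk2] at heq
    exact hij (hinj (zpow_mul_inj hvx hx1 (hz i) (hz j) heq))
  have hlt : ∀ i ∈ s \ {j}, V.valuation (c i • z i) < V.valuation (c j • z j) := by
    intro i hi
    rw [Finset.mem_sdiff, Finset.mem_singleton] at hi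
    exact lt_of_le_of_ne (hmax i hi.1) (hdist i hi.1 hi.2)
  have h1 := Valuation.map_sum_eq_of_lt V.valuation hj hlt
  rw [hsum', map_zero] at h1
  -- but the dominant term is nonzero
  have h2 : c j • z j ≠ 0 := by
    rw [hsmul]
    apply mul_ne_zero
    · intro h
      exact (hmem j).mp hj (Subtype.ext h)
    · intro h
      have := (hz j).1
      rw [h, map_zero] at this
      exact not_lt_zero this
  exact h2 ((Valuation.zero_iff _).mp h1.symm)

theorem card_le_finrank (hK : ∀ a : K, algebraMap K F a ∈ V) {x : F} (hx0 : x ≠ 0)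
    (hx1 : V.valuation x < 1) [FiniteDimensional K⟮x⟯ F] {ι : Type*} [Fintype ι] (z : ι → F)
    (hz : ∀ i, V.valuation x < V.valuation (z i) ∧ V.valuation (z i) ≤ 1)
    (hinj : Function.Injective fun i => V.valuation (z i)) :
    Fintype.card ι ≤ Module.finrank K⟮x⟯ F :=
  (linearIndependent_of_valuation V hK hx0 hx1 z hz hinj).fintype_card_le_finrank

/-- only finitely many values lie in the fundamental domain `(v x, 1]`. -/
theorem finite_values (hK : ∀ a : K, algebraMap K F a ∈ V) {x : F} (hx0 : x ≠ 0)
    (hx1 : V.valuation x < 1) [FiniteDimensional K⟮x⟯ F] :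
    {γ : V.ValueGroup | V.valuation x < γ ∧ γ ≤ 1}.Finite := by
  classical
  by_contra hinf
  obtain ⟨t, hts, htc⟩ := Set.Infinite.exists_subset_card_eq hinf (Module.finrank K⟮x⟯ F + 1)
  have hsurj := V.valuation_surjective
  let z : t → F := fun i => (hsurj i.1).choose
  have hzv : ∀ i : t, V.valuation (z i) = i.1 := fun i => (hsurj i.1).choose_spec
  have h1 := card_le_finrank V hK hx0 hx1 z
    (fun i => by rw [hzv i]; exact hts i.2)
    (fun i i' h => by
      apply Subtype.ext
      have : V.valuation (z i) = V.valuation (z i') := h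
      rwa [hzv, hzv] at this)
  rw [Fintype.card_coe, htc] at h1
  omega

/-- a valuation subring `≠ ⊤` containing `K` has a uniformizer. -/
theorem exists_uniformizer (hK : ∀ a : K, algebraMap K F a ∈ V) (hne : V ≠ ⊤)
    (hfin : ∀ x : F, Transcendental K x → FiniteDimensional K⟮x⟯ F) :
    ∃ t : F, t ≠ 0 ∧ V.valuation t < 1 ∧
      ∀ z : F, V.valuation z < 1 → V.valuation z ≤ V.valuation t := by
  classical
  -- a nonzero non-unit
  obtain ⟨y, hy⟩ : ∃ y : F, y ∉ V := by
    by_contra h
    push Not at h
    exact hne (SetLike.ext fun a => ⟨fun _ => ValuationSubring.mem_top a, fun _ => h a⟩)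
  have hy0 : y ≠ 0 := fun h => hy (h ▸ V.zero_mem)
  set x := y⁻¹ with hxdef
  have hx0 : x ≠ 0 := inv_ne_zero hy0
  have hx1 : V.valuation x < 1 := by
    have h1 : 1 < V.valuation y := by
      by_contra h
      exact hy ((V.valuation_le_one_iff y).mp (not_lt.mp h))
    rw [hxdef, map_inv₀]
    exact inv_lt_one_of_one_lt₀ h1
  haveI := hfin x (transcendental_of_valuation_lt_one V hK hx0 hx1)
  have hfinT : {γ : V.ValueGroup | V.valuation x ≤ γ ∧ γ < 1}.Finite := by
    refine ((finite_values V hK hx0 hx1).union (Set.finite_singleton (V.valuation x))).subset ?_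
    rintro γ ⟨h1, h2⟩
    rcases h1.lt_or_eq with h | h
    · exact Or.inl ⟨h, h2.le⟩
    · exact Or.inr h.symm
  have hneT : (hfinT.toFinset).Nonempty :=
    ⟨V.valuation x, (Set.Finite.mem_toFinset hfinT).mpr ⟨le_rfl, hx1⟩⟩
  obtain ⟨γ₀, hγ₀, hmax⟩ := hfinT.toFinset.exists_max_image id hneT
  rw [Set.Finite.mem_toFinset] at hγ₀
  obtain ⟨t, ht⟩ := V.valuation_surjective γ₀
  refine ⟨t, ?_, by rw [ht]; exact hγ₀.2, ?_⟩
  · intro h
    rw [h, map_zero] at ht
    have : 0 < γ₀ := lt_of_lt_of_le (zero_lt_iff.mpr ((Valuation.ne_zero_iff _).mpr hx0)) hγ₀.1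
    exact this.ne ht
  · intro z hz
    rw [ht]
    by_cases hxz : V.valuation x ≤ V.valuation z
    · exact hmax _ ((Set.Finite.mem_toFinset hfinT).mpr ⟨hxz, hz⟩)
    · exact (not_le.mp hxz).le.trans hγ₀.1

/-- every nonzero element of `V` is a unit times a power of the uniformizer. -/
theorem exists_pow_eq (hK : ∀ a : K, algebraMap K F a ∈ V)
    (hfin : ∀ x : F, Transcendental K x → FiniteDimensional K⟮x⟯ F) {t : F} (ht0 : t ≠ 0)
    (ht1 : V.valuation t < 1)
    (hmax : ∀ z : F, V.valuation z < 1 → V.valuation z ≤ V.valuation t) {z : F} (hz0 : z ≠ 0)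
    (hz : V.valuation z ≤ 1) : ∃ k : ℕ, V.valuation z = V.valuation t ^ k := by
  classical
  have hvt : 0 < V.valuation t := zero_lt_iff.mpr ((Valuation.ne_zero_iff _).mpr ht0)
  rcases hz.lt_or_eq with hlt | heq
  swap
  · exact ⟨0, by rw [heq, pow_zero]⟩
  haveI := hfin z (transcendental_of_valuation_lt_one V hK hz0 hlt)
  have hfinS := finite_values V hK hz0 hlt
  have hex : ∃ k : ℕ, V.valuation t ^ k ≤ V.valuation z := by
    by_contra h
    push Not at h
    have hinj : Function.Injective fun k : ℕ => V.valuation t ^ k :=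
      (pow_right_strictAnti₀ hvt ht1).injective
    exact Set.infinite_of_injective_forall_mem hinj
      (fun k => (⟨h k, pow_le_one₀ hvt.le ht1.le⟩ :
        V.valuation z < V.valuation t ^ k ∧ V.valuation t ^ k ≤ 1)) hfinS
  have hk := Nat.find_spec hex
  have hkmin := fun m => Nat.find_min hex (m := m)
  set k := Nat.find hex with hkdef
  have hk0 : k ≠ 0 := by
    intro h0
    rw [h0, pow_zero] at hk
    exact absurd hlt (not_lt.mpr hk)
  obtain ⟨m, hm⟩ := Nat.exists_eq_succ_of_ne_zero hk0
  have hm1 : V.valuation z < V.valuation t ^ m := by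
    have := hkmin m (by omega)
    exact not_le.mp this
  have hw : V.valuation (z / t ^ m) < 1 := by
    rw [map_div₀, map_pow]
    exact (div_lt_one₀ (pow_pos hvt m)).mpr hm1
  have h2 := hmax _ hw
  rw [map_div₀, map_pow, div_le_iff₀ (pow_pos hvt m)] at h2
  refine ⟨k, le_antisymm ?_ hk⟩
  rw [hm, pow_succ']
  exact h2

/-- **Stichtenoth 1.1.6.** A valuation subring `V ≠ ⊤` of `F` containing `K` is a discrete
valuation ring, as soon as `F` is finite over `K(x)` for every transcendental `x`. -/
theorem isDiscreteValuationRing_of_valuationSubring (hK : ∀ a : K, algebraMap K F a ∈ V)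
    (hne : V ≠ ⊤) (hfin : ∀ x : F, Transcendental K x → FiniteDimensional K⟮x⟯ F) :
    IsDiscreteValuationRing V := by
  obtain ⟨t, ht0, ht1, hmax⟩ := exists_uniformizer V hK hne hfin
  have hvt : 0 < V.valuation t := zero_lt_iff.mpr ((Valuation.ne_zero_iff _).mpr ht0)
  have htV : t ∈ V := (V.valuation_le_one_iff t).mp ht1.le
  apply IsDiscreteValuationRing.ofHasUnitMulPowIrreducibleFactorization
  refine ⟨⟨t, htV⟩, ?_, ?_⟩
  · -- irreducible
    refine ⟨?_, ?_⟩
    · intro hu
      have := (V.valuation_eq_one_iff ⟨t, htV⟩).mp hu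
      exact ht1.ne this
    · intro a b hab
      by_contra hcon
      push Not at hcon
      obtain ⟨ha, hb⟩ := hcon
      have ha1 : V.valuation (a : F) < 1 :=
        lt_of_le_of_ne (V.valuation_le_one a) (fun h => ha ((V.valuation_eq_one_iff a).mpr h))
      have hb1 : V.valuation (b : F) < 1 :=
        lt_of_le_of_ne (V.valuation_le_one b) (fun h => hb ((V.valuation_eq_one_iff b).mpr h))
      have hab' : t = (a : F) * (b : F) := congrArg Subtype.val hab
      have h1 : V.valuation t = V.valuation (a : F) * V.valuation (b : F) := by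
        rw [hab', map_mul]
      have h2 : V.valuation (a : F) ≤ V.valuation t := hmax _ ha1
      have h3 : V.valuation t < V.valuation t := by
        calc V.valuation t = V.valuation (a : F) * V.valuation (b : F) := h1
          _ ≤ V.valuation t * V.valuation (b : F) := by gcongr
          _ < V.valuation t * 1 := by gcongr
          _ = V.valuation t := mul_one _
      exact lt_irrefl _ h3
  · intro z hz
    have hz0 : (z : F) ≠ 0 := fun h => hz (Subtype.ext h)
    obtain ⟨k, hk⟩ := exists_pow_eq V hK hfin ht0 ht1 hmax hz0 (V.valuation_le_one z)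
    refine ⟨k, ?_⟩
    -- the unit `z / t^k`
    have hu1 : V.valuation ((z : F) / t ^ k) = 1 := by
      rw [map_div₀, map_pow, hk, div_self (pow_ne_zero _ hvt.ne')]
    have huV : (z : F) / t ^ k ∈ V := (V.valuation_le_one_iff _).mp hu1.le
    have hu : IsUnit (⟨(z : F) / t ^ k, huV⟩ : V) := (V.valuation_eq_one_iff _).mpr hu1
    refine ⟨hu.unit, ?_⟩
    apply Subtype.ext
    simp only [IsUnit.unit_spec, MulMemClass.coe_mul, SubmonoidClass.coe_pow]
    field_simp

theorem isPrincipalIdealRing_of_valuationSubring (hK : ∀ a : K, algebraMap K F a ∈ V)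
    (hne : V ≠ ⊤) (hfin : ∀ x : F, Transcendental K x → FiniteDimensional K⟮x⟯ F) :
    IsPrincipalIdealRing V := by
  haveI := isDiscreteValuationRing_of_valuationSubring V hK hne hfin
  infer_instance

/-- the Prelude place attached to a valuation subring `≠ ⊤` containing `K`. -/
def placeOfValuationSubring (hK : ∀ a : K, algebraMap K F a ∈ V)
    (hne : V ≠ ⊤) (hfin : ∀ x : F, Transcendental K x → FiniteDimensional K⟮x⟯ F) :
    Place K F where
  toValuationSubring := V
  algebraMap_mem' := hK
  ne_top' := hne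
  isPrincipalIdealRing' := isPrincipalIdealRing_of_valuationSubring V hK hne hfin

end valsub

section places

open Fermat.Agent.S24.H30Zeros
open scoped IntermediateField.algebraAdjoinAdjoin

/-- transcendence degree one exchange: `F` is algebraic over `K(t)` for any transcendental `t`. -/
theorem isAlgebraic_adjoin_of_transcendental {x t : F}
    [halg : Algebra.IsAlgebraic K⟮x⟯ F] (ht : Transcendental K t) :
    Algebra.IsAlgebraic K⟮t⟯ F := by
  have h1 : Algebra.IsAlgebraic (Algebra.adjoin K {x}) F :=
    (IsFractionRing.comap_isAlgebraic_iff (A := Algebra.adjoin K {x}) (K := K⟮x⟯) (C := F)).mpr halg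
  have h2 : Algebra.trdeg K F ≤ Cardinal.mk ({x} : Set F) :=
    Algebra.IsAlgebraic.trdeg_le_cardinalMk K {x}
  have h3 : AlgebraicIndependent K (fun _ : PUnit => t) := by
    rw [algebraicIndependent_unique_type_iff]
    exact ht
  have h4 : IsTranscendenceBasis K (fun _ : PUnit => t) := by
    apply h3.isTranscendenceBasis_of_trdeg_le_of_finite
    refine h2.trans ?_
    simp
  have h5 := h4.isAlgebraic_field
  have : Set.range (fun _ : PUnit => t) = {t} := by
    ext; simp
  rwa [this] at h5

/-- `F` is finite over `K(t)` for every transcendental `t`, if it is for one `x`. -/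
theorem finiteDimensional_adjoin_of_transcendental (x : F) [FiniteDimensional K⟮x⟯ F]
    {t : F} (ht : Transcendental K t) : FiniteDimensional K⟮t⟯ F := by
  haveI h1 : Algebra.EssFiniteType K K⟮x⟯ :=
    IntermediateField.essFiniteType_iff.mpr ⟨{x}, by simp⟩
  haveI h3 : Algebra.EssFiniteType K F := Algebra.EssFiniteType.comp K K⟮x⟯ F
  haveI h4 : Algebra.EssFiniteType K⟮t⟯ F := Algebra.EssFiniteType.of_comp K K⟮t⟯ F
  haveI h5 : Algebra.IsAlgebraic K⟮t⟯ F := isAlgebraic_adjoin_of_transcendental (x := x) ht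
  exact Algebra.finite_of_essFiniteType_of_isAlgebraic

theorem ord_neg_iff_not_mem (v : Place K F) (f : F) :
    v.ord f < 0 ↔ f ∉ v.toValuationSubring := by
  constructor
  · intro h hf
    have := ord_nonneg_of_mem v hf
    omega
  · intro h
    by_contra hn
    exact h (mem_of_ord_nonneg v (not_lt.mp hn))

/-- every valuation subring `≠ ⊤` containing `K` is (the valuation ring of) a place. -/
theorem exists_place_of_valuationSubring (x : F) [FiniteDimensional K⟮x⟯ F] (V : ValuationSubring F)
    (hK : ∀ a : K, algebraMap K F a ∈ V) (hne : V ≠ ⊤) :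
    ∃ v : Place K F, v.toValuationSubring = V :=
  ⟨placeOfValuationSubring V hK hne
    (fun _ hz => finiteDimensional_adjoin_of_transcendental x hz), rfl⟩

/-- **every transcendental element has a pole.** -/
theorem exists_place_not_mem (x : F) [FiniteDimensional K⟮x⟯ F] {y : F} (hy : Transcendental K y) :
    ∃ v : Place K F, y ∉ v.toValuationSubring := by
  have hyR : y ∉ (integralClosure K F).toSubring := by
    intro h
    have h1 : IsIntegral K y := h
    exact hy h1.isAlgebraic
  obtain ⟨V, hV, hyV⟩ := Subring.exists_le_valuationSubring_of_isIntegrallyClosedIn hyR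
  have hK : ∀ a : K, algebraMap K F a ∈ V := fun a =>
    hV ((integralClosure K F).algebraMap_mem a)
  have hne : V ≠ ⊤ := fun h => hyV (h ▸ ValuationSubring.mem_top y)
  obtain ⟨v, hv⟩ := exists_place_of_valuationSubring x V hK hne
  exact ⟨v, hv ▸ hyV⟩

theorem exists_place_ord_neg (x : F) [FiniteDimensional K⟮x⟯ F] {y : F} (hy : Transcendental K y) :
    ∃ v : Place K F, v.ord y < 0 := by
  obtain ⟨v, hv⟩ := exists_place_not_mem x hy
  exact ⟨v, (ord_neg_iff_not_mem v y).mpr hv⟩

theorem exists_place_ord_pos (x : F) [FiniteDimensional K⟮x⟯ F] {y : F} (hy : Transcendental K y) :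
    ∃ v : Place K F, 0 < v.ord y := by
  have hy' : Transcendental K y⁻¹ := by
    intro h
    apply hy
    have := h.inv
    rwa [inv_inv] at this
  obtain ⟨v, hv⟩ := exists_place_ord_neg x hy'
  rw [Place.ord_inv] at hv
  exact ⟨v, by omega⟩

/-- places exist (as soon as `x` is transcendental). -/
theorem exists_place (x : F) [FiniteDimensional K⟮x⟯ F] (hx : Transcendental K x) : Nonempty (Place K F) :=
  let ⟨v, _⟩ := exists_place_not_mem x hx
  ⟨v⟩

/-- pole-free ⇒ algebraic over `K`. -/
theorem isAlgebraic_of_forall_ord_nonneg (x : F) [FiniteDimensional K⟮x⟯ F] {y : F} (hy : ∀ v : Place K F, 0 ≤ v.ord y) :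
    IsAlgebraic K y := by
  by_contra h
  obtain ⟨v, hv⟩ := exists_place_ord_neg x (show Transcendental K y from h)
  have := hy v
  omega

/-- pole-free ⇒ constant (`K` algebraically closed). -/
theorem const_of_forall_ord_nonneg [IsAlgClosed K] (x : F) [FiniteDimensional K⟮x⟯ F] {y : F}
    (hy : ∀ v : Place K F, 0 ≤ v.ord y) : ∃ a : K, algebraMap K F a = y := by
  have hf := isAlgebraic_of_forall_ord_nonneg x hy
  haveI : Algebra.IsAlgebraic K K⟮y⟯ := IntermediateField.isAlgebraic_adjoin_simple hf.isIntegral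
  obtain ⟨a, ha⟩ := (IsAlgClosed.algebraMap_bijective_of_isIntegral (k := K) (K := K⟮y⟯)).2
    (AdjoinSimple.gen K y)
  refine ⟨a, ?_⟩
  have := congrArg (algebraMap K⟮y⟯ F) ha
  rwa [← IsScalarTower.algebraMap_apply, AdjoinSimple.algebraMap_gen] at this

theorem const_of_forall_ord_eq_zero [IsAlgClosed K] (x : F) [FiniteDimensional K⟮x⟯ F] {y : F}
    (hy : ∀ v : Place K F, v.ord y = 0) : ∃ a : K, algebraMap K F a = y :=
  const_of_forall_ord_nonneg x (fun v => (hy v).ge)

end places

end Fermat.Agent.S18.FFConst30
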