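/-
S18 / blueprint 14, package [FF]-PLACES (helper30): the Dedekind half of [FF], CHARACTERISTIC-FREE.

`K` algebraically closed of ANY characteristic, `F/K` a field, `x : F` a SEPARATING variable:
`x` transcendental over `K`, `F` finite and separable over `K(x)` (`SepFF K x`).

Exports (namespace `Fermat.Agent.S18.FFPlaces30`):
* `SepFF K x` (structure), `SepFF.inv`, `SepFF.sub_const`, `SepFF.add_const`;
* `zeros_formula`, `poles_formula`, `fibre_formula` : the places where `x` vanishes / has a pole /
  takes the value `c` form a finite set and the orders add up to `[F : K(x)]`;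
* `deg_eq_one`, `residue_bijective`, `finite_residueField` : every place has degree one;
* `finite_ord_support` : a nonzero `y : F` has only finitely many zeros and poles;
* `divOf y` : the divisor of `y` (a `Divisor K F`), `divOf_apply`, `divOf_mul`, `divOf_inv`,
  `isPrincipal_divOf`.
No `CharZero`.  (`deg (divOf y) = 0` for ALL `y` is in `FFSep30.lean`.)
-/
import Mathlib
import Fermat.Prelude.Def_AlgebraicCurve_DivisorClassGroup
import Fermat.Agent.S24.H30Places
import Fermat.Agent.S24.H30Fibre
import Fermat.Agent.S24.H30Zeros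

set_option autoImplicit false
set_option linter.unusedSectionVars false
set_option linter.style.haveILetI false

open IsDedekindDomain AlgebraicCurve IntermediateField

namespace Fermat.Agent.S18.FFPlaces30

open Fermat.Agent.S24.H30Places Fermat.Agent.S24.H30Fibre Fermat.Agent.S24.H30Zeros
open scoped IntermediateField.algebraAdjoinAdjoin

variable {K F : Type*} [Field K] [Field F] [Algebra K F]

/-- `x` is a separating variable of the function field `F/K`. -/
structure SepFF (K : Type*) {F : Type*} [Field K] [Field F] [Algebra K F] (x : F) : Prop where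
  transcendental : Transcendental K x
  finite : FiniteDimensional K⟮x⟯ F
  separable : Algebra.IsSeparable K⟮x⟯ F

section transfer

theorem sepFF_of_adjoin_eq {x y : F} (h : SepFF K x) (hy : Transcendental K y)
    (heq : K⟮y⟯ = K⟮x⟯) : SepFF K y := by
  obtain ⟨_, h2, h3⟩ := h
  refine ⟨hy, ?_, ?_⟩
  · rw [heq]; exact h2
  · rw [heq]; exact h3

theorem adjoin_inv_eq (x : F) : K⟮x⁻¹⟯ = K⟮x⟯ := by
  apply le_antisymm
  · rw [adjoin_simple_le_iff]
    exact inv_mem (mem_adjoin_simple_self K x)
  · rw [adjoin_simple_le_iff]
    have := inv_mem (mem_adjoin_simple_self K x⁻¹)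
    rwa [inv_inv] at this

theorem adjoin_sub_const_eq (x : F) (c : K) : K⟮x - algebraMap K F c⟯ = K⟮x⟯ := by
  apply le_antisymm
  · rw [adjoin_simple_le_iff]
    exact sub_mem (mem_adjoin_simple_self K x) (IntermediateField.algebraMap_mem _ c)
  · rw [adjoin_simple_le_iff]
    have := add_mem (mem_adjoin_simple_self K (x - algebraMap K F c))
      (IntermediateField.algebraMap_mem K⟮x - algebraMap K F c⟯ c)
    rwa [sub_add_cancel] at this

theorem transcendental_inv {x : F} (hx : Transcendental K x) : Transcendental K x⁻¹ := by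
  intro h
  apply hx
  have := h.inv
  rwa [inv_inv] at this

theorem transcendental_sub_const {x : F} (hx : Transcendental K x) (c : K) :
    Transcendental K (x - algebraMap K F c) := by
  intro h
  apply hx
  have := h.add (isAlgebraic_algebraMap (R := K) (A := F) c)
  rwa [sub_add_cancel] at this

theorem SepFF.inv {x : F} (h : SepFF K x) : SepFF K x⁻¹ :=
  sepFF_of_adjoin_eq h (transcendental_inv h.transcendental) (adjoin_inv_eq x)

theorem SepFF.sub_const {x : F} (h : SepFF K x) (c : K) : SepFF K (x - algebraMap K F c) :=
  sepFF_of_adjoin_eq h (transcendental_sub_const h.transcendental c) (adjoin_sub_const_eq x c)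

theorem SepFF.add_const {x : F} (h : SepFF K x) (c : K) : SepFF K (x + algebraMap K F c) := by
  have := h.sub_const (-c)
  rwa [map_neg, sub_neg_eq_add] at this

end transfer

section pid

theorem isPrincipalIdealRing_adjoin (t : F) (ht : Transcendental K t) :
    IsPrincipalIdealRing (Algebra.adjoin K {t}) :=
  IsPrincipalIdealRing.of_surjective
    (Polynomial.algEquivOfTranscendental K t ht).toRingEquiv.toRingHom
    (Polynomial.algEquivOfTranscendental K t ht).surjective

end pid

section formulas

variable [IsAlgClosed K]

/-- **Zeros formula** (any characteristic, separating variable).  The places where `t` vanishes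
form a finite set and the orders of vanishing add up to `[F : K(t)]`. -/
theorem zeros_formula {t : F} (h : SepFF K t) :
    ∃ s : Finset (Place K F), (∀ v : Place K F, v ∈ s ↔ 0 < v.ord t) ∧
      ∑ v ∈ s, v.ord t = (Module.finrank K⟮t⟯ F : ℤ) := by
  have ht := h.transcendental
  haveI := h.finite
  haveI := h.separable
  haveI := isPrincipalIdealRing_adjoin t ht
  haveI : IsDedekindDomain (integralClosure (Algebra.adjoin K {t}) F) :=
    integralClosure.isDedekindDomain (Algebra.adjoin K {t}) K⟮t⟯ F
  haveI : IsFractionRing (integralClosure (Algebra.adjoin K {t}) F) F :=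
    integralClosure.isFractionRing_of_finite_extension K⟮t⟯ F
  haveI : Module.Finite (Algebra.adjoin K {t}) (integralClosure (Algebra.adjoin K {t}) F) :=
    IsIntegralClosure.finite (Algebra.adjoin K {t}) K⟮t⟯ F _
  haveI : IsScalarTower K (Algebra.adjoin K {t}) (integralClosure (Algebra.adjoin K {t}) F) :=
    IsScalarTower.of_algebraMap_eq (fun x => rfl)
  haveI : IsScalarTower K (integralClosure (Algebra.adjoin K {t}) F) F :=
    IsScalarTower.of_algebraMap_eq (fun x => rfl)
  haveI hft : Algebra.FiniteType K (Algebra.adjoin K {t}) :=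
    Algebra.FiniteType.equiv inferInstance (Polynomial.algEquivOfTranscendental K t ht)
  haveI : Algebra.FiniteType K (integralClosure (Algebra.adjoin K {t}) F) :=
    Algebra.FiniteType.trans hft inferInstance
  -- the generator
  set τ : Algebra.adjoin K {t} := ⟨t, Algebra.self_mem_adjoin_singleton K t⟩ with hτ
  have hτ0 : τ ≠ 0 := by
    intro h0
    have : t = 0 := congrArg Subtype.val h0
    exact ht (this ▸ isAlgebraic_zero)
  have hτX : τ = Polynomial.algEquivOfTranscendental K t ht Polynomial.X := by
    apply Subtype.ext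
    simp [hτ]
  have hirr : Irreducible τ := by
    rw [hτX]
    exact (MulEquiv.irreducible_iff (Polynomial.algEquivOfTranscendental K t ht)).mpr
      Polynomial.irreducible_X
  have hmax : (Ideal.span {τ}).IsMaximal := PrincipalIdealRing.isMaximal_of_irreducible hirr
  obtain ⟨s, hs, hsum⟩ := sum_ord_eq_finrank (K := K) (F := F)
    (B := integralClosure (Algebra.adjoin K {t}) F) τ hτ0 hmax
  have hval : algebraMap (integralClosure (Algebra.adjoin K {t}) F) F
      (algebraMap (Algebra.adjoin K {t}) (integralClosure (Algebra.adjoin K {t}) F) τ) = t := rfl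
  rw [hval] at hsum
  simp only [hval] at hs
  refine ⟨s, ?_, ?_⟩
  · intro v
    rw [hs v]
    constructor
    · exact fun h => h.2
    · intro hpos
      refine ⟨?_, hpos⟩
      have htv : t ∈ v.toValuationSubring := mem_of_ord_nonneg v hpos.le
      have hA : ∀ r : Algebra.adjoin K {t}, algebraMap (Algebra.adjoin K {t}) F r ∈
          v.toValuationSubring := fun r => adjoin_le_valSubalgebra v htv r.2
      intro b
      exact mem_of_isIntegral v hA b.2
  · rw [hsum, IsFractionRing.finrank_eq (Algebra.adjoin K {t}) K⟮t⟯
      (integralClosure (Algebra.adjoin K {t}) F) F]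

theorem finrank_adjoin_congr {x y : F} (heq : K⟮y⟯ = K⟮x⟯) :
    Module.finrank K⟮y⟯ F = Module.finrank K⟮x⟯ F := by
  rw [heq]

/-- **Poles formula.** -/
theorem poles_formula {t : F} (h : SepFF K t) :
    ∃ s : Finset (Place K F), (∀ v : Place K F, v ∈ s ↔ v.ord t < 0) ∧
      ∑ v ∈ s, -v.ord t = (Module.finrank K⟮t⟯ F : ℤ) := by
  obtain ⟨s, hs, hsum⟩ := zeros_formula h.inv
  refine ⟨s, fun v => ?_, ?_⟩
  · rw [hs v, Place.ord_inv]; omega
  · rw [← finrank_adjoin_congr (adjoin_inv_eq (K := K) t), ← hsum]
    exact Finset.sum_congr rfl fun v _ => (Place.ord_inv v t).symm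

/-- **Fibre formula** over `t = c`. -/
theorem fibre_formula {t : F} (h : SepFF K t) (c : K) :
    ∃ s : Finset (Place K F), (∀ v : Place K F, v ∈ s ↔ 0 < v.ord (t - algebraMap K F c)) ∧
      ∑ v ∈ s, v.ord (t - algebraMap K F c) = (Module.finrank K⟮t⟯ F : ℤ) := by
  obtain ⟨s, hs, hsum⟩ := zeros_formula (h.sub_const c)
  exact ⟨s, hs, by rw [hsum, finrank_adjoin_congr (adjoin_sub_const_eq (K := K) t c)]⟩

end formulas

section model

/-- the integral closure of `K[t]` in `F` (the affine Dedekind model attached to `t`). -/
abbrev Bt (K : Type*) {F : Type*} [Field K] [Field F] [Algebra K F] (t : F) : Type _ :=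
  integralClosure (Algebra.adjoin K {t}) F

theorem isScalarTower_adjoin_Bt (t : F) :
    IsScalarTower K (Algebra.adjoin K {t}) (Bt K t) :=
  IsScalarTower.of_algebraMap_eq (fun _ => rfl)

theorem isScalarTower_Bt (t : F) : IsScalarTower K (Bt K t) F :=
  IsScalarTower.of_algebraMap_eq (fun _ => rfl)

theorem isDedekindDomain_Bt {t : F} (h : SepFF K t) : IsDedekindDomain (Bt K t) := by
  haveI := h.finite
  haveI := h.separable
  haveI := isPrincipalIdealRing_adjoin t h.transcendental
  exact integralClosure.isDedekindDomain (Algebra.adjoin K {t}) K⟮t⟯ F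

theorem isFractionRing_Bt {t : F} (h : SepFF K t) : IsFractionRing (Bt K t) F := by
  haveI := h.finite
  exact integralClosure.isFractionRing_of_finite_extension K⟮t⟯ F

theorem finite_Bt {t : F} (h : SepFF K t) : Module.Finite (Algebra.adjoin K {t}) (Bt K t) := by
  haveI := h.finite
  haveI := h.separable
  haveI := isPrincipalIdealRing_adjoin t h.transcendental
  exact IsIntegralClosure.finite (Algebra.adjoin K {t}) K⟮t⟯ F _

theorem finiteType_Bt {t : F} (h : SepFF K t) : Algebra.FiniteType K (Bt K t) := by
  haveI := finite_Bt h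
  haveI := isScalarTower_adjoin_Bt (K := K) t
  haveI hft : Algebra.FiniteType K (Algebra.adjoin K {t}) :=
    Algebra.FiniteType.equiv inferInstance
      (Polynomial.algEquivOfTranscendental K t h.transcendental)
  exact Algebra.FiniteType.trans hft inferInstance

/-- a place whose valuation ring contains `t` contains the whole model `Bt K t`. -/
theorem mem_of_mem_Bt (v : Place K F) {t : F} (htv : t ∈ v.toValuationSubring) (b : Bt K t) :
    algebraMap (Bt K t) F b ∈ v.toValuationSubring := by
  have hA : ∀ r : Algebra.adjoin K {t}, algebraMap (Algebra.adjoin K {t}) F r ∈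
      v.toValuationSubring := fun r => adjoin_le_valSubalgebra v htv r.2
  exact mem_of_isIntegral v hA b.2

theorem t_mem_of_Bt_le (v : Place K F) {t : F}
    (hv : ∀ b : Bt K t, algebraMap (Bt K t) F b ∈ v.toValuationSubring) :
    t ∈ v.toValuationSubring := by
  have ht : t ∈ integralClosure (Algebra.adjoin K {t}) F :=
    (integralClosure (Algebra.adjoin K {t}) F).algebraMap_mem
      ⟨t, Algebra.self_mem_adjoin_singleton K t⟩
  exact hv ⟨t, ht⟩

section degone

variable [IsAlgClosed K]

/-- every place of `F/K` has degree one. -/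
theorem deg_eq_one {t : F} (h : SepFF K t) (v : Place K F) : v.deg = 1 := by
  rcases v.toValuationSubring.mem_or_inv_mem t with ht | ht
  · haveI := isDedekindDomain_Bt h
    haveI := isFractionRing_Bt h
    haveI := isScalarTower_Bt (K := K) t
    haveI := finiteType_Bt h
    exact Fermat.Agent.S24.H30Places.deg_eq_one v (mem_of_mem_Bt v ht)
  · haveI := isDedekindDomain_Bt h.inv
    haveI := isFractionRing_Bt h.inv
    haveI := isScalarTower_Bt (K := K) t⁻¹
    haveI := finiteType_Bt h.inv
    exact Fermat.Agent.S24.H30Places.deg_eq_one v (mem_of_mem_Bt v ht)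

theorem residue_bijective {t : F} (h : SepFF K t) (v : Place K F) :
    Function.Bijective (algebraMap K v.ResidueField) := by
  refine ⟨(algebraMap K v.ResidueField).injective, ?_⟩
  rcases v.toValuationSubring.mem_or_inv_mem t with ht | ht
  · haveI := isDedekindDomain_Bt h
    haveI := isFractionRing_Bt h
    haveI := isScalarTower_Bt (K := K) t
    haveI := finiteType_Bt h
    exact residue_algebraMap_surjective v (mem_of_mem_Bt v ht)
  · haveI := isDedekindDomain_Bt h.inv
    haveI := isFractionRing_Bt h.inv
    haveI := isScalarTower_Bt (K := K) t⁻¹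
    haveI := finiteType_Bt h.inv
    exact residue_algebraMap_surjective v (mem_of_mem_Bt v ht)

theorem finite_residueField {t : F} (h : SepFF K t) (v : Place K F) :
    Module.Finite K v.ResidueField := by
  have e : K ≃ₗ[K] v.ResidueField :=
    LinearEquiv.ofBijective (Algebra.linearMap K v.ResidueField) (residue_bijective h v)
  exact Module.Finite.equiv e

end degone

/-- places whose valuation ring contains `t` ↔ height one primes of the model `Bt K t`
(instances: `isDedekindDomain_Bt h`, `isFractionRing_Bt h`). -/
noncomputable def placeEquivBt (K : Type*) {F : Type*} [Field K] [Field F] [Algebra K F] (t : F)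
    [IsDedekindDomain (Bt K t)] [IsFractionRing (Bt K t) F] :
    {v : Place K F // t ∈ v.toValuationSubring} ≃ HeightOneSpectrum (Bt K t) :=
  haveI := isScalarTower_Bt (K := K) t
  (Equiv.subtypeEquivRight (fun v : Place K F =>
    ⟨fun ht => mem_of_mem_Bt v ht, fun hv => t_mem_of_Bt_le v hv⟩)).trans
    (placeEquiv K (Bt K t))

theorem ord_placeEquivBt_symm (t : F)
    [IsDedekindDomain (Bt K t)] [IsFractionRing (Bt K t) F]
    (P : HeightOneSpectrum (Bt K t)) (f : F) :
    (((placeEquivBt K t).symm P : {v : Place K F // t ∈ v.toValuationSubring}) : Place K F).ord f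
      = -(WithZero.log (P.valuation F f)) := by
  haveI := isScalarTower_Bt (K := K) t
  exact ord_placeOfPrime P f

end model

section support

variable [IsAlgClosed K]

theorem ord_neg_iff_not_mem (v : Place K F) (f : F) :
    v.ord f < 0 ↔ f ∉ v.toValuationSubring := by
  constructor
  · intro h hf
    have := ord_nonneg_of_mem v hf
    omega
  · intro h
    by_contra hn
    exact h (mem_of_ord_nonneg v (not_lt.mp hn))

/-- the zeros and poles of `y ≠ 0` lying in the affine chart `t ∈ O_v` are finitely many. -/
theorem finite_ord_support_chart {t : F} (h : SepFF K t) {y : F} (hy : y ≠ 0) :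
    {v : Place K F | t ∈ v.toValuationSubring ∧ v.ord y ≠ 0}.Finite := by
  classical
  haveI := isDedekindDomain_Bt h
  haveI := isFractionRing_Bt h
  haveI := isScalarTower_Bt (K := K) t
  have hfin : (HeightOneSpectrum.Support (Bt K t) y ∪
      HeightOneSpectrum.Support (Bt K t) y⁻¹).Finite :=
    (HeightOneSpectrum.Support.finite (Bt K t) y).union
      (HeightOneSpectrum.Support.finite (Bt K t) y⁻¹)
  refine (hfin.image (placeOfPrime (K := K) (Bt K t))).subset ?_
  rintro v ⟨htv, hne⟩
  have hB := mem_of_mem_Bt v htv
  refine ⟨primeOfPlace v hB, ?_, placeOfPrime_primeOfPlace v hB⟩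
  have hord : v.ord y = -(WithZero.log ((primeOfPlace v hB).valuation F y)) := by
    have := ord_placeOfPrime (K := K) (primeOfPlace v hB) y
    rwa [placeOfPrime_primeOfPlace v hB] at this
  have hv0 : (primeOfPlace v hB).valuation F y ≠ 0 := (Valuation.ne_zero_iff _).mpr hy
  rcases lt_trichotomy ((primeOfPlace v hB).valuation F y) 1 with hlt | heq | hgt
  · right
    show 1 < (primeOfPlace v hB).valuation F y⁻¹
    rw [map_inv₀]
    exact (one_lt_inv₀ (zero_lt_iff.mpr hv0)).mpr hlt
  · exfalso
    apply hne
    rw [hord, heq]
    simp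
  · left
    exact hgt

/-- a nonzero element has only finitely many zeros and poles. -/
theorem finite_ord_support {t : F} (h : SepFF K t) {y : F} (hy : y ≠ 0) :
    {v : Place K F | v.ord y ≠ 0}.Finite := by
  obtain ⟨s, hs, -⟩ := poles_formula h
  refine ((finite_ord_support_chart h hy).union s.finite_toSet).subset ?_
  intro v hv
  by_cases htv : t ∈ v.toValuationSubring
  · exact Or.inl ⟨htv, hv⟩
  · right
    rw [Finset.mem_coe, hs v, ord_neg_iff_not_mem]
    exact htv

open Classical in
/-- the divisor of `y` (zero for `y = 0`). -/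
noncomputable def divOf {t : F} (h : SepFF K t) (y : F) : Divisor K F :=
  if hy : y = 0 then 0 else
    Finsupp.ofSupportFinite (fun v : Place K F => v.ord y) (finite_ord_support h hy)

@[simp] theorem divOf_apply {t : F} (h : SepFF K t) (y : F) (v : Place K F) :
    divOf h y v = v.ord y := by
  unfold divOf
  split_ifs with hy
  · subst hy; simp
  · rfl

theorem divOf_mul {t : F} (h : SepFF K t) {y z : F} (hy : y ≠ 0) (hz : z ≠ 0) :
    divOf h (y * z) = divOf h y + divOf h z := by
  ext v
  simp [Place.ord_mul v hy hz]

theorem divOf_inv {t : F} (h : SepFF K t) (y : F) : divOf h y⁻¹ = -divOf h y := by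
  ext v
  simp [Place.ord_inv]

theorem divOf_one {t : F} (h : SepFF K t) : divOf h (1 : F) = 0 := by
  ext v
  simp

theorem isPrincipal_divOf {t : F} (h : SepFF K t) {y : F} (hy : y ≠ 0) :
    Divisor.IsPrincipal (divOf h y) :=
  ⟨y, hy, fun v => divOf_apply h y v⟩

theorem eq_divOf_of_isPrincipal {t : F} (h : SepFF K t) {D : Divisor K F} {y : F}
    (hD : ∀ v : Place K F, D v = v.ord y) : D = divOf h y := by
  ext v
  rw [hD v, divOf_apply]

/-- with all places of degree one, the degree of a divisor is the sum of its coefficients. -/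
theorem degree_eq_sum {t : F} (h : SepFF K t) (D : Divisor K F) :
    Divisor.degree D = D.sum fun _ n => n := by
  induction D using Finsupp.induction with
  | zero => simp
  | single_add v n D hv hn ih =>
    rw [map_add, ih, Divisor.degree_single, deg_eq_one h v, Finsupp.sum_add_index' (by simp)
      (by intros; rfl)]
    simp

/-- the divisor of a SEPARATING element has degree zero. -/
theorem degree_divOf_of_sepFF {t : F} (h : SepFF K t) {y : F} (hy : SepFF K y) :
    Divisor.degree (divOf h y) = 0 := by
  classical
  obtain ⟨s0, hs0, hsum0⟩ := zeros_formula hy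
  obtain ⟨s1, hs1, hsum1⟩ := poles_formula hy
  have hdisj : Disjoint s0 s1 := by
    rw [Finset.disjoint_left]
    intro v h0 h1
    have := (hs0 v).mp h0
    have := (hs1 v).mp h1
    omega
  have hsupp : (divOf h y).support = s0 ∪ s1 := by
    ext v
    rw [Finsupp.mem_support_iff, divOf_apply, Finset.mem_union, hs0 v, hs1 v]
    omega
  rw [degree_eq_sum h, Finsupp.sum, hsupp, Finset.sum_union hdisj]
  simp only [divOf_apply]
  have : ∑ v ∈ s1, v.ord y = - ∑ v ∈ s1, - v.ord y := by
    rw [Finset.sum_neg_distrib, neg_neg]
  rw [hsum0, this, hsum1]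
  ring

/-- constants have trivial divisor. -/
theorem ord_algebraMap_eq_zero (v : Place K F) (a : K) : v.ord (algebraMap K F a) = 0 := by
  rcases eq_or_ne a 0 with rfl | ha
  · simp
  have h1 := ord_nonneg_of_mem v (v.algebraMap_mem' a)
  have h2 := ord_nonneg_of_mem v (v.algebraMap_mem' a⁻¹)
  rw [map_inv₀, Place.ord_inv] at h2
  omega

theorem divOf_algebraMap {t : F} (h : SepFF K t) (a : K) : divOf h (algebraMap K F a) = 0 := by
  ext v
  simp [ord_algebraMap_eq_zero]

theorem exists_eq_algebraMap_of_isAlgebraic {f : F} (hf : IsAlgebraic K f) :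
    ∃ a : K, algebraMap K F a = f := by
  haveI : Algebra.IsAlgebraic K K⟮f⟯ := IntermediateField.isAlgebraic_adjoin_simple hf.isIntegral
  obtain ⟨a, ha⟩ := (IsAlgClosed.algebraMap_bijective_of_isIntegral (k := K) (K := K⟮f⟯)).2
    (AdjoinSimple.gen K f)
  refine ⟨a, ?_⟩
  have := congrArg (algebraMap K⟮f⟯ F) ha
  rwa [← IsScalarTower.algebraMap_apply, AdjoinSimple.algebraMap_gen] at this

end support

end Fermat.Agent.S18.FFPlaces30
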