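/-
S18 moonshot (blueprint 14), package [NORMALIZE] (helper96).

Setting of `Def_ModularCurve_ReductionModL` (section `Spec`): `L` a field of characteristic zero,
`A` a valuation subring of `L`, `π : A →+* k`, `FL = L(t_d : d ∣ N) ⊆ L((q))`,
`Fk = k(t̄_d : d ∣ N) ⊆ k((q))`, `r` a place reduction map satisfying `IsPlaceReductionAlong`.

* `IntElt A π N` : a Laurent series `y ∈ A((q))` lying in `FL` whose reduction lies in `Fk` and is
  nonzero (exactly the elements to which clause (2) of `IsPlaceReductionAlong` applies).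
* `conservation` : `r_* (div x) = div (ā / b̄)` for every `x = c a / b`, `c ∈ Lˣ`, `a b : IntElt`.
* `normalize` : from `m D = div f`, `r_* D` principal, produce `D' ~ D` with
  `m D' = div (a / b)`, `a b : IntElt` with EQUAL reductions (so `a / b` is a `W`-unit with
  reduction `1` for the Gauss valuation `W` of [BRIDGE]).
* `eq_zero_of_normalized` : the frozen S18 statement from the three [BRIDGE]/[FF] facts
  `HasIntegralFractions`, `ReductionSurjective`, `ConstOfOrdZero` and the conclusion of
  Lemma K in normalized form.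
-/
import Mathlib
import Fermat.Prelude.Def_ModularCurve_ReductionModL

set_option autoImplicit false

noncomputable section

open HahnSeries IntermediateField AlgebraicCurve ModularCurve

namespace Fermat.Agent.S18.Normalize96

section General

variable {L : Type*} [Field L] [Algebra ℚ L] (A : ValuationSubring L)
variable {k : Type*} [Field k] (π : A →+* k) (N : ℕ)

/-- An integral element of `FL` with nonzero reduction in `Fk`. -/
structure IntElt where
  /-- the Laurent series over `A` -/
  y : LaurentSeries A
  mem : coeffMap A.subtype y ∈ laurentBaseChange L (modularFunctionFieldFull N)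
  memk : coeffMap π y ∈ modularFunctionFieldFullC k N
  ne : coeffMap π y ≠ 0

variable {A π N}

namespace IntElt

/-- the element of `FL` -/
def toF (a : IntElt A π N) : laurentBaseChange L (modularFunctionFieldFull N) :=
  ⟨coeffMap A.subtype a.y, a.mem⟩

/-- the reduction, an element of `Fk` -/
def red (a : IntElt A π N) : modularFunctionFieldFullC k N :=
  ⟨coeffMap π a.y, a.memk⟩

theorem red_ne_zero (a : IntElt A π N) : a.red ≠ 0 := fun h =>
  a.ne (congrArg Subtype.val h)

theorem y_ne_zero (a : IntElt A π N) : a.y ≠ 0 := fun h => a.ne (by rw [h, map_zero])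

theorem toF_ne_zero (a : IntElt A π N) : a.toF ≠ 0 := by
  intro h
  apply a.y_ne_zero
  have h' : coeffMap A.subtype a.y = 0 := congrArg Subtype.val h
  ext n
  have := congrArg (fun z => z.coeff n) h'
  simp only [coeffMap_coeff, HahnSeries.coeff_zero] at this
  simpa using this

end IntElt

/-- Constants have order zero at every place. -/
theorem ord_algebraMap {K F : Type*} [Field K] [Field F] [Algebra K F] (P : Place K F) (c : K)
    (hc : c ≠ 0) : P.ord (algebraMap K F c) = 0 := by
  have h1 : algebraMap K F c ∈ P.toValuationSubring := P.algebraMap_mem' c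
  have h2 : algebraMap K F c⁻¹ ∈ P.toValuationSubring := P.algebraMap_mem' c⁻¹
  have hmul : (⟨algebraMap K F c, h1⟩ : P.toValuationSubring) * ⟨algebraMap K F c⁻¹, h2⟩ = 1 := by
    apply Subtype.ext
    show algebraMap K F c * algebraMap K F c⁻¹ = 1
    rw [← map_mul, mul_inv_cancel₀ hc, map_one]
  have hu : IsUnit (⟨algebraMap K F c, h1⟩ : P.toValuationSubring) :=
    IsUnit.of_mul_eq_one _ hmul
  have := P.ord_coe_unit hu.unit
  simpa using this

variable {r : Place L (laurentBaseChange L (modularFunctionFieldFull N)) →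
  Place k (modularFunctionFieldFullC k N)}

/-- Clause (2) of `IsPlaceReductionAlong` for an `IntElt`. -/
theorem conservation_intElt (hr : IsPlaceReductionAlong A π N r) (a : IntElt A π N)
    (D : Divisor L (laurentBaseChange L (modularFunctionFieldFull N)))
    (hD : ∀ P, D P = P.ord a.toF) (Q : Place k (modularFunctionFieldFullC k N)) :
    Finsupp.mapDomain r D Q = Q.ord a.red :=
  hr.2 a.y a.mem a.memk a.ne D hD Q

/-- **Conservation**: `r_* (div x) = div (ā / b̄)` for `x = c a / b`. -/
theorem conservation [HasPrincipalDivisors L (laurentBaseChange L (modularFunctionFieldFull N))]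
    (hr : IsPlaceReductionAlong A π N r)
    (x : laurentBaseChange L (modularFunctionFieldFull N)) (c : L) (hc : c ≠ 0)
    (a b : IntElt A π N)
    (hx : x * b.toF = algebraMap L _ c * a.toF)
    (D : Divisor L (laurentBaseChange L (modularFunctionFieldFull N)))
    (hD : ∀ P, D P = P.ord x) (Q : Place k (modularFunctionFieldFullC k N)) :
    Finsupp.mapDomain r D Q = Q.ord (a.red / b.red) := by
  obtain ⟨Da, hDa, -⟩ := HasPrincipalDivisors.exists_divisor (K := L) a.toF a.toF_ne_zero
  obtain ⟨Db, hDb, -⟩ := HasPrincipalDivisors.exists_divisor (K := L) b.toF b.toF_ne_zero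
  have hx0 : x ≠ 0 := by
    intro h
    rw [h, zero_mul] at hx
    have hc' : algebraMap L (laurentBaseChange L (modularFunctionFieldFull N)) c ≠ 0 := by
      simpa using hc
    exact mul_ne_zero hc' a.toF_ne_zero hx.symm
  have hDeq : D = Da - Db := by
    ext P
    have h1 := congrArg P.ord hx
    have hc' : algebraMap L (laurentBaseChange L (modularFunctionFieldFull N)) c ≠ 0 := by
      simpa using hc
    rw [P.ord_mul hx0 b.toF_ne_zero, P.ord_mul hc' a.toF_ne_zero, ord_algebraMap P c hc,
      zero_add] at h1
    rw [Finsupp.sub_apply, hD, hDa, hDb]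
    omega
  rw [hDeq, Finsupp.mapDomain_sub, Finsupp.sub_apply, conservation_intElt hr a Da hDa,
    conservation_intElt hr b Db hDb, div_eq_mul_inv, Q.ord_mul a.red_ne_zero
      (inv_ne_zero b.red_ne_zero), Q.ord_inv]
  ring

/-! ### The three inputs from [BRIDGE] / [FF] -/

variable (A π N)

/-- [BRIDGE]: every nonzero element of `FL` is `c a / b` with `c ∈ Lˣ` and `a b : IntElt`. -/
def HasIntegralFractions : Prop :=
  ∀ x : laurentBaseChange L (modularFunctionFieldFull N), x ≠ 0 →
    ∃ (c : L) (a b : IntElt A π N), c ≠ 0 ∧ x * b.toF = algebraMap L _ c * a.toF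

/-- [BRIDGE]: every nonzero element of `Fk` is `ā / b̄` with `a b : IntElt`. -/
def ReductionSurjective : Prop :=
  ∀ g : modularFunctionFieldFullC k N, g ≠ 0 →
    ∃ a b : IntElt A π N, g * b.red = a.red

/-- [FF] for `Fk`: a function without zeros and poles is constant. -/
def ConstOfOrdZero (k : Type*) [Field k] (N : ℕ) : Prop :=
  ∀ u : modularFunctionFieldFullC k N, u ≠ 0 →
    (∀ Q : Place k (modularFunctionFieldFullC k N), Q.ord u = 0) →
      ∃ κ : k, u = algebraMap k _ κ

variable {A π N}

/-- multiplication of an `IntElt` by a unit of `A` -/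
def IntElt.unitMul (u : Aˣ) (b : IntElt A π N) : IntElt A π N where
  y := HahnSeries.single 0 (u : A) * b.y
  mem := by
    rw [map_mul, coeffMap_single]
    have h1 : HahnSeries.single (0 : ℤ) (A.subtype (u : A))
        = algebraMap L (LaurentSeries L) ((u : A) : L) := by
      rw [algebraMap_laurentSeries_eq_single]; rfl
    rw [h1]
    exact mul_mem ((laurentBaseChange L (modularFunctionFieldFull N)).algebraMap_mem _) b.mem
  memk := by
    rw [map_mul, coeffMap_single]
    have h1 : HahnSeries.single (0 : ℤ) (π (u : A))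
        = algebraMap k (LaurentSeries k) (π (u : A)) := by
      rw [algebraMap_laurentSeries_eq_single]
    rw [h1]
    exact mul_mem ((modularFunctionFieldFullC k N).algebraMap_mem _) b.memk
  ne := by
    rw [map_mul, coeffMap_single]
    have h1 : HahnSeries.single (0 : ℤ) (π (u : A))
        = algebraMap k (LaurentSeries k) (π (u : A)) := by
      rw [algebraMap_laurentSeries_eq_single]
    rw [h1]
    refine mul_ne_zero ?_ b.ne
    have hu : π (u : A) ≠ 0 := (u.isUnit.map π).ne_zero
    simpa using hu

theorem IntElt.unitMul_toF (u : Aˣ) (b : IntElt A π N) :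
    (b.unitMul u).toF = algebraMap L _ ((u : A) : L) * b.toF := by
  apply Subtype.ext
  show coeffMap A.subtype (HahnSeries.single 0 (u : A) * b.y)
    = algebraMap L (LaurentSeries L) ((u : A) : L) * coeffMap A.subtype b.y
  rw [map_mul, coeffMap_single, algebraMap_laurentSeries_eq_single]
  rfl

theorem IntElt.unitMul_red (u : Aˣ) (b : IntElt A π N) :
    (b.unitMul u).red = algebraMap k _ (π (u : A)) * b.red := by
  apply Subtype.ext
  show coeffMap π (HahnSeries.single 0 (u : A) * b.y)
    = algebraMap k (LaurentSeries k) (π (u : A)) * coeffMap π b.y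
  rw [map_mul, coeffMap_single, algebraMap_laurentSeries_eq_single]

/-- the integral element `1` -/
def IntElt.one : IntElt A π N where
  y := 1
  mem := by rw [map_one]; exact one_mem _
  memk := by rw [map_one]; exact one_mem _
  ne := by rw [map_one]; exact one_ne_zero

theorem IntElt.one_toF : (IntElt.one : IntElt A π N).toF = 1 := by
  apply Subtype.ext
  show coeffMap A.subtype (1 : LaurentSeries A) = 1
  rw [map_one]

/-- product of integral elements -/
def IntElt.mul (a b : IntElt A π N) : IntElt A π N where
  y := a.y * b.y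
  mem := by rw [map_mul]; exact mul_mem a.mem b.mem
  memk := by rw [map_mul]; exact mul_mem a.memk b.memk
  ne := by rw [map_mul]; exact mul_ne_zero a.ne b.ne

theorem IntElt.mul_toF (a b : IntElt A π N) : (a.mul b).toF = a.toF * b.toF := by
  apply Subtype.ext
  show coeffMap A.subtype (a.y * b.y) = coeffMap A.subtype a.y * coeffMap A.subtype b.y
  rw [map_mul]

/-- [FF] for `FL`: a function without zeros and poles is constant. -/
def ConstOfOrdZeroL (L : Type*) [Field L] [Algebra ℚ L] (N : ℕ) : Prop :=
  ∀ u : laurentBaseChange L (modularFunctionFieldFull N), u ≠ 0 →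
    (∀ P : Place L (laurentBaseChange L (modularFunctionFieldFull N)), P.ord u = 0) →
      ∃ c : L, u = algebraMap L _ c

/-- Every divisor in the closure of the integral principal divisors is `div a - div b` for
integral `a`, `b`. -/
theorem exists_intElt_of_mem_closure
    {E : Divisor L (laurentBaseChange L (modularFunctionFieldFull N))}
    (hE : E ∈ AddSubgroup.closure (integralPrincipalDivisors A π N)) :
    ∃ a b : IntElt A π N, ∀ P, E P = P.ord a.toF - P.ord b.toF := by
  induction hE using AddSubgroup.closure_induction with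
  | mem E hE =>
    obtain ⟨y, hy, hyk, hne, hEy⟩ := hE
    refine ⟨⟨y, hy, hyk, hne⟩, IntElt.one, fun P => ?_⟩
    rw [IntElt.one_toF, Place.ord_one, sub_zero]
    exact hEy P
  | zero =>
    exact ⟨IntElt.one, IntElt.one, fun P => by simp⟩
  | add E E' _ _ hE hE' =>
    obtain ⟨a, b, hab⟩ := hE
    obtain ⟨a', b', hab'⟩ := hE'
    refine ⟨a.mul a', b.mul b', fun P => ?_⟩
    rw [Finsupp.add_apply, hab P, hab' P, IntElt.mul_toF, IntElt.mul_toF,
      P.ord_mul a.toF_ne_zero a'.toF_ne_zero, P.ord_mul b.toF_ne_zero b'.toF_ne_zero]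
    ring
  | neg E _ hE =>
    obtain ⟨a, b, hab⟩ := hE
    refine ⟨b, a, fun P => ?_⟩
    rw [Finsupp.neg_apply, hab P]
    ring

/-- `HasIntegralFractions` follows from `PrincipalGeneratedByIntegral` (part of the hypothesis `h`
of S18) and the fact that the constants of `FL` are `L`. -/
theorem hasIntegralFractions_of_gen
    [HasPrincipalDivisors L (laurentBaseChange L (modularFunctionFieldFull N))]
    (hgen : PrincipalGeneratedByIntegral A π N) (H3L : ConstOfOrdZeroL L N) :
    HasIntegralFractions A π N := by
  intro x hx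
  obtain ⟨Dx, hDx, -⟩ := HasPrincipalDivisors.exists_divisor (K := L) x hx
  have hprin : Dx ∈ Divisor.principal (K := L)
      (F := laurentBaseChange L (modularFunctionFieldFull N)) := ⟨x, hx, hDx⟩
  obtain ⟨a, b, hab⟩ := exists_intElt_of_mem_closure (hgen hprin)
  set u : laurentBaseChange L (modularFunctionFieldFull N) := x * b.toF / a.toF with hu
  have hu0 : u ≠ 0 := div_ne_zero (mul_ne_zero hx b.toF_ne_zero) a.toF_ne_zero
  have hord : ∀ P : Place L (laurentBaseChange L (modularFunctionFieldFull N)), P.ord u = 0 := by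
    intro P
    rw [hu, div_eq_mul_inv, P.ord_mul (mul_ne_zero hx b.toF_ne_zero) (inv_ne_zero a.toF_ne_zero),
      P.ord_mul hx b.toF_ne_zero, P.ord_inv, ← hDx P, hab P]
    ring
  obtain ⟨c, hc⟩ := H3L u hu0 hord
  have hc0 : c ≠ 0 := by
    rintro rfl
    rw [map_zero] at hc
    exact hu0 hc
  refine ⟨c, a, b, hc0, ?_⟩
  rw [← hc, hu, div_mul_cancel₀ _ a.toF_ne_zero]

omit [Algebra ℚ L] in
/-- Units of `k` lift to units of `A` when `π` is surjective and local. -/
theorem exists_unit_lift (hπ : Function.Surjective π) (hloc : ∀ a : A, IsUnit (π a) → IsUnit a)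
    (κ : k) (hκ : κ ≠ 0) : ∃ u : Aˣ, π (u : A) = κ := by
  obtain ⟨a, ha⟩ := hπ κ
  have hu : IsUnit a := hloc a (by rw [ha]; exact isUnit_iff_ne_zero.mpr hκ)
  exact ⟨hu.unit, by rw [IsUnit.unit_spec, ha]⟩

/-- **[NORMALIZE]**, general form. -/
theorem normalize [HasPrincipalDivisors L (laurentBaseChange L (modularFunctionFieldFull N))]
    (hr : IsPlaceReductionAlong A π N r)
    (H1 : HasIntegralFractions A π N) (H2 : ReductionSurjective A π N)
    (H3 : ConstOfOrdZero k N)
    (hπ : Function.Surjective π) (hloc : ∀ a : A, IsUnit (π a) → IsUnit a)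
    (m : ℕ) (D : Divisor L (laurentBaseChange L (modularFunctionFieldFull N)))
    (hD0 : Divisor.degree D = 0)
    (hmD : (m • D) ∈ Divisor.principal (K := L)
      (F := laurentBaseChange L (modularFunctionFieldFull N)))
    (hred : Finsupp.mapDomain r D ∈ Divisor.principal (K := k)
      (F := modularFunctionFieldFullC k N)) :
    ∃ (D' : Divisor L (laurentBaseChange L (modularFunctionFieldFull N))) (a b : IntElt A π N),
      D - D' ∈ Divisor.principal (K := L)
        (F := laurentBaseChange L (modularFunctionFieldFull N)) ∧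
      Divisor.degree D' = 0 ∧
      (∀ P, (m • D') P = P.ord (a.toF / b.toF)) ∧ a.red = b.red := by
  classical
  obtain ⟨f, hf0, hf⟩ := hmD
  obtain ⟨gbar, hg0, hg⟩ := hred
  -- lift `gbar`
  obtain ⟨a₀, b₀, hab⟩ := H2 gbar hg0
  set g : laurentBaseChange L (modularFunctionFieldFull N) := a₀.toF / b₀.toF with hgdef
  have hgne : g ≠ 0 := div_ne_zero a₀.toF_ne_zero b₀.toF_ne_zero
  obtain ⟨Dg, hDg, hDg0⟩ := HasPrincipalDivisors.exists_divisor (K := L) g hgne
  -- `r_* (div g) = div gbar`
  have hgx : g * b₀.toF = algebraMap L _ (1 : L) * a₀.toF := by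
    rw [map_one, one_mul, hgdef, div_mul_cancel₀ _ b₀.toF_ne_zero]
  have hrg : ∀ Q, Finsupp.mapDomain r Dg Q = Q.ord gbar := by
    intro Q
    rw [conservation hr g 1 one_ne_zero a₀ b₀ hgx Dg hDg Q]
    congr 1
    rw [div_eq_iff b₀.red_ne_zero, hab]
  -- the new divisor
  set D' : Divisor L (laurentBaseChange L (modularFunctionFieldFull N)) := D - Dg with hD'
  have hDD' : D - D' ∈ Divisor.principal (K := L)
      (F := laurentBaseChange L (modularFunctionFieldFull N)) := by
    have : D - D' = Dg := by rw [hD']; abel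
    rw [this]
    exact ⟨g, hgne, hDg⟩
  have hD'0 : Divisor.degree D' = 0 := by rw [hD', map_sub, hD0, hDg0, sub_zero]
  -- `f₁ = f / g^m`
  set f₁ : laurentBaseChange L (modularFunctionFieldFull N) := f / g ^ m with hf₁
  have hf₁0 : f₁ ≠ 0 := div_ne_zero hf0 (pow_ne_zero _ hgne)
  have hmD' : ∀ P, (m • D') P = P.ord f₁ := by
    intro P
    have h1 : (m • D') P = (m • D) P - (m : ℤ) * Dg P := by
      rw [hD', smul_sub, Finsupp.sub_apply]
      congr 1
    rw [h1, hf P, hDg P, hf₁, div_eq_mul_inv, P.ord_mul hf0 (inv_ne_zero (pow_ne_zero _ hgne)),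
      P.ord_inv, ← zpow_natCast, P.ord_zpow]
    ring
  -- `r_* (m D') = 0`
  have hrD' : Finsupp.mapDomain r (m • D') = 0 := by
    ext Q
    rw [hD', smul_sub, Finsupp.mapDomain_sub, Finsupp.mapDomain_smul, Finsupp.mapDomain_smul,
      Finsupp.sub_apply, Finsupp.smul_apply, Finsupp.smul_apply, hg Q, hrg Q]
    simp
  -- write `f₁ = c a₁ / b₁`
  obtain ⟨c, a₁, b₁, hc, hcab⟩ := H1 f₁ hf₁0
  have hcons : ∀ Q : Place k (modularFunctionFieldFullC k N), Q.ord (a₁.red / b₁.red) = 0 := by
    intro Q
    rw [← conservation hr f₁ c hc a₁ b₁ hcab (m • D') hmD' Q, hrD']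
    rfl
  obtain ⟨κ, hκ⟩ := H3 (a₁.red / b₁.red) (div_ne_zero a₁.red_ne_zero b₁.red_ne_zero) hcons
  have hκ0 : κ ≠ 0 := by
    intro h
    rw [h, map_zero] at hκ
    exact div_ne_zero a₁.red_ne_zero b₁.red_ne_zero hκ
  obtain ⟨u, hu⟩ := exists_unit_lift hπ hloc κ hκ0
  refine ⟨D', a₁, b₁.unitMul u, hDD', hD'0, ?_, ?_⟩
  · intro P
    rw [hmD' P]
    -- `f₁ = (c u) * (a₁ / (u b₁))`
    have huL : ((u : A) : L) ≠ 0 := by
      intro h
      have : (u : A) = 0 := Subtype.ext h
      exact u.ne_zero this
    have hcu : c * ((u : A) : L) ≠ 0 := mul_ne_zero hc huL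
    have hfeq : f₁ = algebraMap L _ (c * ((u : A) : L)) * (a₁.toF / (b₁.unitMul u).toF) := by
      rw [IntElt.unitMul_toF, map_mul]
      have hb : b₁.toF ≠ 0 := b₁.toF_ne_zero
      have huF : algebraMap L (laurentBaseChange L (modularFunctionFieldFull N)) ((u : A) : L) ≠ 0 := by
        simp [huL]
      field_simp
      linear_combination hcab
    have hne : a₁.toF / (b₁.unitMul u).toF ≠ 0 :=
      div_ne_zero a₁.toF_ne_zero (b₁.unitMul u).toF_ne_zero
    have hcu' : algebraMap L (laurentBaseChange L (modularFunctionFieldFull N))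
        (c * ((u : A) : L)) ≠ 0 := by simpa using hcu
    conv_lhs => rw [hfeq]
    rw [P.ord_mul hcu' hne, ord_algebraMap P _ hcu, zero_add]
  · rw [IntElt.unitMul_red, hu, ← hκ, div_mul_cancel₀ _ b₁.red_ne_zero]

end General

/-! ### The frozen S18 situation -/

section ModL

set_option synthInstance.maxHeartbeats 400000

variable (N : ℕ) (A : ValuationSubring (AlgebraicClosure ℚ))

/-- **S18 from its inputs.**  The frozen statement S18 follows from: the three [BRIDGE]/[FF] facts
and the conclusion of Lemma K (blueprint 14, (O1)-(O4)) in normalized form: a degree zero divisor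
`D'` with `m D' = div (a / b)` for integral `a, b` with the same (nonzero) reduction is
principal. -/
theorem eq_zero_of_normalized
    [HasPrincipalDivisors (AlgebraicClosure ℚ) (modularFunctionFieldBar N)]
    (h : ReductionInputsModL A N)
    (H1 : HasIntegralFractions A (IsLocalRing.residue A) N)
    (H2 : ReductionSurjective A (IsLocalRing.residue A) N)
    (H3 : ConstOfOrdZero (IsLocalRing.ResidueField A) N)
    (m : ℕ)
    (HK : ∀ (D' : Divisor (AlgebraicClosure ℚ) (modularFunctionFieldBar N))
      (a b : IntElt A (IsLocalRing.residue A) N), Divisor.degree D' = 0 →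
      (∀ P, (m • D') P = P.ord (a.toF / b.toF)) → a.red = b.red →
      D' ∈ Divisor.principal (K := AlgebraicClosure ℚ) (F := modularFunctionFieldBar N))
    (z : JZero N) (hmz : m • z = 0) (hz : reductionModL A N z = 0) : z = 0 := by
  obtain ⟨⟨D, hD0⟩, rfl⟩ := Pic0.mk_surjective z
  have hr := isPlaceReductionModL_placeReductionModL h
  -- `m D` is principal
  have hmD : (m • D) ∈ Divisor.principal (K := AlgebraicClosure ℚ)
      (F := modularFunctionFieldBar N) := by
    have h1 : ((m • (⟨D, hD0⟩ : Divisor.degZero (K := AlgebraicClosure ℚ)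
        (F := modularFunctionFieldBar N)) : Divisor.degZero (K := AlgebraicClosure ℚ)
        (F := modularFunctionFieldBar N))) ∈
        (Divisor.principal (K := AlgebraicClosure ℚ) (F := modularFunctionFieldBar N)).addSubgroupOf
          (Divisor.degZero (K := AlgebraicClosure ℚ) (F := modularFunctionFieldBar N)) := by
      rw [← QuotientAddGroup.eq_zero_iff, QuotientAddGroup.mk_nsmul]
      exact hmz
    rw [AddSubgroup.mem_addSubgroupOf, AddSubgroupClass.coe_nsmul] at h1
    exact h1
  -- `r_* D` is principal
  have hred : Finsupp.mapDomain (placeReductionModL h) D ∈ Divisor.principal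
      (K := IsLocalRing.ResidueField A)
      (F := modularFunctionFieldFullC (IsLocalRing.ResidueField A) N) := by
    rw [reductionModL_mk h] at hz
    have h1 := (QuotientAddGroup.eq_zero_iff _).mp hz
    rw [AddSubgroup.mem_addSubgroupOf, coe_reductionDegZeroAlong] at h1
    exact h1
  obtain ⟨D', a, b, hDD', hD'0, hmD', hab⟩ := normalize hr H1 H2 H3
    IsLocalRing.residue_surjective (fun a ha => isUnit_of_map_unit (IsLocalRing.residue A) a ha)
    m D hD0 hmD hred
  have hD' := HK D' a b hD'0 hmD' hab
  have hDprin : D ∈ Divisor.principal (K := AlgebraicClosure ℚ)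
      (F := modularFunctionFieldBar N) := by
    have : D = (D - D') + D' := by abel
    rw [this]
    exact AddSubgroup.add_mem _ hDD' hD'
  show Pic0.mk _ = 0
  unfold Pic0.mk
  rw [QuotientAddGroup.eq_zero_iff, AddSubgroup.mem_addSubgroupOf]
  exact hDprin

end ModL

end Fermat.Agent.S18.Normalize96
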