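/-
S18 / [VALRING] (helper25): elementary facts about a valuation subring `A` of `ℚ̄` lying over a
prime `ℓ`, needed to instantiate the abstract Lemma K of blueprint 14:

* the value group is of rank one and every value is commensurable with `v(ℓ)`;
* the residue field is algebraically closed of characteristic `ℓ`.
-/
import Mathlib
import Fermat.Prelude.Def_FLTPrelim_Ramification

set_option autoImplicit false

namespace Fermat.Agent.S18.ValRing25

open Polynomial

section General

variable {K L : Type*} [Field K] [Field L] [Algebra K L]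
variable {Γ₀ : Type*} [LinearOrderedCommGroupWithZero Γ₀]

/-- In an algebraic extension `L/K`, some positive power of the value of any nonzero `c : L` is the
value of an element of `K`. -/
theorem exists_pow_eq_of_isAlgebraic (v : Valuation L Γ₀) {c : L} (hc : c ≠ 0)
    (halg : IsAlgebraic K c) :
    ∃ (n : ℕ) (q : K), 0 < n ∧ q ≠ 0 ∧ v c ^ n = v (algebraMap K L q) := by
  classical
  obtain ⟨p, hp0, hp⟩ := halg
  rw [aeval_eq_sum_range] at hp
  set f : ℕ → L := fun i => p.coeff i • c ^ i with hf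
  have hfne : ∀ i, p.coeff i ≠ 0 → v (f i) ≠ 0 := by
    intro i hi
    rw [hf]
    simp only [Algebra.smul_def]
    rw [map_mul, map_pow]
    refine mul_ne_zero ?_ (pow_ne_zero _ ((Valuation.ne_zero_iff v).mpr hc))
    exact (Valuation.ne_zero_iff v).mpr (by simpa using hi)
  -- restrict to the support
  have hsupp : ∑ i ∈ p.support, f i = 0 := by
    rw [← hp]
    apply Finset.sum_subset
    · intro i hi
      rw [Finset.mem_range]
      exact Nat.lt_succ_of_le (le_natDegree_of_mem_supp i hi)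
    · intro i _ hi
      show p.coeff i • c ^ i = 0
      rw [notMem_support_iff.mp hi, zero_smul]
  have hne : p.support.Nonempty := by
    rwa [Finset.nonempty_iff_ne_empty, Ne, support_eq_empty]
  obtain ⟨j, hj, hjmax⟩ := Finset.exists_max_image p.support (fun i => v (f i)) hne
  have hjne : v (f j) ≠ 0 := hfne j (mem_support_iff.mp hj)
  -- another index attains the maximum
  have hex : ∃ i ∈ p.support, i ≠ j ∧ v (f i) = v (f j) := by
    by_contra hcon
    push Not at hcon
    have hlt : ∀ i ∈ p.support \ {j}, v (f i) < v (f j) := by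
      intro i hi
      rw [Finset.mem_sdiff, Finset.mem_singleton] at hi
      exact lt_of_le_of_ne (hjmax i hi.1) (hcon i hi.1 hi.2)
    have := Valuation.map_sum_eq_of_lt v hj hlt
    rw [hsupp, map_zero] at this
    exact hjne this.symm
  obtain ⟨i, hi, hij, hval⟩ := hex
  have hci : p.coeff i ≠ 0 := mem_support_iff.mp hi
  have hcj : p.coeff j ≠ 0 := mem_support_iff.mp hj
  have hvc : v c ≠ 0 := (Valuation.ne_zero_iff v).mpr hc
  have hval' : v (algebraMap K L (p.coeff i)) * v c ^ i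
      = v (algebraMap K L (p.coeff j)) * v c ^ j := by
    simpa [hf, Algebra.smul_def] using hval
  have hvi : v (algebraMap K L (p.coeff i)) ≠ 0 :=
    (Valuation.ne_zero_iff v).mpr (by simpa using hci)
  have hvj : v (algebraMap K L (p.coeff j)) ≠ 0 :=
    (Valuation.ne_zero_iff v).mpr (by simpa using hcj)
  rcases lt_or_gt_of_ne hij with hlt | hlt
  · -- i < j : v c ^ (j - i) = v (p_i / p_j)
    refine ⟨j - i, p.coeff i / p.coeff j, Nat.sub_pos_of_lt hlt, div_ne_zero hci hcj, ?_⟩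
    rw [map_div₀, map_div₀, eq_div_iff hvj]
    have : v c ^ j = v c ^ (j - i) * v c ^ i := by
      rw [← pow_add, Nat.sub_add_cancel hlt.le]
    rw [this] at hval'
    have h2 : v (algebraMap K L (p.coeff i)) * v c ^ i
        = (v c ^ (j - i) * v (algebraMap K L (p.coeff j))) * v c ^ i := by
      rw [hval']; ac_rfl
    exact (mul_right_cancel₀ (pow_ne_zero i hvc) h2).symm
  · refine ⟨i - j, p.coeff j / p.coeff i, Nat.sub_pos_of_lt hlt, div_ne_zero hcj hci, ?_⟩
    rw [map_div₀, map_div₀, eq_div_iff hvi]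
    have : v c ^ i = v c ^ (i - j) * v c ^ j := by
      rw [← pow_add, Nat.sub_add_cancel hlt.le]
    rw [this] at hval'
    have h2 : v (algebraMap K L (p.coeff j)) * v c ^ j
        = (v c ^ (i - j) * v (algebraMap K L (p.coeff i))) * v c ^ j := by
      rw [← hval']; ac_rfl
    exact (mul_right_cancel₀ (pow_ne_zero j hvc) h2).symm

end General

section QBar

variable {ℓ : ℕ} [hℓ : Fact ℓ.Prime] (A : ValuationSubring (AlgebraicClosure ℚ))

local notation "L" => AlgebraicClosure ℚ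

omit hℓ in
theorem val_prime_lt_one (hA : A.LiesOverPrime ℓ) : A.valuation ((ℓ : ℕ) : L) < 1 :=
  hA

theorem mul_lt_one_aux {Γ : Type*} [LinearOrderedCommGroupWithZero Γ] {a b : Γ} (ha : a ≤ 1)
    (hb : b < 1) : a * b < 1 :=
  lt_of_le_of_lt (by simpa using mul_le_mul' ha (le_refl b)) hb

theorem val_prime_ne_zero : A.valuation ((ℓ : ℕ) : L) ≠ 0 :=
  (Valuation.ne_zero_iff _).mpr (by exact_mod_cast hℓ.out.ne_zero)

theorem val_prime_pos : 0 < A.valuation ((ℓ : ℕ) : L) :=
  zero_lt_iff.mpr (val_prime_ne_zero A)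

theorem val_intCast_le_one (a : ℤ) : A.valuation ((a : ℤ) : L) ≤ 1 :=
  (A.valuation_le_one_iff _).mpr (intCast_mem A a)

/-- An integer prime to `ℓ` is a unit of `A`. -/
theorem val_natCast_of_not_dvd (hA : A.LiesOverPrime ℓ) {n : ℕ} (hn : ¬ ℓ ∣ n) :
    A.valuation ((n : ℕ) : L) = 1 := by
  have hcop : IsCoprime (n : ℤ) (ℓ : ℤ) := by
    rw [Int.isCoprime_iff_gcd_eq_one, Int.gcd_natCast_natCast, Nat.gcd_comm]
    exact (Nat.Prime.coprime_iff_not_dvd hℓ.out).mpr hn
  obtain ⟨u, w, huw⟩ := hcop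
  have hle : A.valuation ((n : ℕ) : L) ≤ 1 := by
    have := val_intCast_le_one A (n : ℤ)
    simpa using this
  rcases lt_or_eq_of_le hle with hlt | heq
  · exfalso
    have h1 : ((u : ℤ) : L) * ((n : ℕ) : L) + ((w : ℤ) : L) * ((ℓ : ℕ) : L) = 1 := by
      have := congrArg (fun z : ℤ => (z : L)) huw
      simpa using this
    have h2 : A.valuation (((u : ℤ) : L) * ((n : ℕ) : L)) < 1 := by
      rw [map_mul]
      exact mul_lt_one_aux (val_intCast_le_one A u) hlt
    have h3 : A.valuation (((w : ℤ) : L) * ((ℓ : ℕ) : L)) < 1 := by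
      rw [map_mul]
      exact mul_lt_one_aux (val_intCast_le_one A w) (val_prime_lt_one A hA)
    have h4 := Valuation.map_add_lt _ h2 h3
    rw [h1, map_one] at h4
    exact lt_irrefl _ h4
  · exact heq

/-- The value of a nonzero natural number is a power of the value of `ℓ`. -/
theorem val_natCast (hA : A.LiesOverPrime ℓ) {n : ℕ} (hn : n ≠ 0) :
    ∃ k : ℕ, A.valuation ((n : ℕ) : L) = A.valuation ((ℓ : ℕ) : L) ^ k := by
  obtain ⟨e, n', hn', rfl⟩ := Nat.exists_eq_pow_mul_and_not_dvd hn ℓ hℓ.out.ne_one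
  refine ⟨e, ?_⟩
  push_cast
  rw [map_mul, map_pow, val_natCast_of_not_dvd A hA hn', mul_one]

/-- The value of a nonzero rational number is an integral power of the value of `ℓ`. -/
theorem val_ratCast (hA : A.LiesOverPrime ℓ) {q : ℚ} (hq : q ≠ 0) :
    ∃ s : ℤ, A.valuation (algebraMap ℚ L q) = A.valuation ((ℓ : ℕ) : L) ^ s := by
  have hnum : q.num.natAbs ≠ 0 := by
    rw [Ne, Int.natAbs_eq_zero, Rat.num_eq_zero]; exact hq
  obtain ⟨k₁, h₁⟩ := val_natCast A hA hnum
  obtain ⟨k₂, h₂⟩ := val_natCast A hA q.den_ne_zero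
  refine ⟨(k₁ : ℤ) - k₂, ?_⟩
  have hq' : algebraMap ℚ L q = ((q.num : ℤ) : L) / ((q.den : ℕ) : L) := by
    conv_lhs => rw [← Rat.num_div_den q]
    rw [map_div₀]
    simp
  have habs : A.valuation ((q.num : ℤ) : L) = A.valuation ((q.num.natAbs : ℕ) : L) := by
    rcases Int.natAbs_eq q.num with h | h
    · conv_lhs => rw [h]
      simp
    · conv_lhs => rw [h]
      simp
  rw [hq', map_div₀, habs, h₁, h₂, zpow_sub₀ (val_prime_ne_zero A), zpow_natCast, zpow_natCast]

/-- Every nonzero value is commensurable with the value of `ℓ`. -/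
theorem val_commensurable (hA : A.LiesOverPrime ℓ) {c : L} (hc : c ≠ 0) :
    ∃ (n : ℕ) (s : ℤ), 0 < n ∧ A.valuation c ^ n = A.valuation ((ℓ : ℕ) : L) ^ s := by
  have halg : IsAlgebraic ℚ c := (AlgebraicClosure.isAlgebraic ℚ).isAlgebraic c
  obtain ⟨n, q, hn, hq, h⟩ := exists_pow_eq_of_isAlgebraic A.valuation hc halg
  obtain ⟨s, hs⟩ := val_ratCast A hA hq
  exact ⟨n, s, hn, h.trans hs⟩

/-- **Rank one**: powers of a non-unit eventually have smaller value than any nonzero element,
i.e. `ε ^ n` does not divide `c` in `A` for `n` large. -/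
theorem rank_one (hA : A.LiesOverPrime ℓ) {ε c : L} (hε : ε ∈ A.nonunits) (hc : c ≠ 0) :
    ∃ n : ℕ, A.valuation ε ^ n < A.valuation c := by
  have hvc : A.valuation c ≠ 0 := (Valuation.ne_zero_iff _).mpr hc
  rcases eq_or_ne ε 0 with rfl | hε0
  · exact ⟨1, by simpa using zero_lt_iff.mpr hvc⟩
  have hvε : A.valuation ε ≠ 0 := (Valuation.ne_zero_iff _).mpr hε0
  have hε1 : A.valuation ε < 1 := hε
  set x := A.valuation ((ℓ : ℕ) : L) with hx
  have hx0 : 0 < x := val_prime_pos A
  have hx1 : x < 1 := val_prime_lt_one A hA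
  obtain ⟨n₁, s₁, hn₁, h₁⟩ := val_commensurable A hA hε0
  obtain ⟨n₂, s₂, hn₂, h₂⟩ := val_commensurable A hA hc
  -- s₁ ≥ 1
  have hs₁ : 0 < s₁ := by
    by_contra hcon
    push Not at hcon
    have h1le : (1 : A.ValueGroup) ≤ x ^ s₁ := by
      have := (zpow_right_strictAnti₀ hx0 hx1).antitone hcon
      simpa using this
    have hlt : A.valuation ε ^ n₁ < 1 := pow_lt_one₀ zero_le hε1 hn₁.ne'
    rw [h₁] at hlt
    exact absurd hlt (not_lt.mpr h1le)
  -- choose n with n * s₁ * n₂ > s₂ * n₁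
  set n : ℕ := s₂.natAbs * n₁ + 1 with hn
  refine ⟨n, ?_⟩
  have hk : n₁ * n₂ ≠ 0 := (Nat.mul_pos hn₁ hn₂).ne'
  rw [← pow_lt_pow_iff_left₀ zero_le zero_le hk]
  have e1 : (A.valuation ε ^ n) ^ (n₁ * n₂) = x ^ ((n : ℤ) * s₁ * n₂) := by
    calc (A.valuation ε ^ n) ^ (n₁ * n₂) = (A.valuation ε ^ n₁) ^ (n * n₂) := by
          rw [← pow_mul, ← pow_mul]; congr 1; ring
      _ = (x ^ s₁) ^ (n * n₂) := by rw [h₁]
      _ = x ^ ((n : ℤ) * s₁ * n₂) := by
          rw [← zpow_natCast, ← zpow_mul]; congr 1; push_cast; ring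
  have e2 : A.valuation c ^ (n₁ * n₂) = x ^ (s₂ * n₁) := by
    calc A.valuation c ^ (n₁ * n₂) = (A.valuation c ^ n₂) ^ n₁ := by
          rw [← pow_mul]; congr 1; ring
      _ = (x ^ s₂) ^ n₁ := by rw [h₂]
      _ = x ^ (s₂ * n₁) := by rw [← zpow_natCast, ← zpow_mul]
  rw [e1, e2]
  apply zpow_lt_zpow_right_of_lt_one₀ hx0 hx1
  have hn₂' : (1 : ℤ) ≤ n₂ := by exact_mod_cast hn₂
  have hn₁' : (0 : ℤ) ≤ n₁ := by positivity
  have habs : s₂ ≤ (s₂.natAbs : ℤ) := Int.le_natAbs
  have hnn : (n : ℤ) = s₂.natAbs * n₁ + 1 := by rw [hn]; push_cast; ring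
  have : (n : ℤ) * 1 * 1 ≤ (n : ℤ) * s₁ * n₂ := by
    have hn0 : (0 : ℤ) ≤ n := by positivity
    have : (n : ℤ) * 1 ≤ n * s₁ := mul_le_mul_of_nonneg_left hs₁ hn0
    calc (n : ℤ) * 1 * 1 ≤ n * s₁ * 1 := by linarith
      _ ≤ n * s₁ * n₂ := mul_le_mul_of_nonneg_left hn₂' (by positivity)
  nlinarith

end QBar

section Residue

variable {K : Type*} [Field K] (A : ValuationSubring K)

/-- An element of `K` integral over a valuation subring lies in it. -/
theorem mem_of_isIntegral {x : K} (hx : IsIntegral A x) : x ∈ A := by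
  obtain ⟨y, hy⟩ := IsIntegrallyClosed.algebraMap_eq_of_integral hx
  rw [← hy]
  exact y.2

/-- The residue field of a valuation subring of an algebraically closed field is algebraically
closed. -/
theorem residueField_isAlgClosed [IsAlgClosed K] : IsAlgClosed (IsLocalRing.ResidueField A) := by
  apply IsAlgClosed.of_exists_root
  intro p hp hirr
  have hsurj : Function.Surjective (IsLocalRing.residue A) := IsLocalRing.residue_surjective
  have hlift : p ∈ Polynomial.lifts (IsLocalRing.residue A) :=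
    (Polynomial.mem_lifts p).mpr (Polynomial.map_surjective _ hsurj p)
  obtain ⟨q, hqmap, hqdeg, hqmonic⟩ := Polynomial.lifts_and_natDegree_eq_and_monic hlift hp
  have hdegp : p.natDegree ≠ 0 := by
    intro h0
    have := Polynomial.eq_one_of_monic_natDegree_zero hp h0
    exact hirr.not_isUnit (this ▸ isUnit_one)
  have hq' : (q.map (algebraMap A K)).degree ≠ 0 := by
    rw [Polynomial.degree_map_eq_of_injective (FaithfulSMul.algebraMap_injective A K),
      Polynomial.degree_eq_natDegree hqmonic.ne_zero, hqdeg]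
    exact_mod_cast hdegp
  obtain ⟨x, hx⟩ := IsAlgClosed.exists_root (q.map (algebraMap A K)) hq'
  have hxint : IsIntegral A x := by
    refine ⟨q, hqmonic, ?_⟩
    rw [← Polynomial.eval_map]; exact hx
  have hxA : x ∈ A := mem_of_isIntegral A hxint
  refine ⟨IsLocalRing.residue A ⟨x, hxA⟩, ?_⟩
  rw [← hqmap, Polynomial.eval_map, Polynomial.eval₂_hom]
  have hev : Polynomial.eval (⟨x, hxA⟩ : A) q = 0 := by
    apply Subtype.ext
    have h1 : ((Polynomial.eval (⟨x, hxA⟩ : A) q : A) : K)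
        = Polynomial.eval x (q.map (algebraMap A K)) := by
      rw [Polynomial.eval_map]
      exact (Polynomial.eval₂_hom (algebraMap A K) (⟨x, hxA⟩ : A) (p := q)).symm ▸ rfl
    rw [h1, hx]; rfl
  rw [hev, map_zero]

end Residue

section ResidueChar

variable {ℓ : ℕ} [hℓ : Fact ℓ.Prime] (A : ValuationSubring (AlgebraicClosure ℚ))

/-- The residue field of `A` has characteristic `ℓ`. -/
theorem residueField_charP (hA : A.LiesOverPrime ℓ) : CharP (IsLocalRing.ResidueField A) ℓ := by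
  rw [CharP.charP_iff_prime_eq_zero hℓ.out]
  have hmem : ((ℓ : ℕ) : AlgebraicClosure ℚ) ∈ A := by
    rw [← A.valuation_le_one_iff]; exact (val_prime_lt_one A hA).le
  have hmax : (⟨((ℓ : ℕ) : AlgebraicClosure ℚ), hmem⟩ : A) ∈ IsLocalRing.maximalIdeal A := by
    rw [A.valuation_lt_one_iff]; exact val_prime_lt_one A hA
  have h0 : IsLocalRing.residue A ⟨((ℓ : ℕ) : AlgebraicClosure ℚ), hmem⟩ = 0 :=
    (IsLocalRing.residue_eq_zero_iff _).mpr hmax
  have hcast : (⟨((ℓ : ℕ) : AlgebraicClosure ℚ), hmem⟩ : A) = ((ℓ : ℕ) : A) := by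
    apply Subtype.ext; simp
  rw [hcast, map_natCast] at h0
  exact h0

/-- The maximal ideal of `A` is nonzero: `ℓ` is a nonzero non-unit. -/
theorem prime_mem_nonunits_ne_zero (hA : A.LiesOverPrime ℓ) :
    ((ℓ : ℕ) : AlgebraicClosure ℚ) ∈ A.nonunits ∧ ((ℓ : ℕ) : AlgebraicClosure ℚ) ≠ 0 :=
  ⟨hA, by exact_mod_cast hℓ.out.ne_zero⟩

/-- Rank one, divisibility form inside `A`. -/
theorem rank_one_dvd (hA : A.LiesOverPrime ℓ) {ε c : A} (hε : ε ∈ IsLocalRing.maximalIdeal A)
    (hc : c ≠ 0) : ∃ n : ℕ, ¬ ε ^ n ∣ c := by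
  have hε' : (ε : AlgebraicClosure ℚ) ∈ A.nonunits := (A.valuation_lt_one_iff ε).mp hε
  have hc' : (c : AlgebraicClosure ℚ) ≠ 0 := by
    intro h; exact hc (Subtype.ext h)
  obtain ⟨n, hn⟩ := rank_one A hA hε' hc'
  refine ⟨n, ?_⟩
  rintro ⟨d, rfl⟩
  have : A.valuation ((ε ^ n * d : A) : AlgebraicClosure ℚ)
      ≤ A.valuation (ε : AlgebraicClosure ℚ) ^ n := by
    push_cast
    rw [map_mul, map_pow]
    calc A.valuation (ε : AlgebraicClosure ℚ) ^ n * A.valuation (d : AlgebraicClosure ℚ)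
        ≤ A.valuation (ε : AlgebraicClosure ℚ) ^ n * 1 :=
          mul_le_mul' le_rfl (A.valuation_le_one d)
      _ = _ := mul_one _
  exact absurd hn (not_lt.mpr this)

end ResidueChar

end Fermat.Agent.S18.ValRing25
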