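/-
S18 / [FF]-INST (helper30): the char-`ℓ` special fibre `F̄_M = modularFunctionFieldFullC k M` IS a
separably generated function field in the sense of `FFPlaces30.SepFF`, with separating variable
`t̄ = jqModC k`, for every field `k : Type` with `(M : k) ≠ 0`.  Consequences (for `k` algebraically
closed, e.g. the residue field of a valuation subring of `ℚ̄`): all of `FFPlaces30` / `FFConst30`
applies to `F̄_M`; in particular `Normalize96.ConstOfOrdZero k M`.

* `abstract`: `sepFF_of_forall_isSeparable` -- transfer from "every element of `E ≤ L` is separable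
  over `k(a) ≤ L`" to `SepFF k ⟨a, _⟩` on the type `↥E`.
* `tC k M : ↥(modularFunctionFieldFullC k M)`, `sepFF_tC`, `finiteDimensional_tC`,
  `isSeparable_tC`, `constOfOrdZero`, `constOfOrdZero_residueField`.
-/
import Mathlib
import Fermat.Agent.S18.FFPlaces30
import Fermat.Agent.S18.FFConst30
import Fermat.Agent.S18.Sep72
import Fermat.Agent.S18.ValRing25
import Fermat.Agent.S18.Normalize96
import Fermat.Agent.S28.GaussRingRat

set_option autoImplicit false
set_option linter.unusedSectionVars false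
set_option linter.style.haveILetI false

open AlgebraicCurve IntermediateField ModularCurve

noncomputable section

namespace Fermat.Agent.S18.FFInst30

open Fermat.Agent.S18.FFPlaces30

section abstract

variable {k L : Type*} [Field k] [Field L] [Algebra k L]

/-- the generator `a ∈ E`, as an element of the type `↥E`. -/
abbrev gen (E : IntermediateField k L) {a : L} (ha : a ∈ E) : ↥E := ⟨a, ha⟩

theorem map_adjoin_gen (E : IntermediateField k L) {a : L} (ha : a ∈ E) :
    (k⟮gen E ha⟯).map E.val = k⟮a⟯ := by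
  rw [adjoin_map, Set.image_singleton]
  rfl

theorem coe_mem_of_mem_adjoin_gen (E : IntermediateField k L) {a : L} (ha : a ∈ E) {d : ↥E}
    (hd : d ∈ k⟮gen E ha⟯) : (d : L) ∈ k⟮a⟯ := by
  rw [← map_adjoin_gen E ha]
  exact ⟨d, hd, rfl⟩

theorem mem_adjoin_gen_of_coe_mem (E : IntermediateField k L) {a : L} (ha : a ∈ E) {d : ↥E}
    (hd : (d : L) ∈ k⟮a⟯) : d ∈ k⟮gen E ha⟯ := by
  rw [← map_adjoin_gen E ha] at hd
  obtain ⟨d', hd', hdd⟩ := hd
  have : d' = d := Subtype.ext hdd
  exact this ▸ hd'

theorem adjoin_le_of_mem (E : IntermediateField k L) {a : L} (ha : a ∈ E) : k⟮a⟯ ≤ E := by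
  rw [adjoin_simple_le_iff]; exact ha

/-- the ring isomorphism `k(a) ≃ k(⟨a,_⟩)` (first inside `L`, second inside `↥E`). -/
def adjoinEquiv (E : IntermediateField k L) {a : L} (ha : a ∈ E) :
    ↥(k⟮a⟯) ≃+* ↥(k⟮gen E ha⟯) where
  toFun c := ⟨⟨c, adjoin_le_of_mem E ha c.2⟩, mem_adjoin_gen_of_coe_mem E ha c.2⟩
  invFun d := ⟨((d : ↥E) : L), coe_mem_of_mem_adjoin_gen E ha d.2⟩
  left_inv _ := rfl
  right_inv _ := rfl
  map_mul' _ _ := rfl
  map_add' _ _ := rfl

/-- **Transfer.**  If `E ≤ L` is finitely generated over `k`, `a ∈ E` is transcendental over `k`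
and every element of `E` is separable over `k(a)`, then `⟨a, _⟩` is a separating variable of the
function field `↥E`. -/
theorem sepFF_of_forall_isSeparable (E : IntermediateField k L) {a : L} (ha : a ∈ E)
    (hfg : E.FG) (htr : Transcendental k a)
    (hsep : ∀ y ∈ E, IsSeparable ↥(k⟮a⟯) y) : SepFF k (gen E ha) := by
  -- `↥E` as an algebra over `k(a)`
  letI : Algebra ↥(k⟮a⟯) ↥E := (inclusion (adjoin_le_of_mem E ha)).toRingHom.toAlgebra
  haveI : IsScalarTower ↥(k⟮a⟯) ↥E L := IsScalarTower.of_algebraMap_eq (fun _ => rfl)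
  haveI h1 : Algebra.IsSeparable ↥(k⟮a⟯) ↥E :=
    ⟨fun y => IsSeparable.of_algHom (IsScalarTower.toAlgHom ↥(k⟮a⟯) ↥E L) (hsep y y.2)⟩
  have he : RingHom.comp (algebraMap ↥(k⟮gen E ha⟯) ↥E) ↑(adjoinEquiv E ha) =
      RingHom.comp ↑(RingEquiv.refl ↥E) (algebraMap ↥(k⟮a⟯) ↥E) := by
    ext c
    rfl
  haveI h2 : Algebra.IsSeparable ↥(k⟮gen E ha⟯) ↥E :=
    Algebra.IsSeparable.of_equiv_equiv (adjoinEquiv E ha) (RingEquiv.refl ↥E) he
  refine ⟨?_, ?_, h2⟩
  · intro h
    exact htr (h.algHom E.val)
  · haveI h3 : Algebra.EssFiniteType k ↥E := IntermediateField.essFiniteType_iff.mpr hfg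
    haveI h4 : Algebra.EssFiniteType ↥(k⟮gen E ha⟯) ↥E :=
      Algebra.EssFiniteType.of_comp k ↥(k⟮gen E ha⟯) ↥E
    haveI h5 : Algebra.IsAlgebraic ↥(k⟮gen E ha⟯) ↥E := Algebra.IsSeparable.isAlgebraic _ _
    exact Algebra.finite_of_essFiniteType_of_isAlgebraic

end abstract

section concrete

variable (k : Type) [Field k] (M : ℕ) [NeZero M]

/-- the special fibre function field, as a type -/
abbrev FC : Type := ↥(modularFunctionFieldFullC k M)

/-- `t̄ = j̄` as an element of `F̄_M` -/
abbrev tC : FC k M := gen (modularFunctionFieldFullC k M) (jqModC_mem_full k M)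

theorem finite_divisorExpansionsC : (divisorExpansionsC k M).Finite := by
  classical
  refine ((Nat.divisors M).finite_toSet.image
    (fun d => if h : d = 0 then (0 : LaurentSeries k) else
      @qExpand k _ d ⟨h⟩ (jqModC k))).subset ?_
  rintro x ⟨d, hd0, hd, rfl⟩
  refine ⟨d, by simpa using ⟨hd, NeZero.ne M⟩, ?_⟩
  simp only [dif_neg (NeZero.ne d)]

theorem fg_fullC : (modularFunctionFieldFullC k M).FG :=
  fg_adjoin_of_finite (finite_divisorExpansionsC k M)

/-- **`t̄` is a separating variable of `F̄_M`** as soon as `(M : k) ≠ 0`. -/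
theorem sepFF_tC (hM : (M : k) ≠ 0) : SepFF k (tC k M) :=
  sepFF_of_forall_isSeparable (modularFunctionFieldFullC k M) (jqModC_mem_full k M)
    (fg_fullC k M) (Fermat.Agent.S28.GaussRingRat.transcendental_jqModC k)
    (fun _ hy => Sep72.isSeparable_fullC' k M hM hy)

theorem transcendental_tC : Transcendental k (tC k M) := by
  intro h
  exact Fermat.Agent.S28.GaussRingRat.transcendental_jqModC k
    (h.algHom (modularFunctionFieldFullC k M).val)

theorem finiteDimensional_tC (hM : (M : k) ≠ 0) : FiniteDimensional ↥(k⟮tC k M⟯) (FC k M) :=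
  (sepFF_tC k M hM).finite

theorem isSeparable_tC (hM : (M : k) ≠ 0) : Algebra.IsSeparable ↥(k⟮tC k M⟯) (FC k M) :=
  (sepFF_tC k M hM).separable

/-- **[FF] input of [NORMALIZE]**: a function on the special fibre without zeros and poles is
constant. -/
theorem constOfOrdZero [IsAlgClosed k] (hM : (M : k) ≠ 0) : Normalize96.ConstOfOrdZero k M := by
  intro u _ hu
  haveI := finiteDimensional_tC k M hM
  obtain ⟨κ, hκ⟩ := FFConst30.const_of_forall_ord_eq_zero (tC k M) hu
  exact ⟨κ, hκ.symm⟩

/-- all places of the special fibre have degree one. -/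
theorem deg_eq_one_fullC [IsAlgClosed k] (hM : (M : k) ≠ 0) (v : Place k (FC k M)) : v.deg = 1 :=
  FFPlaces30.deg_eq_one (sepFF_tC k M hM) v

/-- places of the special fibre exist. -/
theorem nonempty_place_fullC (hM : (M : k) ≠ 0) : Nonempty (Place k (FC k M)) := by
  haveI := finiteDimensional_tC k M hM
  exact FFConst30.exists_place (tC k M) (transcendental_tC k M)

end concrete

section residue

set_option synthInstance.maxHeartbeats 400000

variable (A : ValuationSubring (AlgebraicClosure ℚ)) {ℓ : ℕ} [Fact ℓ.Prime]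

theorem natCast_residueField_ne_zero (hA : A.LiesOverPrime ℓ) {M : ℕ} (hM : ¬ ℓ ∣ M) :
    (M : IsLocalRing.ResidueField A) ≠ 0 := by
  haveI := ValRing25.residueField_charP A hA
  intro h
  exact hM ((CharP.cast_eq_zero_iff (IsLocalRing.ResidueField A) ℓ M).mp h)

/-- `t̄` is a separating variable of `F̄_M` over the residue field of `A | ℓ`, `ℓ ∤ M`. -/
theorem sepFF_residueField (hA : A.LiesOverPrime ℓ) (M : ℕ) [NeZero M] (hM : ¬ ℓ ∣ M) :
    SepFF (IsLocalRing.ResidueField A) (tC (IsLocalRing.ResidueField A) M) :=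
  sepFF_tC _ M (natCast_residueField_ne_zero A hA hM)

/-- **`ConstOfOrdZero` at the residue field of `A | ℓ`, `ℓ ∤ N`** (input `H3` of
`Normalize96.normalize` / `Normalize96.eq_zero_of_normalized`). -/
theorem constOfOrdZero_residueField (hA : A.LiesOverPrime ℓ) (N : ℕ) [NeZero N] (hN : ¬ ℓ ∣ N) :
    Normalize96.ConstOfOrdZero (IsLocalRing.ResidueField A) N := by
  haveI : IsAlgClosed (IsLocalRing.ResidueField A) := ValRing25.residueField_isAlgClosed A
  exact constOfOrdZero _ N (natCast_residueField_ne_zero A hA hN)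

end residue

end Fermat.Agent.S18.FFInst30
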