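import Mathlib
import Fermat.Agent.S18.CuspBase81
import Fermat.Agent.S18.EmbPlace78
import Fermat.Agent.S18.FFInst30
import Fermat.Agent.S18.DegreeBar14
import Fermat.Agent.S18.Char0Num34

/-!
# S18 / [CUSP-LITE] (C-BASE), final instance-free form

For `k` algebraically closed (any characteristic) and a prime `p` with `(p : k) ≠ 0`, the field
`F̄_{p²} = modularFunctionFieldFullC k (p * p)` has at least `p + 1` places over `t̄ = ∞`:
the `p` separated embeddings of `CuspBase81.exists_embeddings` give `p` distinct places with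
`ord t̄ = -1`, and the poles formula `Σ_{v | ∞} (-ord_v t̄) = [F̄ : k(t̄)] = ψ(p²) = p (p + 1) > p`
(`FFPlaces30.poles_formula`, `DegreeBar14.finrank_adjoin_xbar_eq`) forces one more.

In particular `cuspCount 4 = 3 ≤ #{places over ∞}` if `(2 : k) ≠ 0` and
`cuspCount 9 = 4 ≤ #{places over ∞}` if `(3 : k) ≠ 0`: exactly the hypothesis `hCbase` of
`GenusEqMod8.dwGenus_FM_le` (no `RatFunc` instances involved).
-/

set_option autoImplicit false

noncomputable section

open AlgebraicCurve ModularCurve

namespace Fermat.Agent.S18.CuspBaseFinal81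

open Fermat.Agent.S24 Fermat.Agent.S18.EmbPlace78 Fermat.Agent.S18.FFPlaces30

variable (k : Type) [Field k] [IsAlgClosed k]

/-- `t̄` as an element of `F̄_N`. -/
abbrev tbar (N : ℕ) [NeZero N] : ↥(modularFunctionFieldFullC k N) :=
  ⟨jqModC k, jqModC_mem_full k N⟩

/-- **(C-BASE)**: at least `p + 1` places of `F̄_{p²}` over `t̄ = ∞`. -/
theorem succ_le_ncard_placesOverInfty (hD : Fermat.Agent.S28.ModEqStatement) (p : ℕ)
    (hp : p.Prime) (hpk : (p : k) ≠ 0) (N : ℕ) [NeZero N] (hN : N = p * p) :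
    p + 1 ≤ (placesOverInfty k (tbar k N)).ncard := by
  classical
  obtain ⟨σ, -, hσord, hsep⟩ := CuspBase81.exists_embeddings hD k p hp hpk N hN
  have hNk : ((N : ℕ) : k) ≠ 0 := by
    rw [hN]
    push_cast
    exact mul_ne_zero hpk hpk
  have hneg : ∀ i : Fin p, ∃ x : ↥(modularFunctionFieldFullC k N), (σ i x).order < 0 :=
    fun i => ⟨tbar k N, by rw [hσord i (tbar k N) rfl]; norm_num⟩
  set P : Fin p → Place k ↥(modularFunctionFieldFullC k N) := fun i => embPlace (σ i) (hneg i)
    with hP
  -- `ord_{P i} t̄ = -1`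
  have hordP : ∀ i, (P i).ord (tbar k N) = -1 := by
    intro i
    obtain ⟨g, hg0, hg⟩ := exists_order_eq_mul_ord (σ i) (hneg i)
    have h1 := hg (tbar k N)
    rw [hσord i (tbar k N) rfl] at h1
    have hdvd : g ∣ 1 := ⟨-(embPlace (σ i) (hneg i)).ord (tbar k N), by linarith⟩
    have hg1 : g = 1 := Int.eq_one_of_dvd_one hg0.le hdvd
    rw [hg1, one_mul] at h1
    exact h1.symm
  -- the places are pairwise distinct
  have hinj : Function.Injective P := by
    intro i j hij
    by_contra hne
    obtain ⟨u, h1, h2⟩ := hsep i j hne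
    have h3 : u ∈ (P i).toValuationSubring := (mem_embPlace_iff (σ i) (hneg i) u).2 h1
    rw [hij] at h3
    have h4 := (mem_embPlace_iff (σ j) (hneg j) u).1 h3
    omega
  -- the poles formula
  obtain ⟨s, hs, hsum⟩ := poles_formula (FFInst30.sepFF_tC k N hNk)
  have hfin : Module.finrank ↥(IntermediateField.adjoin k {FFInst30.tC k N})
      ↥(modularFunctionFieldFullC k N) = p * (p + 1) := by
    have h := DegreeBar14.finrank_adjoin_xbar_eq k N hNk
    have hpsi : dedekindPsi N = p * (p + 1) := by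
      rw [hN]
      have : NeZero p := ⟨hp.ne_zero⟩
      exact CuspBase81.dedekindPsi_prime_sq p hp
    rw [hpsi] at h
    exact h
  rw [hfin] at hsum
  have hset : placesOverInfty k (tbar k N) = ↑s := by
    ext v
    rw [Finset.mem_coe, hs v]
    rfl
  rw [hset, Set.ncard_coe_finset]
  by_contra hlt
  have hle : s.card ≤ p := by omega
  set T : Finset (Place k ↥(modularFunctionFieldFullC k N)) := Finset.univ.image P with hT
  have hTs : T ⊆ s := by
    intro v hv
    obtain ⟨i, -, rfl⟩ := Finset.mem_image.mp hv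
    rw [hs]
    show (P i).ord (tbar k N) < 0
    rw [hordP i]
    norm_num
  have hTcard : T.card = p := by
    rw [hT, Finset.card_image_of_injective _ hinj, Finset.card_univ, Fintype.card_fin]
  have hTeq : T = s := Finset.eq_of_subset_of_card_le hTs (by rw [hTcard]; exact hle)
  rw [← hTeq, hT, Finset.sum_image (fun i _ j _ h => hinj h)] at hsum
  have h5 : ∑ i : Fin p, -(P i).ord (FFInst30.tC k N) = (p : ℤ) := by
    have : ∀ i : Fin p, -(P i).ord (FFInst30.tC k N) = 1 := by
      intro i
      have := hordP i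
      change (P i).ord (FFInst30.tC k N) = -1 at this
      rw [this]
      norm_num
    rw [Finset.sum_congr rfl (fun i _ => this i)]
    simp
  rw [h5] at hsum
  have hp2 := hp.two_le
  have : (p : ℤ) = (p : ℤ) * ((p : ℤ) + 1) := by exact_mod_cast hsum
  nlinarith

/-- `hCbase` at `M₀ = 4` (`char k ≠ 2`). -/
theorem cuspCount_four_le (hD : Fermat.Agent.S28.ModEqStatement) (h2 : (2 : k) ≠ 0) :
    cuspCount 4 ≤ (placesOverInfty k (tbar k 4)).ncard := by
  rw [Char0Num34.cuspCount_four]
  exact succ_le_ncard_placesOverInfty k hD 2 Nat.prime_two (by exact_mod_cast h2) 4 (by norm_num)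

/-- `hCbase` at `M₀ = 9` (`char k ≠ 3`). -/
theorem cuspCount_nine_le (hD : Fermat.Agent.S28.ModEqStatement) (h3 : (3 : k) ≠ 0) :
    cuspCount 9 ≤ (placesOverInfty k (tbar k 9)).ncard := by
  rw [Char0Num34.cuspCount_nine]
  exact succ_le_ncard_placesOverInfty k hD 3 Nat.prime_three (by exact_mod_cast h3) 9
    (by norm_num)

/-- `hCbase` of `GenusEqMod8.dwGenus_FM_le`, unconditional, for `M₀ ∈ {4, 9}` with
`(M₀ : k) ≠ 0`. -/
theorem cuspCount_le (M₀ : ℕ) [NeZero M₀] (hM₀ : M₀ = 4 ∨ M₀ = 9) (hk : (M₀ : k) ≠ 0) :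
    cuspCount M₀ ≤ (placesOverInfty k (tbar k M₀)).ncard := by
  rcases hM₀ with rfl | rfl
  · apply cuspCount_four_le k Fermat.Agent.S28.modEqStatement
    intro h2
    apply hk
    have : ((4 : ℕ) : k) = 2 * 2 := by norm_num
    rw [this, h2, zero_mul]
  · apply cuspCount_nine_le k Fermat.Agent.S28.modEqStatement
    intro h3
    apply hk
    have : ((9 : ℕ) : k) = 3 * 3 := by norm_num
    rw [this, h3, zero_mul]

end Fermat.Agent.S18.CuspBaseFinal81
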