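/-
S18 moonshot, package [CHAR0]-COUNTS (helper72): the characteristic-zero place counts of
`F_M / ℚ̄(j)` at a level `M` without elliptic points (`4 ∣ M`, or `9 ∣ M`, ...).

* `nuTwo_eq_zero_of_dvd`, `nuThree_eq_zero_of_dvd` and the instances `4 ∣ M`, `3 ∣ M`
  (resp. `2 ∣ M`, `9 ∣ M`);
* `two_mul_ncard_placesOver_1728`, `three_mul_ncard_placesOver_zero`,
  `ncard_placesOverInfty`, `ncard_placesOver_generic` (re-exported from `S24.Exports`);
* the numerical Hurwitz identity `hurwitz_count`;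
* the numerics at the base levels `4` and `9`.
-/
import Fermat.Agent.S24.Exports

set_option autoImplicit false

open ModularCurve Fermat.Agent.S24

namespace Fermat.Agent.S18.Char0Counts72

/-! ### No elliptic points -/

theorem nuTwo_eq_zero_of_dvd {M d : ℕ} (hd : d ∣ M) (h : ∀ x : ZMod d, x ^ 2 + 1 ≠ 0) :
    nuTwo M = 0 := by
  unfold nuTwo
  have : IsEmpty {x : ZMod M // x ^ 2 + 1 = 0} := by
    refine ⟨fun ⟨x, hx⟩ => h (ZMod.castHom hd (ZMod d) x) ?_⟩
    have := congrArg (ZMod.castHom hd (ZMod d)) hx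
    simp only [map_add, map_pow, map_one, map_zero] at this
    exact this
  exact Nat.card_of_isEmpty

theorem nuThree_eq_zero_of_dvd {M d : ℕ} (hd : d ∣ M) (h : ∀ x : ZMod d, x ^ 2 + x + 1 ≠ 0) :
    nuThree M = 0 := by
  unfold nuThree
  have : IsEmpty {x : ZMod M // x ^ 2 + x + 1 = 0} := by
    refine ⟨fun ⟨x, hx⟩ => h (ZMod.castHom hd (ZMod d) x) ?_⟩
    have := congrArg (ZMod.castHom hd (ZMod d)) hx
    simp only [map_add, map_pow, map_one, map_zero] at this
    exact this
  exact Nat.card_of_isEmpty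

theorem nuTwo_eq_zero_of_four_dvd {M : ℕ} (h : 4 ∣ M) : nuTwo M = 0 :=
  nuTwo_eq_zero_of_dvd h (by decide)

theorem nuTwo_eq_zero_of_three_dvd {M : ℕ} (h : 3 ∣ M) : nuTwo M = 0 :=
  nuTwo_eq_zero_of_dvd h (by decide)

theorem nuThree_eq_zero_of_two_dvd {M : ℕ} (h : 2 ∣ M) : nuThree M = 0 :=
  nuThree_eq_zero_of_dvd h (by decide)

theorem nuThree_eq_zero_of_nine_dvd {M : ℕ} (h : 9 ∣ M) : nuThree M = 0 :=
  nuThree_eq_zero_of_dvd h (by decide)

/-! ### Place counts of `F_M / ℚ̄(j)` -/

variable (M : ℕ) [NeZero M]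

/-- No elliptic points of order `2`: every place over `j = 1728` has `e = 2`. -/
theorem two_mul_ncard_placesOver_1728 (h : nuTwo M = 0) :
    2 * (placesOver (jF M) (1728 : Kbar)).ncard = dedekindPsi M := by
  rw [Exports.ncard_placesOver_1728, two_mul_numOrbits_S, h, add_zero]

/-- No elliptic points of order `3`: every place over `j = 0` has `e = 3`. -/
theorem three_mul_ncard_placesOver_zero (h : nuThree M = 0) :
    3 * (placesOver (jF M) (0 : Kbar)).ncard = dedekindPsi M := by
  rw [Exports.ncard_placesOver_zero, three_mul_numOrbits_ST, h, mul_zero, add_zero]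

theorem ncard_placesOverInfty : (placesOverInfty Kbar (jF M)).ncard = cuspCount M :=
  Exports.ncard_placesOverInfty M

theorem ncard_placesOver_generic (c : Kbar) (h0 : c ≠ 0) (h1 : c ≠ 1728) :
    (placesOver (jF M) c).ncard = dedekindPsi M :=
  Exports.ncard_placesOver_generic M c h0 h1

theorem degOver_jF : degOver Kbar (jF M) = dedekindPsi M := Exports.degOver_jF M

/-- Levels `M` with `4 ∣ M`: both elliptic counts vanish. -/
theorem counts_of_four_dvd (h : 4 ∣ M) :
    2 * (placesOver (jF M) (1728 : Kbar)).ncard = dedekindPsi M ∧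
      3 * (placesOver (jF M) (0 : Kbar)).ncard = dedekindPsi M :=
  ⟨two_mul_ncard_placesOver_1728 M (nuTwo_eq_zero_of_four_dvd h),
    three_mul_ncard_placesOver_zero M (nuThree_eq_zero_of_two_dvd (dvd_trans (by norm_num) h))⟩

/-- Levels `M` with `9 ∣ M`: both elliptic counts vanish. -/
theorem counts_of_nine_dvd (h : 9 ∣ M) :
    2 * (placesOver (jF M) (1728 : Kbar)).ncard = dedekindPsi M ∧
      3 * (placesOver (jF M) (0 : Kbar)).ncard = dedekindPsi M :=
  ⟨two_mul_ncard_placesOver_1728 M (nuTwo_eq_zero_of_three_dvd (dvd_trans (by norm_num) h)),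
    three_mul_ncard_placesOver_zero M (nuThree_eq_zero_of_nine_dvd h)⟩

/-! ### The Hurwitz count -/

/-- Tame Hurwitz count over the `j`-line: with `n₀, n₁, c` places over `0, 1728, ∞`, all other
fibres unramified, `-2ψ + (ψ - n₀) + (ψ - n₁) + (ψ - c) = ψ/6 - c`, in the form
`6 · (…) = ψ - 6c`. -/
theorem hurwitz_count {ψ n₀ n₁ c : ℤ} (h0 : 3 * n₀ = ψ) (h1 : 2 * n₁ = ψ) :
    6 * (-2 * ψ + (ψ - n₀) + (ψ - n₁) + (ψ - c)) = ψ - 6 * c := by
  linarith

/-! ### Numerics at the base levels `4` and `9` -/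

theorem dedekindPsi_four : dedekindPsi 4 = 6 := by
  have := Fermat.Agent.S24.CosetCount.dedekindPsi_prime_pow (p := 2) (k := 2) Nat.prime_two (by norm_num)
  norm_num at this
  exact this

theorem dedekindPsi_nine : dedekindPsi 9 = 12 := by
  have := Fermat.Agent.S24.CosetCount.dedekindPsi_prime_pow (p := 3) (k := 2) Nat.prime_three (by norm_num)
  norm_num at this
  exact this

theorem cuspCount_four : cuspCount 4 = 3 := by
  rw [cuspCount]
  decide

theorem cuspCount_nine : cuspCount 9 = 4 := by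
  rw [cuspCount]
  decide

/-- At the base levels `ψ/6 - c = -2`, i.e. genus `0`. -/
theorem base_four : (dedekindPsi 4 : ℤ) - 6 * cuspCount 4 = 6 * (-2) := by
  rw [dedekindPsi_four, cuspCount_four]; norm_num

theorem base_nine : (dedekindPsi 9 : ℤ) - 6 * cuspCount 9 = 6 * (-2) := by
  rw [dedekindPsi_nine, cuspCount_nine]; norm_num

end Fermat.Agent.S18.Char0Counts72
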