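/-
S18 / [CHAR0]-DIFF (helper39): the char-0 side of the genus comparison (O3), in the Dedekind
(`Bfin`/`Binf`) language of S20/T1 that [DW]/[RH] use.

General (RatFunc setting, `K` algebraically closed of characteristic `0`):
* `card_nf_different_add`   : `#𝔇_fin + #𝔇_inf = 2 n + deg (canonical divisor)`
* `finrank_different_add`   : the same with `finrank K (B ⧸ 𝔇)` (helper92's `Dfin`, `Dinf`)
* `card_heightOneSpectrum_Binf` : `#Max(Binf) = #placesOverInfty`
Concrete (`F_M = modularFunctionFieldBar M` over `ℚ̄`, any RatFunc-setting instances with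
`xF = jF M`):
* `finrank_different_add_FM` : `Dfin + Dinf = 3ψ - n₀ - n₁₇₂₈ - c`
* `six_mul_finrank_different_add_FM` : `6 (Dfin + Dinf) = 13 ψ(M) - 6 cuspCount M` if `4 ∣ M ∨ 9 ∣ M`
* `six_mul_gam2_FM` : `6 (-2ψ + Dfin + Dinf) = ψ(M) - 6 cuspCount M`
* `card_heightOneSpectrum_Binf_FM` : `#Max(Binf(F_M)) = cuspCount M`
-/
import Fermat.Agent.S20.T1.Final
import Fermat.Agent.S24.Exports
import Fermat.Agent.S18.Char0Counts72

set_option autoImplicit false
set_option linter.unusedSectionVars false
set_option synthInstance.maxHeartbeats 400000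
set_option maxHeartbeats 1600000

open Polynomial AlgebraicCurve KaehlerDifferential IsDedekindDomain UniqueFactorizationMonoid Module
open scoped Classical

noncomputable section

namespace Fermat.Agent.S18.Char0Diff39

open Fermat.Agent.S20 Fermat.Agent.S20.T1 Fermat.Agent.S24 Fermat.Agent.S24.PlaceDedekind ModularCurve
open Fermat.Agent.S20.NormalBasis (Oinf)

section General

variable (K F : Type*) [Field K] [Field F] [Algebra K F] [Algebra (RatFunc K) F]
  [IsScalarTower K (RatFunc K) F] [Algebra K[X] F] [IsScalarTower K[X] (RatFunc K) F]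
  [FiniteDimensional (RatFunc K) F] [CharZero K] [IsAlgClosed K]

/-- `#𝔇_fin + #𝔇_inf = 2 n + deg K_F` (characteristic `0`). -/
theorem card_nf_different_add [HasCanonicalDivisor (K := K) (F := F)]
    {ω : Ω[F⁄K]} (hω : ω ≠ 0) :
    (Multiset.card (normalizedFactors (differentIdeal K[X] (Bfin K F))) : ℤ)
        + Multiset.card (normalizedFactors (differentIdeal (Oinf K) (Binf K F)))
      = 2 * (Module.finrank (RatFunc K) F : ℤ) + Divisor.degree (canonicalDivisorOf hω) := by
  have hF := isFunctionFieldOver_xF K F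
  have h1 := degree_canonicalDivisorOf hF hω
  have h2 := finsum_ordDifferential_D hF (infDict K F)
  rw [h1, h2, degOver_xF K F]
  ring

/-- `Dfin + Dinf = 2 n + deg K_F` with `D = finrank K (B ⧸ 𝔇)`. -/
theorem finrank_different_add [HasCanonicalDivisor (K := K) (F := F)]
    {ω : Ω[F⁄K]} (hω : ω ≠ 0) :
    (Module.finrank K (Bfin K F ⧸ differentIdeal K[X] (Bfin K F)) : ℤ)
        + Module.finrank K (Binf K F ⧸ differentIdeal (Oinf K) (Binf K F))
      = 2 * (Module.finrank (RatFunc K) F : ℤ) + Divisor.degree (canonicalDivisorOf hω) := by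
  rw [QuotLen9.finrank_quotient_eq_card_normalizedFactors
      (RamCountT1.residue_surjective_Bfin K F) (differentIdeal_Bfin_ne_bot K F),
    QuotLen9.finrank_quotient_eq_card_normalizedFactors
      (RamCountT1.residue_surjective_Binf K F) (differentIdeal_Binf_ne_bot K F)]
  exact card_nf_different_add K F hω

/-- The maximal ideals of `Binf` are the places over `x = ∞`. -/
theorem card_heightOneSpectrum_Binf :
    Nat.card (HeightOneSpectrum (Binf K F)) = (placesOverInfty K (xF K F)).ncard := by
  have hF := isFunctionFieldOver_xF K F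
  rw [← range_infPlace hF (infDict K F), ← Set.image_univ,
    Set.ncard_image_of_injective _ (ofHeightOneSpectrum_injective (K := K) (F := F)),
    Set.ncard_univ]

end General

section Concrete

variable (M : ℕ) [NeZero M]
variable [Algebra (RatFunc Kbar) (FN M)] [IsScalarTower Kbar (RatFunc Kbar) (FN M)]
  [Algebra Kbar[X] (FN M)] [IsScalarTower Kbar[X] (RatFunc Kbar) (FN M)]
  [FiniteDimensional (RatFunc Kbar) (FN M)]

/-- The degree `[F_M : ℚ̄(j)]` in the RatFunc setting. -/
theorem finrank_FM (hx : xF Kbar (FN M) = jF M) :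
    Module.finrank (RatFunc Kbar) (FN M) = dedekindPsi M := by
  rw [← degOver_xF Kbar (FN M), hx, Exports.degOver_jF]

/-- **Char 0 different degrees of `F_M / ℚ̄(j)`**. -/
theorem finrank_different_add_FM (hx : xF Kbar (FN M) = jF M) :
    (Module.finrank Kbar (Bfin Kbar (FN M) ⧸ differentIdeal Kbar[X] (Bfin Kbar (FN M))) : ℤ)
        + Module.finrank Kbar
            (Binf Kbar (FN M) ⧸ differentIdeal (Oinf Kbar) (Binf Kbar (FN M)))
      = 3 * (dedekindPsi M : ℤ) - (placesOver (jF M) (0 : Kbar)).ncard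
          - (placesOver (jF M) (1728 : Kbar)).ncard - cuspCount M := by
  have hF : IsFunctionFieldOver Kbar (jF M) := Exports.isFunctionFieldOver_jF M
  haveI : HasCanonicalDivisor (K := Kbar) (F := FN M) :=
    Fermat.Agent.S20.hasCanonicalDivisor_of_isFunctionFieldOver hF
  have hnt : ∃ ω : Ω[FN M⁄Kbar], ω ≠ 0 := ⟨D Kbar (FN M) (jF M), D_ne_zero hF⟩
  obtain ⟨ω, hω⟩ := hnt
  rw [finrank_different_add Kbar (FN M) hω, finrank_FM M hx, Exports.degree_canonicalDivisor M hω,
    ← Exports.ncard_placesOver_zero, ← Exports.ncard_placesOver_1728, numOrbits_T]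
  ring

/-- At a torsion-free level: `6 (Dfin + Dinf) = 13 ψ - 6 c`. -/
theorem six_mul_finrank_different_add_FM (hx : xF Kbar (FN M) = jF M) (hM : 4 ∣ M ∨ 9 ∣ M) :
    6 * ((Module.finrank Kbar
            (Bfin Kbar (FN M) ⧸ differentIdeal Kbar[X] (Bfin Kbar (FN M))) : ℤ)
        + Module.finrank Kbar
            (Binf Kbar (FN M) ⧸ differentIdeal (Oinf Kbar) (Binf Kbar (FN M))))
      = 13 * (dedekindPsi M : ℤ) - 6 * cuspCount M := by
  rw [finrank_different_add_FM M hx]
  obtain ⟨h1, h0⟩ : 2 * (placesOver (jF M) (1728 : Kbar)).ncard = dedekindPsi M ∧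
      3 * (placesOver (jF M) (0 : Kbar)).ncard = dedekindPsi M := by
    rcases hM with h | h
    · exact Char0Counts72.counts_of_four_dvd M h
    · exact Char0Counts72.counts_of_nine_dvd M h
  have h1' : (2 : ℤ) * ((placesOver (jF M) (1728 : Kbar)).ncard : ℤ) = dedekindPsi M := by
    exact_mod_cast h1
  have h0' : (3 : ℤ) * ((placesOver (jF M) (0 : Kbar)).ncard : ℤ) = dedekindPsi M := by
    exact_mod_cast h0
  linarith

/-- At a torsion-free level: `6 (2 g - 2) = 6 (-2ψ + Dfin + Dinf) = ψ - 6 c`. -/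
theorem six_mul_gam2_FM (hx : xF Kbar (FN M) = jF M) (hM : 4 ∣ M ∨ 9 ∣ M) :
    6 * (-2 * (Module.finrank (RatFunc Kbar) (FN M) : ℤ)
        + ((Module.finrank Kbar
            (Bfin Kbar (FN M) ⧸ differentIdeal Kbar[X] (Bfin Kbar (FN M))) : ℤ)
        + Module.finrank Kbar
            (Binf Kbar (FN M) ⧸ differentIdeal (Oinf Kbar) (Binf Kbar (FN M)))))
      = (dedekindPsi M : ℤ) - 6 * cuspCount M := by
  have h := six_mul_finrank_different_add_FM M hx hM
  rw [finrank_FM M hx]
  linarith

/-- `#Max(Binf(F_M)) = cuspCount M`. -/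
theorem card_heightOneSpectrum_Binf_FM (hx : xF Kbar (FN M) = jF M) :
    Nat.card (HeightOneSpectrum (Binf Kbar (FN M))) = cuspCount M := by
  rw [card_heightOneSpectrum_Binf, hx, Exports.ncard_placesOverInfty]

end Concrete

end Fermat.Agent.S18.Char0Diff39
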