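/-
S18 / blueprint 14, package [GAUSS]-INTEGRALITY (helper95).  Mathlib only.

Abstract INTEGRALITY LEMMA for a valued function field.

* Layer 1 (`Ortho`): `E ⊆ F` fields, `O` a valuation subring of `F`, `b` an `E`-basis of `F` which is
  orthonormal for `O` (a combination lies in `O` iff all coefficients do).  Then every `z ∈ O` is
  integral over `O ∩ E`, and `minpoly E z` has coefficients in `O`.
* Layer 2 (`RatFunc`): `E = RatFunc L`, Gauss hypothesis `p(x) ∈ O ↔ p ∈ A[X]`.  If `z ∈ O` is integral
  over `L[X]` and `z / x ^ r` is integral over the valuation ring at infinity, then the minimal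
  polynomial of `z` is `T^d + Σ c_i(x) T^i` with `c_i ∈ A[X]`, `natDegree c_i ≤ r (d - i)`.
* Layer 3 (`Reduction`): for a reduction homomorphism `red : O →+* F̄` compatible with coefficientwise
  reduction `A[X] → k[X]`, `red z` is integral over `k[X]` and `red z / x̄ ^ r` is integral over the
  valuation ring at infinity of `RatFunc k`.
-/
import Mathlib

set_option autoImplicit false

open Polynomial
open scoped Classical

noncomputable section

namespace Fermat.Agent.S18.GaussInt95

/-! ### Layer 1: orthonormal bases and integrality over `O ∩ E` -/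

section Ortho

variable {E F : Type*} [Field E] [Field F] [Algebra E F] (O : ValuationSubring F)

/-- The restriction of the valuation subring `O` of `F` to the subfield `E`. -/
abbrev resVS : ValuationSubring E := O.comap (algebraMap E F)

theorem mem_resVS {a : E} : a ∈ resVS (E := E) O ↔ algebraMap E F a ∈ O := Iff.rfl

variable {ι : Type*} [Fintype ι]

/-- `b` is an orthonormal `E`-basis of `F` with respect to `O`. -/
def IsOrtho (b : Module.Basis ι E F) : Prop :=
  ∀ a : ι → E, (∑ i, a i • b i) ∈ O ↔ ∀ i, algebraMap E F (a i) ∈ O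

variable {O}

theorem IsOrtho.basis_mem {b : Module.Basis ι E F} (hb : IsOrtho O b) (j : ι) : b j ∈ O := by
  have h := (hb (fun i => if i = j then 1 else 0)).2 (fun i => by
    by_cases hij : i = j
    · simp [hij, O.one_mem]
    · simp [hij, O.zero_mem])
  simpa using h

theorem IsOrtho.repr_mem {b : Module.Basis ι E F} (hb : IsOrtho O b) {y : F} (hy : y ∈ O) (i : ι) :
    algebraMap E F (b.repr y i) ∈ O := by
  have h : (∑ i, b.repr y i • b i) ∈ O := by rw [b.sum_repr]; exact hy
  exact (hb _).1 h i

theorem IsOrtho.leftMulMatrix_mem [DecidableEq ι] {b : Module.Basis ι E F} (hb : IsOrtho O b)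
    {z : F} (hz : z ∈ O) (i j : ι) :
    algebraMap E F (Algebra.leftMulMatrix b z i j) ∈ O := by
  rw [Algebra.leftMulMatrix_eq_repr_mul]
  exact hb.repr_mem (O.mul_mem _ _ hz (hb.basis_mem j)) i

/-- Every element of `O` is integral over `O ∩ E`. -/
theorem IsOrtho.isIntegral {b : Module.Basis ι E F} (hb : IsOrtho O b)
    {z : F} (hz : z ∈ O) : IsIntegral (resVS (E := E) O) z := by
  classical
  set M : Matrix ι ι E := Algebra.leftMulMatrix b z with hM
  let M' : Matrix ι ι (resVS (E := E) O) := fun i j => ⟨M i j, hb.leftMulMatrix_mem hz i j⟩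
  have hmap : M'.map (algebraMap (resVS (E := E) O) E) = M := by
    ext i j; rfl
  refine ⟨M'.charpoly, Matrix.charpoly_monic M', ?_⟩
  have h1 : aeval z (M'.charpoly.map (algebraMap (resVS (E := E) O) E)) = 0 := by
    rw [← Matrix.charpoly_map, hmap]
    apply Algebra.leftMulMatrix_injective b
    rw [map_zero, ← Polynomial.aeval_algHom_apply, ← hM]
    exact Matrix.aeval_self_charpoly M
  rwa [aeval_map_algebraMap] at h1

/-- The minimal polynomial over `E` of an element of `O` has coefficients in `O`. -/
theorem IsOrtho.minpoly_coeff_mem {b : Module.Basis ι E F} (hb : IsOrtho O b)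
    {z : F} (hz : z ∈ O) (i : ℕ) : algebraMap E F ((minpoly E z).coeff i) ∈ O := by
  have hint := hb.isIntegral hz
  rw [minpoly.isIntegrallyClosed_eq_field_fractions' E hint, coeff_map]
  exact ((minpoly (resVS (E := E) O) z).coeff i).2

end Ortho

/-! ### Generic: minimal polynomial of a scaled element -/

section Scale

variable {E F : Type*} [Field E] [Field F] [Algebra E F]

/-- For a unit `u` of `E` and `z` integral over `E`, the minimal polynomial of `u z` is obtained from
that of `z` by scaling the roots. -/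
theorem minpoly_smul_eq_scaleRoots {u : E} (hu : u ≠ 0) {z : F} (hz : IsIntegral E z) :
    minpoly E (algebraMap E F u * z) = scaleRoots (minpoly E z) u := by
  set μ := minpoly E z with hμ
  set w := algebraMap E F u * z with hw
  have hwint : IsIntegral E w := (isIntegral_algebraMap).mul hz
  set ν := minpoly E w with hν
  have hQroot : aeval w (scaleRoots μ u) = 0 := scaleRoots_aeval_eq_zero (minpoly.aeval E z)
  have hdvd : ν ∣ scaleRoots μ u := minpoly.dvd E w hQroot
  have hz' : z = algebraMap E F u⁻¹ * w := by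
    rw [hw, ← mul_assoc, ← map_mul, inv_mul_cancel₀ hu, map_one, one_mul]
  have hroot' : aeval z (scaleRoots ν u⁻¹) = 0 := by
    rw [hz']
    exact scaleRoots_aeval_eq_zero (minpoly.aeval E w)
  have hmon' : (scaleRoots ν u⁻¹).Monic := (monic_scaleRoots_iff _).2 (minpoly.monic hwint)
  have hle : μ.natDegree ≤ ν.natDegree := by
    have := minpoly.min E z hmon' hroot'
    have h2 := natDegree_le_natDegree this
    rwa [natDegree_scaleRoots] at h2
  have hQmon : (scaleRoots μ u).Monic := (monic_scaleRoots_iff _).2 (minpoly.monic hz)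
  exact (eq_of_monic_of_dvd_of_natDegree_le (minpoly.monic hwint) hQmon hdvd
    (by rw [natDegree_scaleRoots]; exact hle)).symm

end Scale

/-! ### Layer 2: the rational function field -/

section RatFuncLayer

variable (L : Type*) [Field L]

/-- The valuation ring at infinity of `RatFunc L`. -/
abbrev Oinf : ValuationSubring (RatFunc L) := (RatFunc.inftyValuation L).valuationSubring

variable {L}

theorem mem_Oinf_iff {f : RatFunc L} : f ∈ Oinf L ↔ f = 0 ∨ f.intDegree ≤ 0 := by
  rw [Valuation.mem_valuationSubring_iff]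
  by_cases hf : f = 0
  · simp [hf]
  · rw [RatFunc.inftyValuation_apply, RatFunc.inftyValuation_of_nonzero L hf]
    simp [hf, ← WithZero.exp_zero, WithZero.exp_le_exp]

theorem intDegree_X_inv_pow (m : ℕ) :
    (((RatFunc.X : RatFunc L))⁻¹ ^ m).intDegree = -(m : ℤ) := by
  induction m with
  | zero => simp
  | succ m ih =>
    rw [pow_succ, RatFunc.intDegree_mul (pow_ne_zero _ (inv_ne_zero RatFunc.X_ne_zero))
      (inv_ne_zero RatFunc.X_ne_zero), ih, RatFunc.intDegree_inv, RatFunc.intDegree_X]
    push_cast; ring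

/-- `p / X ^ m ∈ O_∞` iff `natDegree p ≤ m` (or `p = 0`). -/
theorem poly_mul_X_inv_pow_mem_Oinf_iff (p : L[X]) (m : ℕ) :
    algebraMap L[X] (RatFunc L) p * ((RatFunc.X : RatFunc L))⁻¹ ^ m ∈ Oinf L ↔ p.natDegree ≤ m := by
  by_cases hp : p = 0
  · subst hp; simp [(Oinf L).zero_mem]
  have hp' : algebraMap L[X] (RatFunc L) p ≠ 0 := by
    rwa [Ne, map_eq_zero_iff _ (IsFractionRing.injective L[X] (RatFunc L))]
  have hX : ((RatFunc.X : RatFunc L))⁻¹ ^ m ≠ 0 := pow_ne_zero _ (inv_ne_zero RatFunc.X_ne_zero)
  rw [mem_Oinf_iff, RatFunc.intDegree_mul hp' hX, RatFunc.intDegree_polynomial, intDegree_X_inv_pow]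
  constructor
  · rintro (h | h)
    · exact absurd h (mul_ne_zero hp' hX)
    · omega
  · intro h; right; omega

variable {F : Type*} [Field F] [Algebra (RatFunc L) F]
  [Algebra L[X] F] [IsScalarTower L[X] (RatFunc L) F]

variable (L F) in
/-- The image of `X` in `F`. -/
def xF : F := algebraMap (RatFunc L) F RatFunc.X

variable (A : ValuationSubring L) (O : ValuationSubring F)

/-- Gauss hypothesis: a polynomial in `x` lies in `O` iff its coefficients lie in `A`. -/
def IsGauss : Prop := ∀ p : L[X], algebraMap L[X] F p ∈ O ↔ ∀ j, p.coeff j ∈ A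

variable {A O}

/-- **Integrality lemma, coefficient form.** -/
theorem exists_coeffs (hG : IsGauss A O) {ι : Type*} [Fintype ι]
    {b : Module.Basis ι (RatFunc L) F} (hb : IsOrtho O b)
    {z : F} (hzO : z ∈ O) (hz1 : IsIntegral L[X] z) (r : ℕ)
    (hz2 : IsIntegral (Oinf L) (z / xF L F ^ r)) :
    ∃ c : ℕ → L[X],
      (∀ i, (minpoly (RatFunc L) z).coeff i = algebraMap L[X] (RatFunc L) (c i)) ∧
      (∀ i j, (c i).coeff j ∈ A) ∧
      ∀ i, (c i).natDegree ≤ r * ((minpoly (RatFunc L) z).natDegree - i) := by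
  have hzE : IsIntegral (RatFunc L) z := hz1.tower_top
  have hμ : minpoly (RatFunc L) z = (minpoly L[X] z).map (algebraMap L[X] (RatFunc L)) :=
    minpoly.isIntegrallyClosed_eq_field_fractions' (RatFunc L) hz1
  refine ⟨fun i => (minpoly L[X] z).coeff i, fun i => by rw [hμ, coeff_map], ?_, ?_⟩
  · intro i
    have h := hb.minpoly_coeff_mem hzO i
    rw [hμ, coeff_map, ← IsScalarTower.algebraMap_apply] at h
    exact (hG _).1 h
  · intro i
    set d := (minpoly (RatFunc L) z).natDegree with hd
    by_cases hid : d < i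
    · have : (minpoly L[X] z).coeff i = 0 := by
        apply coeff_eq_zero_of_natDegree_lt
        have : (minpoly L[X] z).natDegree = d := by
          rw [hd, hμ, natDegree_map_eq_of_injective (IsFractionRing.injective L[X] (RatFunc L))]
        omega
      simp [this]
    set u : RatFunc L := ((RatFunc.X : RatFunc L))⁻¹ ^ r with hu
    have hu0 : u ≠ 0 := pow_ne_zero _ (inv_ne_zero RatFunc.X_ne_zero)
    have hw : z / xF L F ^ r = algebraMap (RatFunc L) F u * z := by
      rw [hu, map_pow, map_inv₀, xF, inv_pow, div_eq_inv_mul]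
    rw [hw] at hz2
    have hν := minpoly_smul_eq_scaleRoots hu0 hzE
    have hν2 : minpoly (RatFunc L) (algebraMap (RatFunc L) F u * z) =
        (minpoly (Oinf L) (algebraMap (RatFunc L) F u * z)).map (algebraMap (Oinf L) (RatFunc L)) :=
      minpoly.isIntegrallyClosed_eq_field_fractions' (RatFunc L) hz2
    have hmem : (scaleRoots (minpoly (RatFunc L) z) u).coeff i ∈ Oinf L := by
      rw [← hν, hν2, coeff_map]
      exact ((minpoly (Oinf L) (algebraMap (RatFunc L) F u * z)).coeff i).2
    rw [coeff_scaleRoots, hμ, coeff_map, ← hμ, ← hd, hu, ← pow_mul,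
      poly_mul_X_inv_pow_mem_Oinf_iff] at hmem
    exact hmem

end RatFuncLayer

/-! ### Layer 3: reduction -/

section PolyToOinf

variable {k : Type*} [Field k] {Fb : Type*} [Field Fb] [Algebra (RatFunc k) Fb]
  [Algebra k[X] Fb] [IsScalarTower k[X] (RatFunc k) Fb]

/-- If `y` is a root of a monic polynomial `T^d + Σ c_i(x) T^i` over `k[X]` with
`natDegree c_i ≤ r (d - i)`, then `y / x ^ r` is integral over the valuation ring at infinity. -/
theorem isIntegral_Oinf_of_poly {y : Fb} (P : Polynomial k[X]) (hmon : P.Monic)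
    (hroot : aeval y P = 0) (r : ℕ)
    (hdeg : ∀ i, (P.coeff i).natDegree ≤ r * (P.natDegree - i)) :
    IsIntegral (Oinf k) (y / xF k Fb ^ r) := by
  set PE : Polynomial (RatFunc k) := P.map (algebraMap k[X] (RatFunc k)) with hPE
  have hPEmon : PE.Monic := hmon.map _
  have hPEdeg : PE.natDegree = P.natDegree :=
    natDegree_map_eq_of_injective (IsFractionRing.injective k[X] (RatFunc k)) P
  have hPEroot : aeval y PE = 0 := by
    rw [hPE, aeval_map_algebraMap]; exact hroot
  set u : RatFunc k := ((RatFunc.X : RatFunc k))⁻¹ ^ r with hu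
  have hw : y / xF k Fb ^ r = algebraMap (RatFunc k) Fb u * y := by
    rw [hu, map_pow, map_inv₀, xF, inv_pow, div_eq_inv_mul]
  rw [hw]
  have hQroot : aeval (algebraMap (RatFunc k) Fb u * y) (scaleRoots PE u) = 0 :=
    scaleRoots_aeval_eq_zero hPEroot
  have hQmon : (scaleRoots PE u).Monic := (monic_scaleRoots_iff _).2 hPEmon
  have hlift : scaleRoots PE u ∈ lifts (algebraMap (Oinf k) (RatFunc k)) := by
    rw [lifts_iff_coeff_lifts]
    intro i
    have hmem : (scaleRoots PE u).coeff i ∈ Oinf k := by
      rw [coeff_scaleRoots, hPE, coeff_map, ← hPE, hPEdeg, hu, ← pow_mul,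
        poly_mul_X_inv_pow_mem_Oinf_iff]
      exact hdeg i
    exact ⟨⟨_, hmem⟩, rfl⟩
  obtain ⟨Q', hQ'map, -, hQ'mon⟩ := lifts_and_natDegree_eq_and_monic hlift hQmon
  refine ⟨Q', hQ'mon, ?_⟩
  have := hQroot
  rw [← hQ'map, aeval_map_algebraMap] at this
  exact this

end PolyToOinf

section Reduction

variable {L : Type*} [Field L] {F : Type*} [Field F] [Algebra (RatFunc L) F]
  [Algebra L[X] F] [IsScalarTower L[X] (RatFunc L) F]
variable {A : ValuationSubring L} {O : ValuationSubring F}
variable {k : Type*} [Field k] {Fb : Type*} [Field Fb] [Algebra (RatFunc k) Fb]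
  [Algebra k[X] Fb] [IsScalarTower k[X] (RatFunc k) Fb]

/-- The evaluation map `A[X] → F`, `p ↦ p(x)`. -/
def polyToF {L : Type*} [Field L] (A : ValuationSubring L) (F : Type*) [Field F] [Algebra L[X] F] :
    Polynomial A →+* F :=
  (algebraMap L[X] F).comp (mapRingHom A.subtype)

omit [Algebra (RatFunc L) F] [IsScalarTower L[X] (RatFunc L) F] in
theorem polyToF_mem (hG : IsGauss A O) (p : Polynomial A) : polyToF A F p ∈ O := by
  refine (hG _).2 fun j => ?_
  rw [coe_mapRingHom, coeff_map]
  exact (p.coeff j).2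

/-- `red` is compatible with coefficientwise reduction of polynomials in `x`. -/
def RedCompat (π : A →+* k) (red : O →+* Fb) : Prop :=
  ∀ (p : Polynomial A) (h : polyToF A F p ∈ O),
    red ⟨polyToF A F p, h⟩ = algebraMap k[X] Fb (p.map π)

/-- **Integrality lemma, polynomial form over `A[X]`**: `z` is a root of a monic polynomial over
`A[X]` of degree `d` whose `i`-th coefficient has degree at most `r (d - i)`. -/
theorem exists_monic_poly (hG : IsGauss A O) {ι : Type*} [Fintype ι]
    {b : Module.Basis ι (RatFunc L) F} (hb : IsOrtho O b)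
    {z : F} (hzO : z ∈ O) (hz1 : IsIntegral L[X] z) (r : ℕ)
    (hz2 : IsIntegral (Oinf L) (z / xF L F ^ r)) :
    ∃ P : Polynomial (Polynomial A), P.Monic ∧ eval₂ (polyToF A F) z P = 0 ∧
      ∀ i, (P.coeff i).natDegree ≤ r * (P.natDegree - i) := by
  obtain ⟨c, hc1, hc2, hc3⟩ := exists_coeffs hG hb hzO hz1 r hz2
  set μ := minpoly (RatFunc L) z with hμ
  have hzE : IsIntegral (RatFunc L) z := hz1.tower_top
  set φ' : Polynomial A →+* RatFunc L :=
    (algebraMap L[X] (RatFunc L)).comp (mapRingHom A.subtype) with hφ'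
  have hφ'inj : Function.Injective φ' := by
    rw [hφ', RingHom.coe_comp]
    exact (IsFractionRing.injective L[X] (RatFunc L)).comp
      (map_injective _ A.subtype_injective)
  have hlift : μ ∈ lifts φ' := by
    rw [lifts_iff_coeff_lifts]
    intro i
    have : c i ∈ lifts A.subtype := by
      rw [lifts_iff_coeff_lifts]
      intro j
      exact ⟨⟨_, hc2 i j⟩, rfl⟩
    obtain ⟨q, hq⟩ := this
    exact ⟨q, by rw [hc1 i, ← hq]; rfl⟩
  obtain ⟨P, hPmap, hPdeg, hPmon⟩ := lifts_and_natDegree_eq_and_monic hlift (minpoly.monic hzE)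
  refine ⟨P, hPmon, ?_, ?_⟩
  · have h1 : polyToF A F = (algebraMap (RatFunc L) F).comp φ' := by
      rw [hφ', polyToF, ← RingHom.comp_assoc]
      congr 1
      exact RingHom.ext fun p => IsScalarTower.algebraMap_apply L[X] (RatFunc L) F p
    rw [h1, ← eval₂_map, hPmap, ← aeval_def]
    exact minpoly.aeval _ _
  · intro i
    have h2 : φ' (P.coeff i) = algebraMap L[X] (RatFunc L) (c i) := by
      rw [← hc1 i, ← hPmap, coeff_map]
    have h3 : (P.coeff i).map A.subtype = c i :=
      IsFractionRing.injective L[X] (RatFunc L) h2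
    have h4 : (P.coeff i).natDegree = (c i).natDegree := by
      rw [← h3, natDegree_map_eq_of_injective A.subtype_injective]
    rw [h4, hPdeg]
    exact hc3 i

variable (π : A →+* k) (red : O →+* Fb)

/-- **Integrality lemma, reduced form.**  If `z ∈ O` is integral over `L[X]` and `z / x ^ r` is
integral over the valuation ring at infinity of `RatFunc L`, then the reduction of `z` is integral
over `k[X]` and `z̄ / x̄ ^ r` is integral over the valuation ring at infinity of `RatFunc k`. -/
theorem red_isIntegral (hG : IsGauss A O) {ι : Type*} [Fintype ι]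
    {b : Module.Basis ι (RatFunc L) F} (hb : IsOrtho O b) (hred : RedCompat π red)
    {z : F} (hzO : z ∈ O) (hz1 : IsIntegral L[X] z) (r : ℕ)
    (hz2 : IsIntegral (Oinf L) (z / xF L F ^ r)) :
    IsIntegral k[X] (red ⟨z, hzO⟩) ∧ IsIntegral (Oinf k) (red ⟨z, hzO⟩ / xF k Fb ^ r) := by
  obtain ⟨P, hPmon, hProot, hPdeg⟩ := exists_monic_poly hG hb hzO hz1 r hz2
  -- the evaluation map into `O`
  let φO : Polynomial A →+* O := (polyToF A F).codRestrict O.toSubring (polyToF_mem hG)
  have hφO : ∀ p, ((φO p : O) : F) = polyToF A F p := fun p => rfl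
  have hsub : O.subtype.comp φO = polyToF A F := RingHom.ext fun p => rfl
  have hrootO : eval₂ φO (⟨z, hzO⟩ : O) P = 0 := by
    apply O.subtype_injective
    rw [map_zero, hom_eval₂, hsub]
    exact hProot
  have hcomp : red.comp φO = (algebraMap k[X] Fb).comp (mapRingHom π) :=
    RingHom.ext fun p => hred p (polyToF_mem hG p)
  have hrootb : eval₂ ((algebraMap k[X] Fb).comp (mapRingHom π)) (red ⟨z, hzO⟩) P = 0 := by
    rw [← hcomp, ← hom_eval₂, hrootO, map_zero]
  set Pb : Polynomial k[X] := P.map (mapRingHom π) with hPb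
  have hPbmon : Pb.Monic := hPmon.map _
  have hPbroot : aeval (red ⟨z, hzO⟩) Pb = 0 := by
    rw [aeval_def, hPb, eval₂_map]; exact hrootb
  have hPbdeg : Pb.natDegree = P.natDegree := hPmon.natDegree_map _
  refine ⟨⟨Pb, hPbmon, by rw [← aeval_def]; exact hPbroot⟩, ?_⟩
  refine isIntegral_Oinf_of_poly Pb hPbmon hPbroot r fun i => ?_
  rw [hPbdeg, hPb, coeff_map, coe_mapRingHom]
  exact le_trans (natDegree_map_le) (hPdeg i)

end Reduction

end Fermat.Agent.S18.GaussInt95
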