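import Mathlib
import Fermat.Prelude.Def_AlgebraicCurve_IsCurveOver
import Fermat.Prelude.Def_AlgebraicCurve_Repartitions

/-!
# S18 [FF]-LSPACE (helper5): the Riemann–Roch spaces `L(G)` over the Prelude Place/Divisor API

Any characteristic, `K` any field (algebraically closed only for `ℓ(0) = 1`).

* `finrank_le_add_one_place`, `finrank_le_add_degree` : `G ≤ G'` ⟹ `ℓ(G') ≤ ℓ(G) + deg (G' - G)`
* `riemannRochSpace_eq_bot_of_degree_neg` : `deg G < 0` ⟹ `L(G) = 0`
* `finite_riemannRochSpace` : `L(G)` is finite-dimensional (given one place)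
* `finrank_add_principal` : `ℓ(G + div y) = ℓ(G)`
* `finrank_riemannRochSpace_zero` : `ℓ(0) = 1` for `K` algebraically closed
* `finrank_le_degree_add_one` : `ℓ(G) ≤ deg G + 1` for `deg G ≥ 0`
-/

set_option autoImplicit false
set_option linter.style.haveILetI false

namespace Fermat.Agent.S18.FFLSpace5

open AlgebraicCurve IsLocalRing Module

variable {K F : Type*} [Field K] [Field F] [Algebra K F]

section PlaceBasics

variable (v : Place K F)

theorem mem_valuationSubring_iff {f : F} :
    f ∈ v.toValuationSubring ↔ f = 0 ∨ 0 ≤ v.ord f := by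
  constructor
  · intro hf
    exact v.adicValuation_le_one_iff.mp (v.adicValuation_le_one_of_mem hf)
  · rintro (rfl | h)
    · exact zero_mem _
    · rcases eq_or_ne f 0 with rfl | hf
      · exact zero_mem _
      obtain ⟨π, hπ⟩ := IsDiscreteValuationRing.exists_irreducible v.toValuationSubring
      obtain ⟨u, hu⟩ := v.exists_unit_mul_zpow hf hπ
      rw [hu, show v.ord f = (((v.ord f).toNat : ℕ) : ℤ) from (Int.toNat_of_nonneg h).symm,
        zpow_natCast]
      exact mul_mem (u : v.toValuationSubring).2 (pow_mem (π : v.toValuationSubring).2 _)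

theorem isUnit_iff (a : v.toValuationSubring) :
    IsUnit a ↔ (a : F) ≠ 0 ∧ v.ord (a : F) = 0 := by
  rw [← v.adicValuation_coe_eq_one_iff]
  constructor
  · intro h
    have h0 : (a : F) ≠ 0 := by
      intro h0
      rw [h0, map_zero] at h
      exact zero_ne_one h
    refine ⟨h0, ?_⟩
    rw [v.adicValuation_eq_exp_neg_ord h0] at h
    have : -v.ord (a : F) = 0 := by
      have h1 : WithZero.exp (-v.ord (a : F)) = WithZero.exp (0 : ℤ) := by rw [h]; rfl
      exact WithZero.exp_injective h1
    omega
  · rintro ⟨h0, h1⟩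
    rw [v.adicValuation_eq_exp_neg_ord h0, h1]
    rfl

theorem mem_maximalIdeal_iff (a : v.toValuationSubring) :
    a ∈ maximalIdeal v.toValuationSubring ↔ (a : F) = 0 ∨ 1 ≤ v.ord (a : F) := by
  rw [mem_maximalIdeal, mem_nonunits_iff, isUnit_iff v]
  have hmem := (mem_valuationSubring_iff v (f := (a : F))).mp a.2
  constructor
  · intro h
    by_cases h0 : (a : F) = 0
    · exact Or.inl h0
    · right
      rcases hmem with h' | h'
      · exact absurd h' h0
      · have : v.ord (a : F) ≠ 0 := fun h1 => h ⟨h0, h1⟩
        omega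
  · rintro (h | h) ⟨h0, h1⟩
    · exact h0 h
    · omega

/-- A uniformizer at `v` as an element of `F`. -/
theorem exists_uniformizer : ∃ π : F, π ≠ 0 ∧ v.ord π = 1 := by
  obtain ⟨π, hπ⟩ := IsDiscreteValuationRing.exists_irreducible v.toValuationSubring
  refine ⟨(π : F), ?_, v.ord_coe_irreducible hπ⟩
  simpa [ne_eq, ZeroMemClass.coe_eq_zero] using hπ.ne_zero

theorem coe_smul' (c : K) (a : v.toValuationSubring) :
    ((c • a : v.toValuationSubring) : F) = c • (a : F) := by
  rw [Algebra.smul_def, Algebra.smul_def]
  rfl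

theorem residue_smul (c : K) (x : v.toValuationSubring) :
    IsLocalRing.residue v.toValuationSubring (c • x) =
      c • IsLocalRing.residue v.toValuationSubring x := by
  rw [Algebra.smul_def, Algebra.smul_def, map_mul]
  rfl

end PlaceBasics

section OneStep

open Classical in
/-- `L(G) ≤ L(G')` for `G ≤ G'`. -/
theorem riemannRochSpace_mono {G G' : Divisor K F} (h : G ≤ G') :
    riemannRochSpace G ≤ riemannRochSpace G' := by
  intro f hf
  rw [mem_riemannRochSpace_iff] at hf ⊢
  intro v
  rcases hf v with h0 | h1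
  · exact Or.inl h0
  · right
    have := Finsupp.le_def.mp h v
    omega

variable (G : Divisor K F) (v : Place K F)

theorem add_single_apply_self (n : ℤ) : (G + Finsupp.single v n) v = G v + n := by
  rw [Finsupp.add_apply, Finsupp.single_eq_same]

theorem add_single_apply_ne (n : ℤ) {w : Place K F} (hw : w ≠ v) :
    (G + Finsupp.single v n) w = G w := by
  rw [Finsupp.add_apply, Finsupp.single_eq_of_ne hw, add_zero]

/-- For `f ∈ L(G + v)` and a uniformizer `π` at `v`, `π^(G v + 1) f` is integral at `v`. -/
theorem mul_mem_of_mem_add_single {π : F} (hπ0 : π ≠ 0) (hπ : v.ord π = 1) {f : F}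
    (hf : f ∈ riemannRochSpace (G + Finsupp.single v 1)) :
    π ^ (G v + 1) * f ∈ v.toValuationSubring := by
  rw [mem_valuationSubring_iff v]
  rcases eq_or_ne f 0 with rfl | hf0
  · left; simp
  · right
    rw [v.ord_mul (zpow_ne_zero _ hπ0) hf0, v.ord_zpow, hπ]
    have := (mem_riemannRochSpace_iff.mp hf v).resolve_left hf0
    rw [add_single_apply_self] at this
    omega

/-- The map `L(G + v) → κ(v)`, `f ↦ (π^(G v + 1) f) mod v`. -/
noncomputable def stepMap {π : F} (hπ0 : π ≠ 0) (hπ : v.ord π = 1) :
    riemannRochSpace (G + Finsupp.single v 1) →ₗ[K] v.ResidueField where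
  toFun f := IsLocalRing.residue v.toValuationSubring
    ⟨π ^ (G v + 1) * (f : F), mul_mem_of_mem_add_single G v hπ0 hπ f.2⟩
  map_add' f g := by
    rw [← map_add]
    congr 1
    apply Subtype.ext
    show π ^ (G v + 1) * ((f : F) + (g : F)) = π ^ (G v + 1) * (f : F) + π ^ (G v + 1) * (g : F)
    ring
  map_smul' c f := by
    rw [RingHom.id_apply, ← residue_smul v]
    congr 1
    apply Subtype.ext
    rw [coe_smul' v]
    show π ^ (G v + 1) * (c • (f : F)) = c • (π ^ (G v + 1) * (f : F))
    rw [mul_smul_comm]

theorem stepMap_apply {π : F} (hπ0 : π ≠ 0) (hπ : v.ord π = 1)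
    (f : riemannRochSpace (G + Finsupp.single v 1)) :
    stepMap G v hπ0 hπ f = IsLocalRing.residue v.toValuationSubring
      ⟨π ^ (G v + 1) * (f : F), mul_mem_of_mem_add_single G v hπ0 hπ f.2⟩ := rfl

theorem stepMap_eq_zero_iff {π : F} (hπ0 : π ≠ 0) (hπ : v.ord π = 1)
    (f : riemannRochSpace (G + Finsupp.single v 1)) :
    stepMap G v hπ0 hπ f = 0 ↔ (f : F) ∈ riemannRochSpace G := by
  rw [stepMap_apply, IsLocalRing.residue_eq_zero_iff, mem_maximalIdeal_iff v]
  show (π ^ (G v + 1) * (f : F) = 0 ∨ 1 ≤ v.ord (π ^ (G v + 1) * (f : F))) ↔ _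
  rcases eq_or_ne (f : F) 0 with h0 | h0
  · rw [h0]
    simp
  · rw [v.ord_mul (zpow_ne_zero _ hπ0) h0, v.ord_zpow, hπ, mem_riemannRochSpace_iff]
    constructor
    · rintro (h | h)
      · exact absurd h (mul_ne_zero (zpow_ne_zero _ hπ0) h0)
      · intro w
        right
        by_cases hw : w = v
        · subst hw; omega
        · have := (mem_riemannRochSpace_iff.mp f.2 w).resolve_left h0
          rwa [add_single_apply_ne G v 1 hw] at this
    · intro h
      right
      have := (h v).resolve_left h0
      omega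

theorem ker_stepMap {π : F} (hπ0 : π ≠ 0) (hπ : v.ord π = 1) :
    LinearMap.ker (stepMap G v hπ0 hπ) =
      (riemannRochSpace G).comap (riemannRochSpace (G + Finsupp.single v 1)).subtype := by
  ext f
  rw [LinearMap.mem_ker, stepMap_eq_zero_iff, Submodule.mem_comap]
  rfl

/-- One-place step: if `L(G)` is finite-dimensional then so is `L(G + v)` and
`ℓ(G + v) ≤ ℓ(G) + deg v`. -/
theorem finite_and_finrank_add_single_one [v.FiniteResidue]
    (hfin : Module.Finite K (riemannRochSpace G)) :
    Module.Finite K (riemannRochSpace (G + Finsupp.single v 1)) ∧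
      finrank K (riemannRochSpace (G + Finsupp.single v 1)) ≤
        finrank K (riemannRochSpace G) + v.deg := by
  obtain ⟨π, hπ0, hπ⟩ := exists_uniformizer v
  have hκ : Module.Finite K v.ResidueField := Place.FiniteResidue.finite
  have hle : riemannRochSpace G ≤ riemannRochSpace (G + Finsupp.single v 1) := by
    apply riemannRochSpace_mono
    intro w
    by_cases hw : w = v
    · subst hw; rw [add_single_apply_self]; omega
    · rw [add_single_apply_ne G v 1 hw]
  have hker : LinearMap.ker (stepMap G v hπ0 hπ) =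
      (riemannRochSpace G).comap (riemannRochSpace (G + Finsupp.single v 1)).subtype :=
    ker_stepMap G v hπ0 hπ
  let e : ↥(LinearMap.ker (stepMap G v hπ0 hπ)) ≃ₗ[K] ↥(riemannRochSpace G) :=
    (LinearEquiv.ofEq _ _ hker).trans (Submodule.comapSubtypeEquivOfLe hle)
  have hkerfin : Module.Finite K ↥(LinearMap.ker (stepMap G v hπ0 hπ)) :=
    Module.Finite.equiv e.symm
  have hrangefin : Module.Finite K ↥(LinearMap.range (stepMap G v hπ0 hπ)) := inferInstance
  have hquot : Module.Finite K
      (↥(riemannRochSpace (G + Finsupp.single v 1)) ⧸ LinearMap.ker (stepMap G v hπ0 hπ)) :=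
    Module.Finite.equiv (LinearMap.quotKerEquivRange (stepMap G v hπ0 hπ)).symm
  have hMfin : Module.Finite K ↥(riemannRochSpace (G + Finsupp.single v 1)) :=
    Module.Finite.of_submodule_quotient (LinearMap.ker (stepMap G v hπ0 hπ))
  refine ⟨hMfin, ?_⟩
  have h1 := LinearMap.finrank_range_add_finrank_ker (stepMap G v hπ0 hπ)
  have h2 : finrank K ↥(LinearMap.range (stepMap G v hπ0 hπ)) ≤ v.deg := Submodule.finrank_le _
  have h3 : finrank K ↥(LinearMap.ker (stepMap G v hπ0 hπ)) = finrank K ↥(riemannRochSpace G) :=
    e.finrank_eq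
  omega

/-- `n`-fold one-place step. -/
theorem finite_and_finrank_add_single [v.FiniteResidue] (n : ℕ)
    (hfin : Module.Finite K (riemannRochSpace G)) :
    Module.Finite K (riemannRochSpace (G + Finsupp.single v (n : ℤ))) ∧
      finrank K (riemannRochSpace (G + Finsupp.single v (n : ℤ))) ≤
        finrank K (riemannRochSpace G) + n * v.deg := by
  induction n with
  | zero =>
    have h0 : G + Finsupp.single v ((0 : ℕ) : ℤ) = G := by
      rw [Nat.cast_zero, Finsupp.single_zero, add_zero]
    rw [h0, zero_mul, add_zero]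
    exact ⟨hfin, le_refl _⟩
  | succ n ih =>
    have hG : G + Finsupp.single v ((n + 1 : ℕ) : ℤ)
        = (G + Finsupp.single v (n : ℤ)) + Finsupp.single v 1 := by
      rw [add_assoc, ← Finsupp.single_add]
      push_cast
      rfl
    rw [hG]
    obtain ⟨h1, h2⟩ := finite_and_finrank_add_single_one (G + Finsupp.single v (n : ℤ)) v ih.1
    refine ⟨h1, ?_⟩
    have := ih.2
    rw [add_mul, one_mul]
    omega

end OneStep

section Degree

theorem degree_eq_sum (E : Divisor K F) :
    Divisor.degree E = E.sum fun w n => n * (w.deg : ℤ) := by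
  unfold Divisor.degree
  rw [Finsupp.liftAddHom_apply]
  rfl

theorem degree_nonneg {E : Divisor K F} (hE : 0 ≤ E) : 0 ≤ Divisor.degree E := by
  rw [degree_eq_sum, Finsupp.sum]
  apply Finset.sum_nonneg
  intro w _
  have : 0 ≤ E w := Finsupp.le_def.mp hE w
  positivity

theorem eq_zero_of_nonneg_of_degree_eq_zero (hdeg : ∀ w : Place K F, 0 < w.deg)
    {E : Divisor K F} (hE : 0 ≤ E) (h0 : Divisor.degree E = 0) : E = 0 := by
  rw [degree_eq_sum, Finsupp.sum] at h0
  have hterm : ∀ w ∈ E.support, 0 ≤ E w * (w.deg : ℤ) := by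
    intro w _
    have : 0 ≤ E w := Finsupp.le_def.mp hE w
    positivity
  have hall := (Finset.sum_eq_zero_iff_of_nonneg hterm).mp h0
  ext w
  by_cases hw : w ∈ E.support
  · have h1 := hall w hw
    have h2 : (0 : ℤ) < (w.deg : ℤ) := by exact_mod_cast hdeg w
    rcases mul_eq_zero.mp h1 with h | h
    · simpa using h
    · omega
  · simpa using Finsupp.notMem_support_iff.mp hw

end Degree

section Effective

/-- Adding an effective divisor `E`: finite-dimensionality propagates and
`ℓ(G + E) ≤ ℓ(G) + deg E`. -/
theorem finite_and_finrank_add_effective (hres : ∀ w : Place K F, w.FiniteResidue)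
    (E : Divisor K F) (hE : 0 ≤ E) :
    ∀ G : Divisor K F, Module.Finite K (riemannRochSpace G) →
      Module.Finite K (riemannRochSpace (G + E)) ∧
        (finrank K (riemannRochSpace (G + E)) : ℤ) ≤
          finrank K (riemannRochSpace G) + Divisor.degree E := by
  induction E using Finsupp.induction with
  | zero =>
    intro G hfin
    rw [add_zero, map_zero, add_zero]
    exact ⟨hfin, le_refl _⟩
  | single_add v n E' hv hn ih =>
    intro G hfin
    have hEv : (Finsupp.single v n + E') v = n := by
      rw [Finsupp.add_apply, Finsupp.single_eq_same, Finsupp.notMem_support_iff.mp hv, add_zero]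
    have hn0 : 0 ≤ n := by
      have := Finsupp.le_def.mp hE v
      rw [hEv] at this
      simpa using this
    have hE' : 0 ≤ E' := by
      intro w
      by_cases hw : w = v
      · subst hw
        rw [Finsupp.notMem_support_iff.mp hv]
        rfl
      · have := Finsupp.le_def.mp hE w
        rw [Finsupp.add_apply, Finsupp.single_eq_of_ne hw, zero_add] at this
        exact this
    obtain ⟨h1, h2⟩ := ih hE' G hfin
    haveI := hres v
    obtain ⟨h3, h4⟩ := finite_and_finrank_add_single (G + E') v n.toNat h1
    have hn' : ((n.toNat : ℕ) : ℤ) = n := Int.toNat_of_nonneg hn0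
    rw [hn'] at h3 h4
    have hG : G + (Finsupp.single v n + E') = G + E' + Finsupp.single v n := by abel
    rw [hG]
    refine ⟨h3, ?_⟩
    rw [map_add, Divisor.degree_single]
    have h5 : (finrank K ↥(riemannRochSpace (G + E' + Finsupp.single v n)) : ℤ)
        ≤ (finrank K ↥(riemannRochSpace (G + E')) : ℤ) + (n.toNat : ℤ) * (v.deg : ℤ) := by
      exact_mod_cast h4
    rw [hn'] at h5
    linarith

/-- Class-free finiteness: if `L(0)` is finite-dimensional then every `L(G)` is, and
`ℓ(G) ≤ ℓ(0) + deg G⁺` (no `HasPrincipalDivisors` needed). -/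
theorem finite_and_finrank_le_of_finite_zero (hres : ∀ w : Place K F, w.FiniteResidue)
    (h0 : Module.Finite K (riemannRochSpace (0 : Divisor K F))) (G : Divisor K F) :
    Module.Finite K (riemannRochSpace G) ∧
      (finrank K (riemannRochSpace G) : ℤ) ≤
        finrank K (riemannRochSpace (0 : Divisor K F)) + Divisor.degree (G ⊔ 0) := by
  have hE : (0 : Divisor K F) ≤ G ⊔ 0 := le_sup_right
  obtain ⟨h1, h2⟩ := finite_and_finrank_add_effective hres (G ⊔ 0) hE 0 h0
  rw [zero_add] at h1 h2
  have hle : riemannRochSpace G ≤ riemannRochSpace (G ⊔ 0) := riemannRochSpace_mono le_sup_left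
  have hfin : Module.Finite K (riemannRochSpace G) := by
    haveI := h1
    exact Module.Finite.equiv (Submodule.comapSubtypeEquivOfLe hle)
  refine ⟨hfin, ?_⟩
  haveI := h1
  have h3 : finrank K (riemannRochSpace G) ≤ finrank K (riemannRochSpace (G ⊔ 0)) :=
    Submodule.finrank_mono hle
  have h4 : (finrank K (riemannRochSpace G) : ℤ) ≤ finrank K (riemannRochSpace (G ⊔ 0)) := by
    exact_mod_cast h3
  linarith

/-- Class-free monotonicity bound: `G ≤ G'` and `L(G)` finite-dimensional ⟹
`ℓ(G') ≤ ℓ(G) + deg (G' - G)`. -/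
theorem finrank_le_add_degree_of_finite (hres : ∀ w : Place K F, w.FiniteResidue)
    {G G' : Divisor K F} (h : G ≤ G') (hfin : Module.Finite K (riemannRochSpace G)) :
    Module.Finite K (riemannRochSpace G') ∧
    (finrank K (riemannRochSpace G') : ℤ) ≤
      finrank K (riemannRochSpace G) + Divisor.degree (G' - G) := by
  have hE : 0 ≤ G' - G := sub_nonneg.mpr h
  have := finite_and_finrank_add_effective hres (G' - G) hE G hfin
  rwa [add_sub_cancel] at this

end Effective

section NegDegree

variable [HasPrincipalDivisors K F]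

/-- `L(G) = 0` if `deg G < 0`. -/
theorem riemannRochSpace_eq_bot_of_degree_neg {G : Divisor K F} (hG : Divisor.degree G < 0) :
    riemannRochSpace G = ⊥ := by
  rw [eq_bot_iff]
  intro f hf
  rw [Submodule.mem_bot]
  by_contra hf0
  obtain ⟨D, hD, hD0⟩ := HasPrincipalDivisors.exists_divisor (K := K) f hf0
  have hDG : 0 ≤ D + G := by
    intro w
    have := (mem_riemannRochSpace_iff.mp hf w).resolve_left hf0
    rw [Finsupp.add_apply, hD w]
    show (0 : ℤ) ≤ _
    omega
  have := degree_nonneg hDG
  rw [map_add, hD0, zero_add] at this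
  omega

/-- **Finite-dimensionality** of all `L(G)`, given one place (all residue fields finite). -/
theorem finite_riemannRochSpace (hres : ∀ w : Place K F, w.FiniteResidue) (v₀ : Place K F)
    (G : Divisor K F) : Module.Finite K (riemannRochSpace G) := by
  haveI := hres v₀
  haveI : Module.Finite K v₀.ResidueField := Place.FiniteResidue.finite
  have hdeg : 0 < v₀.deg := Module.finrank_pos
  set m : ℕ := (Divisor.degree G).toNat + 1 with hm
  set G₀ : Divisor K F := G - Finsupp.single v₀ (m : ℤ) with hG₀
  have hneg : Divisor.degree G₀ < 0 := by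
    rw [hG₀, map_sub, Divisor.degree_single]
    have h1 : (1 : ℤ) ≤ (v₀.deg : ℤ) := by exact_mod_cast hdeg
    have h2 : Divisor.degree G ≤ ((Divisor.degree G).toNat : ℤ) := Int.self_le_toNat _
    have h3 : (m : ℤ) = ((Divisor.degree G).toNat : ℤ) + 1 := by rw [hm]; push_cast; rfl
    have h4 : (m : ℤ) ≤ (m : ℤ) * (v₀.deg : ℤ) := by
      have : (0 : ℤ) ≤ (m : ℤ) := Int.natCast_nonneg _
      nlinarith
    omega
  have hbot := riemannRochSpace_eq_bot_of_degree_neg hneg
  have hfin0 : Module.Finite K (riemannRochSpace G₀) := by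
    rw [hbot]; infer_instance
  have hG : G = G₀ + Finsupp.single v₀ (m : ℤ) := by rw [hG₀]; abel
  rw [hG]
  exact (finite_and_finrank_add_single G₀ v₀ m hfin0).1

/-- **`G ≤ G'` ⟹ `ℓ(G') ≤ ℓ(G) + deg (G' - G)`**. -/
theorem finrank_le_add_degree (hres : ∀ w : Place K F, w.FiniteResidue) (v₀ : Place K F)
    {G G' : Divisor K F} (h : G ≤ G') :
    (finrank K (riemannRochSpace G') : ℤ) ≤
      finrank K (riemannRochSpace G) + Divisor.degree (G' - G) := by
  have hE : 0 ≤ G' - G := sub_nonneg.mpr h
  have := (finite_and_finrank_add_effective hres (G' - G) hE G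
    (finite_riemannRochSpace hres v₀ G)).2
  rwa [add_sub_cancel] at this

end NegDegree

section Principal

/-- Multiplication by `y` is an isomorphism `L(G + div y) ≃ L(G)`. -/
noncomputable def mulEquiv (G D : Divisor K F) (y : F) (hy : y ≠ 0)
    (hD : ∀ w : Place K F, D w = w.ord y) :
    riemannRochSpace (G + D) ≃ₗ[K] riemannRochSpace G where
  toFun f := ⟨y * (f : F), by
    rw [mem_riemannRochSpace_iff]
    intro w
    rcases eq_or_ne (f : F) 0 with h0 | h0
    · left; rw [h0, mul_zero]
    · right
      have := (mem_riemannRochSpace_iff.mp f.2 w).resolve_left h0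
      rw [Finsupp.add_apply, hD w] at this
      rw [w.ord_mul hy h0]
      omega⟩
  invFun g := ⟨y⁻¹ * (g : F), by
    rw [mem_riemannRochSpace_iff]
    intro w
    rcases eq_or_ne (g : F) 0 with h0 | h0
    · left; rw [h0, mul_zero]
    · right
      have := (mem_riemannRochSpace_iff.mp g.2 w).resolve_left h0
      rw [Finsupp.add_apply, hD w, w.ord_mul (inv_ne_zero hy) h0, w.ord_inv]
      omega⟩
  map_add' f g := by
    apply Subtype.ext
    show y * ((f : F) + (g : F)) = y * (f : F) + y * (g : F)
    ring
  map_smul' c f := by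
    apply Subtype.ext
    show y * (c • (f : F)) = c • (y * (f : F))
    rw [mul_smul_comm]
  left_inv f := by
    apply Subtype.ext
    show y⁻¹ * (y * (f : F)) = (f : F)
    rw [← mul_assoc, inv_mul_cancel₀ hy, one_mul]
  right_inv g := by
    apply Subtype.ext
    show y * (y⁻¹ * (g : F)) = (g : F)
    rw [← mul_assoc, mul_inv_cancel₀ hy, one_mul]

/-- **`ℓ(G + div y) = ℓ(G)`**. -/
theorem finrank_add_principal (G : Divisor K F) {D : Divisor K F}
    (hD : D ∈ Divisor.principal (K := K) (F := F)) :
    finrank K (riemannRochSpace (G + D)) = finrank K (riemannRochSpace G) := by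
  obtain ⟨y, hy, hDy⟩ := hD
  exact (mulEquiv G D y hy hDy).finrank_eq

end Principal

section Constants

/-- Constants lie in `L(0)`. -/
theorem algebraMap_mem_riemannRochSpace_zero (c : K) :
    algebraMap K F c ∈ riemannRochSpace (0 : Divisor K F) := by
  rw [mem_riemannRochSpace_iff]
  intro w
  have := (mem_valuationSubring_iff w).mp (w.algebraMap_mem' c)
  simpa using this

section Weak

variable [IsAlgClosed K] [HasPrincipalDivisors K F]

/-- **`L(0) = K`** for `K` algebraically closed (given one place); weakest hypotheses. -/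
theorem riemannRochSpace_zero_eq' (hres : ∀ w : Place K F, w.FiniteResidue) (v₀ : Place K F) :
    riemannRochSpace (0 : Divisor K F) = LinearMap.range (Algebra.linearMap K F) := by
  apply le_antisymm
  · intro f hf
    have hf0 : f ∈ v₀.toValuationSubring := by
      rw [mem_valuationSubring_iff]
      have := mem_riemannRochSpace_iff.mp hf v₀
      simpa using this
    haveI : Module.Finite K v₀.ResidueField := (hres v₀).finite
    have : Algebra.IsIntegral K v₀.ResidueField := Algebra.IsIntegral.of_finite K v₀.ResidueField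
    have hbij : Function.Bijective (algebraMap K v₀.ResidueField) :=
      IsAlgClosed.algebraMap_bijective_of_isIntegral
    obtain ⟨c, hc⟩ := hbij.2 (IsLocalRing.residue v₀.toValuationSubring ⟨f, hf0⟩)
    refine ⟨c, ?_⟩
    rw [Algebra.linearMap_apply]
    by_contra hne
    set g : F := f - algebraMap K F c with hg
    have hg0 : g ≠ 0 := fun h => hne (sub_eq_zero.mp h).symm
    have hgL : g ∈ riemannRochSpace (0 : Divisor K F) :=
      Submodule.sub_mem _ hf (algebraMap_mem_riemannRochSpace_zero c)
    have hgmem : g ∈ v₀.toValuationSubring := by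
      rw [mem_valuationSubring_iff]
      have := mem_riemannRochSpace_iff.mp hgL v₀
      simpa using this
    have hres0 : IsLocalRing.residue v₀.toValuationSubring ⟨g, hgmem⟩ = 0 := by
      have h1 : (⟨g, hgmem⟩ : v₀.toValuationSubring)
          = ⟨f, hf0⟩ - algebraMap K v₀.toValuationSubring c := by
        apply Subtype.ext
        rfl
      rw [h1, map_sub, ← hc, sub_eq_zero]
      rfl
    rw [IsLocalRing.residue_eq_zero_iff, mem_maximalIdeal_iff] at hres0
    have hord : 1 ≤ v₀.ord g := hres0.resolve_left hg0
    obtain ⟨D, hD, hD0⟩ := HasPrincipalDivisors.exists_divisor (K := K) g hg0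
    have hDnn : 0 ≤ D := by
      intro w
      have := (mem_riemannRochSpace_iff.mp hgL w).resolve_left hg0
      rw [hD w]
      simpa using this
    have hdeg : ∀ w : Place K F, 0 < w.deg := fun w => by
      haveI : Module.Finite K w.ResidueField := (hres w).finite
      rw [w.deg_eq_one_of_isAlgClosed_of_finite]; exact one_pos
    have hDz := eq_zero_of_nonneg_of_degree_eq_zero hdeg hDnn hD0
    have := hD v₀
    rw [hDz, Finsupp.zero_apply] at this
    omega
  · rintro _ ⟨c, rfl⟩
    exact algebraMap_mem_riemannRochSpace_zero c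

/-- **`ℓ(0) = 1`** for `K` algebraically closed (given one place); weakest hypotheses. -/
theorem finrank_riemannRochSpace_zero' (hres : ∀ w : Place K F, w.FiniteResidue)
    (v₀ : Place K F) : finrank K (riemannRochSpace (0 : Divisor K F)) = 1 := by
  rw [riemannRochSpace_zero_eq' hres v₀]
  have hinj : Function.Injective (Algebra.linearMap K F) := (algebraMap K F).injective
  rw [LinearMap.finrank_range_of_inj hinj, Module.finrank_self]

/-- **`ℓ(G) ≤ max (deg G + 1) 0`**; weakest hypotheses. -/
theorem finrank_le_degree_add_one' (hres : ∀ w : Place K F, w.FiniteResidue) (v₀ : Place K F)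
    (G : Divisor K F) :
    (finrank K (riemannRochSpace G) : ℤ) ≤ max (Divisor.degree G + 1) 0 := by
  by_cases hbot : riemannRochSpace G = ⊥
  · rw [hbot, finrank_bot]
    exact le_max_right _ _
  · obtain ⟨f, hf, hf0⟩ := (Submodule.ne_bot_iff _).mp hbot
    obtain ⟨D, hD, hD0⟩ := HasPrincipalDivisors.exists_divisor (K := K) f hf0
    have hDprin : D ∈ Divisor.principal (K := K) (F := F) := ⟨f, hf0, hD⟩
    have hnn : (0 : Divisor K F) ≤ G + D := by
      intro w
      have := (mem_riemannRochSpace_iff.mp hf w).resolve_left hf0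
      rw [Finsupp.add_apply, hD w]
      show (0 : ℤ) ≤ _
      omega
    have h1 := finrank_le_add_degree hres v₀ hnn
    rw [finrank_add_principal G hDprin, finrank_riemannRochSpace_zero' hres v₀, sub_zero, map_add,
      hD0, add_zero] at h1
    have : Divisor.degree G + 1 ≤ max (Divisor.degree G + 1) 0 := le_max_left _ _
    push_cast at h1
    omega

end Weak

variable [IsAlgClosed K] [IsCurveOver K F]

omit [IsAlgClosed K] in
theorem finiteResidue_of_isCurveOver (w : Place K F) : w.FiniteResidue :=
  ⟨IsCurveOver.finiteResidue w⟩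

/-- **`L(0) = K`** for `K` algebraically closed (given one place). -/
theorem riemannRochSpace_zero_eq (v₀ : Place K F) :
    riemannRochSpace (0 : Divisor K F) = LinearMap.range (Algebra.linearMap K F) :=
  riemannRochSpace_zero_eq' (fun w => finiteResidue_of_isCurveOver w) v₀

/-- **`ℓ(0) = 1`** for `K` algebraically closed (given one place). -/
theorem finrank_riemannRochSpace_zero (v₀ : Place K F) :
    finrank K (riemannRochSpace (0 : Divisor K F)) = 1 :=
  finrank_riemannRochSpace_zero' (fun w => finiteResidue_of_isCurveOver w) v₀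

/-- **`ℓ(G) ≤ deg G + 1`** whenever `L(G) ≠ 0` (in particular `deg G ≥ 0` then). -/
theorem finrank_le_degree_add_one (v₀ : Place K F) (G : Divisor K F) :
    (finrank K (riemannRochSpace G) : ℤ) ≤ max (Divisor.degree G + 1) 0 :=
  finrank_le_degree_add_one' (fun w => finiteResidue_of_isCurveOver w) v₀ G

end Constants

end Fermat.Agent.S18.FFLSpace5
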