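/-
S18 moonshot (blueprint 14), package [KLEMMA-ABS], second seat (helper43).

Abstract "Lemma K" core: valuation-only formulation (no residue fields, no places).

Data: fields `L ⊂ F`, a valuation `v` on `F` (the Gauss valuation `W`), an integer `m` with
`v m = 1`, an element `f` with `v (f - 1) < 1`, and families of `L`-subspaces of `F`
  `P n  = L(nE)`,  `Q n = L(nE')`,  `P1 n = L(nE - D)`,  `Q1 n = L(nE' - D)`,
  `R1 n n' = L(nE + n'E' - D)`
(where `m D = div f`, `E`, `E'` disjoint).  Under the listed closure properties, the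
lattice-level TRUNCATION and LIFT hypotheses, finite generation of the unit ball of `R1 a b`
and a rank-one hypothesis on the value group, we get a nonzero element of `P1 a ⊓ Q1 b`
(`= L(-D)`), i.e. `D` is principal.

The proof is Newton iteration on the two affine pieces + the root-of-unity step +
truncation + an `L`-linear left inverse with cleared denominators (instead of Cramer).
-/
import Mathlib

set_option autoImplicit false

namespace Fermat.Agent.S18.KCore43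

open scoped BigOperators

section ValLemmas

variable {F : Type*} [Field F] {Γ₀ : Type*} [LinearOrderedCommGroupWithZero Γ₀]
  (v : Valuation F Γ₀)

lemma v_natCast_le_one (n : ℕ) : v (n : F) ≤ 1 := by
  induction n with
  | zero => simp
  | succ n ih =>
    push_cast
    exact (v.map_add _ _).trans (max_le ih (by simp))

/-- `v x = 1` if `x ≡ 1`. -/
lemma v_eq_one_of_sub_one_lt {x : F} (hx : v (x - 1) < 1) : v x = 1 := by
  have h := v.map_one_add_of_lt hx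
  rwa [add_sub_cancel] at h

lemma v_mul_sub_one_lt {x y : F} (hx : v (x - 1) < 1) (hy : v (y - 1) < 1) :
    v (x * y - 1) < 1 := by
  have hx1 := v_eq_one_of_sub_one_lt v hx
  have : x * y - 1 = x * (y - 1) + (x - 1) := by ring
  rw [this]
  refine lt_of_le_of_lt (v.map_add _ _) (max_lt ?_ hx)
  rw [map_mul, hx1, one_mul]; exact hy

lemma v_pow_sub_one_lt {x : F} (hx : v (x - 1) < 1) (n : ℕ) : v (x ^ n - 1) < 1 := by
  induction n with
  | zero => simp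
  | succ n ih =>
    rw [pow_succ]
    exact v_mul_sub_one_lt v ih hx

/-- first order binomial expansion with integral remainder -/
lemma one_sub_pow_expand (m : ℕ) (t : F) (ht : v t ≤ 1) :
    ∃ r : F, v r ≤ 1 ∧ (1 - t) ^ m = 1 - (m : F) * t + t ^ 2 * r := by
  induction m with
  | zero => exact ⟨0, by simp, by simp⟩
  | succ m ih =>
    obtain ⟨r, hr, h⟩ := ih
    refine ⟨r + (m : F) - t * r, ?_, ?_⟩
    · refine (v.map_sub _ _).trans (max_le ((v.map_add _ _).trans (max_le hr (v_natCast_le_one v m))) ?_)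
      rw [map_mul]; exact mul_le_one' ht hr
    · rw [pow_succ, h]; push_cast; ring

/-- Newton step: `(1+ε)(1-ε/m)^m - 1 = O(ε²)`. -/
lemma newton_val (m : ℕ) (hm : v (m : F) = 1) (ε : F) (hε : v ε ≤ 1) :
    v ((1 + ε) * (1 - ε / (m : F)) ^ m - 1) ≤ v ε ^ 2 := by
  have hm0 : (m : F) ≠ 0 := by
    intro h; rw [h, map_zero] at hm; exact zero_ne_one hm
  set t := ε / (m : F) with ht
  have hvt : v t = v ε := by rw [ht, map_div₀, hm, div_one]
  obtain ⟨r, hr, h⟩ := one_sub_pow_expand v m t (hvt.le.trans hε)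
  have hmt : (m : F) * t = ε := by rw [ht]; field_simp
  have key : (1 + ε) * (1 - t) ^ m - 1 = -(ε ^ 2) + (1 + ε) * (t ^ 2 * r) := by
    rw [h, hmt]; ring
  rw [key]
  refine (v.map_add _ _).trans (max_le ?_ ?_)
  · rw [Valuation.map_neg, map_pow]
  · rw [map_mul, map_mul, map_pow, hvt]
    have h1 : v (1 + ε) ≤ 1 := (v.map_add _ _).trans (max_le (by simp) hε)
    calc v (1 + ε) * (v ε ^ 2 * v r) ≤ 1 * (v ε ^ 2 * 1) := by gcongr
      _ = v ε ^ 2 := by simp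

/-- root of unity step without division: if `x ≡ y ≡ 1` then `v (x - y) = v (x^m - y^m)`. -/
lemma v_sub_eq_v_pow_sub (m : ℕ) (hm : v (m : F) = 1) {x y : F} (hx : v (x - 1) < 1)
    (hy : v (y - 1) < 1) : v (x - y) = v (x ^ m - y ^ m) := by
  have hS : (∑ i ∈ Finset.range m, x ^ i * y ^ (m - 1 - i)) * (x - y) = x ^ m - y ^ m :=
    (Commute.all x y).geom_sum₂_mul m
  have hSm : v ((∑ i ∈ Finset.range m, x ^ i * y ^ (m - 1 - i)) - (m : F)) < 1 := by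
    have : (∑ i ∈ Finset.range m, x ^ i * y ^ (m - 1 - i)) - (m : F)
        = ∑ i ∈ Finset.range m, (x ^ i * y ^ (m - 1 - i) - 1) := by
      rw [Finset.sum_sub_distrib]; simp
    rw [this]
    refine v.map_sum_lt (by simp) ?_
    intro i _
    exact v_mul_sub_one_lt v (v_pow_sub_one_lt v hx i) (v_pow_sub_one_lt v hy _)
  have hS1 : v (∑ i ∈ Finset.range m, x ^ i * y ^ (m - 1 - i)) = 1 := by
    have h : v ((m : F) + ((∑ i ∈ Finset.range m, x ^ i * y ^ (m - 1 - i)) - (m : F)))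
        = v (m : F) := v.map_add_eq_of_lt_left (by rw [hm]; exact hSm)
    rw [add_sub_cancel, hm] at h; exact h
  rw [← hS, map_mul, hS1, one_mul]

end ValLemmas

section Denominators

variable {L F : Type*} [Field L] [Field F] [Algebra L F] {Γ₀ : Type*}
  [LinearOrderedCommGroupWithZero Γ₀] (v : Valuation F Γ₀)

/-- one element: clear the denominator by a nonzero integral scalar of `L`. -/
lemma exists_scalar_int (hval : ∀ y : F, y ≠ 0 → ∃ c : L, v y = v (algebraMap L F c)) (y : F) :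
    ∃ δ : L, δ ≠ 0 ∧ v (algebraMap L F δ) ≤ 1 ∧ v (δ • y) ≤ 1 := by
  by_cases hy : y = 0
  · exact ⟨1, one_ne_zero, by simp, by simp [hy]⟩
  by_cases h1 : v y ≤ 1
  · exact ⟨1, one_ne_zero, by simp, by simpa using h1⟩
  · obtain ⟨c, hc⟩ := hval y hy
    have hvy : v y ≠ 0 := (Valuation.ne_zero_iff v).mpr hy
    have hc0 : c ≠ 0 := by
      rintro rfl; rw [map_zero, map_zero] at hc; exact hvy hc
    refine ⟨c⁻¹, inv_ne_zero hc0, ?_, ?_⟩
    · rw [map_inv₀, map_inv₀, ← hc]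
      exact inv_le_one_of_one_le₀ (le_of_lt (not_le.mp h1))
    · rw [Algebra.smul_def, map_mul, map_inv₀, map_inv₀, ← hc, inv_mul_cancel₀ hvy]

/-- finitely many elements: a common nonzero integral scalar. -/
lemma exists_scalar_int_finset (hval : ∀ y : F, y ≠ 0 → ∃ c : L, v y = v (algebraMap L F c))
    {ι : Type*} (s : Finset ι) (y : ι → F) :
    ∃ δ : L, δ ≠ 0 ∧ v (algebraMap L F δ) ≤ 1 ∧ ∀ i ∈ s, v (δ • y i) ≤ 1 := by
  classical
  induction s using Finset.induction_on with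
  | empty => exact ⟨1, one_ne_zero, by simp, by simp⟩
  | insert j s hj ih =>
    obtain ⟨δ, hδ0, hδ1, hδ⟩ := ih
    obtain ⟨δ', hδ'0, hδ'1, hδ'⟩ := exists_scalar_int v hval (y j)
    refine ⟨δ * δ', mul_ne_zero hδ0 hδ'0, ?_, ?_⟩
    · rw [map_mul, map_mul]; exact mul_le_one' hδ1 hδ'1
    · intro i hi
      rw [Finset.mem_insert] at hi
      rcases hi with rfl | hi
      · rw [mul_smul, Algebra.smul_def, map_mul]
        exact mul_le_one' hδ1 hδ'
      · rw [mul_comm, mul_smul, Algebra.smul_def, map_mul]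
        exact mul_le_one' hδ'1 (hδ i hi)

end Denominators


section Main

variable {L F : Type*} [Field L] [Field F] [Algebra L F] {Γ₀ : Type*}
  [LinearOrderedCommGroupWithZero Γ₀]

/-- One-sided Newton data: the families `P n = L(nE)`, `P1 n = L(nE - D)` (`m D = div f`). -/
structure NewtonSide (m : ℕ) (f : F) (P P1 : ℕ → Submodule L F) : Prop where
  one_mem : ∀ n, (1 : F) ∈ P n
  mul_mem : ∀ n n' (x y : F), x ∈ P n → y ∈ P1 n' → x * y ∈ P1 (n + n')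
  pow_mem : ∀ n (x : F), x ∈ P1 n → x ^ m / f ∈ P (m * n)

/-- `Good v m f P1 a e`: some `x ∈ P1 n`, `n ≥ a`, with `x ≡ 1` and `x^m/f ≡ 1` to precision `e`. -/
def Good (v : Valuation F Γ₀) (m : ℕ) (f : F) (P1 : ℕ → Submodule L F) (a : ℕ) (e : Γ₀) : Prop :=
  ∃ n, a ≤ n ∧ ∃ x ∈ P1 n, v (x - 1) < 1 ∧ v (x ^ m / f - 1) ≤ e

variable {v : Valuation F Γ₀} {m : ℕ} {f : F}

lemma Good.mono {P1 : ℕ → Submodule L F} {a : ℕ} {e e' : Γ₀} (h : Good v m f P1 a e)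
    (hee : e ≤ e') : Good v m f P1 a e' := by
  obtain ⟨n, hn, x, hx, h1, h2⟩ := h
  exact ⟨n, hn, x, hx, h1, h2.trans hee⟩

/-- One Newton step. -/
lemma NewtonSide.step {P P1 : ℕ → Submodule L F} (h : NewtonSide m f P P1)
    (hm : v (m : F) = 1) (a : ℕ) {e : Γ₀} (he : e < 1)
    (hG : Good v m f P1 a e) : Good v m f P1 a (e ^ 2) := by
  obtain ⟨n, han, x, hx, hx1, hxe⟩ := hG
  have hm0 : (m : F) ≠ 0 := by
    intro h0; rw [h0, map_zero] at hm; exact zero_ne_one hm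
  have hεP : x ^ m / f - 1 ∈ P (m * n) := (P (m * n)).sub_mem (h.pow_mem n x hx) (h.one_mem _)
  have hfac : (1 - (x ^ m / f - 1) / (m : F)) = 1 - ((m : L)⁻¹) • (x ^ m / f - 1) := by
    rw [Algebra.smul_def, map_inv₀, map_natCast]; ring
  have hfacP : (1 - (x ^ m / f - 1) / (m : F)) ∈ P (m * n) := by
    rw [hfac]
    exact (P (m * n)).sub_mem (h.one_mem _) ((P (m * n)).smul_mem _ hεP)
  have hvx : v x = 1 := v_eq_one_of_sub_one_lt v hx1
  have hvε : v (x ^ m / f - 1) < 1 := lt_of_le_of_lt hxe he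
  refine ⟨m * n + n, han.trans (Nat.le_add_left _ _), (1 - (x ^ m / f - 1) / (m : F)) * x,
    h.mul_mem _ _ _ _ hfacP hx, ?_, ?_⟩
  · have : (1 - (x ^ m / f - 1) / (m : F)) * x - 1
        = (x - 1) - (x ^ m / f - 1) / (m : F) * x := by ring
    rw [this]
    refine lt_of_le_of_lt (v.map_sub _ _) (max_lt hx1 ?_)
    rw [map_mul, map_div₀, hm, div_one, hvx, mul_one]; exact hvε
  · have : ((1 - (x ^ m / f - 1) / (m : F)) * x) ^ m / f - 1
        = (1 + (x ^ m / f - 1)) * (1 - (x ^ m / f - 1) / (m : F)) ^ m - 1 := by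
      rw [mul_pow]; ring
    rw [this]
    refine (newton_val v m hm _ hvε.le).trans ?_
    exact pow_le_pow_left' hxe 2

lemma NewtonSide.iterate {P P1 : ℕ → Submodule L F} (h : NewtonSide m f P P1)
    (hm : v (m : F) = 1) (a : ℕ) {e : Γ₀} (he : e < 1)
    (hG : Good v m f P1 a e) (k : ℕ) : Good v m f P1 a (e ^ (2 ^ k)) := by
  induction k with
  | zero => simpa using hG
  | succ k ih =>
    have h1 : e ^ 2 ^ k < 1 := pow_lt_one₀ zero_le he (by positivity)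
    have := h.step hm a h1 ih
    rwa [← pow_mul, ← pow_succ] at this

/-- Newton iteration to arbitrary precision (rank one value group). -/
lemma NewtonSide.all {P P1 : ℕ → Submodule L F} (h : NewtonSide m f P P1)
    (hm : v (m : F) = 1) (hf : v (f - 1) < 1)
    (hval : ∀ y : F, y ≠ 0 → ∃ c : L, v y = v (algebraMap L F c))
    (harch : ∀ c d : L, c ≠ 0 → d ≠ 0 → v (algebraMap L F c) < 1 →
      ∃ n : ℕ, v (algebraMap L F c) ^ n ≤ v (algebraMap L F d))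
    (a : ℕ) (hlift : ∃ x ∈ P1 a, v (x - 1) < 1) (d : L) (hd : d ≠ 0) :
    Good v m f P1 a (v (algebraMap L F d)) := by
  obtain ⟨x, hx, hx1⟩ := hlift
  have hvf : v f = 1 := v_eq_one_of_sub_one_lt v hf
  have hf0 : f ≠ 0 := by
    intro h0; rw [h0, map_zero] at hvf; exact zero_ne_one hvf
  have hε : v (x ^ m / f - 1) < 1 := by
    have : x ^ m / f - 1 = ((x ^ m - 1) - (f - 1)) / f := by field_simp; ring
    rw [this, map_div₀, hvf, div_one]
    exact lt_of_le_of_lt (v.map_sub _ _) (max_lt (v_pow_sub_one_lt v hx1 m) hf)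
  have hG0 : Good v m f P1 a (v (x ^ m / f - 1)) := ⟨a, le_rfl, x, hx, hx1, le_rfl⟩
  by_cases h0 : x ^ m / f - 1 = 0
  · refine hG0.mono ?_
    rw [h0, map_zero]; exact zero_le
  · obtain ⟨c, hc⟩ := hval _ h0
    have hc0 : c ≠ 0 := by
      rintro rfl
      rw [map_zero, map_zero] at hc
      exact h0 ((Valuation.zero_iff v).mp hc)
    rw [hc] at hε hG0
    obtain ⟨N, hN⟩ := harch c d hc0 hd hε
    refine (h.iterate hm a hε hG0 N).mono (le_trans ?_ hN)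
    exact pow_le_pow_right_of_le_one' hε.le (Nat.lt_two_pow_self).le

/-- Hypotheses of the abstract Lemma K. -/
structure KHyp (v : Valuation F Γ₀) (m : ℕ) (f : F) (P Q P1 Q1 : ℕ → Submodule L F)
    (R1 : ℕ → ℕ → Submodule L F) (a b : ℕ) : Prop where
  hm : v (m : F) = 1
  hf : v (f - 1) < 1
  hval : ∀ y : F, y ≠ 0 → ∃ c : L, v y = v (algebraMap L F c)
  harch : ∀ c d : L, c ≠ 0 → d ≠ 0 → v (algebraMap L F c) < 1 →
    ∃ n : ℕ, v (algebraMap L F c) ^ n ≤ v (algebraMap L F d)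
  hnontriv : ∃ c : L, c ≠ 0 ∧ v (algebraMap L F c) < 1
  sideP : NewtonSide m f P P1
  sideQ : NewtonSide m f Q Q1
  P1_le : ∀ n n', P1 n ≤ R1 n n'
  Q1_le : ∀ n n', Q1 n' ≤ R1 n n'
  sep : ∀ n n' (x y : F), a ≤ n → b ≤ n' → x ∈ P1 n → y ∈ Q1 n' → x - y ∈ R1 a b →
    x ∈ P1 a ∧ y ∈ Q1 b
  trunc : ∀ n n' (z : F), a ≤ n → b ≤ n' → z ∈ R1 n n' → v z ≤ 1 →
    ∃ z₀ z₁ z₂ : F, z₀ ∈ R1 a b ∧ z₁ ∈ P1 n ∧ z₂ ∈ Q1 n' ∧ v z₀ ≤ 1 ∧ v z₁ ≤ 1 ∧ v z₂ ≤ 1 ∧
      z = z₀ + z₁ - z₂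
  liftP : ∃ x ∈ P1 a, v (x - 1) < 1
  liftQ : ∃ y ∈ Q1 b, v (y - 1) < 1
  fg : ∃ (r : ℕ) (g : Fin r → F), (∀ i, g i ∈ R1 a b) ∧ ∀ z ∈ R1 a b, v z ≤ 1 →
    ∃ α : Fin r → L, (∀ i, v (algebraMap L F (α i)) ≤ 1) ∧ z = ∑ i, α i • g i

variable {P Q P1 Q1 : ℕ → Submodule L F} {R1 : ℕ → ℕ → Submodule L F} {a b : ℕ}

/-- For every nonzero `d` of positive valuation there is a primitive pair `(xU, xV)` in the FIXED
lattices with `xU - xV ∈ d • (unit ball of R1 a b)`. -/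
lemma KHyp.approx (H : KHyp v m f P Q P1 Q1 R1 a b) (d : L) (hd : d ≠ 0)
    (hd1 : v (algebraMap L F d) < 1) :
    ∃ xU ∈ P1 a, ∃ xV ∈ Q1 b, ∃ z₀ ∈ R1 a b, v (xU - 1) < 1 ∧ v z₀ ≤ 1 ∧ xU - xV = d • z₀ := by
  obtain ⟨n, hn, x, hx, hx1, hxe⟩ := H.sideP.all H.hm H.hf H.hval H.harch a H.liftP d hd
  obtain ⟨n', hn', y, hy, hy1, hye⟩ := H.sideQ.all H.hm H.hf H.hval H.harch b H.liftQ d hd
  have hvf : v f = 1 := v_eq_one_of_sub_one_lt v H.hf
  have hf0 : f ≠ 0 := by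
    intro h0; rw [h0, map_zero] at hvf; exact zero_ne_one hvf
  have hdF : algebraMap L F d ≠ 0 := by
    intro h0; exact hd ((map_eq_zero _).mp h0)
  have hvd : v (algebraMap L F d) ≠ 0 := (Valuation.ne_zero_iff v).mpr hdF
  -- x - y is small
  have hxy : v (x - y) ≤ v (algebraMap L F d) := by
    rw [v_sub_eq_v_pow_sub v m H.hm hx1 hy1]
    have : x ^ m - y ^ m = f * ((x ^ m / f - 1) - (y ^ m / f - 1)) := by field_simp; ring
    rw [this, map_mul, hvf, one_mul]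
    exact (v.map_sub _ _).trans (max_le hxe hye)
  -- z = (x - y)/d
  have hzR : d⁻¹ • (x - y) ∈ R1 n n' :=
    (R1 n n').smul_mem _ ((R1 n n').sub_mem (H.P1_le n n' hx) (H.Q1_le n n' hy))
  have hz1 : v (d⁻¹ • (x - y)) ≤ 1 := by
    rw [Algebra.smul_def, map_mul, map_inv₀, map_inv₀]
    rw [inv_mul_le_iff₀ (zero_lt_iff.mpr hvd), mul_one]; exact hxy
  obtain ⟨z₀, z₁, z₂, hz₀, hz₁, hz₂, hv₀, hv₁, hv₂, hz⟩ := H.trunc n n' _ hn hn' hzR hz1
  have hxU : x - d • z₁ ∈ P1 n := (P1 n).sub_mem hx ((P1 n).smul_mem _ hz₁)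
  have hxV : y - d • z₂ ∈ Q1 n' := (Q1 n').sub_mem hy ((Q1 n').smul_mem _ hz₂)
  have hdiff : (x - d • z₁) - (y - d • z₂) = d • z₀ := by
    have h1 : x - y = d • (d⁻¹ • (x - y)) := by
      rw [smul_smul, mul_inv_cancel₀ hd, one_smul]
    have : (x - d • z₁) - (y - d • z₂) = (x - y) - d • (z₁ - z₂) := by
      rw [smul_sub]; ring
    rw [this, h1, hz, ← smul_sub]
    congr 1; ring
  have hdiffR : (x - d • z₁) - (y - d • z₂) ∈ R1 a b := by
    rw [hdiff]; exact (R1 a b).smul_mem _ hz₀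
  obtain ⟨hU, hV⟩ := H.sep n n' _ _ hn hn' hxU hxV hdiffR
  refine ⟨_, hU, _, hV, z₀, hz₀, ?_, hv₀, hdiff⟩
  have : x - d • z₁ - 1 = (x - 1) - d • z₁ := by ring
  rw [this]
  refine lt_of_le_of_lt (v.map_sub _ _) (max_lt hx1 ?_)
  rw [Algebra.smul_def, map_mul]
  exact lt_of_le_of_lt (mul_le_of_le_one_right' hv₁) hd1

/-- **Abstract Lemma K**: `P1 a ⊓ Q1 b ≠ ⊥`. -/
theorem KHyp.exists_ne_zero (H : KHyp v m f P Q P1 Q1 R1 a b) :
    ∃ u : F, u ≠ 0 ∧ u ∈ P1 a ∧ u ∈ Q1 b := by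
  classical
  by_contra hcon
  push Not at hcon
  -- the difference map
  let φ : (↥(P1 a) × ↥(Q1 b)) →ₗ[L] ↥(R1 a b) :=
    (Submodule.inclusion (H.P1_le a b)).comp (LinearMap.fst L _ _)
      - (Submodule.inclusion (H.Q1_le a b)).comp (LinearMap.snd L _ _)
  have hφ : ∀ p : ↥(P1 a) × ↥(Q1 b), ((φ p : ↥(R1 a b)) : F) = (p.1 : F) - (p.2 : F) := by
    intro p; rfl
  have hker : LinearMap.ker φ = ⊥ := by
    rw [LinearMap.ker_eq_bot']
    rintro ⟨⟨x, hx⟩, ⟨y, hy⟩⟩ hp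
    have h0 : x - y = 0 := by
      have := congrArg (Subtype.val) hp
      simpa [hφ] using this
    have hxy : x = y := sub_eq_zero.mp h0
    have hx0 : x = 0 := by
      by_contra hne
      exact hcon x hne hx (hxy ▸ hy)
    subst hxy
    subst hx0
    rfl
  obtain ⟨ψ, hψ⟩ := φ.exists_leftInverse_of_injective hker
  obtain ⟨r, g, hg, hspan⟩ := H.fg
  -- clear denominators of ψ (g i)
  obtain ⟨δ, hδ0, hδ1, hδ⟩ := exists_scalar_int_finset v H.hval (Finset.univ : Finset (Fin r))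
    (fun i => ((ψ ⟨g i, hg i⟩).1 : F))
  obtain ⟨c, hc0, hc1⟩ := H.hnontriv
  have hδF : algebraMap L F δ ≠ 0 := fun h0 => hδ0 ((map_eq_zero _).mp h0)
  have hvδ : v (algebraMap L F δ) ≠ 0 := (Valuation.ne_zero_iff v).mpr hδF
  -- take d = δ c
  have hd0 : δ * c ≠ 0 := mul_ne_zero hδ0 hc0
  have hd1 : v (algebraMap L F (δ * c)) < 1 := by
    rw [map_mul, map_mul]
    exact lt_of_le_of_lt (mul_le_of_le_one_left' hδ1) hc1
  obtain ⟨xU, hxU, xV, hxV, z₀, hz₀, hU1, hv₀, hdiff⟩ := H.approx (δ * c) hd0 hd1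
  obtain ⟨α, hα, hzα⟩ := hspan z₀ hz₀ hv₀
  -- apply ψ ∘ φ = id
  have hid : ψ (φ (⟨xU, hxU⟩, ⟨xV, hxV⟩)) = (⟨xU, hxU⟩, ⟨xV, hxV⟩) := by
    have := LinearMap.congr_fun hψ (⟨xU, hxU⟩, ⟨xV, hxV⟩)
    simpa using this
  have hφval : φ (⟨xU, hxU⟩, ⟨xV, hxV⟩) = (δ * c) • ∑ i, α i • (⟨g i, hg i⟩ : ↥(R1 a b)) := by
    apply Subtype.ext
    rw [hφ]
    simp only [Submodule.coe_smul, Submodule.coe_sum]
    rw [hdiff, hzα]
  rw [hφval, map_smul, map_sum] at hid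
  have hfst : xU = (δ * c) • ∑ i, α i • ((ψ ⟨g i, hg i⟩).1 : F) := by
    have := congrArg (fun p : ↥(P1 a) × ↥(Q1 b) => ((p.1 : ↥(P1 a)) : F)) hid
    simp only [map_smul, Prod.smul_fst, Prod.fst_sum, Submodule.coe_smul, Submodule.coe_sum]
      at this
    exact this.symm
  -- valuation estimate
  have hvU : v xU = 1 := v_eq_one_of_sub_one_lt v hU1
  have hest : v (δ • xU) ≤ v (algebraMap L F (δ * c)) := by
    rw [hfst, smul_comm, Algebra.smul_def, map_mul]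
    refine mul_le_of_le_one_right' ?_
    rw [Finset.smul_sum]
    refine v.map_sum_le ?_
    intro i _
    rw [smul_comm, Algebra.smul_def, map_mul]
    exact mul_le_one' (hα i) (hδ i (Finset.mem_univ i))
  rw [Algebra.smul_def, map_mul, hvU, mul_one, map_mul, map_mul] at hest
  have : v (algebraMap L F δ) * v (algebraMap L F c) < v (algebraMap L F δ) := by
    have := mul_lt_mul_of_pos_left hc1 (zero_lt_iff.mpr hvδ)
    rwa [mul_one] at this
  exact absurd hest (not_le.mpr this)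

end Main


section Nakayama

variable {L F : Type*} [Field L] [Field F] [Algebra L F] {Γ₀ : Type*}
  [LinearOrderedCommGroupWithZero Γ₀] (v : Valuation F Γ₀)

/-- the valuation ring `A = O_v ∩ L`. -/
abbrev ringA : ValuationSubring L := (v.comap (algebraMap L F)).valuationSubring

lemma mem_ringA_iff (c : L) : c ∈ ringA (L := L) v ↔ v (algebraMap L F c) ≤ 1 := Iff.rfl

lemma mem_maximalIdeal_ringA (c : ringA (L := L) v) (hc : v (algebraMap L F (c : L)) < 1) :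
    c ∈ IsLocalRing.maximalIdeal (ringA (L := L) v) := by
  rw [IsLocalRing.mem_maximalIdeal, mem_nonunits_iff]
  rintro ⟨u, hu⟩
  have h1 : ((c : L)) * ((↑u⁻¹ : ringA (L := L) v) : L) = 1 := by
    have := congrArg (fun x : ringA (L := L) v => (x : L)) (u.mul_inv)
    simpa [hu] using this
  have h2 := congrArg (fun x : L => v (algebraMap L F x)) h1
  simp only [map_mul, map_one] at h2
  have h3 : v (algebraMap L F ((↑u⁻¹ : ringA (L := L) v) : L)) ≤ 1 :=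
    (↑u⁻¹ : ringA (L := L) v).2
  have : v (algebraMap L F (c : L)) * v (algebraMap L F ((↑u⁻¹ : ringA (L := L) v) : L)) < 1 :=
    lt_of_le_of_lt (mul_le_of_le_one_right' h3) hc
  rw [h2] at this
  exact lt_irrefl _ this

/-- **Exact truncation from truncation modulo the maximal ideal** (Nakayama over the valuation
ring `A`, in coordinates w.r.t. a finite generating family of the unit ball of `V`). -/
theorem trunc_of_mod (hval : ∀ y : F, y ≠ 0 → ∃ c : L, v y = v (algebraMap L F c))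
    {V V₀ V₁ V₂ : Submodule L F} (h₀ : V₀ ≤ V) (h₁ : V₁ ≤ V) (h₂ : V₂ ≤ V)
    (hfg : ∃ (r : ℕ) (e : Fin r → F), (∀ i, e i ∈ V) ∧ (∀ i, v (e i) ≤ 1) ∧
      ∀ z ∈ V, v z ≤ 1 → ∃ α : Fin r → L, (∀ i, v (algebraMap L F (α i)) ≤ 1) ∧
        z = ∑ i, α i • e i)
    (hmod : ∀ z ∈ V, v z ≤ 1 → ∃ z₀ z₁ z₂ : F, z₀ ∈ V₀ ∧ z₁ ∈ V₁ ∧ z₂ ∈ V₂ ∧
      v z₀ ≤ 1 ∧ v z₁ ≤ 1 ∧ v z₂ ≤ 1 ∧ v (z - (z₀ + z₁ - z₂)) < 1) :
    ∀ z ∈ V, v z ≤ 1 → ∃ z₀ z₁ z₂ : F, z₀ ∈ V₀ ∧ z₁ ∈ V₁ ∧ z₂ ∈ V₂ ∧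
      v z₀ ≤ 1 ∧ v z₁ ≤ 1 ∧ v z₂ ≤ 1 ∧ z = z₀ + z₁ - z₂ := by
  classical
  obtain ⟨r, e, heV, he1, hspan⟩ := hfg
  -- the coordinate submodule
  let N : Submodule (ringA (L := L) v) (Fin r → ringA (L := L) v) :=
    { carrier := {α | ∃ z₀ z₁ z₂ : F, z₀ ∈ V₀ ∧ z₁ ∈ V₁ ∧ z₂ ∈ V₂ ∧
        v z₀ ≤ 1 ∧ v z₁ ≤ 1 ∧ v z₂ ≤ 1 ∧ ∑ i, ((α i : L)) • e i = z₀ + z₁ - z₂}
      add_mem' := by
        rintro α β ⟨x₀, x₁, x₂, hx₀, hx₁, hx₂, hv₀, hv₁, hv₂, hx⟩
          ⟨y₀, y₁, y₂, hy₀, hy₁, hy₂, hw₀, hw₁, hw₂, hy⟩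
        refine ⟨x₀ + y₀, x₁ + y₁, x₂ + y₂, V₀.add_mem hx₀ hy₀, V₁.add_mem hx₁ hy₁,
          V₂.add_mem hx₂ hy₂, (v.map_add _ _).trans (max_le hv₀ hw₀),
          (v.map_add _ _).trans (max_le hv₁ hw₁), (v.map_add _ _).trans (max_le hv₂ hw₂), ?_⟩
        have : ∑ i, (((α + β) i : ringA (L := L) v) : L) • e i
            = ∑ i, ((α i : L)) • e i + ∑ i, ((β i : L)) • e i := by
          rw [← Finset.sum_add_distrib]
          refine Finset.sum_congr rfl fun i _ => ?_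
          simp [add_smul]
        rw [this, hx, hy]; ring
      zero_mem' := ⟨0, 0, 0, V₀.zero_mem, V₁.zero_mem, V₂.zero_mem, by simp, by simp, by simp,
        by simp⟩
      smul_mem' := by
        rintro c α ⟨x₀, x₁, x₂, hx₀, hx₁, hx₂, hv₀, hv₁, hv₂, hx⟩
        have hc : v (algebraMap L F (c : L)) ≤ 1 := c.2
        have hsm : ∀ y : F, v y ≤ 1 → v ((c : L) • y) ≤ 1 := by
          intro y hy
          rw [Algebra.smul_def, map_mul]; exact mul_le_one' hc hy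
        refine ⟨(c : L) • x₀, (c : L) • x₁, (c : L) • x₂, V₀.smul_mem _ hx₀, V₁.smul_mem _ hx₁,
          V₂.smul_mem _ hx₂, hsm _ hv₀, hsm _ hv₁, hsm _ hv₂, ?_⟩
        have : ∑ i, (((c • α) i : ringA (L := L) v) : L) • e i
            = (c : L) • ∑ i, ((α i : L)) • e i := by
          rw [Finset.smul_sum]
          refine Finset.sum_congr rfl fun i _ => ?_
          simp [mul_smul]
        rw [this, hx, smul_sub, smul_add] }
  have hlinV : ∀ α : Fin r → ringA (L := L) v, ∑ i, ((α i : L)) • e i ∈ V := fun α =>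
    V.sum_mem fun i _ => V.smul_mem _ (heV i)
  have hlin1 : ∀ α : Fin r → ringA (L := L) v, v (∑ i, ((α i : L)) • e i) ≤ 1 := fun α =>
    v.map_sum_le fun i _ => by
      rw [Algebra.smul_def, map_mul]; exact mul_le_one' (α i).2 (he1 i)
  -- Nakayama
  have hN : (⊤ : Submodule (ringA (L := L) v) (Fin r → ringA (L := L) v)) ≤ N := by
    refine Submodule.le_of_le_smul_of_le_jacobson_bot
      (I := IsLocalRing.maximalIdeal (ringA (L := L) v)) Module.Finite.fg_top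
      (IsLocalRing.maximalIdeal_le_jacobson ⊥) ?_
    intro α _
    obtain ⟨z₀, z₁, z₂, hz₀, hz₁, hz₂, hv₀, hv₁, hv₂, hlt⟩ := hmod _ (hlinV α) (hlin1 α)
    by_cases hw0 : ∑ i, ((α i : L)) • e i - (z₀ + z₁ - z₂) = 0
    · refine Submodule.mem_sup_left ?_
      exact ⟨z₀, z₁, z₂, hz₀, hz₁, hz₂, hv₀, hv₁, hv₂, sub_eq_zero.mp hw0⟩
    · obtain ⟨c, hc⟩ := hval _ hw0
      have hvw : v (∑ i, ((α i : L)) • e i - (z₀ + z₁ - z₂)) ≠ 0 :=
        (Valuation.ne_zero_iff v).mpr hw0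
      have hc0 : c ≠ 0 := by
        rintro rfl; rw [map_zero, map_zero] at hc; exact hvw hc
      have hcF : v (algebraMap L F c) ≠ 0 := hc ▸ hvw
      have hclt : v (algebraMap L F c) < 1 := hc ▸ hlt
      -- w = c⁻¹ • (error) lies in the unit ball of V
      have hwV : c⁻¹ • (∑ i, ((α i : L)) • e i - (z₀ + z₁ - z₂)) ∈ V :=
        V.smul_mem _ (V.sub_mem (hlinV α)
          (V.sub_mem (V.add_mem (h₀ hz₀) (h₁ hz₁)) (h₂ hz₂)))
      have hw1 : v (c⁻¹ • (∑ i, ((α i : L)) • e i - (z₀ + z₁ - z₂))) ≤ 1 := by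
        rw [Algebra.smul_def, map_mul, map_inv₀, map_inv₀, hc, inv_mul_cancel₀ hcF]
      obtain ⟨γ, hγ, hwγ⟩ := hspan _ hwV hw1
      let γ' : Fin r → ringA (L := L) v := fun i => ⟨γ i, hγ i⟩
      let c' : ringA (L := L) v := ⟨c, hclt.le⟩
      have hsplit : α = (α - c' • γ') + c' • γ' := by abel
      rw [hsplit]
      refine Submodule.add_mem_sup ?_ ?_
      · refine ⟨z₀, z₁, z₂, hz₀, hz₁, hz₂, hv₀, hv₁, hv₂, ?_⟩
        have h1 : ∑ i, (((α - c' • γ') i : ringA (L := L) v) : L) • e i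
            = ∑ i, ((α i : L)) • e i - c • ∑ i, γ i • e i := by
          rw [Finset.smul_sum, ← Finset.sum_sub_distrib]
          refine Finset.sum_congr rfl fun i _ => ?_
          simp [γ', c', sub_smul, mul_smul]
        rw [h1, ← hwγ, smul_smul, mul_inv_cancel₀ hc0, one_smul]; ring
      · exact Submodule.smul_mem_smul (mem_maximalIdeal_ringA v c' hclt) Submodule.mem_top
  intro z hzV hz1
  obtain ⟨α, hα, hzα⟩ := hspan z hzV hz1
  obtain ⟨z₀, z₁, z₂, hz₀, hz₁, hz₂, hv₀, hv₁, hv₂, hsum⟩ :=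
    hN (Submodule.mem_top : (fun i => (⟨α i, hα i⟩ : ringA (L := L) v)) ∈ _)
  exact ⟨z₀, z₁, z₂, hz₀, hz₁, hz₂, hv₀, hv₁, hv₂, hzα.trans hsum⟩

end Nakayama


section ModVersion

variable {L F : Type*} [Field L] [Field F] [Algebra L F] {Γ₀ : Type*}
  [LinearOrderedCommGroupWithZero Γ₀]

/-- Hypotheses of the abstract Lemma K with the truncation only required MODULO the maximal
ideal (this is what the special fibre gives directly). -/
structure KHypMod (v : Valuation F Γ₀) (m : ℕ) (f : F) (P Q P1 Q1 : ℕ → Submodule L F)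
    (R1 : ℕ → ℕ → Submodule L F) (a b : ℕ) : Prop where
  hm : v (m : F) = 1
  hf : v (f - 1) < 1
  hval : ∀ y : F, y ≠ 0 → ∃ c : L, v y = v (algebraMap L F c)
  harch : ∀ c d : L, c ≠ 0 → d ≠ 0 → v (algebraMap L F c) < 1 →
    ∃ n : ℕ, v (algebraMap L F c) ^ n ≤ v (algebraMap L F d)
  hnontriv : ∃ c : L, c ≠ 0 ∧ v (algebraMap L F c) < 1
  sideP : NewtonSide m f P P1
  sideQ : NewtonSide m f Q Q1
  P1_le : ∀ n n', P1 n ≤ R1 n n'
  Q1_le : ∀ n n', Q1 n' ≤ R1 n n'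
  R1_mono : ∀ n n', a ≤ n → b ≤ n' → R1 a b ≤ R1 n n'
  sep : ∀ n n' (x y : F), a ≤ n → b ≤ n' → x ∈ P1 n → y ∈ Q1 n' → x - y ∈ R1 a b →
    x ∈ P1 a ∧ y ∈ Q1 b
  fgR : ∀ n n', a ≤ n → b ≤ n' → ∃ (r : ℕ) (e : Fin r → F), (∀ i, e i ∈ R1 n n') ∧
    (∀ i, v (e i) ≤ 1) ∧ ∀ z ∈ R1 n n', v z ≤ 1 →
      ∃ α : Fin r → L, (∀ i, v (algebraMap L F (α i)) ≤ 1) ∧ z = ∑ i, α i • e i
  truncMod : ∀ n n' (z : F), a ≤ n → b ≤ n' → z ∈ R1 n n' → v z ≤ 1 →
    ∃ z₀ z₁ z₂ : F, z₀ ∈ R1 a b ∧ z₁ ∈ P1 n ∧ z₂ ∈ Q1 n' ∧ v z₀ ≤ 1 ∧ v z₁ ≤ 1 ∧ v z₂ ≤ 1 ∧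
      v (z - (z₀ + z₁ - z₂)) < 1
  liftP : ∃ x ∈ P1 a, v (x - 1) < 1
  liftQ : ∃ y ∈ Q1 b, v (y - 1) < 1

variable {v : Valuation F Γ₀} {m : ℕ} {f : F}
  {P Q P1 Q1 : ℕ → Submodule L F} {R1 : ℕ → ℕ → Submodule L F} {a b : ℕ}

theorem KHypMod.toKHyp (H : KHypMod v m f P Q P1 Q1 R1 a b) : KHyp v m f P Q P1 Q1 R1 a b where
  hm := H.hm
  hf := H.hf
  hval := H.hval
  harch := H.harch
  hnontriv := H.hnontriv
  sideP := H.sideP
  sideQ := H.sideQ
  P1_le := H.P1_le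
  Q1_le := H.Q1_le
  sep := H.sep
  trunc := fun n n' z hn hn' hz hz1 =>
    trunc_of_mod v H.hval (H.R1_mono n n' hn hn') (H.P1_le n n') (H.Q1_le n n')
      (H.fgR n n' hn hn') (fun z hz hz1 => H.truncMod n n' z hn hn' hz hz1) z hz hz1
  liftP := H.liftP
  liftQ := H.liftQ
  fg := by
    obtain ⟨r, e, he, _, hspan⟩ := H.fgR a b le_rfl le_rfl
    exact ⟨r, e, he, hspan⟩

/-- **Abstract Lemma K**, mod-`𝔪` truncation version. -/
theorem KHypMod.exists_ne_zero (H : KHypMod v m f P Q P1 Q1 R1 a b) :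
    ∃ u : F, u ≠ 0 ∧ u ∈ P1 a ∧ u ∈ Q1 b :=
  H.toKHyp.exists_ne_zero

end ModVersion

end Fermat.Agent.S18.KCore43
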