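/-
S18 moonshot (blueprint 14, helper33), package [KLEMMA]-CORE (helper73).

Abstract "Lemma K" = (O1)+(O2) of blueprint 14 in axiomatic form, Mathlib only.

Setting: `F` a field with a valuation `w`, `L` a subfield (via `Algebra L F`) with the same value
group (`hval`) and archimedean (`harch`).  `P1 a b` plays the role of the Riemann-Roch spaces
`L(aE + bE' - D)` and `P0 a b` the role of `L(aE + bE')` (`E`, `E'` disjoint effective divisors,
`m D = div f`, `f ≡ 1` modulo the maximal ideal of `w`).  From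

* the formal properties of these spaces (`mono`, `one_mem`, `mul_mem`, `pow_mem`, `polar`),
* liftability of `1` on the two affine pieces (`lift_left`, `lift_right`),
* the splitting of the integral lattices (`split`) and finite generation (`fg`),

we deduce that `P1 0 0 = L(-D)` is nonzero, i.e. `D` is principal.
No completeness, no noetherianity: Newton iteration + a left inverse (Cramer) on a lattice.
-/
import Mathlib

set_option autoImplicit false

namespace Fermat.Agent.S18.KCore73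

variable {L F Γ₀ : Type*} [Field L] [Field F] [Algebra L F]
  [LinearOrderedCommGroupWithZero Γ₀]

section Val

variable (w : Valuation F Γ₀)

lemma natCast_le_one (n : ℕ) : w (n : F) ≤ 1 := by
  induction n with
  | zero => simp
  | succ n ih =>
    rw [Nat.cast_succ]
    exact (w.map_add _ _).trans (max_le ih (by simp))

lemma val_eq_one_of_sub_one_lt {x : F} (h : w (x - 1) < 1) : w x = 1 := by
  have : x = 1 + (x - 1) := by ring
  rw [this]
  exact w.map_one_add_of_lt h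

/-- The Newton computation: if `w ε < 1` and `m` is a unit for `w`, then
`(1 + ε) (1 - ε / m)^m - 1` has valuation at most `(w ε)^2`. -/
lemma newton_val {m : ℕ} (hm : w (m : F) = 1) {ε : F} (hε : w ε < 1) :
    w ((1 + ε) * (1 - ε * (m : F)⁻¹) ^ m - 1) ≤ w ε ^ 2 := by
  have hm0 : (m : F) ≠ 0 := by
    intro h
    rw [h, map_zero] at hm
    exact zero_ne_one hm
  set z : F := ε * (m : F)⁻¹ with hz
  have hwz : w z = w ε := by
    rw [hz, map_mul, map_inv₀, hm, inv_one, mul_one]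
  have hzR : -z ∈ w.integer := by
    show w (-z) ≤ 1
    rw [Valuation.map_neg, hwz]
    exact hε.le
  obtain ⟨k, hk⟩ := Polynomial.powAddExpansion (1 : w.integer) (⟨-z, hzR⟩ : w.integer) m
  have hkR : w (k : F) ≤ 1 := k.2
  have hk' : (1 - z) ^ m = 1 - (m : F) * z + (k : F) * z ^ 2 := by
    have h := congrArg (fun x : w.integer => (x : F)) hk
    simp only [Subring.coe_add, Subring.coe_pow, Subring.coe_mul, Subring.coe_one,
      Subring.coe_natCast, one_pow, mul_one] at h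
    rw [sub_eq_add_neg, h]
    ring
  have hmz : (m : F) * z = ε := by
    rw [hz]
    field_simp
  have hexp : (1 + ε) * (1 - z) ^ m - 1 = -(ε ^ 2) + (1 + ε) * (k : F) * z ^ 2 := by
    rw [hk', hmz]
    ring
  rw [hexp]
  refine (w.map_add _ _).trans (max_le ?_ ?_)
  · rw [Valuation.map_neg, map_pow]
  · rw [map_mul, map_mul, map_pow, hwz, w.map_one_add_of_lt hε, one_mul]
    calc w (k : F) * w ε ^ 2 ≤ 1 * w ε ^ 2 := by gcongr
      _ = w ε ^ 2 := one_mul _

end Val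

/-- Formal properties of one "affine side": `P a` ~ `L(aE - D)`, `Q a` ~ `L(aE)`. -/
structure Side (m : ℕ) (f : F) (P Q : ℕ → Submodule L F) : Prop where
  mono : ∀ {a a' : ℕ}, a ≤ a' → P a ≤ P a'
  one_mem : ∀ a : ℕ, (1 : F) ∈ Q a
  mul_mem : ∀ {a a' : ℕ} {x y : F}, x ∈ Q a → y ∈ P a' → x * y ∈ P (a + a')
  pow_mem : ∀ {a : ℕ} {y : F}, y ∈ P a → y ^ m / f ∈ Q (m * a)

section Newton

variable (w : Valuation F Γ₀) {m : ℕ} {f : F} {P Q : ℕ → Submodule L F}

/-- Newton iteration on one affine side: approximate `m`-th roots of `f` of arbitrarily good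
quality, at the price of larger pole order. -/
theorem newton_seq (hS : Side m f P Q) (hm : w (m : F) = 1) {a : ℕ} {ξ₀ : F} (hξ₀ : ξ₀ ∈ P a)
    {t : Γ₀} (ht : t < 1) (h0 : w (ξ₀ ^ m / f - 1) ≤ t) (h1 : w (ξ₀ - 1) < 1) (k : ℕ) :
    ∃ a' : ℕ, a ≤ a' ∧ ∃ ξ ∈ P a', w (ξ - 1) < 1 ∧ w (ξ ^ m / f - 1) ≤ t ^ (2 ^ k) := by
  induction k with
  | zero => exact ⟨a, le_rfl, ξ₀, hξ₀, h1, by simpa using h0⟩
  | succ k ih =>
    obtain ⟨a', haa', ξ, hξ, hξ1, hξm⟩ := ih
    have htk : t ^ (2 ^ k) < 1 := by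
      have h2 : (2 : ℕ) ^ k ≠ 0 := by positivity
      exact pow_lt_one₀ zero_le ht h2
    set ε : F := ξ ^ m / f - 1 with hε
    have hwε : w ε < 1 := lt_of_le_of_lt hξm htk
    have hεQ : ε ∈ Q (m * a') := sub_mem (hS.pow_mem hξ) (hS.one_mem _)
    have hcQ : (1 - ε * (m : F)⁻¹) ∈ Q (m * a') := by
      refine sub_mem (hS.one_mem _) ?_
      have : ε * (m : F)⁻¹ = ((m : L)⁻¹) • ε := by
        rw [Algebra.smul_def, map_inv₀, map_natCast, mul_comm]
      rw [this]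
      exact Submodule.smul_mem _ _ hεQ
    refine ⟨m * a' + a', haa'.trans (Nat.le_add_left _ _), (1 - ε * (m : F)⁻¹) * ξ,
      hS.mul_mem hcQ hξ, ?_, ?_⟩
    · have hwξ : w ξ = 1 := val_eq_one_of_sub_one_lt w hξ1
      have hsplit : (1 - ε * (m : F)⁻¹) * ξ - 1 = (ξ - 1) + -(ε * (m : F)⁻¹ * ξ) := by ring
      rw [hsplit]
      refine lt_of_le_of_lt (w.map_add _ _) (max_lt hξ1 ?_)
      rw [Valuation.map_neg, map_mul, map_mul, map_inv₀, hm, inv_one, mul_one, hwξ, mul_one]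
      exact hwε
    · have hkey : ((1 - ε * (m : F)⁻¹) * ξ) ^ m / f - 1
          = (1 + ε) * (1 - ε * (m : F)⁻¹) ^ m - 1 := by
        rw [hε, mul_pow]
        ring
      rw [hkey]
      refine (newton_val w hm hwε).trans ?_
      calc w ε ^ 2 ≤ (t ^ (2 ^ k)) ^ 2 := by gcongr
        _ = t ^ (2 ^ (k + 1)) := by rw [← pow_mul, pow_succ]

end Newton

/-- The axioms of the abstract Lemma K. -/
structure KData (w : Valuation F Γ₀) (m : ℕ) (f : F) (P0 P1 : ℕ → ℕ → Submodule L F)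
    (c0 : ℕ) : Prop where
  /-- `m` is a unit for `w`. -/
  hm : w (m : F) = 1
  /-- `f ≡ 1`. -/
  hf : w (f - 1) < 1
  /-- same value group -/
  hval : ∀ y : F, y ≠ 0 → ∃ c : L, w (algebraMap L F c) = w y
  /-- rank one -/
  harch : ∀ x : F, w x < 1 → ∀ δ : L, δ ≠ 0 → ∃ n : ℕ, w x ^ n < w (algebraMap L F δ)
  mono : ∀ {a a' b b' : ℕ}, a ≤ a' → b ≤ b' → P1 a b ≤ P1 a' b'
  one_mem : ∀ a b : ℕ, (1 : F) ∈ P0 a b
  mul_mem : ∀ {a b a' b' : ℕ} {x y : F}, x ∈ P0 a b → y ∈ P1 a' b' → x * y ∈ P1 (a + a') (b + b')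
  pow_mem : ∀ {a b : ℕ} {y : F}, y ∈ P1 a b → y ^ m / f ∈ P0 (m * a) (m * b)
  /-- polar parts at `E` and `E'` are independent -/
  polar : ∀ {a a' b b' : ℕ} {ξ η : F}, a ≤ a' → b ≤ b' → ξ ∈ P1 a' 0 → η ∈ P1 0 b' →
    ξ - η ∈ P1 a b → ξ ∈ P1 a 0 ∧ η ∈ P1 0 b
  lift_left : ∃ ξ ∈ P1 c0 0, w (ξ - 1) < 1
  lift_right : ∃ η ∈ P1 0 c0, w (η - 1) < 1
  split : ∀ {a' b' : ℕ}, c0 ≤ a' → c0 ≤ b' → ∀ y ∈ P1 a' b', w y ≤ 1 →
    ∃ y0 ∈ P1 c0 c0, ∃ yU ∈ P1 a' 0, ∃ yV ∈ P1 0 b',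
      w y0 ≤ 1 ∧ w yU ≤ 1 ∧ w yV ≤ 1 ∧ y = y0 + yU + yV
  fg : ∃ (n : ℕ) (g : Fin n → F), (∀ j, g j ∈ P1 c0 c0) ∧
    ∀ y ∈ P1 c0 c0, w y ≤ 1 → ∃ c : Fin n → L,
      (∀ j, w (algebraMap L F (c j)) ≤ 1) ∧ y = ∑ j, c j • g j

section Aux

variable (w : Valuation F Γ₀)

lemma mul_sub_one_lt {x y : F} (hx : w (x - 1) < 1) (hy : w (y - 1) < 1) :
    w (x * y - 1) < 1 := by
  have hwx : w x = 1 := val_eq_one_of_sub_one_lt w hx
  have : x * y - 1 = x * (y - 1) + (x - 1) := by ring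
  rw [this]
  refine lt_of_le_of_lt (w.map_add _ _) (max_lt ?_ hx)
  rw [map_mul, hwx, one_mul]
  exact hy

lemma pow_sub_one_lt {x : F} (hx : w (x - 1) < 1) (n : ℕ) : w (x ^ n - 1) < 1 := by
  induction n with
  | zero => simp
  | succ n ih =>
    rw [pow_succ]
    exact mul_sub_one_lt w ih hx

lemma div_sub_one_lt {x f : F} (hx : w (x - 1) < 1) (hf : w (f - 1) < 1) :
    w (x / f - 1) < 1 := by
  have hwf : w f = 1 := val_eq_one_of_sub_one_lt w hf
  have hf0 : f ≠ 0 := by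
    intro h
    rw [h, map_zero] at hwf
    exact zero_ne_one hwf
  have : x / f - 1 = ((x - 1) - (f - 1)) / f := by
    field_simp
    ring
  rw [this, map_div₀, hwf, div_one]
  exact lt_of_le_of_lt (w.map_sub _ _) (max_lt hx hf)

/-- two approximate `m`-th roots of `f`, both `≡ 1`, are close to each other -/
lemma diff_bound {m : ℕ} (hm : w (m : F) = 1) {f ξ η : F} (hf : w (f - 1) < 1)
    (hξ : w (ξ - 1) < 1) (hη : w (η - 1) < 1) {s : Γ₀}
    (hξs : w (ξ ^ m / f - 1) ≤ s) (hηs : w (η ^ m / f - 1) ≤ s) : w (ξ - η) ≤ s := by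
  have hwf : w f = 1 := val_eq_one_of_sub_one_lt w hf
  have hf0 : f ≠ 0 := by
    intro h
    rw [h, map_zero] at hwf
    exact zero_ne_one hwf
  have h1 : ξ ^ m - η ^ m = f * ((ξ ^ m / f - 1) - (η ^ m / f - 1)) := by
    field_simp
    ring
  have h2 : w (ξ ^ m - η ^ m) ≤ s := by
    rw [h1, map_mul, hwf, one_mul]
    exact (w.map_sub _ _).trans (max_le hξs hηs)
  set S : F := ∑ i ∈ Finset.range m, ξ ^ i * η ^ (m - 1 - i) with hS
  have h3 : S * (ξ - η) = ξ ^ m - η ^ m := (Commute.all ξ η).geom_sum₂_mul m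
  have h4 : w (S - (m : F)) < 1 := by
    have : S - (m : F) = ∑ i ∈ Finset.range m, (ξ ^ i * η ^ (m - 1 - i) - 1) := by
      rw [Finset.sum_sub_distrib, Finset.sum_const, Finset.card_range, nsmul_eq_mul, mul_one]
    rw [this]
    refine w.map_sum_lt one_ne_zero fun i _ => ?_
    exact mul_sub_one_lt w (pow_sub_one_lt w hξ i) (pow_sub_one_lt w hη _)
  have h5 : w S = 1 := by
    have : S = (m : F) + (S - (m : F)) := by ring
    rw [this, w.map_add_eq_of_lt_left (by rw [hm]; exact h4), hm]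
  have : w (ξ - η) = w (ξ ^ m - η ^ m) := by
    rw [← h3, map_mul, h5, one_mul]
  rw [this]
  exact h2

/-- simultaneous scaling of finitely many elements of `F` into the integers of `w` by a nonzero
integral element of `L` -/
lemma exists_scale (hval : ∀ y : F, y ≠ 0 → ∃ c : L, w (algebraMap L F c) = w y)
    {n : ℕ} (x : Fin n → F) :
    ∃ δ : L, δ ≠ 0 ∧ w (algebraMap L F δ) ≤ 1 ∧ ∀ j, w (δ • x j) ≤ 1 := by
  classical
  by_cases hall : ∀ j, w (x j) ≤ 1
  · exact ⟨1, one_ne_zero, by simp, fun j => by simpa using hall j⟩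
  · push Not at hall
    obtain ⟨j₁, hj₁⟩ := hall
    obtain ⟨j₀, -, hj₀⟩ := Finset.exists_max_image Finset.univ (fun j => w (x j))
      ⟨j₁, Finset.mem_univ _⟩
    have hbig : 1 < w (x j₀) := lt_of_lt_of_le hj₁ (hj₀ j₁ (Finset.mem_univ _))
    have hx0 : x j₀ ≠ 0 := by
      intro h
      rw [h, map_zero] at hbig
      exact not_lt.mpr zero_le hbig
    obtain ⟨c, hc⟩ := hval (x j₀) hx0
    have hc0 : c ≠ 0 := by
      intro h
      rw [h, map_zero, map_zero] at hc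
      rw [← hc] at hbig
      exact not_lt.mpr zero_le hbig
    have hwc0 : w (algebraMap L F c) ≠ 0 := by
      rw [hc]
      exact (ne_of_gt (lt_trans zero_lt_one hbig))
    refine ⟨c⁻¹, inv_ne_zero hc0, ?_, fun j => ?_⟩
    · rw [map_inv₀, map_inv₀, hc]
      exact inv_le_one_of_one_le₀ hbig.le
    · rw [Algebra.smul_def, map_mul, map_inv₀, map_inv₀, hc]
      have hle : w (x j) ≤ w (x j₀) := hj₀ j (Finset.mem_univ _)
      have hpos : 0 < w (x j₀) := lt_trans zero_lt_one hbig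
      calc (w (x j₀))⁻¹ * w (x j) ≤ (w (x j₀))⁻¹ * w (x j₀) := by gcongr
        _ = 1 := inv_mul_cancel₀ (ne_of_gt hpos)

end Aux

section Main

variable {w : Valuation F Γ₀} {m : ℕ} {f : F} {P0 P1 : ℕ → ℕ → Submodule L F} {c0 : ℕ}

lemma KData.f_ne_zero (hK : KData w m f P0 P1 c0) : f ≠ 0 := by
  intro h
  have := val_eq_one_of_sub_one_lt w hK.hf
  rw [h, map_zero] at this
  exact zero_ne_one this

lemma KData.sideLeft (hK : KData w m f P0 P1 c0) :
    Side m f (fun a => P1 a 0) (fun a => P0 a 0) where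
  mono h := hK.mono h le_rfl
  one_mem a := hK.one_mem a 0
  mul_mem hx hy := hK.mul_mem hx hy
  pow_mem hy := hK.pow_mem hy

lemma KData.sideRight (hK : KData w m f P0 P1 c0) :
    Side m f (fun b => P1 0 b) (fun b => P0 0 b) where
  mono h := hK.mono le_rfl h
  one_mem b := hK.one_mem 0 b
  mul_mem hx hy := hK.mul_mem hx hy
  pow_mem hy := hK.pow_mem hy

/-- **Abstract Lemma K**: under the axioms `KData`, the space `P1 0 0` (`= L(-D)`) is nonzero. -/
theorem KData.exists_ne_zero (hK : KData w m f P0 P1 c0) : ∃ y ∈ P1 0 0, y ≠ 0 := by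
  classical
  by_contra hcon
  push Not at hcon
  obtain ⟨ξ₀, hξ₀, hξ₀1⟩ := hK.lift_left
  obtain ⟨η₀, hη₀, hη₀1⟩ := hK.lift_right
  have hf0 := hK.f_ne_zero
  have hwf : w f = 1 := val_eq_one_of_sub_one_lt w hK.hf
  have hεU : w (ξ₀ ^ m / f - 1) < 1 := div_sub_one_lt w (pow_sub_one_lt w hξ₀1 m) hK.hf
  have hεV : w (η₀ ^ m / f - 1) < 1 := div_sub_one_lt w (pow_sub_one_lt w hη₀1 m) hK.hf
  -- a single element `x₀` of `F` dominating both initial errors
  obtain ⟨x₀, hx₀1, hx₀U, hx₀V⟩ : ∃ x₀ : F, w x₀ < 1 ∧ w (ξ₀ ^ m / f - 1) ≤ w x₀ ∧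
      w (η₀ ^ m / f - 1) ≤ w x₀ := by
    rcases le_total (w (ξ₀ ^ m / f - 1)) (w (η₀ ^ m / f - 1)) with h | h
    · exact ⟨_, hεV, h, le_rfl⟩
    · exact ⟨_, hεU, le_rfl, h⟩
  set t : Γ₀ := w x₀ with ht
  -- the difference map and its left inverse
  let φ : (P1 c0 0 × P1 0 c0) →ₗ[L] F :=
    (P1 c0 0).subtype.comp (LinearMap.fst L _ _) - (P1 0 c0).subtype.comp (LinearMap.snd L _ _)
  have hφ : ∀ p : P1 c0 0 × P1 0 c0, φ p = (p.1 : F) - (p.2 : F) := fun p => rfl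
  have hker : LinearMap.ker φ = ⊥ := by
    rw [LinearMap.ker_eq_bot']
    rintro ⟨⟨x, hx⟩, ⟨y, hy⟩⟩ hxy
    rw [hφ] at hxy
    simp only at hxy
    have hxy' : x - y ∈ P1 0 0 := by rw [hxy]; exact zero_mem _
    obtain ⟨hx0, hy0⟩ := hK.polar (Nat.zero_le c0) (Nat.zero_le c0) hx hy hxy'
    have hx' : x = 0 := hcon x hx0
    have hy' : y = 0 := hcon y hy0
    subst hx' hy'
    rfl
  obtain ⟨ψ, hψ⟩ := φ.exists_leftInverse_of_injective hker
  obtain ⟨n, g, hg, hgen⟩ := hK.fg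
  obtain ⟨δ, hδ0, hδ1, hδg⟩ := exists_scale w hK.hval (fun j => ((ψ (g j)).1 : F))
  -- key bound
  have key : ∀ (π : L) (y0 ξ' η' : F), y0 ∈ P1 c0 c0 → w y0 ≤ 1 → ξ' ∈ P1 c0 0 → η' ∈ P1 0 c0 →
      ξ' - η' = π • y0 → w ξ' = 1 → w (algebraMap L F δ) ≤ w (algebraMap L F π) := by
    intro π y0 ξ' η' hy0 hy01 hξ' hη' hd hwξ'
    obtain ⟨c, hc1, hc⟩ := hgen y0 hy0 hy01
    have e1 : ψ (φ (⟨ξ', hξ'⟩, ⟨η', hη'⟩)) = (⟨ξ', hξ'⟩, ⟨η', hη'⟩) := by
      have := LinearMap.congr_fun hψ (⟨ξ', hξ'⟩, ⟨η', hη'⟩)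
      simpa using this
    have e2 : φ (⟨ξ', hξ'⟩, ⟨η', hη'⟩) = π • ∑ j, c j • g j := by
      rw [hφ]
      simp only
      rw [hd, hc]
    rw [e2, map_smul, map_sum] at e1
    have e3 : ξ' = π • ∑ j, c j • ((ψ (g j)).1 : F) := by
      have := congrArg (fun p : P1 c0 0 × P1 0 c0 => ((p.1 : P1 c0 0) : F)) e1
      simp only [map_smul, Prod.smul_fst, Prod.fst_sum, Submodule.coe_smul, Submodule.coe_sum,
        Prod.smul_fst] at this
      exact this.symm
    have e4 : δ • ξ' = π • ∑ j, c j • (δ • ((ψ (g j)).1 : F)) := by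
      rw [e3, smul_comm δ π, Finset.smul_sum]
      congr 1
      refine Finset.sum_congr rfl fun j _ => ?_
      rw [smul_comm]
    have e5 : w (δ • ξ') = w (algebraMap L F δ) := by
      rw [Algebra.smul_def, map_mul, hwξ', mul_one]
    have e6 : w (∑ j, c j • (δ • ((ψ (g j)).1 : F))) ≤ 1 := by
      refine w.map_sum_le fun j _ => ?_
      rw [Algebra.smul_def, map_mul]
      calc w (algebraMap L F (c j)) * w (δ • ((ψ (g j)).1 : F)) ≤ 1 * 1 := by
            gcongr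
            · exact hc1 j
            · exact hδg j
        _ = 1 := one_mul _
    rw [← e5, e4, Algebra.smul_def, map_mul]
    calc w (algebraMap L F π) * w (∑ j, c j • (δ • ((ψ (g j)).1 : F)))
        ≤ w (algebraMap L F π) * 1 := by gcongr
      _ = w (algebraMap L F π) := mul_one _
  -- choose k
  obtain ⟨N, hN⟩ := hK.harch x₀ hx₀1 δ hδ0
  have htN : t ^ (2 ^ N) ≤ t ^ N :=
    pow_le_pow_right_of_le_one' hx₀1.le (Nat.lt_two_pow_self).le
  obtain ⟨aU, haU, ξ, hξ, hξ1, hξm⟩ :=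
    newton_seq w hK.sideLeft hK.hm hξ₀ hx₀1 hx₀U hξ₀1 N
  obtain ⟨bV, hbV, η, hη, hη1, hηm⟩ :=
    newton_seq w hK.sideRight hK.hm hη₀ hx₀1 hx₀V hη₀1 N
  have hd : w (ξ - η) ≤ t ^ (2 ^ N) := diff_bound w hK.hm hK.hf hξ1 hη1 hξm hηm
  have hwξ : w ξ = 1 := val_eq_one_of_sub_one_lt w hξ1
  have htlt : t ^ (2 ^ N) < 1 := pow_lt_one₀ zero_le hx₀1 (by positivity)
  by_cases hd0 : ξ - η = 0
  · -- exact solution
    have h00 : ξ - η ∈ P1 0 0 := by rw [hd0]; exact zero_mem _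
    obtain ⟨hξ00, -⟩ := hK.polar (Nat.zero_le aU) (Nat.zero_le bV) hξ hη h00
    have := hcon ξ hξ00
    rw [this, map_zero] at hwξ
    exact zero_ne_one hwξ
  · obtain ⟨π, hπ⟩ := hK.hval (ξ - η) hd0
    have hπ0 : π ≠ 0 := by
      intro h
      rw [h, map_zero, map_zero] at hπ
      exact hd0 ((map_eq_zero w).mp hπ.symm)
    have hπF : algebraMap L F π ≠ 0 := (map_ne_zero _).mpr hπ0
    have hwπ : w (algebraMap L F π) ≤ t ^ (2 ^ N) := hπ ▸ hd
    set y : F := π⁻¹ • (ξ - η) with hy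
    have hwy : w y ≤ 1 := by
      rw [hy, Algebra.smul_def, map_mul, map_inv₀, map_inv₀, hπ]
      exact le_of_eq (inv_mul_cancel₀ ((map_ne_zero w).mpr hd0))
    have hyP : y ∈ P1 aU bV := by
      refine Submodule.smul_mem _ _ (sub_mem ?_ ?_)
      · exact hK.mono le_rfl (Nat.zero_le _) hξ
      · exact hK.mono (Nat.zero_le _) le_rfl hη
    obtain ⟨y0, hy0, yU, hyU, yV, hyV, hy01, hyU1, hyV1, hsum⟩ := hK.split haU hbV y hyP hwy
    have hπy : ξ - η = π • y := by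
      rw [hy, smul_smul, mul_inv_cancel₀ hπ0, one_smul]
    have hξ'P : ξ - π • yU ∈ P1 aU 0 := sub_mem hξ (Submodule.smul_mem _ _ hyU)
    have hη'P : η + π • yV ∈ P1 0 bV := add_mem hη (Submodule.smul_mem _ _ hyV)
    have hdiff : (ξ - π • yU) - (η + π • yV) = π • y0 := by
      have : (ξ - π • yU) - (η + π • yV) = (ξ - η) - π • (yU + yV) := by
        rw [smul_add]; ring
      rw [this, hπy, hsum, smul_add, smul_add, smul_add]
      ring
    have hdiffP : (ξ - π • yU) - (η + π • yV) ∈ P1 c0 c0 := by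
      rw [hdiff]; exact Submodule.smul_mem _ _ hy0
    obtain ⟨hξ'', hη''⟩ := hK.polar haU hbV hξ'P hη'P hdiffP
    have hwξ' : w (ξ - π • yU) = 1 := by
      apply val_eq_one_of_sub_one_lt
      have : ξ - π • yU - 1 = (ξ - 1) - π • yU := by ring
      rw [this]
      refine lt_of_le_of_lt (w.map_sub _ _) (max_lt hξ1 ?_)
      rw [Algebra.smul_def, map_mul]
      calc w (algebraMap L F π) * w yU ≤ t ^ (2 ^ N) * 1 := by gcongr
        _ < 1 := by rw [mul_one]; exact htlt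
    have hfin := key π y0 _ _ hy0 hy01 hξ'' hη'' hdiff hwξ'
    exact absurd (hfin.trans (hwπ.trans htN)) (not_le.mpr hN)

end Main

end Fermat.Agent.S18.KCore73
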