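/-
S18 moonshot (blueprint 14), package [KLEMMA], divisor-arithmetic half of the adapter (helper73).

For divisors `E E' D` of a function field `F/K` (Prelude API `AlgebraicCurve.Place / Divisor /
riemannRochSpace`), `E, E' ≥ 0` with disjoint supports and `f ≠ 0` with `div f = m D`, the families

  `P0 a b := L(aE + bE')`,   `P1 a b := L(aE + bE' - D)`

satisfy the formal axioms `mono / one_mem / mul_mem / pow_mem / polar` of `KCore73.KData`.
Characteristic free; `K` any field.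
-/
import Mathlib
import Fermat.Prelude.Def_AlgebraicCurve_Repartitions
import Fermat.Agent.S18.KCore73

set_option autoImplicit false

namespace Fermat.Agent.S18.KDiv73

open AlgebraicCurve WithZero

variable {K F : Type*} [Field K] [Field F] [Algebra K F]

/-- `L(aE + bE')` -/
noncomputable def P0 (E E' : Divisor K F) (a b : ℕ) : Submodule K F :=
  riemannRochSpace ((a : ℤ) • E + (b : ℤ) • E')

/-- `L(aE + bE' - D)` -/
noncomputable def P1 (E E' D : Divisor K F) (a b : ℕ) : Submodule K F :=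
  riemannRochSpace ((a : ℤ) • E + (b : ℤ) • E' - D)

theorem mem_rr {G : Divisor K F} {y : F} :
    y ∈ riemannRochSpace G ↔ ∀ v : Place K F, v.adicValuation y ≤ exp (G v) := Iff.rfl

theorem mem_P0 {E E' : Divisor K F} {a b : ℕ} {y : F} :
    y ∈ P0 E E' a b ↔ ∀ v : Place K F, v.adicValuation y ≤ exp ((a : ℤ) * E v + (b : ℤ) * E' v) := by
  unfold P0
  rw [mem_rr]
  simp only [Finsupp.coe_add, Finsupp.coe_smul, Pi.add_apply, Pi.smul_apply, smul_eq_mul]

theorem mem_P1 {E E' D : Divisor K F} {a b : ℕ} {y : F} :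
    y ∈ P1 E E' D a b ↔
      ∀ v : Place K F, v.adicValuation y ≤ exp ((a : ℤ) * E v + (b : ℤ) * E' v - D v) := by
  unfold P1
  rw [mem_rr]
  simp only [Finsupp.coe_sub, Finsupp.coe_add, Finsupp.coe_smul, Pi.sub_apply, Pi.add_apply,
    Pi.smul_apply, smul_eq_mul]

section Axioms

variable {E E' D : Divisor K F} (hE : ∀ v, 0 ≤ E v) (hE' : ∀ v, 0 ≤ E' v)
include hE hE'

theorem P1_mono {a a' b b' : ℕ} (ha : a ≤ a') (hb : b ≤ b') :
    P1 E E' D a b ≤ P1 E E' D a' b' := by
  intro y hy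
  rw [mem_P1] at hy ⊢
  intro v
  refine (hy v).trans (exp_le_exp.mpr ?_)
  have h1 : (a : ℤ) * E v ≤ (a' : ℤ) * E v :=
    mul_le_mul_of_nonneg_right (by exact_mod_cast ha) (hE v)
  have h2 : (b : ℤ) * E' v ≤ (b' : ℤ) * E' v :=
    mul_le_mul_of_nonneg_right (by exact_mod_cast hb) (hE' v)
  linarith

theorem one_mem_P0 (a b : ℕ) : (1 : F) ∈ P0 E E' a b := by
  rw [mem_P0]
  intro v
  rw [map_one, ← exp_zero]
  refine exp_le_exp.mpr ?_
  have h1 : 0 ≤ (a : ℤ) * E v := mul_nonneg (by positivity) (hE v)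
  have h2 : 0 ≤ (b : ℤ) * E' v := mul_nonneg (by positivity) (hE' v)
  linarith

omit hE hE' in
theorem mul_mem_P1 {a b a' b' : ℕ} {x y : F} (hx : x ∈ P0 E E' a b) (hy : y ∈ P1 E E' D a' b') :
    x * y ∈ P1 E E' D (a + a') (b + b') := by
  rw [mem_P0] at hx
  rw [mem_P1] at hy ⊢
  intro v
  rw [map_mul]
  have : ((a + a' : ℕ) : ℤ) * E v + ((b + b' : ℕ) : ℤ) * E' v - D v
      = ((a : ℤ) * E v + (b : ℤ) * E' v) + ((a' : ℤ) * E v + (b' : ℤ) * E' v - D v) := by
    push_cast; ring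
  rw [this, exp_add]
  exact mul_le_mul' (hx v) (hy v)

omit hE hE' in
theorem pow_mem_P0 {m : ℕ} {f : F} (hf : f ≠ 0) (hdiv : ∀ v : Place K F, v.ord f = (m : ℤ) * D v)
    {a b : ℕ} {y : F} (hy : y ∈ P1 E E' D a b) : y ^ m / f ∈ P0 E E' (m * a) (m * b) := by
  rw [mem_P1] at hy
  rw [mem_P0]
  intro v
  have hvf : v.adicValuation f = exp (-((m : ℤ) * D v)) := by
    rw [v.adicValuation_eq_exp_neg_ord hf, hdiv v]
  rw [map_div₀, map_pow, hvf]
  have h1 : v.adicValuation y ^ m ≤ exp ((a : ℤ) * E v + (b : ℤ) * E' v - D v) ^ m :=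
    pow_le_pow_left' (hy v) m
  have h2 : exp ((a : ℤ) * E v + (b : ℤ) * E' v - D v) ^ m
      = exp ((m : ℤ) * ((a : ℤ) * E v + (b : ℤ) * E' v - D v)) := by
    rw [← exp_nsmul, nsmul_eq_mul]
  have h3 : exp ((m : ℤ) * ((a : ℤ) * E v + (b : ℤ) * E' v - D v)) / exp (-((m : ℤ) * D v))
      = exp (((m * a : ℕ) : ℤ) * E v + ((m * b : ℕ) : ℤ) * E' v) := by
    rw [← exp_sub]
    congr 1
    push_cast
    ring
  rw [← h3, ← h2]
  rw [div_eq_mul_inv, div_eq_mul_inv]
  gcongr

/-- polar parts at `E` and `E'` are independent (`E`, `E'` have disjoint supports) -/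
theorem polar (hdisj : ∀ v : Place K F, E v = 0 ∨ E' v = 0) {a a' b b' : ℕ} {ξ η : F}
    (_ha : a ≤ a') (_hb : b ≤ b') (hξ : ξ ∈ P1 E E' D a' 0) (hη : η ∈ P1 E E' D 0 b')
    (hd : ξ - η ∈ P1 E E' D a b) : ξ ∈ P1 E E' D a 0 ∧ η ∈ P1 E E' D 0 b := by
  rw [mem_P1] at hξ hη hd
  constructor
  · rw [mem_P1]
    intro v
    rcases hdisj v with h | h
    · have := hξ v
      simpa [h] using this
    · have h1 := hη v
      have h2 := hd v
      simp only [h, mul_zero, add_zero, Nat.cast_zero, zero_mul] at h1 h2 ⊢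
      have hξeq : ξ = (ξ - η) + η := by ring
      rw [hξeq]
      refine (Valuation.map_add _ _ _).trans (max_le h2 (h1.trans (exp_le_exp.mpr ?_)))
      have : 0 ≤ (a : ℤ) * E v := mul_nonneg (by positivity) (hE v)
      linarith
  · rw [mem_P1]
    intro v
    rcases hdisj v with h | h
    · have h1 := hξ v
      have h2 := hd v
      simp only [h, mul_zero, add_zero, Nat.cast_zero, zero_mul, zero_add] at h1 h2 ⊢
      have hηeq : η = ξ - (ξ - η) := by ring
      rw [hηeq]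
      refine (Valuation.map_sub _ _ _).trans (max_le (h1.trans (exp_le_exp.mpr ?_)) h2)
      have : 0 ≤ (b : ℤ) * E' v := mul_nonneg (by positivity) (hE' v)
      linarith
    · have := hη v
      simpa [h] using this

end Axioms

end Fermat.Agent.S18.KDiv73
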