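/-
S18 / (T) = `Spine33.LevelStatement`: the CONCRETE INSTANTIATION of the abstract Lemma K
(`KCore73.KData.exists_ne_zero` + `KDiv73` + `KCore43.trunc_of_mod`)   (helper33).

`LevelData A M` bundles EXACTLY what the concrete packages must deliver at a level `M`
(Gauss valuation ring `O` of `F_M` with residue map `ρ`, lattice lemma, integrality, Riemann's
inequality on `F_M`, normal basis `(ub, db)` of the special fibre, genus inequality).
`level_of_data` proves the conclusion of `Spine33.LevelStatement` from it.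
-/
import Fermat.Agent.S18.Spine33
import Fermat.Agent.S18.KCore73
import Fermat.Agent.S18.KDiv73
import Fermat.Agent.S18.KCore43
import Fermat.Agent.S18.ValRing25
import Fermat.Agent.S18.FFLSpace5
import Fermat.Prelude.Def_AlgebraicCurve_Repartitions

set_option autoImplicit false
set_option linter.unusedSectionVars false
set_option linter.unusedVariables false
set_option linter.style.haveILetI false

open ModularCurve AlgebraicCurve HahnSeries Module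

noncomputable section

namespace Fermat.Agent.S18.Level33

open Fermat.Agent.S18.Spine33

/-! ### the special-fibre spaces `L̄(a,b)` -/

section LbarSec

variable {k : Type*} [Field k] {n : ℕ}

def fam (ub : Fin n → LaurentSeries k) (p : Fin n × ℤ) : LaurentSeries k :=
  jqModC k ^ p.2 * ub p.1

def IdxF (db : Fin n → ℤ) (a b : ℤ) : Finset (Fin n × ℤ) :=
  Finset.univ.biUnion fun i => (Finset.Icc (-b) (a - db i)).image fun e => (i, e)

theorem mem_IdxF {db : Fin n → ℤ} {a b : ℤ} {p : Fin n × ℤ} :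
    p ∈ IdxF db a b ↔ -b ≤ p.2 ∧ p.2 ≤ a - db p.1 := by
  obtain ⟨i, e⟩ := p
  simp only [IdxF, Finset.mem_biUnion, Finset.mem_univ, Finset.mem_image, Finset.mem_Icc, true_and,
    Prod.mk.injEq]
  constructor
  · rintro ⟨i', e', ⟨h1, h2⟩, rfl, rfl⟩
    exact ⟨h1, h2⟩
  · rintro ⟨h1, h2⟩
    exact ⟨i, e, ⟨h1, h2⟩, rfl, rfl⟩

theorem card_IdxF (db : Fin n → ℤ) (a b : ℤ) :
    (IdxF db a b).card = ∑ i, (a + b + 1 - db i).toNat := by
  classical
  rw [IdxF, Finset.card_biUnion]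
  · refine Finset.sum_congr rfl fun i _ => ?_
    rw [Finset.card_image_of_injective _ (fun e e' h => (Prod.mk.inj h).2), Int.card_Icc]
    congr 1
    ring
  · intro i _ i' _ hne
    show Disjoint _ _
    rw [Finset.disjoint_left]
    intro p hp hp'
    simp only [Finset.mem_image] at hp hp'
    obtain ⟨e, _, rfl⟩ := hp
    obtain ⟨e', _, h⟩ := hp'
    exact hne (Prod.mk.inj h).1.symm

def Lbar (ub : Fin n → LaurentSeries k) (db : Fin n → ℤ) (a b : ℤ) :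
    Submodule k (LaurentSeries k) :=
  Submodule.span k (fam ub '' (IdxF db a b : Set (Fin n × ℤ)))

theorem Lbar_mono (ub : Fin n → LaurentSeries k) (db : Fin n → ℤ) {a a' b b' : ℤ} (ha : a ≤ a')
    (hb : b ≤ b') : Lbar ub db a b ≤ Lbar ub db a' b' := by
  apply Submodule.span_mono
  apply Set.image_mono
  intro p hp
  rw [Finset.mem_coe, mem_IdxF] at hp ⊢
  exact ⟨by have := hp.1; omega, by have := hp.2; omega⟩

instance (ub : Fin n → LaurentSeries k) (db : Fin n → ℤ) (a b : ℤ) :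
    Module.Finite k (Lbar ub db a b) :=
  Module.Finite.span_of_finite k ((IdxF db a b).finite_toSet.image _)

theorem finrank_Lbar {ub : Fin n → LaurentSeries k} (hind : LinearIndependent k (fam ub))
    (db : Fin n → ℤ) (a b : ℤ) :
    finrank k (Lbar ub db a b) = ∑ i, (a + b + 1 - db i).toNat := by
  classical
  have h1 : LinearIndependent k (fun p : (IdxF db a b) => fam ub p.1) :=
    hind.comp _ Subtype.val_injective
  have h2 : Set.range (fun p : (IdxF db a b) => fam ub p.1) =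
      fam ub '' (IdxF db a b : Set (Fin n × ℤ)) := by
    ext z
    constructor
    · rintro ⟨p, rfl⟩
      exact ⟨p.1, p.2, rfl⟩
    · rintro ⟨p, hp, rfl⟩
      exact ⟨⟨p, hp⟩, rfl⟩
  rw [Lbar, ← h2, finrank_span_eq_card h1, Fintype.card_coe, card_IdxF]

theorem fam_mem_Lbar {ub : Fin n → LaurentSeries k} {db : Fin n → ℤ} {a b : ℤ} {p : Fin n × ℤ}
    (h1 : -b ≤ p.2) (h2 : p.2 ≤ a - db p.1) : fam ub p ∈ Lbar ub db a b :=
  Submodule.subset_span ⟨p, by rw [Finset.mem_coe, mem_IdxF]; exact ⟨h1, h2⟩, rfl⟩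

/-- the splitting of `L̄(a',b')` for `c ≥ |d̄_i|` -/
theorem Lbar_le_sup {ub : Fin n → LaurentSeries k} {db : Fin n → ℤ} {c a' b' : ℤ}
    (hc : ∀ i, |db i| ≤ c) (ha : c ≤ a') (hb : c ≤ b') :
    Lbar ub db a' b' ≤ Lbar ub db c c ⊔ Lbar ub db a' 0 ⊔ Lbar ub db 0 b' := by
  rw [Lbar, Submodule.span_le]
  rintro z ⟨p, hp, rfl⟩
  rw [Finset.mem_coe, mem_IdxF] at hp
  have hcp := abs_le.mp (hc p.1)
  by_cases h0 : 0 ≤ p.2
  · exact Submodule.mem_sup_left (Submodule.mem_sup_right (fam_mem_Lbar (by omega) hp.2))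
  · by_cases h1 : p.2 ≤ - db p.1
    · exact Submodule.mem_sup_right (fam_mem_Lbar hp.1 (by omega))
    · exact Submodule.mem_sup_left (Submodule.mem_sup_left (fam_mem_Lbar (by omega) (by omega)))


end LbarSec

/-! ### the data bundle -/

/-- What the concrete packages deliver at level `M` (everything is independent of `m`, `f`). -/
structure LevelData (A : ValuationSubring Kb) (M : ℕ) where
  /-- the Gauss valuation ring of `F_M` -/
  O : ValuationSubring (FK M)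
  /-- its residue map, with values in `k((q))` -/
  ρ : O →+* LaurentSeries (kA A)
  ker_ρ : ∀ x : O, ρ x = 0 ↔ x ∈ IsLocalRing.maximalIdeal O
  /-- compatibility with coefficientwise reduction of integral series -/
  ρ_incl : ∀ (U : LaurentSeries A) (h : incl A U ∈ modularFunctionFieldBar M),
    ∃ hO : (⟨incl A U, h⟩ : FK M) ∈ O, ρ ⟨_, hO⟩ = red A U
  /-- constants: `O ∩ ℚ̄ = A` and `ρ` is the residue map on `A` -/
  const_mem : ∀ c : Kb, algebraMap Kb (FK M) c ∈ O ↔ c ∈ A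
  ρ_const : ∀ (c : A) (h : algebraMap Kb (FK M) (c : Kb) ∈ O),
    ρ ⟨_, h⟩ = HahnSeries.C (IsLocalRing.residue A c)
  /-- same value group -/
  hval : ∀ y : FK M, y ≠ 0 → ∃ c : Kb, O.valuation (algebraMap Kb (FK M) c) = O.valuation y
  /-- function field facts in characteristic `0` -/
  hasPD : HasPrincipalDivisors Kb (FK M)
  deg_pos : ∀ v : Place Kb (FK M), 0 < v.deg
  const : ∀ y : FK M, y ≠ 0 → (∀ v : Place Kb (FK M), v.ord y = 0) →
    ∃ c : Kb, y = algebraMap Kb (FK M) c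
  /-- pole and zero divisor of `t = j` -/
  E : Divisor Kb (FK M)
  E' : Divisor Kb (FK M)
  E_nonneg : ∀ v, 0 ≤ E v
  E'_nonneg : ∀ v, 0 ≤ E' v
  disj : ∀ v, E v = 0 ∨ E' v = 0
  n : ℕ
  deg_E : Divisor.degree E = n
  deg_E' : Divisor.degree E' = n
  /-- Riemann's inequality on the generic fibre -/
  γ : ℤ
  rr_finite : ∀ G : Divisor Kb (FK M), Module.Finite Kb (riemannRochSpace G)
  riemann : ∀ G : Divisor Kb (FK M),
    Divisor.degree G + 1 - γ ≤ (finrank Kb (riemannRochSpace G) : ℤ)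
  /-- Dedekind–Weber normal basis of the special fibre -/
  ub : Fin n → LaurentSeries (kA A)
  db : Fin n → ℤ
  indep : LinearIndependent (kA A) (fam ub)
  one_mem : (1 : LaurentSeries (kA A)) ∈ Lbar ub db 0 0
  /-- genus inequality `γ ≤ γ̄` -/
  genus : γ ≤ ∑ i, db i - n + 1
  /-- integrality lemma -/
  red_mem : ∀ (a b : ℕ) (y : FK M), y ∈ riemannRochSpace ((a : ℤ) • E + (b : ℤ) • E') →
    ∀ hy : y ∈ O, ρ ⟨y, hy⟩ ∈ Lbar ub db a b
  /-- `L̄(a,b)` is cut out by integrality conditions -/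
  root_mem : ∀ (m a b : ℕ), 0 < m → ∀ y : O,
    (ρ y) ^ m ∈ Lbar ub db ((m * a : ℕ) : ℤ) ((m * b : ℕ) : ℤ) → ρ y ∈ Lbar ub db a b
  /-- lattice lemma -/
  lattice : ∀ V : Submodule Kb (FK M), Module.Finite Kb V →
    ∃ (r : ℕ) (e : Fin r → FK M) (he : ∀ i, e i ∈ O), r = finrank Kb V ∧ (∀ i, e i ∈ V) ∧
      LinearIndependent (kA A) (fun i => ρ ⟨e i, he i⟩) ∧
      ∀ z ∈ V, z ∈ O → ∃ α : Fin r → Kb, (∀ i, α i ∈ A) ∧ z = ∑ i, α i • e i

/-! ### basic consequences -/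

namespace LevelData

variable {A : ValuationSubring Kb} {M : ℕ} (Dat : LevelData A M)

/-- the Gauss valuation -/
abbrev w : Valuation (FK M) (ValuationSubring.ValueGroup Dat.O) := Dat.O.valuation

theorem w_le_one_iff (y : FK M) : Dat.w y ≤ 1 ↔ y ∈ Dat.O :=
  ValuationSubring.valuation_le_one_iff _ _

theorem w_lt_one_iff (y : FK M) (hy : y ∈ Dat.O) : Dat.w y < 1 ↔ Dat.ρ ⟨y, hy⟩ = 0 := by
  rw [Dat.ker_ρ]
  exact (ValuationSubring.valuation_lt_one_iff Dat.O ⟨y, hy⟩).symm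

theorem mem_of_w_lt_one {y : FK M} (h : Dat.w y < 1) : y ∈ Dat.O :=
  (Dat.w_le_one_iff y).mp h.le

/-- residues are multiplicative etc.: `ρ` of a sub-one element -/
theorem w_sub_lt_one_of_ρ_eq {y z : FK M} (hy : y ∈ Dat.O) (hz : z ∈ Dat.O)
    (h : Dat.ρ ⟨y, hy⟩ = Dat.ρ ⟨z, hz⟩) : Dat.w (y - z) < 1 := by
  rw [Dat.w_lt_one_iff (y - z) (sub_mem hy hz)]
  have : (⟨y - z, sub_mem hy hz⟩ : Dat.O) = ⟨y, hy⟩ - ⟨z, hz⟩ := rfl
  rw [this, map_sub, h, sub_self]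

/-- the valuation of `ℚ̄` induced by `w` is equivalent to `A.valuation` -/
theorem isEquiv_comap : (Dat.w.comap (algebraMap Kb (FK M))).IsEquiv A.valuation := by
  rw [Valuation.isEquiv_iff_valuationSubring]
  ext c
  rw [Valuation.mem_valuationSubring_iff, Valuation.mem_valuationSubring_iff,
    Valuation.comap_apply, Dat.w_le_one_iff, Dat.const_mem, ValuationSubring.valuation_le_one_iff]

theorem w_const_le_iff (c d : Kb) :
    Dat.w (algebraMap Kb (FK M) c) ≤ Dat.w (algebraMap Kb (FK M) d) ↔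
      A.valuation c ≤ A.valuation d :=
  Dat.isEquiv_comap c d

theorem w_const_le_one_iff (c : Kb) : Dat.w (algebraMap Kb (FK M) c) ≤ 1 ↔ c ∈ A := by
  rw [Dat.w_le_one_iff, Dat.const_mem]

theorem w_natCast_eq_one {ℓ : ℕ} [Fact ℓ.Prime] (hA : A.LiesOverPrime ℓ) {m : ℕ} (hm : ¬ ℓ ∣ m) :
    Dat.w (m : FK M) = 1 := by
  have h1 : A.valuation ((m : ℕ) : Kb) = 1 := ValRing25.val_natCast_of_not_dvd A hA hm
  have h2 : (m : FK M) = algebraMap Kb (FK M) (m : Kb) := (map_natCast _ m).symm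
  rw [h2]
  exact (Dat.isEquiv_comap.eq_one_iff_eq_one).mpr h1

theorem harch {ℓ : ℕ} [Fact ℓ.Prime] (hA : A.LiesOverPrime ℓ) (x : FK M) (hx : Dat.w x < 1)
    (δ : Kb) (hδ : δ ≠ 0) : ∃ n : ℕ, Dat.w x ^ n < Dat.w (algebraMap Kb (FK M) δ) := by
  have hδ' : Dat.w (algebraMap Kb (FK M) δ) ≠ 0 :=
    (Valuation.ne_zero_iff _).mpr ((map_ne_zero _).mpr hδ)
  rcases eq_or_ne x 0 with rfl | hx0
  · exact ⟨1, by simpa using zero_lt_iff.mpr hδ'⟩
  obtain ⟨c, hc⟩ := Dat.hval x hx0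
  have hc1 : A.valuation c < 1 := by
    have : (Dat.w.comap (algebraMap Kb (FK M))) c < 1 := by
      rw [Valuation.comap_apply, hc]; exact hx
    exact (Dat.isEquiv_comap.lt_one_iff_lt_one).mp this
  obtain ⟨n, hn⟩ := ValRing25.rank_one A hA (ε := c) hc1 hδ
  refine ⟨n, ?_⟩
  rw [← hc, ← map_pow, ← map_pow]
  rw [← map_pow] at hn
  have := (Dat.isEquiv_comap.lt_iff_lt (x := c ^ n) (y := δ)).mpr hn
  simpa [Valuation.comap_apply] using this

/-- a one-unit has `w (f - 1) < 1` -/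
theorem w_sub_one_lt_of_isOneUnit {f : FK M} (hf : IsOneUnit A M (f : LaurentSeries Kb)) :
    Dat.w (f - 1) < 1 := by
  obtain ⟨U, V, hU, hV, -, hne, hUV, hfUV⟩ := hf
  obtain ⟨hUO, hρU⟩ := Dat.ρ_incl U hU
  obtain ⟨hVO, hρV⟩ := Dat.ρ_incl V hV
  set u : FK M := ⟨incl A U, hU⟩ with hu
  set v : FK M := ⟨incl A V, hV⟩ with hv
  -- `v` is a unit of `O`
  have hvunit : IsUnit (⟨v, hVO⟩ : Dat.O) := by
    by_contra hnu
    have hmem : (⟨v, hVO⟩ : Dat.O) ∈ IsLocalRing.maximalIdeal Dat.O := hnu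
    rw [← Dat.ker_ρ, hρV, ← hUV] at hmem
    exact hne hmem
  have hfv : f * v = u := Subtype.ext hfUV
  have hwv : Dat.w v = 1 := (ValuationSubring.valuation_eq_one_iff Dat.O ⟨v, hVO⟩).mp hvunit
  -- `f - 1 = (u - v) / v`
  have hv0 : v ≠ 0 := by
    intro h0; rw [h0, map_zero] at hwv; exact zero_ne_one hwv
  have hsub : f - 1 = (u - v) * v⁻¹ := by
    rw [← hfv]; field_simp
  rw [hsub, map_mul, map_inv₀, hwv, inv_one, mul_one]
  exact Dat.w_sub_lt_one_of_ρ_eq hUO hVO (by rw [hρU, hρV, hUV])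

/-! ### the divisor `D = (1/m) div f` -/

omit Dat in
theorem exists_D (hPD : HasPrincipalDivisors Kb (FK M)) {m : ℕ} (hm0 : 0 < m) {f : FK M}
    (hf0 : f ≠ 0) (hloc : LocallyPower M m f) :
    ∃ D : Divisor Kb (FK M), (∀ v : Place Kb (FK M), v.ord f = (m : ℤ) * D v) ∧
      Divisor.degree D = 0 := by
  obtain ⟨Df, hDf, hdeg⟩ := HasPrincipalDivisors.exists_divisor (K := Kb) f hf0
  refine ⟨Df.mapRange (fun z => z / (m : ℤ)) (by simp), ?_, ?_⟩
  · intro v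
    rw [Finsupp.mapRange_apply, hDf v]
    exact (Int.mul_ediv_cancel' (hloc v)).symm
  · have hm : ((m : ℤ)) ≠ 0 := by exact_mod_cast hm0.ne'
    have hsm : (m : ℤ) • Df.mapRange (fun z => z / (m : ℤ)) (by simp) = Df := by
      ext v
      rw [Finsupp.smul_apply, Finsupp.mapRange_apply, smul_eq_mul, hDf v]
      exact Int.mul_ediv_cancel' (hloc v)
    have h1 := congrArg Divisor.degree hsm
    rw [map_zsmul, hdeg, smul_eq_mul] at h1
    exact (mul_eq_zero.mp h1).resolve_left hm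

section WithF

variable {m : ℕ} (hm0 : 0 < m) {f : FK M} (hf0 : f ≠ 0) (hwf : Dat.w (f - 1) < 1)
  {D : Divisor Kb (FK M)} (hdiv : ∀ v : Place Kb (FK M), v.ord f = (m : ℤ) * D v)
  (hdegD : Divisor.degree D = 0)

include hm0 hf0 hwf hdiv

theorem w_f_eq_one : Dat.w f = 1 := KCore73.val_eq_one_of_sub_one_lt Dat.w hwf

/-- **(GR)**: the reduction of `L(aE + bE' - D) ∩ O` lies in `L̄(a,b)`. -/
theorem gr {a b : ℕ} {y : FK M} (hy : y ∈ KDiv73.P1 Dat.E Dat.E' D a b) (hyO : y ∈ Dat.O) :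
    Dat.ρ ⟨y, hyO⟩ ∈ Lbar Dat.ub Dat.db a b := by
  have hwf1 := Dat.w_f_eq_one hm0 hf0 hwf hdiv
  have hfO : f ∈ Dat.O := (Dat.w_le_one_iff f).mp hwf1.le
  have hρf : Dat.ρ ⟨f, hfO⟩ = 1 := by
    have h1 : Dat.ρ ⟨f - 1, sub_mem hfO Dat.O.one_mem⟩ = 0 :=
      (Dat.w_lt_one_iff (f - 1) _).mp hwf
    have h2 : (⟨f - 1, sub_mem hfO Dat.O.one_mem⟩ : Dat.O) = ⟨f, hfO⟩ - 1 := rfl
    rw [h2, map_sub, map_one, sub_eq_zero] at h1
    exact h1
  have hz : y ^ m / f ∈ KDiv73.P0 Dat.E Dat.E' (m * a) (m * b) :=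
    KDiv73.pow_mem_P0 hf0 hdiv hy
  have hzO : y ^ m / f ∈ Dat.O := by
    rw [← Dat.w_le_one_iff, map_div₀, map_pow, hwf1, div_one]
    exact pow_le_one₀ zero_le ((Dat.w_le_one_iff y).mpr hyO)
  have hρz : Dat.ρ ⟨y ^ m / f, hzO⟩ = Dat.ρ ⟨y, hyO⟩ ^ m := by
    have h1 : (⟨y ^ m / f, hzO⟩ : Dat.O) * ⟨f, hfO⟩ = ⟨y, hyO⟩ ^ m := by
      apply Subtype.ext
      show y ^ m / f * f = _
      rw [div_mul_cancel₀ _ hf0]
      rfl
    have h2 := congrArg Dat.ρ h1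
    rw [map_mul, hρf, mul_one, map_pow] at h2
    exact h2
  have hred := Dat.red_mem (m * a) (m * b) (y ^ m / f) (by
    have : KDiv73.P0 Dat.E Dat.E' (m * a) (m * b) =
      riemannRochSpace (((m * a : ℕ) : ℤ) • Dat.E + ((m * b : ℕ) : ℤ) • Dat.E') := rfl
    rw [← this]; exact hz) hzO
  rw [hρz] at hred
  exact Dat.root_mem m a b hm0 ⟨y, hyO⟩ hred

include hdegD in
/-- **surjectivity of the reduction** `L(aE + bE' - D) ∩ O → L̄(a,b)` for `a + b ≥ c0`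
(lattice lemma + Riemann's inequality + genus inequality). -/
theorem surj {a b : ℕ} (hab : ∀ i, Dat.db i ≤ a + b + 1) {z : LaurentSeries (kA A)}
    (hz : z ∈ Lbar Dat.ub Dat.db a b) :
    ∃ y ∈ KDiv73.P1 Dat.E Dat.E' D a b, ∃ hy : y ∈ Dat.O, Dat.ρ ⟨y, hy⟩ = z := by
  classical
  set G : Divisor Kb (FK M) := (a : ℤ) • Dat.E + (b : ℤ) • Dat.E' - D with hG
  have hVG : KDiv73.P1 Dat.E Dat.E' D a b = riemannRochSpace G := rfl
  haveI : Module.Finite Kb (KDiv73.P1 Dat.E Dat.E' D a b) := by rw [hVG]; exact Dat.rr_finite G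
  obtain ⟨r, e, he, hr, heV, hind, -⟩ := Dat.lattice (KDiv73.P1 Dat.E Dat.E' D a b) inferInstance
  set S : Submodule (kA A) (LaurentSeries (kA A)) :=
    Submodule.span (kA A) (Set.range fun i => Dat.ρ ⟨e i, he i⟩) with hS
  have hS_le : S ≤ Lbar Dat.ub Dat.db a b := by
    rw [hS, Submodule.span_le]
    rintro _ ⟨i, rfl⟩
    exact Dat.gr hm0 hf0 hwf hdiv (heV i) (he i)
  have hfinS : finrank (kA A) S = r := by
    rw [hS, finrank_span_eq_card hind, Fintype.card_fin]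
  -- dimension count
  have hL : (finrank (kA A) (Lbar Dat.ub Dat.db (a : ℤ) (b : ℤ)) : ℤ) =
      ((a : ℤ) + b + 1) * Dat.n - ∑ i, Dat.db i := by
    rw [finrank_Lbar Dat.indep, Nat.cast_sum]
    have : ∀ i ∈ (Finset.univ : Finset (Fin Dat.n)),
        (((a : ℤ) + b + 1 - Dat.db i).toNat : ℤ) = (a : ℤ) + b + 1 - Dat.db i := by
      intro i _
      exact Int.toNat_of_nonneg (by have := hab i; omega)
    rw [Finset.sum_congr rfl this, Finset.sum_sub_distrib, Finset.sum_const, Finset.card_univ,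
      Fintype.card_fin, nsmul_eq_mul]
    ring
  have hR := Dat.riemann G
  have hdegG : Divisor.degree G = (a : ℤ) * Dat.n + (b : ℤ) * Dat.n := by
    rw [hG, map_sub, map_add, map_zsmul, map_zsmul, Dat.deg_E, Dat.deg_E', hdegD, smul_eq_mul,
      smul_eq_mul, sub_zero]
  have hrV : (r : ℤ) = (finrank Kb (riemannRochSpace G) : ℤ) := by rw [hr, hVG]
  have hle : finrank (kA A) (Lbar Dat.ub Dat.db (a : ℤ) (b : ℤ)) ≤ finrank (kA A) S := by
    rw [hfinS]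
    have hg := Dat.genus
    have : (finrank (kA A) (Lbar Dat.ub Dat.db (a : ℤ) (b : ℤ)) : ℤ) ≤ (r : ℤ) := by
      rw [hL, hrV]
      rw [hdegG] at hR
      linarith
    exact_mod_cast this
  have hSeq : S = Lbar Dat.ub Dat.db a b := Submodule.eq_of_le_of_finrank_le hS_le hle
  rw [← hSeq, hS, Submodule.mem_span_range_iff_exists_fun] at hz
  obtain ⟨cb, hcb⟩ := hz
  choose c hc using fun i => Ideal.Quotient.mk_surjective (cb i)
  have hcO : ∀ i, algebraMap Kb (FK M) (c i : Kb) ∈ Dat.O := fun i =>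
    (Dat.const_mem _).mpr (c i).2
  set yO : Dat.O := ∑ i, (⟨algebraMap Kb (FK M) (c i : Kb), hcO i⟩ : Dat.O) * ⟨e i, he i⟩ with hyO
  have hycoe : ((yO : Dat.O) : FK M) = ∑ i, (c i : Kb) • e i := by
    rw [hyO, AddSubmonoidClass.coe_finset_sum]
    refine Finset.sum_congr rfl fun i _ => ?_
    rw [Algebra.smul_def]
    rfl
  refine ⟨(yO : FK M), ?_, yO.2, ?_⟩
  · rw [hycoe]
    exact Submodule.sum_mem _ fun i _ => Submodule.smul_mem _ _ (heV i)
  · show Dat.ρ yO = z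
    rw [hyO, map_sum, ← hcb]
    refine Finset.sum_congr rfl fun i _ => ?_
    rw [map_mul, Dat.ρ_const (c i) (hcO i), HahnSeries.C_mul_eq_smul]
    congr 1
    exact hc i

/-- the pole-order bound -/
def c0 : ℕ := (Finset.univ.sup fun i => (Dat.db i).natAbs) + 1

omit hm0 hf0 hwf hdiv in
theorem abs_db_le (i : Fin Dat.n) : |Dat.db i| ≤ (Dat.c0 : ℤ) := by
  have h1 : (Dat.db i).natAbs ≤ Finset.univ.sup fun i => (Dat.db i).natAbs :=
    Finset.le_sup (f := fun i => (Dat.db i).natAbs) (Finset.mem_univ i)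
  rw [Int.abs_eq_natAbs, c0]
  push_cast
  have : ((Dat.db i).natAbs : ℤ) ≤ ((Finset.univ.sup fun i => (Dat.db i).natAbs : ℕ) : ℤ) := by
    exact_mod_cast h1
  linarith

omit hm0 hf0 hwf hdiv in
theorem db_le (i : Fin Dat.n) {a b : ℕ} (hab : Dat.c0 ≤ a + b) : Dat.db i ≤ a + b + 1 := by
  have h1 := (abs_le.mp (Dat.abs_db_le i)).2
  have h2 : (Dat.c0 : ℤ) ≤ a + b := by exact_mod_cast hab
  linarith

include hdegD in
theorem lift_left : ∃ ξ ∈ KDiv73.P1 Dat.E Dat.E' D Dat.c0 0, Dat.w (ξ - 1) < 1 := by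
  have h1 : (1 : LaurentSeries (kA A)) ∈ Lbar Dat.ub Dat.db (Dat.c0 : ℕ) (0 : ℕ) :=
    Lbar_mono _ _ (by positivity) (by simp) Dat.one_mem
  obtain ⟨y, hy, hyO, hρ⟩ := Dat.surj hm0 hf0 hwf hdiv hdegD
    (fun i => Dat.db_le i (by omega)) h1
  refine ⟨y, hy, ?_⟩
  refine Dat.w_sub_lt_one_of_ρ_eq hyO Dat.O.one_mem ?_
  rw [hρ]
  exact (map_one Dat.ρ).symm

include hdegD in
theorem lift_right : ∃ η ∈ KDiv73.P1 Dat.E Dat.E' D 0 Dat.c0, Dat.w (η - 1) < 1 := by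
  have h1 : (1 : LaurentSeries (kA A)) ∈ Lbar Dat.ub Dat.db (0 : ℕ) (Dat.c0 : ℕ) :=
    Lbar_mono _ _ (by simp) (by positivity) Dat.one_mem
  obtain ⟨y, hy, hyO, hρ⟩ := Dat.surj hm0 hf0 hwf hdiv hdegD
    (fun i => Dat.db_le i (by omega)) h1
  refine ⟨y, hy, ?_⟩
  refine Dat.w_sub_lt_one_of_ρ_eq hyO Dat.O.one_mem ?_
  rw [hρ]
  exact (map_one Dat.ρ).symm

omit hm0 hf0 hwf hdiv in
/-- finite generation of unit balls (lattice lemma) in the shape of `KCore43.trunc_of_mod` -/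
theorem fgAt (V : Submodule Kb (FK M)) [Module.Finite Kb V] :
    ∃ (r : ℕ) (e : Fin r → FK M), (∀ i, e i ∈ V) ∧ (∀ i, Dat.w (e i) ≤ 1) ∧
      ∀ z ∈ V, Dat.w z ≤ 1 → ∃ α : Fin r → Kb,
        (∀ i, Dat.w (algebraMap Kb (FK M) (α i)) ≤ 1) ∧ z = ∑ i, α i • e i := by
  obtain ⟨r, e, he, -, heV, -, hspan⟩ := Dat.lattice V inferInstance
  refine ⟨r, e, heV, fun i => (Dat.w_le_one_iff _).mpr (he i), fun z hz hz1 => ?_⟩
  obtain ⟨α, hα, hzα⟩ := hspan z hz ((Dat.w_le_one_iff z).mp hz1)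
  exact ⟨α, fun i => (Dat.w_const_le_one_iff _).mpr (hα i), hzα⟩

include hdegD in
theorem split {a' b' : ℕ} (ha : Dat.c0 ≤ a') (hb : Dat.c0 ≤ b') (y : FK M)
    (hy : y ∈ KDiv73.P1 Dat.E Dat.E' D a' b') (hy1 : Dat.w y ≤ 1) :
    ∃ y0 ∈ KDiv73.P1 Dat.E Dat.E' D Dat.c0 Dat.c0, ∃ yU ∈ KDiv73.P1 Dat.E Dat.E' D a' 0,
      ∃ yV ∈ KDiv73.P1 Dat.E Dat.E' D 0 b',
        Dat.w y0 ≤ 1 ∧ Dat.w yU ≤ 1 ∧ Dat.w yV ≤ 1 ∧ y = y0 + yU + yV := by
  have hmono := @KDiv73.P1_mono Kb (FK M) _ _ _ Dat.E Dat.E' D Dat.E_nonneg Dat.E'_nonneg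
  haveI : Module.Finite Kb (KDiv73.P1 Dat.E Dat.E' D a' b') := Dat.rr_finite _
  have key := KCore43.trunc_of_mod Dat.w (fun y hy => by
      obtain ⟨c, hc⟩ := Dat.hval y hy; exact ⟨c, hc.symm⟩)
    (hmono ha hb) (hmono le_rfl (Nat.zero_le b')) (hmono (Nat.zero_le a') le_rfl)
    (Dat.fgAt (KDiv73.P1 Dat.E Dat.E' D a' b')) ?_ y hy hy1
  · obtain ⟨z₀, z₁, z₂, h₀, h₁, h₂, hw₀, hw₁, hw₂, hz⟩ := key
    refine ⟨z₀, h₀, z₁, h₁, -z₂, neg_mem h₂, hw₀, hw₁, by rwa [Valuation.map_neg], ?_⟩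
    rw [hz]; ring
  · intro z hz hz1
    have hzO : z ∈ Dat.O := (Dat.w_le_one_iff z).mp hz1
    have hρz := Dat.gr hm0 hf0 hwf hdiv hz hzO
    have hsup := Lbar_le_sup (ub := Dat.ub) (db := Dat.db) (c := (Dat.c0 : ℤ)) (a' := (a' : ℤ))
      (b' := (b' : ℤ)) Dat.abs_db_le (by exact_mod_cast ha) (by exact_mod_cast hb) hρz
    obtain ⟨u, hu, v₂, hv₂, huv⟩ := Submodule.mem_sup.mp hsup
    obtain ⟨u₀, hu₀, u₁, hu₁, hu01⟩ := Submodule.mem_sup.mp hu
    obtain ⟨y₀, hy₀, hy₀O, hρ₀⟩ := Dat.surj hm0 hf0 hwf hdiv hdegD (a := Dat.c0) (b := Dat.c0)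
      (fun i => Dat.db_le i (by omega)) hu₀
    obtain ⟨y₁, hy₁, hy₁O, hρ₁⟩ := Dat.surj hm0 hf0 hwf hdiv hdegD (a := a') (b := 0)
      (fun i => Dat.db_le i (by omega)) (by simpa using hu₁)
    obtain ⟨y₂, hy₂, hy₂O, hρ₂⟩ := Dat.surj hm0 hf0 hwf hdiv hdegD (a := 0) (b := b')
      (fun i => Dat.db_le i (by omega)) (by simpa using hv₂)
    refine ⟨y₀, y₁, -y₂, hy₀, hy₁, neg_mem hy₂, (Dat.w_le_one_iff _).mpr hy₀O,
      (Dat.w_le_one_iff _).mpr hy₁O, by rw [Valuation.map_neg]; exact (Dat.w_le_one_iff _).mpr hy₂O,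
      ?_⟩
    have hsum : y₀ + y₁ - -y₂ ∈ Dat.O := by
      rw [sub_neg_eq_add]; exact add_mem (add_mem hy₀O hy₁O) hy₂O
    refine Dat.w_sub_lt_one_of_ρ_eq hzO hsum ?_
    have : (⟨y₀ + y₁ - -y₂, hsum⟩ : Dat.O) = ⟨y₀, hy₀O⟩ + ⟨y₁, hy₁O⟩ + ⟨y₂, hy₂O⟩ := by
      apply Subtype.ext
      show y₀ + y₁ - -y₂ = y₀ + y₁ + y₂
      ring
    rw [this, map_add, map_add, hρ₀, hρ₁, hρ₂, hu01, huv]

include hdegD in
/-- the axioms of the abstract Lemma K hold -/
theorem kdata {ℓ : ℕ} [Fact ℓ.Prime] (hA : A.LiesOverPrime ℓ) (hm : ¬ ℓ ∣ m) :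
    KCore73.KData Dat.w m f (KDiv73.P0 Dat.E Dat.E') (KDiv73.P1 Dat.E Dat.E' D) Dat.c0 where
  hm := Dat.w_natCast_eq_one hA hm
  hf := hwf
  hval := Dat.hval
  harch := Dat.harch hA
  mono := fun ha hb => KDiv73.P1_mono Dat.E_nonneg Dat.E'_nonneg ha hb
  one_mem := KDiv73.one_mem_P0 Dat.E_nonneg Dat.E'_nonneg
  mul_mem := fun hx hy => KDiv73.mul_mem_P1 hx hy
  pow_mem := fun hy => KDiv73.pow_mem_P0 hf0 hdiv hy
  polar := fun ha hb hξ hη hd =>
    KDiv73.polar Dat.E_nonneg Dat.E'_nonneg Dat.disj ha hb hξ hη hd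
  lift_left := Dat.lift_left hm0 hf0 hwf hdiv hdegD
  lift_right := Dat.lift_right hm0 hf0 hwf hdiv hdegD
  split := fun ha hb y hy hy1 => Dat.split hm0 hf0 hwf hdiv hdegD ha hb y hy hy1
  fg := by
    haveI : Module.Finite Kb (KDiv73.P1 Dat.E Dat.E' D Dat.c0 Dat.c0) := Dat.rr_finite _
    obtain ⟨r, e, heV, -, hspan⟩ := Dat.fgAt (KDiv73.P1 Dat.E Dat.E' D Dat.c0 Dat.c0)
    exact ⟨r, e, heV, hspan⟩

end WithF

include Dat in
/-- **(T) from the level data.** -/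
theorem level_of_data {ℓ : ℕ} [Fact ℓ.Prime] (hA : A.LiesOverPrime ℓ) (m : ℕ) (hm : ¬ ℓ ∣ m)
    (f : FK M) (hf0 : f ≠ 0) (hloc : LocallyPower M m f)
    (hunit : IsOneUnit A M (f : LaurentSeries Kb)) : ∃ u : FK M, u ^ m = f := by
  have hm0 : 0 < m := Nat.pos_of_ne_zero (by rintro rfl; exact hm (dvd_zero ℓ))
  have hwf := Dat.w_sub_one_lt_of_isOneUnit hunit
  obtain ⟨D, hdiv, hdegD⟩ := exists_D Dat.hasPD hm0 hf0 hloc
  obtain ⟨y, hy, hy0⟩ := (Dat.kdata hm0 hf0 hwf hdiv hdegD hA hm).exists_ne_zero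
  -- `div y ≥ D`
  have hyD : ∀ v : Place Kb (FK M), D v ≤ v.ord y := by
    intro v
    have h1 : y ∈ riemannRochSpace (((0 : ℕ) : ℤ) • Dat.E + ((0 : ℕ) : ℤ) • Dat.E' - D) := hy
    rw [mem_riemannRochSpace_iff] at h1
    rcases h1 v with h | h
    · exact absurd h hy0
    · simpa using h
  -- `div y = D`
  haveI := Dat.hasPD
  obtain ⟨Dy, hDy, hdegDy⟩ := HasPrincipalDivisors.exists_divisor (K := Kb) y hy0
  have hnn : 0 ≤ Dy - D := by
    rw [Finsupp.le_def]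
    intro v
    rw [Finsupp.sub_apply, hDy v, Finsupp.zero_apply]
    linarith [hyD v]
  have hzero : Dy - D = 0 :=
    FFLSpace5.eq_zero_of_nonneg_of_degree_eq_zero Dat.deg_pos hnn (by
      rw [map_sub, hdegDy, hdegD, sub_zero])
  have hordy : ∀ v : Place Kb (FK M), v.ord y = D v := by
    intro v
    have := congrArg (fun G : Divisor Kb (FK M) => G v) hzero
    simp only [Finsupp.sub_apply, Finsupp.zero_apply] at this
    rw [← hDy v]; linarith
  -- `y^m / f` is a constant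
  have hq0 : y ^ m / f ≠ 0 := div_ne_zero (pow_ne_zero m hy0) hf0
  have hq : ∀ v : Place Kb (FK M), v.ord (y ^ m / f) = 0 := by
    intro v
    rw [div_eq_mul_inv, v.ord_mul (pow_ne_zero m hy0) (inv_ne_zero hf0), v.ord_inv,
      ← zpow_natCast, v.ord_zpow, hordy v, hdiv v]
    ring
  obtain ⟨c, hc⟩ := Dat.const _ hq0 hq
  have hc0 : c ≠ 0 := by
    rintro rfl
    rw [map_zero] at hc
    exact hq0 hc
  obtain ⟨c₁, hc₁⟩ := IsAlgClosed.exists_pow_nat_eq c hm0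
  have hc₁0 : c₁ ≠ 0 := by
    rintro rfl
    rw [zero_pow hm0.ne'] at hc₁
    exact hc0 hc₁.symm
  refine ⟨y / algebraMap Kb (FK M) c₁, ?_⟩
  rw [div_pow, ← map_pow, hc₁, ← hc]
  field_simp

end LevelData

/-- `Spine33.LevelStatement` follows from the existence of level data at every good level. -/
theorem levelStatement_of_data
    (H : ∀ (M : ℕ) [NeZero M] (ℓ : ℕ) [Fact ℓ.Prime], ¬ ℓ ∣ M → GoodLevel ℓ M →
      ∀ (A : ValuationSubring Kb), A.LiesOverPrime ℓ → Nonempty (LevelData A M)) :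
    LevelStatement := by
  intro M _ ℓ _ hℓM hgood A hA m hm f hf0 hloc hunit
  obtain ⟨Dat⟩ := H M ℓ hℓM hgood A hA
  exact Dat.level_of_data hA m hm f hf0 hloc hunit

end Fermat.Agent.S18.Level33
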