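/-
S18 / LD-ASSEMBLY (helper29), part 1: the [BRIDGE] fields of `Level33.LevelData` from ANY
`BridgeKernel15.Frame A ι` whose field is `modularFunctionFieldBar M`.

`OF' S F' hF`, `rhoF' S F' hF` are `S.OF`, `S.rhoF` transported along `hF : S.F = F'`
(definitionally the same carrier: `O A ∩ F'`), so that consumers can work over the Prelude field
`FK M = ↥(modularFunctionFieldBar M)` and not over the structure projection `S.F`.
-/
import Fermat.Agent.S18.Level33
import Fermat.Agent.S18.BridgeKernel15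

set_option autoImplicit false
set_option linter.unusedSectionVars false

open ModularCurve AlgebraicCurve HahnSeries IntermediateField

noncomputable section

namespace Fermat.Agent.S18.LevelInst29

open Fermat.Agent.S18.Spine33 Fermat.Agent.S18.Bridge28 Fermat.Agent.S18.BridgeKernel15

variable {A : ValuationSubring Kb} {ι : Type*} [Fintype ι]

section General

variable (S : Frame A ι) (F' : IntermediateField Kb (LaurentSeries Kb)) (hF : S.F = F')

/-- `O A ∩ F'` as a valuation subring of `F'` (`= S.OF` when `F' = S.F`). -/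
def OF' : ValuationSubring F' where
  toSubring := (O A).comap (algebraMap F' (LaurentSeries Kb))
  mem_or_inv_mem' := by
    subst hF
    exact S.OF.mem_or_inv_mem'

theorem mem_OF'_iff (y : F') : y ∈ OF' S F' hF ↔ (y : LaurentSeries Kb) ∈ O A := Iff.rfl

/-- the residue map of `OF'` -/
def rhoF' : OF' S F' hF →+* LaurentSeries (kA A) :=
  (rho A).comp
    (((algebraMap F' (LaurentSeries Kb)).comp (OF' S F' hF).subtype).codRestrict (O A)
      (fun y => y.2))

theorem rhoF'_apply (y : OF' S F' hF) :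
    rhoF' S F' hF y = rho A ⟨((y : F') : LaurentSeries Kb), (mem_OF'_iff S F' hF y).1 y.2⟩ := rfl

theorem OF'_rfl : OF' S S.F rfl = S.OF := rfl

theorem rhoF'_rfl : rhoF' S S.F rfl = S.rhoF := rfl

/-- kernel of the residue map = maximal ideal -/
theorem ker_rhoF' (x : OF' S F' hF) :
    rhoF' S F' hF x = 0 ↔ x ∈ IsLocalRing.maximalIdeal (OF' S F' hF) := by
  subst hF
  rw [← ValuationSubring.coe_mem_nonunits_iff]
  exact S.rhoF_eq_zero_iff x

/-- compatibility with coefficientwise reduction -/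
theorem rhoF'_incl (U : LaurentSeries A) (h : Spine33.incl A U ∈ F') :
    ∃ hO : (⟨Spine33.incl A U, h⟩ : F') ∈ OF' S F' hF,
      rhoF' S F' hF ⟨_, hO⟩ = Spine33.red A U :=
  ⟨incl_mem_O A U, rho_incl A U⟩

theorem const_mem_OF' (c : Kb) : algebraMap Kb F' c ∈ OF' S F' hF ↔ c ∈ A := by
  rw [mem_OF'_iff, IntermediateField.coe_algebraMap_apply, BridgeGauss15.algebraMap_eq_C,
    C_mem_O_iff]

theorem rhoF'_const (c : A) (h : algebraMap Kb F' (c : Kb) ∈ OF' S F' hF) :
    rhoF' S F' hF ⟨_, h⟩ = HahnSeries.C (IsLocalRing.residue A c) := by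
  rw [rhoF'_apply]
  have h1 : (⟨((algebraMap Kb F' (c : Kb) : F') : LaurentSeries Kb),
      (mem_OF'_iff S F' hF _).1 h⟩ : O A) = ⟨HahnSeries.C (c : Kb), C_mem_O A c.2⟩ := by
    apply Subtype.ext
    show ((algebraMap Kb F' (c : Kb) : F') : LaurentSeries Kb) = HahnSeries.C (c : Kb)
    rw [IntermediateField.coe_algebraMap_apply, BridgeGauss15.algebraMap_eq_C]
  rw [h1, rho_C A c.2]

/-- same value group -/
theorem hval_OF' (y : F') (hy : y ≠ 0) :
    ∃ c : Kb, (OF' S F' hF).valuation (algebraMap Kb F' c) = (OF' S F' hF).valuation y := by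
  subst hF
  obtain ⟨c, u, -, hyu, hu, hui⟩ := S.exists_const_mul_unit y hy
  refine ⟨c, ?_⟩
  have h1 : S.OF.valuation u ≤ 1 := (S.OF.valuation_le_one_iff u).mpr hu
  have h2 : S.OF.valuation u⁻¹ ≤ 1 := (S.OF.valuation_le_one_iff _).mpr hui
  have hu0 : u ≠ 0 := by
    rintro rfl
    rw [mul_zero] at hyu
    exact hy hyu
  have hv0 : S.OF.valuation u ≠ 0 := (map_ne_zero _).mpr hu0
  rw [map_inv₀] at h2
  have h3 : 1 ≤ S.OF.valuation u := (inv_le_one₀ (zero_lt_iff.mpr hv0)).mp h2
  have h4 : S.OF.valuation u = 1 := le_antisymm h1 h3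
  show S.OF.valuation (algebraMap Kb S.F c) = S.OF.valuation y
  rw [hyu, map_mul, h4, mul_one]

end General

end Fermat.Agent.S18.LevelInst29
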