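/-
S18 / LD-ASSEMBLY (helper29), part 2: the concrete GAUSS DATA of a frame in the RatFunc setting.

Input: `S : BridgeKernel15.Frame A ι` (helper15) with `hF : S.F = F'`, and ANY RatFunc-setting
instance block on `F'` with `X ↦ S.j` (hypothesis `hx`).  Output (the hypotheses of
`GaussInt95.red_isIntegral`, `LevelInt73.red_mem_integral`, `LBar95.red_mem_Lbar`, ...):

* `coe_algebraMap_poly`, `coe_algebraMap_rat_mem`, `exists_rat_of_mem_adjoin`: dictionary between
  `RatFunc Kb` and `Kb⟮S.j⟯ ⊆ Kb((q))`;
* `isGauss : GaussInt95.IsGauss A (OF' S F' hF)`;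
* `frameBasis : Basis ι (RatFunc Kb) F'` with `frameBasis_apply`, and
  `isOrtho : GaussInt95.IsOrtho (OF' S F' hF) (frameBasis ..)`;
* `redTo Fbar hrange : OF' S F' hF →+* Fbar` (the residue map with values in a subfield `Fbar`
  of `k((q))` containing its range) and `redCompat : GaussInt95.RedCompat (residue A) (redTo ..)`
  for any RatFunc-setting instance block on `Fbar` with `X ↦ S.t = rho S.j`.
-/
import Fermat.Agent.S18.LevelInst29
import Fermat.Agent.S18.GaussInt95

set_option autoImplicit false
set_option linter.unusedSectionVars false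
set_option linter.unusedVariables false
set_option synthInstance.maxHeartbeats 400000
set_option maxHeartbeats 1600000

open ModularCurve AlgebraicCurve HahnSeries IntermediateField Polynomial

noncomputable section

namespace Fermat.Agent.S18.GaussM29

open Fermat.Agent.S18.Spine33 Fermat.Agent.S18.Bridge28 Fermat.Agent.S18.BridgeKernel15
open Fermat.Agent.S18.LevelInst29

/-! ### polynomials and rational functions inside a field of Laurent series -/

section Dict

variable {K : Type*} [Field K] (F' : IntermediateField K (LaurentSeries K))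
  [Algebra (RatFunc K) F'] [IsScalarTower K (RatFunc K) F'] [Algebra K[X] F']
  [IsScalarTower K[X] (RatFunc K) F']
  (j : LaurentSeries K)
  (hx : ((algebraMap (RatFunc K) F' RatFunc.X : F') : LaurentSeries K) = j)

include hx

theorem coe_algebraMap_poly (p : K[X]) :
    ((algebraMap K[X] F' p : F') : LaurentSeries K) = aeval j p := by
  have h : (F'.val.toRingHom.comp (algebraMap K[X] F')) =
      ((aeval j : K[X] →ₐ[K] LaurentSeries K) : K[X] →+* LaurentSeries K) := by
    refine Polynomial.ringHom_ext (fun c => ?_) ?_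
    · show ((algebraMap K[X] F' (Polynomial.C c) : F') : LaurentSeries K) = aeval j (Polynomial.C c)
      rw [IsScalarTower.algebraMap_apply K[X] (RatFunc K) F', RatFunc.algebraMap_C,
        ← RatFunc.algebraMap_eq_C, ← IsScalarTower.algebraMap_apply K (RatFunc K) F', aeval_C,
        IntermediateField.coe_algebraMap_apply]
    · show ((algebraMap K[X] F' Polynomial.X : F') : LaurentSeries K) = aeval j Polynomial.X
      rw [IsScalarTower.algebraMap_apply K[X] (RatFunc K) F', RatFunc.algebraMap_X, hx, aeval_X]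
  exact congrArg (fun f : K[X] →+* LaurentSeries K => f p) h

theorem coe_algebraMap_rat (r : RatFunc K) :
    ((algebraMap (RatFunc K) F' r : F') : LaurentSeries K) =
      aeval j r.num / aeval j r.denom := by
  conv_lhs => rw [← RatFunc.num_div_denom r]
  rw [map_div₀, ← IsScalarTower.algebraMap_apply K[X] (RatFunc K) F',
    ← IsScalarTower.algebraMap_apply K[X] (RatFunc K) F', IntermediateField.coe_div,
    coe_algebraMap_poly F' j hx, coe_algebraMap_poly F' j hx]

theorem coe_algebraMap_rat_mem (r : RatFunc K) :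
    ((algebraMap (RatFunc K) F' r : F') : LaurentSeries K) ∈ K⟮j⟯ := by
  rw [coe_algebraMap_rat F' j hx]
  have h1 : ∀ p : K[X], aeval j p ∈ K⟮j⟯ := fun p =>
    (IntermediateField.algebra_adjoin_le_adjoin K _)
      (by rw [Algebra.adjoin_singleton_eq_range_aeval]; exact ⟨p, rfl⟩)
  exact div_mem (h1 _) (h1 _)

theorem exists_rat_of_mem_adjoin {c : LaurentSeries K} (hc : c ∈ K⟮j⟯) :
    ∃ r : RatFunc K, ((algebraMap (RatFunc K) F' r : F') : LaurentSeries K) = c := by
  obtain ⟨p, q, rfl⟩ := IntermediateField.mem_adjoin_simple_iff K c |>.mp hc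
  refine ⟨algebraMap K[X] (RatFunc K) p / algebraMap K[X] (RatFunc K) q, ?_⟩
  rw [map_div₀, ← IsScalarTower.algebraMap_apply K[X] (RatFunc K) F',
    ← IsScalarTower.algebraMap_apply K[X] (RatFunc K) F', IntermediateField.coe_div,
    coe_algebraMap_poly F' j hx, coe_algebraMap_poly F' j hx]

end Dict

/-! ### Gauss data of a frame -/

section Frame

variable {A : ValuationSubring Kb} {ι : Type*} [Fintype ι] (S : Frame A ι)
  (F' : IntermediateField Kb (LaurentSeries Kb)) (hF : S.F = F')
  [Algebra (RatFunc Kb) F'] [IsScalarTower Kb (RatFunc Kb) F'] [Algebra Kb[X] F']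
  [IsScalarTower Kb[X] (RatFunc Kb) F']
  (hx : ((algebraMap (RatFunc Kb) F' RatFunc.X : F') : LaurentSeries Kb) = S.j)

include hx in
/-- **Gauss property**: a polynomial in `j` is integral iff its coefficients are. -/
theorem isGauss : GaussInt95.IsGauss A (OF' S F' hF) := by
  intro p
  rw [mem_OF'_iff, coe_algebraMap_poly F' S.j hx]
  constructor
  · intro h i
    by_cases hp : p = 0
    · rw [hp, Polynomial.coeff_zero]; exact A.zero_mem
    obtain ⟨c, p₀, hc, hpp, hp₀⟩ := BridgeGauss15.exists_primitive_part A p hp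
    have hu := BridgeGauss15.rho_evalO_ne_zero A S.j S.hj S.ht hp₀
    have hmem : HahnSeries.C c * ((BridgeGauss15.evalO A S.j S.hj p₀ : O A) : LaurentSeries Kb) ∈
        O A := by
      rw [BridgeGauss15.coe_evalO, ← BridgeGauss15.algebraMap_eq_C, ← aeval_C (R := Kb) S.j c,
        ← map_mul, ← hpp]
      exact h
    have hcA : c ∈ A := Frame.const_mem_of_mem_O hc _ hu hmem
    rw [hpp, Polynomial.coeff_C_mul, Polynomial.coeff_map]
    exact A.mul_mem _ _ hcA (p₀.coeff i).2
  · intro h
    have hsub : (↑p.coeffs : Set Kb) ⊆ ↑A.toSubring := by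
      intro a ha
      rw [Finset.mem_coe, Polynomial.mem_coeffs_iff] at ha
      obtain ⟨n, -, rfl⟩ := ha
      exact h n
    have hp : p = (p.toSubring A.toSubring hsub).map A.subtype :=
      (Polynomial.map_toSubring p A.toSubring hsub).symm
    rw [hp, ← BridgeGauss15.coe_evalO A S.j S.hj]
    exact (BridgeGauss15.evalO A S.j S.hj _).2

/-- the frame elements as elements of `F'` -/
def xF' (i : ι) : F' := ⟨S.x i, hF ▸ S.hxF i⟩

theorem coe_xF' (i : ι) : ((xF' S F' hF i : F') : LaurentSeries Kb) = S.x i := rfl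

include hx in
theorem coe_sum_smul (a : ι → RatFunc Kb) :
    ((∑ i, a i • xF' S F' hF i : F') : LaurentSeries Kb) =
      ∑ i, ((algebraMap (RatFunc Kb) F' (a i) : F') : LaurentSeries Kb) * S.x i := by
  rw [show ((∑ i, a i • xF' S F' hF i : F') : LaurentSeries Kb) =
    F'.val (∑ i, a i • xF' S F' hF i) from rfl, map_sum]
  refine Finset.sum_congr rfl fun i _ => ?_
  rw [Algebra.smul_def, map_mul]
  rfl

include hx in
theorem linearIndependent_xF' : LinearIndependent (RatFunc Kb) (xF' S F' hF) := by
  rw [Fintype.linearIndependent_iff]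
  intro g hg i
  have h1 : ((∑ i, g i • xF' S F' hF i : F') : LaurentSeries Kb) = ((0 : F') : LaurentSeries Kb) :=
    congrArg (fun y : F' => (y : LaurentSeries Kb)) hg
  rw [coe_sum_smul S F' hF hx] at h1
  have h2 := S.toPreFrame.sum_eq_zero
    (fun i => ((algebraMap (RatFunc Kb) F' (g i) : F') : LaurentSeries Kb))
    (fun i => coe_algebraMap_rat_mem F' S.j hx (g i)) (by rw [h1]; rfl) i
  have h3 : algebraMap (RatFunc Kb) F' (g i) = 0 := Subtype.ext h2
  exact (map_eq_zero _).mp h3

include hx in
theorem span_xF' : ⊤ ≤ Submodule.span (RatFunc Kb) (Set.range (xF' S F' hF)) := by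
  intro y _
  have hy : (y : LaurentSeries Kb) ∈ S.F := hF ▸ y.2
  obtain ⟨c, hcj, hyc⟩ := S.hspan y hy
  choose r hr using fun i => exists_rat_of_mem_adjoin F' S.j hx (hcj i)
  have : y = ∑ i, r i • xF' S F' hF i := by
    apply Subtype.ext
    rw [coe_sum_smul S F' hF hx, hyc]
    exact Finset.sum_congr rfl fun i _ => by rw [hr i]
  rw [this]
  exact Submodule.sum_mem _ fun i _ =>
    Submodule.smul_mem _ _ (Submodule.subset_span ⟨i, rfl⟩)

/-- the frame as a `RatFunc Kb`-basis of `F'` -/
def frameBasis : Module.Basis ι (RatFunc Kb) F' :=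
  Module.Basis.mk (linearIndependent_xF' S F' hF hx) (span_xF' S F' hF hx)

theorem frameBasis_apply (i : ι) : frameBasis S F' hF hx i = xF' S F' hF i := by
  rw [frameBasis, Module.Basis.mk_apply]

/-- **orthonormality** of the frame basis -/
theorem isOrtho : GaussInt95.IsOrtho (OF' S F' hF) (frameBasis S F' hF hx) := by
  intro a
  have h1 : (∑ i, a i • frameBasis S F' hF hx i) = ∑ i, a i • xF' S F' hF i :=
    Finset.sum_congr rfl fun i _ => by rw [frameBasis_apply]
  rw [h1, mem_OF'_iff, coe_sum_smul S F' hF hx]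
  exact S.sum_mem_O_iff _ (fun i => coe_algebraMap_rat_mem F' S.j hx (a i))

/-! ### the residue map into a subfield of `k((q))` -/

variable (Fbar : IntermediateField (kA A) (LaurentSeries (kA A)))
  (hrange : ∀ y : OF' S F' hF, rhoF' S F' hF y ∈ Fbar)

/-- the residue map with values in `Fbar` -/
def redTo : OF' S F' hF →+* Fbar :=
  (rhoF' S F' hF).codRestrict Fbar.toSubfield.toSubring hrange

theorem coe_redTo (y : OF' S F' hF) :
    ((redTo S F' hF Fbar hrange y : Fbar) : LaurentSeries (kA A)) = rhoF' S F' hF y := rfl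

variable [Algebra (RatFunc (kA A)) Fbar] [IsScalarTower (kA A) (RatFunc (kA A)) Fbar]
  [Algebra (kA A)[X] Fbar] [IsScalarTower (kA A)[X] (RatFunc (kA A)) Fbar]
  (hxb : ((algebraMap (RatFunc (kA A)) Fbar RatFunc.X : Fbar) : LaurentSeries (kA A)) = S.t)

include hx hxb in
/-- **compatibility of the residue map with reduction of polynomials** -/
theorem redCompat :
    GaussInt95.RedCompat (IsLocalRing.residue A) (redTo S F' hF Fbar hrange) := by
  intro p h
  apply Subtype.ext
  rw [coe_redTo, coe_algebraMap_poly Fbar S.t hxb, rhoF'_apply]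
  have h1 : (⟨((⟨GaussInt95.polyToF A F' p, h⟩ : OF' S F' hF) : F'),
      (mem_OF'_iff S F' hF _).1 h⟩ : O A) = BridgeGauss15.evalO A S.j S.hj p := by
    apply Subtype.ext
    show ((GaussInt95.polyToF A F' p : F') : LaurentSeries Kb) = _
    rw [BridgeGauss15.coe_evalO, GaussInt95.polyToF, RingHom.comp_apply,
      coe_algebraMap_poly F' S.j hx]
    rfl
  rw [h1, BridgeGauss15.rho_evalO]
  rfl

end Frame

end Fermat.Agent.S18.GaussM29
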