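/-
S18 moonshot (blueprint 14), package [RIEMANN]-ABS (helper12).

Riemann's theorem (Stichtenoth 1.4.14-1.4.17) over the Prelude `Place`/`Divisor` API, in ANY
characteristic, with the function-field facts of package [FF] as explicit hypotheses.

* `LSpace G : Submodule K F` is the Riemann-Roch space `L(G) = {y | y = 0 ∨ div y + G ≥ 0}`;
* `ell G = finrank K (LSpace G)`;
* `divOf f` is the principal divisor of `f` (from `HasPrincipalDivisors`);
* `ell_add_single_le` : `ℓ(G + P) ≤ ℓ(G) + deg P` (proved here from the Place API);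
* `IsRiemannGenus g` : `ℓ(G) ≥ deg G + 1 - g` for all `G`, with equality for `deg G ≥ c`;
* `exists_isRiemannGenus` : existence, from finiteness of `L(0)`, finite residue fields and ONE
  lower bound `ℓ(rB + C) ≥ (r+1) deg B` (the content of `deg (x)_∞ ≥ [F:K(x)]`);
* uniqueness, `0 ≤ g` when `ℓ(0) = 1`, detection of `g` from `ℓ(rB)` for large `r`,
  and the sum decomposition `L(G₁) + L(G₂) = L(max(G₁,G₂))` when `deg min(G₁,G₂) ≥ c`.
-/
import Mathlib
import Fermat.Agent.S24.FF.PlaceBasic
import Fermat.Prelude.Def_AlgebraicCurve_Repartitions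

set_option autoImplicit false
set_option linter.style.haveILetI false
set_option linter.unusedSimpArgs false

open AlgebraicCurve

namespace Fermat.Agent.S18.Riemann12

open Fermat.Agent.S24.FF

variable {K F : Type*} [Field K] [Field F] [Algebra K F]

/-! ### The Riemann-Roch space `L(G)` -/

/-- The Riemann-Roch space `L(G) = {y | y = 0 ∨ ∀ v, 0 ≤ ord_v y + G v}`. -/
def LSpace (G : Divisor K F) : Submodule K F where
  carrier := {y | y = 0 ∨ ∀ v : Place K F, 0 ≤ v.ord y + G v}
  zero_mem' := Or.inl rfl
  add_mem' := by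
    rintro y z hy hz
    rcases eq_or_ne y 0 with rfl | hy0
    · simpa using hz
    rcases eq_or_ne z 0 with rfl | hz0
    · simpa using hy
    rcases eq_or_ne (y + z) 0 with h0 | h0
    · exact Or.inl h0
    refine Or.inr fun v => ?_
    have h1 := hy.resolve_left hy0 v
    have h2 := hz.resolve_left hz0 v
    have h3 := min_ord_le_ord_add v hy0 hz0 h0
    rcases min_le_iff.1 (le_refl (min (v.ord y) (v.ord z))) with h | h <;> omega
  smul_mem' := by
    rintro c y hy
    rcases eq_or_ne c 0 with rfl | hc
    · left; simp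
    rcases eq_or_ne y 0 with rfl | hy0
    · left; simp
    refine Or.inr fun v => ?_
    have h1 := hy.resolve_left hy0 v
    have hc' : algebraMap K F c ≠ 0 := by simpa using hc
    rw [Algebra.smul_def, v.ord_mul hc' hy0, ord_algebraMap]
    omega

theorem mem_LSpace {G : Divisor K F} {y : F} :
    y ∈ LSpace G ↔ y = 0 ∨ ∀ v : Place K F, 0 ≤ v.ord y + G v := Iff.rfl

theorem mem_LSpace_of_ne_zero {G : Divisor K F} {y : F} (hy : y ≠ 0) :
    y ∈ LSpace G ↔ ∀ v : Place K F, 0 ≤ v.ord y + G v := by
  rw [mem_LSpace]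
  exact ⟨fun h => h.resolve_left hy, Or.inr⟩

theorem LSpace_mono {G G' : Divisor K F} (h : G ≤ G') : LSpace G ≤ LSpace G' := by
  rintro y (rfl | hy)
  · exact Submodule.zero_mem _
  · exact Or.inr fun v => le_trans (hy v) (by have := h v; omega)

theorem LSpace_inf (G G' : Divisor K F) : LSpace (G ⊓ G') = LSpace G ⊓ LSpace G' := by
  ext y
  rcases eq_or_ne y 0 with rfl | hy
  · simp
  simp only [Submodule.mem_inf, mem_LSpace_of_ne_zero hy, Finsupp.inf_apply]
  constructor
  · intro h
    exact ⟨fun v => le_trans (h v) (by have := inf_le_left (a := G v) (b := G' v); omega),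
      fun v => le_trans (h v) (by have := inf_le_right (a := G v) (b := G' v); omega)⟩
  · rintro ⟨h1, h2⟩ v
    rcases le_total (G v) (G' v) with h | h
    · rw [inf_eq_left.2 h]; exact h1 v
    · rw [inf_eq_right.2 h]; exact h2 v

theorem LSpace_sup_le (G G' : Divisor K F) : LSpace G ⊔ LSpace G' ≤ LSpace (G ⊔ G') :=
  sup_le (LSpace_mono le_sup_left) (LSpace_mono le_sup_right)

/-- `LSpace` is the Prelude `riemannRochSpace`. -/
theorem LSpace_eq_riemannRochSpace (G : Divisor K F) : LSpace G = riemannRochSpace G := by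
  ext y
  rw [mem_LSpace, mem_riemannRochSpace_iff]
  constructor
  · rintro (rfl | h) v
    · exact Or.inl rfl
    · exact Or.inr (by have := h v; omega)
  · intro h
    by_cases hy : y = 0
    · exact Or.inl hy
    · exact Or.inr fun v => by have := (h v).resolve_left hy; omega

/-- `ℓ(G) = dim_K L(G)` (`0` if infinite-dimensional). -/
noncomputable def ell (G : Divisor K F) : ℕ := Module.finrank K (LSpace G)


/-! ### Principal divisors -/

section Principal

variable [HasPrincipalDivisors K F]

/-- The principal divisor of `f` (`0` for `f = 0`). -/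
noncomputable def divOf (f : F) : Divisor K F :=
  open Classical in
  if hf : f = 0 then 0 else (HasPrincipalDivisors.exists_divisor (K := K) f hf).choose

theorem divOf_zero : divOf (0 : F) = (0 : Divisor K F) := by simp [divOf]

theorem divOf_apply {f : F} (hf : f ≠ 0) (v : Place K F) : (divOf f : Divisor K F) v = v.ord f := by
  rw [divOf, dif_neg hf]
  exact (HasPrincipalDivisors.exists_divisor (K := K) f hf).choose_spec.1 v

theorem degree_divOf (f : F) : Divisor.degree (divOf f : Divisor K F) = 0 := by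
  by_cases hf : f = 0
  · subst hf; rw [divOf_zero]; exact map_zero _
  · rw [divOf, dif_neg hf]
    exact (HasPrincipalDivisors.exists_divisor (K := K) f hf).choose_spec.2

theorem divOf_mul {f g : F} (hf : f ≠ 0) (hg : g ≠ 0) :
    (divOf (f * g) : Divisor K F) = divOf f + divOf g := by
  ext v
  rw [Finsupp.add_apply, divOf_apply (mul_ne_zero hf hg), divOf_apply hf, divOf_apply hg,
    v.ord_mul hf hg]

theorem divOf_inv (f : F) : (divOf f⁻¹ : Divisor K F) = -divOf f := by
  by_cases hf : f = 0
  · subst hf; simp [divOf_zero]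
  ext v
  rw [Finsupp.neg_apply, divOf_apply (inv_ne_zero hf), divOf_apply hf, v.ord_inv]

/-- `y ≠ 0` lies in `L(G)` iff `G + div y ≥ 0`. -/
theorem mem_LSpace_iff_divOf {G : Divisor K F} {y : F} (hy : y ≠ 0) :
    y ∈ LSpace G ↔ 0 ≤ G + divOf y := by
  rw [mem_LSpace_of_ne_zero hy, Finsupp.le_def]
  refine forall_congr' fun v => ?_
  rw [Finsupp.add_apply, divOf_apply hy, Finsupp.zero_apply, add_comm]

/-- Multiplication by `z ≠ 0` is an isomorphism `L(G + div z) ≃ L(G)`. -/
noncomputable def mulEquiv (G : Divisor K F) {z : F} (hz : z ≠ 0) :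
    LSpace (G + divOf z) ≃ₗ[K] LSpace G where
  toFun y := ⟨(y : F) * z, by
    rcases y with ⟨y, rfl | hy⟩
    · left; simp
    · rcases eq_or_ne y 0 with rfl | hy0
      · left; simp
      refine Or.inr fun v => ?_
      have := hy v
      rw [Finsupp.add_apply, divOf_apply hz] at this
      rw [v.ord_mul hy0 hz]
      omega⟩
  invFun y := ⟨(y : F) * z⁻¹, by
    rcases y with ⟨y, rfl | hy⟩
    · left; simp
    · rcases eq_or_ne y 0 with rfl | hy0
      · left; simp
      refine Or.inr fun v => ?_
      have := hy v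
      rw [Finsupp.add_apply, divOf_apply hz, v.ord_mul hy0 (inv_ne_zero hz), v.ord_inv]
      omega⟩
  map_add' y y' := by ext; simp [add_mul]
  map_smul' c y := by ext; simp [Algebra.smul_def, mul_assoc]
  left_inv y := by ext; simp [mul_assoc, hz]
  right_inv y := by ext; simp [mul_assoc, hz]

theorem ell_add_divOf (G : Divisor K F) {z : F} (hz : z ≠ 0) : ell (G + divOf z) = ell G :=
  (mulEquiv G hz).finrank_eq

theorem finite_add_divOf_iff (G : Divisor K F) {z : F} (hz : z ≠ 0) :
    Module.Finite K (LSpace (G + divOf z)) ↔ Module.Finite K (LSpace G) :=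
  ⟨fun _ => Module.Finite.equiv (mulEquiv G hz), fun _ => Module.Finite.equiv (mulEquiv G hz).symm⟩

end Principal


/-! ### The basic step `ℓ(G + P) ≤ ℓ(G) + deg P` -/

section Step

theorem mem_maximalIdeal_iff (v : Place K F) (a : v.toValuationSubring) :
    a ∈ IsLocalRing.maximalIdeal v.toValuationSubring ↔ (a : F) = 0 ∨ 0 < v.ord (a : F) := by
  rcases eq_or_ne (a : F) 0 with h0 | h0
  · have : a = 0 := Subtype.ext h0
    subst this
    simp
  have hnn : 0 ≤ v.ord (a : F) := (mem_iff_ord_nonneg v h0).1 a.2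
  have hunit : IsUnit a ↔ v.ord (a : F) = 0 := by
    rw [← v.adicValuation_coe_eq_one_iff, adicValuation_eq_exp_neg_ord v h0, ← WithZero.exp_zero,
      WithZero.exp_inj]
    omega
  rw [IsLocalRing.mem_maximalIdeal, mem_nonunits_iff, hunit]
  constructor
  · intro h; right; omega
  · rintro (h | h)
    · exact absurd h h0
    · omega

variable (G : Divisor K F) (v : Place K F)

/-- The "leading coefficient at `v`" map `L(G + v) → κ(v)`, `y ↦ (y π^(G v + 1)) mod 𝔪_v`,
into the valuation ring (before reduction). -/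
noncomputable def stepMapAux (π : v.toValuationSubring) (hπ : Irreducible π) :
    LSpace (G + Finsupp.single v 1) →ₗ[K] v.toValuationSubring where
  toFun y := ⟨(y : F) * (π : F) ^ (G v + 1), by
    rcases y with ⟨y, rfl | hy⟩
    · simp only [zero_mul]; exact zero_mem _
    · rcases eq_or_ne y 0 with rfl | hy0
      · simp only [zero_mul]; exact zero_mem _
      have hπF : (π : F) ≠ 0 := by
        simpa [ne_eq, ZeroMemClass.coe_eq_zero] using hπ.ne_zero
      have h := hy v
      rw [Finsupp.add_apply, Finsupp.single_eq_same] at h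
      refine (mem_iff_ord_nonneg v (mul_ne_zero hy0 (zpow_ne_zero _ hπF))).2 ?_
      rw [v.ord_mul hy0 (zpow_ne_zero _ hπF), v.ord_zpow, v.ord_coe_irreducible hπ]
      omega⟩
  map_add' y y' := by ext; simp [add_mul]
  map_smul' c y := by
    ext
    simp only [SetLike.val_smul, RingHom.id_apply]
    rw [Algebra.smul_def, Algebra.smul_def, mul_assoc]
    rfl

theorem stepMapAux_coe (π : v.toValuationSubring) (hπ : Irreducible π)
    (y : LSpace (G + Finsupp.single v 1)) :
    ((stepMapAux G v π hπ y : v.toValuationSubring) : F) = (y : F) * (π : F) ^ (G v + 1) := rfl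

/-- The map `L(G + v) → κ(v)`. -/
noncomputable def stepMap (π : v.toValuationSubring) (hπ : Irreducible π) :
    LSpace (G + Finsupp.single v 1) →ₗ[K] v.ResidueField :=
  (IsScalarTower.toAlgHom K v.toValuationSubring v.ResidueField).toLinearMap ∘ₗ
    stepMapAux G v π hπ

theorem stepMap_eq_zero_iff (π : v.toValuationSubring) (hπ : Irreducible π)
    (y : LSpace (G + Finsupp.single v 1)) :
    stepMap G v π hπ y = 0 ↔ (y : F) ∈ LSpace G := by
  have hπF : (π : F) ≠ 0 := by
    simpa [ne_eq, ZeroMemClass.coe_eq_zero] using hπ.ne_zero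
  have h1 : stepMap G v π hπ y = IsLocalRing.residue _ (stepMapAux G v π hπ y) := rfl
  rw [h1, IsLocalRing.residue_eq_zero_iff, mem_maximalIdeal_iff, stepMapAux_coe]
  rcases y with ⟨y, hy⟩
  rcases eq_or_ne y 0 with rfl | hy0
  · simp
  have hy' := (mem_LSpace_of_ne_zero hy0).1 hy
  simp only [mul_eq_zero, hy0, zpow_ne_zero _ hπF, or_self, false_or]
  rw [v.ord_mul hy0 (zpow_ne_zero _ hπF), v.ord_zpow, v.ord_coe_irreducible hπ,
    mem_LSpace_of_ne_zero hy0]
  constructor
  · intro h w
    by_cases hw : w = v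
    · subst hw; omega
    · have := hy' w
      rwa [Finsupp.add_apply, Finsupp.single_eq_of_ne hw, add_zero] at this
  · intro h
    have := h v
    omega

theorem ker_stepMap (π : v.toValuationSubring) (hπ : Irreducible π) :
    LinearMap.ker (stepMap G v π hπ) =
      (LSpace G).comap (LSpace (G + Finsupp.single v 1)).subtype := by
  ext y
  rw [LinearMap.mem_ker, stepMap_eq_zero_iff]
  rfl

theorem le_add_single : G ≤ G + Finsupp.single v 1 := by
  intro w
  rw [Finsupp.add_apply]
  by_cases hw : w = v
  · subst hw; simp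
  · simp [Finsupp.single_eq_of_ne hw]

/-- **Basic step**: if `L(G)` and `κ(v)` are finite-dimensional, so is `L(G + v)`, and
`ℓ(G + v) ≤ ℓ(G) + deg v`. -/
theorem finite_and_ell_add_single_le [Module.Finite K v.ResidueField]
    [Module.Finite K (LSpace G)] :
    Module.Finite K (LSpace (G + Finsupp.single v 1)) ∧
      ell (G + Finsupp.single v 1) ≤ ell G + v.deg := by
  obtain ⟨π, hπ⟩ := IsDiscreteValuationRing.exists_irreducible v.toValuationSubring
  set φ := stepMap G v π hπ
  have hle : LSpace G ≤ LSpace (G + Finsupp.single v 1) := LSpace_mono (le_add_single G v)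
  let e : (LSpace G).comap (LSpace (G + Finsupp.single v 1)).subtype ≃ₗ[K] LSpace G :=
    Submodule.comapSubtypeEquivOfLe hle
  have hker : LinearMap.ker φ = (LSpace G).comap (LSpace (G + Finsupp.single v 1)).subtype :=
    ker_stepMap G v π hπ
  haveI : Module.Finite K (LinearMap.ker φ) := by
    rw [hker]; exact Module.Finite.equiv e.symm
  haveI : Module.Finite K (LinearMap.range φ) := inferInstance
  haveI : Module.Finite K (LSpace (G + Finsupp.single v 1) ⧸ LinearMap.ker φ) :=
    Module.Finite.equiv φ.quotKerEquivRange.symm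
  haveI hfin : Module.Finite K (LSpace (G + Finsupp.single v 1)) :=
    Module.Finite.of_submodule_quotient (LinearMap.ker φ)
  refine ⟨hfin, ?_⟩
  have h1 := LinearMap.finrank_range_add_finrank_ker φ
  have h2 : Module.finrank K (LinearMap.ker φ) = ell G := by
    rw [hker]; exact e.finrank_eq
  have h3 : Module.finrank K (LinearMap.range φ) ≤ v.deg := Submodule.finrank_le _
  unfold ell at *
  omega

end Step


/-! ### Induction along `G ≤ G'` -/

section Induction

/-- Induction principle: a property that holds for `G` and is stable under adding a place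
holds for every `G' ≥ G`. -/
theorem induction_of_le {P : Divisor K F → Prop} (G : Divisor K F) (h0 : P G)
    (hstep : ∀ (G' : Divisor K F) (v : Place K F), G ≤ G' → P G' → P (G' + Finsupp.single v 1)) :
    ∀ G', G ≤ G' → P G' := by
  have key : ∀ E : Divisor K F, 0 ≤ E → P (G + E) := by
    intro E
    induction E using Finsupp.induction with
    | zero => intro _; simpa using h0
    | single_add a b f ha hb ih =>
      intro hE
      have hb0 : 0 ≤ b := by
        have := hE a
        rw [Finsupp.add_apply, Finsupp.single_eq_same, Finsupp.notMem_support_iff.1 ha] at this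
        simpa using this
      have hf0 : 0 ≤ f := by
        intro w
        have := hE w
        by_cases hw : w = a
        · subst hw; rw [Finsupp.notMem_support_iff.1 ha]; rfl
        · rwa [Finsupp.add_apply, Finsupp.single_eq_of_ne hw, zero_add] at this
      have hP := ih hf0
      -- add `b` copies of the place `a`
      have hnat : ∀ n : ℕ, P (G + f + Finsupp.single a (n : ℤ)) := by
        intro n
        induction n with
        | zero => simpa using hP
        | succ n ihn =>
          have hle : G ≤ G + f + Finsupp.single a (n : ℤ) := by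
            intro w
            have h1 := hf0 w
            have h2 : (0 : ℤ) ≤ (Finsupp.single a (n : ℤ) : Divisor K F) w := by
              by_cases hw : w = a
              · subst hw; simp
              · simp [Finsupp.single_eq_of_ne hw]
            simp only [Finsupp.add_apply, Finsupp.zero_apply] at h1 ⊢
            omega
          have := hstep _ a hle ihn
          have hE' : G + f + Finsupp.single a (n : ℤ) + Finsupp.single a 1 =
              G + f + Finsupp.single a ((n + 1 : ℕ) : ℤ) := by
            rw [add_assoc, ← Finsupp.single_add]; push_cast; rfl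
          rwa [hE'] at this
      have := hnat b.toNat
      rw [Int.toNat_of_nonneg hb0] at this
      have hE' : G + (Finsupp.single a b + f) = G + f + Finsupp.single a b := by abel
      rwa [hE']
  intro G' hG'
  have := key (G' - G) (sub_nonneg.2 hG')
  simpa using this

end Induction

/-! ### The facts of package [FF] and their first consequences -/

section Facts

variable [HasPrincipalDivisors K F]

variable (K F) in
/-- The function-field facts (package [FF]) that Riemann's theorem needs. -/
structure FFFacts : Prop where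
  /-- residue fields of places are finite over `K` -/
  finite_residue : ∀ v : Place K F, Module.Finite K v.ResidueField
  /-- `L(0)` is finite-dimensional -/
  finite_zero : Module.Finite K (LSpace (0 : Divisor K F))
  /-- one lower bound `ℓ(rB + C) ≥ (r+1) deg B` with `deg B > 0`
  (the content of `deg (x)_∞ ≥ [F : K(x)]`) -/
  lower : ∃ B C : Divisor K F, 0 < Divisor.degree B ∧
    ∀ r : ℕ, ((r : ℤ) + 1) * Divisor.degree B ≤ (ell ((r : ℤ) • B + C) : ℤ)

namespace FFFacts

variable (h : FFFacts K F)
include h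

omit h [HasPrincipalDivisors K F] in
theorem finite_of_le' {G G' : Divisor K F} (hle : G ≤ G') (_hG' : Module.Finite K (LSpace G')) :
    Module.Finite K (LSpace G) :=
  Module.Finite.of_injective (Submodule.inclusion (LSpace_mono hle))
    (Submodule.inclusion_injective _)

omit [HasPrincipalDivisors K F] in
/-- All Riemann-Roch spaces are finite-dimensional. -/
theorem finite_LSpace (G : Divisor K F) : Module.Finite K (LSpace G) := by
  have h1 : ∀ G', (G ⊓ 0) ≤ G' → Module.Finite K (LSpace G') := by
    refine induction_of_le (G ⊓ 0) ?_ ?_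
    · exact finite_of_le' inf_le_right h.finite_zero
    · intro G' v _ hG'
      haveI := hG'
      haveI := h.finite_residue v
      exact (finite_and_ell_add_single_le G' v).1
  exact h1 G inf_le_left

omit [HasPrincipalDivisors K F] in
/-- The defect `deg G - ℓ(G)` is monotone in `G`. -/
theorem defect_mono {G G' : Divisor K F} (hle : G ≤ G') :
    Divisor.degree G - (ell G : ℤ) ≤ Divisor.degree G' - (ell G' : ℤ) := by
  refine induction_of_le (P := fun G' => Divisor.degree G - (ell G : ℤ) ≤
    Divisor.degree G' - (ell G' : ℤ)) G le_rfl ?_ G' hle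
  intro G' v _ ih
  haveI := h.finite_LSpace G'
  haveI := h.finite_residue v
  have h1 := (finite_and_ell_add_single_le G' v).2
  rw [map_add, Divisor.degree_single]
  have h2 : ((ell (G' + Finsupp.single v 1) : ℕ) : ℤ) ≤ (ell G' : ℤ) + (v.deg : ℤ) := by
    exact_mod_cast h1
  omega

omit [HasPrincipalDivisors K F] in
theorem ell_mono {G G' : Divisor K F} (hle : G ≤ G') : ell G ≤ ell G' := by
  haveI := h.finite_LSpace G'
  exact Submodule.finrank_mono (LSpace_mono hle)

omit [HasPrincipalDivisors K F] in
/-- `ℓ(G) > 0` gives a nonzero element of `L(G)`. -/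
theorem exists_ne_zero_of_ell_pos {G : Divisor K F} (hpos : 0 < ell G) :
    ∃ z : F, z ≠ 0 ∧ z ∈ LSpace G := by
  haveI := h.finite_LSpace G
  obtain ⟨z, hz⟩ := Module.finrank_pos_iff_exists_ne_zero.1 hpos
  exact ⟨z, fun h0 => hz (Subtype.ext h0), z.2⟩

omit h in
theorem defect_add_divOf (G : Divisor K F) {z : F} (hz : z ≠ 0) :
    Divisor.degree (G + divOf z) - (ell (G + divOf z) : ℤ) = Divisor.degree G - (ell G : ℤ) := by
  rw [map_add, degree_divOf, add_zero, ell_add_divOf G hz]

/-- **Stichtenoth 1.4.14**: the defect `deg G - ℓ(G)` is bounded above. -/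
theorem exists_defect_le : ∃ γ : ℤ, ∀ G : Divisor K F, Divisor.degree G - (ell G : ℤ) ≤ γ := by
  obtain ⟨B, C, hB, hlow⟩ := h.lower
  -- bound for the multiples of `B`
  have hrB : ∀ r : ℕ, Divisor.degree ((r : ℤ) • B) - (ell ((r : ℤ) • B) : ℤ) ≤
      Divisor.degree (C ⊔ 0) - Divisor.degree B := by
    intro r
    have h1 := h.defect_mono (G := (r : ℤ) • B) (G' := (r : ℤ) • B + (C ⊔ 0))
      (by intro w; have : (0 : ℤ) ≤ (C ⊔ 0) w := le_sup_right (a := C) (b := 0) w
          simp only [Finsupp.add_apply]; omega)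
    have h2 : ell ((r : ℤ) • B + C) ≤ ell ((r : ℤ) • B + (C ⊔ 0)) :=
      h.ell_mono (add_le_add_right le_sup_left _)
    have h3 := hlow r
    have h4 : ((ell ((r : ℤ) • B + C) : ℕ) : ℤ) ≤ (ell ((r : ℤ) • B + (C ⊔ 0)) : ℤ) := by
      exact_mod_cast h2
    rw [map_add, map_zsmul, smul_eq_mul] at h1
    rw [map_zsmul, smul_eq_mul]
    nlinarith
  refine ⟨Divisor.degree (C ⊔ 0) - Divisor.degree B, fun A => ?_⟩
  set γ := Divisor.degree (C ⊔ 0) - Divisor.degree B with hγ
  set A₁ := A ⊔ 0 with hA₁
  -- choose `r` large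
  obtain ⟨r, hr⟩ : ∃ r : ℕ, γ + Divisor.degree A₁ < (r : ℤ) * Divisor.degree B := by
    refine ⟨(γ + Divisor.degree A₁).toNat + 1, ?_⟩
    have h1 : γ + Divisor.degree A₁ ≤ ((γ + Divisor.degree A₁).toNat : ℤ) := Int.self_le_toNat _
    push_cast
    nlinarith
  have hA₁0 : (0 : Divisor K F) ≤ A₁ := le_sup_right
  have hle1 : (r : ℤ) • B - A₁ ≤ (r : ℤ) • B := by
    intro w
    have := hA₁0 w
    simp only [Finsupp.sub_apply, Finsupp.zero_apply] at this ⊢
    omega
  have h5 := h.defect_mono hle1
  have h6 := hrB r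
  rw [map_sub, map_zsmul, smul_eq_mul] at h5
  rw [map_zsmul, smul_eq_mul] at h6
  have hpos : 0 < ell ((r : ℤ) • B - A₁) := by
    have : (0 : ℤ) < (ell ((r : ℤ) • B - A₁) : ℤ) := by linarith
    exact_mod_cast this
  obtain ⟨z, hz0, hz⟩ := h.exists_ne_zero_of_ell_pos hpos
  rw [mem_LSpace_iff_divOf hz0] at hz
  have hD : A₁ + divOf z⁻¹ ≤ (r : ℤ) • B := by
    intro w
    have := hz w
    rw [divOf_inv]
    simp only [Finsupp.add_apply, Finsupp.sub_apply, Finsupp.neg_apply, Finsupp.zero_apply,
      Finsupp.smul_apply] at this ⊢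
    omega
  have h7 := h.defect_mono (G := A) (G' := A₁) le_sup_left
  have h8 := defect_add_divOf A₁ (inv_ne_zero hz0)
  have h9 := h.defect_mono hD
  rw [map_zsmul, smul_eq_mul] at h9
  linarith


end FFFacts

/-! ### The Riemann genus -/

/-- `g` is the Riemann genus of `F/K`: Riemann's inequality `ℓ(G) ≥ deg G + 1 - g` holds for
all divisors, with equality for all divisors of sufficiently large degree. -/
def IsRiemannGenus (K F : Type*) [Field K] [Field F] [Algebra K F] (g : ℤ) : Prop :=
  (∀ G : Divisor K F, Divisor.degree G + 1 - g ≤ (ell G : ℤ)) ∧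
    ∃ c : ℤ, ∀ G : Divisor K F, c ≤ Divisor.degree G → (ell G : ℤ) = Divisor.degree G + 1 - g

namespace FFFacts

variable (h : FFFacts K F)
include h

/-- **Riemann's theorem** (Stichtenoth 1.4.17): the Riemann genus exists. -/
theorem exists_isRiemannGenus : ∃ g : ℤ, IsRiemannGenus K F g := by
  obtain ⟨γ, hγ⟩ := h.exists_defect_le
  -- the maximal defect
  obtain ⟨d, ⟨G₀, hG₀⟩, hmax⟩ : ∃ d : ℤ, (∃ G : Divisor K F, Divisor.degree G - (ell G : ℤ) = d) ∧
      ∀ d' : ℤ, (∃ G : Divisor K F, Divisor.degree G - (ell G : ℤ) = d') → d' ≤ d := by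
    refine Int.exists_greatest_of_bdd ⟨γ, ?_⟩ ⟨_, 0, rfl⟩
    rintro d' ⟨G, rfl⟩
    exact hγ G
  refine ⟨d + 1, fun G => ?_, Divisor.degree G₀ + (d + 1), fun G hG => ?_⟩
  · have := hmax _ ⟨G, rfl⟩
    linarith
  · refine le_antisymm ?_ (by have := hmax _ ⟨G, rfl⟩; linarith)
    -- `ℓ(G - G₀) > 0`
    have h1 := hmax _ ⟨G - G₀, rfl⟩
    rw [map_sub] at h1
    have hpos : 0 < ell (G - G₀) := by
      have : (0 : ℤ) < (ell (G - G₀) : ℤ) := by linarith
      exact_mod_cast this
    obtain ⟨z, hz0, hz⟩ := h.exists_ne_zero_of_ell_pos hpos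
    rw [mem_LSpace_iff_divOf hz0] at hz
    have hle : G₀ ≤ G + divOf z := by
      intro w
      have := hz w
      simp only [Finsupp.add_apply, Finsupp.sub_apply, Finsupp.zero_apply] at this ⊢
      omega
    have h2 := h.defect_mono hle
    have h3 := defect_add_divOf G hz0
    linarith

end FFFacts

namespace IsRiemannGenus

variable {g g' : ℤ}

omit [HasPrincipalDivisors K F] in
theorem riemann (hg : IsRiemannGenus K F g) (G : Divisor K F) :
    Divisor.degree G + 1 - g ≤ (ell G : ℤ) := hg.1 G

omit [HasPrincipalDivisors K F] in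
/-- If `ℓ(0) = 1` (e.g. `K` algebraically closed in `F`) the genus is nonnegative. -/
theorem nonneg (hg : IsRiemannGenus K F g) (h0 : ell (0 : Divisor K F) = 1) : 0 ≤ g := by
  have := hg.1 0
  rw [map_zero, h0] at this
  push_cast at this
  linarith

omit [HasPrincipalDivisors K F] in
/-- Detecting the genus: if `ℓ(rB) = r deg B + 1 - g'` for arbitrarily large `r` (with
`deg B > 0`) then `g' = g`. -/
theorem eq_of_frequently {B : Divisor K F} (hB : 0 < Divisor.degree B)
    (hg : IsRiemannGenus K F g)
    (hfreq : ∀ N : ℕ, ∃ r : ℕ, N ≤ r ∧ (ell ((r : ℤ) • B) : ℤ) = (r : ℤ) * Divisor.degree B + 1 - g') :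
    g' = g := by
  obtain ⟨c, hc⟩ := hg.2
  obtain ⟨r, hr, hrl⟩ := hfreq c.toNat
  have h1 : c ≤ Divisor.degree ((r : ℤ) • B) := by
    rw [map_zsmul, smul_eq_mul]
    have h2 : c ≤ (c.toNat : ℤ) := Int.self_le_toNat c
    have h3 : ((c.toNat : ℕ) : ℤ) ≤ (r : ℤ) := by exact_mod_cast hr
    nlinarith
  have := hc _ h1
  rw [map_zsmul, smul_eq_mul] at this
  linarith

omit [HasPrincipalDivisors K F] in
/-- The Riemann genus is unique (as soon as there is a divisor of positive degree). -/
theorem unique {B : Divisor K F} (hB : 0 < Divisor.degree B)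
    (hg : IsRiemannGenus K F g) (hg' : IsRiemannGenus K F g') : g' = g := by
  obtain ⟨c', hc'⟩ := hg'.2
  refine eq_of_frequently hB hg fun N => ?_
  refine ⟨max N c'.toNat, le_max_left _ _, ?_⟩
  have h1 : c' ≤ Divisor.degree (((max N c'.toNat : ℕ) : ℤ) • B) := by
    rw [map_zsmul, smul_eq_mul]
    have h2 : c' ≤ (c'.toNat : ℤ) := Int.self_le_toNat c'
    have h3 : ((c'.toNat : ℕ) : ℤ) ≤ ((max N c'.toNat : ℕ) : ℤ) := by
      exact_mod_cast le_max_right _ _
    nlinarith
  have := hc' _ h1
  rw [map_zsmul, smul_eq_mul] at this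
  linarith

end IsRiemannGenus

/-- The Riemann genus of `F/K` (junk value `0` if it does not exist). -/
noncomputable def gR (K F : Type*) [Field K] [Field F] [Algebra K F] : ℤ :=
  open Classical in
  if h : ∃ g : ℤ, IsRiemannGenus K F g then h.choose else 0

theorem FFFacts.isRiemannGenus_gR (h : FFFacts K F) : IsRiemannGenus K F (gR K F) := by
  have hex := h.exists_isRiemannGenus
  rw [gR, dif_pos hex]
  exact hex.choose_spec

omit [HasPrincipalDivisors K F] in
theorem IsRiemannGenus.gR_eq {g : ℤ} {B : Divisor K F} (hB : 0 < Divisor.degree B)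
    (hg : IsRiemannGenus K F g) : gR K F = g := by
  have hex : ∃ g : ℤ, IsRiemannGenus K F g := ⟨g, hg⟩
  have h1 : IsRiemannGenus K F (gR K F) := by
    rw [gR, dif_pos hex]; exact hex.choose_spec
  exact IsRiemannGenus.unique hB hg h1

/-! ### Further consequences: degree bounds and the sum decomposition -/

omit [HasPrincipalDivisors K F] in
/-- `deg` is monotone. -/
theorem degree_mono {G G' : Divisor K F} (hle : G ≤ G') :
    Divisor.degree G ≤ Divisor.degree G' := by
  refine induction_of_le (P := fun G' => Divisor.degree G ≤ Divisor.degree G') G le_rfl ?_ G' hle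
  intro G' v _ ih
  rw [map_add, Divisor.degree_single]
  have : (0 : ℤ) ≤ (v.deg : ℤ) := Int.natCast_nonneg _
  linarith

/-- A nonzero element of `L(G)` forces `deg G ≥ 0`. -/
theorem degree_nonneg_of_mem {G : Divisor K F} {z : F} (hz0 : z ≠ 0) (hz : z ∈ LSpace G) :
    0 ≤ Divisor.degree G := by
  rw [mem_LSpace_iff_divOf hz0] at hz
  have := degree_mono hz
  rwa [map_zero, map_add, degree_divOf, add_zero] at this

/-- `L(G) = 0` for `deg G < 0`. -/
theorem LSpace_eq_bot_of_degree_neg {G : Divisor K F} (hG : Divisor.degree G < 0) :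
    LSpace G = ⊥ := by
  rw [Submodule.eq_bot_iff]
  intro z hz
  by_contra hz0
  have := degree_nonneg_of_mem hz0 hz
  omega

theorem ell_eq_zero_of_degree_neg {G : Divisor K F} (hG : Divisor.degree G < 0) : ell G = 0 := by
  unfold ell
  rw [LSpace_eq_bot_of_degree_neg hG]
  exact finrank_bot K F

namespace FFFacts

variable (h : FFFacts K F)
include h

/-- `ℓ(G) ≤ deg G + ℓ(0)` whenever `L(G) ≠ 0` (in particular `ℓ(G) ≤ deg G + 1` if `ℓ(0) = 1`). -/
theorem ell_le_degree_add (G : Divisor K F) (hG : 0 ≤ Divisor.degree G) :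
    (ell G : ℤ) ≤ Divisor.degree G + (ell (0 : Divisor K F) : ℤ) := by
  rcases Nat.eq_zero_or_pos (ell G) with h0 | hpos
  · rw [h0]; push_cast
    have : (0 : ℤ) ≤ (ell (0 : Divisor K F) : ℤ) := Int.natCast_nonneg _
    linarith
  obtain ⟨z, hz0, hz⟩ := h.exists_ne_zero_of_ell_pos hpos
  rw [mem_LSpace_iff_divOf hz0] at hz
  have h1 := h.defect_mono hz
  have h2 := defect_add_divOf G hz0
  rw [map_zero] at h1
  linarith

omit [HasPrincipalDivisors K F] in
/-- **Sum decomposition**: if Riemann's equality holds in degrees `≥ c` and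
`deg (G₁ ⊓ G₂) ≥ c`, then `L(G₁) + L(G₂) = L(G₁ ⊔ G₂)`. -/
theorem LSpace_sup_eq {g c : ℤ}
    (hc : ∀ G : Divisor K F, c ≤ Divisor.degree G → (ell G : ℤ) = Divisor.degree G + 1 - g)
    {G₁ G₂ : Divisor K F} (hdeg : c ≤ Divisor.degree (G₁ ⊓ G₂)) :
    LSpace G₁ ⊔ LSpace G₂ = LSpace (G₁ ⊔ G₂) := by
  haveI := h.finite_LSpace G₁
  haveI := h.finite_LSpace G₂
  haveI := h.finite_LSpace (G₁ ⊔ G₂)
  refine Submodule.eq_of_le_of_finrank_eq (LSpace_sup_le G₁ G₂) ?_
  have h1 := Submodule.finrank_sup_add_finrank_inf_eq (LSpace G₁) (LSpace G₂)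
  rw [← LSpace_inf] at h1
  have d1 : c ≤ Divisor.degree G₁ := le_trans hdeg (degree_mono inf_le_left)
  have d2 : c ≤ Divisor.degree G₂ := le_trans hdeg (degree_mono inf_le_right)
  have d3 : c ≤ Divisor.degree (G₁ ⊔ G₂) := le_trans d1 (degree_mono le_sup_left)
  have e1 := hc _ d1
  have e2 := hc _ d2
  have e3 := hc _ d3
  have e4 := hc _ hdeg
  have hsum : Divisor.degree (G₁ ⊓ G₂) + Divisor.degree (G₁ ⊔ G₂) =
      Divisor.degree G₁ + Divisor.degree G₂ := by
    rw [← map_add, ← map_add]
    congr 1
    ext v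
    simp [inf_add_sup]
  unfold ell at e1 e2 e3 e4
  have : ((Module.finrank K ↥(LSpace G₁ ⊔ LSpace G₂) : ℕ) : ℤ) =
      (Module.finrank K ↥(LSpace (G₁ ⊔ G₂)) : ℤ) := by
    have h1' : ((Module.finrank K ↥(LSpace G₁ ⊔ LSpace G₂) : ℕ) : ℤ) +
        (Module.finrank K ↥(LSpace (G₁ ⊓ G₂)) : ℤ) =
        (Module.finrank K ↥(LSpace G₁) : ℤ) + (Module.finrank K ↥(LSpace G₂) : ℤ) := by
      exact_mod_cast h1
    linarith
  exact_mod_cast this

end FFFacts

end Facts

end Fermat.Agent.S18.Riemann12
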