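/-
S18 / [GENUSEQ] (helper39): the genus comparison (O3) of blueprint 14, in the Dedekind–Weber
language (`DW63.dwGenus`, `RH92.gam2`, `RH92.cInf`).

* `gam2_eq` : `RH92.gam2 K F = 2 * dwGenus K F - 2` (any characteristic);
* `genus_le_of_tower` : **abstract (O3)**.  `κ` algebraically closed of ANY characteristic,
  `RatFunc κ ⊆ F₀ ⊆ F₁` finite separable.  Numbers `g c ψ ψ₀ c₀ : ℤ` (the characteristic-`0` data
  of the level `M` and of the base level `M₀ ∈ {4, 9}`) with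
    `6 (2 g - 2) = ψ - 6 c`            (char-0 Hurwitz count, `Char0Diff39.six_mul_gam2_FM`),
    `ψ₀ = 6 (c₀ - 2)`                  (base level has genus `0`: `Char0Num34.base_identity_*`),
    `[F₁ : κ(x)] = ψ`, `[F₀ : κ(x)] = ψ₀`  (degrees of the special fibres, S28/[BRIDGE]),
    `c₀ ≤ cInf F₀`                     ((C-BASE), helper3/helper78),
    `cInf F₁ + dwGenus F₁ ≤ c + g`     ((C-SEMI), helper3)
  give `g ≤ dwGenus F₁`.
* `dwGenus_FM_le` : the same with `g := dwGenus ℚ̄ F_M`, `c := cuspCount M`, `ψ := dedekindPsi M`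
  (the characteristic-`0` inputs discharged by `Char0Diff39` + `DW63`), i.e. exactly the field
  `genus` of `Level33.LevelData` once `(ub, db)` is a normal basis of `F₁ = F̄_M`
  (`DW63.dwGenus_eq`).
-/
import Fermat.Agent.S18.Char0Diff39
import Fermat.Agent.S18.DW63.Riemann
import Fermat.Agent.S18.RH92.RatFunc

set_option autoImplicit false
set_option linter.unusedSectionVars false
set_option synthInstance.maxHeartbeats 400000
set_option maxHeartbeats 1600000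

open Polynomial AlgebraicCurve IsDedekindDomain Module ModularCurve
open scoped Classical

noncomputable section

namespace Fermat.Agent.S18.GenusEq39

open Fermat.Agent.S20.NormalBasis (Oinf)
open Fermat.Agent.S20 Fermat.Agent.S20.T1 Fermat.Agent.S24
open Fermat.Agent.S18.DW63 Fermat.Agent.S18.RH92

section Single

variable (K F : Type*) [Field K] [IsAlgClosed K] [Field F] [Algebra K F] [Algebra (RatFunc K) F]
  [IsScalarTower K (RatFunc K) F] [Algebra K[X] F] [IsScalarTower K[X] (RatFunc K) F]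
  [FiniteDimensional (RatFunc K) F] [Algebra.IsSeparable (RatFunc K) F]

/-- `gam2 = 2 g - 2` for the Dedekind–Weber genus (any characteristic). -/
theorem gam2_eq : gam2 K F = 2 * (dwGenus K F : ℤ) - 2 := by
  rw [two_mul_dwGenus_sub_two_finrank (K := K) (F := F)]
  rfl

end Single

section Tower

variable (κ F₀ F₁ : Type*) [Field κ] [IsAlgClosed κ] [Field F₀] [Field F₁]
  [Algebra κ F₀] [Algebra (RatFunc κ) F₀] [IsScalarTower κ (RatFunc κ) F₀]
  [Algebra κ[X] F₀] [IsScalarTower κ[X] (RatFunc κ) F₀]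
  [Algebra κ F₁] [Algebra (RatFunc κ) F₁] [IsScalarTower κ (RatFunc κ) F₁]
  [Algebra κ[X] F₁] [IsScalarTower κ[X] (RatFunc κ) F₁]
  [Algebra F₀ F₁] [IsScalarTower (RatFunc κ) F₀ F₁]
  [FiniteDimensional (RatFunc κ) F₀] [Algebra.IsSeparable (RatFunc κ) F₀]
  [FiniteDimensional (RatFunc κ) F₁] [Algebra.IsSeparable (RatFunc κ) F₁]

/-- **(O3), abstract form.** -/
theorem genus_le_of_tower {g c ψ ψ₀ c₀ : ℤ}
    (hchar0 : 6 * (2 * g - 2) = ψ - 6 * c) (hbase0 : ψ₀ = 6 * (c₀ - 2))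
    (hn₁ : (finrank (RatFunc κ) F₁ : ℤ) = ψ) (hn₀ : (finrank (RatFunc κ) F₀ : ℤ) = ψ₀)
    (hbase : c₀ ≤ (cInf κ F₀ : ℤ))
    (hsemi : (cInf κ F₁ : ℤ) + (dwGenus κ F₁ : ℤ) ≤ c + g) :
    g ≤ (dwGenus κ F₁ : ℤ) := by
  have hRH := gam2_lower_bound κ F₀ F₁
  rw [gam2_eq, gam2_eq] at hRH
  have htower : (finrank (RatFunc κ) F₁ : ℤ) =
      (finrank (RatFunc κ) F₀ : ℤ) * (finrank F₀ F₁ : ℤ) := by
    exact_mod_cast (finrank_mul_finrank (RatFunc κ) F₀ F₁).symm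
  rw [hn₁, hn₀] at htower
  set d : ℤ := (finrank F₀ F₁ : ℤ) with hd
  have hd0 : 0 ≤ d := Int.natCast_nonneg _
  have hg0 : (0 : ℤ) ≤ (dwGenus κ F₀ : ℤ) := Int.natCast_nonneg _
  -- `d (c₀ - 2) ≤ d (2 ḡ₀ - 2 + c̄₀)`
  have h1 : d * (c₀ - 2) ≤ d * (2 * (dwGenus κ F₀ : ℤ) - 2 + (cInf κ F₀ : ℤ)) := by
    apply mul_le_mul_of_nonneg_left _ hd0
    linarith
  -- `ψ = 6 d (c₀ - 2)`
  have h2 : ψ = 6 * (d * (c₀ - 2)) := by
    rw [htower, hbase0]; ring
  linarith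

end Tower

section Concrete

variable (M : ℕ) [NeZero M]
variable [Algebra (RatFunc Kbar) (FN M)] [IsScalarTower Kbar (RatFunc Kbar) (FN M)]
  [Algebra Kbar[X] (FN M)] [IsScalarTower Kbar[X] (RatFunc Kbar) (FN M)]
  [FiniteDimensional (RatFunc Kbar) (FN M)]

instance isSeparable_FM : Algebra.IsSeparable (RatFunc Kbar) (FN M) := inferInstance

/-- The characteristic-`0` Hurwitz count for the Dedekind–Weber genus of `F_M`. -/
theorem six_mul_two_mul_dwGenus_FM (hx : xF Kbar (FN M) = jF M) (hM : 4 ∣ M ∨ 9 ∣ M) :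
    6 * (2 * (dwGenus Kbar (FN M) : ℤ) - 2) = (dedekindPsi M : ℤ) - 6 * cuspCount M := by
  rw [two_mul_dwGenus_sub_two_finrank (K := Kbar) (F := FN M), add_assoc]
  exact Char0Diff39.six_mul_gam2_FM M hx hM

variable (κ F₀ F₁ : Type*) [Field κ] [IsAlgClosed κ] [Field F₀] [Field F₁]
  [Algebra κ F₀] [Algebra (RatFunc κ) F₀] [IsScalarTower κ (RatFunc κ) F₀]
  [Algebra κ[X] F₀] [IsScalarTower κ[X] (RatFunc κ) F₀]
  [Algebra κ F₁] [Algebra (RatFunc κ) F₁] [IsScalarTower κ (RatFunc κ) F₁]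
  [Algebra κ[X] F₁] [IsScalarTower κ[X] (RatFunc κ) F₁]
  [Algebra F₀ F₁] [IsScalarTower (RatFunc κ) F₀ F₁]
  [FiniteDimensional (RatFunc κ) F₀] [Algebra.IsSeparable (RatFunc κ) F₀]
  [FiniteDimensional (RatFunc κ) F₁] [Algebra.IsSeparable (RatFunc κ) F₁]

/-- **(O3) for `F_M`**: the Dedekind–Weber genus of the special fibre `F₁ = F̄_M` is at least that
of the generic fibre `F_M`.  `M₀ ∈ {4, 9}` enters through `(ψ₀, c₀) = (6, 3)` or `(12, 4)`. -/
theorem dwGenus_FM_le (hx : xF Kbar (FN M) = jF M) (hM : 4 ∣ M ∨ 9 ∣ M) {ψ₀ c₀ : ℤ}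
    (hbase0 : ψ₀ = 6 * (c₀ - 2))
    (hn₁ : finrank (RatFunc κ) F₁ = dedekindPsi M) (hn₀ : (finrank (RatFunc κ) F₀ : ℤ) = ψ₀)
    (hbase : c₀ ≤ (cInf κ F₀ : ℤ))
    (hsemi : cInf κ F₁ + dwGenus κ F₁ ≤ cuspCount M + dwGenus Kbar (FN M)) :
    dwGenus Kbar (FN M) ≤ dwGenus κ F₁ := by
  have h := genus_le_of_tower κ F₀ F₁ (g := (dwGenus Kbar (FN M) : ℤ)) (c := (cuspCount M : ℤ))
    (ψ := (dedekindPsi M : ℤ)) (six_mul_two_mul_dwGenus_FM M hx hM) hbase0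
    (by exact_mod_cast hn₁) hn₀ hbase (by exact_mod_cast hsemi)
  exact_mod_cast h

/-- The two base levels. -/
theorem dwGenus_FM_le_four (hx : xF Kbar (FN M) = jF M) (hM : 4 ∣ M)
    (hn₁ : finrank (RatFunc κ) F₁ = dedekindPsi M) (hn₀ : finrank (RatFunc κ) F₀ = 6)
    (hbase : 3 ≤ cInf κ F₀)
    (hsemi : cInf κ F₁ + dwGenus κ F₁ ≤ cuspCount M + dwGenus Kbar (FN M)) :
    dwGenus Kbar (FN M) ≤ dwGenus κ F₁ :=
  dwGenus_FM_le M κ F₀ F₁ hx (Or.inl hM) (ψ₀ := 6) (c₀ := 3) (by norm_num) hn₁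
    (by exact_mod_cast hn₀) (by exact_mod_cast hbase) hsemi

theorem dwGenus_FM_le_nine (hx : xF Kbar (FN M) = jF M) (hM : 9 ∣ M)
    (hn₁ : finrank (RatFunc κ) F₁ = dedekindPsi M) (hn₀ : finrank (RatFunc κ) F₀ = 12)
    (hbase : 4 ≤ cInf κ F₀)
    (hsemi : cInf κ F₁ + dwGenus κ F₁ ≤ cuspCount M + dwGenus Kbar (FN M)) :
    dwGenus Kbar (FN M) ≤ dwGenus κ F₁ :=
  dwGenus_FM_le M κ F₀ F₁ hx (Or.inr hM) (ψ₀ := 12) (c₀ := 4) (by norm_num) hn₁
    (by exact_mod_cast hn₀) (by exact_mod_cast hbase) hsemi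

end Concrete

end Fermat.Agent.S18.GenusEq39
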