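/-
S18 / [GENUS] field of `Level33.LevelData` (helper39): the inequality
`γ ≤ ∑ i, db i - n + 1` with `γ := dwGenus ℚ̄ F_M` and `(u, d)` ANY Dedekind–Weber normal basis of the
special fibre `F₁ = F̄_M` indexed by `Fin n`.
-/
import Fermat.Agent.S18.GenusEq39

set_option autoImplicit false
set_option linter.unusedSectionVars false
set_option synthInstance.maxHeartbeats 400000
set_option maxHeartbeats 1600000

open Polynomial AlgebraicCurve IsDedekindDomain Module ModularCurve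
open scoped Classical

noncomputable section

namespace Fermat.Agent.S18.GenusField39

open Fermat.Agent.S20.NormalBasis (Oinf)
open Fermat.Agent.S20 Fermat.Agent.S20.T1 Fermat.Agent.S24
open Fermat.Agent.S20.LatticeDims (scaled)
open Fermat.Agent.S18.DW63 Fermat.Agent.S18.RH92 Fermat.Agent.S18.GenusEq39

variable (M : ℕ) [NeZero M]
variable [Algebra (RatFunc Kbar) (FN M)] [IsScalarTower Kbar (RatFunc Kbar) (FN M)]
  [Algebra Kbar[X] (FN M)] [IsScalarTower Kbar[X] (RatFunc Kbar) (FN M)]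
  [FiniteDimensional (RatFunc Kbar) (FN M)]

variable (κ F₀ F₁ : Type*) [Field κ] [IsAlgClosed κ] [Field F₀] [Field F₁]
  [Algebra κ F₀] [Algebra (RatFunc κ) F₀] [IsScalarTower κ (RatFunc κ) F₀]
  [Algebra κ[X] F₀] [IsScalarTower κ[X] (RatFunc κ) F₀]
  [Algebra κ F₁] [Algebra (RatFunc κ) F₁] [IsScalarTower κ (RatFunc κ) F₁]
  [Algebra κ[X] F₁] [IsScalarTower κ[X] (RatFunc κ) F₁]
  [Algebra F₀ F₁] [IsScalarTower (RatFunc κ) F₀ F₁]
  [FiniteDimensional (RatFunc κ) F₀] [Algebra.IsSeparable (RatFunc κ) F₀]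
  [FiniteDimensional (RatFunc κ) F₁] [Algebra.IsSeparable (RatFunc κ) F₁]

/-- The `genus` field of `Level33.LevelData`, general form. -/
theorem genus_field {n : ℕ} (u : Basis (Fin n) (RatFunc κ) F₁) (d : Fin n → ℤ)
    (hu : Submodule.span κ[X] (Set.range u) = Subalgebra.toSubmodule (Bfin κ F₁))
    (hd : Submodule.span (Oinf κ) (Set.range (scaled u d)) = Subalgebra.toSubmodule (Binf κ F₁))
    (hle : dwGenus Kbar (FN M) ≤ dwGenus κ F₁) :
    (dwGenus Kbar (FN M) : ℤ) ≤ ∑ i, d i - n + 1 := by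
  have h1 := dwGenus_eq (K := κ) (F := F₁) u d hu hd
  have h2 : finrank (RatFunc κ) F₁ = n := by
    rw [Module.finrank_eq_card_basis u, Fintype.card_fin]
  rw [h2] at h1
  rw [← h1]
  exact_mod_cast hle

/-- `4 ∣ M` (ℓ odd). -/
theorem genus_field_four {n : ℕ} (u : Basis (Fin n) (RatFunc κ) F₁) (d : Fin n → ℤ)
    (hu : Submodule.span κ[X] (Set.range u) = Subalgebra.toSubmodule (Bfin κ F₁))
    (hd : Submodule.span (Oinf κ) (Set.range (scaled u d)) = Subalgebra.toSubmodule (Binf κ F₁))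
    (hx : xF Kbar (FN M) = jF M) (hM : 4 ∣ M)
    (hn₁ : finrank (RatFunc κ) F₁ = dedekindPsi M) (hn₀ : finrank (RatFunc κ) F₀ = 6)
    (hbase : 3 ≤ cInf κ F₀)
    (hsemi : cInf κ F₁ + dwGenus κ F₁ ≤ cuspCount M + dwGenus Kbar (FN M)) :
    (dwGenus Kbar (FN M) : ℤ) ≤ ∑ i, d i - n + 1 :=
  genus_field M κ F₁ u d hu hd (dwGenus_FM_le_four M κ F₀ F₁ hx hM hn₁ hn₀ hbase hsemi)

/-- `9 ∣ M` (ℓ = 2). -/
theorem genus_field_nine {n : ℕ} (u : Basis (Fin n) (RatFunc κ) F₁) (d : Fin n → ℤ)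
    (hu : Submodule.span κ[X] (Set.range u) = Subalgebra.toSubmodule (Bfin κ F₁))
    (hd : Submodule.span (Oinf κ) (Set.range (scaled u d)) = Subalgebra.toSubmodule (Binf κ F₁))
    (hx : xF Kbar (FN M) = jF M) (hM : 9 ∣ M)
    (hn₁ : finrank (RatFunc κ) F₁ = dedekindPsi M) (hn₀ : finrank (RatFunc κ) F₀ = 12)
    (hbase : 4 ≤ cInf κ F₀)
    (hsemi : cInf κ F₁ + dwGenus κ F₁ ≤ cuspCount M + dwGenus Kbar (FN M)) :
    (dwGenus Kbar (FN M) : ℤ) ≤ ∑ i, d i - n + 1 :=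
  genus_field M κ F₁ u d hu hd (dwGenus_FM_le_nine M κ F₀ F₁ hx hM hn₁ hn₀ hbase hsemi)

end Fermat.Agent.S18.GenusField39
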