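/-
S18 / Spine33 report #1361 (6b), package [LBAR] (helper95).

PLACE-FREE special fibre from a Dedekind–Weber normal basis.  `k` any field, `V` a
finite-dimensional `RatFunc k`-vector space with a basis `u` and integers `d i`
(in the application `V = F̄`, `span k[X] u = B_fin`, `span O_∞ (X ^ (-d i) • u i) = B_∞`).

`Lbar u d a b` = the `k`-span of `X ^ e • u i` with `-b ≤ e ≤ a - d i`
               = `{v | X ^ b • v ∈ span k[X] u ∧ X ^ (-a) • v ∈ span O_∞ (X ^ (-d i) • u i)}`
               = `L̄(a Ē + b Ē')`.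
-/
import Mathlib
import Fermat.Agent.S20.LatticeDims
import Fermat.Agent.S18.GaussInt95

set_option autoImplicit false
set_option linter.unusedSectionVars false

open Polynomial Module
open scoped Classical

noncomputable section

namespace Fermat.Agent.S18.LBar95

open Fermat.Agent.S20.LatticeDims

variable {k : Type*} [Field k]

local notation "Xk" => (RatFunc.X : RatFunc k)

section Basic

variable {ι : Type*} {V : Type*} [AddCommGroup V] [Module (RatFunc k) V]
  [Module k V] [IsScalarTower k (RatFunc k) V]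

/-- `L̄(a Ē + b Ē')` in coordinates: the `i`-th coordinate is `X ^ (-b)` times a polynomial of
degree `≤ a + b - d i`. -/
def Lbar (u : Basis ι (RatFunc k) V) (d : ι → ℤ) (a b : ℤ) : Submodule k V where
  carrier := {v | ∀ i, Xk ^ b * u.repr v i ∈ coordSpace (k := k) (d i - a - b)}
  zero_mem' := fun i => by simp
  add_mem' := fun {v w} hv hw i => by
    have : Xk ^ b * u.repr (v + w) i = Xk ^ b * u.repr v i + Xk ^ b * u.repr w i := by
      rw [map_add, Finsupp.add_apply, mul_add]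
    rw [this]
    exact add_mem (hv i) (hw i)
  smul_mem' := fun c v hv i => by
    have h : Xk ^ b * u.repr (c • v) i = c • (Xk ^ b * u.repr v i) := by
      rw [← algebraMap_smul (RatFunc k) c v, map_smul, Finsupp.smul_apply, smul_eq_mul,
        Algebra.smul_def]
      ring
    rw [h]
    exact Submodule.smul_mem _ c (hv i)

theorem mem_Lbar {u : Basis ι (RatFunc k) V} {d : ι → ℤ} {a b : ℤ} {v : V} :
    v ∈ Lbar u d a b ↔ ∀ i, Xk ^ b * u.repr v i ∈ coordSpace (k := k) (d i - a - b) := Iff.rfl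

theorem repr_X_zpow_smul (u : Basis ι (RatFunc k) V) (e : ℤ) (v : V) (i : ι) :
    u.repr (Xk ^ e • v) i = Xk ^ e * u.repr v i := by
  rw [map_smul, Finsupp.smul_apply, smul_eq_mul]

/-- `v ∈ L̄(a,b)` iff `X ^ b • v` lies in the lattice intersection for `d - a - b`. -/
theorem mem_Lbar_iff_latticeInter {u : Basis ι (RatFunc k) V} {d : ι → ℤ} {a b : ℤ} {v : V} :
    v ∈ Lbar u d a b ↔ Xk ^ b • v ∈ latticeInter u (fun i => d i - a - b) := by
  rw [mem_Lbar, mem_latticeInter]
  simp only [repr_X_zpow_smul]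

theorem Lbar_mono {u : Basis ι (RatFunc k) V} {d : ι → ℤ} {a a' b b' : ℤ} (ha : a ≤ a')
    (hb : b ≤ b') : Lbar u d a b ≤ Lbar u d a' b' := by
  intro v hv i
  have h := hv i
  rw [mem_coordSpace] at h ⊢
  obtain ⟨⟨p, hp⟩, hdeg⟩ := h
  have hXb : Xk ^ b' * u.repr v i = Xk ^ (b' - b) * (Xk ^ b * u.repr v i) := by
    rw [← mul_assoc, ← zpow_add₀ RatFunc.X_ne_zero]; congr 2; ring
  have hnat : Xk ^ (b' - b) = algebraMap k[X] (RatFunc k) (X ^ (b' - b).toNat) := by
    rw [map_pow, RatFunc.algebraMap_X, ← zpow_natCast, Int.toNat_of_nonneg (by omega)]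
  refine ⟨⟨X ^ (b' - b).toNat * p, ?_⟩, ?_⟩
  · rw [hXb, map_mul, hp, hnat]
  · rcases hdeg with h0 | hdeg
    · left; rw [hXb, h0, mul_zero]
    · by_cases h0 : Xk ^ b * u.repr v i = 0
      · left; rw [hXb, h0, mul_zero]
      · right
        rw [hXb, RatFunc.intDegree_mul (X_zpow_ne_zero _) h0, intDegree_X_zpow]
        omega

end Basic

/-! ### The monomial `k`-basis description -/

section Span

variable {ι : Type*} {V : Type*} [AddCommGroup V] [Module (RatFunc k) V]
  [Module k V] [IsScalarTower k (RatFunc k) V]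

/-- The index window of `L̄(a,b)`: pairs `(i, e)` with `-b ≤ e ≤ a - d i`. -/
def idx (d : ι → ℤ) (a b : ℤ) : Set (ι × ℤ) := {p | -b ≤ p.2 ∧ p.2 ≤ a - d p.1}

/-- The monomial family `X ^ e • u i`. -/
def gen (u : Basis ι (RatFunc k) V) (p : ι × ℤ) : V := Xk ^ p.2 • u p.1

theorem X_zpow_eq_algebraMap {n : ℤ} (hn : 0 ≤ n) :
    Xk ^ n = algebraMap k[X] (RatFunc k) (X ^ n.toNat) := by
  rw [map_pow, RatFunc.algebraMap_X, ← zpow_natCast, Int.toNat_of_nonneg hn]

theorem gen_mem_Lbar (u : Basis ι (RatFunc k) V) (d : ι → ℤ) {a b : ℤ} {p : ι × ℤ}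
    (hp : p ∈ idx d a b) : gen u p ∈ Lbar u d a b := by
  obtain ⟨i, e⟩ := p
  obtain ⟨h1, h2⟩ := hp
  simp only at h1 h2
  intro j
  rw [gen, repr_X_zpow_smul, Basis.repr_self, Finsupp.single_apply]
  by_cases hij : i = j
  · subst hij
    rw [if_pos rfl, mul_one, ← zpow_add₀ RatFunc.X_ne_zero, mem_coordSpace]
    refine ⟨⟨X ^ (b + e).toNat, (X_zpow_eq_algebraMap (by omega)).symm⟩, Or.inr ?_⟩
    rw [intDegree_X_zpow]
    omega
  · rw [if_neg hij, mul_zero, mul_zero]
    exact Submodule.zero_mem _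

theorem smul_mem_span_of_coord [Fintype ι] (u : Basis ι (RatFunc k) V) (d : ι → ℤ) (a b : ℤ)
    (i : ι) (r : RatFunc k) (hr : Xk ^ b * r ∈ coordSpace (k := k) (d i - a - b)) :
    r • u i ∈ Submodule.span k (gen u '' idx d a b) := by
  obtain ⟨q, hq, hqr⟩ := hr
  rw [SetLike.mem_coe, mem_degreeLT] at hq
  have hqr' : algebraMap k[X] (RatFunc k) q = Xk ^ b * r := hqr
  have hr' : r = Xk ^ (-b) * algebraMap k[X] (RatFunc k) q := by
    rw [hqr', ← mul_assoc, ← zpow_add₀ RatFunc.X_ne_zero, neg_add_cancel, zpow_zero, one_mul]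
  set n := (1 - (d i - a - b)).toNat with hn
  have hqsum : q = ∑ j ∈ Finset.range n, monomial j (q.coeff j) := by
    by_cases hq0 : q = 0
    · simp [hq0]
    apply as_sum_range'
    rw [degree_eq_natDegree hq0] at hq
    exact_mod_cast hq
  rw [hr', hqsum, map_sum, Finset.mul_sum, Finset.sum_smul]
  refine Submodule.sum_mem _ fun j hj => ?_
  have hjn : j < n := Finset.mem_range.mp hj
  have hterm : (Xk ^ (-b) * algebraMap k[X] (RatFunc k) (monomial j (q.coeff j))) • u i =
      q.coeff j • gen u (i, (j : ℤ) - b) := by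
    rw [← C_mul_X_pow_eq_monomial, map_mul, map_pow, RatFunc.algebraMap_X, RatFunc.algebraMap_C,
      gen, ← algebraMap_smul (RatFunc k) (q.coeff j), smul_smul, RatFunc.algebraMap_eq_C]
    congr 1
    rw [sub_eq_add_neg, zpow_add₀ RatFunc.X_ne_zero, zpow_natCast]
    ring
  rw [hterm]
  refine Submodule.smul_mem _ _ (Submodule.subset_span ⟨(i, (j : ℤ) - b), ⟨?_, ?_⟩, rfl⟩)
  · simp only; omega
  · simp only; omega

/-- `L̄(a,b)` is the `k`-span of the monomials `X ^ e • u i`, `-b ≤ e ≤ a - d i`. -/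
theorem Lbar_eq_span [Fintype ι] (u : Basis ι (RatFunc k) V) (d : ι → ℤ) (a b : ℤ) :
    Lbar u d a b = Submodule.span k (gen u '' idx d a b) := by
  apply le_antisymm
  · intro v hv
    rw [← u.sum_repr v]
    exact Submodule.sum_mem _ fun i _ => smul_mem_span_of_coord u d a b i _ (hv i)
  · rw [Submodule.span_le]
    rintro _ ⟨p, hp, rfl⟩
    exact gen_mem_Lbar u d hp

/-- **Čech / truncation identity on the special fibre.**  If `d i - 1 ≤ a, b` for all `i` and
`a ≤ a'`, `b ≤ b'`, then `L̄(a',b') ≤ L̄(a,b) + L̄(a',0) + L̄(0,b')`. -/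
theorem cech [Fintype ι] (u : Basis ι (RatFunc k) V) (d : ι → ℤ) {a a' b b' : ℤ}
    (hda : ∀ i, d i - 1 ≤ a) (hdb : ∀ i, d i - 1 ≤ b) (ha : a ≤ a') (hb : b ≤ b') :
    Lbar u d a' b' ≤ Lbar u d a b ⊔ Lbar u d a' 0 ⊔ Lbar u d 0 b' := by
  simp only [Lbar_eq_span]
  rw [← Submodule.span_union, ← Submodule.span_union, ← Set.image_union, ← Set.image_union]
  apply Submodule.span_mono
  apply Set.image_mono
  rintro ⟨i, e⟩ ⟨h1, h2⟩
  simp only at h1 h2
  have := hda i
  have := hdb i
  by_cases he0 : 0 ≤ e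
  · exact Or.inl (Or.inr ⟨by simp only; omega, by simp only; omega⟩)
  · by_cases he1 : e ≤ -d i
    · exact Or.inr ⟨by simp only; omega, by simp only; omega⟩
    · exact Or.inl (Or.inl ⟨by simp only; omega, by simp only; omega⟩)

end Span

/-! ### Dimension -/

section Dim

variable {ι : Type*} [Fintype ι] {V : Type*} [AddCommGroup V] [Module (RatFunc k) V]
  [Module k V] [IsScalarTower k (RatFunc k) V]

/-- Multiplication by `X ^ b` as a `k`-linear automorphism. -/
def smulX (V : Type*) [AddCommGroup V] [Module (RatFunc k) V]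
    [Module k V] [IsScalarTower k (RatFunc k) V] (b : ℤ) : V ≃ₗ[k] V :=
  (LinearEquiv.smulOfNeZero (RatFunc k) V (Xk ^ b) (X_zpow_ne_zero b)).restrictScalars k

theorem smulX_apply (b : ℤ) (v : V) : smulX (k := k) V b v = Xk ^ b • v := rfl

theorem Lbar_eq_comap (u : Basis ι (RatFunc k) V) (d : ι → ℤ) (a b : ℤ) :
    Lbar u d a b =
      (latticeInter u (fun i => d i - a - b)).comap (smulX (k := k) V b).toLinearMap := by
  ext v
  exact mem_Lbar_iff_latticeInter

/-- `L̄(a,b) ≃ latticeInter u (d - a - b)`, `v ↦ X ^ b • v`. -/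
def LbarEquiv (u : Basis ι (RatFunc k) V) (d : ι → ℤ) (a b : ℤ) :
    Lbar u d a b ≃ₗ[k] latticeInter u (fun i => d i - a - b) :=
  (LinearEquiv.ofEq _ _ (Lbar_eq_comap u d a b)).trans
    (LinearEquiv.ofSubmodule' (smulX (k := k) V b) _)

/-- `dim_k L̄(a,b) = Σ_i max (0, a + b - d i + 1)`. -/
theorem finrank_Lbar (u : Basis ι (RatFunc k) V) (d : ι → ℤ) (a b : ℤ) :
    finrank k (Lbar u d a b) = ∑ i, (a + b - d i + 1).toNat := by
  rw [(LbarEquiv u d a b).finrank_eq, finrank_latticeInter]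
  refine Finset.sum_congr rfl fun i _ => ?_
  congr 1
  ring

instance finite_Lbar (u : Basis ι (RatFunc k) V) (d : ι → ℤ) (a b : ℤ) :
    Module.Finite k (Lbar u d a b) :=
  Module.Finite.equiv (LbarEquiv u d a b).symm

/-- For `a + b ≥ d i - 1` (all `i`): `dim_k L̄(a,b) = (a + b + 1) n - Σ d i`. -/
theorem finrank_Lbar_of_le (u : Basis ι (RatFunc k) V) (d : ι → ℤ) (a b : ℤ)
    (h : ∀ i, d i - 1 ≤ a + b) :
    (finrank k (Lbar u d a b) : ℤ) = (a + b + 1) * Fintype.card ι - ∑ i, d i := by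
  rw [finrank_Lbar]
  push_cast
  have : ∀ i, (((a + b - d i + 1).toNat : ℕ) : ℤ) = a + b + 1 - d i := by
    intro i
    rw [Int.toNat_of_nonneg (by have := h i; omega)]
    ring
  simp only [this]
  rw [Finset.sum_sub_distrib, Finset.sum_const, Finset.card_univ, nsmul_eq_mul]
  ring

end Dim

/-! ### Lattice characterisation -/

section Lattice

variable {ι : Type*} [Fintype ι] {V : Type*} [AddCommGroup V] [Module (RatFunc k) V]
  [Module k V] [IsScalarTower k (RatFunc k) V]
variable {Rinf : Type*} [CommRing Rinf] [IsDomain Rinf] [Algebra Rinf (RatFunc k)]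
  [Module.IsTorsionFree Rinf (RatFunc k)] [Module Rinf V] [IsScalarTower Rinf (RatFunc k) V]
  [Module k[X] V] [IsScalarTower k[X] (RatFunc k) V]

/-- `v ∈ L̄(a,b)` iff `X ^ b • v` lies in the finite lattice and `X ^ (-a) • v` in the lattice at
infinity. -/
theorem mem_Lbar_iff_lattice
    (hR : ∀ r : RatFunc k, r ∈ Set.range (algebraMap Rinf (RatFunc k)) ↔
      (r = 0 ∨ r.intDegree ≤ 0))
    (u : Basis ι (RatFunc k) V) (d : ι → ℤ) (a b : ℤ) (v : V) :
    v ∈ Lbar u d a b ↔
      (Xk ^ b • v ∈ Submodule.span k[X] (Set.range u) ∧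
        Xk ^ (-a) • v ∈ Submodule.span Rinf (Set.range (scaled u d))) := by
  rw [mem_Lbar, Basis.mem_span_iff_repr_mem, Basis.mem_span_iff_repr_mem, ← forall_and]
  refine forall_congr' fun i => ?_
  rw [repr_scaled, repr_X_zpow_smul, repr_X_zpow_smul, hR, mem_coordSpace]
  refine and_congr_right fun _ => ?_
  rw [X_zpow_mul_deg_iff]
  have hX : Xk ^ b ≠ 0 := X_zpow_ne_zero b
  have hX' : Xk ^ (-a) ≠ 0 := X_zpow_ne_zero (-a)
  by_cases hr : u.repr v i = 0
  · simp [hr]
  · have h1 : Xk ^ b * u.repr v i ≠ 0 := mul_ne_zero hX hr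
    have h2 : Xk ^ (-a) * u.repr v i ≠ 0 := mul_ne_zero hX' hr
    simp only [h1, h2, false_or]
    rw [RatFunc.intDegree_mul hX hr, RatFunc.intDegree_mul hX' hr, intDegree_X_zpow,
      intDegree_X_zpow]
    constructor <;> intro h <;> omega

end Lattice

/-! ### The field case: integral closures -/

section FieldCase

open Fermat.Agent.S18.GaussInt95 (xF)

/-- `GaussInt95.Oinf`, re-exported. -/
abbrev OinfK (k : Type*) [Field k] : ValuationSubring (RatFunc k) :=
  Fermat.Agent.S18.GaussInt95.Oinf k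

theorem range_algebraMap_OinfK (r : RatFunc k) :
    r ∈ Set.range (algebraMap (OinfK k) (RatFunc k)) ↔ (r = 0 ∨ r.intDegree ≤ 0) := by
  rw [← Fermat.Agent.S18.GaussInt95.mem_Oinf_iff]
  constructor
  · rintro ⟨x, rfl⟩
    exact x.2
  · intro h
    exact ⟨⟨r, h⟩, rfl⟩

theorem torsionFree_OinfK : Module.IsTorsionFree (OinfK k) (RatFunc k) :=
  Module.IsTorsionFree.of_smul_eq_zero fun r m h => by
    rw [Algebra.smul_def, mul_eq_zero] at h
    rcases h with h | h
    · left
      exact Subtype.ext h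
    · exact Or.inr h

variable {Fb : Type*} [Field Fb] [Algebra (RatFunc k) Fb] [Algebra k Fb]
  [IsScalarTower k (RatFunc k) Fb] [Algebra k[X] Fb] [IsScalarTower k[X] (RatFunc k) Fb]
variable {ι : Type*} [Fintype ι]

/-- `(u, d)` is a Dedekind–Weber normal basis of `Fb` over `RatFunc k`. -/
structure IsNormalBasis (u : Basis ι (RatFunc k) Fb) (d : ι → ℤ) : Prop where
  fin : Submodule.span k[X] (Set.range u) = Subalgebra.toSubmodule (integralClosure k[X] Fb)
  inf : Submodule.span (OinfK k) (Set.range (scaled u d)) =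
    Subalgebra.toSubmodule (integralClosure (OinfK k) Fb)

theorem X_zpow_smul_eq (e : ℤ) (z : Fb) : Xk ^ e • z = xF k Fb ^ e * z := by
  rw [Algebra.smul_def, map_zpow₀]; rfl

variable {u : Basis ι (RatFunc k) Fb} {d : ι → ℤ}

/-- **Integral characterisation**: `z ∈ L̄(a,b)` iff `x ^ b z` is integral over `k[X]` and
`x ^ (-a) z` is integral over the valuation ring at infinity. -/
theorem mem_Lbar_iff_isIntegral (h : IsNormalBasis u d) (a b : ℤ) (z : Fb) :
    z ∈ Lbar u d a b ↔
      (IsIntegral k[X] (xF k Fb ^ b * z) ∧ IsIntegral (OinfK k) (xF k Fb ^ (-a) * z)) := by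
  have := torsionFree_OinfK (k := k)
  rw [mem_Lbar_iff_lattice (Rinf := OinfK k) range_algebraMap_OinfK u d a b z, h.fin, h.inf,
    X_zpow_smul_eq, X_zpow_smul_eq]
  rfl

theorem isIntegral_xF_zpow {b : ℤ} (hb : 0 ≤ b) : IsIntegral k[X] (xF k Fb ^ b) := by
  have : xF k Fb ^ b = algebraMap k[X] Fb (X ^ b.toNat) := by
    rw [IsScalarTower.algebraMap_apply k[X] (RatFunc k) Fb, ← X_zpow_eq_algebraMap hb,
      map_zpow₀]
    rfl
  rw [this]
  exact isIntegral_algebraMap

theorem isIntegral_xF_zpow_neg {a : ℤ} (ha : 0 ≤ a) : IsIntegral (OinfK k) (xF k Fb ^ (-a)) := by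
  have hmem : Xk ^ (-a) ∈ OinfK k := by
    rw [Fermat.Agent.S18.GaussInt95.mem_Oinf_iff]
    right
    rw [intDegree_X_zpow]
    omega
  have : xF k Fb ^ (-a) = algebraMap (OinfK k) Fb ⟨Xk ^ (-a), hmem⟩ := by
    rw [IsScalarTower.algebraMap_apply (OinfK k) (RatFunc k) Fb]
    show _ = algebraMap (RatFunc k) Fb (Xk ^ (-a))
    rw [map_zpow₀]
    rfl
  rw [this]
  exact isIntegral_algebraMap

theorem one_mem_Lbar (h : IsNormalBasis u d) {a b : ℤ} (ha : 0 ≤ a) (hb : 0 ≤ b) :
    (1 : Fb) ∈ Lbar u d a b := by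
  rw [mem_Lbar_iff_isIntegral h, mul_one, mul_one]
  exact ⟨isIntegral_xF_zpow hb, isIntegral_xF_zpow_neg ha⟩

theorem xF_ne_zero : xF k Fb ≠ 0 := by
  rw [xF, Ne, map_eq_zero]
  exact RatFunc.X_ne_zero

theorem mul_mem_Lbar (h : IsNormalBasis u d) {a b a' b' : ℤ} {z z' : Fb}
    (hz : z ∈ Lbar u d a b) (hz' : z' ∈ Lbar u d a' b') : z * z' ∈ Lbar u d (a + a') (b + b') := by
  rw [mem_Lbar_iff_isIntegral h] at hz hz' ⊢
  have hx : xF k Fb ≠ 0 := xF_ne_zero
  constructor
  · have : xF k Fb ^ (b + b') * (z * z') = (xF k Fb ^ b * z) * (xF k Fb ^ b' * z') := by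
      rw [zpow_add₀ hx]; ring
    rw [this]
    exact hz.1.mul hz'.1
  · have : xF k Fb ^ (-(a + a')) * (z * z') = (xF k Fb ^ (-a) * z) * (xF k Fb ^ (-a') * z') := by
      rw [neg_add, zpow_add₀ hx]; ring
    rw [this]
    exact hz.2.mul hz'.2

theorem root_mem_Lbar (h : IsNormalBasis u d) {a b : ℤ} {m : ℕ} (hm : 0 < m) {z : Fb}
    (hz : z ^ m ∈ Lbar u d (m * a) (m * b)) : z ∈ Lbar u d a b := by
  rw [mem_Lbar_iff_isIntegral h] at hz ⊢
  have hx : xF k Fb ≠ 0 := xF_ne_zero
  constructor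
  · apply IsIntegral.of_pow hm
    have : (xF k Fb ^ b * z) ^ m = xF k Fb ^ ((m : ℤ) * b) * z ^ m := by
      rw [mul_pow, ← zpow_natCast (xF k Fb ^ b), ← zpow_mul, mul_comm b]
    rw [this]
    exact hz.1
  · apply IsIntegral.of_pow hm
    have : (xF k Fb ^ (-a) * z) ^ m = xF k Fb ^ (-((m : ℤ) * a)) * z ^ m := by
      rw [mul_pow, ← zpow_natCast (xF k Fb ^ (-a)), ← zpow_mul]
      congr 2
      ring
    rw [this]
    exact hz.2

end FieldCase

/-! ### Constants -/

section Constants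

open Fermat.Agent.S18.GaussInt95 (xF)

variable {Fb : Type*} [Field Fb] [Algebra (RatFunc k) Fb] [Algebra k Fb]
  [IsScalarTower k (RatFunc k) Fb] [Algebra k[X] Fb] [IsScalarTower k[X] (RatFunc k) Fb]

theorem algebraMap_comp_C :
    (algebraMap k[X] Fb).comp (C : k →+* k[X]) = algebraMap k Fb := by
  ext c
  rw [RingHom.comp_apply, IsScalarTower.algebraMap_apply k[X] (RatFunc k) Fb,
    IsScalarTower.algebraMap_apply k (RatFunc k) Fb, RatFunc.algebraMap_C, RatFunc.algebraMap_eq_C]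

/-- An element integral over both `k[X]` and the valuation ring at infinity is integral over `k`. -/
theorem isIntegral_of_isIntegral_both {z : Fb} (h1 : IsIntegral k[X] z)
    (h2 : IsIntegral (OinfK k) z) : IsIntegral k z := by
  have hμ : minpoly (RatFunc k) z = (minpoly k[X] z).map (algebraMap k[X] (RatFunc k)) :=
    minpoly.isIntegrallyClosed_eq_field_fractions' (RatFunc k) h1
  have hν : minpoly (RatFunc k) z =
      (minpoly (OinfK k) z).map (algebraMap (OinfK k) (RatFunc k)) :=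
    minpoly.isIntegrallyClosed_eq_field_fractions' (RatFunc k) h2
  have hdeg : ∀ i, ((minpoly k[X] z).coeff i).natDegree ≤ 0 := by
    intro i
    have hmem : algebraMap k[X] (RatFunc k) ((minpoly k[X] z).coeff i) ∈ OinfK k := by
      rw [← coeff_map, ← hμ, hν, coeff_map]
      exact ((minpoly (OinfK k) z).coeff i).2
    have := (Fermat.Agent.S18.GaussInt95.poly_mul_X_inv_pow_mem_Oinf_iff
      ((minpoly k[X] z).coeff i) 0).1 (by simpa using hmem)
    exact this
  have hlift : minpoly k[X] z ∈ lifts (C : k →+* k[X]) := by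
    rw [lifts_iff_coeff_lifts]
    intro i
    exact ⟨((minpoly k[X] z).coeff i).coeff 0,
      (eq_C_of_natDegree_le_zero (hdeg i)).symm⟩
  obtain ⟨g, hgmap, -, hgmon⟩ := lifts_and_natDegree_eq_and_monic hlift (minpoly.monic h1)
  refine ⟨g, hgmon, ?_⟩
  rw [← algebraMap_comp_C, ← eval₂_map, hgmap, ← aeval_def]
  exact minpoly.aeval _ _

/-- **Constants**: if `k` is algebraically closed, an element integral over both `k[X]` and the
valuation ring at infinity is a constant. -/
theorem mem_range_of_isIntegral_both [IsAlgClosed k] {z : Fb} (h1 : IsIntegral k[X] z)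
    (h2 : IsIntegral (OinfK k) z) : z ∈ Set.range (algebraMap k Fb) := by
  have hz := isIntegral_of_isIntegral_both h1 h2
  exact minpoly.mem_range_of_degree_eq_one k z
    (IsAlgClosed.degree_eq_one_of_irreducible k (minpoly.irreducible hz))

variable {ι : Type*} [Fintype ι] {u : Basis ι (RatFunc k) Fb} {d : ι → ℤ}

/-- `L̄(0,0) = k` when `k` is algebraically closed. -/
theorem Lbar_zero_zero [IsAlgClosed k] (h : IsNormalBasis u d) :
    Lbar u d 0 0 = (1 : Submodule k Fb) := by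
  ext z
  rw [Submodule.mem_one, mem_Lbar_iff_isIntegral h]
  simp only [zpow_zero, neg_zero, one_mul]
  constructor
  · rintro ⟨h1, h2⟩
    exact mem_range_of_isIntegral_both h1 h2
  · rintro ⟨c, rfl⟩
    refine ⟨?_, ?_⟩
    · rw [← algebraMap_comp_C, RingHom.comp_apply]
      exact isIntegral_algebraMap
    · have hmem : algebraMap k (RatFunc k) c ∈ OinfK k := by
        rw [Fermat.Agent.S18.GaussInt95.mem_Oinf_iff, RatFunc.algebraMap_eq_C]
        right; simp
      have : algebraMap k Fb c = algebraMap (OinfK k) Fb ⟨algebraMap k (RatFunc k) c, hmem⟩ := by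
        rw [IsScalarTower.algebraMap_apply (OinfK k) (RatFunc k) Fb,
          IsScalarTower.algebraMap_apply k (RatFunc k) Fb]
        rfl
      rw [this]
      exact isIntegral_algebraMap

/-- `dim_k L̄(0,0) = 1` when `k` is algebraically closed. -/
theorem finrank_Lbar_zero_zero [IsAlgClosed k] (h : IsNormalBasis u d) :
    finrank k (Lbar u d 0 0) = 1 := by
  rw [Lbar_zero_zero h]
  exact Subalgebra.finrank_bot (F := k) (E := Fb) ▸ by
    rw [← Algebra.toSubmodule_bot]; rfl

end Constants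

/-! ### Reduction lands in `L̄(a,b)` -/

section Reduction

open Fermat.Agent.S18.GaussInt95

variable {L : Type*} [Field L] {F : Type*} [Field F] [Algebra (RatFunc L) F]
  [Algebra L[X] F] [IsScalarTower L[X] (RatFunc L) F]
variable {A : ValuationSubring L} {O : ValuationSubring F}
variable {Fb : Type*} [Field Fb] [Algebra (RatFunc k) Fb] [Algebra k Fb]
  [IsScalarTower k (RatFunc k) Fb] [Algebra k[X] Fb] [IsScalarTower k[X] (RatFunc k) Fb]
variable {ι : Type*} [Fintype ι] {u : Basis ι (RatFunc k) Fb} {d : ι → ℤ}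

theorem algebraMap_poly_X_eq_xF : algebraMap L[X] F (X : L[X]) = xF L F := by
  rw [IsScalarTower.algebraMap_apply L[X] (RatFunc L) F, RatFunc.algebraMap_X]
  rfl

theorem xF_mem (hG : IsGauss A O) : xF L F ∈ O := by
  rw [← algebraMap_poly_X_eq_xF]
  refine (hG _).2 fun j => ?_
  rw [coeff_X]
  split_ifs
  · exact A.one_mem
  · exact A.zero_mem

theorem red_xF (hG : IsGauss A O) (π : A →+* k) (red : O →+* Fb) (hred : RedCompat π red) :
    red ⟨xF L F, xF_mem hG⟩ = xF k Fb := by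
  have h1 : polyToF A F (X : Polynomial A) = xF L F := by
    rw [polyToF, RingHom.comp_apply, coe_mapRingHom, Polynomial.map_X, algebraMap_poly_X_eq_xF]
  have h2 := hred X (by rw [h1]; exact xF_mem hG)
  rw [Polynomial.map_X, algebraMap_poly_X_eq_xF] at h2
  rw [← h2]
  congr 1
  exact Subtype.ext h1.symm

/-- **Reduction lemma**: if `z ∈ O`, `x ^ b z` is integral over `L[X]` and `z / x ^ a` is integral
over the valuation ring at infinity, then `red z ∈ L̄(a,b)`. -/
theorem red_mem_Lbar (hG : IsGauss A O) {κ : Type*} [Fintype κ]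
    {β : Module.Basis κ (RatFunc L) F} (hβ : IsOrtho O β)
    (π : A →+* k) (red : O →+* Fb) (hred : RedCompat π red) (h : IsNormalBasis u d)
    (a b : ℕ) {z : F} (hzO : z ∈ O)
    (hz1 : IsIntegral L[X] (xF L F ^ b * z))
    (hz2 : IsIntegral (Fermat.Agent.S18.GaussInt95.Oinf L) (z / xF L F ^ a)) :
    red ⟨z, hzO⟩ ∈ Lbar u d a b := by
  have hxO : xF L F ∈ O := xF_mem hG
  have hx0 : xF L F ≠ 0 := by
    rw [xF, Ne, map_eq_zero]; exact RatFunc.X_ne_zero
  have hxb0 : xF k Fb ≠ 0 := xF_ne_zero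
  have hz'O : xF L F ^ b * z ∈ O := O.mul_mem _ _ (O.pow_mem hxO b) hzO
  have hz2' : IsIntegral (Fermat.Agent.S18.GaussInt95.Oinf L)
      ((xF L F ^ b * z) / xF L F ^ (a + b)) := by
    have : (xF L F ^ b * z) / xF L F ^ (a + b) = z / xF L F ^ a := by
      rw [pow_add]; field_simp
    rw [this]; exact hz2
  obtain ⟨h1, h2⟩ := red_isIntegral π red hG hβ hred hz'O hz1 (a + b) hz2'
  have hredz' : red ⟨xF L F ^ b * z, hz'O⟩ = xF k Fb ^ b * red ⟨z, hzO⟩ := by
    have : (⟨xF L F ^ b * z, hz'O⟩ : O) = ⟨xF L F, hxO⟩ ^ b * ⟨z, hzO⟩ := Subtype.ext rfl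
    rw [this, map_mul, map_pow, red_xF hG π red hred]
  rw [hredz'] at h1 h2
  rw [mem_Lbar_iff_isIntegral h]
  refine ⟨by rw [zpow_natCast]; exact h1, ?_⟩
  have : xF k Fb ^ (-(a : ℤ)) * red ⟨z, hzO⟩ =
      xF k Fb ^ b * red ⟨z, hzO⟩ / xF k Fb ^ (a + b) := by
    rw [zpow_neg, zpow_natCast, pow_add]; field_simp
  rw [this]
  exact h2

end Reduction

end Fermat.Agent.S18.LBar95
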