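/-
S18 / Level33.LevelData, fields [DWBAR] + the special-fibre half of [INT]  (helper95).

`Fb` an intermediate field of `k((q))/k` (in the application `Fb = F̄_M = modularFunctionFieldFullC k M`)
carrying a `RatFunc k`-algebra structure with `X ↦ jqModC k`, and a Dedekind–Weber normal basis
`(u, d)` of `Fb` over `RatFunc k` (`LBar95.IsNormalBasis`).  With `ub i := (u i : k((q)))`, `db := d`:

* `Level33.Lbar ub db a b` is the image of `LBar95.Lbar u d a b`;
* `indep_fam`, `one_mem_Lbar33`, `root_mem_Lbar33` (the `LevelData` fields `indep`, `one_mem`, `root_mem`);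
* `coe_mem_Lbar_iff_isIntegral` : the integral characterisation of `Level33.Lbar ub db a b`;
* `red_mem_Lbar` : reduction of `W`-integral elements of `L(aE + bE')` lands in `Level33.Lbar ub db a b`.
-/
import Fermat.Agent.S18.Level33
import Fermat.Agent.S18.LBar95
import Fermat.Agent.S20.NormalBasisGlue

set_option autoImplicit false
set_option linter.unusedSectionVars false

open Polynomial Module ModularCurve
open scoped Classical

noncomputable section

namespace Fermat.Agent.S18.DWBar95

open Fermat.Agent.S18.LBar95 Fermat.Agent.S18.Level33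

variable {k : Type*} [Field k]

/-! ### `k`-linear independence of the monomials `X ^ e • u i` -/

theorem linearIndependent_X_zpow :
    LinearIndependent k (fun e : ℤ => (RatFunc.X : RatFunc k) ^ e) := by
  rw [linearIndependent_iff']
  intro s g hsum e₀ he₀
  obtain ⟨M, hM⟩ : ∃ M : ℤ, ∀ i ∈ s, M ≤ i := by
    obtain ⟨M', hM'⟩ := Finset.exists_le (s.image fun e => -e)
    refine ⟨-M', fun i hi => ?_⟩
    have := hM' (-i) (Finset.mem_image_of_mem _ hi)
    omega
  -- multiply by `X ^ (-M)`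
  have h1 : ∑ e ∈ s, g e • (RatFunc.X : RatFunc k) ^ (e - M) = 0 := by
    have : ∑ e ∈ s, g e • (RatFunc.X : RatFunc k) ^ (e - M) =
        (RatFunc.X : RatFunc k) ^ (-M) * ∑ e ∈ s, g e • (RatFunc.X : RatFunc k) ^ e := by
      rw [Finset.mul_sum]
      refine Finset.sum_congr rfl fun e _ => ?_
      rw [sub_eq_add_neg, zpow_add₀ RatFunc.X_ne_zero, Algebra.smul_def, Algebra.smul_def]
      ring
    rw [this, hsum, mul_zero]
  have h2 : algebraMap k[X] (RatFunc k) (∑ e ∈ s, monomial (e - M).toNat (g e)) = 0 := by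
    rw [map_sum, ← h1]
    refine Finset.sum_congr rfl fun e he => ?_
    rw [← C_mul_X_pow_eq_monomial, map_mul, map_pow, RatFunc.algebraMap_X, RatFunc.algebraMap_C,
      ← zpow_natCast, Int.toNat_of_nonneg (by have := hM e he; omega), Algebra.smul_def,
      RatFunc.algebraMap_eq_C]
  have h3 : (∑ e ∈ s, monomial (e - M).toNat (g e) : k[X]) = 0 :=
    (map_eq_zero_iff _ (IsFractionRing.injective k[X] (RatFunc k))).mp h2
  have h4 := congrArg (fun p : k[X] => p.coeff (e₀ - M).toNat) h3
  simp only [finsetSum_coeff, coeff_monomial, coeff_zero] at h4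
  rw [Finset.sum_eq_single e₀] at h4
  · simpa using h4
  · intro e he hne
    have := hM e he
    have := hM e₀ he₀
    rw [if_neg]
    intro h
    apply hne
    have : (e - M).toNat = (e₀ - M).toNat := h
    omega
  · intro h; exact absurd he₀ h

theorem linearIndependent_gen {ι : Type*} {V : Type*} [AddCommGroup V] [Module (RatFunc k) V]
    [Module k V] [IsScalarTower k (RatFunc k) V] (u : Basis ι (RatFunc k) V) :
    LinearIndependent k (gen u) := by
  have h := linearIndependent_smul (linearIndependent_X_zpow (k := k)) u.linearIndependent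
  exact (linearIndependent_equiv' (Equiv.prodComm ι ℤ)
    (f := fun p : ℤ × ι => (RatFunc.X : RatFunc k) ^ p.1 • u p.2)
    (g := fun p : ι × ℤ => (RatFunc.X : RatFunc k) ^ p.2 • u p.1) rfl).mpr h

/-! ### The concrete special fibre inside `k((q))` -/

section Concrete

open Fermat.Agent.S18.GaussInt95 (xF)

variable (Fb : IntermediateField k (LaurentSeries k))
  [Algebra (RatFunc k) Fb] [IsScalarTower k (RatFunc k) Fb]
  [Algebra k[X] Fb] [IsScalarTower k[X] (RatFunc k) Fb]

/-- The hypothesis `X ↦ j̄`. -/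
def XMapsToJ : Prop :=
  ((algebraMap (RatFunc k) Fb RatFunc.X : Fb) : LaurentSeries k) = jqModC k

theorem algebraMap_eq_C (c : k) : algebraMap k (LaurentSeries k) c = HahnSeries.C c := by
  have h1 : algebraMap k (PowerSeries k) c = PowerSeries.C c := by simp
  rw [HahnSeries.algebraMap_apply', h1, HahnSeries.ofPowerSeries_C]

/-- The inclusion `Fb → k((q))` as a `k`-linear map for the Hahn-series module structure. -/
def valLin : Fb →ₗ[k] LaurentSeries k where
  toFun z := (z : LaurentSeries k)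
  map_add' _ _ := rfl
  map_smul' c z := by
    show ((c • z : Fb) : LaurentSeries k) = c • (z : LaurentSeries k)
    rw [Algebra.smul_def, MulMemClass.coe_mul, ← HahnSeries.C_mul_eq_smul]
    congr 1
    exact algebraMap_eq_C c

theorem valLin_apply (z : Fb) : valLin Fb z = (z : LaurentSeries k) := rfl

theorem valLin_injective : Function.Injective (valLin Fb) := fun _ _ h => Subtype.ext h

variable {Fb} {n : ℕ}

/-- the normal basis, viewed in `k((q))` -/
def ubOf (u : Basis (Fin n) (RatFunc k) Fb) : Fin n → LaurentSeries k := fun i => (u i : Fb)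

theorem coe_xF (hX : XMapsToJ Fb) : ((xF k Fb : Fb) : LaurentSeries k) = jqModC k := hX

theorem fam_eq (hX : XMapsToJ Fb) (u : Basis (Fin n) (RatFunc k) Fb) (p : Fin n × ℤ) :
    fam (ubOf u) p = ((gen u p : Fb) : LaurentSeries k) := by
  rw [fam, gen, Algebra.smul_def, map_zpow₀, MulMemClass.coe_mul, ubOf]
  congr 1
  have h : ((algebraMap (RatFunc k) Fb RatFunc.X ^ p.2 : Fb) : LaurentSeries k) =
      ((algebraMap (RatFunc k) Fb RatFunc.X : Fb) : LaurentSeries k) ^ p.2 :=
    map_zpow₀ Fb.val (algebraMap (RatFunc k) Fb RatFunc.X) p.2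
  have hX' : ((algebraMap (RatFunc k) Fb RatFunc.X : Fb) : LaurentSeries k) = jqModC k := hX
  rw [hX'] at h
  exact h.symm

theorem fam_eq_comp (hX : XMapsToJ Fb) (u : Basis (Fin n) (RatFunc k) Fb) :
    fam (ubOf u) = valLin Fb ∘ gen u := by
  funext p
  rw [fam_eq hX]
  rfl

theorem coe_IdxF (d : Fin n → ℤ) (a b : ℤ) :
    (IdxF d a b : Set (Fin n × ℤ)) = idx d a b := by
  ext p
  rw [Finset.mem_coe, mem_IdxF]
  rfl

/-- `Level33.Lbar` is the image of `LBar95.Lbar`. -/
theorem Lbar_eq_map (hX : XMapsToJ Fb) (u : Basis (Fin n) (RatFunc k) Fb) (d : Fin n → ℤ)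
    (a b : ℤ) :
    Level33.Lbar (ubOf u) d a b = (LBar95.Lbar u d a b).map (valLin Fb) := by
  rw [Level33.Lbar, LBar95.Lbar_eq_span, Submodule.map_span, coe_IdxF, fam_eq_comp hX,
    Set.image_comp]

theorem coe_mem_Lbar_iff (hX : XMapsToJ Fb) (u : Basis (Fin n) (RatFunc k) Fb) (d : Fin n → ℤ)
    (a b : ℤ) (z : Fb) :
    (z : LaurentSeries k) ∈ Level33.Lbar (ubOf u) d a b ↔ z ∈ LBar95.Lbar u d a b := by
  rw [Lbar_eq_map hX, Submodule.mem_map]
  constructor
  · rintro ⟨y, hy, hyz⟩
    have : y = z := Subtype.ext hyz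
    rwa [← this]
  · intro hz
    exact ⟨z, hz, rfl⟩

/-- `LevelData.indep`. -/
theorem indep_fam (hX : XMapsToJ Fb) (u : Basis (Fin n) (RatFunc k) Fb) :
    LinearIndependent k (fam (ubOf u)) := by
  rw [fam_eq_comp hX]
  exact (linearIndependent_gen u).map' (valLin Fb)
    (LinearMap.ker_eq_bot.mpr (valLin_injective Fb))

variable {u : Basis (Fin n) (RatFunc k) Fb} {d : Fin n → ℤ}

/-- `LevelData.one_mem`. -/
theorem one_mem_Lbar33 (hX : XMapsToJ Fb) (h : IsNormalBasis u d) :
    (1 : LaurentSeries k) ∈ Level33.Lbar (ubOf u) d 0 0 := by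
  have := (coe_mem_Lbar_iff hX u d 0 0 1).2 (one_mem_Lbar h le_rfl le_rfl)
  simpa using this

/-- `LevelData.root_mem`, for elements of `Fb`. -/
theorem root_mem_Lbar33 (hX : XMapsToJ Fb) (h : IsNormalBasis u d) (m a b : ℕ) (hm : 0 < m)
    {z : LaurentSeries k} (hz : z ∈ Fb)
    (hzm : z ^ m ∈ Level33.Lbar (ubOf u) d ((m * a : ℕ) : ℤ) ((m * b : ℕ) : ℤ)) :
    z ∈ Level33.Lbar (ubOf u) d a b := by
  have h1 : (((⟨z, hz⟩ : Fb) ^ m : Fb) : LaurentSeries k) = z ^ m := rfl
  rw [← h1, coe_mem_Lbar_iff hX] at hzm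
  have h2 : (⟨z, hz⟩ : Fb) ∈ LBar95.Lbar u d a b := by
    apply root_mem_Lbar h hm
    convert hzm using 2 <;> push_cast <;> ring
  exact (coe_mem_Lbar_iff hX u d a b ⟨z, hz⟩).2 h2

/-- **Integral characterisation of `Level33.Lbar`** for elements of `Fb`. -/
theorem coe_mem_Lbar_iff_isIntegral (hX : XMapsToJ Fb) (h : IsNormalBasis u d) (a b : ℤ)
    (z : Fb) :
    (z : LaurentSeries k) ∈ Level33.Lbar (ubOf u) d a b ↔
      (IsIntegral k[X] (xF k Fb ^ b * z) ∧ IsIntegral (OinfK k) (xF k Fb ^ (-a) * z)) := by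
  rw [coe_mem_Lbar_iff hX, mem_Lbar_iff_isIntegral h]

/-- Every element of `Level33.Lbar` lies in `Fb`. -/
theorem Lbar_le (hX : XMapsToJ Fb) (u : Basis (Fin n) (RatFunc k) Fb) (d : Fin n → ℤ)
    (a b : ℤ) {z : LaurentSeries k} (hz : z ∈ Level33.Lbar (ubOf u) d a b) : z ∈ Fb := by
  rw [Lbar_eq_map hX, Submodule.mem_map] at hz
  obtain ⟨y, -, rfl⟩ := hz
  exact y.2

/-- the genus term: `∑ d i - n + 1` in `LevelData.genus` is `(a+b) n + 1 - dim L̄(a,b)`. -/
theorem finrank_Lbar_eq (hX : XMapsToJ Fb) (u : Basis (Fin n) (RatFunc k) Fb) (d : Fin n → ℤ)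
    (a b : ℤ) : finrank k (Level33.Lbar (ubOf u) d a b) = ∑ i, (a + b + 1 - d i).toNat :=
  Level33.finrank_Lbar (indep_fam hX u) d a b

end Concrete

/-! ### Existence of the normal basis, and the reduction lemma in `Level33` form -/

section Exists

variable {Fb : Type*} [Field Fb] [Algebra (RatFunc k) Fb] [Algebra k Fb]
  [IsScalarTower k (RatFunc k) Fb] [Algebra k[X] Fb] [IsScalarTower k[X] (RatFunc k) Fb]
  [FiniteDimensional (RatFunc k) Fb] [Algebra.IsSeparable (RatFunc k) Fb]

/-- A Dedekind–Weber normal basis exists (S20, characteristic-free given separability). -/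
theorem exists_isNormalBasis :
    ∃ (u : Basis (Fin (finrank (RatFunc k) Fb)) (RatFunc k) Fb)
      (d : Fin (finrank (RatFunc k) Fb) → ℤ), IsNormalBasis u d := by
  obtain ⟨u, d, h1, h2⟩ := Fermat.Agent.S20.NormalBasisGlue.exists_normal_basis (k := k) (F := Fb)
  exact ⟨u, d, ⟨h1, h2⟩⟩

end Exists

section RedMem

open Fermat.Agent.S18.GaussInt95

variable {L : Type*} [Field L] {F : Type*} [Field F] [Algebra (RatFunc L) F]
  [Algebra L[X] F] [IsScalarTower L[X] (RatFunc L) F]
variable {A : ValuationSubring L} {O : ValuationSubring F}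
variable {Fb : IntermediateField k (LaurentSeries k)}
  [Algebra (RatFunc k) Fb] [IsScalarTower k (RatFunc k) Fb]
  [Algebra k[X] Fb] [IsScalarTower k[X] (RatFunc k) Fb]
variable {n : ℕ} {u : Basis (Fin n) (RatFunc k) Fb} {d : Fin n → ℤ}

/-- **`LevelData.red_mem`, abstract form**: for a reduction map `red : O →+* Fb` compatible with
coefficient reduction, a `W`-integral `z` with `x ^ b z` integral over `L[X]` and `z / x ^ a`
integral over the valuation ring at infinity reduces into `Level33.Lbar ub db a b`. -/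
theorem red_mem_Level33 (hG : IsGauss A O) {κ : Type*} [Fintype κ]
    {β : Module.Basis κ (RatFunc L) F} (hβ : IsOrtho O β)
    (π : A →+* k) (red : O →+* Fb) (hred : RedCompat π red) (hX : XMapsToJ Fb)
    (h : IsNormalBasis u d) (a b : ℕ) {z : F} (hzO : z ∈ O)
    (hz1 : IsIntegral L[X] (xF L F ^ b * z))
    (hz2 : IsIntegral (Fermat.Agent.S18.GaussInt95.Oinf L) (z / xF L F ^ a)) :
    ((red ⟨z, hzO⟩ : Fb) : LaurentSeries k) ∈ Level33.Lbar (ubOf u) d a b :=
  (coe_mem_Lbar_iff hX u d a b _).2 (red_mem_Lbar hG hβ π red hred h a b hzO hz1 hz2)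

end RedMem

end Fermat.Agent.S18.DWBar95
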