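/-
S18 moonshot, [INT] fields of `Level33.LevelData` (helper73), ABSTRACT HALF.

Separable RatFunc setting on both fibres (`DW63` / `S20.T1.Setup`):

* `mem_rr_two_iff` : two-sided dictionary on the generic fibre
    `y ∈ L(a (x)_∞ + b (x)_0)  ↔  x^b y ∈ Bfin ∧ x^(-a) y ∈ Binf`;
* `red_mem_integral` : INTEGRALITY across the reduction (uses `GaussInt95.red_isIntegral`):
    `y ∈ L(a (x)_∞ + b (x)_0) ∩ O  ⇒  x̄^b ȳ ∈ B̄fin ∧ x̄^(-a) ȳ ∈ B̄inf`;
* `root_mem_integral` : the integrality conditions are root closed.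
-/
import Mathlib
import Fermat.Agent.S18.DW63.LSpace
import Fermat.Agent.S18.GaussInt95

set_option autoImplicit false
set_option linter.unusedSectionVars false

open Polynomial AlgebraicCurve
open scoped Classical

noncomputable section

namespace Fermat.Agent.S18.LevelInt73

open Fermat.Agent.S20.NormalBasis (Oinf)
open Fermat.Agent.S20 Fermat.Agent.S20.T1
open Fermat.Agent.S18.DW63

/-! ### generic lemmas in the RatFunc setting (no separability) -/

section Basic

variable (K F : Type*) [Field K] [Field F] [Algebra K F] [Algebra (RatFunc K) F]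
  [IsScalarTower K (RatFunc K) F] [Algebra K[X] F] [IsScalarTower K[X] (RatFunc K) F]

theorem xF_ne_zero' : xF K F ≠ 0 := by
  rw [xF, Ne, map_eq_zero]
  exact RatFunc.X_ne_zero

theorem X_zpow_smul_eq' (r : ℤ) (f : F) :
    ((RatFunc.X : RatFunc K) ^ r) • f = (xF K F) ^ r * f := by
  rw [Algebra.smul_def, map_zpow₀]
  rfl

/-- the conditions cutting out `L̄(a,b)` are root closed -/
theorem root_mem_integral {m : ℕ} (hm : 0 < m) (a b : ℕ) (z : F)
    (h1 : xF K F ^ (m * b) * z ^ m ∈ Bfin K F)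
    (h2 : ((RatFunc.X : RatFunc K) ^ (-((m * a : ℕ) : ℤ))) • z ^ m ∈ Binf K F) :
    xF K F ^ b * z ∈ Bfin K F ∧ ((RatFunc.X : RatFunc K) ^ (-(a : ℤ))) • z ∈ Binf K F := by
  constructor
  · have : (xF K F ^ b * z) ^ m = xF K F ^ (m * b) * z ^ m := by
      rw [mul_pow, ← pow_mul, mul_comm b m]
    have h : IsIntegral K[X] ((xF K F ^ b * z) ^ m) := by rw [this]; exact h1
    exact IsIntegral.of_pow hm h
  · have : (((RatFunc.X : RatFunc K) ^ (-(a : ℤ))) • z) ^ m =
        ((RatFunc.X : RatFunc K) ^ (-((m * a : ℕ) : ℤ))) • z ^ m := by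
      rw [X_zpow_smul_eq', X_zpow_smul_eq', mul_pow, ← zpow_natCast, ← zpow_mul]
      congr 2
      push_cast
      ring
    have h : IsIntegral (Oinf K) ((((RatFunc.X : RatFunc K) ^ (-(a : ℤ))) • z) ^ m) := by
      rw [this]; exact h2
    exact IsIntegral.of_pow hm h

end Basic

/-! ### the two-sided dictionary on a fibre with places -/

section Dictionary

variable (K F : Type*) [Field K] [Field F] [Algebra K F] [Algebra (RatFunc K) F]
  [IsScalarTower K (RatFunc K) F] [Algebra K[X] F] [IsScalarTower K[X] (RatFunc K) F]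
  [FiniteDimensional (RatFunc K) F] [Algebra.IsSeparable (RatFunc K) F]

theorem mem_rr_two_iff {E E' : Divisor K F} (hE : ∀ v, E v = max 0 (-(v.ord (xF K F))))
    (hE' : ∀ v, E' v = max 0 (v.ord (xF K F))) (a b : ℕ) (y : F) :
    y ∈ riemannRochSpace ((a : ℤ) • E + (b : ℤ) • E') ↔
      (xF K F ^ b * y ∈ Bfin K F ∧ ((RatFunc.X : RatFunc K) ^ (-(a : ℤ))) • y ∈ Binf K F) := by
  have hx0 := xF_ne_zero' K F
  have key : y ∈ riemannRochSpace ((a : ℤ) • E + (b : ℤ) • E') ↔
      xF K F ^ b * y ∈ riemannRochSpace (((a + b : ℕ) : ℤ) • poleDiv K F) := by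
    rcases eq_or_ne y 0 with rfl | hy
    · simp
    have hxy : xF K F ^ b * y ≠ 0 := mul_ne_zero (pow_ne_zero _ hx0) hy
    rw [mem_riemannRochSpace_iff, mem_riemannRochSpace_iff]
    refine forall_congr' fun v => ?_
    rw [or_iff_right hy, or_iff_right hxy, v.ord_mul (pow_ne_zero _ hx0) hy, ← zpow_natCast,
      v.ord_zpow, Finsupp.add_apply, Finsupp.smul_apply, Finsupp.smul_apply, Finsupp.smul_apply,
      poleDiv_apply, hE v, hE' v, smul_eq_mul, smul_eq_mul, smul_eq_mul]
    push_cast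
    rcases le_total 0 (v.ord (xF K F)) with h | h
    · rw [max_eq_left (by omega : -(v.ord (xF K F)) ≤ 0), max_eq_right h]
      constructor <;> intro h' <;> nlinarith
    · rw [max_eq_right (by omega : 0 ≤ -(v.ord (xF K F))), max_eq_left h]
      constructor <;> intro h' <;> nlinarith
  rw [key, mem_riemannRochSpace_smul_poleDiv_iff]
  have : ((RatFunc.X : RatFunc K) ^ (-((a + b : ℕ) : ℤ))) • (xF K F ^ b * y) =
      ((RatFunc.X : RatFunc K) ^ (-(a : ℤ))) • y := by
    rw [X_zpow_smul_eq', X_zpow_smul_eq', ← mul_assoc, ← zpow_natCast, ← zpow_add₀ hx0]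
    congr 2
    push_cast
    ring
  rw [this]

end Dictionary

/-! ### integrality across the reduction -/

section Reduction

variable (K F : Type*) [Field K] [Field F] [Algebra K F] [Algebra (RatFunc K) F]
  [IsScalarTower K (RatFunc K) F] [Algebra K[X] F] [IsScalarTower K[X] (RatFunc K) F]
  [FiniteDimensional (RatFunc K) F] [Algebra.IsSeparable (RatFunc K) F]
variable (k Fb : Type*) [Field k] [Field Fb] [Algebra k Fb] [Algebra (RatFunc k) Fb]
  [IsScalarTower k (RatFunc k) Fb] [Algebra k[X] Fb] [IsScalarTower k[X] (RatFunc k) Fb]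

variable {K F k Fb}
variable {A : ValuationSubring K} {O : ValuationSubring F} (π : A →+* k) (red : O →+* Fb)

theorem xF_mem (hG : GaussInt95.IsGauss A O) : xF K F ∈ O := by
  have h := (hG (X : K[X])).2 (fun j => by
    rw [coeff_X]
    split_ifs
    · exact A.one_mem
    · exact A.zero_mem)
  rwa [algebraMap_poly_X] at h

theorem red_xF (hG : GaussInt95.IsGauss A O) (hred : GaussInt95.RedCompat π red) :
    red ⟨xF K F, xF_mem hG⟩ = xF k Fb := by
  have h1 : GaussInt95.polyToF A F (X : Polynomial A) = xF K F := by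
    rw [GaussInt95.polyToF, RingHom.comp_apply, coe_mapRingHom, map_X, algebraMap_poly_X]
  have h2 := hred (X : Polynomial A) (by rw [h1]; exact xF_mem hG)
  rw [map_X, algebraMap_poly_X] at h2
  rw [← h2]
  congr 1
  exact Subtype.ext h1.symm

/-- **INTEGRALITY** for the two-sided spaces. -/
theorem red_mem_integral (hG : GaussInt95.IsGauss A O) {ι : Type*} [Fintype ι]
    {bas : Module.Basis ι (RatFunc K) F} (hb : GaussInt95.IsOrtho O bas)
    (hred : GaussInt95.RedCompat π red)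
    {E E' : Divisor K F} (hE : ∀ v, E v = max 0 (-(v.ord (xF K F))))
    (hE' : ∀ v, E' v = max 0 (v.ord (xF K F))) (a b : ℕ) {y : F}
    (hy : y ∈ riemannRochSpace ((a : ℤ) • E + (b : ℤ) • E')) (hyO : y ∈ O) :
    xF k Fb ^ b * red ⟨y, hyO⟩ ∈ Bfin k Fb ∧
      ((RatFunc.X : RatFunc k) ^ (-(a : ℤ))) • red ⟨y, hyO⟩ ∈ Binf k Fb := by
  obtain ⟨h1, h2⟩ := (mem_rr_two_iff K F hE hE' a b y).mp hy
  have hxO := xF_mem (K := K) (F := F) hG
  have hx0 := xF_ne_zero' K F
  have hxb0 := xF_ne_zero' k Fb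
  set z : F := xF K F ^ b * y with hz
  have hzO : z ∈ O := O.mul_mem _ _ (pow_mem hxO b) hyO
  have hz1 : IsIntegral K[X] z := h1
  have hz2 : IsIntegral (GaussInt95.Oinf K) (z / GaussInt95.xF K F ^ (a + b)) := by
    have : z / GaussInt95.xF K F ^ (a + b) = ((RatFunc.X : RatFunc K) ^ (-(a : ℤ))) • y := by
      rw [X_zpow_smul_eq', hz]
      show xF K F ^ b * y / xF K F ^ (a + b) = _
      rw [zpow_neg, zpow_natCast, pow_add]
      field_simp
    rw [this]
    exact h2
  obtain ⟨r1, r2⟩ := GaussInt95.red_isIntegral π red hG hb hred hzO hz1 (a + b) hz2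
  have hredz : red ⟨z, hzO⟩ = xF k Fb ^ b * red ⟨y, hyO⟩ := by
    have : (⟨z, hzO⟩ : O) = ⟨xF K F, hxO⟩ ^ b * ⟨y, hyO⟩ := Subtype.ext (by simp [hz])
    rw [this, map_mul, map_pow, red_xF π red hG hred]
  refine ⟨by rw [← hredz]; exact r1, ?_⟩
  have : ((RatFunc.X : RatFunc k) ^ (-(a : ℤ))) • red ⟨y, hyO⟩ =
      red ⟨z, hzO⟩ / GaussInt95.xF k Fb ^ (a + b) := by
    rw [X_zpow_smul_eq', hredz]
    show _ = xF k Fb ^ b * red ⟨y, hyO⟩ / xF k Fb ^ (a + b)
    rw [zpow_neg, zpow_natCast, pow_add]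
    field_simp
  rw [this]
  exact r2

end Reduction

end Fermat.Agent.S18.LevelInt73
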