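/-
S18 moonshot, [INT] fields of `Level33.LevelData` (helper73), CONCRETE-SHAPE HALF.

Transports `LBar95.Lbar u d a b ≤ Fb` (coordinates w.r.t. a Dedekind–Weber normal basis of the
special fibre `Fb / RatFunc k`) to `Level33.Lbar (ι ∘ u) d a b ≤ LaurentSeries k` along a `k`-algebra
embedding `ι : Fb → k((q))` with `ι x̄ = jqModC k`, and derives the fields

  `red_mem`, `root_mem`, `one_mem`, `indep`

of `Level33.LevelData` in EXACTLY their shape, from abstract reduction data
(`GaussInt95.IsGauss / IsOrtho / RedCompat`, `LBar95.IsNormalBasis`).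
-/
import Mathlib
import Fermat.Agent.S18.Level33
import Fermat.Agent.S18.LBar95
import Fermat.Agent.S18.LevelInt73

set_option autoImplicit false
set_option linter.unusedSectionVars false

open Polynomial AlgebraicCurve ModularCurve
open scoped Classical

noncomputable section

namespace Fermat.Agent.S18.LevelIntC73

open Fermat.Agent.S20.NormalBasis (Oinf)
open Fermat.Agent.S20 Fermat.Agent.S20.T1
open Fermat.Agent.S18

section Transport

variable {k Fb : Type*} [Field k] [Field Fb] [Algebra k Fb] [Algebra (RatFunc k) Fb]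
  [IsScalarTower k (RatFunc k) Fb] [Algebra k[X] Fb] [IsScalarTower k[X] (RatFunc k) Fb]
variable (ι : Fb →ₐ[k] LaurentSeries k)

/-- `ι` as a `k`-linear map for the Hahn-series module structure used by `Level33.Lbar`. -/
def ιL : Fb →ₗ[k] LaurentSeries k where
  toFun := ι
  map_add' := map_add ι
  map_smul' c z := by
    simp only [RingHom.id_apply]
    rw [Algebra.smul_def, map_mul, AlgHom.commutes, algebraMap_laurentSeries_eq_single]
    exact HahnSeries.C_mul_eq_smul

theorem ιL_apply (z : Fb) : ιL ι z = ι z := rfl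

theorem ιL_injective : Function.Injective (ιL ι) := ι.toRingHom.injective

variable (hι : ι (algebraMap (RatFunc k) Fb RatFunc.X) = jqModC k)
variable {n : ℕ} (u : Module.Basis (Fin n) (RatFunc k) Fb) (d : Fin n → ℤ)

include hι in
theorem map_gen (p : Fin n × ℤ) :
    ιL ι (LBar95.gen u p) = Level33.fam (fun i => ι (u i)) p := by
  unfold LBar95.gen Level33.fam
  rw [ιL_apply, LBar95.X_zpow_smul_eq, map_mul, map_zpow₀]
  show ι (algebraMap (RatFunc k) Fb RatFunc.X) ^ p.2 * _ = _
  rw [hι]

theorem idx_eq (a b : ℤ) : LBar95.idx d a b = (Level33.IdxF d a b : Set (Fin n × ℤ)) := by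
  ext p
  rw [Finset.mem_coe, Level33.mem_IdxF]
  rfl

include hι in
/-- transport of `L̄(a,b)` -/
theorem map_Lbar_eq (a b : ℤ) :
    (LBar95.Lbar u d a b).map (ιL ι) = Level33.Lbar (fun i => ι (u i)) d a b := by
  rw [LBar95.Lbar_eq_span, Submodule.map_span, Level33.Lbar, ← Set.image_comp, idx_eq]
  congr 1
  refine Set.image_congr fun p _ => ?_
  exact map_gen ι hι u p

include hι in
theorem mem_Lbar_iff (a b : ℤ) (z : Fb) :
    ι z ∈ Level33.Lbar (fun i => ι (u i)) d a b ↔ z ∈ LBar95.Lbar u d a b := by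
  rw [← map_Lbar_eq ι hι u d a b]
  constructor
  · rintro ⟨z', hz', h⟩
    have : z' = z := ιL_injective ι h
    rwa [← this]
  · intro hz
    exact ⟨z, hz, rfl⟩

include hι in
theorem one_mem (h : LBar95.IsNormalBasis u d) :
    (1 : LaurentSeries k) ∈ Level33.Lbar (fun i => ι (u i)) d 0 0 := by
  rw [← map_one ι, mem_Lbar_iff ι hι]
  exact LBar95.one_mem_Lbar h le_rfl le_rfl

include hι in
theorem root_mem (h : LBar95.IsNormalBasis u d) {m : ℕ} (hm : 0 < m) (a b : ℕ) (z : Fb)
    (hz : (ι z) ^ m ∈ Level33.Lbar (fun i => ι (u i)) d ((m * a : ℕ) : ℤ) ((m * b : ℕ) : ℤ)) :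
    ι z ∈ Level33.Lbar (fun i => ι (u i)) d a b := by
  rw [← map_pow, mem_Lbar_iff ι hι] at hz
  rw [mem_Lbar_iff ι hι]
  refine LBar95.root_mem_Lbar h hm ?_
  have h1 : ((m * a : ℕ) : ℤ) = (m : ℤ) * (a : ℤ) := by push_cast; ring
  have h2 : ((m * b : ℕ) : ℤ) = (m : ℤ) * (b : ℤ) := by push_cast; ring
  rw [← h1, ← h2]
  exact hz

/-- the monomials `X ^ e • u i` are `k`-linearly independent -/
theorem linearIndependent_gen : LinearIndependent k (LBar95.gen u) := by
  rw [linearIndependent_iff_finset_linearIndependent]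
  intro s
  -- `s` sits in a window `|e| ≤ c`
  obtain ⟨c, hc⟩ : ∃ c : ℕ, ∀ p ∈ s, p.2.natAbs ≤ c :=
    ⟨s.sup fun p => p.2.natAbs, fun p hp => Finset.le_sup (f := fun p => p.2.natAbs) hp⟩
  set W : Finset (Fin n × ℤ) := Level33.IdxF (fun _ => (0 : ℤ)) c c with hW
  have hsW : ∀ p ∈ s, p ∈ W := by
    intro p hp
    rw [hW, Level33.mem_IdxF]
    have := hc p hp
    constructor <;> omega
  -- independence on the window by a dimension count
  have hWind : LinearIndependent k (fun p : W => LBar95.gen u p.1) := by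
    rw [linearIndependent_iff_card_eq_finrank_span]
    have hrange : Set.range (fun p : W => LBar95.gen u p.1) =
        LBar95.gen u '' LBar95.idx (fun _ => (0 : ℤ)) c c := by
      rw [idx_eq]
      ext z
      constructor
      · rintro ⟨p, rfl⟩
        exact ⟨p.1, p.2, rfl⟩
      · rintro ⟨p, hp, rfl⟩
        exact ⟨⟨p, hp⟩, rfl⟩
    rw [Set.finrank, hrange, ← LBar95.Lbar_eq_span, LBar95.finrank_Lbar, Fintype.card_coe, hW,
      Level33.card_IdxF]
    refine Finset.sum_congr rfl fun i _ => ?_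
    congr 1
  have : (LBar95.gen u ∘ (Subtype.val : s → Fin n × ℤ)) =
      (fun p : W => LBar95.gen u p.1) ∘ (fun p : s => (⟨p.1, hsW p.1 p.2⟩ : W)) := rfl
  rw [this]
  exact hWind.comp _ (fun p q h => Subtype.ext (congrArg (fun x : W => x.1) h))

include hι in
/-- the field `indep` of `Level33.LevelData` -/
theorem indep : LinearIndependent k (Level33.fam (fun i => ι (u i))) := by
  have hfam : Level33.fam (fun i => ι (u i)) = fun p => ιL ι (LBar95.gen u p) :=
    funext fun p => (map_gen ι hι u p).symm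
  rw [hfam]
  exact (linearIndependent_gen u).map' (ιL ι) (LinearMap.ker_eq_bot.mpr (ιL_injective ι))

end Transport

/-! ### the `[INT]` fields -/

section Fields

variable {K F : Type*} [Field K] [Field F] [Algebra K F] [Algebra (RatFunc K) F]
  [IsScalarTower K (RatFunc K) F] [Algebra K[X] F] [IsScalarTower K[X] (RatFunc K) F]
  [FiniteDimensional (RatFunc K) F] [Algebra.IsSeparable (RatFunc K) F]
variable {k Fb : Type*} [Field k] [Field Fb] [Algebra k Fb] [Algebra (RatFunc k) Fb]
  [IsScalarTower k (RatFunc k) Fb] [Algebra k[X] Fb] [IsScalarTower k[X] (RatFunc k) Fb]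
variable {A : ValuationSubring K} {O : ValuationSubring F} (π : A →+* k) (red : O →+* Fb)
variable (ι : Fb →ₐ[k] LaurentSeries k)
  (hι : ι (algebraMap (RatFunc k) Fb RatFunc.X) = jqModC k)
variable {n : ℕ} (u : Module.Basis (Fin n) (RatFunc k) Fb) (d : Fin n → ℤ)

include hι in
/-- the field `red_mem` of `Level33.LevelData`, with `ρ = ι ∘ red`, `ub = ι ∘ u`, `db = d` -/
theorem red_mem (hG : GaussInt95.IsGauss A O) {κ : Type*} [Fintype κ]
    {bas : Module.Basis κ (RatFunc K) F} (hb : GaussInt95.IsOrtho O bas)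
    (hred : GaussInt95.RedCompat π red) (hnb : LBar95.IsNormalBasis u d)
    {E E' : Divisor K F} (hE : ∀ v, E v = max 0 (-(v.ord (xF K F))))
    (hE' : ∀ v, E' v = max 0 (v.ord (xF K F))) (a b : ℕ) {y : F}
    (hy : y ∈ riemannRochSpace ((a : ℤ) • E + (b : ℤ) • E')) (hyO : y ∈ O) :
    ι (red ⟨y, hyO⟩) ∈ Level33.Lbar (fun i => ι (u i)) d a b := by
  rw [mem_Lbar_iff ι hι, LBar95.mem_Lbar_iff_isIntegral hnb]
  obtain ⟨h1, h2⟩ := LevelInt73.red_mem_integral π red hG hb hred hE hE' a b hy hyO
  refine ⟨?_, ?_⟩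
  · rw [zpow_natCast]
    exact h1
  · rw [← LBar95.X_zpow_smul_eq]
    exact h2

include hι in
/-- the field `root_mem` of `Level33.LevelData` -/
theorem root_mem' (hnb : LBar95.IsNormalBasis u d) (m a b : ℕ) (hm : 0 < m) (y : O)
    (hz : (ι (red y)) ^ m ∈
      Level33.Lbar (fun i => ι (u i)) d ((m * a : ℕ) : ℤ) ((m * b : ℕ) : ℤ)) :
    ι (red y) ∈ Level33.Lbar (fun i => ι (u i)) d a b :=
  root_mem ι hι u d hnb hm a b (red y) hz

end Fields

end Fermat.Agent.S18.LevelIntC73
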