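/-
S18 / LD-ASSEMBLY (helper29), part 3: `Level33.LevelData A M` from ONE frame.

`nonempty_levelData_of_frame`: given `S : BridgeKernel15.Frame A ι` with field
`modularFunctionFieldBar M`, base function `j` and residue `t = jqModC k`, the range condition,
the degree of the special fibre, the genus inequality and the lattice lemma, all remaining fields
of `LevelData` are assembled from the landed providers
(`LevelFF12`, `LevelInst29`, `GaussM29`, `LevelIntC73`, `LevelInstDWBar95`, `GenusField39`,
`SepInst72`).
-/
import Fermat.Agent.S18.LevelFF12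
import Fermat.Agent.S18.GaussM29
import Fermat.Agent.S18.LevelIntC73
import Fermat.Agent.S18.LevelInstDWBar95
import Fermat.Agent.S18.GenusField39
import Fermat.Agent.S18.SepInst72

set_option autoImplicit false
set_option linter.unusedSectionVars false
set_option linter.unusedVariables false
set_option linter.style.haveILetI false
set_option synthInstance.maxHeartbeats 400000
set_option maxHeartbeats 1600000

open ModularCurve AlgebraicCurve HahnSeries IntermediateField Polynomial Module

noncomputable section

namespace Fermat.Agent.S18.LevelAsm29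

open Fermat.Agent.S18.Spine33 Fermat.Agent.S18.Bridge28 Fermat.Agent.S18.BridgeKernel15
open Fermat.Agent.S18.LevelInst29 Fermat.Agent.S18.GaussM29
open Fermat.Agent.S20 Fermat.Agent.S20.T1 Fermat.Agent.S24

/-! ### the RatFunc setting on the special fibre -/

section SpecialFibre

variable (k : Type) [Field k] (M : ℕ) [NeZero M]

/-- `F̄_M` -/
abbrev FC : Type := ↥(modularFunctionFieldFullC k M)

/-- `F̄_M` as a `RatFunc k`-algebra, `X ↦ j̄` -/
@[reducible] def algRatC : Algebra (RatFunc k) (FC k M) :=
  T1Setup.algRat (SepInst72.transcendental_xbar k M)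

/-- `F̄_M` as a `k[X]`-algebra, `X ↦ j̄` -/
@[reducible] def algPolyC : Algebra k[X] (FC k M) :=
  T1Setup.algPoly (K := k) (SepInst72.xbar k M)

theorem towerKC :
    letI := algRatC k M
    IsScalarTower k (RatFunc k) (FC k M) :=
  T1Setup.isScalarTower_K (SepInst72.transcendental_xbar k M)

theorem towerPolyC :
    letI := algRatC k M
    letI := algPolyC k M
    IsScalarTower k[X] (RatFunc k) (FC k M) :=
  T1Setup.isScalarTower_poly (SepInst72.transcendental_xbar k M)

theorem finiteRatC (hM : (M : k) ≠ 0) :
    letI := algRatC k M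
    FiniteDimensional (RatFunc k) (FC k M) :=
  SepInst72.finiteDimensional_algRat k M hM

theorem sepRatC (hM : (M : k) ≠ 0) :
    letI := algRatC k M
    Algebra.IsSeparable (RatFunc k) (FC k M) :=
  SepInst72.isSeparable_algRat k M hM

theorem xMapsToJ :
    letI := algRatC k M
    ((algebraMap (RatFunc k) (FC k M) RatFunc.X : FC k M) : LaurentSeries k) = jqModC k :=
  SepInst72.algebraMap_X_coe k M

end SpecialFibre

/-! ### the assembly -/

section Assembly

variable (M : ℕ) [NeZero M] (A : ValuationSubring Kb) [IsAlgClosed (kA A)]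
  {ι : Type*} [Fintype ι] (S : Frame A ι) (hF : S.F = modularFunctionFieldBar M)

/-- the lattice lemma for the Gauss ring of a frame, in the shape of `LevelData.lattice` -/
def LatticeProp : Prop :=
  ∀ V : Submodule Kb (FK M), Module.Finite Kb V →
    ∃ (r : ℕ) (e : Fin r → FK M) (he : ∀ i, e i ∈ OF' S (modularFunctionFieldBar M) hF),
      r = finrank Kb V ∧ (∀ i, e i ∈ V) ∧
      LinearIndependent (kA A) (fun i => rhoF' S (modularFunctionFieldBar M) hF ⟨e i, he i⟩) ∧
      ∀ z ∈ V, z ∈ OF' S (modularFunctionFieldBar M) hF →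
        ∃ α : Fin r → Kb, (∀ i, α i ∈ A) ∧ z = ∑ i, α i • e i

/-- the degree of the special fibre -/
def DegProp : Prop :=
  letI := algRatC (kA A) M
  finrank (RatFunc (kA A)) (FC (kA A) M) = dedekindPsi M

/-- the genus inequality -/
def GenusProp (hM : (M : kA A) ≠ 0) : Prop :=
  letI := algRatC (kA A) M
  letI := algPolyC (kA A) M
  haveI := towerKC (kA A) M
  haveI := towerPolyC (kA A) M
  haveI := finiteRatC (kA A) M hM
  haveI := sepRatC (kA A) M hM
  LevelFF12.γnat M ≤ DW63.dwGenus (kA A) (FC (kA A) M)

theorem nonempty_levelData_of_frame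
    (hj : S.j = ((jF M : FK M) : LaurentSeries Kb))
    (ht : S.t = jqModC (kA A))
    (hM : (M : kA A) ≠ 0)
    (hrange : ∀ y : OF' S (modularFunctionFieldBar M) hF,
      rhoF' S (modularFunctionFieldBar M) hF y ∈ modularFunctionFieldFullC (kA A) M)
    (hdeg : DegProp M A)
    (hgenus : GenusProp M A hM)
    (hlattice : LatticeProp M A S hF) :
    Nonempty (Level33.LevelData A M) := by
  classical
  -- generic fibre instances
  letI := LevelFF12.algRatFM M
  letI := LevelFF12.algPolyFM M
  haveI := LevelFF12.towerK M
  haveI := LevelFF12.towerPoly M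
  haveI := LevelFF12.finiteRat M
  haveI := LevelFF12.sepRat M
  -- special fibre instances
  letI := algRatC (kA A) M
  letI := algPolyC (kA A) M
  haveI := towerKC (kA A) M
  haveI := towerPolyC (kA A) M
  haveI := finiteRatC (kA A) M hM
  haveI := sepRatC (kA A) M hM
  have hx : ((algebraMap (RatFunc Kb) (FK M) RatFunc.X : FK M) : LaurentSeries Kb) = S.j := by
    rw [hj]
    exact congrArg (fun y : FK M => (y : LaurentSeries Kb)) (LevelFF12.xF_eq M)
  have hxb : ((algebraMap (RatFunc (kA A)) (FC (kA A) M) RatFunc.X : FC (kA A) M) :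
      LaurentSeries (kA A)) = S.t := by
    rw [ht]; exact xMapsToJ (kA A) M
  have hι : (modularFunctionFieldFullC (kA A) M).val
      (algebraMap (RatFunc (kA A)) (FC (kA A) M) RatFunc.X) = jqModC (kA A) :=
    xMapsToJ (kA A) M
  -- Gauss data
  have hG := isGauss S (modularFunctionFieldBar M) hF hx
  have hO := isOrtho S (modularFunctionFieldBar M) hF hx
  have hred := redCompat S (modularFunctionFieldBar M) hF hx
    (modularFunctionFieldFullC (kA A) M) hrange hxb
  -- normal basis of the special fibre, indexed by `Fin (dedekindPsi M)`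
  have key : ∀ n' : ℕ, n' = finrank (RatFunc (kA A)) (FC (kA A) M) →
      ∃ (u : Basis (Fin n') (RatFunc (kA A)) (FC (kA A) M)) (d : Fin n' → ℤ),
        LBar95.IsNormalBasis u d := by
    rintro _ rfl
    exact DWBar95.exists_isNormalBasis
  obtain ⟨u, d, hnb⟩ := key (dedekindPsi M) hdeg.symm
  have hE : ∀ v : Place Kb (FK M), LevelFF12.E M v = max 0 (-(v.ord (xF Kb (FK M)))) := by
    intro v; rw [LevelFF12.xF_eq M]; exact LevelFF12.E_apply M v
  have hE' : ∀ v : Place Kb (FK M), LevelFF12.E' M v = max 0 (v.ord (xF Kb (FK M))) := by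
    intro v; rw [LevelFF12.xF_eq M]; exact LevelFF12.E'_apply M v
  refine ⟨{
    O := OF' S (modularFunctionFieldBar M) hF
    ρ := rhoF' S (modularFunctionFieldBar M) hF
    ker_ρ := ker_rhoF' S _ hF
    ρ_incl := rhoF'_incl S _ hF
    const_mem := const_mem_OF' S _ hF
    ρ_const := rhoF'_const S _ hF
    hval := hval_OF' S _ hF
    hasPD := LevelFF12.hasPD M
    deg_pos := LevelFF12.deg_pos M
    const := LevelFF12.const M
    E := LevelFF12.E M
    E' := LevelFF12.E' M
    E_nonneg := LevelFF12.E_nonneg M
    E'_nonneg := LevelFF12.E'_nonneg M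
    disj := LevelFF12.disj M
    n := dedekindPsi M
    deg_E := LevelFF12.deg_E M
    deg_E' := LevelFF12.deg_E' M
    γ := LevelFF12.γ M
    rr_finite := LevelFF12.rr_finite M
    riemann := LevelFF12.riemann M
    ub := fun i => (modularFunctionFieldFullC (kA A) M).val (u i)
    db := d
    indep := LevelIntC73.indep _ hι u
    one_mem := LevelIntC73.one_mem _ hι u d hnb
    genus := ?_
    red_mem := ?_
    root_mem := ?_
    lattice := hlattice }⟩
  · -- genus
    have h1 := GenusField39.genus_field M (kA A) (FC (kA A) M) u d hnb.fin hnb.inf hgenus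
    exact h1
  · -- red_mem
    intro a b y hy hyO
    exact LevelIntC73.red_mem (IsLocalRing.residue A)
      (redTo S (modularFunctionFieldBar M) hF (modularFunctionFieldFullC (kA A) M) hrange)
      _ hι u d hG hO hred hnb hE hE' a b hy hyO
  · -- root_mem
    intro m a b hm y hz
    exact LevelIntC73.root_mem' (redTo S (modularFunctionFieldBar M) hF
      (modularFunctionFieldFullC (kA A) M) hrange) _ hι u d hnb m a b hm y hz

end Assembly

end Fermat.Agent.S18.LevelAsm29
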