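/-
S18 / [GENUSEQ] (helper8): the genus comparison `g(F_M) ≤ ḡ(F̄_M)` of blueprint 14 (O3) in the
CUSP-LITE form of report #1374 (helper3), abstract part.

Setting = helper63's DW63 "separable RatFunc setting" over an algebraically closed field `K` of any
characteristic, for a tower `RatFunc K ⊆ F ⊆ F'` (helper92's RH92 setting).

* `gam2_eq`          : `RH92.gam2 K F = 2 * dwGenus K F - 2`  (Dedekind–Weber, DW63);
* `genus_tower_le`   : `[F':F] * (2 g(F) - 2 + c(F)) ≤ 2 g(F') - 2 + c(F')`  (Riemann–Hurwitz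
  inequality, any characteristic; `c = cInf` = number of primes of `Binf`);
* `le_dwGenus_of_inputs` : the arithmetic of (GENUSEQ'): from the char-`0` value
  `6 (2 g - 2) = ψ₁ - 6 c₁`, the base-level identity `ψ₀ + 12 = 6 c₀`, (C-BASE) `c₀ ≤ c(F)` and
  (C-SEMI) `c(F') + g(F') ≤ c₁ + g` conclude `g ≤ g(F')`.
Complete proofs.
-/
import Fermat.Agent.S18.DW63.Genus
import Fermat.Agent.S18.RH92.RatFunc
import Fermat.Agent.S20.T1Setup
import Fermat.Agent.S20.T1.FF

set_option autoImplicit false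
set_option linter.unusedSectionVars false
set_option linter.style.haveILetI false

open Polynomial Module

noncomputable section

namespace Fermat.Agent.S18.GenusEq8

open Fermat.Agent.S20.NormalBasis (Oinf)
open Fermat.Agent.S20 Fermat.Agent.S20.T1
open Fermat.Agent.S18.DW63 Fermat.Agent.S18.RH92

section Single

variable (K F : Type*) [Field K] [IsAlgClosed K] [Field F] [Algebra K F] [Algebra (RatFunc K) F]
  [IsScalarTower K (RatFunc K) F] [Algebra K[X] F] [IsScalarTower K[X] (RatFunc K) F]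
  [FiniteDimensional (RatFunc K) F] [Algebra.IsSeparable (RatFunc K) F]

/-- helper92's `gam2` is `2 g - 2` for helper63's Dedekind–Weber genus. -/
theorem gam2_eq : gam2 K F = 2 * (dwGenus K F : ℤ) - 2 := by
  rw [two_mul_dwGenus_sub_two, degree_diffDiv, ramSumFin_eq_finrank, ramSumInf_eq_finrank]
  unfold gam2 Dfin Dinf
  ring

end Single

section Tower

variable (K F F' : Type*) [Field K] [IsAlgClosed K] [Field F] [Field F']
  [Algebra K F] [Algebra (RatFunc K) F] [IsScalarTower K (RatFunc K) F]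
  [Algebra K[X] F] [IsScalarTower K[X] (RatFunc K) F]
  [Algebra K F'] [Algebra (RatFunc K) F'] [IsScalarTower K (RatFunc K) F']
  [Algebra K[X] F'] [IsScalarTower K[X] (RatFunc K) F']
  [Algebra F F'] [IsScalarTower (RatFunc K) F F']
  [FiniteDimensional (RatFunc K) F] [Algebra.IsSeparable (RatFunc K) F]
  [FiniteDimensional (RatFunc K) F'] [Algebra.IsSeparable (RatFunc K) F']

/-- **Riemann–Hurwitz inequality (any characteristic)** for the Dedekind–Weber genus:
`[F':F] * (2 g(F) - 2 + c(F)) ≤ 2 g(F') - 2 + c(F')`. -/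
theorem genus_tower_le :
    (finrank F F' : ℤ) * (2 * (dwGenus K F : ℤ) - 2 + cInf K F) ≤
      2 * (dwGenus K F' : ℤ) - 2 + cInf K F' := by
  have h := gam2_lower_bound K F F'
  rwa [gam2_eq, gam2_eq] at h

/-- **(GENUSEQ')**, arithmetic of report #1374: the genus does not drop. -/
theorem le_dwGenus_of_inputs {ψ₀ ψ₁ c₀ c₁ g : ℕ}
    (hn0 : finrank (RatFunc K) F = ψ₀) (hn1 : finrank (RatFunc K) F' = ψ₁)
    (hbase : ψ₀ + 12 = 6 * c₀)
    (hchar0 : 6 * (2 * (g : ℤ) - 2) = (ψ₁ : ℤ) - 6 * c₁)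
    (hCbase : c₀ ≤ cInf K F)
    (hCsemi : cInf K F' + dwGenus K F' ≤ c₁ + g) :
    g ≤ dwGenus K F' := by
  have htow := genus_tower_le K F F'
  have hmul : finrank (RatFunc K) F * finrank F F' = finrank (RatFunc K) F' :=
    finrank_mul_finrank (RatFunc K) F F'
  rw [hn0, hn1] at hmul
  have hmulZ : (ψ₀ : ℤ) * (finrank F F' : ℤ) = (ψ₁ : ℤ) := by exact_mod_cast hmul
  have hbaseZ : (ψ₀ : ℤ) + 12 = 6 * (c₀ : ℤ) := by exact_mod_cast hbase
  have hCbaseZ : (c₀ : ℤ) ≤ (cInf K F : ℤ) := by exact_mod_cast hCbase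
  have hCsemiZ : (cInf K F' : ℤ) + (dwGenus K F' : ℤ) ≤ (c₁ : ℤ) + (g : ℤ) := by
    exact_mod_cast hCsemi
  have hn' : (0 : ℤ) ≤ (finrank F F' : ℤ) := Int.natCast_nonneg _
  have hg0 : (0 : ℤ) ≤ (dwGenus K F : ℤ) := Int.natCast_nonneg _
  -- `n' * (c₀ - 2) ≤ n' * (2 ḡ₀ - 2 + c̄₀)`
  have hstep : (finrank F F' : ℤ) * ((c₀ : ℤ) - 2) ≤
      (finrank F F' : ℤ) * (2 * (dwGenus K F : ℤ) - 2 + cInf K F) :=
    mul_le_mul_of_nonneg_left (by linarith) hn'
  -- `6 n' (c₀ - 2) = ψ₁`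
  have hpsi : 6 * ((finrank F F' : ℤ) * ((c₀ : ℤ) - 2)) = (ψ₁ : ℤ) := by
    have : 6 * ((c₀ : ℤ) - 2) = (ψ₀ : ℤ) := by linarith
    calc 6 * ((finrank F F' : ℤ) * ((c₀ : ℤ) - 2))
        = (finrank F F' : ℤ) * (6 * ((c₀ : ℤ) - 2)) := by ring
      _ = (finrank F F' : ℤ) * (ψ₀ : ℤ) := by rw [this]
      _ = (ψ₁ : ℤ) := by rw [mul_comm]; exact hmulZ
  have hfin : (g : ℤ) ≤ (dwGenus K F' : ℤ) := by linarith
  exact_mod_cast hfin

end Tower

/-! ### Two subfields `E₀ ≤ E₁` of an ambient field -/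

section Subfields

open Fermat.Agent.S24

variable {k Ω : Type*} [Field k] [IsAlgClosed k] [Field Ω] [Algebra k Ω]
  {E₀ E₁ : IntermediateField k Ω} (h01 : E₀ ≤ E₁)
  [Algebra (RatFunc k) E₁] [IsScalarTower k (RatFunc k) E₁] [Algebra k[X] E₁]
  [IsScalarTower k[X] (RatFunc k) E₁]
  [FiniteDimensional (RatFunc k) E₁] [Algebra.IsSeparable (RatFunc k) E₁]

/-- **(GENUSEQ'), subfield form.**  `E₀ ≤ E₁` subfields of an ambient field `Ω / k`, `E₁` carrying
ANY separable RatFunc-setting instances whose coordinate `xF k E₁` comes from `x₀ ∈ E₀`.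
The RatFunc-setting of `E₀` is built inside the proof, so all hypotheses on `E₀` are
instance-free (`S24.degOver`, `S24.placesOverInfty`). -/
theorem le_dwGenus_of_le (x₀ : E₀) (hx : xF k E₁ = IntermediateField.inclusion h01 x₀)
    {ψ₀ ψ₁ c₀ c₁ g : ℕ}
    (hdeg0 : degOver k x₀ = ψ₀) (hdeg1 : finrank (RatFunc k) E₁ = ψ₁)
    (hbase : ψ₀ + 12 = 6 * c₀)
    (hchar0 : 6 * (2 * (g : ℤ) - 2) = (ψ₁ : ℤ) - 6 * c₁)
    (hCbase : c₀ ≤ (placesOverInfty k x₀).ncard)
    (hCsemi : cInf k E₁ + dwGenus k E₁ ≤ c₁ + g) :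
    g ≤ dwGenus k E₁ := by
  letI algE : Algebra E₀ E₁ := (IntermediateField.inclusion h01).toRingHom.toAlgebra
  haveI towk : IsScalarTower k E₀ E₁ :=
    IsScalarTower.of_algebraMap_eq fun c => ((IntermediateField.inclusion h01).commutes c).symm
  have hinj : Function.Injective (algebraMap E₀ E₁) := (algebraMap E₀ E₁).injective
  have htr1 : Transcendental k (xF k E₁) := transcendental_xF k E₁
  have htr0 : Transcendental k x₀ := by
    rw [hx] at htr1
    exact (transcendental_algebraMap_iff hinj).mp htr1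
  letI := T1Setup.algRat htr0
  letI := T1Setup.algPoly (K := k) x₀
  haveI := T1Setup.isScalarTower_K htr0
  haveI := T1Setup.isScalarTower_poly htr0
  haveI towR : IsScalarTower (RatFunc k) E₀ E₁ := by
    refine IsScalarTower.of_algebraMap_eq fun r => ?_
    have hhom : algebraMap (RatFunc k) E₁ =
        (algebraMap E₀ E₁).comp (algebraMap (RatFunc k) E₀) := by
      refine IsFractionRing.ringHom_ext (A := k[X]) fun p => ?_
      rw [RingHom.comp_apply, ← IsScalarTower.algebraMap_apply k[X] (RatFunc k) E₁,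
        algebraMap_poly_eq_aeval_xF, hx, T1Setup.algebraMap_rat_apply, T1Setup.ratHom_algebraMap]
      exact (Polynomial.aeval_algHom_apply (IntermediateField.inclusion h01) x₀ p)
    exact RingHom.congr_fun hhom r
  haveI : FiniteDimensional (RatFunc k) E₀ := FiniteDimensional.left (RatFunc k) E₀ E₁
  haveI : Algebra.IsSeparable (RatFunc k) E₀ :=
    Algebra.isSeparable_tower_bot_of_isSeparable (RatFunc k) E₀ E₁
  have hn0 : finrank (RatFunc k) E₀ = ψ₀ := by
    rw [T1Setup.finrank_eq htr0]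
    exact hdeg0
  have hxF0 : xF k E₀ = x₀ := T1Setup.algebraMap_X htr0
  have hCbase' : c₀ ≤ cInf k E₀ := by
    rw [cInf_eq_ncard_placesOverInfty, hxF0]
    exact hCbase
  exact le_dwGenus_of_inputs k E₀ E₁ hn0 hdeg1 hbase hchar0 hCbase' hCsemi

end Subfields

end Fermat.Agent.S18.GenusEq8
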