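/-
S18 / [GENUSEQ] (helper8): the genus comparison at the modular function fields.

`F_M = modularFunctionFieldBar M` over `ℚ̄` (char `0`) versus
`F̄_M = modularFunctionFieldFullC k M` over an algebraically closed field `k` (char `ℓ ∤ M` in the
application), both in the (separable) RatFunc setting of S20/T1 + DW63 with coordinate `j`, for a
level `M` divisible by the torsion-free base level `M₀ ∈ {4, 9}`.

`dwGenus_FM_le` :  `g(F_M) ≤ ḡ(F̄_M)`  from
* the degrees `[F̄_{M₀} : k(j̄)] = ψ(M₀)`, `[F̄_M : k(j̄)] = ψ(M)` ([BRIDGE] / S28 KEY),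
* (C-BASE) `cuspCount M₀ ≤ #{places of F̄_{M₀} over j̄ = ∞}`,
* (C-SEMI) `c̄_M + ḡ_M ≤ cuspCount M + g_M`,
the char-`0` value `6 (2 g_M - 2) = ψ(M) - 6 cuspCount M` (helper39 `Char0Diff39`) and the
characteristic-free Riemann–Hurwitz inequality (`GenusEq8.le_dwGenus_of_le`: helper63 DW63 +
helper92 RH92).  The RatFunc-setting of `F̄_{M₀}` is built inside the proofs.
Complete proofs.
-/
import Fermat.Agent.S18.GenusEq8
import Fermat.Agent.S18.Char0Diff39
import Fermat.Agent.S18.Char0Num34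
import Fermat.Prelude.Def_ModularCurve_X0ModL

set_option autoImplicit false
set_option linter.unusedSectionVars false
set_option linter.style.haveILetI false
set_option synthInstance.maxHeartbeats 400000
set_option maxHeartbeats 1600000

open Polynomial Module ModularCurve

noncomputable section

namespace Fermat.Agent.S18.GenusEqMod8

open Fermat.Agent.S20.NormalBasis (Oinf)
open Fermat.Agent.S20 Fermat.Agent.S20.T1 Fermat.Agent.S24
open Fermat.Agent.S18.DW63 Fermat.Agent.S18.RH92 Fermat.Agent.S18.GenusEq8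

/-- The `j`-function as an element of `F̄_M = modularFunctionFieldFullC k M`. -/
def jC (k : Type*) [Field k] (M : ℕ) [NeZero M] : ↥(modularFunctionFieldFullC k M) :=
  ⟨jqModC k, jqModC_mem_full k M⟩

theorem inclusion_jC (k : Type*) [Field k] {M₀ M : ℕ} [NeZero M₀] [NeZero M] (h : M₀ ∣ M) :
    IntermediateField.inclusion (full_degeneracyC_le k h) (jC k M₀) = jC k M := rfl

/-- the base-level identity `ψ(M₀) + 12 = 6 c(M₀)` for `M₀ ∈ {4, 9}`. -/
theorem base_identity {M₀ : ℕ} (hM₀ : M₀ = 4 ∨ M₀ = 9) :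
    dedekindPsi M₀ + 12 = 6 * cuspCount M₀ := by
  rcases hM₀ with rfl | rfl
  · rw [Char0Num34.dedekindPsi_four, Char0Num34.cuspCount_four]
  · rw [Char0Num34.dedekindPsi_nine, Char0Num34.cuspCount_nine]

section Char0

variable (M : ℕ) [NeZero M]
variable [Algebra (RatFunc Kbar) (FN M)] [IsScalarTower Kbar (RatFunc Kbar) (FN M)]
  [Algebra Kbar[X] (FN M)] [IsScalarTower Kbar[X] (RatFunc Kbar) (FN M)]
  [FiniteDimensional (RatFunc Kbar) (FN M)] [Algebra.IsSeparable (RatFunc Kbar) (FN M)]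

/-- **char 0**: `6 (2 g(F_M) - 2) = ψ(M) - 6 cuspCount M` for the Dedekind–Weber genus. -/
theorem six_mul_dwGenus_FM (hx : xF Kbar (FN M) = jF M) (hM : 4 ∣ M ∨ 9 ∣ M) :
    6 * (2 * (dwGenus Kbar (FN M) : ℤ) - 2) = (dedekindPsi M : ℤ) - 6 * cuspCount M := by
  have h := Char0Diff39.six_mul_gam2_FM M hx hM
  have h2 := gam2_eq Kbar (FN M)
  unfold gam2 Dfin Dinf at h2
  rw [← h2, ← h]
  ring

end Char0

section Main

variable (M₀ M : ℕ) [NeZero M₀] [NeZero M]
variable [Algebra (RatFunc Kbar) (FN M)] [IsScalarTower Kbar (RatFunc Kbar) (FN M)]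
  [Algebra Kbar[X] (FN M)] [IsScalarTower Kbar[X] (RatFunc Kbar) (FN M)]
  [FiniteDimensional (RatFunc Kbar) (FN M)] [Algebra.IsSeparable (RatFunc Kbar) (FN M)]
variable (k : Type) [Field k] [IsAlgClosed k]
variable [Algebra (RatFunc k) ↥(modularFunctionFieldFullC k M)]
  [IsScalarTower k (RatFunc k) ↥(modularFunctionFieldFullC k M)]
  [Algebra k[X] ↥(modularFunctionFieldFullC k M)]
  [IsScalarTower k[X] (RatFunc k) ↥(modularFunctionFieldFullC k M)]
  [FiniteDimensional (RatFunc k) ↥(modularFunctionFieldFullC k M)]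
  [Algebra.IsSeparable (RatFunc k) ↥(modularFunctionFieldFullC k M)]

/-- **[GENUSEQ], `≥` half**: the Dedekind–Weber genus of the special fibre is at least the genus
of the generic fibre, at every level `M` divisible by the base level `M₀ ∈ {4, 9}`. -/
theorem dwGenus_FM_le (hM₀ : M₀ = 4 ∨ M₀ = 9) (hdvd : M₀ ∣ M)
    (hxK : xF Kbar (FN M) = jF M)
    (hxk : xF k ↥(modularFunctionFieldFullC k M) = jC k M)
    (hdeg0 : degOver k (jC k M₀) = dedekindPsi M₀)
    (hdeg1 : finrank (RatFunc k) ↥(modularFunctionFieldFullC k M) = dedekindPsi M)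
    (hCbase : cuspCount M₀ ≤ (placesOverInfty k (jC k M₀)).ncard)
    (hCsemi : cInf k ↥(modularFunctionFieldFullC k M) + dwGenus k ↥(modularFunctionFieldFullC k M)
      ≤ cuspCount M + dwGenus Kbar (FN M)) :
    dwGenus Kbar (FN M) ≤ dwGenus k ↥(modularFunctionFieldFullC k M) := by
  have hM : 4 ∣ M ∨ 9 ∣ M := by
    rcases hM₀ with rfl | rfl
    · exact Or.inl hdvd
    · exact Or.inr hdvd
  exact le_dwGenus_of_le (full_degeneracyC_le k hdvd) (jC k M₀)
    (by rw [hxk]; exact (inclusion_jC k hdvd).symm) hdeg0 hdeg1 (base_identity hM₀)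
    (six_mul_dwGenus_FM M hxK hM) hCbase hCsemi

/-- **[GENUSEQ]**: with the lattice inequality `ḡ ≤ g` the two genera agree. -/
theorem dwGenus_FM_eq (hM₀ : M₀ = 4 ∨ M₀ = 9) (hdvd : M₀ ∣ M)
    (hxK : xF Kbar (FN M) = jF M)
    (hxk : xF k ↥(modularFunctionFieldFullC k M) = jC k M)
    (hdeg0 : degOver k (jC k M₀) = dedekindPsi M₀)
    (hdeg1 : finrank (RatFunc k) ↥(modularFunctionFieldFullC k M) = dedekindPsi M)
    (hCbase : cuspCount M₀ ≤ (placesOverInfty k (jC k M₀)).ncard)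
    (hCsemi : cInf k ↥(modularFunctionFieldFullC k M) + dwGenus k ↥(modularFunctionFieldFullC k M)
      ≤ cuspCount M + dwGenus Kbar (FN M))
    (hlat : dwGenus k ↥(modularFunctionFieldFullC k M) ≤ dwGenus Kbar (FN M)) :
    dwGenus k ↥(modularFunctionFieldFullC k M) = dwGenus Kbar (FN M) :=
  le_antisymm hlat (dwGenus_FM_le M₀ M k hM₀ hdvd hxK hxk hdeg0 hdeg1 hCbase hCsemi)

end Main

end Fermat.Agent.S18.GenusEqMod8
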