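/-
S18 moonshot (blueprint 14), abstract Mathlib-only lemmas (helper56), offered to the [GAUSS] and
[KLEMMA] packages:

* `exists_orthonormal_basis` (LATTICE LEMMA, pivoting in `(L^N, sup)` over ANY valuation ring,
  no completeness, no discreteness): for a subspace `V ≤ ι → L` the lattice `V ∩ A^ι` is free over
  `A` on an `L`-basis of `V` whose reductions are linearly independent over the residue field.
* `dvd_of_injective` (CRAMER LEMMA): an injective `A`-linear map `φ` between finite free modules
  over a domain has a nonzero `δ` with: `φ ξ ∈ π • M`, `ξ` primitive `⟹ π ∣ δ`.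
-/
import Mathlib

set_option autoImplicit false

namespace Fermat.Agent.S18.ValLattice56

open IsLocalRing

section Lattice

variable {L : Type*} [Field L] (A : ValuationSubring L) {ι : Type*}

/-- integrality of a vector: all coordinates in the valuation ring -/
def IsInt (x : ι → L) : Prop := ∀ i, x i ∈ A

open Classical in
/-- the reduction of a vector (junk value `0` at non-integral coordinates) -/
noncomputable def red (x : ι → L) : ι → ResidueField A :=
  fun i => if h : x i ∈ A then residue A ⟨x i, h⟩ else 0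

theorem red_apply_of_mem {x : ι → L} {i : ι} (h : x i ∈ A) :
    red A x i = residue A ⟨x i, h⟩ := by
  simp [red, h]

theorem red_apply_zero {x : ι → L} {i : ι} (h : x i = 0) : red A x i = 0 := by
  have h0 : x i ∈ A := by rw [h]; exact A.zero_mem
  rw [red_apply_of_mem A h0]
  have : (⟨x i, h0⟩ : A) = 0 := Subtype.ext h
  rw [this, map_zero]

theorem red_apply_one {x : ι → L} {i : ι} (h : x i = 1) : red A x i = 1 := by
  have h0 : x i ∈ A := by rw [h]; exact A.one_mem
  rw [red_apply_of_mem A h0]
  have : (⟨x i, h0⟩ : A) = 1 := Subtype.ext h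
  rw [this, map_one]

variable [Fintype ι]

/-- In a valuation ring, a vector has a pivot coordinate of maximal absolute value. -/
theorem exists_pivot [Nonempty ι] (x : ι → L) :
    ∃ i₀, ∀ i, A.valuation (x i) ≤ A.valuation (x i₀) := by
  classical
  obtain ⟨i₀, -, h⟩ := Finset.exists_max_image Finset.univ (fun i => A.valuation (x i))
    Finset.univ_nonempty
  exact ⟨i₀, fun i => h i (Finset.mem_univ i)⟩

/-- normalising a nonzero vector at a pivot -/
theorem exists_normalized {x : ι → L} (hx : x ≠ 0) :
    ∃ (i₀ : ι) (c : L), c ≠ 0 ∧ (c • x) i₀ = 1 ∧ IsInt A (c • x) := by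
  have hne : Nonempty ι := by
    by_contra h
    rw [not_nonempty_iff] at h
    exact hx (Subsingleton.elim _ _)
  obtain ⟨i₀, hi₀⟩ := exists_pivot A x
  have hx0 : x i₀ ≠ 0 := by
    intro h0
    apply hx
    funext i
    have := hi₀ i
    rw [h0, map_zero] at this
    simpa using this
  refine ⟨i₀, (x i₀)⁻¹, inv_ne_zero hx0, by simp [hx0], fun i => ?_⟩
  rw [Pi.smul_apply, smul_eq_mul, ← A.valuation_le_one_iff, map_mul, map_inv₀]
  have hv : A.valuation (x i₀) ≠ 0 := by simpa using hx0
  rw [inv_mul_le_iff₀ (zero_lt_iff.mpr hv), mul_one]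
  exact hi₀ i

/-- The statement of the lattice lemma for a subspace `V`. -/
def HasOrthonormalBasis (V : Submodule L (ι → L)) : Prop :=
  ∃ (d : ℕ) (b : Fin d → (ι → L)),
    (∀ j, b j ∈ V) ∧ (∀ j, IsInt A (b j)) ∧ LinearIndependent L b ∧
    V ≤ Submodule.span L (Set.range b) ∧
    LinearIndependent (ResidueField A) (fun j => red A (b j)) ∧
    ∀ x ∈ V, IsInt A x → ∃ c : Fin d → A, x = ∑ j, (c j : L) • b j

theorem hasOrthonormalBasis_aux :
    ∀ (n : ℕ) (V : Submodule L (ι → L)), Module.finrank L V = n → HasOrthonormalBasis A V := by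
  intro n
  induction n with
  | zero =>
    intro V hV
    have hbot : V = ⊥ := Submodule.finrank_eq_zero.mp hV
    refine ⟨0, Fin.elim0, fun j => j.elim0, fun j => j.elim0, linearIndependent_empty_type, ?_,
      linearIndependent_empty_type, ?_⟩
    · rw [hbot]; exact bot_le
    · intro x hx _
      rw [hbot, Submodule.mem_bot] at hx
      exact ⟨Fin.elim0, by simp [hx]⟩
  | succ n ih =>
    intro V hV
    -- a nonzero vector of `V`
    have hne : V ≠ ⊥ := by
      intro h
      rw [h, finrank_bot] at hV
      omega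
    obtain ⟨x, hxV, hx0⟩ := Submodule.exists_mem_ne_zero_of_ne_bot hne
    obtain ⟨i₀, c, hc, hpiv, hint⟩ := exists_normalized A hx0
    set b₁ : ι → L := c • x with hb₁
    have hb₁V : b₁ ∈ V := V.smul_mem c hxV
    -- the hyperplane section
    set V' : Submodule L (ι → L) := V ⊓ LinearMap.ker (LinearMap.proj (R := L) (φ := fun _ => L) i₀)
      with hV'
    have hmemV' : ∀ y, y ∈ V' ↔ y ∈ V ∧ y i₀ = 0 := by
      intro y
      rw [hV', Submodule.mem_inf, LinearMap.mem_ker]
      rfl
    -- decomposition
    have hdec : ∀ y ∈ V, y - (y i₀) • b₁ ∈ V' := by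
      intro y hy
      rw [hmemV']
      refine ⟨V.sub_mem hy (V.smul_mem _ hb₁V), ?_⟩
      simp [hpiv]
    have hb₁V' : b₁ ∉ V' := by
      intro h
      rw [hmemV'] at h
      rw [hpiv] at h
      exact one_ne_zero h.2
    -- finrank V' = n
    have hrank : Module.finrank L V' = n := by
      have hle : V' ≤ V := inf_le_left
      have hsup : V' ⊔ Submodule.span L {b₁} = V := by
        apply le_antisymm
        · exact sup_le hle ((Submodule.span_singleton_le_iff_mem _ _).mpr hb₁V)
        · intro y hy
          have : y = (y - (y i₀) • b₁) + (y i₀) • b₁ := by abel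
          rw [this]
          exact Submodule.add_mem_sup (hdec y hy)
            (Submodule.smul_mem _ _ (Submodule.mem_span_singleton_self _))
      have hinf : V' ⊓ Submodule.span L {b₁} = ⊥ := by
        rw [eq_bot_iff]
        intro y hy
        obtain ⟨hy1, hy2⟩ := Submodule.mem_inf.mp hy
        obtain ⟨a, rfl⟩ := Submodule.mem_span_singleton.mp hy2
        have := ((hmemV' _).mp hy1).2
        rw [Pi.smul_apply, hpiv, smul_eq_mul, mul_one] at this
        rw [this, zero_smul]
        exact Submodule.zero_mem _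
      have hb₁0 : b₁ ≠ 0 := by
        intro h
        rw [h] at hpiv
        simp at hpiv
      have h1 := Submodule.finrank_sup_add_finrank_inf_eq V' (Submodule.span L {b₁})
      rw [hsup, hinf, finrank_bot, finrank_span_singleton hb₁0, hV] at h1
      omega
    obtain ⟨d, b, hbV, hbint, hbli, hbspan, hbred, hbA⟩ := ih V' hrank
    have hb0 : ∀ j, b j i₀ = 0 := fun j => ((hmemV' _).mp (hbV j)).2
    refine ⟨d + 1, Fin.cons b₁ b, ?_, ?_, ?_, ?_, ?_, ?_⟩
    · intro j
      refine Fin.cases ?_ (fun j' => ?_) j
      · simpa using hb₁V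
      · simpa using ((hmemV' _).mp (hbV j')).1
    · intro j
      refine Fin.cases ?_ (fun j' => ?_) j
      · simpa using hint
      · simpa using hbint j'
    · rw [linearIndependent_finCons]
      refine ⟨hbli, ?_⟩
      intro hmem
      have hle : Submodule.span L (Set.range b) ≤ V' :=
        Submodule.span_le.mpr (by rintro _ ⟨j, rfl⟩; exact hbV j)
      exact hb₁V' (hle hmem)
    · intro y hy
      have h1 : y - (y i₀) • b₁ ∈ Submodule.span L (Set.range (Fin.cons b₁ b : Fin (d + 1) → _)) := by
        refine Submodule.span_mono ?_ (hbspan (hdec y hy))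
        rintro _ ⟨j, rfl⟩
        exact ⟨j.succ, by simp⟩
      have h2 : (y i₀) • b₁ ∈ Submodule.span L (Set.range (Fin.cons b₁ b : Fin (d + 1) → _)) :=
        Submodule.smul_mem _ _ (Submodule.subset_span ⟨0, by simp⟩)
      have : y = (y - (y i₀) • b₁) + (y i₀) • b₁ := by abel
      rw [this]
      exact Submodule.add_mem _ h1 h2
    · have hcons : (fun j : Fin (d + 1) => red A ((Fin.cons b₁ b : Fin (d + 1) → _) j)) =
          Fin.cons (red A b₁) (fun j => red A (b j)) := by
        funext j
        refine Fin.cases ?_ (fun j' => ?_) j <;> simp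
      rw [hcons, linearIndependent_finCons]
      refine ⟨hbred, ?_⟩
      intro hmem
      -- every element of the span has `i₀`-coordinate `0`
      have hspan0 : ∀ w ∈ Submodule.span (ResidueField A) (Set.range fun j => red A (b j)),
          w i₀ = 0 := by
        intro w hw
        induction hw using Submodule.span_induction with
        | mem w hw =>
          obtain ⟨j, rfl⟩ := hw
          exact red_apply_zero A (hb0 j)
        | zero => rfl
        | add u w _ _ hu hw => rw [Pi.add_apply, hu, hw, add_zero]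
        | smul a w _ hw => rw [Pi.smul_apply, hw, smul_zero]
      have h1 := hspan0 _ hmem
      rw [red_apply_one A hpiv] at h1
      exact one_ne_zero h1
    · intro y hy hyint
      have hy' := hdec y hy
      have hyint' : IsInt A (y - (y i₀) • b₁) := by
        intro i
        rw [Pi.sub_apply, Pi.smul_apply, smul_eq_mul]
        exact sub_mem (hyint i) (A.mul_mem _ _ (hyint i₀) (hint i))
      obtain ⟨c', hc'⟩ := hbA _ hy' hyint'
      refine ⟨Fin.cons ⟨y i₀, hyint i₀⟩ c', ?_⟩
      rw [Fin.sum_univ_succ]
      simp only [Fin.cons_zero, Fin.cons_succ]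
      rw [← hc']
      abel

/-- **LATTICE LEMMA.** -/
theorem exists_orthonormal_basis (V : Submodule L (ι → L)) : HasOrthonormalBasis A V :=
  hasOrthonormalBasis_aux A _ V rfl

end Lattice


section Cramer

open Matrix

variable {A : Type*} [CommRing A] [IsDomain A] {ι κ : Type*} [Fintype ι] [Fintype κ]
  [DecidableEq ι] [DecidableEq κ]

/-- injectivity passes to the fraction field -/
theorem injective_map_fractionRing (Φ : Matrix κ ι A) (hinj : Function.Injective Φ.mulVec) :
    Function.Injective (Φ.map (algebraMap A (FractionRing A))).mulVec := by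
  classical
  set K := FractionRing A
  have hlin : ∀ v w : ι → K, (Φ.map (algebraMap A K)).mulVec (v - w) =
      (Φ.map (algebraMap A K)).mulVec v - (Φ.map (algebraMap A K)).mulVec w :=
    fun v w => Matrix.mulVec_sub _ v w
  intro v w hvw
  rw [← sub_eq_zero] at hvw ⊢
  rw [← hlin] at hvw
  set u := v - w with hu
  -- clear denominators
  obtain ⟨b, hb⟩ := IsLocalization.exist_integer_multiples_of_finite (nonZeroDivisors A) u
  choose w' hw' using hb
  have hb0 : (algebraMap A K) (b : A) ≠ 0 := by
    have := nonZeroDivisors.ne_zero b.2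
    simpa using this
  have h1 : (Φ.map (algebraMap A K)).mulVec (fun i => algebraMap A K (w' i)) = 0 := by
    have : (fun i => algebraMap A K (w' i)) = (algebraMap A K (b : A)) • u := by
      funext i
      rw [hw' i, Pi.smul_apply, Algebra.smul_def]
      rfl
    rw [this, Matrix.mulVec_smul, hvw, smul_zero]
  have h2 : Φ.mulVec w' = 0 := by
    funext j
    have := congrFun h1 j
    simp only [Matrix.mulVec, dotProduct, Matrix.map_apply, Pi.zero_apply] at this ⊢
    apply IsFractionRing.injective A K
    rw [map_sum, map_zero]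
    simpa [map_mul] using this
  have h3 : w' = 0 := hinj (by rw [h2, Matrix.mulVec_zero])
  funext i
  have := hw' i
  rw [h3, Pi.zero_apply, map_zero] at this
  have h4 : (algebraMap A K (b : A)) * u i = 0 := by
    rw [this, Algebra.smul_def]
  rcases mul_eq_zero.mp h4 with h | h
  · exact absurd h hb0
  · exact h

/-- **CRAMER LEMMA.** For an injective matrix `Φ` over a domain there are a nonzero `δ` and a
matrix `Ψ` with `Ψ * Φ = δ • 1`. -/
theorem exists_leftInverse_smul (Φ : Matrix κ ι A) (hinj : Function.Injective Φ.mulVec) :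
    ∃ (δ : A) (Ψ : Matrix ι κ A), δ ≠ 0 ∧ Ψ * Φ = δ • (1 : Matrix ι ι A) := by
  classical
  set K := FractionRing A
  set ΦK := Φ.map (algebraMap A K) with hΦK
  have hinjK := injective_map_fractionRing Φ hinj
  have hker : LinearMap.ker (Matrix.mulVecLin ΦK) = ⊥ := by
    rw [LinearMap.ker_eq_bot]
    exact hinjK
  obtain ⟨g, hg⟩ := LinearMap.exists_leftInverse_of_injective (Matrix.mulVecLin ΦK) hker
  set G : Matrix ι κ K := LinearMap.toMatrix' g with hG
  have hGΦ : G * ΦK = 1 := by
    have h1 : LinearMap.toMatrix' (g ∘ₗ Matrix.mulVecLin ΦK) = 1 := by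
      rw [hg]; exact LinearMap.toMatrix'_id
    rw [LinearMap.toMatrix'_comp, ← Matrix.toLin'_apply', LinearMap.toMatrix'_toLin'] at h1
    exact h1
  obtain ⟨b, hb⟩ := IsLocalization.exist_integer_multiples_of_finite (nonZeroDivisors A)
    (fun p : ι × κ => G p.1 p.2)
  choose e he using hb
  refine ⟨(b : A), Matrix.of (fun i j => e (i, j)), nonZeroDivisors.ne_zero b.2, ?_⟩
  have hmap : (Matrix.of (fun i j => e (i, j))).map (algebraMap A K) = (algebraMap A K (b : A)) • G := by
    ext i j
    rw [Matrix.map_apply, Matrix.of_apply, he (i, j), Matrix.smul_apply, Algebra.smul_def]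
    rfl
  have hinjmap : Function.Injective (fun M : Matrix ι ι A => M.map (algebraMap A K)) := by
    intro M N hMN
    ext i j
    have := congrFun (congrFun hMN i) j
    exact IsFractionRing.injective A K this
  apply hinjmap
  show (Matrix.of (fun i j => e (i, j)) * Φ).map (algebraMap A K) =
    ((b : A) • (1 : Matrix ι ι A)).map (algebraMap A K)
  rw [Matrix.map_mul, hmap, Matrix.smul_mul, hGΦ]
  ext i j
  rw [Matrix.smul_apply, Matrix.map_apply, Matrix.smul_apply]
  by_cases hij : i = j
  · subst hij; simp
  · simp [Matrix.one_apply_ne hij]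

/-- consequence used in [KLEMMA]: divisibility of `δ ξ` by `π` when `Φ ξ ∈ π • (κ → A)`. -/
theorem dvd_of_injective (Φ : Matrix κ ι A) (hinj : Function.Injective Φ.mulVec) :
    ∃ δ : A, δ ≠ 0 ∧ ∀ (ξ : ι → A) (π : A) (μ : κ → A), Φ.mulVec ξ = π • μ →
      ∀ i, π ∣ δ * ξ i := by
  obtain ⟨δ, Ψ, hδ, hΨ⟩ := exists_leftInverse_smul Φ hinj
  refine ⟨δ, hδ, fun ξ π μ h i => ?_⟩
  have h1 : Ψ.mulVec (Φ.mulVec ξ) = δ • ξ := by
    rw [Matrix.mulVec_mulVec, hΨ, Matrix.smul_mulVec, Matrix.one_mulVec]
  rw [h, Matrix.mulVec_smul] at h1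
  refine ⟨Ψ.mulVec μ i, ?_⟩
  have := congrFun h1 i
  simp only [Pi.smul_apply, smul_eq_mul] at this
  exact this.symm

/-- primitive version: if some coordinate of `ξ` is a unit then `π ∣ δ`. -/
theorem dvd_of_injective_of_isUnit (Φ : Matrix κ ι A) (hinj : Function.Injective Φ.mulVec) :
    ∃ δ : A, δ ≠ 0 ∧ ∀ (ξ : ι → A) (π : A) (μ : κ → A), Φ.mulVec ξ = π • μ →
      (∃ i, IsUnit (ξ i)) → π ∣ δ := by
  obtain ⟨δ, hδ, h⟩ := dvd_of_injective Φ hinj
  refine ⟨δ, hδ, fun ξ π μ hξ ⟨i, hi⟩ => ?_⟩
  have := h ξ π μ hξ i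
  exact (hi.dvd_mul_right).mp this

end Cramer

end Fermat.Agent.S18.ValLattice56
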