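/-
S18 moonshot (blueprint 14), package [GAUSS]-ORTHO (helper71).  Mathlib + ValLattice56 only.

Abstract valued-field linear algebra for the Gauss valuation `W` of a function field `F ⊇ L`:

* `IsOrthonormal O e` : a finite family `e : ι → F` in the valuation ring `O` such that every
  primitive integral `L`-combination is a unit of `O` (residue-field free formulation).
  Consequences: `sum_mem_iff`, `sum_mem_nonunits_iff`, `linearIndependent`.
* `exists_orthonormal_basis_of_le_span` : LATTICE LEMMA for every `L`-subspace `V` of the span of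
  an orthonormal family: `V` has an orthonormal basis (so `V ∩ O` is `A`-free on it, `A = O ∩ L`).
* `exists_orthonormal_basis_of_unit_mul` : same for `V` with `g • V ≤ span e`, `g` a unit of `O`.
-/
import Mathlib
import Fermat.Agent.S18.ValLattice56

set_option autoImplicit false

namespace Fermat.Agent.S18.GaussOrtho71

open Fermat.Agent.S18 IsLocalRing

section Basic

variable {F : Type*} [Field F] (O : ValuationSubring F)

theorem mem_nonunits_iff_inv {a : F} : a ∈ O.nonunits ↔ a = 0 ∨ a⁻¹ ∉ O := by
  rw [ValuationSubring.mem_nonunits_iff]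
  by_cases ha : a = 0
  · simp [ha]
  · simp only [ha, false_or]
    rw [← ValuationSubring.valuation_le_one_iff, map_inv₀, not_le]
    have hv : O.valuation a ≠ 0 := by simpa using ha
    rw [one_lt_inv₀ (zero_lt_iff.mpr hv)]

theorem nonunits_subset {a : F} (h : a ∈ O.nonunits) : a ∈ O := by
  rw [ValuationSubring.mem_nonunits_iff] at h
  exact (O.valuation_le_one_iff a).mp h.le

theorem valuation_eq_one_of {a : F} (h : a ∈ O) (h' : a ∉ O.nonunits) : O.valuation a = 1 := by
  rw [ValuationSubring.mem_nonunits_iff] at h'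
  exact le_antisymm ((O.valuation_le_one_iff a).mpr h) (not_lt.mp h')

theorem inv_mem_of_unit {a : F} (h : a ∈ O) (h' : a ∉ O.nonunits) : a⁻¹ ∈ O := by
  rw [← ValuationSubring.valuation_le_one_iff, map_inv₀, valuation_eq_one_of O h h', inv_one]

theorem ne_zero_of_unit {a : F} (h' : a ∉ O.nonunits) : a ≠ 0 := by
  rintro rfl
  apply h'
  rw [ValuationSubring.mem_nonunits_iff, map_zero]
  exact zero_lt_one

theorem mul_mem_nonunits_left {a b : F} (ha : a ∈ O.nonunits) (hb : b ∈ O) : a * b ∈ O.nonunits := by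
  rw [ValuationSubring.mem_nonunits_iff] at ha ⊢
  rw [map_mul]
  exact mul_lt_one_of_nonneg_of_lt_one_left zero_le ha ((O.valuation_le_one_iff b).mpr hb)

theorem mul_unit_mem_nonunits_iff {g a : F} (hg : g ∈ O) (hg' : g ∉ O.nonunits) :
    g * a ∈ O.nonunits ↔ a ∈ O.nonunits := by
  rw [ValuationSubring.mem_nonunits_iff, ValuationSubring.mem_nonunits_iff, map_mul,
    valuation_eq_one_of O hg hg', one_mul]

theorem mul_unit_mem_iff {g a : F} (hg : g ∈ O) (hg' : g ∉ O.nonunits) :
    g * a ∈ O ↔ a ∈ O := by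
  rw [← ValuationSubring.valuation_le_one_iff, ← ValuationSubring.valuation_le_one_iff, map_mul,
    valuation_eq_one_of O hg hg', one_mul]

end Basic

variable (L : Type*) {F : Type*} [Field L] [Field F] [Algebra L F] (O : ValuationSubring F)

/-- `A = O ∩ L`, the induced valuation ring of the constant field. -/
abbrev baseRing : ValuationSubring L := O.comap (algebraMap L F)

variable {L}

theorem mem_baseRing_iff {c : L} : c ∈ baseRing L O ↔ algebraMap L F c ∈ O := Iff.rfl

theorem mem_baseRing_nonunits_iff {c : L} :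
    c ∈ (baseRing L O).nonunits ↔ algebraMap L F c ∈ O.nonunits := by
  rw [mem_nonunits_iff_inv, mem_nonunits_iff_inv, mem_baseRing_iff, map_inv₀,
    map_eq_zero_iff _ (algebraMap L F).injective]

variable (L)

/-- A finite family of elements of `O` all of whose primitive integral `L`-combinations are
units of `O`. -/
structure IsOrthonormal {ι : Type*} [Fintype ι] (e : ι → F) : Prop where
  mem : ∀ i, e i ∈ O
  unit_of_primitive : ∀ u : ι → L, (∀ i, u i ∈ baseRing L O) →
    (∃ i, u i ∉ (baseRing L O).nonunits) → ∑ i, u i • e i ∉ O.nonunits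

namespace IsOrthonormal

variable {L O} {ι : Type*} [Fintype ι] {e : ι → F} (he : IsOrthonormal L O e)
include he

theorem smul_mem {c : L} (hc : c ∈ baseRing L O) (i : ι) : c • e i ∈ O := by
  rw [Algebra.smul_def]
  exact O.mul_mem _ _ hc (he.mem i)

theorem sum_mem_of_int {u : ι → L} (hu : ∀ i, u i ∈ baseRing L O) : ∑ i, u i • e i ∈ O :=
  O.sum_mem fun i _ => he.smul_mem (hu i) i

theorem sum_mem_iff (u : ι → L) : ∑ i, u i • e i ∈ O ↔ ∀ i, u i ∈ baseRing L O := by
  refine ⟨fun hS => ?_, he.sum_mem_of_int⟩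
  by_cases hu0 : u = 0
  · intro i; rw [hu0]; exact (baseRing L O).zero_mem
  obtain ⟨i₀, c, hc, hpiv, hint⟩ := ValLattice56.exists_normalized (baseRing L O) hu0
  -- the normalised combination is a unit of `O`
  have hprim : ∃ i, (c • u) i ∉ (baseRing L O).nonunits := by
    refine ⟨i₀, ?_⟩
    rw [hpiv, ValuationSubring.mem_nonunits_iff, map_one]
    exact lt_irrefl _
  have hunit := he.unit_of_primitive (c • u) hint hprim
  have hmem := he.sum_mem_of_int (u := c • u) hint
  have hsum : ∑ i, (c • u) i • e i = algebraMap L F c * ∑ i, u i • e i := by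
    rw [Finset.mul_sum]
    refine Finset.sum_congr rfl fun i _ => ?_
    rw [Pi.smul_apply, smul_eq_mul, mul_smul, Algebra.smul_def]
  rw [hsum] at hunit hmem
  set S := ∑ i, u i • e i with hS'
  -- `c⁻¹ = S * (c S)⁻¹ ∈ O`
  have hcS0 : algebraMap L F c * S ≠ 0 := ne_zero_of_unit O hunit
  have hc0 : algebraMap L F c ≠ 0 := left_ne_zero_of_mul hcS0
  have hcinv : c⁻¹ ∈ baseRing L O := by
    rw [mem_baseRing_iff, map_inv₀]
    have : (algebraMap L F c)⁻¹ = S * (algebraMap L F c * S)⁻¹ := by
      have hS0 : S ≠ 0 := right_ne_zero_of_mul hcS0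
      field_simp
    rw [this]
    exact O.mul_mem _ _ hS (inv_mem_of_unit O hmem hunit)
  intro i
  have : u i = c⁻¹ * (c • u) i := by
    rw [Pi.smul_apply, smul_eq_mul, ← mul_assoc, inv_mul_cancel₀ hc, one_mul]
  rw [this]
  exact (baseRing L O).mul_mem _ _ hcinv (hint i)

theorem sum_mem_nonunits_iff (u : ι → L) :
    ∑ i, u i • e i ∈ O.nonunits ↔ ∀ i, u i ∈ (baseRing L O).nonunits := by
  constructor
  · intro hS
    have hint := (he.sum_mem_iff u).mp (nonunits_subset O hS)
    by_contra hcon
    push Not at hcon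
    exact he.unit_of_primitive u hint hcon hS
  · intro hu
    refine (O.nonunits).sum_mem fun i _ => ?_
    rw [Algebra.smul_def]
    exact mul_mem_nonunits_left O ((mem_baseRing_nonunits_iff O).mp (hu i)) (he.mem i)

theorem sum_eq_zero_iff (u : ι → L) : ∑ i, u i • e i = 0 ↔ u = 0 := by
  refine ⟨fun hS => ?_, fun h => by simp [h]⟩
  by_contra hu0
  obtain ⟨i₀, c, hc, hpiv, hint⟩ := ValLattice56.exists_normalized (baseRing L O) hu0
  have hprim : ∃ i, (c • u) i ∉ (baseRing L O).nonunits := by
    refine ⟨i₀, ?_⟩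
    rw [hpiv, ValuationSubring.mem_nonunits_iff, map_one]
    exact lt_irrefl _
  have hunit := he.unit_of_primitive (c • u) hint hprim
  have hsum : ∑ i, (c • u) i • e i = algebraMap L F c * ∑ i, u i • e i := by
    rw [Finset.mul_sum]
    refine Finset.sum_congr rfl fun i _ => ?_
    rw [Pi.smul_apply, smul_eq_mul, mul_smul, Algebra.smul_def]
  rw [hsum, hS, mul_zero] at hunit
  exact ne_zero_of_unit O hunit rfl

theorem linearIndependent : LinearIndependent L e := by
  rw [Fintype.linearIndependent_iff]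
  intro u hu i
  have := (he.sum_eq_zero_iff u).mp hu
  rw [this]; rfl

end IsOrthonormal

section Lattice

variable {L O}
variable {ι : Type*} [Fintype ι] {e : ι → F}

/-- the `L`-linear map `u ↦ ∑ u i • e i` -/
noncomputable def comb (e : ι → F) : (ι → L) →ₗ[L] F :=
  Fintype.linearCombination L e

theorem comb_apply (u : ι → L) : comb (L := L) e u = ∑ i, u i • e i := by
  simp [comb, Fintype.linearCombination_apply]

omit [Fintype ι] in
theorem red_eq_zero_of_nonunits {w : ι → L} (hw : ∀ i, w i ∈ (baseRing L O).nonunits) :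
    ValLattice56.red (baseRing L O) w = 0 := by
  funext i
  have hmem : w i ∈ baseRing L O := nonunits_subset _ (hw i)
  rw [ValLattice56.red_apply_of_mem _ hmem, Pi.zero_apply, residue_eq_zero_iff]
  obtain ⟨h1, h2⟩ := ValuationSubring.mem_nonunits_iff_exists_mem_maximalIdeal.mp (hw i)
  exact h2

omit [Fintype ι] in
theorem red_sum_smul {d : ℕ} (b' : Fin d → ι → L)
    (hb' : ∀ j, ValLattice56.IsInt (baseRing L O) (b' j)) (u : Fin d → L)
    (hu : ∀ j, u j ∈ baseRing L O) :
    ValLattice56.red (baseRing L O) (∑ j, u j • b' j) =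
      ∑ j, residue (baseRing L O) ⟨u j, hu j⟩ • ValLattice56.red (baseRing L O) (b' j) := by
  funext i
  have hmem : (∑ j, u j • b' j) i ∈ baseRing L O := by
    rw [Finset.sum_apply]
    exact (baseRing L O).sum_mem fun j _ => (baseRing L O).mul_mem _ _ (hu j) (hb' j i)
  have hsub : (⟨(∑ j, u j • b' j) i, hmem⟩ : baseRing L O) =
      ∑ j, (⟨u j, hu j⟩ : baseRing L O) * ⟨b' j i, hb' j i⟩ := by
    apply Subtype.ext
    show (∑ j, u j • b' j) i = _
    rw [Finset.sum_apply]
    push_cast
    rfl
  rw [ValLattice56.red_apply_of_mem _ hmem, hsub, map_sum, Finset.sum_apply]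
  refine Finset.sum_congr rfl fun j _ => ?_
  rw [map_mul, Pi.smul_apply, smul_eq_mul, ValLattice56.red_apply_of_mem _ (hb' j i)]

/-- **LATTICE LEMMA** inside the span of an orthonormal family: every `L`-subspace `V` of
`span (range e)` has an orthonormal basis. -/
theorem exists_orthonormal_basis_of_le_span (he : IsOrthonormal L O e) (V : Submodule L F)
    (hV : V ≤ Submodule.span L (Set.range e)) :
    ∃ (d : ℕ) (b : Fin d → F), IsOrthonormal L O b ∧ (∀ j, b j ∈ V) ∧
      V ≤ Submodule.span L (Set.range b) := by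
  classical
  set T : (ι → L) →ₗ[L] F := comb e with hT
  have hTinj : Function.Injective T := by
    rw [← LinearMap.ker_eq_bot, LinearMap.ker_eq_bot']
    intro u hu
    rw [hT, comb_apply] at hu
    exact (he.sum_eq_zero_iff u).mp hu
  have hrange : Submodule.span L (Set.range e) = LinearMap.range T := by
    rw [hT, comb, Fintype.range_linearCombination]
  obtain ⟨d, b', hb'V, hb'int, hb'li, hb'span, hb'red, hb'A⟩ :=
    ValLattice56.exists_orthonormal_basis (baseRing L O) (V.comap T)
  refine ⟨d, fun j => T (b' j), ⟨fun j => ?_, fun u hu hprim hS => ?_⟩, fun j => hb'V j, ?_⟩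
  · rw [hT, comb_apply]
    exact he.sum_mem_of_int (hb'int j)
  · -- orthonormality of the new basis
    have h1 : ∑ j, u j • T (b' j) = T (∑ j, u j • b' j) := by
      rw [map_sum]
      exact Finset.sum_congr rfl fun j _ => (map_smul T _ _).symm
    rw [h1, hT, comb_apply] at hS
    have h2 := (he.sum_mem_nonunits_iff _).mp hS
    have h3 := red_eq_zero_of_nonunits h2
    rw [red_sum_smul b' hb'int u hu] at h3
    have h4 := (Fintype.linearIndependent_iff.mp hb'red) _ h3
    obtain ⟨j, hj⟩ := hprim
    apply hj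
    have := h4 j
    rw [residue_eq_zero_iff] at this
    exact ValuationSubring.mem_nonunits_iff_exists_mem_maximalIdeal.mpr ⟨hu j, this⟩
  · intro v hv
    have hvr : v ∈ LinearMap.range T := hrange ▸ hV hv
    obtain ⟨w, rfl⟩ := hvr
    have hw : w ∈ V.comap T := hv
    have := hb'span hw
    have hmap : T w ∈ (Submodule.span L (Set.range b')).map T := Submodule.mem_map_of_mem this
    rw [Submodule.map_span, ← Set.range_comp] at hmap
    exact hmap

/-- Orthonormal bases give the lattice: every integral vector of the span is an integral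
combination. -/
theorem IsOrthonormal.exists_int_repr {d : ℕ} {b : Fin d → F} (hb : IsOrthonormal L O b)
    {v : F} (hv : v ∈ Submodule.span L (Set.range b)) (hvO : v ∈ O) :
    ∃ c : Fin d → L, (∀ j, c j ∈ baseRing L O) ∧ v = ∑ j, c j • b j := by
  obtain ⟨c, rfl⟩ := (Submodule.mem_span_range_iff_exists_fun L).mp hv
  exact ⟨c, (hb.sum_mem_iff c).mp hvO, rfl⟩

/-- Multiplication by a unit `g` of `O` transports orthonormal families. -/
theorem IsOrthonormal.unit_mul {κ : Type*} [Fintype κ] {b : κ → F} (hb : IsOrthonormal L O b)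
    {g : F} (hg : g ∈ O) (hg' : g ∉ O.nonunits) : IsOrthonormal L O (fun j => g * b j) := by
  refine ⟨fun j => O.mul_mem _ _ hg (hb.mem j), fun u hu hprim hS => ?_⟩
  have : ∑ j, u j • (g * b j) = g * ∑ j, u j • b j := by
    rw [Finset.mul_sum]
    exact Finset.sum_congr rfl fun j _ => by rw [mul_smul_comm]
  rw [this, mul_unit_mem_nonunits_iff O hg hg'] at hS
  exact hb.unit_of_primitive u hu hprim hS

/-- **LATTICE LEMMA**, general form: if `g` is a unit of `O` and `g • V` lies in the span of an
orthonormal family then `V` has an orthonormal basis. -/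
theorem exists_orthonormal_basis_of_unit_mul (he : IsOrthonormal L O e) (V : Submodule L F)
    {g : F} (hg : g ∈ O) (hg' : g ∉ O.nonunits)
    (hV : ∀ v ∈ V, g * v ∈ Submodule.span L (Set.range e)) :
    ∃ (d : ℕ) (b : Fin d → F), IsOrthonormal L O b ∧ (∀ j, b j ∈ V) ∧
      V ≤ Submodule.span L (Set.range b) := by
  have hg0 : g ≠ 0 := ne_zero_of_unit O hg'
  set M : F →ₗ[L] F := LinearMap.mulLeft L g with hM
  have hle : V.map M ≤ Submodule.span L (Set.range e) := by
    rintro _ ⟨v, hv, rfl⟩
    exact hV v hv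
  obtain ⟨d, b, hb, hbV, hbspan⟩ := exists_orthonormal_basis_of_le_span he (V.map M) hle
  have hginv : g⁻¹ ∈ O := inv_mem_of_unit O hg hg'
  have hginv' : g⁻¹ ∉ O.nonunits := by
    rw [ValuationSubring.mem_nonunits_iff, map_inv₀, valuation_eq_one_of O hg hg', inv_one]
    exact lt_irrefl _
  refine ⟨d, fun j => g⁻¹ * b j, hb.unit_mul hginv hginv', fun j => ?_, fun v hv => ?_⟩
  · obtain ⟨v, hv, hvb⟩ := hbV j
    have : g⁻¹ * b j = v := by
      rw [← hvb, hM, LinearMap.mulLeft_apply, ← mul_assoc, inv_mul_cancel₀ hg0, one_mul]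
    show g⁻¹ * b j ∈ V
    rw [this]; exact hv
  · have h1 : M v ∈ Submodule.span L (Set.range b) := hbspan ⟨v, hv, rfl⟩
    obtain ⟨c, hc⟩ := (Submodule.mem_span_range_iff_exists_fun L).mp h1
    rw [Submodule.mem_span_range_iff_exists_fun]
    refine ⟨c, ?_⟩
    have : v = g⁻¹ * M v := by
      rw [hM, LinearMap.mulLeft_apply, ← mul_assoc, inv_mul_cancel₀ hg0, one_mul]
    rw [this, ← hc, Finset.mul_sum]
    exact Finset.sum_congr rfl fun j _ => by rw [mul_smul_comm]

end Lattice

/-! ### The Gauss families `x ^ j * y i` -/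

section Gauss

open Polynomial

variable {L O}
variable {n : ℕ} (x : F) (y : Fin n → F)

/-- the family `x ^ j * y i`, `i < n`, `j ≤ D` -/
def gaussFamily (D : ℕ) : Fin n × Fin (D + 1) → F := fun p => x ^ (p.2 : ℕ) * y p.1

variable (L O) in
/-- `y` is an orthonormal `L(x)`-family for the Gauss valuation: all the finite families
`x ^ j * y i` are orthonormal over `L`. -/
def IsGaussOrtho : Prop := ∀ D, IsOrthonormal L O (gaussFamily x y D)

variable {x y}

/-- polynomial form of the `L`-combinations of a Gauss family -/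
theorem gauss_sum_eq (p : Fin n → L[X]) {D : ℕ} (hD : ∀ i, (p i).natDegree ≤ D) :
    ∑ q : Fin n × Fin (D + 1), (p q.1).coeff (q.2 : ℕ) • gaussFamily x y D q =
      ∑ i, aeval x (p i) * y i := by
  rw [Fintype.sum_prod_type]
  refine Finset.sum_congr rfl fun i _ => ?_
  rw [aeval_eq_sum_range' (Nat.lt_succ_of_le (hD i)) x, Finset.sum_mul,
    ← Fin.sum_univ_eq_sum_range (fun j => (p i).coeff j • x ^ j * y i) (D + 1)]
  refine Finset.sum_congr rfl fun j _ => ?_
  rw [gaussFamily, smul_mul_assoc]

/-- Bridge from a residue-field formulation: if the residues of the `y i` are independent over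
`k[x̄]` (polynomial form) then `y` is Gauss-orthonormal.  `red` is any ring hom from `O` to a field
killing the nonunits, `redA` any compatible ring hom from `A = O ∩ L` to a field `k`. -/
theorem isGaussOrtho_of_reduction {Fb k : Type*} [Field Fb] [Field k] [Algebra k Fb]
    (red : O →+* Fb) (hred : ∀ z : O, (z : F) ∈ O.nonunits → red z = 0)
    (redA : baseRing L O →+* k)
    (hcompat : ∀ a : baseRing L O, red ⟨algebraMap L F a, a.2⟩ = algebraMap k Fb (redA a))
    (hx : x ∈ O) (hy : ∀ i, y i ∈ O)
    (hind : ∀ q : Fin n → k[X],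
      ∑ i, aeval (red ⟨x, hx⟩) (q i) * red ⟨y i, hy i⟩ = 0 → ∀ i, q i = 0) :
    IsGaussOrtho L O x y := by
  intro D
  refine ⟨fun q => O.mul_mem _ _ (O.pow_mem hx _) (hy q.1), fun u hu hprim hS => ?_⟩
  -- the combination as an element of `O`
  set SO : O := ∑ q : Fin n × Fin (D + 1),
    (⟨algebraMap L F (u q), hu q⟩ : O) * (⟨x, hx⟩ ^ (q.2 : ℕ) * ⟨y q.1, hy q.1⟩) with hSO
  have hcoe : (SO : F) = ∑ q, u q • gaussFamily x y D q := by
    rw [hSO]
    push_cast
    refine Finset.sum_congr rfl fun q _ => ?_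
    rw [Algebra.smul_def, gaussFamily]
  -- its reduction
  set Q : Fin n → k[X] := fun i => ∑ j : Fin (D + 1), C (redA ⟨u (i, j), hu (i, j)⟩) * X ^ (j : ℕ)
    with hQ
  have hredS : red SO = ∑ i, aeval (red ⟨x, hx⟩) (Q i) * red ⟨y i, hy i⟩ := by
    rw [hSO, map_sum, Fintype.sum_prod_type]
    refine Finset.sum_congr rfl fun i _ => ?_
    rw [hQ, map_sum, Finset.sum_mul]
    refine Finset.sum_congr rfl fun j _ => ?_
    rw [map_mul, map_mul, map_pow, hcompat ⟨u (i, j), hu (i, j)⟩, map_mul, aeval_C, map_pow,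
      aeval_X, mul_assoc]
  have h0 : red SO = 0 := hred SO (by rw [hcoe]; exact hS)
  rw [hredS] at h0
  have hQ0 := hind Q h0
  obtain ⟨⟨i, j⟩, hq⟩ := hprim
  apply hq
  have hcoeff : redA ⟨u (i, j), hu (i, j)⟩ = 0 := by
    have := congrArg (fun P => P.coeff (j : ℕ)) (hQ0 i)
    simp only [hQ, finsetSum_coeff, coeff_C_mul, coeff_X_pow, coeff_zero] at this
    rw [Finset.sum_eq_single j] at this
    · simpa using this
    · intro j' _ hj'
      have : (j : ℕ) ≠ (j' : ℕ) := fun h => hj' (Fin.ext h.symm)
      simp [this]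
    · intro h; exact absurd (Finset.mem_univ j) h
  by_contra hnon
  have hunit : IsUnit (⟨u (i, j), hu (i, j)⟩ : baseRing L O) := by
    rw [ValuationSubring.valuation_eq_one_iff]
    exact valuation_eq_one_of _ (hu (i, j)) hnon
  exact (hunit.map redA).ne_zero hcoeff

/-- A combination `∑ p i (x) * y i` with polynomial coefficients vanishes only trivially. -/
theorem IsGaussOrtho.eq_zero_of_sum_eq_zero (hG : IsGaussOrtho L O x y) (p : Fin n → L[X])
    (h : ∑ i, aeval x (p i) * y i = 0) : ∀ i, p i = 0 := by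
  classical
  set D := Finset.univ.sup fun i => (p i).natDegree with hD
  have hDle : ∀ i, (p i).natDegree ≤ D := fun i => Finset.le_sup (f := fun i => (p i).natDegree)
    (Finset.mem_univ i)
  rw [← gauss_sum_eq p hDle] at h
  have h0 := ((hG D).sum_eq_zero_iff (fun q => (p q.1).coeff (q.2 : ℕ))).mp h
  intro i
  ext j
  rw [coeff_zero]
  by_cases hj : j < D + 1
  · exact congrFun h0 (i, ⟨j, hj⟩)
  · exact coeff_eq_zero_of_natDegree_lt (lt_of_le_of_lt (hDle i) (by omega))

/-- integrality of a polynomial combination in terms of the coefficients -/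
theorem IsGaussOrtho.sum_mem_iff (hG : IsGaussOrtho L O x y) (p : Fin n → L[X]) :
    ∑ i, aeval x (p i) * y i ∈ O ↔ ∀ i j, (p i).coeff j ∈ baseRing L O := by
  classical
  set D := Finset.univ.sup fun i => (p i).natDegree with hD
  have hDle : ∀ i, (p i).natDegree ≤ D := fun i => Finset.le_sup (f := fun i => (p i).natDegree)
    (Finset.mem_univ i)
  rw [← gauss_sum_eq p hDle, (hG D).sum_mem_iff]
  constructor
  · intro h i j
    by_cases hj : j < D + 1
    · exact h (i, ⟨j, hj⟩)
    · rw [coeff_eq_zero_of_natDegree_lt (lt_of_le_of_lt (hDle i) (by omega))]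
      exact (baseRing L O).zero_mem
  · intro h q
    exact h q.1 q.2

/-- unit criterion for a polynomial combination -/
theorem IsGaussOrtho.sum_not_mem_nonunits (hG : IsGaussOrtho L O x y) (p : Fin n → L[X])
    (hint : ∀ i j, (p i).coeff j ∈ baseRing L O)
    (hprim : ∃ i j, (p i).coeff j ∉ (baseRing L O).nonunits) :
    ∑ i, aeval x (p i) * y i ∉ O.nonunits := by
  classical
  set D := Finset.univ.sup fun i => (p i).natDegree with hD
  have hDle : ∀ i, (p i).natDegree ≤ D := fun i => Finset.le_sup (f := fun i => (p i).natDegree)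
    (Finset.mem_univ i)
  rw [← gauss_sum_eq p hDle]
  refine (hG D).unit_of_primitive _ (fun q => hint q.1 q.2) ?_
  obtain ⟨i, j, hij⟩ := hprim
  have hj : j < D + 1 := by
    by_contra hj
    apply hij
    rw [coeff_eq_zero_of_natDegree_lt (lt_of_le_of_lt (hDle i) (by omega))]
    exact (baseRing L O).nonunits.zero_mem
  exact ⟨(i, ⟨j, hj⟩), hij⟩

/-- **Gauss norm**: a primitive integral polynomial in `x` is a unit of `O`. -/
theorem IsGaussOrtho.aeval_unit (hG : IsGaussOrtho L O x y) (hn : 0 < n) (s : L[X])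
    (hint : ∀ j, s.coeff j ∈ baseRing L O) (hprim : ∃ j, s.coeff j ∉ (baseRing L O).nonunits) :
    aeval x s ∈ O ∧ aeval x s ∉ O.nonunits := by
  classical
  set i₀ : Fin n := ⟨0, hn⟩
  -- `y i₀` is a unit
  have hy1 : ∑ i, aeval x ((Pi.single i₀ (1 : L[X]) : Fin n → L[X]) i) * y i = y i₀ := by
    rw [Finset.sum_eq_single i₀]
    · simp
    · intro i _ hi; simp [Pi.single_eq_of_ne hi]
    · intro h; exact absurd (Finset.mem_univ _) h
  have hy_int : y i₀ ∈ O := by
    have := (hG 0).mem (i₀, 0)
    simpa [gaussFamily] using this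
  have hy_unit : y i₀ ∉ O.nonunits := by
    rw [← hy1]
    refine hG.sum_not_mem_nonunits _ (fun i j => ?_) ⟨i₀, 0, ?_⟩
    · by_cases hi : i = i₀
      · subst hi
        rw [Pi.single_eq_same, coeff_one]
        split_ifs
        · exact (baseRing L O).one_mem
        · exact (baseRing L O).zero_mem
      · rw [Pi.single_eq_of_ne hi, coeff_zero]; exact (baseRing L O).zero_mem
    · rw [Pi.single_eq_same, coeff_one_zero, ValuationSubring.mem_nonunits_iff, map_one]
      exact lt_irrefl _
  -- `s(x) * y i₀` is a unit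
  have hs1 : ∑ i, aeval x ((Pi.single i₀ s : Fin n → L[X]) i) * y i = aeval x s * y i₀ := by
    rw [Finset.sum_eq_single i₀]
    · simp
    · intro i _ hi; simp [Pi.single_eq_of_ne hi]
    · intro h; exact absurd (Finset.mem_univ _) h
  have hcoef : ∀ i j, ((Pi.single i₀ s : Fin n → L[X]) i).coeff j ∈ baseRing L O := by
    intro i j
    by_cases hi : i = i₀
    · subst hi; rw [Pi.single_eq_same]; exact hint j
    · rw [Pi.single_eq_of_ne hi, coeff_zero]; exact (baseRing L O).zero_mem
  have hsy_int : aeval x s * y i₀ ∈ O := by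
    rw [← hs1]; exact (hG.sum_mem_iff _).mpr hcoef
  have hsy_unit : aeval x s * y i₀ ∉ O.nonunits := by
    rw [← hs1]
    obtain ⟨j, hj⟩ := hprim
    exact hG.sum_not_mem_nonunits _ hcoef ⟨i₀, j, by rwa [Pi.single_eq_same]⟩
  have hy0 : y i₀ ≠ 0 := ne_zero_of_unit O hy_unit
  have hval : O.valuation (aeval x s) = 1 := by
    have h1 := valuation_eq_one_of O hsy_int hsy_unit
    rw [map_mul, valuation_eq_one_of O hy_int hy_unit, mul_one] at h1
    exact h1
  refine ⟨(O.valuation_le_one_iff _).mp hval.le, ?_⟩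
  rw [ValuationSubring.mem_nonunits_iff, hval]
  exact lt_irrefl _

theorem IsGaussOrtho.aeval_ne_zero (hG : IsGaussOrtho L O x y) (hn : 0 < n) {s : L[X]}
    (hs : s ≠ 0) : aeval x s ≠ 0 := by
  intro h0
  set i₀ : Fin n := ⟨0, hn⟩
  have h1 : ∑ i, aeval x ((Pi.single i₀ s : Fin n → L[X]) i) * y i = 0 := by
    rw [Finset.sum_eq_single i₀]
    · simp [h0]
    · intro i _ hi; simp [Pi.single_eq_of_ne hi]
    · intro h; exact absurd (Finset.mem_univ _) h
  have := hG.eq_zero_of_sum_eq_zero _ h1 i₀
  rw [Pi.single_eq_same] at this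
  exact hs this

end Gauss

/-! ### Spanning: `y` is an `L(x)`-basis, denominators, and the lattice lemma for all
finite-dimensional subspaces of `F` -/

section Span

open Polynomial IntermediateField

variable {L O}
variable {n : ℕ} {x : F} {y : Fin n → F}

/-- elements of `L⟮x⟯` are quotients of polynomials in `x` with nonzero denominator -/
theorem exists_frac (a : L⟮x⟯) :
    ∃ r s : L[X], aeval x s ≠ 0 ∧ (a : F) = aeval x r / aeval x s := by
  obtain ⟨r, s, h⟩ := (IntermediateField.mem_adjoin_simple_iff L (a : F)).mp a.2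
  by_cases hs : aeval x s = 0
  · refine ⟨0, 1, by simp, ?_⟩
    rw [h, hs, div_zero]; simp
  · exact ⟨r, s, hs, h⟩

/-- clearing the denominators of a finite family of elements of `L⟮x⟯` -/
theorem exists_common_denominator (a : Fin n → L⟮x⟯) :
    ∃ (s : L[X]) (p : Fin n → L[X]), aeval x s ≠ 0 ∧
      (∀ i, aeval x s * (a i : F) = aeval x (p i)) ∧ ∀ i, p i = 0 → a i = 0 := by
  classical
  choose r s hs ha using fun i => exists_frac (a i)
  refine ⟨∏ k, s k, fun i => r i * ∏ k ∈ Finset.univ.erase i, s k, ?_, fun i => ?_, fun i hi => ?_⟩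
  · rw [map_prod]
    exact Finset.prod_ne_zero_iff.mpr fun k _ => hs k
  · rw [ha i, map_mul, map_prod, map_prod, ← Finset.mul_prod_erase Finset.univ _ (Finset.mem_univ i)]
    field_simp [hs i]
  · have hsk : ∀ k, s k ≠ 0 := fun k h => hs k (by rw [h, map_zero])
    rcases mul_eq_zero.mp hi with h | h
    · apply Subtype.ext
      rw [ha i, h, map_zero, zero_div]; rfl
    · exact absurd h (Finset.prod_ne_zero_iff.mpr fun k _ => hsk k)

/-- `y` is linearly independent over `L⟮x⟯`. -/
theorem IsGaussOrtho.linearIndependent_adjoin (hG : IsGaussOrtho L O x y) :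
    LinearIndependent L⟮x⟯ y := by
  rw [Fintype.linearIndependent_iff]
  intro a h
  obtain ⟨s, p, hs, hp, hp0⟩ := exists_common_denominator a
  have h1 : ∑ i, aeval x (p i) * y i = 0 := by
    have : ∑ i, aeval x (p i) * y i = aeval x s * ∑ i, a i • y i := by
      rw [Finset.mul_sum]
      refine Finset.sum_congr rfl fun i _ => ?_
      rw [← hp i, mul_assoc]
      rfl
    rw [this, h, mul_zero]
  intro i
  exact hp0 i (hG.eq_zero_of_sum_eq_zero p h1 i)

/-- every element of `F` is a polynomial combination of the `y i` over a nonzero denominator -/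
theorem IsGaussOrtho.exists_repr (hG : IsGaussOrtho L O x y) (hn : 0 < n)
    (hdeg : Module.finrank L⟮x⟯ F = n) (z : F) :
    ∃ (s : L[X]) (p : Fin n → L[X]), s ≠ 0 ∧ aeval x s * z = ∑ i, aeval x (p i) * y i := by
  have : Nonempty (Fin n) := ⟨⟨0, hn⟩⟩
  set B := basisOfLinearIndependentOfCardEqFinrank hG.linearIndependent_adjoin
    (by rw [Fintype.card_fin, hdeg]) with hB
  have hBy : ∀ i, B i = y i := fun i => by rw [hB, coe_basisOfLinearIndependentOfCardEqFinrank]
  obtain ⟨s, p, hs, hp, -⟩ := exists_common_denominator (fun i => B.repr z i)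
  refine ⟨s, p, fun h => hs (by rw [h, map_zero]), ?_⟩
  conv_lhs => rw [← B.sum_repr z]
  rw [Finset.mul_sum]
  refine Finset.sum_congr rfl fun i _ => ?_
  rw [← hp i, hBy, mul_assoc]
  rfl

/-- normalising a nonzero polynomial to a primitive integral one -/
theorem exists_primitive_smul (A : ValuationSubring L) {s : L[X]} (hs : s ≠ 0) :
    ∃ c : L, c ≠ 0 ∧ (∀ j, (C c * s).coeff j ∈ A) ∧ ∃ j, (C c * s).coeff j ∉ A.nonunits := by
  classical
  set w : Fin (s.natDegree + 1) → L := fun j => s.coeff j with hw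
  have hw0 : w ≠ 0 := by
    intro h
    apply hs
    have := congrFun h ⟨s.natDegree, Nat.lt_succ_self _⟩
    simp only [hw, Pi.zero_apply, coeff_natDegree, leadingCoeff_eq_zero] at this
    exact this
  obtain ⟨j₀, c, hc, hpiv, hint⟩ := ValLattice56.exists_normalized A hw0
  refine ⟨c, hc, fun j => ?_, ⟨j₀, ?_⟩⟩
  · rw [coeff_C_mul]
    by_cases hj : j < s.natDegree + 1
    · exact hint ⟨j, hj⟩
    · rw [coeff_eq_zero_of_natDegree_lt (by omega), mul_zero]; exact A.zero_mem
  · rw [coeff_C_mul]
    have : c * s.coeff j₀ = 1 := hpiv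
    rw [this, ValuationSubring.mem_nonunits_iff, map_one]
    exact lt_irrefl _

/-- **SPAN**: for a finitely generated `L`-subspace `V` of `F` there are a unit `g` of `O` and a
degree bound `D` with `g • V` inside the span of the Gauss family of degree `D`. -/
theorem IsGaussOrtho.exists_unit_mul_le_span (hG : IsGaussOrtho L O x y) (hn : 0 < n)
    (hdeg : Module.finrank L⟮x⟯ F = n) (V : Submodule L F) (hV : V.FG) :
    ∃ (g : F) (D : ℕ), g ∈ O ∧ g ∉ O.nonunits ∧
      ∀ v ∈ V, g * v ∈ Submodule.span L (Set.range (gaussFamily x y D)) := by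
  classical
  obtain ⟨S, rfl⟩ := hV
  choose s p hs hp using fun z : F => hG.exists_repr hn hdeg z
  -- common denominator
  set s₀ : L[X] := ∏ v ∈ S, s v with hs₀
  have hs₀0 : s₀ ≠ 0 := Finset.prod_ne_zero_iff.mpr fun v _ => hs v
  obtain ⟨c, hc, hint, hprim⟩ := exists_primitive_smul (baseRing L O) hs₀0
  set s₁ : L[X] := C c * s₀ with hs₁
  -- numerators
  set p' : F → Fin n → L[X] := fun v i => C c * (∏ w ∈ S.erase v, s w) * p v i with hp'
  set D : ℕ := S.sup fun v => Finset.univ.sup fun i => (p' v i).natDegree with hD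
  have hDle : ∀ v ∈ S, ∀ i, (p' v i).natDegree ≤ D := by
    intro v hv i
    refine le_trans ?_ (Finset.le_sup (f := fun v => Finset.univ.sup fun i => (p' v i).natDegree) hv)
    exact Finset.le_sup (f := fun i => (p' v i).natDegree) (Finset.mem_univ i)
  obtain ⟨hg, hg'⟩ := hG.aeval_unit hn s₁ hint hprim
  refine ⟨aeval x s₁, D, hg, hg', fun v hv => ?_⟩
  induction hv using Submodule.span_induction with
  | mem v hv =>
    have hvS : v ∈ S := hv
    have h1 : aeval x s₁ * v = ∑ i, aeval x (p' v i) * y i := by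
      have : aeval x s₁ = aeval x (C c * ∏ w ∈ S.erase v, s w) * aeval x (s v) := by
        rw [← map_mul, hs₁, hs₀, ← Finset.mul_prod_erase S _ hvS]
        congr 1; ring
      rw [this, mul_assoc, hp v, Finset.mul_sum]
      refine Finset.sum_congr rfl fun i _ => ?_
      show _ = aeval x ((C c * ∏ w ∈ S.erase v, s w) * p v i) * y i
      rw [map_mul (aeval x) (C c * ∏ w ∈ S.erase v, s w) (p v i), mul_assoc]
    rw [h1, ← gauss_sum_eq (p' v) (hDle v hvS)]
    exact Submodule.sum_mem _ fun q _ => Submodule.smul_mem _ _ (Submodule.subset_span ⟨q, rfl⟩)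
  | zero => rw [mul_zero]; exact Submodule.zero_mem _
  | add u v _ _ hu hv => rw [mul_add]; exact Submodule.add_mem _ hu hv
  | smul a v _ hv => rw [mul_smul_comm]; exact Submodule.smul_mem _ _ hv

/-- **LATTICE LEMMA** for the Gauss valuation: every finitely generated `L`-subspace `V` of `F`
has an orthonormal basis: `b j ∈ V ∩ O`, primitive integral combinations are units of `O`,
`b` spans `V`; hence (see `IsOrthonormal.exists_int_repr`, `IsOrthonormal.linearIndependent`)
`V ∩ O` is free over `A = O ∩ L` on the `L`-basis `b` of `V`. -/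
theorem IsGaussOrtho.exists_orthonormal_basis (hG : IsGaussOrtho L O x y) (hn : 0 < n)
    (hdeg : Module.finrank L⟮x⟯ F = n) (V : Submodule L F) (hV : V.FG) :
    ∃ (d : ℕ) (b : Fin d → F), IsOrthonormal L O b ∧ (∀ j, b j ∈ V) ∧
      V ≤ Submodule.span L (Set.range b) := by
  obtain ⟨g, D, hg, hg', hspan⟩ := hG.exists_unit_mul_le_span hn hdeg V hV
  exact exists_orthonormal_basis_of_unit_mul (hG D) V hg hg' hspan

/-- the orthonormal basis has `finrank V` elements -/
theorem finrank_eq_of_orthonormal_basis {V : Submodule L F} {d : ℕ} {b : Fin d → F}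
    (hb : IsOrthonormal L O b) (hbV : ∀ j, b j ∈ V)
    (hspan : V ≤ Submodule.span L (Set.range b)) : Module.finrank L V = d := by
  have hV : V = Submodule.span L (Set.range b) :=
    le_antisymm hspan (Submodule.span_le.mpr (by rintro _ ⟨j, rfl⟩; exact hbV j))
  rw [hV, finrank_span_eq_card hb.linearIndependent, Fintype.card_fin]

end Span

/-! ### Residue-field form -/

section Residue

variable {L O}

/-- The residues of an orthonormal family are linearly independent over the residue field of
`A = O ∩ L` (for any ring homs `red : O → Fb`, `redA : A → k` to fields, `redA` surjective and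
killing the nonunits, compatible with `k → Fb`). -/
theorem IsOrthonormal.linearIndependent_red {κ : Type*} [Fintype κ] {b : κ → F}
    (hb : IsOrthonormal L O b) {Fb k : Type*} [Field Fb] [Field k] [Algebra k Fb]
    (red : O →+* Fb) (redA : baseRing L O →+* k) (hsurj : Function.Surjective redA)
    (hredA : ∀ a : baseRing L O, (a : L) ∈ (baseRing L O).nonunits → redA a = 0)
    (hcompat : ∀ a : baseRing L O, red ⟨algebraMap L F a, a.2⟩ = algebraMap k Fb (redA a)) :
    LinearIndependent k (fun j => red ⟨b j, hb.mem j⟩) := by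
  classical
  rw [Fintype.linearIndependent_iff]
  intro cb hcb
  choose c hc using fun j => hsurj (cb j)
  -- the lifted combination
  set SO : O := ∑ j, (⟨algebraMap L F (c j), (c j).2⟩ : O) * ⟨b j, hb.mem j⟩ with hSO
  have hcoe : (SO : F) = ∑ j, ((c j : baseRing L O) : L) • b j := by
    rw [hSO]
    push_cast
    exact Finset.sum_congr rfl fun j _ => by rw [Algebra.smul_def]
  have hred0 : red SO = 0 := by
    rw [hSO, map_sum, ← hcb]
    refine Finset.sum_congr rfl fun j _ => ?_
    rw [map_mul, hcompat, hc j, Algebra.smul_def]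
  -- `SO` is not a unit of `O`
  have hnon : (SO : F) ∈ O.nonunits := by
    by_contra hnon
    have hunit : IsUnit SO := by
      rw [ValuationSubring.valuation_eq_one_iff]
      exact valuation_eq_one_of O SO.2 hnon
    exact (hunit.map red).ne_zero hred0
  rw [hcoe] at hnon
  have hall := (hb.sum_mem_nonunits_iff _).mp hnon
  intro j
  rw [← hc j]
  exact hredA (c j) (hall j)

end Residue

end Fermat.Agent.S18.GaussOrtho71
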