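import Mathlib
import Fermat.Agent.S18.Bridge28.ORingA
import Fermat.Prelude.Def_ModularCurve_X0

/-!
# S18 / [BRIDGE], abstract half (1'): complements to `Bridge28/ORingA`

`L` any field, `A : ValuationSubring L`, `k = IsLocalRing.ResidueField A`,
`O A ⊆ L((q))` and `rho A : O A →+* k((q))` as in `Bridge28/ORingA` (helper28).

* `rho_mul_red` (division-free defining property), `rho_congr`.
* locality: `rho_inv`, `isUnit_of_rho_ne_zero`, `rho_ne_zero_of_isUnit`.
* kernel: `rho_eq_zero_iff`; constants: `rho_C_eq_zero_iff`, `rho_C_mul_eq_zero`,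
  `C_mem_or_C_inv_mem`.
* `qExpand s` preserves `O A` and commutes with `rho` (`qExpand_mem_O`, `rho_qExpand`); the same
  for any compatible triple of ring endomorphisms (`map_mem_O`, `rho_map`: twists, substitutions).
-/

set_option autoImplicit false

noncomputable section

namespace Fermat.Agent.S18.BridgeO15

open ModularCurve HahnSeries Fermat.Agent.S18.Bridge28

variable {L : Type*} [Field L] (A : ValuationSubring L)

/-- The defining property of `ρ`, without division. -/
theorem rho_mul_red (x : O A) (a b : LaurentSeries A) (hb : red A b ≠ 0)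
    (h : (x : LaurentSeries L) * incl A b = incl A a) : rho A x * red A b = red A a := by
  rw [rho_eq A x a b hb h, div_mul_cancel₀ _ hb]

theorem rho_congr {x y : O A} (h : (x : LaurentSeries L) = y) : rho A x = rho A y := by
  have : x = y := Subtype.ext h
  rw [this]

/-! ### Locality -/

theorem ne_zero_of_rho_ne_zero (u : O A) (hu : rho A u ≠ 0) : (u : LaurentSeries L) ≠ 0 := by
  intro h
  apply hu
  have : u = 0 := Subtype.ext h
  rw [this, map_zero]

theorem rho_inv (u : O A) (hu : rho A u ≠ 0) :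
    rho A ⟨(u : LaurentSeries L)⁻¹, inv_mem_O_of_rho_ne_zero A u hu⟩ = (rho A u)⁻¹ := by
  have h1 : u * ⟨(u : LaurentSeries L)⁻¹, inv_mem_O_of_rho_ne_zero A u hu⟩ = 1 :=
    Subtype.ext (mul_inv_cancel₀ (ne_zero_of_rho_ne_zero A u hu))
  have h2 := congrArg (rho A) h1
  rw [map_mul, map_one] at h2
  exact eq_inv_of_mul_eq_one_right h2

theorem isUnit_of_rho_ne_zero (u : O A) (hu : rho A u ≠ 0) : IsUnit u := by
  refine IsUnit.of_mul_eq_one ⟨(u : LaurentSeries L)⁻¹, inv_mem_O_of_rho_ne_zero A u hu⟩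
    (Subtype.ext ?_)
  exact mul_inv_cancel₀ (ne_zero_of_rho_ne_zero A u hu)

theorem rho_ne_zero_of_isUnit (u : O A) (hu : IsUnit u) : rho A u ≠ 0 :=
  (hu.map (rho A)).ne_zero

/-! ### The kernel -/

theorem rho_eq_zero_iff (x : O A) :
    rho A x = 0 ↔ ∃ a b : LaurentSeries A, red A b ≠ 0 ∧ red A a = 0 ∧
      (x : LaurentSeries L) * incl A b = incl A a := by
  constructor
  · intro hx
    obtain ⟨a, b, hb, h⟩ := x.2
    rw [rho_eq A x a b hb h, div_eq_zero_iff] at hx
    rcases hx with hx | hx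
    · exact ⟨a, b, hb, hx, h⟩
    · exact absurd hx hb
  · rintro ⟨a, b, hb, ha, h⟩
    rw [rho_eq A x a b hb h, ha, zero_div]

/-! ### Constants -/

theorem residue_eq_zero_iff (c : A) : IsLocalRing.residue A c = 0 ↔ (c : L) ∈ A.nonunits := by
  rw [IsLocalRing.residue_eq_zero_iff]
  constructor
  · intro h
    exact ValuationSubring.mem_nonunits_iff_exists_mem_maximalIdeal.mpr ⟨c.2, h⟩
  · intro h
    obtain ⟨h1, h2⟩ := ValuationSubring.mem_nonunits_iff_exists_mem_maximalIdeal.mp h
    exact h2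

/-- For a constant `c ∈ A`: `ρ(c) = 0` iff `c ∈ 𝔪_A`. -/
theorem rho_C_eq_zero_iff {c : L} (hc : c ∈ A) :
    rho A ⟨HahnSeries.C c, C_mem_O A hc⟩ = 0 ↔ c ∈ A.nonunits := by
  rw [rho_C A hc, map_eq_zero, residue_eq_zero_iff]

/-- If `c ∈ 𝔪_A` then `C c * y ∈ ker ρ` for every `y ∈ 𝒪`. -/
theorem rho_C_mul_eq_zero {c : L} (hc : c ∈ A.nonunits) (y : O A) :
    rho A (⟨HahnSeries.C c, C_mem_O A (A.nonunits_subset hc)⟩ * y) = 0 := by
  rw [map_mul, (rho_C_eq_zero_iff A (A.nonunits_subset hc)).mpr hc, zero_mul]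

/-- A nonzero constant `c`: either `C c ∈ 𝒪` or `C c⁻¹ ∈ 𝒪`. -/
theorem C_mem_or_C_inv_mem (c : L) :
    (HahnSeries.C c : LaurentSeries L) ∈ O A ∨ (HahnSeries.C c⁻¹ : LaurentSeries L) ∈ O A :=
  (A.mem_or_inv_mem c).imp (C_mem_O A) (C_mem_O A)

/-! ### `qExpand` -/

section QExpand

variable (s : ℕ) [NeZero s]

theorem coeffMap_qExpand {R S : Type*} [CommRing R] [CommRing S] (f : R →+* S)
    (x : LaurentSeries R) :
    coeffMap f (qExpand R s x) = qExpand S s (coeffMap f x) := by
  ext k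
  by_cases hk : (s : ℤ) ∣ k
  · obtain ⟨m, rfl⟩ := hk
    rw [coeffMap_coeff, qExpand_coeff_mul, qExpand_coeff_mul, coeffMap_coeff]
  · rw [coeffMap_coeff, qExpand_coeff_of_not_dvd s _ hk, qExpand_coeff_of_not_dvd s _ hk,
      map_zero]

theorem incl_qExpand (a : LaurentSeries A) :
    incl A (qExpand A s a) = qExpand L s (incl A a) := coeffMap_qExpand s _ a

theorem red_qExpand (a : LaurentSeries A) :
    red A (qExpand A s a) = qExpand (IsLocalRing.ResidueField A) s (red A a) :=
  coeffMap_qExpand s _ a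

theorem qExpand_mem_O {x : LaurentSeries L} (hx : x ∈ O A) : qExpand L s x ∈ O A := by
  obtain ⟨a, b, hb, h⟩ := hx
  refine ⟨qExpand A s a, qExpand A s b, ?_, ?_⟩
  · rw [red_qExpand]
    intro h0
    exact hb (qExpand_injective (R := IsLocalRing.ResidueField A) s (by rw [h0, map_zero]))
  · rw [incl_qExpand, incl_qExpand, ← map_mul, h]

theorem rho_qExpand (x : O A) :
    rho A ⟨qExpand L s (x : LaurentSeries L), qExpand_mem_O A s x.2⟩ =
      qExpand (IsLocalRing.ResidueField A) s (rho A x) := by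
  obtain ⟨a, b, hb, h⟩ := x.2
  have hb' : red A (qExpand A s b) ≠ 0 := by
    rw [red_qExpand]
    intro h0
    exact hb (qExpand_injective (R := IsLocalRing.ResidueField A) s (by rw [h0, map_zero]))
  rw [rho_eq A _ (qExpand A s a) (qExpand A s b) hb'
    (by rw [incl_qExpand, incl_qExpand, ← map_mul, h]), rho_eq A x a b hb h, red_qExpand,
    red_qExpand, map_div₀]

end QExpand

/-! ### General ring homs `φ_L : L((q)) → L((q))`, `φ_A`, `φ_k` compatible with `incl`, `red` -/

/-- A compatible triple of ring endomorphisms (e.g. `qExpand s`, twists `q ↦ ζ q`,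
substitutions `q ↦ c q^a` with `c ∈ Aˣ`) preserves `𝒪` and commutes with `ρ`. -/
theorem map_mem_O (φL : LaurentSeries L →+* LaurentSeries L) (φA : LaurentSeries A →+* LaurentSeries A)
    (φk : LaurentSeries (IsLocalRing.ResidueField A) →+* LaurentSeries (IsLocalRing.ResidueField A))
    (hL : ∀ a, incl A (φA a) = φL (incl A a)) (hk : ∀ a, red A (φA a) = φk (red A a))
    {x : LaurentSeries L} (hx : x ∈ O A) : φL x ∈ O A := by
  obtain ⟨a, b, hb, h⟩ := hx
  refine ⟨φA a, φA b, ?_, ?_⟩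
  · rw [hk]
    exact (map_ne_zero φk).mpr hb
  · rw [hL, hL, ← map_mul, h]

theorem rho_map (φL : LaurentSeries L →+* LaurentSeries L) (φA : LaurentSeries A →+* LaurentSeries A)
    (φk : LaurentSeries (IsLocalRing.ResidueField A) →+* LaurentSeries (IsLocalRing.ResidueField A))
    (hL : ∀ a, incl A (φA a) = φL (incl A a)) (hk : ∀ a, red A (φA a) = φk (red A a))
    (x : O A) :
    rho A ⟨φL (x : LaurentSeries L), map_mem_O A φL φA φk hL hk x.2⟩ = φk (rho A x) := by
  obtain ⟨a, b, hb, h⟩ := x.2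
  have hb' : red A (φA b) ≠ 0 := by
    rw [hk]
    exact (map_ne_zero φk).mpr hb
  rw [rho_eq A _ (φA a) (φA b) hb' (by rw [hL, hL, ← map_mul, h]), rho_eq A x a b hb h, hk, hk,
    map_div₀]

end Fermat.Agent.S18.BridgeO15
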