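import Mathlib
import Fermat.Agent.S18.BridgeO15

/-!
# S18 / [BRIDGE], abstract half (2): the Gauss valuation on `L(j) ⊆ L((q))`

`L` any field, `A : ValuationSubring L` ANY valuation subring, `k = A/𝔪_A`, `O A ⊆ L((q))`,
`rho A : O A →+* k((q))` (`Bridge28/ORingA`).  Let `j ∈ O A` with `t := rho j` transcendental
over `k`.

* `exists_primitive_part` : every nonzero `p ∈ L[X]` is `c • p₀` with `c ≠ 0`, `p₀ ∈ A[X]`,
  `p₀ mod 𝔪_A ≠ 0` (finitely many coefficients, so the maximal valuation is attained: no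
  discreteness needed).
* `evalO`, `coe_evalO`, `rho_evalO` : evaluation `A[X] → O A`, `X ↦ j`.
* `exists_C_mul_unit` : every nonzero `f ∈ L(j)` is `C c * u`, `c ≠ 0`, `u ∈ O A`, `rho u ≠ 0`,
  `rho u ∈ k(t)`, `u ∈ L(j)`.
* `mem_O_or_inv_mem_O`, `rho_mem_of_mem_adjoin` (`rho (O ∩ L(j)) ⊆ k(t)`),
  `transcendental_of_rho` (`j` is transcendental over `L`).
-/

set_option autoImplicit false

noncomputable section

namespace Fermat.Agent.S18.BridgeGauss15

open ModularCurve HahnSeries Polynomial IntermediateField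
open Fermat.Agent.S18.Bridge28 Fermat.Agent.S18.BridgeO15

variable {L : Type*} [Field L] (A : ValuationSubring L)

/-! ### Constants -/

theorem algebraMap_eq_C (c : L) : algebraMap L (LaurentSeries L) c = HahnSeries.C c := by
  rw [algebraMap_laurentSeries_eq_single, HahnSeries.C_apply]

theorem algebraMap_k_eq_C (c : IsLocalRing.ResidueField A) :
    algebraMap (IsLocalRing.ResidueField A) (LaurentSeries (IsLocalRing.ResidueField A)) c =
      HahnSeries.C c := by
  rw [algebraMap_laurentSeries_eq_single, HahnSeries.C_apply]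

/-- The structure map `A →+* 𝒪`. -/
def toO : A →+* O A :=
  ((HahnSeries.C : L →+* LaurentSeries L).comp A.subtype).codRestrict (O A)
    (fun r => C_mem_O A r.2)

@[simp] theorem coe_toO (r : A) : ((toO A r : O A) : LaurentSeries L) = HahnSeries.C (r : L) := rfl

theorem rho_toO (r : A) : rho A (toO A r) = HahnSeries.C (IsLocalRing.residue A r) := by
  have h := rho_C A r.2
  rw [← h]
  exact rho_congr A rfl

/-! ### Primitive parts -/

/-- Every nonzero polynomial over `L` is a nonzero constant times (the image of) a polynomial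
over `A` with nonzero reduction. -/
theorem exists_primitive_part (p : L[X]) (hp : p ≠ 0) :
    ∃ (c : L) (p₀ : A[X]), c ≠ 0 ∧ p = Polynomial.C c * p₀.map A.subtype ∧
      p₀.map (IsLocalRing.residue A) ≠ 0 := by
  classical
  have hsupp : p.support.Nonempty := by
    rwa [Finset.nonempty_iff_ne_empty, Ne, Polynomial.support_eq_empty]
  obtain ⟨i₀, hi₀, hmax⟩ := Finset.exists_max_image p.support (fun i => A.valuation (p.coeff i)) hsupp
  have hc0 : p.coeff i₀ ≠ 0 := Polynomial.mem_support_iff.1 hi₀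
  set c := p.coeff i₀ with hc
  have hvc : A.valuation c ≠ 0 := (_root_.map_ne_zero _).mpr hc0
  have hlift : Polynomial.C c⁻¹ * p ∈ Polynomial.lifts A.subtype := by
    rw [Polynomial.lifts_iff_coeff_lifts]
    intro i
    rw [Polynomial.coeff_C_mul]
    by_cases hi : p.coeff i = 0
    · rw [hi, mul_zero]; exact ⟨0, map_zero _⟩
    · have hle : A.valuation (p.coeff i) ≤ A.valuation c := hmax i (Polynomial.mem_support_iff.2 hi)
      have hmem : c⁻¹ * p.coeff i ∈ A := by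
        rw [← ValuationSubring.valuation_le_one_iff, map_mul, map_inv₀]
        calc (A.valuation c)⁻¹ * A.valuation (p.coeff i)
            ≤ (A.valuation c)⁻¹ * A.valuation c := by gcongr
          _ = 1 := inv_mul_cancel₀ hvc
      exact ⟨⟨_, hmem⟩, rfl⟩
  obtain ⟨p₀, hp₀'⟩ := hlift
  have hp₀ : p₀.map A.subtype = Polynomial.C c⁻¹ * p := hp₀'
  refine ⟨c, p₀, hc0, ?_, ?_⟩
  · rw [hp₀, ← mul_assoc, ← Polynomial.C_mul, mul_inv_cancel₀ hc0, Polynomial.C_1, one_mul]
  · intro h0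
    have h1 : (p₀.map (IsLocalRing.residue A)).coeff i₀ = 0 := by rw [h0, Polynomial.coeff_zero]
    rw [Polynomial.coeff_map] at h1
    have h2 : ((p₀.coeff i₀ : A) : L) = 1 := by
      have h3 := congrArg (fun q => Polynomial.coeff q i₀) hp₀
      simp only [Polynomial.coeff_map, Polynomial.coeff_C_mul] at h3
      rw [← hc, inv_mul_cancel₀ hc0] at h3
      exact h3
    have h4 : p₀.coeff i₀ = 1 := Subtype.ext h2
    rw [h4, map_one] at h1
    exact one_ne_zero h1

/-! ### Evaluation at `j` -/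

variable (j : LaurentSeries L) (hj : j ∈ O A)

/-- Evaluation at `j` of polynomials with coefficients in `A`, as a ring hom into `𝒪`. -/
def evalO : A[X] →+* O A := Polynomial.eval₂RingHom (toO A) ⟨j, hj⟩

theorem coe_evalO (p₀ : A[X]) :
    ((evalO A j hj p₀ : O A) : LaurentSeries L) = aeval j (p₀.map A.subtype) := by
  have h1 : ((evalO A j hj p₀ : O A) : LaurentSeries L) = (O A).subtype (evalO A j hj p₀) := rfl
  rw [h1, evalO, Polynomial.coe_eval₂RingHom, Polynomial.hom_eval₂, aeval_def,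
    Polynomial.eval₂_map]
  congr 1
  exact RingHom.ext fun r => (algebraMap_eq_C (r : L)).symm

theorem rho_evalO (p₀ : A[X]) :
    rho A (evalO A j hj p₀) = aeval (rho A ⟨j, hj⟩) (p₀.map (IsLocalRing.residue A)) := by
  rw [evalO, Polynomial.coe_eval₂RingHom, Polynomial.hom_eval₂, aeval_def, Polynomial.eval₂_map]
  congr 1
  refine RingHom.ext fun r => ?_
  show rho A (toO A r) = _
  rw [rho_toO]
  exact (algebraMap_k_eq_C A _).symm

variable (ht : Transcendental (IsLocalRing.ResidueField A) (rho A ⟨j, hj⟩))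

include ht in
theorem rho_evalO_ne_zero {p₀ : A[X]} (h : p₀.map (IsLocalRing.residue A) ≠ 0) :
    rho A (evalO A j hj p₀) ≠ 0 := by
  rw [rho_evalO]
  exact fun h' => h ((transcendental_iff.1 ht) _ h')

theorem rho_evalO_mem (p₀ : A[X]) :
    rho A (evalO A j hj p₀) ∈ (IsLocalRing.ResidueField A)⟮rho A ⟨j, hj⟩⟯ := by
  rw [rho_evalO]
  exact (IntermediateField.algebra_adjoin_le_adjoin _ _)
    (by
      rw [Algebra.adjoin_singleton_eq_range_aeval]
      exact ⟨_, rfl⟩)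

theorem coe_evalO_mem (p₀ : A[X]) : ((evalO A j hj p₀ : O A) : LaurentSeries L) ∈ L⟮j⟯ := by
  rw [coe_evalO]
  exact (IntermediateField.algebra_adjoin_le_adjoin _ _)
    (by
      rw [Algebra.adjoin_singleton_eq_range_aeval]
      exact ⟨_, rfl⟩)

include ht in
/-- Polynomial form: `p(j) = C c * u` with `u ∈ 𝒪`, `ρ u ≠ 0`. -/
theorem aeval_eq_C_mul_unit (p : L[X]) (hp : p ≠ 0) :
    ∃ (c : L) (u : O A), c ≠ 0 ∧ aeval j p = HahnSeries.C c * (u : LaurentSeries L) ∧
      rho A u ≠ 0 ∧ rho A u ∈ (IsLocalRing.ResidueField A)⟮rho A ⟨j, hj⟩⟯ ∧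
      (u : LaurentSeries L) ∈ L⟮j⟯ := by
  obtain ⟨c, p₀, hc, hpp, hp₀⟩ := exists_primitive_part A p hp
  refine ⟨c, evalO A j hj p₀, hc, ?_, rho_evalO_ne_zero A j hj ht hp₀, rho_evalO_mem A j hj p₀,
    coe_evalO_mem A j hj p₀⟩
  rw [coe_evalO, hpp, map_mul, aeval_C, algebraMap_eq_C]

include ht in
/-- `j` is transcendental over `L`. -/
theorem transcendental_of_rho : Transcendental L j := by
  rw [transcendental_iff]
  intro p hp
  by_contra hp0
  obtain ⟨c, u, hc, hpu, hu, -, -⟩ := aeval_eq_C_mul_unit A j hj ht p hp0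
  rw [hp] at hpu
  have h1 : (HahnSeries.C c : LaurentSeries L) ≠ 0 := (_root_.map_ne_zero _).mpr hc
  have h2 : (u : LaurentSeries L) ≠ 0 := ne_zero_of_rho_ne_zero A u hu
  exact mul_ne_zero h1 h2 hpu.symm

include ht in
/-- **Gauss valuation on `L(j)`**: every nonzero element of `L(j)` is a nonzero constant times a
unit `u` of `𝒪` with `ρ u ∈ k(t)`. -/
theorem exists_C_mul_unit {f : LaurentSeries L} (hf : f ∈ L⟮j⟯) (hf0 : f ≠ 0) :
    ∃ (c : L) (u : O A), c ≠ 0 ∧ f = HahnSeries.C c * (u : LaurentSeries L) ∧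
      rho A u ≠ 0 ∧ rho A u ∈ (IsLocalRing.ResidueField A)⟮rho A ⟨j, hj⟩⟯ ∧
      (u : LaurentSeries L) ∈ L⟮j⟯ := by
  obtain ⟨r, s, hrs⟩ := (IntermediateField.mem_adjoin_simple_iff L f).1 hf
  have hr0 : r ≠ 0 := by
    rintro rfl
    rw [map_zero, zero_div] at hrs
    exact hf0 hrs
  have hs0 : s ≠ 0 := by
    rintro rfl
    rw [map_zero, div_zero] at hrs
    exact hf0 hrs
  obtain ⟨c₁, u₁, hc₁, h₁, hu₁, hu₁k, hu₁L⟩ := aeval_eq_C_mul_unit A j hj ht r hr0
  obtain ⟨c₂, u₂, hc₂, h₂, hu₂, hu₂k, hu₂L⟩ := aeval_eq_C_mul_unit A j hj ht s hs0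
  set w : O A := ⟨(u₂ : LaurentSeries L)⁻¹, inv_mem_O_of_rho_ne_zero A u₂ hu₂⟩ with hw
  have hwρ : rho A w = (rho A u₂)⁻¹ := rho_inv A u₂ hu₂
  refine ⟨c₁ / c₂, u₁ * w, div_ne_zero hc₁ hc₂, ?_, ?_, ?_, ?_⟩
  · rw [hrs, h₁, h₂, map_div₀]
    have hC2 : (HahnSeries.C c₂ : LaurentSeries L) ≠ 0 := (_root_.map_ne_zero _).mpr hc₂
    have hu20 : (u₂ : LaurentSeries L) ≠ 0 := ne_zero_of_rho_ne_zero A u₂ hu₂
    simp only [Subring.coe_mul, hw]
    field_simp
  · rw [map_mul, hwρ]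
    exact mul_ne_zero hu₁ (inv_ne_zero hu₂)
  · rw [map_mul, hwρ]
    exact mul_mem hu₁k (inv_mem hu₂k)
  · simp only [Subring.coe_mul, hw]
    exact mul_mem hu₁L (inv_mem hu₂L)

include ht in
/-- `V = 𝒪 ∩ L(j)` is a valuation ring of `L(j)`. -/
theorem mem_O_or_inv_mem_O {f : LaurentSeries L} (hf : f ∈ L⟮j⟯) : f ∈ O A ∨ f⁻¹ ∈ O A := by
  by_cases hf0 : f = 0
  · left; rw [hf0]; exact (O A).zero_mem
  obtain ⟨c, u, hc, hfu, hu, -, -⟩ := exists_C_mul_unit A j hj ht hf hf0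
  rcases A.mem_or_inv_mem c with h | h
  · left
    rw [hfu]
    exact (O A).mul_mem (C_mem_O A h) u.2
  · right
    rw [hfu, mul_inv, ← map_inv₀]
    exact (O A).mul_mem (C_mem_O A h) (inv_mem_O_of_rho_ne_zero A u hu)

include ht in
/-- `ρ(𝒪 ∩ L(j)) ⊆ k(t)`. -/
theorem rho_mem_of_mem_adjoin (f : O A) (hf : (f : LaurentSeries L) ∈ L⟮j⟯) :
    rho A f ∈ (IsLocalRing.ResidueField A)⟮rho A ⟨j, hj⟩⟯ := by
  by_cases hf0 : (f : LaurentSeries L) = 0
  · have : f = 0 := Subtype.ext hf0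
    rw [this, map_zero]
    exact zero_mem _
  obtain ⟨c, u, hc, hfu, hu, huk, -⟩ := exists_C_mul_unit A j hj ht hf hf0
  by_cases hcA : c ∈ A
  · have h1 : f = ⟨HahnSeries.C c, C_mem_O A hcA⟩ * u := Subtype.ext hfu
    rw [h1, map_mul, rho_C A hcA]
    refine mul_mem ?_ huk
    rw [← algebraMap_k_eq_C]
    exact IntermediateField.algebraMap_mem _ _
  · -- then `c⁻¹ ∈ 𝔪_A` and `u = C c⁻¹ * f` has `ρ u = 0`: contradiction
    exfalso
    have hci : c⁻¹ ∈ A.nonunits := by
      rw [ValuationSubring.mem_nonunits_iff, map_inv₀]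
      have h1 : ¬ A.valuation c ≤ 1 := fun h' => hcA ((A.valuation_le_one_iff c).mp h')
      exact inv_lt_one_of_one_lt₀ (not_le.mp h1)
    have h2 : u = ⟨HahnSeries.C c⁻¹, C_mem_O A (A.nonunits_subset hci)⟩ * f := by
      apply Subtype.ext
      simp only [Subring.coe_mul]
      rw [hfu, ← mul_assoc, ← map_mul, inv_mul_cancel₀ hc, map_one, one_mul]
    apply hu
    rw [h2]
    exact rho_C_mul_eq_zero A hci f

end Fermat.Agent.S18.BridgeGauss15
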