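import Mathlib
import Fermat.Agent.S18.BridgeGauss15

/-!
# S18 / [BRIDGE], abstract half (3): the STRUCTURE kernel

`L` any field, `A : ValuationSubring L` ANY valuation subring, `k = A/𝔪_A`, `O A ⊆ L((q))`,
`rho A : O A →+* k((q))`.  Data (`structure Frame`):

* `j ∈ O A` with `t := rho j` transcendental over `k`;
* `F` an intermediate field of `L((q))/L` containing `j`;
* `x : ι → L((q))` (`ι` a fintype), `x i ∈ O A ∩ F`, whose reductions `rho (x i)` are linearly
  independent over `k(t)` and which span `F` over `L(j)`.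

Results:

* `Frame.sum_eq_zero` : the `x i` are `L(j)`-linearly independent (so they are an `L(j)`-basis).
* `Frame.exists_C_mul_unit` : every nonzero `y ∈ F` is `C c * u`, `c ∈ Lˣ`, `u ∈ O A ∩ F`,
  `rho u ≠ 0`, `rho u ∈ ∑ k(t) rho(x i)`   (value group of the Gauss valuation of `F` is `v(Lˣ)`).
* `Frame.mem_O_or_inv_mem_O` : `O A ∩ F` is a valuation ring of `F`; `Frame.OF : ValuationSubring F`.
* `Frame.sum_mem_O_iff` : orthonormality, `∑ c i * x i ∈ O A ↔ ∀ i, c i ∈ O A` (`c i ∈ L(j)`).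
* `Frame.rho_mem_span` : `rho (O A ∩ F) ⊆ ∑ k(t) rho(x i)`.
* `Frame.rho_eq_zero_iff` : for `y ∈ O A ∩ F`: `rho y = 0 ↔ y = C c * u` with `c ∈ 𝔪_A`, `u ∈ O A ∩ F`.
* `Frame.rhoF`, `Frame.rhoF_eq_zero_iff` (kernel = nonunits), `Frame.range_rhoF` (= the field
  `Fbar` as soon as `Fbar` is generated over `k` by reductions of elements of `O A ∩ F` and contains
  the `rho (x i)`).
* `spans_of_relrank_le` : the spanning hypothesis follows from `relrank L(j) F ≤ card ι`.
* `unbundle_linearIndependent` : the unbundled independence hypothesis from a Mathlib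
  `LinearIndependent ↥(k⟮t⟯)` statement.

No discreteness, no rank-one assumption, no descent to a DVR: only finite pivoting.
-/

set_option autoImplicit false

noncomputable section

namespace Fermat.Agent.S18.BridgeKernel15

open ModularCurve HahnSeries Polynomial IntermediateField
open Fermat.Agent.S18.Bridge28 Fermat.Agent.S18.BridgeO15 Fermat.Agent.S18.BridgeGauss15

variable {L : Type*} [Field L] (A : ValuationSubring L)

/-- The data of the structure theorem, without the spanning hypothesis. -/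
structure PreFrame (ι : Type*) [Fintype ι] where
  /-- the base function -/
  j : LaurentSeries L
  hj : j ∈ O A
  ht : Transcendental (IsLocalRing.ResidueField A) (rho A ⟨j, hj⟩)
  /-- the function field -/
  F : IntermediateField L (LaurentSeries L)
  hjF : j ∈ F
  /-- the frame -/
  x : ι → LaurentSeries L
  hxO : ∀ i, x i ∈ O A
  hxF : ∀ i, x i ∈ F
  /-- reductions are `k(t)`-linearly independent (unbundled) -/
  hli : ∀ g : ι → LaurentSeries (IsLocalRing.ResidueField A),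
    (∀ i, g i ∈ (IsLocalRing.ResidueField A)⟮rho A ⟨j, hj⟩⟯) →
    ∑ i, g i * rho A ⟨x i, hxO i⟩ = 0 → ∀ i, g i = 0

/-- The data of the structure theorem. -/
structure Frame (ι : Type*) [Fintype ι] extends PreFrame A ι where
  /-- the `x i` span `F` over `L(j)` (unbundled) -/
  hspan : ∀ y ∈ F, ∃ c : ι → LaurentSeries L, (∀ i, c i ∈ L⟮j⟯) ∧ y = ∑ i, c i * x i

/-- The unbundled independence hypothesis from a Mathlib `LinearIndependent` statement. -/
theorem unbundle_linearIndependent {K E : Type*} [Field K] [Field E] [Algebra K E]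
    (F₀ : IntermediateField K E) {ι : Type*} [Fintype ι] (v : ι → E)
    (h : LinearIndependent ↥F₀ v) (g : ι → E) (hg : ∀ i, g i ∈ F₀)
    (hsum : ∑ i, g i * v i = 0) : ∀ i, g i = 0 := by
  rw [Fintype.linearIndependent_iff] at h
  intro i
  have h1 := h (fun i => ⟨g i, hg i⟩) (by
    rw [← hsum]
    exact Finset.sum_congr rfl fun i _ => by rw [IntermediateField.smul_def]; rfl) i
  exact congrArg Subtype.val h1

namespace PreFrame

variable {A} {ι : Type*} [Fintype ι] (S : PreFrame A ι)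

/-- `t = rho j`. -/
def t : LaurentSeries (IsLocalRing.ResidueField A) := rho A ⟨S.j, S.hj⟩

/-- `x i` as an element of `O A`. -/
def xO (i : ι) : O A := ⟨S.x i, S.hxO i⟩

/-- The `k(t)`-span of the reductions of the frame (as a predicate). -/
def InSpan (z : LaurentSeries (IsLocalRing.ResidueField A)) : Prop :=
  ∃ g : ι → LaurentSeries (IsLocalRing.ResidueField A),
    (∀ i, g i ∈ (IsLocalRing.ResidueField A)⟮S.t⟯) ∧ z = ∑ i, g i * rho A (S.xO i)

theorem adjoin_le : L⟮S.j⟯ ≤ S.F := by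
  rw [adjoin_simple_le_iff]
  exact S.hjF

theorem inSpan_mul {g z : LaurentSeries (IsLocalRing.ResidueField A)}
    (hg : g ∈ (IsLocalRing.ResidueField A)⟮S.t⟯) (hz : S.InSpan z) : S.InSpan (g * z) := by
  obtain ⟨g', hg', rfl⟩ := hz
  refine ⟨fun i => g * g' i, fun i => mul_mem hg (hg' i), ?_⟩
  rw [Finset.mul_sum]
  exact Finset.sum_congr rfl fun i _ => (mul_assoc _ _ _).symm

/-- Sums with coefficients in `O ∩ L(j)` lie in `O`, and their reduction is computed termwise. -/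
theorem sum_mem_O (c : ι → LaurentSeries L) (hcO : ∀ i, c i ∈ O A) :
    ∑ i, c i * S.x i ∈ O A :=
  (O A).sum_mem fun i _ => (O A).mul_mem (hcO i) (S.hxO i)

theorem rho_sum (c : ι → LaurentSeries L) (hcO : ∀ i, c i ∈ O A) :
    rho A ⟨∑ i, c i * S.x i, S.sum_mem_O c hcO⟩ =
      ∑ i, rho A ⟨c i, hcO i⟩ * rho A (S.xO i) := by
  have h : (⟨∑ i, c i * S.x i, S.sum_mem_O c hcO⟩ : O A) = ∑ i, ⟨c i, hcO i⟩ * S.xO i := by
    apply Subtype.ext
    rw [AddSubmonoidClass.coe_finsetSum]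
    rfl
  rw [h, map_sum]
  exact Finset.sum_congr rfl fun i _ => map_mul _ _ _

theorem inSpan_sum (c : ι → LaurentSeries L) (hcO : ∀ i, c i ∈ O A) (hcj : ∀ i, c i ∈ L⟮S.j⟯) :
    S.InSpan (rho A ⟨∑ i, c i * S.x i, S.sum_mem_O c hcO⟩) :=
  ⟨fun i => rho A ⟨c i, hcO i⟩,
    fun i => rho_mem_of_mem_adjoin A S.j S.hj S.ht ⟨c i, hcO i⟩ (hcj i), S.rho_sum c hcO⟩

/-- **Key step.** If all `c i ∈ O ∩ L(j)` and some `rho (c i₀) ≠ 0`, then
`rho (∑ c i * x i) ≠ 0`. -/
theorem rho_sum_ne_zero (c : ι → LaurentSeries L) (hcO : ∀ i, c i ∈ O A)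
    (hcj : ∀ i, c i ∈ L⟮S.j⟯) (i₀ : ι) (h₀ : rho A ⟨c i₀, hcO i₀⟩ ≠ 0) :
    rho A ⟨∑ i, c i * S.x i, S.sum_mem_O c hcO⟩ ≠ 0 := by
  intro h
  rw [S.rho_sum c hcO] at h
  exact h₀ (S.hli (fun i => rho A ⟨c i, hcO i⟩)
    (fun i => rho_mem_of_mem_adjoin A S.j S.hj S.ht ⟨c i, hcO i⟩ (hcj i)) h i₀)

/-- **Pivoting.** Among finitely many elements of `L(j)`, not all zero, there is one of maximal
Gauss valuation. -/
theorem exists_pivot (c : ι → LaurentSeries L) (hcj : ∀ i, c i ∈ L⟮S.j⟯) (hne : ∃ i, c i ≠ 0) :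
    ∃ i₀, c i₀ ≠ 0 ∧ ∀ i, c i * (c i₀)⁻¹ ∈ O A := by
  classical
  have hex : ∀ i, ∃ (a : L) (u : O A), c i ≠ 0 →
      (a ≠ 0 ∧ c i = HahnSeries.C a * (u : LaurentSeries L) ∧ rho A u ≠ 0) := by
    intro i
    by_cases hi : c i = 0
    · exact ⟨0, 0, fun h => absurd hi h⟩
    · obtain ⟨a, u, ha, hau, hu, -, -⟩ := exists_C_mul_unit A S.j S.hj S.ht (hcj i) hi
      exact ⟨a, u, fun _ => ⟨ha, hau, hu⟩⟩
  choose a u hau using hex
  have hT : (Finset.univ.filter fun i => c i ≠ 0).Nonempty := by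
    obtain ⟨i, hi⟩ := hne
    exact ⟨i, Finset.mem_filter.2 ⟨Finset.mem_univ _, hi⟩⟩
  obtain ⟨i₀, hi₀, hmax⟩ := Finset.exists_max_image _ (fun i => A.valuation (a i)) hT
  have hi₀' : c i₀ ≠ 0 := (Finset.mem_filter.1 hi₀).2
  obtain ⟨ha₀, hc₀, hu₀⟩ := hau i₀ hi₀'
  refine ⟨i₀, hi₀', fun i => ?_⟩
  by_cases hi : c i = 0
  · rw [hi, zero_mul]; exact (O A).zero_mem
  obtain ⟨hai, hci, hui⟩ := hau i hi
  have hle : A.valuation (a i) ≤ A.valuation (a i₀) :=
    hmax i (Finset.mem_filter.2 ⟨Finset.mem_univ _, hi⟩)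
  have hmem : a i * (a i₀)⁻¹ ∈ A := by
    rw [← ValuationSubring.valuation_le_one_iff, map_mul, map_inv₀]
    have hv0 : A.valuation (a i₀) ≠ 0 := (_root_.map_ne_zero _).mpr ha₀
    calc A.valuation (a i) * (A.valuation (a i₀))⁻¹
        ≤ A.valuation (a i₀) * (A.valuation (a i₀))⁻¹ := by gcongr
      _ = 1 := mul_inv_cancel₀ hv0
  have hu₀inv : ((u i₀ : O A) : LaurentSeries L)⁻¹ ∈ O A := inv_mem_O_of_rho_ne_zero A (u i₀) hu₀
  have e : c i * (c i₀)⁻¹ =
      HahnSeries.C (a i * (a i₀)⁻¹) * (((u i : O A) : LaurentSeries L) *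
        ((u i₀ : O A) : LaurentSeries L)⁻¹) := by
    rw [hci, hc₀, mul_inv, map_mul, map_inv₀]
    ring
  rw [e]
  exact (O A).mul_mem (C_mem_O A hmem) ((O A).mul_mem (u i).2 hu₀inv)

/-- Normalised form of a nonzero combination: `∑ c i * x i = c i₀ * z` with `z ∈ O`,
`rho z ≠ 0`, `rho z ∈ span`. -/
theorem exists_normalized (c : ι → LaurentSeries L) (hcj : ∀ i, c i ∈ L⟮S.j⟯)
    (hne : ∃ i, c i ≠ 0) :
    ∃ (i₀ : ι) (z : O A), c i₀ ≠ 0 ∧ (∀ i, c i * (c i₀)⁻¹ ∈ O A) ∧
      ∑ i, c i * S.x i = c i₀ * (z : LaurentSeries L) ∧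
      rho A z ≠ 0 ∧ S.InSpan (rho A z) ∧ (z : LaurentSeries L) ∈ S.F := by
  obtain ⟨i₀, hi₀, hpiv⟩ := S.exists_pivot c hcj hne
  have hcj' : ∀ i, c i * (c i₀)⁻¹ ∈ L⟮S.j⟯ := fun i => mul_mem (hcj i) (inv_mem (hcj i₀))
  refine ⟨i₀, ⟨_, S.sum_mem_O (fun i => c i * (c i₀)⁻¹) hpiv⟩, hi₀, hpiv, ?_, ?_, ?_, ?_⟩
  · show ∑ i, c i * S.x i = c i₀ * ∑ i, c i * (c i₀)⁻¹ * S.x i
    rw [Finset.mul_sum]
    refine Finset.sum_congr rfl fun i _ => ?_
    field_simp
  · refine S.rho_sum_ne_zero _ hpiv hcj' i₀ ?_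
    have h1 : (⟨c i₀ * (c i₀)⁻¹, hpiv i₀⟩ : O A) = 1 := Subtype.ext (mul_inv_cancel₀ hi₀)
    rw [h1, map_one]
    exact one_ne_zero
  · exact S.inSpan_sum _ hpiv hcj'
  · exact sum_mem fun i _ => mul_mem (S.adjoin_le (hcj' i)) (S.hxF i)

/-- **(i)** The frame is `L(j)`-linearly independent. -/
theorem sum_eq_zero (c : ι → LaurentSeries L) (hcj : ∀ i, c i ∈ L⟮S.j⟯)
    (h : ∑ i, c i * S.x i = 0) : ∀ i, c i = 0 := by
  by_contra hne
  push Not at hne
  obtain ⟨i₀, z, hi₀, -, hz, hρ, -, -⟩ := S.exists_normalized c hcj hne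
  rw [h] at hz
  have hz0 : (z : LaurentSeries L) ≠ 0 := ne_zero_of_rho_ne_zero A z hρ
  exact mul_ne_zero hi₀ hz0 hz.symm

/-- The spanning hypothesis follows from the degree bound `[F : L(j)] ≤ card ι`. -/
theorem spans_of_relrank_le
    (h : IntermediateField.relrank L⟮S.j⟯ S.F ≤ (Fintype.card ι : Cardinal)) :
    ∀ y ∈ S.F, ∃ c : ι → LaurentSeries L, (∀ i, c i ∈ L⟮S.j⟯) ∧ y = ∑ i, c i * S.x i := by
  have hle : L⟮S.j⟯ ≤ S.F := S.adjoin_le
  have hrank : Module.rank ↥(L⟮S.j⟯) ↥(IntermediateField.extendScalars hle) ≤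
      (Fintype.card ι : Cardinal) := by
    rw [← IntermediateField.relrank_eq_rank_of_le hle]
    exact h
  have : Module.Finite ↥(L⟮S.j⟯) ↥(IntermediateField.extendScalars hle) :=
    Module.rank_lt_aleph0_iff.1 (hrank.trans_lt Cardinal.natCast_lt_aleph0)
  let x' : ι → ↥(IntermediateField.extendScalars hle) := fun i =>
    ⟨S.x i, (IntermediateField.mem_extendScalars hle).2 (S.hxF i)⟩
  have hcoe : ∀ (g : ι → ↥(L⟮S.j⟯)),
      ((∑ i, g i • x' i : ↥(IntermediateField.extendScalars hle)) : LaurentSeries L) =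
        ∑ i, (g i : LaurentSeries L) * S.x i := by
    intro g
    rw [AddSubmonoidClass.coe_finsetSum]
    rfl
  have hli' : LinearIndependent ↥(L⟮S.j⟯) x' := by
    rw [Fintype.linearIndependent_iff]
    intro g hg i
    have h1 : ∑ i, (g i : LaurentSeries L) * S.x i = 0 := by
      rw [← hcoe g, hg]
      rfl
    exact Subtype.ext (S.sum_eq_zero (fun i => (g i : LaurentSeries L)) (fun i => (g i).2) h1 i)
  have hcard : Fintype.card ι =
      Module.finrank ↥(L⟮S.j⟯) ↥(IntermediateField.extendScalars hle) :=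
    le_antisymm hli'.fintype_card_le_finrank (Module.finrank_le_of_rank_le hrank)
  have htop := hli'.span_eq_top_of_card_eq_finrank' hcard
  intro y hy
  have hy' : (⟨y, (IntermediateField.mem_extendScalars hle).2 hy⟩ :
      ↥(IntermediateField.extendScalars hle)) ∈ Submodule.span ↥(L⟮S.j⟯) (Set.range x') := by
    rw [htop]; exact Submodule.mem_top
  obtain ⟨g, hg⟩ := (Submodule.mem_span_range_iff_exists_fun _).1 hy'
  refine ⟨fun i => (g i : LaurentSeries L), fun i => (g i).2, ?_⟩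
  rw [← hcoe g, hg]

end PreFrame

/-- A frame from the degree bound `[F : L(j)] ≤ card ι`. -/
def Frame.ofRelrankLe {ι : Type*} [Fintype ι] (S : PreFrame A ι)
    (h : IntermediateField.relrank L⟮S.j⟯ S.F ≤ (Fintype.card ι : Cardinal)) : Frame A ι :=
  { S with hspan := S.spans_of_relrank_le h }

namespace Frame

variable {A} {ι : Type*} [Fintype ι] (S : Frame A ι)

/-- **(ii)** Every nonzero `y ∈ F` is a nonzero constant times a unit of `O ∩ F`
(the value group of the Gauss valuation on `F` is `v(Lˣ)`), with reduction in the span. -/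
theorem exists_C_mul_unit {y : LaurentSeries L} (hy : y ∈ S.F) (hy0 : y ≠ 0) :
    ∃ (c : L) (u : O A), c ≠ 0 ∧ y = HahnSeries.C c * (u : LaurentSeries L) ∧
      rho A u ≠ 0 ∧ S.InSpan (rho A u) ∧ (u : LaurentSeries L) ∈ S.F := by
  obtain ⟨c, hcj, hyc⟩ := S.hspan y hy
  have hne : ∃ i, c i ≠ 0 := by
    by_contra h
    push Not at h
    apply hy0
    rw [hyc]
    exact Finset.sum_eq_zero fun i _ => by rw [h i, zero_mul]
  obtain ⟨i₀, z, hi₀, -, hz, hρ, hzs, hzF⟩ := S.exists_normalized c hcj hne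
  obtain ⟨a, u₀, ha, hau, hu₀, hu₀k, hu₀j⟩ :=
    BridgeGauss15.exists_C_mul_unit A S.j S.hj S.ht (hcj i₀) hi₀
  refine ⟨a, u₀ * z, ha, ?_, ?_, ?_, ?_⟩
  · rw [hyc, hz, hau]
    simp only [Subring.coe_mul]
    ring
  · rw [map_mul]; exact mul_ne_zero hu₀ hρ
  · rw [map_mul]; exact S.inSpan_mul hu₀k hzs
  · simp only [Subring.coe_mul]
    exact mul_mem (S.adjoin_le hu₀j) hzF

/-- **(iii)** `O ∩ F` is a valuation ring of `F`. -/
theorem mem_O_or_inv_mem_O {y : LaurentSeries L} (hy : y ∈ S.F) : y ∈ O A ∨ y⁻¹ ∈ O A := by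
  by_cases hy0 : y = 0
  · left; rw [hy0]; exact (O A).zero_mem
  obtain ⟨c, u, hc, hyu, hu, -, -⟩ := S.exists_C_mul_unit hy hy0
  rcases A.mem_or_inv_mem c with h | h
  · left
    rw [hyu]
    exact (O A).mul_mem (C_mem_O A h) u.2
  · right
    rw [hyu, mul_inv, ← map_inv₀]
    exact (O A).mul_mem (C_mem_O A h) (inv_mem_O_of_rho_ne_zero A u hu)

/-- For `y = C c * u ∈ O` with `rho u ≠ 0`, the constant `c` lies in `A`. -/
theorem const_mem_of_mem_O {c : L} (hc : c ≠ 0) (u : O A) (hu : rho A u ≠ 0)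
    (h : HahnSeries.C c * (u : LaurentSeries L) ∈ O A) : c ∈ A := by
  by_contra hcA
  have hci : c⁻¹ ∈ A.nonunits := by
    rw [ValuationSubring.mem_nonunits_iff, map_inv₀]
    have h1 : ¬ A.valuation c ≤ 1 := fun h' => hcA ((A.valuation_le_one_iff c).mp h')
    exact inv_lt_one_of_one_lt₀ (not_le.mp h1)
  have h2 : u = ⟨HahnSeries.C c⁻¹, C_mem_O A (A.nonunits_subset hci)⟩ * ⟨_, h⟩ := by
    apply Subtype.ext
    simp only [Subring.coe_mul]
    rw [← mul_assoc, ← map_mul, inv_mul_cancel₀ hc, map_one, one_mul]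
  apply hu
  rw [h2]
  exact rho_C_mul_eq_zero A hci _

/-- **(iv)** `rho (O ∩ F)` lies in the `k(t)`-span of the reductions of the frame. -/
theorem rho_mem_span (y : O A) (hy : (y : LaurentSeries L) ∈ S.F) : S.InSpan (rho A y) := by
  by_cases hy0 : (y : LaurentSeries L) = 0
  · have : y = 0 := Subtype.ext hy0
    rw [this, map_zero]
    exact ⟨fun _ => 0, fun _ => zero_mem _, by simp⟩
  obtain ⟨c, u, hc, hyu, hu, hus, -⟩ := S.exists_C_mul_unit hy hy0
  have hcA : c ∈ A := const_mem_of_mem_O hc u hu (hyu ▸ y.2)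
  have h1 : y = ⟨HahnSeries.C c, C_mem_O A hcA⟩ * u := Subtype.ext hyu
  rw [h1, map_mul, rho_C A hcA]
  refine S.inSpan_mul ?_ hus
  rw [← algebraMap_k_eq_C]
  exact IntermediateField.algebraMap_mem _ _

/-- **(v)** The kernel of `rho` on `O ∩ F` consists of the `𝔪_A`-multiples. -/
theorem rho_eq_zero_iff (y : O A) (hy : (y : LaurentSeries L) ∈ S.F) :
    rho A y = 0 ↔ ∃ (c : L) (u : O A), c ∈ A.nonunits ∧ (u : LaurentSeries L) ∈ S.F ∧
      (y : LaurentSeries L) = HahnSeries.C c * (u : LaurentSeries L) := by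
  constructor
  · intro h
    by_cases hy0 : (y : LaurentSeries L) = 0
    · exact ⟨0, 0, by rw [ValuationSubring.mem_nonunits_iff, map_zero]; exact zero_lt_one,
        S.F.zero_mem, by rw [hy0, map_zero, zero_mul]⟩
    obtain ⟨c, u, hc, hyu, hu, -, huF⟩ := S.exists_C_mul_unit hy hy0
    have hcA : c ∈ A := const_mem_of_mem_O hc u hu (hyu ▸ y.2)
    refine ⟨c, u, ?_, huF, hyu⟩
    have h1 : y = ⟨HahnSeries.C c, C_mem_O A hcA⟩ * u := Subtype.ext hyu
    rw [h1, map_mul, mul_eq_zero] at h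
    rcases h with h | h
    · exact (rho_C_eq_zero_iff A hcA).mp h
    · exact absurd h hu
  · rintro ⟨c, u, hc, -, hyu⟩
    have h1 : y = ⟨HahnSeries.C c, C_mem_O A (A.nonunits_subset hc)⟩ * u := Subtype.ext hyu
    rw [h1]
    exact rho_C_mul_eq_zero A hc u

/-- **(vi)** Orthonormality of the frame over `V = O ∩ L(j)`. -/
theorem sum_mem_O_iff (c : ι → LaurentSeries L) (hcj : ∀ i, c i ∈ L⟮S.j⟯) :
    ∑ i, c i * S.x i ∈ O A ↔ ∀ i, c i ∈ O A := by
  refine ⟨fun h => ?_, S.sum_mem_O c⟩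
  by_contra hcon
  push Not at hcon
  obtain ⟨i₁, hi₁⟩ := hcon
  have hne : ∃ i, c i ≠ 0 := ⟨i₁, fun h0 => hi₁ (h0 ▸ (O A).zero_mem)⟩
  obtain ⟨i₀, z, hi₀, hpiv, hz, hρ, -, -⟩ := S.exists_normalized c hcj hne
  -- `c i₀ ∉ O`
  have hc₀ : c i₀ ∉ O A := by
    intro h0
    apply hi₁
    have : c i₁ = c i₁ * (c i₀)⁻¹ * c i₀ := by field_simp
    rw [this]
    exact (O A).mul_mem (hpiv i₁) h0
  have hinv : (c i₀)⁻¹ ∈ O A :=
    (BridgeGauss15.mem_O_or_inv_mem_O A S.j S.hj S.ht (hcj i₀)).resolve_left hc₀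
  have hρinv : rho A ⟨(c i₀)⁻¹, hinv⟩ = 0 := by
    by_contra hne0
    apply hc₀
    have := inv_mem_O_of_rho_ne_zero A ⟨(c i₀)⁻¹, hinv⟩ hne0
    simpa using this
  have hz' : z = ⟨(c i₀)⁻¹, hinv⟩ * ⟨_, h⟩ := by
    apply Subtype.ext
    simp only [Subring.coe_mul]
    rw [hz, ← mul_assoc, inv_mul_cancel₀ hi₀, one_mul]
  apply hρ
  rw [hz', map_mul, hρinv, zero_mul]

/-! ### The valuation subring of `F` and its residue map -/

/-- `O_F = O ∩ F` as a valuation subring of `F`. -/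
def OF : ValuationSubring S.F where
  toSubring := (O A).comap (algebraMap S.F (LaurentSeries L))
  mem_or_inv_mem' := by
    intro y
    rcases S.mem_O_or_inv_mem_O y.2 with h | h
    · exact Or.inl h
    · right
      show algebraMap S.F (LaurentSeries L) y⁻¹ ∈ O A
      rw [map_inv₀]
      exact h

theorem mem_OF_iff (y : S.F) : y ∈ S.OF ↔ (y : LaurentSeries L) ∈ O A := Iff.rfl

/-- The residue map of `O_F`, with values in `k((q))`. -/
def rhoF : S.OF →+* LaurentSeries (IsLocalRing.ResidueField A) :=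
  (rho A).comp
    (((algebraMap S.F (LaurentSeries L)).comp S.OF.subtype).codRestrict (O A) (fun y => y.2))

theorem rhoF_apply (y : S.OF) :
    S.rhoF y = rho A ⟨((y : S.F) : LaurentSeries L), (S.mem_OF_iff y).1 y.2⟩ := rfl

theorem rhoF_mem_span (y : S.OF) : S.InSpan (S.rhoF y) :=
  S.rho_mem_span _ (y : S.F).2

/-- The kernel of `rhoF` is the maximal ideal. -/
theorem rhoF_eq_zero_iff (y : S.OF) : S.rhoF y = 0 ↔ (y : S.F) ∈ S.OF.nonunits := by
  rw [rhoF_apply]
  constructor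
  · intro h
    rw [ValuationSubring.mem_nonunits_iff]
    by_contra hcon
    have h1 : S.OF.valuation (y : S.F) = 1 :=
      le_antisymm ((S.OF.valuation_le_one_iff _).mpr y.2) (not_lt.mp hcon)
    have hy0 : (y : S.F) ≠ 0 := by
      intro h0
      rw [h0, map_zero] at h1
      exact zero_ne_one h1
    have h2 : (y : S.F)⁻¹ ∈ S.OF := by
      rw [← ValuationSubring.valuation_le_one_iff, map_inv₀, h1, inv_one]
    have h3 : (((y : S.F) : LaurentSeries L))⁻¹ ∈ O A := by
      have := (S.mem_OF_iff _).1 h2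
      rwa [IntermediateField.coe_inv] at this
    have hy0' : ((y : S.F) : LaurentSeries L) ≠ 0 := fun h0 => hy0 (Subtype.ext h0)
    exact rho_ne_zero_of_inv_mem A ⟨_, (S.mem_OF_iff y).1 y.2⟩ hy0' h3 h
  · intro h
    by_contra hne
    have h3 := inv_mem_O_of_rho_ne_zero A ⟨_, (S.mem_OF_iff y).1 y.2⟩ hne
    have h2 : (y : S.F)⁻¹ ∈ S.OF := by
      rw [mem_OF_iff, IntermediateField.coe_inv]
      exact h3
    rw [ValuationSubring.mem_nonunits_iff] at h
    have h4 : S.OF.valuation (y : S.F)⁻¹ ≤ 1 := (S.OF.valuation_le_one_iff _).mpr h2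
    rw [map_inv₀] at h4
    have hy0 : S.OF.valuation (y : S.F) ≠ 0 := by
      intro h0
      rw [h0, inv_zero] at h4
      have hne' : rho A ⟨((y : S.F) : LaurentSeries L), (S.mem_OF_iff y).1 y.2⟩ = 0 := by
        have : (y : S.F) = 0 := (map_eq_zero _).1 h0
        have h5 : (⟨((y : S.F) : LaurentSeries L), (S.mem_OF_iff y).1 y.2⟩ : O A) = 0 := by
          apply Subtype.ext
          show ((y : S.F) : LaurentSeries L) = 0
          rw [this]
          rfl
        rw [h5, map_zero]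
      exact hne hne'
    have h5 : 1 ≤ S.OF.valuation (y : S.F) := (inv_le_one₀ (zero_lt_iff.mpr hy0)).mp h4
    exact absurd h (not_lt.mpr h5)

/-- Value group: every nonzero `y : F` is a constant times a unit of `O_F`. -/
theorem exists_const_mul_unit (y : S.F) (hy : y ≠ 0) :
    ∃ (c : L) (u : S.F), c ≠ 0 ∧ y = algebraMap L S.F c * u ∧ u ∈ S.OF ∧ u⁻¹ ∈ S.OF := by
  have hy0 : (y : LaurentSeries L) ≠ 0 := fun h0 => hy (Subtype.ext h0)
  obtain ⟨c, u, hc, hyu, hu, -, huF⟩ := S.exists_C_mul_unit y.2 hy0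
  refine ⟨c, ⟨u, huF⟩, hc, ?_, u.2, ?_⟩
  · apply Subtype.ext
    rw [hyu]
    show _ = ((algebraMap L S.F c : S.F) : LaurentSeries L) * (u : LaurentSeries L)
    rw [IntermediateField.coe_algebraMap_apply, algebraMap_eq_C]
  · rw [mem_OF_iff, IntermediateField.coe_inv]
    exact inv_mem_O_of_rho_ne_zero A u hu

/-- Constants: `c ∈ O_F ↔ c ∈ A`. -/
theorem algebraMap_mem_OF_iff (c : L) : algebraMap L S.F c ∈ S.OF ↔ c ∈ A := by
  rw [mem_OF_iff, IntermediateField.coe_algebraMap_apply, algebraMap_eq_C, C_mem_O_iff]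

/-- **Range of the residue map.**  Let `Fbar` be an intermediate field of `k((q))/k` which is
generated over `k` by reductions of elements of `O ∩ F` and contains `t` and all `rho (x i)`.
Then `rho (O ∩ F) = Fbar`. -/
theorem range_rhoF (Fbar : IntermediateField (IsLocalRing.ResidueField A)
      (LaurentSeries (IsLocalRing.ResidueField A)))
    (G : Set (LaurentSeries (IsLocalRing.ResidueField A)))
    (hG : ∀ g ∈ G, ∃ y : S.OF, S.rhoF y = g)
    (hFbar : Fbar = IntermediateField.adjoin (IsLocalRing.ResidueField A) G)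
    (htF : S.t ∈ Fbar) (hxF : ∀ i, rho A (S.xO i) ∈ Fbar)
    (z : LaurentSeries (IsLocalRing.ResidueField A)) :
    z ∈ Fbar ↔ ∃ y : S.OF, S.rhoF y = z := by
  constructor
  · intro hz
    -- the range of `rhoF` is an intermediate field
    let R : IntermediateField (IsLocalRing.ResidueField A)
        (LaurentSeries (IsLocalRing.ResidueField A)) :=
      { toSubalgebra :=
          { toSubsemiring := S.rhoF.range.toSubsemiring
            algebraMap_mem' := by
              intro c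
              show algebraMap _ _ c ∈ S.rhoF.range
              obtain ⟨a, rfl⟩ := IsLocalRing.residue_surjective c
              have ha : algebraMap L S.F (a : L) ∈ S.OF := (S.algebraMap_mem_OF_iff _).2 a.2
              refine ⟨⟨_, ha⟩, ?_⟩
              rw [rhoF_apply, algebraMap_k_eq_C]
              have h1 := rho_C A a.2
              rw [← h1]
              apply rho_congr
              show ((algebraMap L S.F (a : L) : S.F) : LaurentSeries L) = HahnSeries.C (a : L)
              rw [IntermediateField.coe_algebraMap_apply, algebraMap_eq_C] }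
        inv_mem' := by
          intro z hz
          have hz' : z ∈ S.rhoF.range := hz
          show z⁻¹ ∈ S.rhoF.range
          obtain ⟨y, rfl⟩ := hz'
          by_cases h0 : S.rhoF y = 0
          · rw [h0, inv_zero]; exact Subring.zero_mem _
          · have h3 := inv_mem_O_of_rho_ne_zero A ⟨_, (S.mem_OF_iff y).1 y.2⟩ h0
            have h2 : (y : S.F)⁻¹ ∈ S.OF := by
              rw [mem_OF_iff, IntermediateField.coe_inv]
              exact h3
            refine ⟨⟨_, h2⟩, ?_⟩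
            have h4 : y * ⟨_, h2⟩ = 1 := by
              apply Subtype.ext
              have hy0 : (y : S.F) ≠ 0 := by
                intro h5
                apply h0
                have : y = 0 := Subtype.ext h5
                rw [this, map_zero]
              exact mul_inv_cancel₀ hy0
            have h5 := congrArg S.rhoF h4
            rw [map_mul, map_one] at h5
            exact (eq_inv_of_mul_eq_one_right h5) }
    have hmemR : ∀ w, w ∈ R ↔ ∃ y : S.OF, S.rhoF y = w := fun w => Iff.rfl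
    have hle : Fbar ≤ R := by
      rw [hFbar, IntermediateField.adjoin_le_iff]
      intro g hg
      exact (hmemR g).2 (hG g hg)
    exact (hmemR z).1 (hle hz)
  · rintro ⟨y, rfl⟩
    obtain ⟨g, hg, hyg⟩ := S.rhoF_mem_span y
    rw [hyg]
    refine sum_mem fun i _ => mul_mem ?_ (hxF i)
    have : (IsLocalRing.ResidueField A)⟮S.t⟯ ≤ Fbar := by
      rw [adjoin_simple_le_iff]
      exact htF
    exact this (hg i)

end Frame

end Fermat.Agent.S18.BridgeKernel15
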