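/-
S18 / LD-ASSEMBLY (helper29), part 4: `Nonempty (Level33.LevelData A M)` at every level `M`
prime to `ℓ`, from helper28's concrete frame `Bridge28.frame A M hMk`, with ONLY the genus
inequality and the lattice lemma left as hypotheses.
-/
import Fermat.Agent.S18.LevelAsm29
import Fermat.Agent.S18.Bridge28.Exports
import Fermat.Agent.S18.DegreeBar14

set_option autoImplicit false
set_option linter.unusedSectionVars false
set_option linter.unusedVariables false
set_option linter.style.haveILetI false
set_option synthInstance.maxHeartbeats 400000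
set_option maxHeartbeats 1600000

open ModularCurve AlgebraicCurve HahnSeries IntermediateField Polynomial Module

noncomputable section

namespace Fermat.Agent.S18.LevelFinal29

open Fermat.Agent.S18.Spine33 Fermat.Agent.S18.Bridge28 Fermat.Agent.S18.BridgeKernel15
open Fermat.Agent.S18.LevelInst29 Fermat.Agent.S18.GaussM29 Fermat.Agent.S18.LevelAsm29
open Fermat.Agent.S20 Fermat.Agent.S24

variable (A : ValuationSubring Kb) (M : ℕ) [NeZero M] (hMk : (M : kA A) ≠ 0)

/-- the lattice lemma at level `M` for the concrete frame -/
abbrev LatticeM : Prop := LatticeProp M A (frame A M hMk) (frame_F A M hMk)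

theorem hj_frame : (frame A M hMk).j = ((jF M : FK M) : LaurentSeries Kb) := by
  rw [frame_j]
  exact (coeffEmb_jq).symm

theorem ht_frame : (frame A M hMk).t = jqModC (kA A) := rho_jqModC A

theorem hrange_frame (y : OF' (frame A M hMk) (modularFunctionFieldBar M) (frame_F A M hMk)) :
    rhoF' (frame A M hMk) (modularFunctionFieldBar M) (frame_F A M hMk) y ∈
      modularFunctionFieldFullC (kA A) M :=
  (range_rhoF_concrete A M hMk _).2 ⟨y, rfl⟩

include hMk in
theorem degProp [IsAlgClosed (kA A)] : DegProp M A :=
  DegreeBar14.finrank_algRat_eq (kA A) M hMk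

/-- **LevelData from the genus inequality and the lattice lemma.** -/
theorem nonempty_levelData_of [IsAlgClosed (kA A)] (hgenus : GenusProp M A hMk)
    (hlattice : LatticeM A M hMk) : Nonempty (Level33.LevelData A M) :=
  nonempty_levelData_of_frame M A (frame A M hMk) (frame_F A M hMk) (hj_frame A M hMk)
    (ht_frame A M hMk) hMk (hrange_frame A M hMk) (degProp A M hMk) hgenus hlattice

/-- the same for `A` over `ℓ`, `ℓ ∤ M` -/
theorem nonempty_levelData_of_liesOver {ℓ : ℕ} [Fact ℓ.Prime] (hA : A.LiesOverPrime ℓ)
    (hM : ¬ ℓ ∣ M)
    (hgenus : haveI := ValRing25.residueField_isAlgClosed A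
      GenusProp M A (natCast_residueField_ne_zero A hA hM))
    (hlattice : LatticeM A M (natCast_residueField_ne_zero A hA hM)) :
    Nonempty (Level33.LevelData A M) := by
  haveI := ValRing25.residueField_isAlgClosed A
  exact nonempty_levelData_of A M (natCast_residueField_ne_zero A hA hM) hgenus hlattice

end Fermat.Agent.S18.LevelFinal29
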