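/-
S18 / P2 closed (helper33): `Nonempty (Level33.LevelData A M)` at every good level, hence
`Spine33.LevelStatement`, from
* helper29 `LevelFinal29.nonempty_levelData_of_liesOver` (assembly modulo genus + lattice),
* helper56 `LatticeInst56.lattice_field` (lattice lemma),
* helper80 `CuspSemi80.genusProp_of_frame` (C-SEMI instance + genus wiring),
* helper81 `CuspBaseFinal81.cuspCount_le` (C-BASE), helper14 `DegreeBar14.degOver_eq`.
-/
import Fermat.Agent.S18.LevelFinal29
import Fermat.Agent.S18.LatticeInst56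
import Fermat.Agent.S18.CuspSemi80.GenusProp
import Fermat.Agent.S18.CuspBaseFinal81
import Fermat.Agent.S18.DegreeBar14

set_option autoImplicit false
set_option linter.unusedSectionVars false
set_option linter.unusedVariables false
set_option linter.style.haveILetI false
set_option synthInstance.maxHeartbeats 400000
set_option maxHeartbeats 1600000

open ModularCurve AlgebraicCurve HahnSeries IntermediateField Polynomial Module

noncomputable section

namespace Fermat.Agent.S18.LevelDone33

open Fermat.Agent.S18.Spine33 Fermat.Agent.S18.Bridge28 Fermat.Agent.S18.BridgeKernel15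
open Fermat.Agent.S18.LevelInst29 Fermat.Agent.S18.LevelAsm29 Fermat.Agent.S18.LevelFinal29

variable (A : ValuationSubring Kb) (M : ℕ) [NeZero M] {ℓ : ℕ} [Fact ℓ.Prime]

/-- the lattice lemma for the concrete frame -/
theorem latticeM (hA : A.LiesOverPrime ℓ) (hM : ¬ ℓ ∣ M) :
    LatticeM A M (natCast_residueField_ne_zero A hA hM) :=
  LatticeInst56.lattice_field hA hM
    (OF' (frame A M (natCast_residueField_ne_zero A hA hM)) (modularFunctionFieldBar M)
      (frame_F A M (natCast_residueField_ne_zero A hA hM)))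
    (rhoF' (frame A M (natCast_residueField_ne_zero A hA hM)) (modularFunctionFieldBar M)
      (frame_F A M (natCast_residueField_ne_zero A hA hM)))
    (ker_rhoF' _ _ _) (rhoF'_incl _ _ _) (const_mem_OF' _ _ _) (rhoF'_const _ _ _)

/-- the genus inequality at a good level -/
theorem genusProp (hA : A.LiesOverPrime ℓ) (hM : ¬ ℓ ∣ M) (hgood : GoodLevel ℓ M) :
    haveI := ValRing25.residueField_isAlgClosed A
    GenusProp M A (natCast_residueField_ne_zero A hA hM) := by
  haveI := ValRing25.residueField_isAlgClosed A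
  have hMk : (M : kA A) ≠ 0 := natCast_residueField_ne_zero A hA hM
  obtain ⟨M₀, hM₀, hdvd⟩ : ∃ M₀ : ℕ, (M₀ = 4 ∨ M₀ = 9) ∧ M₀ ∣ M := by
    rcases hgood with ⟨-, h4⟩ | ⟨-, h9⟩
    · exact ⟨4, Or.inl rfl, h4⟩
    · exact ⟨9, Or.inr rfl, h9⟩
  haveI : NeZero M₀ := ⟨by rcases hM₀ with rfl | rfl <;> norm_num⟩
  have hM₀k : (M₀ : kA A) ≠ 0 := by
    obtain ⟨c, rfl⟩ := hdvd
    intro h
    apply hMk
    push_cast
    rw [h, zero_mul]
  exact CuspSemi80.genusProp_of_frame M₀ M A (frame A M hMk) (frame_F A M hMk)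
    (hj_frame A M hMk) (ht_frame A M hMk) hMk (hrange_frame A M hMk) (degProp A M hMk)
    (latticeM A M hA hM) hM₀ hdvd (DegreeBar14.degOver_eq (kA A) M₀ hM₀k)
    (CuspBaseFinal81.cuspCount_le (kA A) M₀ hM₀ hM₀k)

/-- **`LevelData` exists at every good level.** -/
theorem nonempty_levelData (M : ℕ) [NeZero M] (ℓ : ℕ) [Fact ℓ.Prime] (hℓM : ¬ ℓ ∣ M)
    (hgood : GoodLevel ℓ M) (A : ValuationSubring Kb) (hA : A.LiesOverPrime ℓ) :
    Nonempty (Level33.LevelData A M) :=
  nonempty_levelData_of_liesOver A M hA hℓM (genusProp A M hA hℓM hgood) (latticeM A M hA hℓM)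

/-- **Plug P2 of the S18 spine.** -/
theorem level : Spine33.LevelStatement :=
  Level33.levelStatement_of_data nonempty_levelData

end Fermat.Agent.S18.LevelDone33
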