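/-
S18 moonshot, leaf **N-FRAC** (helper20): the hypothesis `H1 = HasIntegralFractions` of
`Normalize96.normalize`, WITHOUT [BRIDGE].

Every nonzero `x ∈ F_N` has a principal divisor `div x`; by the second half of
`ReductionInputsAlong` (`PrincipalGeneratedByIntegral`) it lies in the additive closure of the
divisors of integral elements, and these are closed under products, so `div x = div (a / b)` with
`a b : IntElt`; then `x b / a` has neither zeros nor poles, hence is a constant `c ≠ 0`, i.e.
`x * b = c * a`.

* `IntElt.one`, `IntElt.mul` : `IntElt` is a multiplicative monoid.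
* `exists_intElt_of_mem_closure` : elements of the closure are `div a - div b`.
* `hasIntegralFractions` : the general statement (any `L`, `A`, `π`), with the constants of `F_N`
  as a hypothesis.
* `const_of_ord_zero` : functions on `F` (finite over `K(f)`, `K` alg. closed of char. `0`)
  without zeros are constant.
* `hasPrincipalDivisors_bar`, `hasIntegralFractions_modL` : the concrete instance over `ℚ̄`,
  from `h : ReductionInputsModL A N` alone.
-/
import Fermat.Agent.S18.Normalize96
import Fermat.Agent.S24.Exports
import Fermat.Agent.S24.FFPlaces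

set_option autoImplicit false

noncomputable section

open HahnSeries IntermediateField AlgebraicCurve ModularCurve

namespace Fermat.Agent.S18.NormFrac20

open Fermat.Agent.S18.Normalize96

section General

variable {L : Type*} [Field L] [Algebra ℚ L] {A : ValuationSubring L}
variable {k : Type*} [Field k] {π : A →+* k} {N : ℕ}

/-- the integral element `1` -/
def one : IntElt A π N where
  y := 1
  mem := by rw [map_one]; exact one_mem _
  memk := by rw [map_one]; exact one_mem _
  ne := by rw [map_one]; exact one_ne_zero

/-- the product of two integral elements -/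
def mul (a b : IntElt A π N) : IntElt A π N where
  y := a.y * b.y
  mem := by rw [map_mul]; exact mul_mem a.mem b.mem
  memk := by rw [map_mul]; exact mul_mem a.memk b.memk
  ne := by rw [map_mul]; exact mul_ne_zero a.ne b.ne

theorem one_toF : (one : IntElt A π N).toF = 1 := by
  apply Subtype.ext
  show coeffMap A.subtype (1 : LaurentSeries A) = 1
  rw [map_one]

theorem mul_toF (a b : IntElt A π N) : (mul a b).toF = a.toF * b.toF := by
  apply Subtype.ext
  show coeffMap A.subtype (a.y * b.y) = coeffMap A.subtype a.y * coeffMap A.subtype b.y
  rw [map_mul]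

theorem one_red : (one : IntElt A π N).red = 1 := by
  apply Subtype.ext
  show coeffMap π (1 : LaurentSeries A) = 1
  rw [map_one]

theorem mul_red (a b : IntElt A π N) : (mul a b).red = a.red * b.red := by
  apply Subtype.ext
  show coeffMap π (a.y * b.y) = coeffMap π a.y * coeffMap π b.y
  rw [map_mul]

/-- Every element of the closure of the integral principal divisors is `div a - div b` with
`a b : IntElt`. -/
theorem exists_intElt_of_mem_closure
    {D : Divisor L (laurentBaseChange L (modularFunctionFieldFull N))}
    (hD : D ∈ AddSubgroup.closure (integralPrincipalDivisors A π N)) :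
    ∃ a b : IntElt A π N, ∀ P : Place L (laurentBaseChange L (modularFunctionFieldFull N)),
      D P = P.ord a.toF - P.ord b.toF := by
  induction hD using AddSubgroup.closure_induction with
  | mem E hE =>
    obtain ⟨y, hy, hyk, hne, hE⟩ := hE
    refine ⟨⟨y, hy, hyk, hne⟩, one, fun P => ?_⟩
    rw [hE P, one_toF, Place.ord_one, sub_zero]
    rfl
  | zero =>
    refine ⟨one, one, fun P => ?_⟩
    rw [sub_self]
    rfl
  | add E E' _ _ hE hE' =>
    obtain ⟨a, b, hab⟩ := hE
    obtain ⟨a', b', hab'⟩ := hE'
    refine ⟨mul a a', mul b b', fun P => ?_⟩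
    rw [Finsupp.add_apply, hab P, hab' P, mul_toF, mul_toF,
      P.ord_mul a.toF_ne_zero a'.toF_ne_zero, P.ord_mul b.toF_ne_zero b'.toF_ne_zero]
    ring
  | neg E _ hE =>
    obtain ⟨a, b, hab⟩ := hE
    refine ⟨b, a, fun P => ?_⟩
    rw [Finsupp.neg_apply, hab P]
    ring

/-- **N-FRAC**, general form: `HasIntegralFractions` from `PrincipalGeneratedByIntegral` and the
constants of `F_N`. -/
theorem hasIntegralFractions
    [HasPrincipalDivisors L (laurentBaseChange L (modularFunctionFieldFull N))]
    (hgen : PrincipalGeneratedByIntegral A π N)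
    (hconst : ∀ u : laurentBaseChange L (modularFunctionFieldFull N), u ≠ 0 →
      (∀ P : Place L (laurentBaseChange L (modularFunctionFieldFull N)), P.ord u = 0) →
        ∃ c : L, u = algebraMap L _ c) :
    HasIntegralFractions A π N := by
  intro x hx
  obtain ⟨D, hD, -⟩ := HasPrincipalDivisors.exists_divisor (K := L) x hx
  have hDprin : D ∈ Divisor.principal (K := L)
      (F := laurentBaseChange L (modularFunctionFieldFull N)) := ⟨x, hx, hD⟩
  obtain ⟨a, b, hab⟩ := exists_intElt_of_mem_closure (hgen hDprin)
  have ha := a.toF_ne_zero
  have hb := b.toF_ne_zero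
  set u : laurentBaseChange L (modularFunctionFieldFull N) := x * b.toF / a.toF with hu
  have hu0 : u ≠ 0 := div_ne_zero (mul_ne_zero hx hb) ha
  have hord : ∀ P : Place L (laurentBaseChange L (modularFunctionFieldFull N)), P.ord u = 0 := by
    intro P
    rw [hu, div_eq_mul_inv, P.ord_mul (mul_ne_zero hx hb) (inv_ne_zero ha), P.ord_mul hx hb,
      P.ord_inv, ← hD P, hab P]
    ring
  obtain ⟨c, hc⟩ := hconst u hu0 hord
  have hc0 : c ≠ 0 := by
    rintro rfl
    rw [map_zero] at hc
    exact hu0 hc
  refine ⟨c, a, b, hc0, ?_⟩
  rw [← hc, hu, div_mul_cancel₀ _ ha]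

end General

/-! ### constants in characteristic zero -/

section Const

variable {K F : Type*} [Field K] [Field F] [Algebra K F] [CharZero K]

open Fermat.Agent.S24.FFPlaces in
/-- A nonzero function without zeros is algebraic over the constant field. -/
theorem isAlgebraic_of_ord_nonpos (f : F) (hfin : FiniteDimensional K⟮f⟯ F) (u : F)
    (hord : ∀ P : Place K F, P.ord u ≤ 0) : IsAlgebraic K u := by
  by_contra hu
  have hut : Transcendental K u := hu
  have hfinu := finiteDimensional_simple_of_transcendental hfin hut
  obtain ⟨Z, hZ, -, hsum⟩ := exists_finset_zeros_of_transcendental u hut hfinu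
  have hZe : Z = ∅ := by
    rw [Finset.eq_empty_iff_forall_notMem]
    intro w hw
    have := (hZ w).mp hw
    have := hord w
    omega
  rw [hZe, Finset.sum_empty] at hsum
  have hpos : 0 < Module.finrank K⟮u⟯ F := Module.finrank_pos
  omega

/-- Over an algebraically closed constant field of characteristic zero, a nonzero function without
zeros is constant. -/
theorem const_of_ord_zero [IsAlgClosed K] (f : F) (hfin : FiniteDimensional K⟮f⟯ F) (u : F)
    (hord : ∀ P : Place K F, P.ord u = 0) : ∃ c : K, u = algebraMap K F c := by
  have halg : IsAlgebraic K u := isAlgebraic_of_ord_nonpos f hfin u fun P => (hord P).le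
  have hint : IsIntegral K u := halg.isIntegral
  have hdeg : (minpoly K u).degree = 1 :=
    IsAlgClosed.degree_eq_one_of_irreducible K (minpoly.irreducible hint)
  obtain ⟨c, hc⟩ := minpoly.mem_range_of_degree_eq_one K u hdeg
  exact ⟨c, hc.symm⟩

end Const

/-! ### the concrete instance over `ℚ̄` -/

section ModL

set_option synthInstance.maxHeartbeats 400000

open Fermat.Agent.S24 in
/-- `F_N` over `ℚ̄` has principal divisors (S24). -/
theorem hasPrincipalDivisors_bar (N : ℕ) [NeZero N] :
    HasPrincipalDivisors (AlgebraicClosure ℚ) (modularFunctionFieldBar N) :=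
  FFPlaces.hasPrincipalDivisors (jF N) (Exports.isFunctionFieldOver_jF N).finite

open Fermat.Agent.S24 in
/-- constants of `F_N` over `ℚ̄` -/
theorem const_of_ord_zero_bar (N : ℕ) [NeZero N] (u : modularFunctionFieldBar N)
    (hord : ∀ P : Place (AlgebraicClosure ℚ) (modularFunctionFieldBar N), P.ord u = 0) :
    ∃ c : AlgebraicClosure ℚ, u = algebraMap (AlgebraicClosure ℚ) _ c :=
  const_of_ord_zero (jF N) (Exports.isFunctionFieldOver_jF N).finite u hord

/-- **N-FRAC**: the hypothesis `H1` of `Normalize96.normalize` / `eq_zero_of_normalized`, from the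
reduction inputs alone. -/
theorem hasIntegralFractions_modL (N : ℕ) [NeZero N] (A : ValuationSubring (AlgebraicClosure ℚ))
    (h : ReductionInputsModL A N) :
    HasIntegralFractions A (IsLocalRing.residue A) N := by
  have := hasPrincipalDivisors_bar N
  exact hasIntegralFractions h.choose_spec.2 fun u _ hord => const_of_ord_zero_bar N u hord

end ModL

end Fermat.Agent.S18.NormFrac20
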