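/-
S18 moonshot, leaf **P1-ADAPTER** (helper20): `Spine33.NormalizeStatement` from the output of
`Normalize96.normalize`.

* `normalize_of_inputs` : one level `N`, one valuation ring `A`: from `h : ReductionInputsModL A N`,
  `H2 : ReductionSurjective`, `H3 : ConstOfOrdZero` (and `H1 = NormFrac20.hasIntegralFractions_modL`,
  `HasPrincipalDivisors = NormFrac20.hasPrincipalDivisors_bar`) the conclusion of
  `Spine33.NormalizeStatement`.
* `normalize_of` : `Spine33.NormalizeStatement` from `H2`, `H3` for all `(N, ℓ, A)` with `ℓ ∤ N`,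
  `A` over `ℓ`.
-/
import Fermat.Agent.S18.Spine33
import Fermat.Agent.S18.Normalize96
import Fermat.Agent.S18.NormFrac20

set_option autoImplicit false

noncomputable section

open HahnSeries IntermediateField AlgebraicCurve ModularCurve

namespace Fermat.Agent.S18.NormAdapter20

open Fermat.Agent.S18.Spine33 Fermat.Agent.S18.Normalize96

set_option synthInstance.maxHeartbeats 400000

/-- An `IntElt` quotient with equal reductions is a one-unit in the sense of `Spine33`. -/
theorem isOneUnit_of_intElt (N : ℕ) (A : ValuationSubring Kb)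
    (a b : IntElt A (IsLocalRing.residue A) N) (hab : a.red = b.red) :
    IsOneUnit A N (((a.toF / b.toF : FK N)) : LaurentSeries Kb) := by
  refine ⟨a.y, b.y, a.mem, b.mem, a.memk, a.ne, ?_, ?_⟩
  · exact congrArg Subtype.val hab
  · have h1 : (a.toF / b.toF : FK N) * b.toF = a.toF := div_mul_cancel₀ _ b.toF_ne_zero
    have h2 := congrArg (Subtype.val : FK N → LaurentSeries Kb) h1
    exact h2

/-- **P1-ADAPTER**, one level and one valuation ring. -/
theorem normalize_of_inputs (N : ℕ) [NeZero N] (A : ValuationSubring Kb)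
    (h : ReductionInputsModL A N)
    (H2 : ReductionSurjective A (IsLocalRing.residue A) N)
    (H3 : ConstOfOrdZero (kA A) N)
    (m : ℕ) (z : JZero N) (hmz : m • z = 0) (hz : reductionModL A N z = 0) :
    ∃ (D : Divisor.degZero (K := Kb) (F := FK N)) (f : FK N), f ≠ 0 ∧ Pic0.mk D = z ∧
      (∀ P : Place Kb (FK N), (m : ℤ) * (D : Divisor Kb (FK N)) P = P.ord f) ∧
      IsOneUnit A N (f : LaurentSeries Kb) := by
  have : HasPrincipalDivisors Kb (FK N) := NormFrac20.hasPrincipalDivisors_bar N
  have H1 := NormFrac20.hasIntegralFractions_modL N A h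
  obtain ⟨⟨D, hD0⟩, rfl⟩ := Pic0.mk_surjective z
  have hr := isPlaceReductionModL_placeReductionModL h
  -- `m D` is principal
  have hmD : (m • D) ∈ Divisor.principal (K := Kb) (F := FK N) := by
    have h1 : ((m • (⟨D, hD0⟩ : Divisor.degZero (K := Kb) (F := FK N)) :
        Divisor.degZero (K := Kb) (F := FK N))) ∈
        (Divisor.principal (K := Kb) (F := FK N)).addSubgroupOf
          (Divisor.degZero (K := Kb) (F := FK N)) := by
      rw [← QuotientAddGroup.eq_zero_iff, QuotientAddGroup.mk_nsmul]
      exact hmz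
    rw [AddSubgroup.mem_addSubgroupOf, AddSubgroupClass.coe_nsmul] at h1
    exact h1
  -- `r_* D` is principal
  have hred : Finsupp.mapDomain (placeReductionModL h) D ∈ Divisor.principal
      (K := kA A) (F := modularFunctionFieldFullC (kA A) N) := by
    rw [reductionModL_mk h] at hz
    have h1 := (QuotientAddGroup.eq_zero_iff _).mp hz
    rw [AddSubgroup.mem_addSubgroupOf, coe_reductionDegZeroAlong] at h1
    exact h1
  obtain ⟨D', a, b, hDD', hD'0, hmD', hab⟩ := normalize hr H1 H2 H3
    IsLocalRing.residue_surjective (fun a ha => isUnit_of_map_unit (IsLocalRing.residue A) a ha)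
    m D hD0 hmD hred
  refine ⟨⟨D', hD'0⟩, a.toF / b.toF, div_ne_zero a.toF_ne_zero b.toF_ne_zero, ?_, ?_,
    isOneUnit_of_intElt N A a b hab⟩
  · -- `D' ~ D`
    unfold Pic0.mk
    rw [QuotientAddGroup.eq_iff_sub_mem, AddSubgroup.mem_addSubgroupOf]
    have hneg : D' - D ∈ Divisor.principal (K := Kb) (F := FK N) := by
      have := AddSubgroup.neg_mem _ hDD'
      rwa [neg_sub] at this
    exact hneg
  · intro P
    have := hmD' P
    rw [Finsupp.smul_apply, nsmul_eq_mul] at this
    exact this

/-- **P1 = `Spine33.NormalizeStatement`** from the two remaining inputs `H2` (N-LIFT) and `H3`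
(N-CONST). -/
theorem normalize_of
    (H2 : ∀ (N : ℕ) [NeZero N] (ℓ : ℕ) [Fact ℓ.Prime], ¬ ℓ ∣ N →
      ∀ A : ValuationSubring Kb, A.LiesOverPrime ℓ →
        ReductionSurjective A (IsLocalRing.residue A) N)
    (H3 : ∀ (N : ℕ) [NeZero N] (ℓ : ℕ) [Fact ℓ.Prime], ¬ ℓ ∣ N →
      ∀ A : ValuationSubring Kb, A.LiesOverPrime ℓ → ConstOfOrdZero (kA A) N) :
    NormalizeStatement := by
  intro N _ ℓ _ hℓN A hA h m _ z hmz hz
  exact normalize_of_inputs N A h (H2 N ℓ hℓN A hA) (H3 N ℓ hℓN A hA) m z hmz hz

end Fermat.Agent.S18.NormAdapter20
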