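/-
S18 project, utility (helper97): the Prelude function field of `X₀(N)` over a field `L ⊇ ℚ`,
`laurentBaseChange L (modularFunctionFieldFull N)` (for `L = ℚ̄` this is `modularFunctionFieldBar N`),
coincides with the characteristic-free model `modularFunctionFieldFullC L N = L(t_d : d ∣ N)`
used by the S28 files.
-/
import Mathlib
import Fermat.Prelude.Def_ModularCurve_ArithmeticGalois
import Fermat.Prelude.Def_ModularCurve_X0ModL

set_option autoImplicit false

open HahnSeries IntermediateField ModularCurve

namespace Fermat.Agent.S18.BarFullC97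

variable (L : Type*) [Field L] [Algebra ℚ L] (N : ℕ)

/-- `coeffEmb` sends the generator `t_d = j(q^d)` over `ℚ` to the generator over `L`. -/
theorem coeffEmb_qExpand_jq (d : ℕ) [NeZero d] :
    coeffEmb L (qExpand ℚ d jq) = qExpand L d (jqModC L) := by
  rw [coeffEmb, coeffMap_qExpand, ← jqModC_rat, coeffMap_jqModC]

/-- `coeffEmb` maps `F_N(ℚ)` into `L(t_d : d ∣ N)`. -/
theorem coeffEmb_mem_fullC {x : LaurentSeries ℚ} (hx : x ∈ modularFunctionFieldFull N) :
    coeffEmb L x ∈ modularFunctionFieldFullC L N := by
  rw [modularFunctionFieldFull] at hx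
  induction hx using IntermediateField.adjoin_induction with
  | mem y hy =>
    obtain ⟨d, hd, hdN, rfl⟩ := hy
    rw [coeffEmb_qExpand_jq]
    exact jqModCd_mem_full L N hdN
  | algebraMap r =>
    have h : coeffEmb L (algebraMap ℚ (LaurentSeries ℚ) r) =
        algebraMap L (LaurentSeries L) (algebraMap ℚ L r) := by
      rw [algebraMap_laurentSeries_eq_single, algebraMap_laurentSeries_eq_single, coeffEmb,
        coeffMap_single]
    rw [h]
    exact (modularFunctionFieldFullC L N).algebraMap_mem _
  | add x y _ _ hx hy => rw [map_add]; exact add_mem hx hy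
  | inv x _ hx => rw [map_inv₀]; exact inv_mem hx
  | mul x y _ _ hx hy => rw [map_mul]; exact mul_mem hx hy

/-- The Prelude base change of `F_N` to `L` is the characteristic-free model `L(t_d : d ∣ N)`. -/
theorem laurentBaseChange_full_eq :
    laurentBaseChange L (modularFunctionFieldFull N) = modularFunctionFieldFullC L N := by
  apply le_antisymm
  · rw [laurentBaseChange, IntermediateField.adjoin_le_iff]
    rintro _ ⟨x, hx, rfl⟩
    exact coeffEmb_mem_fullC L N hx
  · rw [modularFunctionFieldFullC, IntermediateField.adjoin_le_iff]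
    rintro _ ⟨d, hd, hdN, rfl⟩
    rw [← coeffEmb_qExpand_jq]
    exact coeffEmb_mem_laurentBaseChange L (jqd_mem_full N hdN)

/-- `modularFunctionFieldBar N = ℚ̄(t_d : d ∣ N)`. -/
theorem modularFunctionFieldBar_eq :
    modularFunctionFieldBar N = modularFunctionFieldFullC (AlgebraicClosure ℚ) N :=
  laurentBaseChange_full_eq (AlgebraicClosure ℚ) N

theorem mem_modularFunctionFieldBar_iff (x : LaurentSeries (AlgebraicClosure ℚ)) :
    x ∈ modularFunctionFieldBar N ↔ x ∈ modularFunctionFieldFullC (AlgebraicClosure ℚ) N := by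
  rw [modularFunctionFieldBar_eq]

/-- the generators `t_d`, `d ∣ N`, lie in `modularFunctionFieldBar N`. -/
theorem tq_mem_bar {d : ℕ} [NeZero d] (hd : d ∣ N) :
    qExpand (AlgebraicClosure ℚ) d (jqModC (AlgebraicClosure ℚ)) ∈ modularFunctionFieldBar N := by
  rw [modularFunctionFieldBar_eq]
  exact jqModCd_mem_full _ N hd

end Fermat.Agent.S18.BarFullC97
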