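/-
S18 project, [NORMALIZE]-LIFT (helper37): the concrete "coefficientwise lifting" input of
`Spine33.NormalizeStatement` that needs neither [BRIDGE] nor [FF].

For `A : ValuationSubring ℚ̄` with residue field `k`, every element `g` of
`F̄_N = modularFunctionFieldFullC k N = k(t_d : d ∣ N)` is a quotient `red a / red b` of
reductions of series `a b : A((q))` which are polynomial expressions (coefficients in `A`) in the
generators `t_d = j(q^d)`; in particular `incl a, incl b ∈ F_N = modularFunctionFieldBar N` and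
`red a, red b ∈ F̄_N`.  These are exactly the `y` allowed in the clause
`IsPlaceReductionAlong` / `integralPrincipalDivisors` of the Prelude.
-/
import Fermat.Agent.S18.Spine33
import Fermat.Agent.S18.BarFullC97

set_option autoImplicit false

open ModularCurve HahnSeries IntermediateField

noncomputable section

namespace Fermat.Agent.S18.NormLift37

open Fermat.Agent.S18.Spine33

variable (A : ValuationSubring Kb) (N : ℕ)

/-- the generators `t_d = j(q^d)`, `d ∣ N`, with coefficients in `A` -/
def gensA : Set (LaurentSeries A) :=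
  {x | ∃ (d : ℕ) (_ : NeZero d), d ∣ N ∧ x = qExpand A d (jqModC A)}

/-- the ring `A[t_d : d ∣ N] ⊆ A((q))` -/
def polyRing : Subring (LaurentSeries A) :=
  Subring.closure (Set.range (HahnSeries.C : A → LaurentSeries A) ∪ gensA A N)

theorem C_mem_polyRing (c : A) : (HahnSeries.C c : LaurentSeries A) ∈ polyRing A N :=
  Subring.subset_closure (Or.inl ⟨c, rfl⟩)

theorem gen_mem_polyRing {d : ℕ} [NeZero d] (hd : d ∣ N) :
    qExpand A d (jqModC A) ∈ polyRing A N :=
  Subring.subset_closure (Or.inr ⟨d, ‹_›, hd, rfl⟩)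

theorem incl_C (c : A) : incl A (HahnSeries.C c) = algebraMap Kb (LaurentSeries Kb) (c : Kb) := by
  rw [incl, HahnSeries.C_apply, coeffMap_single, algebraMap_laurentSeries_eq_single]
  rfl

theorem red_C (c : A) : red A (HahnSeries.C c) =
    algebraMap (kA A) (LaurentSeries (kA A)) (IsLocalRing.residue A c) := by
  rw [red, HahnSeries.C_apply, coeffMap_single, algebraMap_laurentSeries_eq_single]

theorem incl_gen (d : ℕ) [NeZero d] :
    incl A (qExpand A d (jqModC A)) = qExpand Kb d (jqModC Kb) := by
  rw [incl, coeffMap_qExpand, coeffMap_jqModC]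

theorem red_gen (d : ℕ) [NeZero d] :
    red A (qExpand A d (jqModC A)) = qExpand (kA A) d (jqModC (kA A)) := by
  rw [red, coeffMap_qExpand, coeffMap_jqModC]

/-- polynomial expressions in the `t_d` with coefficients in `A` lie in `F_N` -/
theorem incl_mem_bar {a : LaurentSeries A} (ha : a ∈ polyRing A N) :
    incl A a ∈ modularFunctionFieldBar N := by
  induction ha using Subring.closure_induction with
  | mem x hx =>
    rcases hx with ⟨c, rfl⟩ | ⟨d, hd, hdN, rfl⟩
    · rw [incl_C]; exact (modularFunctionFieldBar N).algebraMap_mem _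
    · rw [incl_gen]; exact BarFullC97.tq_mem_bar N hdN
  | zero => rw [map_zero]; exact zero_mem _
  | one => rw [map_one]; exact one_mem _
  | add x y _ _ hx hy => rw [map_add]; exact add_mem hx hy
  | neg x _ hx => rw [map_neg]; exact neg_mem hx
  | mul x y _ _ hx hy => rw [map_mul]; exact mul_mem hx hy

/-- their reductions lie in `F̄_N` -/
theorem red_mem_fullC {a : LaurentSeries A} (ha : a ∈ polyRing A N) :
    red A a ∈ modularFunctionFieldFullC (kA A) N := by
  induction ha using Subring.closure_induction with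
  | mem x hx =>
    rcases hx with ⟨c, rfl⟩ | ⟨d, hd, hdN, rfl⟩
    · rw [red_C]; exact (modularFunctionFieldFullC (kA A) N).algebraMap_mem _
    · rw [red_gen]; exact jqModCd_mem_full (kA A) N hdN
  | zero => rw [map_zero]; exact zero_mem _
  | one => rw [map_one]; exact one_mem _
  | add x y _ _ hx hy => rw [map_add]; exact add_mem hx hy
  | neg x _ hx => rw [map_neg]; exact neg_mem hx
  | mul x y _ _ hx hy => rw [map_mul]; exact mul_mem hx hy

/-- every element of `k[t̄_d : d ∣ N]` is the reduction of an element of `A[t_d : d ∣ N]` -/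
theorem exists_polyRing_red_eq {x : LaurentSeries (kA A)}
    (hx : x ∈ Algebra.adjoin (kA A) (divisorExpansionsC (kA A) N)) :
    ∃ a ∈ polyRing A N, red A a = x := by
  induction hx using Algebra.adjoin_induction with
  | mem y hy =>
    obtain ⟨d, hd, hdN, rfl⟩ := hy
    exact ⟨qExpand A d (jqModC A), gen_mem_polyRing A N hdN, red_gen A d⟩
  | algebraMap r =>
    obtain ⟨c, rfl⟩ := IsLocalRing.residue_surjective r
    exact ⟨HahnSeries.C c, C_mem_polyRing A N c, red_C A c⟩
  | add y z _ _ hy hz =>
    obtain ⟨a, ha, rfl⟩ := hy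
    obtain ⟨b, hb, rfl⟩ := hz
    exact ⟨a + b, add_mem ha hb, map_add _ _ _⟩
  | mul y z _ _ hy hz =>
    obtain ⟨a, ha, rfl⟩ := hy
    obtain ⟨b, hb, rfl⟩ := hz
    exact ⟨a * b, mul_mem ha hb, map_mul _ _ _⟩

/-- **(LIFT)**: every `g ∈ F̄_N` is `red a / red b` with `a, b ∈ A[t_d : d ∣ N]`, `red b ≠ 0`. -/
theorem exists_polyRing_lift {g : LaurentSeries (kA A)}
    (hg : g ∈ modularFunctionFieldFullC (kA A) N) :
    ∃ a ∈ polyRing A N, ∃ b ∈ polyRing A N, red A b ≠ 0 ∧ g * red A b = red A a := by
  rw [modularFunctionFieldFullC, IntermediateField.mem_adjoin_iff_div] at hg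
  obtain ⟨r, hr, s, hs, rfl⟩ := hg
  by_cases hs0 : s = 0
  · refine ⟨0, zero_mem _, 1, one_mem _, ?_, ?_⟩
    · rw [map_one]; exact one_ne_zero
    · rw [hs0, div_zero, zero_mul, map_zero]
  · obtain ⟨a, ha, rfl⟩ := exists_polyRing_red_eq A N hr
    obtain ⟨b, hb, rfl⟩ := exists_polyRing_red_eq A N hs
    exact ⟨a, ha, b, hb, hs0, div_mul_cancel₀ _ hs0⟩

/-- **(LIFT)** in the shape consumed by `IsPlaceReductionAlong`. -/
theorem exists_lift {g : LaurentSeries (kA A)}
    (hg : g ∈ modularFunctionFieldFullC (kA A) N) :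
    ∃ a b : LaurentSeries A,
      incl A a ∈ modularFunctionFieldBar N ∧ incl A b ∈ modularFunctionFieldBar N ∧
      red A a ∈ modularFunctionFieldFullC (kA A) N ∧ red A b ∈ modularFunctionFieldFullC (kA A) N ∧
      red A b ≠ 0 ∧ g * red A b = red A a := by
  obtain ⟨a, ha, b, hb, hb0, hab⟩ := exists_polyRing_lift A N hg
  exact ⟨a, b, incl_mem_bar A N ha, incl_mem_bar A N hb, red_mem_fullC A N ha,
    red_mem_fullC A N hb, hb0, hab⟩

end Fermat.Agent.S18.NormLift37
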