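/-
S18 moonshot, plug **P1** (helper20): `normalize : Spine33.NormalizeStatement`, UNCONDITIONAL.

Wiring only: `NormAdapter20.normalize_of` (adapter; `H1 = NormFrac20`) with
`H2 = ReductionSurjective` from `NormLift37.exists_lift` (helper37) and
`H3 = ConstOfOrdZero` from `FFInst30.constOfOrdZero_residueField` (helper30).
-/
import Fermat.Agent.S18.NormAdapter20
import Fermat.Agent.S18.NormLift37
import Fermat.Agent.S18.FFInst30

set_option autoImplicit false

noncomputable section

open HahnSeries IntermediateField AlgebraicCurve ModularCurve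

namespace Fermat.Agent.S18.P1Normalize20

open Fermat.Agent.S18.Spine33 Fermat.Agent.S18.Normalize96

/-- `H2` of `Normalize96.normalize`: every nonzero element of `F̄_N` is a quotient of reductions of
integral elements (from helper37's coefficientwise lifting). -/
theorem reductionSurjective (A : ValuationSubring Kb) (N : ℕ) :
    ReductionSurjective A (IsLocalRing.residue A) N := by
  intro g hg
  obtain ⟨a, b, ha, hb, hak, hbk, hb0, hab⟩ := NormLift37.exists_lift A N g.2
  have ha0 : red A a ≠ 0 := by
    rw [← hab]
    exact mul_ne_zero (fun h => hg (Subtype.ext h)) hb0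
  exact ⟨⟨a, ha, hak, ha0⟩, ⟨b, hb, hbk, hb0⟩, Subtype.ext hab⟩

/-- **Plug P1 of `Spine33.s18_of_spine`.** -/
theorem normalize : NormalizeStatement :=
  NormAdapter20.normalize_of
    (fun N _ _ _ _ A _ => reductionSurjective A N)
    (fun N _ _ _ hℓN A hA => FFInst30.constOfOrdZero_residueField A hA N hℓN)

end Fermat.Agent.S18.P1Normalize20
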