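/-
S18 project, spine leaf [TRANSFER] (helper56): `Spine33.TransferStatement`.

`σ_s : f(q) ↦ f(q^s)` maps `F_N = modularFunctionFieldBar N` into `F_{sN}` (Prelude `heckeBetaBar`),
and preserves the two hypotheses of the level statement (T):

* `LocallyPower`: a place `P'` of `F_{sN}` restricts along `σ_s` either to the trivial valuation of
  `F_N` (then `ord_{P'} (σ_s f) = 0`) or to a place `P` of `F_N` with `ord_{P'} ∘ σ_s = e · ord_P`,
  `e > 0` (general lemma `dvd_ord_map`, any `K`-algebra hom of fields, no finiteness needed);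
* `IsOneUnit`: `q ↦ q^s` commutes with `coeffMap`, and maps `F̄_N` into `F̄_{sN}`.

General exports (Mathlib + Prelude Place API): `exists_eq_mul_ord` (an additive function with the
same nonnegativity locus as a place is a positive multiple of its `ord`), `restrictPlace`,
`exists_ord_map_eq_mul` (ramification index of a place over its restriction), `dvd_ord_map`.
-/
import Fermat.Agent.S18.Spine33
import Fermat.Agent.S18.EmbPlace78
import Fermat.Prelude.Def_ModularCurve_HeckeOperator

set_option autoImplicit false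

open ModularCurve AlgebraicCurve HahnSeries WithZero

noncomputable section

namespace Fermat.Agent.S18.Transfer56

open Fermat.Agent.S18.Spine33 Fermat.Agent.S24

/-! ### Restriction of a place along a homomorphism of function fields -/

section Restrict

variable {K F F' : Type*} [Field K] [Field F] [Field F'] [Algebra K F] [Algebra K F']

/-- An additive function on `F^×` which is nonnegative exactly on the valuation ring of the place
`P` is a positive multiple of `P.ord`. -/
theorem exists_eq_mul_ord (P : Place K F) (ν : F → ℤ)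
    (hmul : ∀ f g : F, f ≠ 0 → g ≠ 0 → ν (f * g) = ν f + ν g)
    (hmem : ∀ f : F, f ≠ 0 → (f ∈ P.toValuationSubring ↔ 0 ≤ ν f)) :
    ∃ e : ℤ, 0 < e ∧ ∀ f : F, f ≠ 0 → ν f = e * P.ord f := by
  have hone : ν 1 = 0 := by
    have := hmul 1 1 one_ne_zero one_ne_zero
    rw [mul_one] at this
    omega
  have hinv : ∀ f : F, f ≠ 0 → ν f⁻¹ = -ν f := by
    intro f hf
    have := hmul f f⁻¹ hf (inv_ne_zero hf)
    rw [mul_inv_cancel₀ hf, hone] at this
    omega
  obtain ⟨π, hπ⟩ := IsDiscreteValuationRing.exists_irreducible P.toValuationSubring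
  have hπ0 : (π : F) ≠ 0 := fun h0 => hπ.ne_zero (Subtype.ext h0)
  have hπord : P.ord (π : F) = 1 := P.ord_coe_irreducible hπ
  -- units have `ν = 0`
  have hunit : ∀ u : P.toValuationSubringˣ, ν ((u : P.toValuationSubring) : F) = 0 := by
    intro u
    have hu0 : ((u : P.toValuationSubring) : F) ≠ 0 := by
      simp [ne_eq, ZeroMemClass.coe_eq_zero]
    have h1 : 0 ≤ ν ((u : P.toValuationSubring) : F) :=
      (hmem _ hu0).1 (u : P.toValuationSubring).2
    have h3 : (((u⁻¹ : P.toValuationSubringˣ) : P.toValuationSubring) : F)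
        = (((u : P.toValuationSubring) : F))⁻¹ := by
      have h4 : ((u : P.toValuationSubring) : F)
          * (((u⁻¹ : P.toValuationSubringˣ) : P.toValuationSubring) : F) = 1 :=
        congrArg Subtype.val u.mul_inv
      exact eq_inv_of_mul_eq_one_right h4
    have h2 : 0 ≤ ν (((u : P.toValuationSubring) : F))⁻¹ := by
      rw [← h3]
      refine (hmem _ ?_).1 ((u⁻¹ : P.toValuationSubringˣ) : P.toValuationSubring).2
      rw [h3]; exact inv_ne_zero hu0
    rw [hinv _ hu0] at h2
    omega
  have hgpos : 0 < ν (π : F) := by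
    have h2 : ¬ 0 ≤ ν ((π : F)⁻¹) := by
      intro hh
      have hmem' : (π : F)⁻¹ ∈ P.toValuationSubring := (hmem _ (inv_ne_zero hπ0)).2 hh
      have := (FF.mem_iff_ord_nonneg P (inv_ne_zero hπ0)).1 hmem'
      rw [P.ord_inv, hπord] at this
      omega
    rw [hinv _ hπ0] at h2
    omega
  have hzpow : ∀ k : ℤ, ν ((π : F) ^ k) = k * ν (π : F) := by
    intro k
    induction k using Int.induction_on with
    | zero => simpa using hone
    | succ n ih =>
      rw [zpow_add_one₀ hπ0, hmul _ _ (zpow_ne_zero _ hπ0) hπ0, ih]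
      ring
    | pred n ih =>
      rw [zpow_sub_one₀ hπ0, hmul _ _ (zpow_ne_zero _ hπ0) (inv_ne_zero hπ0), ih, hinv _ hπ0]
      ring
  refine ⟨ν (π : F), hgpos, fun f hf => ?_⟩
  obtain ⟨u, hu⟩ := P.exists_unit_mul_zpow hf hπ
  have hu0 : ((u : P.toValuationSubring) : F) ≠ 0 := by
    simp [ne_eq, ZeroMemClass.coe_eq_zero]
  conv_lhs => rw [hu]
  rw [hmul _ _ hu0 (zpow_ne_zero _ hπ0), hunit u, hzpow, zero_add, mul_comm]

/-- The restriction to `F` of the valuation of a place of `F'`. -/
def resVal (φ : F →ₐ[K] F') (P' : Place K F') : Valuation F ℤᵐ⁰ :=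
  P'.adicValuation.comap (φ : F →+* F')

theorem resVal_apply (φ : F →ₐ[K] F') (P' : Place K F') (f : F) :
    resVal φ P' f = P'.adicValuation (φ f) := rfl

theorem resVal_le_one_iff (φ : F →ₐ[K] F') (P' : Place K F') {f : F} (hf : f ≠ 0) :
    resVal φ P' f ≤ 1 ↔ 0 ≤ P'.ord (φ f) := by
  rw [resVal_apply, ← FF.mem_iff_adicValuation_le_one,
    FF.mem_iff_ord_nonneg P' ((map_ne_zero φ).2 hf)]

/-- **Restriction of a place** `P'` of `F'` to `F` along `φ`, when the restricted valuation is
nontrivial. -/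
def restrictPlace (φ : F →ₐ[K] F') (P' : Place K F')
    (hnt : ∃ x : F, resVal φ P' x ≠ 0 ∧ resVal φ P' x ≠ 1) : Place K F where
  toValuationSubring := (resVal φ P').valuationSubring
  algebraMap_mem' a := by
    rw [Valuation.mem_valuationSubring_iff, resVal_apply, AlgHom.commutes,
      ← FF.mem_iff_adicValuation_le_one]
    exact P'.algebraMap_mem' a
  ne_top' := by
    obtain ⟨x, hx0, hx1⟩ := hnt
    intro htop
    have hall : ∀ y : F, resVal φ P' y ≤ 1 := fun y =>
      (Valuation.mem_valuationSubring_iff _ _).mp (htop ▸ ValuationSubring.mem_top y)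
    have h1 := hall x
    have h2 := hall x⁻¹
    rw [map_inv₀] at h2
    have h3 : 1 ≤ resVal φ P' x := by
      have := (inv_le_one₀ (zero_lt_iff.mpr hx0)).1 h2
      exact this
    exact hx1 (le_antisymm h1 h3)
  isPrincipalIdealRing' := by
    have := EmbPlace78.isCyclic_valueGroup (resVal φ P')
    have := EmbPlace78.nontrivial_valueGroup (resVal φ P') hnt
    exact Valuation.valuationSubring_isPrincipalIdealRing (resVal φ P')

theorem mem_restrictPlace_iff (φ : F →ₐ[K] F') (P' : Place K F')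
    (hnt : ∃ x : F, resVal φ P' x ≠ 0 ∧ resVal φ P' x ≠ 1) (f : F) :
    f ∈ (restrictPlace φ P' hnt).toValuationSubring ↔ φ f ∈ P'.toValuationSubring := by
  show f ∈ (resVal φ P').valuationSubring ↔ _
  rw [Valuation.mem_valuationSubring_iff, resVal_apply, ← FF.mem_iff_adicValuation_le_one]

/-- **Ramification index**: `ord_{P'} ∘ φ = e · ord_P` for the restriction `P` of `P'`. -/
theorem exists_ord_map_eq_mul (φ : F →ₐ[K] F') (P' : Place K F')
    (hnt : ∃ x : F, resVal φ P' x ≠ 0 ∧ resVal φ P' x ≠ 1) :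
    ∃ e : ℤ, 0 < e ∧ ∀ f : F, P'.ord (φ f) = e * (restrictPlace φ P' hnt).ord f := by
  obtain ⟨e, he, h⟩ := exists_eq_mul_ord (restrictPlace φ P' hnt) (fun f => P'.ord (φ f))
    (fun f g hf hg => by
      show P'.ord (φ (f * g)) = _
      rw [map_mul, P'.ord_mul ((map_ne_zero φ).2 hf) ((map_ne_zero φ).2 hg)])
    (fun f hf => by
      show _ ↔ 0 ≤ P'.ord (φ f)
      rw [mem_restrictPlace_iff, FF.mem_iff_ord_nonneg P' ((map_ne_zero φ).2 hf)])
  refine ⟨e, he, fun f => ?_⟩
  rcases eq_or_ne f 0 with rfl | hf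
  · simp
  · exact h f hf

/-- If the restricted valuation is trivial, `ord_{P'} ∘ φ = 0`. -/
theorem ord_map_eq_zero_of_trivial (φ : F →ₐ[K] F') (P' : Place K F')
    (hnt : ¬ ∃ x : F, resVal φ P' x ≠ 0 ∧ resVal φ P' x ≠ 1) (f : F) : P'.ord (φ f) = 0 := by
  rcases eq_or_ne f 0 with rfl | hf
  · simp
  push Not at hnt
  have h1 : resVal φ P' f = 1 := hnt f ((Valuation.ne_zero_iff _).2 hf)
  rw [resVal_apply] at h1
  rw [Place.ord, h1]
  simp

/-- **Divisibility of orders transfers along a homomorphism of function fields.** -/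
theorem dvd_ord_map (φ : F →ₐ[K] F') (P' : Place K F') (m : ℤ) (f : F)
    (h : ∀ P : Place K F, m ∣ P.ord f) : m ∣ P'.ord (φ f) := by
  by_cases hnt : ∃ x : F, resVal φ P' x ≠ 0 ∧ resVal φ P' x ≠ 1
  · obtain ⟨e, _, he⟩ := exists_ord_map_eq_mul φ P' hnt
    rw [he f]
    exact Dvd.dvd.mul_left (h _) e
  · rw [ord_map_eq_zero_of_trivial φ P' hnt f]
    exact dvd_zero m

end Restrict

/-! ### The concrete transfer `σ_s : F_N → F_{sN}` -/

section Concrete

theorem qExpand_mem_aux (N s M : ℕ) [NeZero N] [NeZero s] [NeZero M] (hM : M = N * s) (f : FK N) :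
    qExpand Kb s (f : LaurentSeries Kb) ∈ modularFunctionFieldBar M := by
  subst hM
  exact (heckeBetaBar Kb N s f).2

theorem locallyPower_aux (N s M : ℕ) [NeZero N] [NeZero s] [NeZero M] (hM : M = N * s) (f : FK N)
    (hmem : qExpand Kb s (f : LaurentSeries Kb) ∈ modularFunctionFieldBar M) (m : ℕ)
    (h : LocallyPower N m f) :
    LocallyPower M m (⟨qExpand Kb s (f : LaurentSeries Kb), hmem⟩ : FK M) := by
  subst hM
  intro P'
  have hrfl : (⟨qExpand Kb s (f : LaurentSeries Kb), hmem⟩ : FK (N * s))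
      = heckeBetaBar Kb N s f := Subtype.ext rfl
  rw [hrfl]
  exact dvd_ord_map (heckeBetaBar Kb N s) P' (m : ℤ) f h

theorem isOneUnit_aux (A : ValuationSubring Kb) (N s M : ℕ) [NeZero N] [NeZero s] [NeZero M]
    (hM : M = N * s) (f : LaurentSeries Kb) (h : IsOneUnit A N f) :
    IsOneUnit A M (qExpand Kb s f) := by
  subst hM
  obtain ⟨U, V, hU, hV, hrU, hrU0, hUV, hf⟩ := h
  have hinclq : ∀ W : LaurentSeries A, incl A (qExpand A s W) = qExpand Kb s (incl A W) :=
    fun W => coeffMap_qExpand _ s W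
  have hredq : ∀ W : LaurentSeries A, red A (qExpand A s W) = qExpand (kA A) s (red A W) :=
    fun W => coeffMap_qExpand _ s W
  refine ⟨qExpand A s U, qExpand A s V, ?_, ?_, ?_, ?_, ?_, ?_⟩
  · rw [hinclq]
    exact qExpand_mem_aux N s (N * s) rfl ⟨incl A U, hU⟩
  · rw [hinclq]
    exact qExpand_mem_aux N s (N * s) rfl ⟨incl A V, hV⟩
  · rw [hredq]
    exact full_degeneracyC_map_le (kA A) N s ⟨red A U, hrU, rfl⟩
  · rw [hredq]
    intro h0
    apply hrU0
    apply qExpand_injective (R := kA A) s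
    rw [h0, map_zero]
  · rw [hredq, hredq, hUV]
  · rw [hinclq, hinclq, ← map_mul, hf]

end Concrete

/-- **[TRANSFER]**. -/
theorem transfer : TransferStatement := by
  intro N s _ _ f
  refine ⟨qExpand_mem_aux N s (s * N) (Nat.mul_comm s N) f, ?_, ?_⟩
  · intro m h
    exact locallyPower_aux N s (s * N) (Nat.mul_comm s N) f _ m h
  · intro A h
    exact isOneUnit_aux A N s (s * N) (Nat.mul_comm s N) _ h

end Fermat.Agent.S18.Transfer56
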