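/-
S18 leaf (helper26): the identification of the two Prelude descriptions of the function field of
`X₀(N)` over a characteristic-zero field `L`:
`laurentBaseChange L (modularFunctionFieldFull N) = modularFunctionFieldFullC L N`,
in particular `modularFunctionFieldBar N = modularFunctionFieldFullC (AlgebraicClosure ℚ) N`.
-/
import Mathlib
import Fermat.Prelude.Def_ModularCurve_ArithmeticGalois
import Fermat.Prelude.Def_ModularCurve_X0ModL
import Fermat.Prelude.Def_ModularCurve_JqCoeff

set_option autoImplicit false

open ModularCurve IntermediateField HahnSeries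

namespace Fermat.Agent.S18.BarFullC26

section General

variable (L : Type*) [Field L] [Algebra ℚ L]

/-- `j(q^d)` with rational coefficients, viewed over `L`, is `j(q^d)` over `L`. -/
theorem coeffEmb_qExpand_jq (d : ℕ) [NeZero d] :
    coeffEmb L (qExpand ℚ d jq) = qExpand L d (jqModC L) := by
  rw [coeffEmb, coeffMap_qExpand, ← jqModC_rat, coeffMap_jqModC]

/-- The base change to `L` of the rational function field of `X₀(N)` is the field generated over
`L` by the `j(q^d)`, `d ∣ N`. -/
theorem laurentBaseChange_full_eq (N : ℕ) [NeZero N] :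
    laurentBaseChange L (modularFunctionFieldFull N) = modularFunctionFieldFullC L N := by
  apply le_antisymm
  · rw [laurentBaseChange, adjoin_le_iff]
    rintro _ ⟨x, hx, rfl⟩
    have hx' : x ∈ IntermediateField.adjoin ℚ (divisorExpansions N) := hx
    clear hx
    induction hx' using IntermediateField.adjoin_induction with
    | mem y hy =>
      obtain ⟨d, hne, hd, rfl⟩ := hy
      have : NeZero d := hne
      show coeffEmb L (qExpand ℚ d jq) ∈ _
      rw [coeffEmb_qExpand_jq]
      exact jqModCd_mem_full L N hd
    | algebraMap c =>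
      have : coeffEmb L (algebraMap ℚ (LaurentSeries ℚ) c)
          = algebraMap L (LaurentSeries L) (algebraMap ℚ L c) := by
        rw [algebraMap_laurentSeries_eq_single, algebraMap_laurentSeries_eq_single, coeffEmb,
          coeffMap_single]
      show coeffEmb L (algebraMap ℚ (LaurentSeries ℚ) c) ∈ _
      rw [this]
      exact IntermediateField.algebraMap_mem _ _
    | add y z _ _ hy hz =>
      show coeffEmb L (y + z) ∈ _
      rw [map_add]; exact add_mem hy hz
    | inv y _ hy =>
      show coeffEmb L (y⁻¹) ∈ _
      rw [map_inv₀]; exact inv_mem hy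
    | mul y z _ _ hy hz =>
      show coeffEmb L (y * z) ∈ _
      rw [map_mul]; exact mul_mem hy hz
  · rw [modularFunctionFieldFullC, adjoin_le_iff]
    rintro _ ⟨d, hne, hd, rfl⟩
    have : NeZero d := hne
    show qExpand L d (jqModC L) ∈ _
    rw [← coeffEmb_qExpand_jq]
    exact coeffEmb_mem_laurentBaseChange L (jqd_mem_full N hd)

theorem mem_laurentBaseChange_full_iff (N : ℕ) [NeZero N] (x : LaurentSeries L) :
    x ∈ laurentBaseChange L (modularFunctionFieldFull N) ↔ x ∈ modularFunctionFieldFullC L N := by
  rw [laurentBaseChange_full_eq]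

end General

/-- The Prelude function field of `X₀(N)` over `ℚ̄` is `ℚ̄(j(q^d) : d ∣ N)`. -/
theorem modularFunctionFieldBar_eq_fullC (N : ℕ) [NeZero N] :
    modularFunctionFieldBar N = modularFunctionFieldFullC (AlgebraicClosure ℚ) N :=
  laurentBaseChange_full_eq (AlgebraicClosure ℚ) N

theorem mem_modularFunctionFieldBar_iff (N : ℕ) [NeZero N]
    (x : LaurentSeries (AlgebraicClosure ℚ)) :
    x ∈ modularFunctionFieldBar N ↔ x ∈ modularFunctionFieldFullC (AlgebraicClosure ℚ) N := by
  rw [modularFunctionFieldBar_eq_fullC]

end Fermat.Agent.S18.BarFullC26
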