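import Mathlib
import Fermat.Agent.S18.Bridge28.Frame
import Fermat.Agent.S18.BridgeKernel15
import Fermat.Agent.S24.Exports
import Fermat.Agent.S28.GaussRingRat

/-!
# S18 [BRIDGE]-INST (helper14, dispatch D7): the concrete frame at level `M`

`A` a valuation subring of `ℚ̄` over `ℓ`, `ℓ ∤ M`.  We instantiate helper15's abstract structure
kernel (`BridgeKernel15.Frame`) with
* `j := jqModC ℚ̄`, `F := modularFunctionFieldBar M`,
* `x i :=` helper28's `ψ(M)` integral monomials in the `j(q^d)`, `d ∣ M`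
  (`Bridge28.exists_frame_of_liesOver`), whose reductions are `k(j̄)`-independent,
* spanning from `[F_M : ℚ̄(j)] = ψ(M)` (`S24.Exports.degOver_jF`).
-/

set_option autoImplicit false

noncomputable section

namespace Fermat.Agent.S18.Bridge14

open ModularCurve HahnSeries IntermediateField
open Fermat.Agent.S28 Fermat.Agent.S28.KeyGlue
open Fermat.Agent.S18.Bridge28 Fermat.Agent.S18.BridgeKernel15

/-- The constant field `ℚ̄`. -/
abbrev Kb : Type := AlgebraicClosure ℚ

variable (A : ValuationSubring Kb)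

/-- `j = jqModC ℚ̄` is the image of the integral series `jqModC ℤ`. -/
theorem jqModC_eq_inclZ : jqModC Kb = coeffMap (Int.castRingHom Kb) (jqModC ℤ) :=
  (coeffMap_jqModC (Int.castRingHom Kb)).symm

theorem jqModC_mem_O : jqModC Kb ∈ O A := by
  rw [jqModC_eq_inclZ]
  exact inclZ_mem_O A _

theorem rho_jqModC : rho A ⟨jqModC Kb, jqModC_mem_O A⟩ = jqModC (IsLocalRing.ResidueField A) := by
  have h : (⟨jqModC Kb, jqModC_mem_O A⟩ : O A) =
      ⟨coeffMap (Int.castRingHom Kb) (jqModC ℤ), inclZ_mem_O A _⟩ :=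
    Subtype.ext jqModC_eq_inclZ
  rw [h, rho_inclZ, coeffMap_jqModC]

/-- `[F_M : ℚ̄(j)] ≤ ψ(M)` in `relrank` form inside `ℚ̄((q))` (from `S24.Exports.degOver_jF`). -/
theorem relrank_adjoin_jqModC_bar (M : ℕ) [NeZero M] :
    (Kb⟮jqModC Kb⟯).relrank (modularFunctionFieldBar M) = (dedekindPsi M : Cardinal) := by
  have hfin : FiniteDimensional ↥(Kb⟮Fermat.Agent.S24.jF M⟯) (Fermat.Agent.S24.FN M) :=
    (Fermat.Agent.S24.Exports.isFunctionFieldOver_jF M).finite
  have hdeg : Module.finrank ↥(Kb⟮Fermat.Agent.S24.jF M⟯) (Fermat.Agent.S24.FN M) =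
      dedekindPsi M := Fermat.Agent.S24.Exports.degOver_jF M
  have hrank : Module.rank ↥(Kb⟮Fermat.Agent.S24.jF M⟯) (Fermat.Agent.S24.FN M) =
      (dedekindPsi M : Cardinal) := by
    rw [← Module.finrank_eq_rank, hdeg]
  have h1 : (Kb⟮Fermat.Agent.S24.jF M⟯).map (modularFunctionFieldBar M).val = Kb⟮jqModC Kb⟯ := by
    rw [IntermediateField.adjoin_map, Set.image_singleton]
    congr 2
    exact coeffEmb_jq
  have h2 : (⊤ : IntermediateField Kb (Fermat.Agent.S24.FN M)).map (modularFunctionFieldBar M).val =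
      modularFunctionFieldBar M := by
    rw [← AlgHom.fieldRange_eq_map, IntermediateField.fieldRange_val]
  calc (Kb⟮jqModC Kb⟯).relrank (modularFunctionFieldBar M)
      = ((Kb⟮Fermat.Agent.S24.jF M⟯).map (modularFunctionFieldBar M).val).relrank
          ((⊤ : IntermediateField Kb (Fermat.Agent.S24.FN M)).map
            (modularFunctionFieldBar M).val) := by rw [h1, h2]
    _ = (Kb⟮Fermat.Agent.S24.jF M⟯).relrank ⊤ := relrank_map_map _ _ _
    _ = (dedekindPsi M : Cardinal) := by rw [relrank_top_right, hrank]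

/-- The pre-frame at level `M` attached to `ψ(M)` integral monomials with independent reductions. -/
def preFrame (M : ℕ) (xZ : Fin (dedekindPsi M) → LaurentSeries ℤ)
    (hxF : ∀ i, coeffMap (Int.castRingHom Kb) (xZ i) ∈ modularFunctionFieldBar M)
    (hli : LinearIndependent
      ↥((IsLocalRing.ResidueField A)⟮jqModC (IsLocalRing.ResidueField A)⟯)
      (fun i => coeffMap (Int.castRingHom (IsLocalRing.ResidueField A)) (xZ i))) :
    PreFrame A (Fin (dedekindPsi M)) where
  j := jqModC Kb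
  hj := jqModC_mem_O A
  ht := by
    rw [rho_jqModC]
    exact GaussRingRat.transcendental_jqModC _
  F := modularFunctionFieldBar M
  hjF := jqModC_mem_bar M
  x := fun i => coeffMap (Int.castRingHom Kb) (xZ i)
  hxO := fun i => inclZ_mem_O A _
  hxF := hxF
  hli := by
    intro g hg hsum
    rw [rho_jqModC] at hg
    refine unbundle_linearIndependent _ _ hli g hg ?_
    rw [← hsum]
    exact Finset.sum_congr rfl fun i _ => by rw [rho_inclZ]

/-- **The concrete frame at level `M`** (dispatch D7). -/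
theorem exists_frame_bar {ℓ : ℕ} [Fact ℓ.Prime] (hA : A.LiesOverPrime ℓ) (M : ℕ) [NeZero M]
    (hM : ¬ ℓ ∣ M) :
    ∃ S : Frame A (Fin (dedekindPsi M)), S.F = modularFunctionFieldBar M ∧ S.j = jqModC Kb ∧
      (∀ i, ∃ xZ ∈ monomialsZ M, S.x i = coeffMap (Int.castRingHom Kb) xZ) := by
  obtain ⟨xZ, hx, hxF, -, hli⟩ := exists_frame_of_liesOver A hA M hM
  let P : PreFrame A (Fin (dedekindPsi M)) := preFrame A M xZ hxF hli
  have hdeg : IntermediateField.relrank Kb⟮P.j⟯ P.F ≤
      (Fintype.card (Fin (dedekindPsi M)) : Cardinal) := by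
    rw [Fintype.card_fin]
    exact (relrank_adjoin_jqModC_bar M).le
  exact ⟨Frame.ofRelrankLe A P hdeg, rfl, rfl, fun i => ⟨xZ i, hx i, rfl⟩⟩

end Fermat.Agent.S18.Bridge14
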