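import Mathlib
import Fermat.Agent.S18.BridgeKernel15

/-!
# S18 / [BRIDGE], abstract half (4): integral representation of the elements of `O ∩ F`

Setting of `BridgeKernel15` (`S : Frame A ι`), and in addition integral models of the base
function and of the frame: `J : A((q))` with `incl J = S.j`, `X i : A((q))` with `incl (X i) = S.x i`
(in the application: `J = j`, `X i` = monomials in the `j(q^d)`, all with coefficients in `ℤ`).

* `exists_quot` : every `f ∈ O ∩ L(j)` is `p(j) / r(j)` with `p r ∈ A[X]`, `r mod 𝔪_A ≠ 0`.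
* `exists_common_denominator` : the same for a finite family, with a common `r`.
* `Frame.exists_integral_repr` : every `y ∈ O ∩ F` is `U / V` with `U V ∈ A((q))`, `incl U ∈ F`,
  `V = r(J)`, `incl V ∈ L(j)`, `red V = r̄(t) ≠ 0`, and `rho y * red V = red U`.
* `Frame.exists_oneUnit_repr` : if moreover `rho y = 1` then `red U = red V` (this is exactly the
  shape of `Spine33.IsOneUnit`).
-/

set_option autoImplicit false

noncomputable section

namespace Fermat.Agent.S18.BridgeRepr15

open ModularCurve HahnSeries Polynomial IntermediateField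
open Fermat.Agent.S18.Bridge28 Fermat.Agent.S18.BridgeO15 Fermat.Agent.S18.BridgeGauss15
open Fermat.Agent.S18.BridgeKernel15

variable {L : Type*} [Field L] (A : ValuationSubring L)

/-! ### Quotient representation on `L(j)` -/

section Quot

variable (j : LaurentSeries L) (hj : j ∈ O A)
  (ht : Transcendental (IsLocalRing.ResidueField A) (rho A ⟨j, hj⟩))

include ht in
/-- Every element of `O ∩ L(j)` is `p(j) / r(j)` with `p r ∈ A[X]`, `r̄ ≠ 0`. -/
theorem exists_quot (f : O A) (hf : (f : LaurentSeries L) ∈ L⟮j⟯) :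
    ∃ p r : A[X], r.map (IsLocalRing.residue A) ≠ 0 ∧
      (f : LaurentSeries L) * aeval j (r.map A.subtype) = aeval j (p.map A.subtype) := by
  by_cases hf0 : (f : LaurentSeries L) = 0
  · refine ⟨0, 1, ?_, ?_⟩
    · rw [Polynomial.map_one]; exact one_ne_zero
    · rw [hf0, zero_mul, Polynomial.map_zero, map_zero]
  obtain ⟨P, R, hPR⟩ := (IntermediateField.mem_adjoin_simple_iff L _).1 hf
  have hP0 : P ≠ 0 := by
    rintro rfl
    rw [map_zero, zero_div] at hPR
    exact hf0 hPR
  have hR0 : R ≠ 0 := by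
    rintro rfl
    rw [map_zero, div_zero] at hPR
    exact hf0 hPR
  obtain ⟨c₁, P₀, hc₁, hP, hP₀⟩ := exists_primitive_part A P hP0
  obtain ⟨c₂, R₀, hc₂, hR, hR₀⟩ := exists_primitive_part A R hR0
  have hu₁ : rho A (evalO A j hj P₀) ≠ 0 := rho_evalO_ne_zero A j hj ht hP₀
  have hu₂ : rho A (evalO A j hj R₀) ≠ 0 := rho_evalO_ne_zero A j hj ht hR₀
  set w : O A := ⟨((evalO A j hj R₀ : O A) : LaurentSeries L)⁻¹,
    inv_mem_O_of_rho_ne_zero A _ hu₂⟩ with hw
  have hwρ : rho A w = (rho A (evalO A j hj R₀))⁻¹ := rho_inv A _ hu₂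
  have hR₀ne : ((evalO A j hj R₀ : O A) : LaurentSeries L) ≠ 0 := ne_zero_of_rho_ne_zero A _ hu₂
  have hC2 : (HahnSeries.C c₂ : LaurentSeries L) ≠ 0 := (_root_.map_ne_zero _).mpr hc₂
  -- `f = C (c₁ / c₂) * (u₁ * w)`
  have hfe : (f : LaurentSeries L) =
      HahnSeries.C (c₁ / c₂) * ((evalO A j hj P₀ * w : O A) : LaurentSeries L) := by
    rw [hPR, hP, hR, map_mul, map_mul, aeval_C, aeval_C, algebraMap_eq_C, algebraMap_eq_C,
      ← coe_evalO A j hj, ← coe_evalO A j hj, map_div₀]
    simp only [Subring.coe_mul, hw]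
    field_simp
  have hcA : c₁ / c₂ ∈ A := by
    refine Frame.const_mem_of_mem_O (div_ne_zero hc₁ hc₂) (evalO A j hj P₀ * w) ?_ ?_
    · rw [map_mul, hwρ]; exact mul_ne_zero hu₁ (inv_ne_zero hu₂)
    · rw [← hfe]; exact f.2
  refine ⟨Polynomial.C ⟨c₁ / c₂, hcA⟩ * P₀, R₀, hR₀, ?_⟩
  rw [hfe, Polynomial.map_mul, Polynomial.map_C, map_mul, aeval_C, algebraMap_eq_C, ← coe_evalO A j hj,
    ← coe_evalO A j hj]
  simp only [Subring.coe_mul, hw]
  show HahnSeries.C (c₁ / c₂) * (_ * _⁻¹) * _ = HahnSeries.C (c₁ / c₂) * _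
  field_simp

include ht in
/-- Common denominator for a finite family of elements of `O ∩ L(j)`. -/
theorem exists_common_denominator {ι : Type*} [Fintype ι] (c : ι → LaurentSeries L)
    (hcO : ∀ i, c i ∈ O A) (hcj : ∀ i, c i ∈ L⟮j⟯) :
    ∃ (r : A[X]) (p : ι → A[X]), r.map (IsLocalRing.residue A) ≠ 0 ∧
      ∀ i, c i * aeval j (r.map A.subtype) = aeval j ((p i).map A.subtype) := by
  classical
  have hex : ∀ i, ∃ p r : A[X], r.map (IsLocalRing.residue A) ≠ 0 ∧
      c i * aeval j (r.map A.subtype) = aeval j (p.map A.subtype) :=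
    fun i => exists_quot A j hj ht ⟨c i, hcO i⟩ (hcj i)
  choose p r hr hpr using hex
  refine ⟨∏ i, r i, fun i => p i * ∏ i' ∈ Finset.univ.erase i, r i', ?_, fun i => ?_⟩
  · rw [Polynomial.map_prod]
    exact Finset.prod_ne_zero_iff.2 fun i _ => hr i
  · rw [← Finset.mul_prod_erase Finset.univ r (Finset.mem_univ i), Polynomial.map_mul, map_mul,
      ← mul_assoc, hpr i, Polynomial.map_mul, map_mul]

end Quot

/-! ### Evaluation of `A[X]` in `A((q))` -/

section EvalA

variable (J : LaurentSeries A)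

/-- `A[X] → A((q))`, `X ↦ J`. -/
def evalA : A[X] →+* LaurentSeries A :=
  Polynomial.eval₂RingHom (HahnSeries.C : A →+* LaurentSeries A) J

theorem incl_evalA (p : A[X]) :
    incl A (evalA A J p) = aeval (incl A J) (p.map A.subtype) := by
  rw [evalA, Polynomial.coe_eval₂RingHom, Polynomial.hom_eval₂, aeval_def, Polynomial.eval₂_map]
  congr 1
  refine RingHom.ext fun r => ?_
  show incl A (HahnSeries.C r) = algebraMap L (LaurentSeries L) (r : L)
  rw [incl_C, algebraMap_eq_C]

theorem red_evalA (p : A[X]) :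
    red A (evalA A J p) = aeval (red A J) (p.map (IsLocalRing.residue A)) := by
  rw [evalA, Polynomial.coe_eval₂RingHom, Polynomial.hom_eval₂, aeval_def, Polynomial.eval₂_map]
  congr 1
  refine RingHom.ext fun r => ?_
  show red A (HahnSeries.C r) = algebraMap _ _ (IsLocalRing.residue A r)
  rw [red_C, algebraMap_k_eq_C]

end EvalA

/-! ### Integral representation on `F` -/

variable {A} {ι : Type*} [Fintype ι] (S : Frame A ι)

theorem red_eq_t (J : LaurentSeries A) (hJ : incl A J = S.j) : red A J = S.t := by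
  have h := rho_incl A J
  rw [← h]
  exact rho_congr A hJ

/-- **Integral representation.** -/
theorem exists_integral_repr (J : LaurentSeries A) (hJ : incl A J = S.j)
    (X : ι → LaurentSeries A) (hX : ∀ i, incl A (X i) = S.x i)
    (y : O A) (hy : (y : LaurentSeries L) ∈ S.F) :
    ∃ (U V : LaurentSeries A) (r : A[X]), incl A U ∈ S.F ∧ incl A V ∈ L⟮S.j⟯ ∧
      red A V ≠ 0 ∧ red A V = aeval S.t (r.map (IsLocalRing.residue A)) ∧
      (y : LaurentSeries L) * incl A V = incl A U ∧ rho A y * red A V = red A U := by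
  obtain ⟨c, hcj, hyc⟩ := S.hspan _ hy
  have hcO : ∀ i, c i ∈ O A := (S.sum_mem_O_iff c hcj).1 (hyc ▸ y.2)
  obtain ⟨r, p, hr, hp⟩ := exists_common_denominator A S.j S.hj S.ht c hcO hcj
  set V : LaurentSeries A := evalA A J r with hV
  set U : LaurentSeries A := ∑ i, evalA A J (p i) * X i with hU
  have hVincl : incl A V = aeval S.j (r.map A.subtype) := by rw [hV, incl_evalA, hJ]
  have hUincl : incl A U = ∑ i, aeval S.j ((p i).map A.subtype) * S.x i := by
    rw [hU, map_sum]
    exact Finset.sum_congr rfl fun i _ => by rw [map_mul, incl_evalA, hJ, hX]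
  have hVred : red A V = aeval S.t (r.map (IsLocalRing.residue A)) := by
    rw [hV, red_evalA, red_eq_t S J hJ]
  have hVne : red A V ≠ 0 := by
    rw [hVred]
    exact fun h' => hr ((transcendental_iff.1 S.ht) _ h')
  have hmem : ∀ q : L[X], aeval S.j q ∈ L⟮S.j⟯ := fun q =>
    (IntermediateField.algebra_adjoin_le_adjoin _ _)
      (by rw [Algebra.adjoin_singleton_eq_range_aeval]; exact ⟨_, rfl⟩)
  have hyUV : (y : LaurentSeries L) * incl A V = incl A U := by
    rw [hVincl, hUincl, hyc, Finset.sum_mul]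
    refine Finset.sum_congr rfl fun i _ => ?_
    rw [← hp i]
    ring
  refine ⟨U, V, r, ?_, ?_, hVne, hVred, hyUV, rho_mul_red A y U V hVne hyUV⟩
  · rw [hUincl]
    exact sum_mem fun i _ => mul_mem (S.adjoin_le (hmem _)) (S.hxF i)
  · rw [hVincl]
    exact hmem _

/-- **One-unit representation**: `y ∈ O ∩ F` with `rho y = 1` is `U / V` with `U V ∈ A((q))`,
`incl U, incl V ∈ F`, and `red U = red V = r̄(t) ≠ 0`. -/
theorem exists_oneUnit_repr (J : LaurentSeries A) (hJ : incl A J = S.j)
    (X : ι → LaurentSeries A) (hX : ∀ i, incl A (X i) = S.x i)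
    (y : O A) (hy : (y : LaurentSeries L) ∈ S.F) (h1 : rho A y = 1) :
    ∃ U V : LaurentSeries A, incl A U ∈ S.F ∧ incl A V ∈ S.F ∧
      red A U ∈ (IsLocalRing.ResidueField A)⟮S.t⟯ ∧ red A U ≠ 0 ∧ red A U = red A V ∧
      (y : LaurentSeries L) * incl A V = incl A U := by
  obtain ⟨U, V, r, hU, hV, hVne, hVred, hyUV, hρ⟩ := exists_integral_repr S J hJ X hX y hy
  rw [h1, one_mul] at hρ
  refine ⟨U, V, hU, S.adjoin_le hV, ?_, ?_, hρ.symm, hyUV⟩
  · rw [← hρ, hVred]
    exact (IntermediateField.algebra_adjoin_le_adjoin _ _)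
      (by rw [Algebra.adjoin_singleton_eq_range_aeval]; exact ⟨_, rfl⟩)
  · rw [← hρ]; exact hVne

end Fermat.Agent.S18.BridgeRepr15
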