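import Mathlib
import Fermat.Agent.S18.BridgeRepr15

/-!
# S18 / [BRIDGE], abstract half (5): integral fractions

Every nonzero `x ∈ F` is `c · U / V` with `c ∈ Lˣ`, `U V ∈ A((q))` with NONZERO reductions,
`incl U, incl V ∈ F`, `red V ∈ k(t)`, `red U ∈ ∑ k(t) rho(x i)`
(`Frame.exists_frac`; this is the shape of `Normalize96.HasIntegralFractions`).
-/

set_option autoImplicit false

noncomputable section

namespace Fermat.Agent.S18.BridgeFrac15

open ModularCurve HahnSeries Polynomial IntermediateField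
open Fermat.Agent.S18.Bridge28 Fermat.Agent.S18.BridgeO15 Fermat.Agent.S18.BridgeGauss15
open Fermat.Agent.S18.BridgeKernel15 Fermat.Agent.S18.BridgeRepr15

variable {L : Type*} [Field L] {A : ValuationSubring L} {ι : Type*} [Fintype ι] (S : Frame A ι)

/-- **Integral fractions.** -/
theorem exists_frac (J : LaurentSeries A) (hJ : incl A J = S.j)
    (X : ι → LaurentSeries A) (hX : ∀ i, incl A (X i) = S.x i)
    {x : LaurentSeries L} (hx : x ∈ S.F) (hx0 : x ≠ 0) :
    ∃ (c : L) (U V : LaurentSeries A), c ≠ 0 ∧ incl A U ∈ S.F ∧ incl A V ∈ S.F ∧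
      red A U ≠ 0 ∧ red A V ≠ 0 ∧ S.InSpan (red A U) ∧
      red A V ∈ (IsLocalRing.ResidueField A)⟮S.t⟯ ∧
      x * incl A V = HahnSeries.C c * incl A U := by
  obtain ⟨c, u, hc, hxu, hu, hus, huF⟩ := S.exists_C_mul_unit hx hx0
  obtain ⟨U, V, r, hU, hV, hVne, hVred, huUV, hρ⟩ := exists_integral_repr S J hJ X hX u huF
  have hVk : red A V ∈ (IsLocalRing.ResidueField A)⟮S.t⟯ := by
    rw [hVred]
    exact (IntermediateField.algebra_adjoin_le_adjoin _ _)
      (by rw [Algebra.adjoin_singleton_eq_range_aeval]; exact ⟨_, rfl⟩)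
  refine ⟨c, U, V, hc, hU, S.adjoin_le hV, ?_, hVne, ?_, hVk, ?_⟩
  · rw [← hρ]; exact mul_ne_zero hu hVne
  · rw [← hρ, mul_comm]; exact S.inSpan_mul hVk hus
  · rw [hxu, mul_assoc, huUV]

end Fermat.Agent.S18.BridgeFrac15
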