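/-
S18 moonshot, package [CHAR0]-COUNT (helper34): the characteristic-zero place counts of
`F_M / ℚ̄(j)` at levels `M` with `4 ∣ M` or `9 ∣ M` (no elliptic points), from the landed S24
exports.  Interface-independent numbers for the owners of [CHAR0] / [P3 GENUS0] / [GENUSEQ]:

* `3 * #{places over j = 0} = ψ(M)`, `2 * #{places over j = 1728} = ψ(M)`,
  `#{places over j = ∞} = cuspCount M`, all other fibres have `ψ(M)` places;
* hence the tame different degree `∑_P (e_P - 1) = ∑_c (ψ - #fibre(c))` equals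
  `13 ψ / 6 - c_M`, i.e. `2 γ_M - 2 = - 2 ψ + deg Diff = ψ / 6 - c_M`;
* at `M = 4, 9`: `ψ / 6 - c = - 2`, i.e. genus `0`.
-/
import Fermat.Agent.S24.Exports
import Fermat.Agent.S24.Pkg_COMB_ell
import Fermat.Agent.S18.Char0Num34

set_option autoImplicit false

open scoped MatrixGroups
open ModularCurve Fermat.Agent.S24

namespace Fermat.Agent.S18.Char0Count34

open Fermat.Agent.S18.Char0Num34

variable (M : ℕ) [NeZero M]

/-- `⟨S⟩` acts freely on `SL₂(ℤ)/Γ₀(M)`: `2 · #orbits = ψ(M)`. -/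
theorem two_mul_numOrbits_S (h : 4 ∣ M ∨ 9 ∣ M) :
    2 * numOrbits (X0Cosets M) ModularGroup.S = dedekindPsi M := by
  rw [Fermat.Agent.S24.two_mul_numOrbits_S, nuTwo_eq_zero h, add_zero]

/-- `⟨ST⟩` acts freely on `SL₂(ℤ)/Γ₀(M)`: `3 · #orbits = ψ(M)`. -/
theorem three_mul_numOrbits_ST (h : 4 ∣ M ∨ 9 ∣ M) :
    3 * numOrbits (X0Cosets M) (ModularGroup.S * ModularGroup.T) = dedekindPsi M := by
  rw [Fermat.Agent.S24.three_mul_numOrbits_ST, nuThree_eq_zero h, mul_zero, add_zero]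

/-- `3 · #{places of F_M over j = 0} = ψ(M)`. -/
theorem three_mul_ncard_placesOver_zero (h : 4 ∣ M ∨ 9 ∣ M) :
    3 * (placesOver (jF M) (0 : Kbar)).ncard = dedekindPsi M := by
  rw [Exports.ncard_placesOver_zero, three_mul_numOrbits_ST M h]

/-- `2 · #{places of F_M over j = 1728} = ψ(M)`. -/
theorem two_mul_ncard_placesOver_1728 (h : 4 ∣ M ∨ 9 ∣ M) :
    2 * (placesOver (jF M) (1728 : Kbar)).ncard = dedekindPsi M := by
  rw [Exports.ncard_placesOver_1728, two_mul_numOrbits_S M h]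

/-- `#{places of F_M over j = ∞} = cuspCount M` (S24, repeated for convenience). -/
theorem ncard_placesOverInfty : (placesOverInfty Kbar (jF M)).ncard = cuspCount M :=
  Exports.ncard_placesOverInfty M

theorem six_dvd_dedekindPsi (h : 4 ∣ M ∨ 9 ∣ M) : 6 ∣ dedekindPsi M := by
  have h2 : 2 ∣ dedekindPsi M := ⟨_, (two_mul_numOrbits_S M h).symm⟩
  have h3 : 3 ∣ dedekindPsi M := ⟨_, (three_mul_numOrbits_ST M h).symm⟩
  exact Nat.Coprime.mul_dvd_of_dvd_of_dvd (by norm_num) h2 h3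

/-- The total defect `∑_{c ∈ {0, 1728, ∞}} (ψ - #fibre(c))` (= degree of the different of
`F_M / ℚ̄(j)`, all ramification being tame in characteristic zero): six times it is
`13 ψ - 6 c_M`. -/
theorem six_mul_total_defect (h : 4 ∣ M ∨ 9 ∣ M) :
    6 * ((((dedekindPsi M : ℤ) - (placesOver (jF M) (0 : Kbar)).ncard) +
        ((dedekindPsi M : ℤ) - (placesOver (jF M) (1728 : Kbar)).ncard)) +
        ((dedekindPsi M : ℤ) - (placesOverInfty Kbar (jF M)).ncard)) =
      13 * (dedekindPsi M : ℤ) - 6 * (cuspCount M : ℤ) := by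
  have h0 := three_mul_ncard_placesOver_zero M h
  have h1 := two_mul_ncard_placesOver_1728 M h
  have hc := ncard_placesOverInfty M
  have h0' : (3 : ℤ) * ((placesOver (jF M) (0 : Kbar)).ncard : ℤ) = (dedekindPsi M : ℤ) := by
    exact_mod_cast h0
  have h1' : (2 : ℤ) * ((placesOver (jF M) (1728 : Kbar)).ncard : ℤ) = (dedekindPsi M : ℤ) := by
    exact_mod_cast h1
  rw [hc]
  linarith

/-- Hurwitz in characteristic zero, numerically: with `deg Diff = total defect`,
`6 · (2 γ - 2) = 6 · (- 2 ψ + deg Diff) = ψ - 6 c_M`. -/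
theorem six_mul_hurwitz (h : 4 ∣ M ∨ 9 ∣ M) (γ2 : ℤ)
    (hγ : γ2 = -2 * (dedekindPsi M : ℤ) +
      ((((dedekindPsi M : ℤ) - (placesOver (jF M) (0 : Kbar)).ncard) +
        ((dedekindPsi M : ℤ) - (placesOver (jF M) (1728 : Kbar)).ncard)) +
        ((dedekindPsi M : ℤ) - (placesOverInfty Kbar (jF M)).ncard))) :
    6 * γ2 = (dedekindPsi M : ℤ) - 6 * (cuspCount M : ℤ) := by
  have := six_mul_total_defect M h
  rw [hγ]
  linarith

/-- Level `4`: `ψ - 6 c = - 12`, i.e. `2 γ - 2 = - 2`, genus `0`. -/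
theorem level_four : (dedekindPsi 4 : ℤ) - 6 * (cuspCount 4 : ℤ) = -12 := by
  rw [dedekindPsi_four, cuspCount_four]; norm_num

/-- Level `9`: `ψ - 6 c = - 12`, i.e. `2 γ - 2 = - 2`, genus `0`. -/
theorem level_nine : (dedekindPsi 9 : ℤ) - 6 * (cuspCount 9 : ℤ) = -12 := by
  rw [dedekindPsi_nine, cuspCount_nine]; norm_num

/-- The base-level identity `ψ(M₀) / 6 = c_{M₀} - 2` used in the Hurwitz comparison. -/
theorem base_identity_four : (dedekindPsi 4 : ℤ) = 6 * ((cuspCount 4 : ℤ) - 2) := by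
  rw [dedekindPsi_four, cuspCount_four]; norm_num

theorem base_identity_nine : (dedekindPsi 9 : ℤ) = 6 * ((cuspCount 9 : ℤ) - 2) := by
  rw [dedekindPsi_nine, cuspCount_nine]; norm_num

end Fermat.Agent.S18.Char0Count34
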