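/-
S18 / [NORMALIZE]-H3 (helper27): `Normalize96.ConstOfOrdZero k N`.

A function without zeros is constant, in any characteristic, without separability and without
Dedekind theory:

* `exists_place_ord_pos` : `K ⊆ F` fields, `u : F` transcendental over `K`, `[F : K(u)] < ∞`
  ⟹ there is a `Place K F` at which `u` has positive order.
  Proof: Chevalley's extension theorem (`Ideal.image_subset_nonunits_valuationSubring`) gives a
  valuation subring `B ⊇ K[u]` with `u` a nonunit.  Every value `v(y)`, `y ∈ Fˣ`, satisfies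
  `v(y) ^ e = v(u) ^ m` with `0 < e ≤ [F : K(u)]`, so `g ↦ g ^ n!` embeds the (torsion free) value
  group into `⟨v(u)⟩`; hence the value group is cyclic and `B` is a discrete valuation ring.
-/
import Mathlib
import Fermat.Agent.S18.FFLSpace5

set_option autoImplicit false

noncomputable section

namespace Fermat.Agent.S18.ConstOrd27

open Polynomial IntermediateField AlgebraicCurve

section Bounded

variable {K L : Type*} [Field K] [Field L] [Algebra K L]
variable {Γ₀ : Type*} [LinearOrderedCommGroupWithZero Γ₀]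

/-- If `c ≠ 0` is a root of the nonzero polynomial `p` over `K`, some power `v c ^ n`,
`0 < n ≤ deg p`, is the value of a nonzero element of `K`. -/
theorem exists_pow_eq_of_aeval_eq_zero (v : Valuation L Γ₀) {c : L} (hc : c ≠ 0)
    (p : K[X]) (hp0 : p ≠ 0) (hp : aeval c p = 0) :
    ∃ (n : ℕ) (q : K), 0 < n ∧ n ≤ p.natDegree ∧ q ≠ 0 ∧ v c ^ n = v (algebraMap K L q) := by
  classical
  rw [aeval_eq_sum_range] at hp
  set f : ℕ → L := fun i => p.coeff i • c ^ i with hf
  have hfne : ∀ i, p.coeff i ≠ 0 → v (f i) ≠ 0 := by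
    intro i hi
    rw [hf]
    simp only [Algebra.smul_def]
    rw [map_mul, map_pow]
    refine mul_ne_zero ?_ (pow_ne_zero _ ((Valuation.ne_zero_iff v).mpr hc))
    exact (Valuation.ne_zero_iff v).mpr (by simpa using hi)
  have hsupp : ∑ i ∈ p.support, f i = 0 := by
    rw [← hp]
    apply Finset.sum_subset
    · intro i hi
      rw [Finset.mem_range]
      exact Nat.lt_succ_of_le (le_natDegree_of_mem_supp i hi)
    · intro i _ hi
      show p.coeff i • c ^ i = 0
      rw [notMem_support_iff.mp hi, zero_smul]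
  have hne : p.support.Nonempty := by
    rwa [Finset.nonempty_iff_ne_empty, Ne, support_eq_empty]
  obtain ⟨j, hj, hjmax⟩ := Finset.exists_max_image p.support (fun i => v (f i)) hne
  have hjne : v (f j) ≠ 0 := hfne j (mem_support_iff.mp hj)
  have hex : ∃ i ∈ p.support, i ≠ j ∧ v (f i) = v (f j) := by
    by_contra hcon
    push Not at hcon
    have hlt : ∀ i ∈ p.support \ {j}, v (f i) < v (f j) := by
      intro i hi
      rw [Finset.mem_sdiff, Finset.mem_singleton] at hi
      exact lt_of_le_of_ne (hjmax i hi.1) (hcon i hi.1 hi.2)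
    have := Valuation.map_sum_eq_of_lt v hj hlt
    rw [hsupp, map_zero] at this
    exact hjne this.symm
  obtain ⟨i, hi, hij, hval⟩ := hex
  have hci : p.coeff i ≠ 0 := mem_support_iff.mp hi
  have hcj : p.coeff j ≠ 0 := mem_support_iff.mp hj
  have hile : i ≤ p.natDegree := le_natDegree_of_mem_supp i hi
  have hjle : j ≤ p.natDegree := le_natDegree_of_mem_supp j hj
  have hvc : v c ≠ 0 := (Valuation.ne_zero_iff v).mpr hc
  have hval' : v (algebraMap K L (p.coeff i)) * v c ^ i
      = v (algebraMap K L (p.coeff j)) * v c ^ j := by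
    simpa [hf, Algebra.smul_def] using hval
  have hvi : v (algebraMap K L (p.coeff i)) ≠ 0 :=
    (Valuation.ne_zero_iff v).mpr (by simpa using hci)
  have hvj : v (algebraMap K L (p.coeff j)) ≠ 0 :=
    (Valuation.ne_zero_iff v).mpr (by simpa using hcj)
  rcases lt_or_gt_of_ne hij with hlt | hlt
  · refine ⟨j - i, p.coeff i / p.coeff j, Nat.sub_pos_of_lt hlt, (Nat.sub_le _ _).trans hjle,
      div_ne_zero hci hcj, ?_⟩
    rw [map_div₀, map_div₀, eq_div_iff hvj]
    have : v c ^ j = v c ^ (j - i) * v c ^ i := by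
      rw [← pow_add, Nat.sub_add_cancel hlt.le]
    rw [this] at hval'
    have h2 : v (algebraMap K L (p.coeff i)) * v c ^ i
        = (v c ^ (j - i) * v (algebraMap K L (p.coeff j))) * v c ^ i := by
      rw [hval']; ac_rfl
    exact (mul_right_cancel₀ (pow_ne_zero i hvc) h2).symm
  · refine ⟨i - j, p.coeff j / p.coeff i, Nat.sub_pos_of_lt hlt, (Nat.sub_le _ _).trans hile,
      div_ne_zero hcj hci, ?_⟩
    rw [map_div₀, map_div₀, eq_div_iff hvi]
    have : v c ^ i = v c ^ (i - j) * v c ^ j := by
      rw [← pow_add, Nat.sub_add_cancel hlt.le]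
    rw [this] at hval'
    have h2 : v (algebraMap K L (p.coeff j)) * v c ^ j
        = (v c ^ (i - j) * v (algebraMap K L (p.coeff i))) * v c ^ j := by
      rw [← hval']; ac_rfl
    exact (mul_right_cancel₀ (pow_ne_zero j hvc) h2).symm

end Bounded


section Rational

variable {K F : Type*} [Field K] [Field F] [Algebra K F]
variable (B : ValuationSubring F) (hK : ∀ a : K, algebraMap K F a ∈ B)
variable {u : F} (hu : u ∈ B.nonunits)

include hK in
theorem val_algebraMap_eq_one {a : K} (ha : a ≠ 0) : B.valuation (algebraMap K F a) = 1 := by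
  have h1 : B.valuation (algebraMap K F a) ≤ 1 := (B.valuation_le_one_iff _).mpr (hK a)
  have h2 : B.valuation (algebraMap K F a⁻¹) ≤ 1 := (B.valuation_le_one_iff _).mpr (hK a⁻¹)
  rw [map_inv₀, map_inv₀] at h2
  have h0 : B.valuation (algebraMap K F a) ≠ 0 :=
    (Valuation.ne_zero_iff _).mpr (by simpa using ha)
  have h3 : 1 ≤ B.valuation (algebraMap K F a) := by
    rwa [inv_le_one₀ (zero_lt_iff.mpr h0)] at h2
  exact le_antisymm h1 h3

include hK hu in
theorem aeval_mem (r : K[X]) : aeval u r ∈ B := by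
  have huB : u ∈ B := by
    have := (B.mem_nonunits_iff).mp hu
    exact (B.valuation_le_one_iff _).mp this.le
  rw [aeval_eq_sum_range]
  refine sum_mem fun i _ => ?_
  rw [Algebra.smul_def]
  exact mul_mem (hK _) (pow_mem huB i)

include hK hu in
/-- the value of a nonzero polynomial in `u` is a power of `v(u)` -/
theorem val_aeval_eq_pow {p : K[X]} (hp : p ≠ 0) :
    ∃ m : ℕ, B.valuation (aeval u p) = B.valuation u ^ m := by
  obtain ⟨q, hpq, hq⟩ := exists_eq_pow_rootMultiplicity_mul_and_not_dvd p hp 0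
  rw [C_0, sub_zero] at hpq hq
  have hq0 : q.coeff 0 ≠ 0 := fun h => hq (X_dvd_iff.mpr h)
  refine ⟨p.rootMultiplicity 0, ?_⟩
  have hu1 : B.valuation u < 1 := (B.mem_nonunits_iff).mp hu
  have hq1 : B.valuation (aeval u q) = 1 := by
    have hdec : aeval u q = u * aeval u (divX q) + algebraMap K F (q.coeff 0) := by
      conv_lhs => rw [← X_mul_divX_add q]
      rw [map_add, map_mul, aeval_X, aeval_C]
    have hlt : B.valuation (u * aeval u (divX q)) < 1 := by
      rw [map_mul]
      have h2 : B.valuation (aeval u (divX q)) ≤ 1 :=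
        (B.valuation_le_one_iff _).mpr (aeval_mem B hK hu _)
      calc B.valuation u * B.valuation (aeval u (divX q)) ≤ B.valuation u * 1 :=
            mul_le_mul_right h2 _
        _ < 1 := by rwa [mul_one]
    rw [hdec, Valuation.map_add_eq_of_lt_right, val_algebraMap_eq_one B hK hq0]
    rwa [val_algebraMap_eq_one B hK hq0]
  conv_lhs => rw [hpq]
  rw [map_mul, map_pow, aeval_X, map_mul, map_pow, hq1, mul_one]

include hK hu in
/-- the value of a nonzero element of `K(u)` is an integral power of `v(u)` -/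
theorem val_eq_zpow_of_mem_adjoin (hu0 : u ≠ 0) {c : F} (hc : c ∈ K⟮u⟯) (hc0 : c ≠ 0) :
    ∃ m : ℤ, B.valuation c = B.valuation u ^ m := by
  obtain ⟨r, s, hrs⟩ := (IntermediateField.mem_adjoin_simple_iff K c).mp hc
  have hr : aeval u r ≠ 0 := by
    intro h
    rw [h, zero_div] at hrs
    exact hc0 hrs
  have hs : aeval u s ≠ 0 := by
    intro h
    rw [h, div_zero] at hrs
    exact hc0 hrs
  have hr0 : r ≠ 0 := fun h => hr (by rw [h, map_zero])
  have hs0 : s ≠ 0 := fun h => hs (by rw [h, map_zero])
  obtain ⟨a, ha⟩ := val_aeval_eq_pow B hK hu hr0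
  obtain ⟨b, hb⟩ := val_aeval_eq_pow B hK hu hs0
  refine ⟨(a : ℤ) - b, ?_⟩
  have hvu0 : B.valuation u ≠ 0 := (Valuation.ne_zero_iff _).mpr hu0
  rw [hrs, map_div₀, ha, hb, zpow_sub₀ hvu0, zpow_natCast, zpow_natCast]

end Rational


section Cyclic

open MonoidWithZeroHom

variable {K F : Type*} [Field K] [Field F] [Algebra K F]
variable (B : ValuationSubring F) (hK : ∀ a : K, algebraMap K F a ∈ B)
variable {u : F} (hu : u ∈ B.nonunits) (hu0 : u ≠ 0)

include hK hu hu0 in
/-- every value has a bounded positive power in `⟨v(u)⟩` -/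
theorem exists_pow_eq_zpow [FiniteDimensional K⟮u⟯ F] {y : F} (hy : y ≠ 0) :
    ∃ (e : ℕ) (m : ℤ), 0 < e ∧ e ≤ Module.finrank K⟮u⟯ F ∧
      B.valuation y ^ e = B.valuation u ^ m := by
  have hint : IsIntegral K⟮u⟯ y := IsIntegral.of_finite _ _
  obtain ⟨e, q, he, hle, hq0, hq⟩ := exists_pow_eq_of_aeval_eq_zero (K := K⟮u⟯) B.valuation hy
    (minpoly K⟮u⟯ y) (minpoly.ne_zero hint) (minpoly.aeval _ _)
  have hq0' : (q : F) ≠ 0 := by simpa using hq0
  obtain ⟨m, hm⟩ := val_eq_zpow_of_mem_adjoin B hK hu hu0 q.2 hq0'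
  exact ⟨e, m, he, hle.trans (minpoly.natDegree_le y), by rw [hq]; exact hm⟩

include hK hu hu0 in
theorem isCyclic_valueGroup [FiniteDimensional K⟮u⟯ F] :
    IsCyclic (valueGroup (MonoidWithZeroHom.ofClass B.valuation)) := by
  classical
  set n := Module.finrank K⟮u⟯ F with hn
  have hvu0 : B.valuation u ≠ 0 := (Valuation.ne_zero_iff _).mpr hu0
  set γ : B.ValueGroupˣ := Units.mk0 (B.valuation u) hvu0 with hγ
  have key : ∀ g ∈ valueGroup (MonoidWithZeroHom.ofClass B.valuation),
      g ^ n.factorial ∈ Subgroup.zpowers γ := by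
    intro g hg
    have hg' : g ∈ (valueMonoid (MonoidWithZeroHom.ofClass B.valuation) : Set _) := by
      rw [valueMonoid_eq_valueGroup']; exact hg
    obtain ⟨y, hy⟩ := hg'
    have hy' : B.valuation y = (g : B.ValueGroup) := hy
    have hy0 : y ≠ 0 := by
      intro h
      rw [h, map_zero] at hy'
      exact g.ne_zero hy'.symm
    obtain ⟨e, m, he, hle, hem⟩ := exists_pow_eq_zpow B hK hu hu0 hy0
    obtain ⟨d, hd⟩ := Nat.dvd_factorial he hle
    have h1 : g ^ e = γ ^ m := by
      apply Units.ext
      rw [Units.val_pow_eq_pow_val, Units.val_zpow_eq_zpow_val, ← hy', hem, hγ, Units.val_mk0]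
    rw [hd, pow_mul, h1, ← zpow_natCast, ← zpow_mul]
    exact Subgroup.zpow_mem_zpowers _ _
  let ψ : valueGroup (MonoidWithZeroHom.ofClass B.valuation) →* Subgroup.zpowers γ :=
    ((powMonoidHom n.factorial).comp (Subgroup.subtype _)).codRestrict _ (fun g => key g g.2)
  have hψ : Function.Injective ψ := by
    rw [injective_iff_map_eq_one]
    intro g hg
    have h1 : (g : B.ValueGroupˣ) ^ n.factorial = 1 := congrArg Subtype.val hg
    have h2 := (pow_eq_one_iff.mp h1).resolve_right (Nat.factorial_ne_zero n)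
    exact Subtype.ext h2
  exact isCyclic_of_injective ψ hψ

include hu hu0 in
theorem nontrivial_valueGroup :
    Nontrivial (valueGroup (MonoidWithZeroHom.ofClass B.valuation)) := by
  have hvu0 : B.valuation u ≠ 0 := (Valuation.ne_zero_iff _).mpr hu0
  have hmem : Units.mk0 (B.valuation u) hvu0 ∈
      valueGroup (MonoidWithZeroHom.ofClass B.valuation) :=
    mem_valueGroup _ ⟨u, rfl⟩
  refine ⟨⟨⟨_, hmem⟩, 1, fun h => ?_⟩⟩
  have h1 : Units.mk0 (B.valuation u) hvu0 = 1 := congrArg Subtype.val h
  have h2 : B.valuation u = 1 := by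
    have := congrArg Units.val h1
    simpa using this
  have h3 : B.valuation u < 1 := (B.mem_nonunits_iff).mp hu
  exact h3.ne h2

include hK hu hu0 in
/-- A valuation subring of `F` containing `K` in which the transcendental `u` is a nonunit is a
discrete valuation ring as soon as `[F : K(u)] < ∞`. -/
theorem isPrincipalIdealRing_of_nonunit [FiniteDimensional K⟮u⟯ F] : IsPrincipalIdealRing B := by
  have := isCyclic_valueGroup B hK hu hu0
  have := nontrivial_valueGroup B hu hu0
  have h := Valuation.valuationSubring_isPrincipalIdealRing B.valuation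
  rwa [B.valuationSubring_valuation] at h

end Cyclic


section Exists

variable {K F : Type*} [Field K] [Field F] [Algebra K F]

/-- **Existence of a zero.**  If `u : F` is transcendental over `K` and `[F : K(u)] < ∞`, there is
a place of `F / K` at which `u` has positive order.  (Any characteristic, no separability.) -/
theorem exists_place_ord_pos {u : F} (hu : Transcendental K u) [FiniteDimensional K⟮u⟯ F] :
    ∃ Q : Place K F, 0 < Q.ord u := by
  have hu0 : u ≠ 0 := by
    rintro rfl
    exact hu isAlgebraic_zero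
  set A0 : Subring F := (Algebra.adjoin K {u}).toSubring with hA0
  have huA : u ∈ A0 := Algebra.subset_adjoin rfl
  have hI : Ideal.span {(⟨u, huA⟩ : A0)} ≠ ⊤ := by
    intro h
    rw [Ideal.eq_top_iff_one, Ideal.mem_span_singleton'] at h
    obtain ⟨w, hw⟩ := h
    have hwmem : (w : F) ∈ Algebra.adjoin K {u} := w.2
    rw [Algebra.adjoin_singleton_eq_range_aeval] at hwmem
    obtain ⟨p, hp⟩ := hwmem
    have hw' : (w : F) * u = 1 := congrArg Subtype.val hw
    have h1 : aeval u (p * X - 1) = 0 := by
      rw [map_sub, map_mul, aeval_X, map_one]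
      rw [show (aeval u) p = (w : F) from hp, hw', sub_self]
    have h2 : p * X - 1 ≠ 0 := by
      intro h0
      have := congrArg (fun r => r.coeff 0) h0
      simp at this
    exact hu ⟨p * X - 1, h2, h1⟩
  obtain ⟨B, hAB, hIB⟩ := Ideal.image_subset_nonunits_valuationSubring _ hI
  have hK : ∀ a : K, algebraMap K F a ∈ B := fun a =>
    hAB ((Algebra.adjoin K {u}).algebraMap_mem a)
  have huB : u ∈ B.nonunits := hIB ⟨⟨u, huA⟩, Ideal.subset_span rfl, rfl⟩
  have hlt : B.valuation u < 1 := (B.mem_nonunits_iff).mp huB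
  have huB' : u ∈ B := (B.valuation_le_one_iff _).mp hlt.le
  have hne : B ≠ ⊤ := by
    intro h
    have h1 : u⁻¹ ∈ B := by rw [h]; exact ValuationSubring.mem_top _
    have h2 : B.valuation u⁻¹ ≤ 1 := (B.valuation_le_one_iff _).mpr h1
    rw [map_inv₀] at h2
    have h0 : B.valuation u ≠ 0 := (Valuation.ne_zero_iff _).mpr hu0
    rw [inv_le_one₀ (zero_lt_iff.mpr h0)] at h2
    exact absurd hlt (not_lt.mpr h2)
  refine ⟨⟨B, hK, hne, isPrincipalIdealRing_of_nonunit B hK huB hu0⟩, ?_⟩
  set Q : Place K F := ⟨B, hK, hne, isPrincipalIdealRing_of_nonunit B hK huB hu0⟩ with hQ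
  have hmem : (⟨u, huB'⟩ : Q.toValuationSubring) ∈
      IsLocalRing.maximalIdeal Q.toValuationSubring := by
    rw [IsLocalRing.mem_maximalIdeal, mem_nonunits_iff]
    intro hunit
    have : B.valuation u = 1 := (B.valuation_eq_one_iff ⟨u, huB'⟩).mp hunit
    exact hlt.ne this
  rcases (FFLSpace5.mem_maximalIdeal_iff Q _).mp hmem with h | h
  · exact absurd h hu0
  · exact lt_of_lt_of_le one_pos h

end Exists


section Finite

variable {K E : Type*} [Field K] [Field E] [Algebra K E]

/-- transfer of algebraicity over `K(t)` from the ambient field `E` to the intermediate field `F` -/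
theorem isAlgebraic_of_val (F : IntermediateField K E) (t' x : F)
    (h : IsAlgebraic K⟮(t' : E)⟯ (x : E)) : IsAlgebraic K⟮t'⟯ x := by
  have hmap : (K⟮t'⟯).map F.val = K⟮(t' : E)⟯ := IntermediateField.lift_adjoin_simple K F t'
  let f : K⟮t'⟯ →+* K⟮(t' : E)⟯ :=
    ((algebraMap F E).comp (algebraMap K⟮t'⟯ F)).codRestrict K⟮(t' : E)⟯
      (fun c => by rw [← hmap]; exact ⟨c, c.2, rfl⟩)
  have hf : Function.Surjective f := by
    rintro ⟨y, hy⟩
    rw [← hmap] at hy
    obtain ⟨c, hc, rfl⟩ := hy
    exact ⟨⟨c, hc⟩, rfl⟩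
  exact IsAlgebraic.of_ringHom_of_comp_eq f (algebraMap F E) h hf (algebraMap F E).injective
    (by ext c; rfl)

/-- an element of an extension of an algebraically closed field is constant or transcendental -/
theorem exists_eq_algebraMap_of_isAlgebraic {k F : Type*} [Field k] [IsAlgClosed k] [Field F]
    [Algebra k F] {u : F} (h : IsAlgebraic k u) : ∃ κ : k, u = algebraMap k F κ := by
  have hint := h.isIntegral
  have hdeg := IsAlgClosed.degree_eq_one_of_irreducible k (minpoly.irreducible hint)
  obtain ⟨κ, hκ⟩ := minpoly.mem_range_of_degree_eq_one k u hdeg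
  exact ⟨κ, hκ.symm⟩

open Cardinal in
/-- **Exchange.**  If `F / K` is finitely generated and algebraic over `K(t)`, then `F` is finite over
`K(u)` for every `u : F` transcendental over `K`. -/
theorem finiteDimensional_adjoin_simple (F : IntermediateField K E) (hFG : F.FG) (t' : F)
    (halg : ∀ x : F, IsAlgebraic K⟮(t' : E)⟯ (x : E)) (u : F) (hu : Transcendental K u) :
    FiniteDimensional K⟮u⟯ F := by
  -- `F` is algebraic over `K[t']`
  have h1 : Algebra.IsAlgebraic (Algebra.adjoin K ({t'} : Set F)) F := by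
    refine ⟨fun x => ?_⟩
    have := isAlgebraic_of_val F t' x (halg x)
    exact (IntermediateField.isAlgebraic_adjoin_iff).mp this
  -- so `trdeg ≤ 1`
  have h2 : Algebra.trdeg K F ≤ 1 := by
    have := Algebra.IsAlgebraic.trdeg_le_cardinalMk K ({t'} : Set F)
    simpa using this
  -- `u` is a transcendence basis
  have h3 : AlgebraicIndependent K (fun _ : PUnit => u) :=
    (algebraicIndependent_unique_type_iff).mpr hu
  have h4 : IsTranscendenceBasis K (fun _ : PUnit => u) :=
    h3.isTranscendenceBasis_of_trdeg_le_of_finite (by simpa using h2)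
  have h5 : Algebra.IsAlgebraic K⟮u⟯ F := by
    have := h4.isAlgebraic_field
    rwa [Set.range_const] at this
  have h6 : Algebra.EssFiniteType K F := IntermediateField.essFiniteType_iff.mpr hFG
  have h7 : Algebra.EssFiniteType K⟮u⟯ F := Algebra.EssFiniteType.of_comp K K⟮u⟯ F
  exact Algebra.finite_of_essFiniteType_of_isAlgebraic

end Finite

end Fermat.Agent.S18.ConstOrd27
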