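/-
S18 / [NORMALIZE]-H3 (helper27): `Normalize96.ConstOfOrdZero k N` for the special fibre
`F̄_N = modularFunctionFieldFullC k N`, `k` algebraically closed with `(N : k) ≠ 0`.

Inputs: `ConstOrd27.exists_place_ord_pos` (a transcendental function has a zero),
`ConstOrd27.finiteDimensional_adjoin_simple` (exchange), and `Sep72.isSeparable_fullC'`
(`F̄_N` is algebraic over `k(t)`, `t = jqModC k`).
-/
import Mathlib
import Fermat.Agent.S18.ConstOrd27
import Fermat.Agent.S18.Normalize96
import Fermat.Agent.S18.Sep72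
import Fermat.Agent.S18.ValRing25

set_option autoImplicit false

noncomputable section

namespace Fermat.Agent.S18.ConstOrd27

open ModularCurve IntermediateField AlgebraicCurve

theorem finite_divisorExpansionsC (k : Type*) [Field k] (N : ℕ) (hN : N ≠ 0) :
    (divisorExpansionsC k N).Finite := by
  classical
  refine Set.Finite.subset ((N.divisors : Set ℕ).toFinite.image
    (fun d => if h : d = 0 then (0 : LaurentSeries k) else
      @qExpand k _ d ⟨h⟩ (jqModC k))) ?_
  rintro x ⟨d, hd0, hd, rfl⟩
  refine ⟨d, by simpa using ⟨hd, hN⟩, ?_⟩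
  show (if h : d = 0 then (0 : LaurentSeries k) else @qExpand k _ d ⟨h⟩ (jqModC k)) = _
  rw [dif_neg (NeZero.ne d)]

theorem fg_modularFunctionFieldFullC (k : Type*) [Field k] (N : ℕ) (hN : N ≠ 0) :
    (modularFunctionFieldFullC k N).FG := by
  refine ⟨(finite_divisorExpansionsC k N hN).toFinset, ?_⟩
  rw [Set.Finite.coe_toFinset]
  rfl

/-- `ConstOfOrdZero` from the algebraicity of `F̄_N` over `k(t)` (any universe). -/
theorem constOfOrdZero_of_isAlgebraic (k : Type*) [Field k] [IsAlgClosed k] (N : ℕ) (hN : N ≠ 0)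
    (halg : ∀ x ∈ modularFunctionFieldFullC k N, IsAlgebraic k⟮jqModC k⟯ x) :
    Normalize96.ConstOfOrdZero k N := by
  intro u hu0 hord
  by_contra hcon
  push Not at hcon
  have htr : Transcendental k u := fun h => by
    obtain ⟨κ, hκ⟩ := exists_eq_algebraMap_of_isAlgebraic h
    exact hcon κ hκ
  have hfin : FiniteDimensional k⟮u⟯ (modularFunctionFieldFullC k N) :=
    finiteDimensional_adjoin_simple (modularFunctionFieldFullC k N)
      (fg_modularFunctionFieldFullC k N hN) ⟨jqModC k, jqModC_mem_full k N⟩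
      (fun x => halg x x.2) u htr
  obtain ⟨Q, hQ⟩ := exists_place_ord_pos htr
  rw [hord Q] at hQ
  exact lt_irrefl _ hQ

/-- **[NORMALIZE]-H3.**  A function on the special fibre without zeros and poles is constant. -/
theorem constOfOrdZero (k : Type) [Field k] [IsAlgClosed k] (N : ℕ) [NeZero N]
    (hN : (N : k) ≠ 0) : Normalize96.ConstOfOrdZero k N :=
  constOfOrdZero_of_isAlgebraic k N (NeZero.ne N) fun _ hx =>
    (Sep72.isSeparable_fullC' k N hN hx).isIntegral.isAlgebraic

/-- **[NORMALIZE]-H3 in the frozen S18 situation**: `A` a valuation subring of `ℚ̄` over `ℓ ∤ N`. -/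
theorem constOfOrdZero_modL (N : ℕ) [NeZero N] {ℓ : ℕ} [Fact ℓ.Prime] (hℓN : ¬ ℓ ∣ N)
    (A : ValuationSubring (AlgebraicClosure ℚ)) (hA : A.LiesOverPrime ℓ) :
    Normalize96.ConstOfOrdZero (IsLocalRing.ResidueField A) N := by
  have h1 : IsAlgClosed (IsLocalRing.ResidueField A) := ValRing25.residueField_isAlgClosed A
  have h2 : CharP (IsLocalRing.ResidueField A) ℓ := ValRing25.residueField_charP A hA
  exact constOfOrdZero _ N ((CharP.cast_eq_zero_iff _ ℓ N).not.mpr hℓN)

end Fermat.Agent.S18.ConstOrd27
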