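/-
S18 project, [CUSP-LITE] (C-BASE), abstract half (helper78), on top of `EmbPlace78` and helper63's
`DW63` (separable RatFunc setting, `K` algebraically closed of ANY characteristic).

Given a finite family of `K`-embeddings `σ i : F →ₐ[K] K((q))` (`i : ι`, `r = card ι`) with `(σ i x).order = -1` (`x = xF K F`), pairwise
separated (`∃ u, 0 ≤ (σ i u).order ∧ (σ j u).order < 0`):

* `prime_of_emb` : the height one prime `w i` of `B_∞` with `infPlace w i = embPlace (σ i)`;
* `ord_xF_embPlace` : `(embPlace (σ i)).ord x = -1` (so `e = 1`);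
* `prime_of_emb_injective`;
* `succ_le_card_primes_Binf` : if `r < [F : K(x)]` then `r + 1 ≤ #HeightOneSpectrum B_∞`
  (fundamental identity `Σ e_w = [F : K(x)]` = `DW63.sum_neg_ord_eq_finrank`);
* `le_card_primes_Binf` : `r ≤ #HeightOneSpectrum B_∞` without the degree hypothesis.
No sorry.
-/
import Mathlib
import Fermat.Agent.S18.EmbPlace78
import Fermat.Agent.S18.DW63.Degree

set_option autoImplicit false
set_option linter.unusedSectionVars false

open Polynomial AlgebraicCurve IsDedekindDomain Module
open scoped Classical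

noncomputable section

namespace Fermat.Agent.S18.CuspBaseAbs78

open Fermat.Agent.S20.NormalBasis (Oinf mInf)
open Fermat.Agent.S20 Fermat.Agent.S20.T1
open Fermat.Agent.S18.DW63 Fermat.Agent.S18.EmbPlace78

variable (K F : Type*) [Field K] [IsAlgClosed K] [Field F] [Algebra K F] [Algebra (RatFunc K) F]
  [IsScalarTower K (RatFunc K) F] [Algebra K[X] F] [IsScalarTower K[X] (RatFunc K) F]
  [FiniteDimensional (RatFunc K) F] [Algebra.IsSeparable (RatFunc K) F]

variable {K F}

/-- An embedding with `(σ x).order = -1` has a pole at `x`. -/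
theorem exists_order_neg {σ : F →ₐ[K] LaurentSeries K} (h : (σ (xF K F)).order = -1) :
    ∃ y : F, (σ y).order < 0 := ⟨xF K F, by rw [h]; norm_num⟩

/-- `ord_P = order ∘ σ` when `(σ x).order = -1`. -/
theorem ord_embPlace_eq_order {σ : F →ₐ[K] LaurentSeries K} (h : (σ (xF K F)).order = -1) (f : F) :
    (embPlace σ (exists_order_neg h)).ord f = (σ f).order := by
  obtain ⟨g, hg0, hg⟩ := exists_order_eq_mul_ord σ (exists_order_neg h)
  have h1 := hg (xF K F)
  rw [h] at h1
  have hg1 : g = 1 := by
    have hdvd : g ∣ 1 := ⟨-(embPlace σ (exists_order_neg h)).ord (xF K F), by linarith⟩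
    exact Int.eq_one_of_dvd_one hg0.le hdvd
  rw [hg f, hg1, one_mul]

theorem ord_xF_embPlace {σ : F →ₐ[K] LaurentSeries K} (h : (σ (xF K F)).order = -1) :
    (embPlace σ (exists_order_neg h)).ord (xF K F) = -1 := by
  rw [ord_embPlace_eq_order h, h]

/-- The prime of `B_∞` attached to an embedding with `(σ x).order = -1`. -/
theorem exists_prime_of_emb {σ : F →ₐ[K] LaurentSeries K} (h : (σ (xF K F)).order = -1) :
    ∃ w : HeightOneSpectrum (Binf K F), infPlace K F w = embPlace σ (exists_order_neg h) := by
  refine exists_infPlace_eq K F _ ?_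
  rw [mem_embPlace_iff, h]
  norm_num

/-- Distinctness: separated embeddings give different places. -/
theorem embPlace_ne {σ τ : F →ₐ[K] LaurentSeries K} (hσ : ∃ y : F, (σ y).order < 0)
    (hτ : ∃ y : F, (τ y).order < 0) (u : F) (h1 : 0 ≤ (σ u).order) (h2 : (τ u).order < 0) :
    embPlace σ hσ ≠ embPlace τ hτ := by
  intro heq
  have h3 : u ∈ (embPlace σ hσ).toValuationSubring := (mem_embPlace_iff σ hσ u).2 h1
  rw [heq, mem_embPlace_iff] at h3
  omega

section Count

variable {ι : Type*} [Fintype ι] (σ : ι → F →ₐ[K] LaurentSeries K)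
  (hord : ∀ i, (σ i (xF K F)).order = -1)

/-- The prime of `B_∞` of the `i`-th embedding. -/
def primeOfEmb (i : ι) : HeightOneSpectrum (Binf K F) :=
  (exists_prime_of_emb (hord i)).choose

theorem infPlace_primeOfEmb (i : ι) :
    infPlace K F (primeOfEmb σ hord i) = embPlace (σ i) (exists_order_neg (hord i)) :=
  (exists_prime_of_emb (hord i)).choose_spec

theorem ord_xF_primeOfEmb (i : ι) :
    (infPlace K F (primeOfEmb σ hord i)).ord (xF K F) = -1 := by
  rw [infPlace_primeOfEmb, ord_xF_embPlace (hord i)]

theorem ord_primeOfEmb (i : ι) (f : F) :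
    (infPlace K F (primeOfEmb σ hord i)).ord f = (σ i f).order := by
  rw [infPlace_primeOfEmb, ord_embPlace_eq_order (hord i)]

variable (hsep : ∀ i j, i ≠ j → ∃ u : F, 0 ≤ (σ i u).order ∧ (σ j u).order < 0)

include hsep in
theorem primeOfEmb_injective : Function.Injective (primeOfEmb σ hord) := by
  intro i j hij
  by_contra hne
  obtain ⟨u, h1, h2⟩ := hsep i j hne
  have h3 := infPlace_primeOfEmb σ hord i
  rw [hij, infPlace_primeOfEmb] at h3
  exact embPlace_ne (exists_order_neg (hord i)) (exists_order_neg (hord j)) u h1 h2 h3.symm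

include hord hsep in
/-- `r` separated embeddings with `e = 1` give at least `r` primes of `B_∞`. -/
theorem le_card_primes_Binf : Fintype.card ι ≤ Fintype.card (HeightOneSpectrum (Binf K F)) :=
  Fintype.card_le_of_injective _ (primeOfEmb_injective σ hord hsep)

include hord hsep in
/-- **(C-BASE), abstract form**: `r` separated embeddings with `e = 1` and `r < [F : K(x)]` force
at least `r + 1` primes of `B_∞` (= places over `x = ∞`). -/
theorem succ_le_card_primes_Binf (hr : Fintype.card ι < finrank (RatFunc K) F) :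
    Fintype.card ι + 1 ≤ Fintype.card (HeightOneSpectrum (Binf K F)) := by
  by_contra hlt
  have hle : Fintype.card (HeightOneSpectrum (Binf K F)) ≤ Fintype.card ι := by omega
  have hinj := primeOfEmb_injective σ hord hsep
  have hbij : Function.Bijective (primeOfEmb σ hord) :=
    ⟨hinj, (Function.Injective.bijective_of_nat_card_le hinj (by
      simpa [Nat.card_eq_fintype_card] using hle)).2⟩
  have hsum := sum_neg_ord_eq_finrank K F
  have h1 : ∑ w : HeightOneSpectrum (Binf K F), (-(infPlace K F w).ord (xF K F)) =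
      (Fintype.card ι : ℤ) := by
    rw [← (Equiv.ofBijective _ hbij).sum_comp]
    simp only [Equiv.ofBijective_apply]
    rw [Finset.sum_congr rfl (fun i _ => by rw [ord_xF_primeOfEmb σ hord i, neg_neg])]
    simp
  rw [h1] at hsum
  have : (Fintype.card ι : ℤ) < (finrank (RatFunc K) F : ℤ) := by exact_mod_cast hr
  omega

end Count

end Fermat.Agent.S18.CuspBaseAbs78
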