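/-
S18 project, [CUSP-LITE] (C-BASE), abstract half in PURE PLACE FORM (helper78): no RatFunc
instance, no Dedekind domains; exactly the shape of `GenusEqMod8.dwGenus_FM_le`'s `hCbase`
(`S24.placesOverInfty K t = {v | v.ord t < 0}`).

Given a finite family of `K`-embeddings `σ i : F →ₐ[K] K((q))` with `(σ i t).order = -1`, pairwise
separated, and the poles formula for `t` (e.g. `FFPlaces30.poles_formula`):

* `ord_embPlace_eq_order'` : `(σ t).order = -1 → (embPlace σ _).ord f = (σ f).order`;
* `embPlace_injective_of_sep`;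
* `succ_le_ncard_placesOverInfty` : `card ι < n = Σ_{v | ∞} (-ord_v t)` ⟹
  `card ι + 1 ≤ (placesOverInfty K t).ncard`;
* `le_ncard_placesOverInfty` : `card ι ≤ (placesOverInfty K t).ncard` (needs only finiteness).
No sorry.
-/
import Mathlib
import Fermat.Agent.S18.EmbPlace78
import Fermat.Agent.S24.Defs

set_option autoImplicit false

open AlgebraicCurve

namespace Fermat.Agent.S18.CuspBasePlaces78

open Fermat.Agent.S24 Fermat.Agent.S18.EmbPlace78

variable {K F : Type*} [Field K] [Field F] [Algebra K F]

theorem exists_order_neg' {σ : F →ₐ[K] LaurentSeries K} {t : F} (h : (σ t).order = -1) :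
    ∃ y : F, (σ y).order < 0 := ⟨t, by rw [h]; norm_num⟩

/-- `ord_P = order ∘ σ` as soon as some `t` has `(σ t).order = -1`. -/
theorem ord_embPlace_eq_order' {σ : F →ₐ[K] LaurentSeries K} {t : F} (h : (σ t).order = -1)
    (f : F) : (embPlace σ (exists_order_neg' h)).ord f = (σ f).order := by
  obtain ⟨g, hg0, hg⟩ := exists_order_eq_mul_ord σ (exists_order_neg' h)
  have h1 := hg t
  rw [h] at h1
  have hg1 : g = 1 := by
    have hdvd : g ∣ 1 := ⟨-(embPlace σ (exists_order_neg' h)).ord t, by linarith⟩
    exact Int.eq_one_of_dvd_one hg0.le hdvd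
  rw [hg f, hg1, one_mul]

theorem embPlace_ne' {σ τ : F →ₐ[K] LaurentSeries K} (hσ : ∃ y : F, (σ y).order < 0)
    (hτ : ∃ y : F, (τ y).order < 0) (u : F) (h1 : 0 ≤ (σ u).order) (h2 : (τ u).order < 0) :
    embPlace σ hσ ≠ embPlace τ hτ := by
  intro heq
  have h3 : u ∈ (embPlace σ hσ).toValuationSubring := (mem_embPlace_iff σ hσ u).2 h1
  rw [heq, mem_embPlace_iff] at h3
  omega

section Count

variable {ι : Type*} [Fintype ι] (σ : ι → F →ₐ[K] LaurentSeries K) (t : F)
  (hord : ∀ i, (σ i t).order = -1)

/-- The place of the `i`-th embedding. -/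
noncomputable def placeOfEmb (i : ι) : Place K F := embPlace (σ i) (exists_order_neg' (hord i))

theorem ord_placeOfEmb (i : ι) (f : F) : (placeOfEmb σ t hord i).ord f = (σ i f).order :=
  ord_embPlace_eq_order' (hord i) f

theorem ord_t_placeOfEmb (i : ι) : (placeOfEmb σ t hord i).ord t = -1 := by
  rw [ord_placeOfEmb, hord]

theorem placeOfEmb_mem (i : ι) : placeOfEmb σ t hord i ∈ placesOverInfty K t := by
  show (placeOfEmb σ t hord i).ord t < 0
  rw [ord_t_placeOfEmb]
  norm_num

variable (hsep : ∀ i j, i ≠ j → ∃ u : F, 0 ≤ (σ i u).order ∧ (σ j u).order < 0)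

include hsep in
theorem placeOfEmb_injective : Function.Injective (placeOfEmb σ t hord) := by
  intro i j hij
  by_contra hne
  obtain ⟨u, h1, h2⟩ := hsep i j hne
  exact embPlace_ne' (exists_order_neg' (hord i)) (exists_order_neg' (hord j)) u h1 h2 hij

include hord hsep in
/-- Separated embeddings with `e = 1` give at least `card ι` places over `t = ∞`
(if there are finitely many). -/
theorem le_ncard_placesOverInfty (hfin : (placesOverInfty K t).Finite) :
    Fintype.card ι ≤ (placesOverInfty K t).ncard := by
  classical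
  have hinj := placeOfEmb_injective σ t hord hsep
  have himg : Set.range (placeOfEmb σ t hord) ⊆ placesOverInfty K t := by
    rintro _ ⟨i, rfl⟩
    exact placeOfEmb_mem σ t hord i
  have h1 := Set.ncard_le_ncard himg hfin
  rw [Set.ncard_range_of_injective hinj, Nat.card_eq_fintype_card] at h1
  exact h1

include hord hsep in
/-- **(C-BASE), abstract place form**: `r = card ι` separated embeddings with `e = 1` and
`r < n = Σ_{v | ∞} e_v` force at least `r + 1` places over `t = ∞`. -/
theorem succ_le_ncard_placesOverInfty {n : ℕ}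
    (hpoles : ∃ s : Finset (Place K F), (∀ v : Place K F, v ∈ s ↔ v.ord t < 0) ∧
      ∑ v ∈ s, -v.ord t = (n : ℤ))
    (hlt : Fintype.card ι < n) :
    Fintype.card ι + 1 ≤ (placesOverInfty K t).ncard := by
  classical
  obtain ⟨s, hs, hsum⟩ := hpoles
  have hset : placesOverInfty K t = ↑s := by
    ext v
    rw [Finset.mem_coe, hs]
    rfl
  rw [hset, Set.ncard_coe_finset]
  by_contra hcon
  have hle : s.card ≤ Fintype.card ι := by omega
  have hinj := placeOfEmb_injective σ t hord hsep
  -- the image of the embedded places inside `s`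
  have himg : Finset.univ.image (placeOfEmb σ t hord) ⊆ s := by
    intro v hv
    obtain ⟨i, -, rfl⟩ := Finset.mem_image.1 hv
    rw [hs, ord_t_placeOfEmb]
    norm_num
  have hcard : (Finset.univ.image (placeOfEmb σ t hord)).card = Fintype.card ι := by
    rw [Finset.card_image_of_injective _ hinj, Finset.card_univ]
  have heq : Finset.univ.image (placeOfEmb σ t hord) = s :=
    Finset.eq_of_subset_of_card_le himg (by rw [hcard]; exact hle)
  rw [← heq, Finset.sum_image (fun i _ j _ h => hinj h)] at hsum
  have h1 : ∑ i : ι, -(placeOfEmb σ t hord i).ord t = (Fintype.card ι : ℤ) := by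
    rw [Finset.sum_congr rfl (fun i _ => by rw [ord_t_placeOfEmb σ t hord i, neg_neg])]
    simp
  rw [h1] at hsum
  have : (Fintype.card ι : ℤ) < (n : ℤ) := by exact_mod_cast hlt
  omega

end Count

end Fermat.Agent.S18.CuspBasePlaces78
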