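/-
S18 moonshot, package [CUSP]-EMB (helper55).

`κ` algebraically closed, `M ≥ 1` with `(M : κ) ≠ 0`, `Ω = κ((w))` (the variable `w` plays the
role of `q^(1/M)`), `t_n = t(w^n) = tq κ n`.  Base field `F₀ = κ(t_M)`, and
`E = F₀(t_{M d} : d ∣ M)` (the image of the Prelude field `κ(t_d : d ∣ M)` under `q ↦ w^M`).

* every `F₀`-embedding `τ` of `E` into an algebraic closure of `Ω` maps `t_{M d}` to a monomial
  series `t(c w^a)` with `c^d = 1` and `(M / d) ∣ a` (induction over prime steps, ROOTS of S28);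
* hence every such embedding lands in `Ω`;
* `E / F₀` is finite and separable, so there are exactly `[E : F₀]` embeddings `E → Ω` over `F₀`;
* the twists `w ↦ ζ w`, `ζ^M = 1`, act on these embeddings.
-/
import Mathlib
import Fermat.Agent.S28.KeyLowerMain
import Fermat.Agent.S28.ModEq

set_option autoImplicit false
set_option linter.unusedSectionVars false
set_option linter.style.haveILetI false
set_option linter.unusedVariables false

noncomputable section

namespace Fermat.Agent.S18.CuspEmb55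

open HahnSeries ModularCurve Polynomial IntermediateField
open Fermat.Agent.S28 Fermat.Agent.S28.Subst Fermat.Agent.S28.KeyLowerBasic
open Fermat.Agent.S28.KeyLower

variable (κ : Type) [Field κ] [IsAlgClosed κ]

/-! ### ROOTS at a monomial, with an honest primitive root of unity -/

/-- the modular polynomial of level `r` (junk for `r` not prime). -/
abbrev Phi (r : ℕ) : Polynomial (Polynomial ℤ) := phiT modEqStatement r

theorem Phi_monic {r : ℕ} (hr : r.Prime) : (Phi r).Monic := by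
  haveI : NeZero r := ⟨hr.ne_zero⟩
  rw [Phi, phiT_eq modEqStatement r hr]
  exact (dataT modEqStatement r hr).monic

/-- ROOTS: `Φ_p(X, t(c^p w^(a p))) = (X - t(c^(p p) w^(a p p))) ∏_{b<p} (X - t(c ζ^b w^a))`. -/
theorem roots_mon {p : ℕ} (hp : p.Prime) (hpκ : (p : κ) ≠ 0) {ζ : κˣ}
    (hcyc : (Polynomial.cyclotomic p κ).IsRoot (ζ : κ)) (c : κˣ) {a : ℕ} (ha : 0 < a) :
    polyAt (Phi p) (monT κ (c ^ p) (a * p)) =
      (X - Polynomial.C (monT κ (c ^ (p * p)) (a * (p * p)))) *
        ∏ b ∈ Finset.range p, (X - Polynomial.C (monT κ (c * ζ ^ b) a)) := by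
  haveI : NeZero p := ⟨hp.ne_zero⟩
  haveI : NeZero a := ⟨ha.ne'⟩
  have h := modEqData_roots_monomial (dataT modEqStatement p hp) κ ζ hcyc c a
  rw [Phi, phiT_eq modEqStatement p hp, polyAt_eq_map_evalY, monT_eq, monT_eq, h]
  congr 1
  apply Finset.prod_congr rfl
  intro b _
  rw [monT_eq]

theorem monT_injective {c c' : κˣ} {a a' : ℕ} (ha : 0 < a) (ha' : 0 < a')
    (h : monT κ c a = monT κ c' a') : a = a' ∧ c = c' := by
  haveI : NeZero a := ⟨ha.ne'⟩
  haveI : NeZero a' := ⟨ha'.ne'⟩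
  rw [monT_eq, monT_eq] at h
  exact subst_jqModC_injective h

theorem monT_one (a : ℕ) : monT κ 1 a = tq κ a :=
  (inputOf κ modEqStatement).mon_one a

/-- the relation `Φ_p(t_{p d}, t_d) = 0`. -/
theorem rel_tq {p : ℕ} (hp : p.Prime) (hpκ : (p : κ) ≠ 0) {d : ℕ} (hd : 0 < d) :
    ev (Phi p) (tq κ (p * d)) (tq κ d) = 0 :=
  (inputOf κ modEqStatement).rel hp hpκ hd

/-! ### The fields -/

variable (M : ℕ)

/-- the base field `κ(t_M)`. -/
def F0 : IntermediateField κ (LaurentSeries κ) := κ⟮tq κ M⟯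

/-- the generators `t_{M d}`, `d ∣ M`. -/
def gens : Set (LaurentSeries κ) := (fun d => tq κ (M * d)) '' (M.divisors : Set ℕ)

/-- `E = F₀(t_{M d} : d ∣ M)`. -/
def EE : IntermediateField (F0 κ M) (LaurentSeries κ) := adjoin (F0 κ M) (gens κ M)

/-- the algebraic closure of `κ((w))`. -/
abbrev OmBar : Type := AlgebraicClosure (LaurentSeries κ)

/-- the inclusion `κ((w)) → OmBar`. -/
abbrev iota : LaurentSeries κ →+* OmBar κ := algebraMap (LaurentSeries κ) (OmBar κ)

theorem tq_mem_F0 : tq κ M ∈ F0 κ M := mem_adjoin_simple_self κ _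

theorem mem_gens {d : ℕ} (hM : M ≠ 0) (hd : d ∣ M) : tq κ (M * d) ∈ gens κ M :=
  ⟨d, by simpa using ⟨hd, hM⟩, rfl⟩

theorem tq_mem_EE {d : ℕ} (hM : M ≠ 0) (hd : d ∣ M) : tq κ (M * d) ∈ EE κ M :=
  subset_adjoin _ _ (mem_gens κ M hM hd)

/-! ### The main induction: images of the generators are monomial series -/

theorem natCast_ne_zero_of_dvd {p : ℕ} (hM : (M : κ) ≠ 0) (hp : p ∣ M) : (p : κ) ≠ 0 := by
  obtain ⟨k, rfl⟩ := hp
  intro h
  apply hM
  push_cast
  rw [h, zero_mul]

theorem exists_mon (hMκ : (M : κ) ≠ 0) (τ : EE κ M →ₐ[F0 κ M] OmBar κ) :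
    ∀ d : ℕ, d ∣ M → ∀ x : EE κ M, (x : LaurentSeries κ) = tq κ (M * d) →
      ∃ (c : κˣ) (a : ℕ), 0 < a ∧ (M / d) ∣ a ∧ c ^ d = 1 ∧ τ x = iota κ (monT κ c a) := by
  have hM : M ≠ 0 := by rintro rfl; simp at hMκ
  intro d
  induction d using Nat.strong_induction_on with
  | _ d ih =>
    intro hd x hx
    rcases Nat.lt_or_ge 1 d with h1 | h1
    · obtain ⟨p, hp, ⟨d', rfl⟩⟩ := Nat.exists_prime_and_dvd (by omega : d ≠ 1)
      have hd'pos : 0 < d' := Nat.pos_of_ne_zero (by rintro rfl; simp at h1)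
      have hd' : d' ∣ M := (Dvd.intro_left p rfl).trans hd
      have hpM : p ∣ M := (Dvd.intro d' rfl).trans hd
      have hpκ : (p : κ) ≠ 0 := natCast_ne_zero_of_dvd κ M hMκ hpM
      have hlt : d' < p * d' := by
        have := hp.two_le
        nlinarith
      -- the lower generator
      let y : EE κ M := ⟨tq κ (M * d'), tq_mem_EE κ M hM hd'⟩
      obtain ⟨C, S, hS, hdvd, hC, hy⟩ := ih d' hlt hd' y rfl
      obtain ⟨k, hk⟩ := hd
      have hk0 : k ≠ 0 := by rintro rfl; simp at hk; exact hM hk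
      have hMd : M / (p * d') = k := by
        rw [hk]; exact Nat.mul_div_cancel_left k (Nat.mul_pos hp.pos hd'pos)
      have hMd' : M / d' = p * k := by
        rw [hk, show p * d' * k = d' * (p * k) by ring]
        exact Nat.mul_div_cancel_left _ hd'pos
      rw [hMd'] at hdvd
      obtain ⟨a', ha'⟩ := hdvd
      -- `S = a * p` with `a = k * a'`
      set a : ℕ := k * a' with ha
      have hSa : S = a * p := by rw [ha', ha]; ring
      have hapos : 0 < a := by
        rcases Nat.eq_zero_or_pos a with h0 | h0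
        · rw [hSa, h0, zero_mul] at hS; exact absurd hS (lt_irrefl _)
        · exact h0
      -- a `p`-th root of `C`
      obtain ⟨z, hz⟩ := IsAlgClosed.exists_pow_nat_eq (C : κ) hp.pos
      have hz0 : z ≠ 0 := by
        rintro rfl
        rw [zero_pow hp.ne_zero] at hz
        exact C.ne_zero hz.symm
      set c : κˣ := Units.mk0 z hz0 with hc
      have hcC : c ^ p = C := by
        apply Units.ext
        rw [Units.val_pow_eq_pow_val, hc, Units.val_mk0, hz]
      obtain ⟨ζ, hζ, hcyc⟩ := exists_zeta κ p hp.pos hpκ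
      -- the relation
      have hrel : ev (Phi p) (tq κ (p * (M * d'))) (tq κ (M * d')) = 0 :=
        rel_tq κ hp hpκ (Nat.mul_pos (Nat.pos_of_ne_zero hM) hd'pos)
      have hxy : ev (Phi p) x y = 0 := by
        have hinj : Function.Injective ((EE κ M).val : EE κ M →+* LaurentSeries κ) :=
          Subtype.val_injective
        apply hinj
        rw [map_ev, map_zero]
        show ev (Phi p) (x : LaurentSeries κ) (tq κ (M * d')) = 0
        rw [hx, show M * (p * d') = p * (M * d') by ring]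
        exact hrel
      have hτ : ev (Phi p) (τ x) (τ y) = 0 := by
        have := congrArg (τ : EE κ M →+* OmBar κ) hxy
        rwa [map_ev, map_zero] at this
      rw [hy, ev, ← polyAt_map, ← hcC, hSa, roots_mon κ hp hpκ hcyc c hapos,
        Polynomial.eval_map, Polynomial.eval₂_mul, Polynomial.eval₂_finsetProd, mul_eq_zero,
        Finset.prod_eq_zero_iff] at hτ
      rcases hτ with h0 | ⟨b, hb, h0⟩
      · refine ⟨c ^ (p * p), a * (p * p), Nat.mul_pos hapos (Nat.mul_pos hp.pos hp.pos), ?_, ?_, ?_⟩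
        · rw [hMd, ha]; exact ⟨a' * (p * p), by ring⟩
        · rw [← pow_mul, show p * p * (p * d') = p * (d' * (p * p)) by ring, pow_mul, pow_mul,
            hcC, hC, one_pow]
        · rw [Polynomial.eval₂_sub, Polynomial.eval₂_X, Polynomial.eval₂_C, sub_eq_zero] at h0
          exact h0
      · refine ⟨c * ζ ^ b, a, hapos, ?_, ?_, ?_⟩
        · rw [hMd, ha]; exact Dvd.intro _ rfl
        · rw [mul_pow, ← pow_mul, show b * (p * d') = p * (b * d') by ring,
            pow_mul ζ, hζ.pow_eq_one, one_pow, mul_one, pow_mul, hcC, hC]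
        · rw [Polynomial.eval₂_sub, Polynomial.eval₂_X, Polynomial.eval₂_C, sub_eq_zero] at h0
          exact h0
    · have hd1 : d = 1 := le_antisymm h1 (Nat.pos_of_dvd_of_pos hd (Nat.pos_of_ne_zero hM))
      subst hd1
      refine ⟨1, M, Nat.pos_of_ne_zero hM, by simp, by simp, ?_⟩
      rw [monT_one, mul_one] at *
      -- `x` comes from the base field
      have hx' : x = algebraMap (F0 κ M) (EE κ M) ⟨tq κ M, tq_mem_F0 κ M⟩ := by
        apply Subtype.ext
        rw [hx]
        rfl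
      rw [hx', AlgHom.commutes]
      rfl

/-- all embeddings into the algebraic closure land in `κ((w))`. -/
theorem apply_mem_range (hMκ : (M : κ) ≠ 0) (τ : EE κ M →ₐ[F0 κ M] OmBar κ) (x : EE κ M) :
    τ x ∈ (iota κ).range := by
  have hM : M ≠ 0 := by rintro rfl; simp at hMκ
  obtain ⟨x, hx⟩ := x
  induction hx using IntermediateField.adjoin_induction with
  | mem x hx =>
    obtain ⟨d, hd, rfl⟩ := hx
    have hd' : d ∣ M := (Nat.mem_divisors.mp hd).1
    obtain ⟨c, a, -, -, -, h⟩ := exists_mon κ M hMκ τ d hd' ⟨tq κ (M * d), _⟩ rfl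
    exact ⟨_, h.symm⟩
  | algebraMap x =>
    refine ⟨(x : LaurentSeries κ), ?_⟩
    have : (⟨algebraMap (F0 κ M) (LaurentSeries κ) x, IntermediateField.algebraMap_mem _ x⟩ : EE κ M) =
        algebraMap (F0 κ M) (EE κ M) x := rfl
    rw [this, AlgHom.commutes]
    rfl
  | add x y hx hy ihx ihy =>
    have : (⟨x + y, add_mem hx hy⟩ : EE κ M) = ⟨x, hx⟩ + ⟨y, hy⟩ := rfl
    rw [this, map_add]
    exact add_mem ihx ihy
  | inv x hx ihx =>
    have : (⟨x⁻¹, inv_mem hx⟩ : EE κ M) = (⟨x, hx⟩ : EE κ M)⁻¹ := rfl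
    rw [this, map_inv₀]
    obtain ⟨z, hz⟩ := ihx
    exact ⟨z⁻¹, by rw [map_inv₀, hz]⟩
  | mul x y hx hy ihx ihy =>
    have : (⟨x * y, mul_mem hx hy⟩ : EE κ M) = ⟨x, hx⟩ * ⟨y, hy⟩ := rfl
    rw [this, map_mul]
    exact mul_mem ihx ihy

/-! ### Finiteness and separability -/

theorem isIntegral_tq (hMκ : (M : κ) ≠ 0) :
    ∀ d : ℕ, d ∣ M → IsIntegral (F0 κ M) (tq κ (M * d)) := by
  have hM : M ≠ 0 := by rintro rfl; simp at hMκ
  intro d
  induction d using Nat.strong_induction_on with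
  | _ d ih =>
    intro hd
    rcases Nat.lt_or_ge 1 d with h1 | h1
    · obtain ⟨p, hp, ⟨d', rfl⟩⟩ := Nat.exists_prime_and_dvd (by omega : d ≠ 1)
      have hd'pos : 0 < d' := Nat.pos_of_ne_zero (by rintro rfl; simp at h1)
      have hd' : d' ∣ M := (Dvd.intro_left p rfl).trans hd
      have hpM : p ∣ M := (Dvd.intro d' rfl).trans hd
      have hpκ : (p : κ) ≠ 0 := natCast_ne_zero_of_dvd κ M hMκ hpM
      have hlt : d' < p * d' := by
        have := hp.two_le
        nlinarith
      have := (inputOf κ modEqStatement).isIntegral_step hp hpκ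
        (Nat.mul_pos (Nat.pos_of_ne_zero hM) hd'pos) (F0 κ M) (ih d' hlt hd')
      rwa [show p * (M * d') = M * (p * d') by ring] at this
    · have hd1 : d = 1 := le_antisymm h1 (Nat.pos_of_dvd_of_pos hd (Nat.pos_of_ne_zero hM))
      subst hd1
      rw [mul_one]
      exact isIntegral_algebraMap (R := F0 κ M) (x := ⟨tq κ M, tq_mem_F0 κ M⟩)

instance finite_gens : Finite (gens κ M) := by
  unfold gens
  exact Set.Finite.image _ (Finset.finite_toSet _)

theorem finiteDimensional_EE (hMκ : (M : κ) ≠ 0) : FiniteDimensional (F0 κ M) (EE κ M) := by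
  apply IntermediateField.finiteDimensional_adjoin
  rintro x ⟨d, hd, rfl⟩
  exact isIntegral_tq κ M hMκ d (Nat.mem_divisors.mp hd).1

/-- `Φ_p(X, t_n)` is separable when `p ∣ n` (its `p + 1` roots are distinct monomial series). -/
theorem separable_polyAt_tq {p : ℕ} (hp : p.Prime) (hpκ : (p : κ) ≠ 0) {n : ℕ} (hn : 0 < n)
    (hpn : p ∣ n) : (polyAt (Phi p) (tq κ n)).Separable := by
  obtain ⟨a, rfl⟩ := hpn
  have hapos : 0 < a := Nat.pos_of_ne_zero (by rintro rfl; simp at hn)
  obtain ⟨ζ, hζ, hcyc⟩ := exists_zeta κ p hp.pos hpκ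
  have h := roots_mon κ hp hpκ hcyc 1 hapos
  rw [one_pow, monT_one, mul_comm a p] at h
  rw [h]
  have hpp : 0 < a * (p * p) := Nat.mul_pos hapos (Nat.mul_pos hp.pos hp.pos)
  apply Polynomial.Separable.mul Polynomial.separable_X_sub_C
  · rw [Polynomial.separable_prod_X_sub_C_iff']
    intro b hb b' hb' hbb'
    obtain ⟨-, h2⟩ := monT_injective κ hapos hapos hbb'
    rw [one_mul, one_mul] at h2
    exact hζ.pow_inj (Finset.mem_range.mp hb) (Finset.mem_range.mp hb') h2
  · apply IsCoprime.prod_right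
    intro b _
    apply Polynomial.isCoprime_X_sub_C_of_isUnit_sub
    rw [isUnit_iff_ne_zero, sub_ne_zero]
    intro hEq
    obtain ⟨h1, -⟩ := monT_injective κ hpp hapos hEq
    have h2 := hp.two_le
    nlinarith

theorem isSeparable_tq (hMκ : (M : κ) ≠ 0) :
    ∀ d : ℕ, d ∣ M → IsSeparable (F0 κ M) (tq κ (M * d)) := by
  have hM : M ≠ 0 := by rintro rfl; simp at hMκ
  intro d
  induction d using Nat.strong_induction_on with
  | _ d ih =>
    intro hd
    rcases Nat.lt_or_ge 1 d with h1 | h1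
    · obtain ⟨p, hp, ⟨d', rfl⟩⟩ := Nat.exists_prime_and_dvd (by omega : d ≠ 1)
      have hd'pos : 0 < d' := Nat.pos_of_ne_zero (by rintro rfl; simp at h1)
      have hd' : d' ∣ M := (Dvd.intro_left p rfl).trans hd
      have hpM : p ∣ M := (Dvd.intro d' rfl).trans hd
      have hpκ : (p : κ) ≠ 0 := natCast_ne_zero_of_dvd κ M hMκ hpM
      have hlt : d' < p * d' := by
        have := hp.two_le
        nlinarith
      have hMd'pos : 0 < M * d' := Nat.mul_pos (Nat.pos_of_ne_zero hM) hd'pos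
      have ihy := ih d' hlt hd'
      -- the intermediate field `F₀(t_{M d'})`
      set y : LaurentSeries κ := tq κ (M * d') with hy
      set x : LaurentSeries κ := tq κ (M * (p * d')) with hx
      haveI : Algebra.IsSeparable (F0 κ M) (F0 κ M)⟮y⟯ :=
        (isSeparable_adjoin_simple_iff_isSeparable (F0 κ M) (LaurentSeries κ)).mpr ihy
      let y' : (F0 κ M)⟮y⟯ := ⟨y, mem_adjoin_simple_self _ _⟩
      have hmap : (polyAt (Phi p) y').map (algebraMap (F0 κ M)⟮y⟯ (LaurentSeries κ)) =
          polyAt (Phi p) y := polyAt_map _ _ _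
      have hroot : Polynomial.aeval x (polyAt (Phi p) y') = 0 := by
        rw [Polynomial.aeval_def, Polynomial.eval₂_eq_eval_map, hmap]
        have := rel_tq κ hp hpκ hMd'pos
        rw [show p * (M * d') = M * (p * d') by ring] at this
        exact this
      have hsep : (polyAt (Phi p) y').Separable := by
        rw [← Polynomial.separable_map (algebraMap (F0 κ M)⟮y⟯ (LaurentSeries κ)), hmap]
        exact separable_polyAt_tq κ hp hpκ hMd'pos (hpM.mul_right d')
      have hx_sep : IsSeparable (F0 κ M)⟮y⟯ x :=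
        hsep.of_dvd (minpoly.dvd _ x hroot)
      exact IsSeparable.of_algebra_isSeparable_of_isSeparable (F0 κ M) hx_sep
    · have hd1 : d = 1 := le_antisymm h1 (Nat.pos_of_dvd_of_pos hd (Nat.pos_of_ne_zero hM))
      subst hd1
      rw [mul_one]
      have : tq κ M = algebraMap (F0 κ M) (LaurentSeries κ) ⟨tq κ M, tq_mem_F0 κ M⟩ := rfl
      rw [this]
      exact isSeparable_algebraMap _

theorem isSeparable_EE (hMκ : (M : κ) ≠ 0) : Algebra.IsSeparable (F0 κ M) (EE κ M) := by
  unfold EE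
  rw [IntermediateField.isSeparable_adjoin_iff_isSeparable]
  rintro x ⟨d, hd, rfl⟩
  exact isSeparable_tq κ M hMκ d (Nat.mem_divisors.mp hd).1

/-! ### Counting the embeddings into `κ((w))` -/

/-- the `F₀`-embeddings of `E` into `κ((w))`. -/
abbrev Emb : Type := EE κ M →ₐ[F0 κ M] LaurentSeries κ

/-- the inclusion `κ((w)) → OmBar` as an `F₀`-algebra map. -/
def iotaA : LaurentSeries κ →ₐ[F0 κ M] OmBar κ :=
  IsScalarTower.toAlgHom (F0 κ M) (LaurentSeries κ) (OmBar κ)

theorem iotaA_apply (x : LaurentSeries κ) : iotaA κ M x = iota κ x := rfl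

theorem iotaA_injective : Function.Injective (iotaA κ M) :=
  (algebraMap (LaurentSeries κ) (OmBar κ)).injective

/-- composition with the inclusion is a bijection on embeddings. -/
theorem comp_iotaA_bijective (hMκ : (M : κ) ≠ 0) :
    Function.Bijective (fun σ : Emb κ M => (iotaA κ M).comp σ) := by
  constructor
  · intro σ σ' h
    apply AlgHom.ext
    intro x
    apply iotaA_injective κ M
    exact DFunLike.congr_fun h x
  · intro τ
    have hmem : ∀ x, τ x ∈ (iotaA κ M).range := by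
      intro x
      obtain ⟨z, hz⟩ := apply_mem_range κ M hMκ τ x
      exact ⟨z, hz⟩
    let e := AlgEquiv.ofInjective (iotaA κ M) (iotaA_injective κ M)
    refine ⟨(e.symm : (iotaA κ M).range →ₐ[F0 κ M] LaurentSeries κ).comp
      (τ.codRestrict (iotaA κ M).range hmem), ?_⟩
    ext x
    show iotaA κ M (e.symm (τ.codRestrict (iotaA κ M).range hmem x)) = τ x
    have : iotaA κ M (e.symm (τ.codRestrict (iotaA κ M).range hmem x)) =
        (e (e.symm (τ.codRestrict (iotaA κ M).range hmem x)) : OmBar κ) := rfl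
    rw [this, AlgEquiv.apply_symm_apply]
    rfl

theorem card_emb (hMκ : (M : κ) ≠ 0) :
    Nat.card (Emb κ M) = Module.finrank (F0 κ M) (EE κ M) := by
  haveI := finiteDimensional_EE κ M hMκ
  haveI := isSeparable_EE κ M hMκ
  rw [Nat.card_congr (Equiv.ofBijective _ (comp_iotaA_bijective κ M hMκ)),
    Nat.card_eq_fintype_card]
  exact AlgHom.card (F0 κ M) (EE κ M) (OmBar κ)

theorem finite_emb (hMκ : (M : κ) ≠ 0) : Finite (Emb κ M) := by
  haveI := finiteDimensional_EE κ M hMκ
  infer_instance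

/-- the image of a generator under an embedding into `κ((w))` is a monomial series. -/
theorem emb_apply_tq (hMκ : (M : κ) ≠ 0) (σ : Emb κ M) {d : ℕ} (hd : d ∣ M) (x : EE κ M)
    (hx : (x : LaurentSeries κ) = tq κ (M * d)) :
    ∃ (c : κˣ) (a : ℕ), 0 < a ∧ (M / d) ∣ a ∧ c ^ d = 1 ∧ σ x = monT κ c a := by
  obtain ⟨c, a, ha, hdvd, hc, h⟩ := exists_mon κ M hMκ ((iotaA κ M).comp σ) d hd x hx
  exact ⟨c, a, ha, hdvd, hc, (algebraMap (LaurentSeries κ) (OmBar κ)).injective h⟩

/-! ### The twist action `w ↦ ζ w`, `ζ ^ M = 1` -/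

/-- the fixed field of a `κ`-linear ring endomorphism of `κ((w))`. -/
def fixedField (f : LaurentSeries κ →+* LaurentSeries κ)
    (hf : ∀ r : κ, f (algebraMap κ (LaurentSeries κ) r) = algebraMap κ (LaurentSeries κ) r) :
    IntermediateField κ (LaurentSeries κ) where
  carrier := {x | f x = x}
  mul_mem' := fun {a b} ha hb => by
    show f (a * b) = a * b
    rw [map_mul, ha, hb]
  one_mem' := map_one f
  add_mem' := fun {a b} ha hb => by
    show f (a + b) = a + b
    rw [map_add, ha, hb]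
  zero_mem' := map_zero f
  algebraMap_mem' := hf
  inv_mem' := fun a ha => by
    show f a⁻¹ = a⁻¹
    rw [map_inv₀, ha]

theorem twist_algebraMap (ζ : κˣ) (r : κ) :
    twist ζ (algebraMap κ (LaurentSeries κ) r) = algebraMap κ (LaurentSeries κ) r := by
  rw [algebraMap_laurentSeries_eq_single]
  exact twist_C ζ r

theorem twist_tq_self {ζ : κˣ} (hM : M ≠ 0) (hζ : ζ ^ M = 1) : twist ζ (tq κ M) = tq κ M := by
  haveI : NeZero M := ⟨hM⟩
  rw [tq_eq]
  exact twist_qExpand_of_pow_eq_one M ζ hζ _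

theorem twist_F0 {ζ : κˣ} (hM : M ≠ 0) (hζ : ζ ^ M = 1) (x : F0 κ M) :
    twist ζ (x : LaurentSeries κ) = x := by
  have hle : F0 κ M ≤ fixedField κ (twist ζ) (twist_algebraMap κ ζ) := by
    unfold F0
    rw [adjoin_simple_le_iff]
    exact twist_tq_self κ M hM hζ
  exact hle x.2

/-- the twist `w ↦ ζ w` as an `F₀`-algebra endomorphism of `κ((w))`. -/
def twistA {ζ : κˣ} (hM : M ≠ 0) (hζ : ζ ^ M = 1) :
    LaurentSeries κ →ₐ[F0 κ M] LaurentSeries κ :=
  { twist ζ with
    commutes' := fun x => twist_F0 κ M hM hζ x }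

@[simp]
theorem twistA_apply {ζ : κˣ} (hM : M ≠ 0) (hζ : ζ ^ M = 1) (x : LaurentSeries κ) :
    twistA κ M hM hζ x = twist ζ x := rfl

/-- the twist action on the embeddings. -/
def twistEmb {ζ : κˣ} (hM : M ≠ 0) (hζ : ζ ^ M = 1) : Equiv.Perm (Emb κ M) where
  toFun σ := (twistA κ M hM hζ).comp σ
  invFun σ := (twistA κ M hM (ζ := ζ⁻¹) (by rw [inv_pow, hζ, inv_one])).comp σ
  left_inv σ := by
    apply AlgHom.ext
    intro x
    show twist ζ⁻¹ (twist ζ (σ x)) = σ x
    exact twist_inv_twist ζ _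
  right_inv σ := by
    apply AlgHom.ext
    intro x
    show twist ζ (twist ζ⁻¹ (σ x)) = σ x
    exact twist_twist_inv ζ _

@[simp]
theorem twistEmb_apply {ζ : κˣ} (hM : M ≠ 0) (hζ : ζ ^ M = 1) (σ : Emb κ M) (x : EE κ M) :
    twistEmb κ M hM hζ σ x = twist ζ (σ x) := rfl

theorem twist_monT (ζ c : κˣ) {a : ℕ} (ha : 0 < a) :
    twist ζ (monT κ c a) = monT κ (ζ ^ a * c) a := by
  haveI : NeZero a := ⟨ha.ne'⟩
  rw [monT_eq, monT_eq, twist_subst]

end Fermat.Agent.S18.CuspEmb55
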