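/-
S18 project, spine leaf [CUSPinf] (helper56): `Spine33.CuspInftyStatement`.

The inclusion `F_N = modularFunctionFieldBar N ⊆ ℚ̄((q))` is a `ℚ̄`-embedding into a Laurent series
field; helper78's `EmbPlace78.embPlace` attaches a place `P` of `F_N` to it with
`order = g * P.ord`, `g > 0`.  Since `j ∈ F_N` has `q`-order `-1`, `g = 1`.

Exports:
* `jBar_mem N : coeffEmb ℚ̄ jq ∈ modularFunctionFieldBar N`, `order_jBar`;
* `cuspPlace N : Place ℚ̄ (F_N)` and `cuspPlace_ord : (cuspPlace N).ord f = order f`;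
* `cuspInfty : Spine33.CuspInftyStatement`.
-/
import Fermat.Agent.S18.Spine33
import Fermat.Agent.S18.EmbPlace78
import Fermat.Agent.S28.KeyLowerBasic

set_option autoImplicit false

open ModularCurve AlgebraicCurve HahnSeries

noncomputable section

namespace Fermat.Agent.S18.CuspInfty56

open Fermat.Agent.S18.Spine33

/-- `j` with coefficients in `ℚ̄` is the base change of `jq`. -/
theorem coeffEmb_jq (L : Type*) [Field L] [Algebra ℚ L] : coeffEmb L jq = jqModC L := by
  have h : coeffEmb L (jqModC ℚ) = jqModC L := coeffMap_jqModC (algebraMap ℚ L)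
  exact h

theorem jBar_mem (N : ℕ) [NeZero N] : jqModC Kb ∈ modularFunctionFieldBar N := by
  rw [← coeffEmb_jq Kb]
  refine coeffEmb_mem_laurentBaseChange Kb ?_
  have h := jqd_mem_full N (one_dvd N)
  rwa [qExpand_one_apply] at h

/-- `j` as an element of `F_N`. -/
def jBar (N : ℕ) [NeZero N] : FK N := ⟨jqModC Kb, jBar_mem N⟩

/-- The inclusion `F_N → ℚ̄((q))` as an algebra hom. -/
abbrev inclHom (N : ℕ) : FK N →ₐ[Kb] LaurentSeries Kb := (modularFunctionFieldBar N).val

theorem exists_neg_order (N : ℕ) [NeZero N] : ∃ x : FK N, (inclHom N x).order < 0 :=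
  ⟨jBar N, by
    show (jqModC Kb).order < 0
    rw [Fermat.Agent.S28.KeyLowerBasic.order_jqModC]; norm_num⟩

/-- **The cusp `∞`** of `X₀(N)`: the place `q = 0` of `F_N`. -/
def cuspPlace (N : ℕ) [NeZero N] : Place Kb (FK N) :=
  EmbPlace78.embPlace (inclHom N) (exists_neg_order N)

/-- The normalised order at the cusp `∞` is the `q`-order. -/
theorem cuspPlace_ord (N : ℕ) [NeZero N] (f : FK N) :
    (cuspPlace N).ord f = (f : LaurentSeries Kb).order := by
  obtain ⟨g, hg0, hg⟩ := EmbPlace78.exists_order_eq_mul_ord (inclHom N) (exists_neg_order N)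
  have hj := hg (jBar N)
  have hj' : (inclHom N (jBar N)).order = -1 :=
    Fermat.Agent.S28.KeyLowerBasic.order_jqModC Kb
  rw [hj'] at hj
  -- `g ∣ 1`, `g > 0`, hence `g = 1`
  have hdvd : g ∣ 1 := ⟨-(EmbPlace78.embPlace (inclHom N) (exists_neg_order N)).ord (jBar N), by
    rw [mul_neg, ← hj]; norm_num⟩
  have hg1 : g = 1 := by
    have := Int.eq_one_of_dvd_one hg0.le hdvd
    exact this
  have := hg f
  rw [hg1, one_mul] at this
  exact this.symm

theorem mem_cuspPlace_iff (N : ℕ) [NeZero N] (f : FK N) :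
    f ∈ (cuspPlace N).toValuationSubring ↔ 0 ≤ (f : LaurentSeries Kb).order :=
  EmbPlace78.mem_embPlace_iff (inclHom N) (exists_neg_order N) f

/-- **[CUSPinf]**. -/
theorem cuspInfty : CuspInftyStatement := fun N _ f _ => ⟨cuspPlace N, cuspPlace_ord N f⟩

end Fermat.Agent.S18.CuspInfty56
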