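/-
S18 moonshot (blueprint 14), package [CUSP]-LAND (helper85).

`F_M(K) = modularFunctionFieldFullC K M = K(t_e : e ∣ M) ⊆ K((q))`, `t_e = t(q^e)`, `t = jqModC K`.
We work with a second copy of `LaurentSeries K` whose variable is thought of as `w = q^(1/M)`.

**LAND.**  Let `K` be a field in which every unit has `p`-th roots and which contains a primitive
`p`-th root of unity, for every prime `p ∣ M` (e.g. `K` algebraically closed, `(M : K) ≠ 0`).
Let `Ω` be any field, `ι : K((w)) →+* Ω` and `σ : F_M(K) →+* Ω` ring homomorphisms with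
`σ(t_1) = ι(t(w^M))`.  Then for every `e ∣ M` there are `c : Kˣ` and `A ∣ e` with
`σ(t_e) = ι(t(c · w^(A²·M/e)))`.
In particular every embedding of `F_M(K)` over `K(t)` into an extension of `K((w))` lands in
`K((w))`, and is determined by finitely many monomials `c_e w^(a_e)`.

Proof: induction `e → e p`, using the prime-level ROOTS identity of S28 (`ModEqData.roots`,
transported to monomials by `S28.Subst`).  No composite-level modular polynomial is used.
-/
import Mathlib
import Fermat.Prelude.Def_ModularCurve_X0ModL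
import Fermat.Agent.S28.SubstInterface
import Fermat.Agent.S28.ModEq

set_option autoImplicit false

noncomputable section

open HahnSeries ModularCurve Polynomial

namespace Fermat.Agent.S18.CuspLand85

open Fermat.Agent.S28 Fermat.Agent.S28.Subst

/-! ### Generalities -/

section General

variable {A A' : Type*} [CommRing A] [CommRing A']

/-- Ring homomorphisms commute with `Φ(x, y)`. -/
theorem map_eval_evalInner (f : A →+* A') (Φ : Polynomial (Polynomial ℤ)) (y x : A) :
    f ((evalInner Φ y).eval x) = (evalInner Φ (f y)).eval (f x) := by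
  rw [← evalInner_map, Polynomial.eval_map, Polynomial.eval₂_hom]

end General

/-! ### Total versions of `t(q^e)` and `t(c q^a)` -/

section Total

variable (K : Type) [Field K]

/-- `t(q^e)`, junk value `0` for `e = 0`. -/
def tq (e : ℕ) : LaurentSeries K :=
  if h : e = 0 then 0 else @qExpand K _ e ⟨h⟩ (jqModC K)

/-- `t(c q^a)`, junk value `0` for `a = 0`. -/
def mono (c : Kˣ) (a : ℕ) : LaurentSeries K :=
  if h : a = 0 then 0 else @subst K _ c a ⟨h⟩ (jqModC K)

theorem tq_eq (e : ℕ) [NeZero e] : tq K e = qExpand K e (jqModC K) := by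
  unfold tq
  rw [dif_neg (NeZero.ne e)]

variable {K}

theorem mono_eq (c : Kˣ) (a : ℕ) [NeZero a] : mono K c a = subst c a (jqModC K) := by
  unfold mono
  rw [dif_neg (NeZero.ne a)]

variable (K)

theorem tq_one : tq K 1 = jqModC K := by
  rw [tq_eq, qExpand_one_apply]

theorem mono_one_left (a : ℕ) [NeZero a] : mono K (1 : Kˣ) a = tq K a := by
  rw [mono_eq, tq_eq, subst_one_left]

theorem tq_mem_full {M e : ℕ} [NeZero M] (he : e ∣ M) : tq K e ∈ modularFunctionFieldFullC K M := by
  have he0 : e ≠ 0 := fun h => NeZero.ne M (by rw [h] at he; exact zero_dvd_iff.mp he)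
  have : NeZero e := ⟨he0⟩
  rw [tq_eq]
  exact jqModCd_mem_full K M he

end Total

/-! ### The prime-level relation -/

section Relation

variable {K : Type} [Field K]

/-- `Φ_p(t(q^p), t(q)) = 0` (outer variable `t(q^p)`). -/
theorem evalInner_jq_eval {p : ℕ} [NeZero p] (D : ModEqData p) (ζ : Kˣ)
    (hζ : (cyclotomic p K).IsRoot (ζ : K)) :
    (evalInner D.Phi (jqModC K)).eval (qExpand K p (jqModC K)) = 0 := by
  apply qExpand_injective (R := K) p
  rw [map_zero, map_eval_evalInner, qExpand_qExpand, evalInner_eq_map_evalY, D.roots K ζ hζ,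
    Polynomial.eval_mul, Polynomial.eval_sub, Polynomial.eval_X, Polynomial.eval_C, sub_self,
    zero_mul]

/-- `Φ_p(t(q^(e p)), t(q^e)) = 0`. -/
theorem evalInner_tq_eval {p : ℕ} [NeZero p] (D : ModEqData p) (ζ : Kˣ)
    (hζ : (cyclotomic p K).IsRoot (ζ : K)) (e : ℕ) [NeZero e] :
    (evalInner D.Phi (tq K e)).eval (tq K (e * p)) = 0 := by
  have h := congrArg (qExpand K e) (evalInner_jq_eval D ζ hζ)
  rw [map_zero, map_eval_evalInner, qExpand_qExpand] at h
  rw [tq_eq, tq_eq]
  exact h

end Relation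

/-! ### LAND -/

/-- The hypotheses on `K`: `p`-th roots of units and primitive `p`-th roots of unity,
for the primes `p ∣ M`. -/
structure EnoughRoots (K : Type) [Field K] (M : ℕ) : Prop where
  root : ∀ p : ℕ, p.Prime → p ∣ M → ∀ c : Kˣ, ∃ c0 : Kˣ, c0 ^ p = c
  zeta : ∀ p : ℕ, p.Prime → p ∣ M → ∃ ζ : Kˣ, (cyclotomic p K).IsRoot (ζ : K)

section Land

variable {K : Type} [Field K] {M : ℕ} [NeZero M] {Ω : Type*} [Field Ω]

/-- The shape of `σ(t_e)`: `ι(t(c w^(A² m)))` with `e m = M`, `A ∣ e`. -/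
def Shape (ι : LaurentSeries K →+* Ω) (σ : ↥(modularFunctionFieldFullC K M) →+* Ω) (e : ℕ) : Prop :=
  ∃ (m A : ℕ) (c : Kˣ), e * m = M ∧ A ∣ e ∧
    ∀ x : ↥(modularFunctionFieldFullC K M), (x : LaurentSeries K) = tq K e →
      σ x = ι (mono K c (A * A * m))

theorem shape_step (hmod : ModEqStatement) (hK : EnoughRoots K M)
    (ι : LaurentSeries K →+* Ω) (σ : ↥(modularFunctionFieldFullC K M) →+* Ω)
    {e0 p : ℕ} (hp : p.Prime) (hdvd : e0 * p ∣ M) (h0 : Shape ι σ e0) :
    Shape ι σ (e0 * p) := by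
  classical
  obtain ⟨m0, A0, c, hem, hA, hσ⟩ := h0
  have hM0 : M ≠ 0 := NeZero.ne M
  have he0 : e0 ≠ 0 := by
    rintro rfl
    rw [zero_mul] at hem
    exact hM0 hem.symm
  have hm0 : m0 ≠ 0 := by
    rintro rfl
    rw [mul_zero] at hem
    exact hM0 hem.symm
  have hA0 : A0 ≠ 0 := by
    rintro rfl
    exact he0 (zero_dvd_iff.mp hA)
  have hpM : p ∣ M := (Dvd.intro_left e0 rfl).trans hdvd
  -- `p ∣ m0`
  obtain ⟨m', rfl⟩ : p ∣ m0 := by
    rw [← hem] at hdvd
    exact (Nat.mul_dvd_mul_iff_left (Nat.pos_of_ne_zero he0)).mp hdvd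
  have hm' : m' ≠ 0 := by
    rintro rfl
    exact hm0 (mul_zero p)
  have : NeZero p := ⟨hp.ne_zero⟩
  have : NeZero e0 := ⟨he0⟩
  have : NeZero (e0 * p) := ⟨Nat.mul_ne_zero he0 hp.ne_zero⟩
  set a0 : ℕ := A0 * A0 * m' with ha0
  have ha0ne : a0 ≠ 0 := Nat.mul_ne_zero (Nat.mul_ne_zero hA0 hA0) hm'
  have : NeZero a0 := ⟨ha0ne⟩
  have : NeZero (a0 * p) := ⟨Nat.mul_ne_zero ha0ne hp.ne_zero⟩
  have : NeZero (a0 * (p * p)) :=
    ⟨Nat.mul_ne_zero ha0ne (Nat.mul_ne_zero hp.ne_zero hp.ne_zero)⟩
  obtain ⟨D⟩ := hmod p hp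
  obtain ⟨ζ, hζ⟩ := hK.zeta p hp hpM
  obtain ⟨c0, rfl⟩ := hK.root p hp hpM c
  -- the two elements of `F_M(K)`
  set x0 : ↥(modularFunctionFieldFullC K M) :=
    ⟨tq K e0, tq_mem_full K ((Dvd.intro _ rfl).trans hdvd)⟩ with hx0
  set x1 : ↥(modularFunctionFieldFullC K M) := ⟨tq K (e0 * p), tq_mem_full K hdvd⟩ with hx1
  -- the relation inside `F_M(K)`
  have hrelF : (evalInner D.Phi x0).eval x1 = 0 := by
    have hinj : Function.Injective
        (algebraMap ↥(modularFunctionFieldFullC K M) (LaurentSeries K)) :=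
      (algebraMap ↥(modularFunctionFieldFullC K M) (LaurentSeries K)).injective
    apply hinj
    rw [map_zero, map_eval_evalInner]
    exact evalInner_tq_eval D ζ hζ e0
  -- transported to `Ω`
  have hrelΩ : (evalInner D.Phi (σ x0)).eval (σ x1) = 0 := by
    rw [← map_eval_evalInner, hrelF, map_zero]
  have hσx0 : σ x0 = ι (subst (c0 ^ p) (a0 * p) (jqModC K)) := by
    rw [hσ x0 rfl]
    have : A0 * A0 * (p * m') = a0 * p := by rw [ha0]; ring
    rw [this, mono_eq]
  rw [hσx0, ← evalInner_map, evalInner_eq_map_evalY,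
    modEqData_roots_monomial D K ζ hζ c0 a0, Polynomial.map_mul, Polynomial.map_sub,
    Polynomial.map_X, Polynomial.map_C, Polynomial.map_prod, Polynomial.eval_mul,
    Polynomial.eval_sub, Polynomial.eval_X, Polynomial.eval_C, Polynomial.eval_prod,
    mul_eq_zero, sub_eq_zero, Finset.prod_eq_zero_iff] at hrelΩ
  have key : ∀ (A : ℕ) (c' : Kˣ), A ∣ e0 * p → σ x1 = ι (mono K c' (A * A * m')) →
      Shape ι σ (e0 * p) := by
    intro A c' hAd hx
    refine ⟨m', A, c', ?_, hAd, ?_⟩
    · rw [← hem]; ring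
    · intro x hxe
      have : x = x1 := Subtype.ext hxe
      rw [this, hx]
  rcases hrelΩ with h | ⟨b, -, hb⟩
  · -- the root `t(x^(p²))`
    refine key (A0 * p) (c0 ^ (p * p)) (Nat.mul_dvd_mul_right hA p) ?_
    rw [h]
    have : A0 * p * (A0 * p) * m' = a0 * (p * p) := by rw [ha0]; ring
    rw [this, mono_eq]
  · -- a root `t(ζ^b x)`
    rw [Polynomial.map_sub, Polynomial.map_X, Polynomial.map_C, Polynomial.eval_sub,
      Polynomial.eval_X, Polynomial.eval_C, sub_eq_zero] at hb
    refine key A0 (c0 * ζ ^ b) (hA.trans (Dvd.intro _ rfl)) ?_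
    rw [hb, ← ha0, mono_eq]

/-- **LAND**: the shape of `σ(t_e)` for every `e ∣ M`. -/
theorem shape_of_dvd (hmod : ModEqStatement) (hK : EnoughRoots K M)
    (ι : LaurentSeries K →+* Ω) (σ : ↥(modularFunctionFieldFullC K M) →+* Ω)
    (h1 : ∀ x : ↥(modularFunctionFieldFullC K M), (x : LaurentSeries K) = jqModC K →
      σ x = ι (qExpand K M (jqModC K))) :
    ∀ e : ℕ, e ∣ M → Shape ι σ e := by
  intro e
  induction e using Nat.strong_induction_on with
  | _ e ih =>
    intro he
    by_cases h1e : e = 1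
    · subst h1e
      refine ⟨M, 1, 1, one_mul M, dvd_rfl, ?_⟩
      intro x hx
      rw [tq_one] at hx
      rw [h1 x hx, one_mul, one_mul, mono_one_left, tq_eq]
    · have he0 : e ≠ 0 := fun h => NeZero.ne M (by rw [h] at he; exact zero_dvd_iff.mp he)
      have hp : (e.minFac).Prime := Nat.minFac_prime h1e
      obtain ⟨e0, he0'⟩ := Nat.minFac_dvd e
      have hee : e = e0 * e.minFac := by rw [mul_comm]; exact he0'
      have he0pos : 0 < e0 := by
        rcases Nat.eq_zero_or_pos e0 with h | h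
        · rw [h, zero_mul] at hee; exact absurd hee he0
        · exact h
      have hlt : e0 < e := by
        conv_rhs => rw [hee]
        exact lt_mul_of_one_lt_right he0pos hp.one_lt
      have he0M : e0 ∣ M := (Dvd.intro _ hee.symm).trans he
      have := shape_step hmod hK ι σ hp (by rw [← hee]; exact he) (ih e0 hlt he0M)
      rwa [← hee] at this

end Land

/-! ### Algebraically closed fields have enough roots -/

section AlgClosed

variable (K : Type) [Field K] [IsAlgClosed K]

theorem enoughRoots_of_isAlgClosed (M : ℕ) : EnoughRoots K M where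
  root := by
    intro p hp _ c
    obtain ⟨z, hz⟩ := IsAlgClosed.exists_pow_nat_eq (c : K) hp.pos
    have hz0 : z ≠ 0 := by
      rintro rfl
      rw [zero_pow hp.ne_zero] at hz
      exact c.ne_zero hz.symm
    refine ⟨Units.mk0 z hz0, ?_⟩
    apply Units.ext
    rw [Units.val_pow_eq_pow_val, Units.val_mk0, hz]
  zeta := by
    intro p hp _
    have hdeg : (cyclotomic p K).degree ≠ 0 := by
      rw [degree_cyclotomic]
      exact_mod_cast (Nat.totient_pos.mpr hp.pos).ne'
    obtain ⟨z, hz⟩ := IsAlgClosed.exists_root (cyclotomic p K) hdeg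
    have hz0 : z ≠ 0 := by
      rintro rfl
      have h1 : (cyclotomic p K).coeff 0 = 1 := cyclotomic_coeff_zero K hp.one_lt
      rw [IsRoot.def, ← coeff_zero_eq_eval_zero] at hz
      rw [hz] at h1
      exact zero_ne_one h1
    exact ⟨Units.mk0 z hz0, hz⟩

end AlgClosed

end Fermat.Agent.S18.CuspLand85
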