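/-
S18 project (blueprints 14/15), package [CUSP]-RED (helper86), part 1: the big Gauss ring of
`K((q))` and the reduction of embeddings.

`K` a field, `A : ValuationSubring K`, `k = A / 𝔪_A`.
* `incl : A((q)) →+* K((q))`, `red : A((q)) →+* k((q))` (coefficientwise).
* `bigO A : Subring K((q))` = `{x | ∃ a b ∈ A((q)), red b ≠ 0 ∧ x * incl b = incl a}`,
  `rho A : bigO A →+* k((q))`, `rho_eq : ρ x = red a / red b`.
* For an intermediate field `F` of `K((q))/K`: `OF A F : Subring F` (elements of `F` in `bigO`),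
  `rhoF A F : OF A F →+* k((q))`.
* `inducedHom` : if `ρ_F` maps `OF` onto `F̄`, `ker ρ_F = 𝔪_A · OF`, and a `K`-embedding
  `σ : F → K((q))` maps `OF` into `bigO`, then `σ` induces a `k`-embedding `σ̄ : F̄ → k((q))` with
  `σ̄ (ρ_F x) = ρ (σ x)`.
-/
import Mathlib
import Fermat.Prelude.Def_ModularCurve_X0ModL
import Fermat.Agent.S28.Twist

set_option autoImplicit false

noncomputable section

namespace Fermat.Agent.S18.CuspRed86

open HahnSeries ModularCurve

section BigO

variable {K : Type*} [Field K] (A : ValuationSubring K)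

/-- the residue field of `A` -/
abbrev resField : Type _ := IsLocalRing.ResidueField A

/-- coefficientwise inclusion `A((q)) → K((q))` -/
def incl : LaurentSeries A →+* LaurentSeries K := coeffMap A.subtype

/-- coefficientwise reduction `A((q)) → k((q))` -/
def red : LaurentSeries A →+* LaurentSeries (resField A) := coeffMap (IsLocalRing.residue A)

@[simp] theorem incl_coeff (a : LaurentSeries A) (n : ℤ) : (incl A a).coeff n = (a.coeff n : K) := rfl

@[simp] theorem red_coeff (a : LaurentSeries A) (n : ℤ) :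
    (red A a).coeff n = IsLocalRing.residue A (a.coeff n) := rfl

theorem incl_injective : Function.Injective (incl A) := by
  intro a b h
  ext n
  have := congrArg (fun x => x.coeff n) h
  simpa using this

theorem incl_C (c : A) : incl A (HahnSeries.C c) = HahnSeries.C (c : K) := by
  rw [incl, HahnSeries.C_apply, coeffMap_single]; rfl

theorem red_C (c : A) : red A (HahnSeries.C c) = HahnSeries.C (IsLocalRing.residue A c) := by
  rw [red, HahnSeries.C_apply, coeffMap_single]; rfl

/-- The big Gauss ring of `K((q))`: quotients `a / b` with `a, b ∈ A((q))`, `red b ≠ 0`. -/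
def bigO : Subring (LaurentSeries K) where
  carrier := {x | ∃ a b : LaurentSeries A, red A b ≠ 0 ∧ x * incl A b = incl A a}
  mul_mem' := by
    rintro x y ⟨a, b, hb, h⟩ ⟨a', b', hb', h'⟩
    refine ⟨a * a', b * b', ?_, ?_⟩
    · rw [map_mul]; exact mul_ne_zero hb hb'
    · rw [map_mul, map_mul, ← h, ← h']; ring
  one_mem' := ⟨1, 1, by rw [map_one]; exact one_ne_zero, by simp⟩
  add_mem' := by
    rintro x y ⟨a, b, hb, h⟩ ⟨a', b', hb', h'⟩
    refine ⟨a * b' + a' * b, b * b', ?_, ?_⟩
    · rw [map_mul]; exact mul_ne_zero hb hb'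
    · rw [map_mul, map_add, map_mul, map_mul, ← h, ← h']; ring
  zero_mem' := ⟨0, 1, by rw [map_one]; exact one_ne_zero, by simp⟩
  neg_mem' := by
    rintro x ⟨a, b, hb, h⟩
    exact ⟨-a, b, hb, by rw [map_neg, ← h]; ring⟩

theorem mem_bigO_iff (x : LaurentSeries K) :
    x ∈ bigO A ↔ ∃ a b : LaurentSeries A, red A b ≠ 0 ∧ x * incl A b = incl A a := Iff.rfl

theorem incl_mem_bigO (a : LaurentSeries A) : incl A a ∈ bigO A :=
  ⟨a, 1, by rw [map_one]; exact one_ne_zero, by simp⟩

/-- independence of the representation -/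
theorem red_div_eq {x : LaurentSeries K} {a b a' b' : LaurentSeries A}
    (hb : red A b ≠ 0) (h : x * incl A b = incl A a)
    (hb' : red A b' ≠ 0) (h' : x * incl A b' = incl A a') :
    red A a / red A b = red A a' / red A b' := by
  rw [div_eq_div_iff hb hb']
  have : incl A (a * b') = incl A (a' * b) := by
    rw [map_mul, map_mul, ← h, ← h']; ring
  have h2 := incl_injective A this
  rw [← map_mul, ← map_mul, h2]

/-- the reduction map on the big Gauss ring, as a function -/
def rhoFun (x : bigO A) : LaurentSeries (resField A) :=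
  red A x.2.choose / red A x.2.choose_spec.choose

theorem rhoFun_eq (x : bigO A) {a b : LaurentSeries A} (hb : red A b ≠ 0)
    (h : (x : LaurentSeries K) * incl A b = incl A a) : rhoFun A x = red A a / red A b :=
  red_div_eq A x.2.choose_spec.choose_spec.1 x.2.choose_spec.choose_spec.2 hb h

theorem rhoFun_one : rhoFun A 1 = 1 := by
  rw [rhoFun_eq A 1 (a := 1) (b := 1) (by rw [map_one]; exact one_ne_zero)
    (by rw [map_one, mul_one]; rfl), map_one, div_one]

theorem rhoFun_zero : rhoFun A 0 = 0 := by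
  rw [rhoFun_eq A 0 (a := 0) (b := 1) (by rw [map_one]; exact one_ne_zero)
    (by rw [map_one, map_zero, mul_one]; rfl), map_zero, zero_div]

theorem rhoFun_mul (x y : bigO A) : rhoFun A (x * y) = rhoFun A x * rhoFun A y := by
  obtain ⟨a, b, hb, h⟩ := x.2
  obtain ⟨a', b', hb', h'⟩ := y.2
  have hbb : red A (b * b') ≠ 0 := by rw [map_mul]; exact mul_ne_zero hb hb'
  have hxy : ((x * y : bigO A) : LaurentSeries K) * incl A (b * b') = incl A (a * a') := by
    rw [Subring.coe_mul, map_mul, map_mul, ← h, ← h']; ring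
  rw [rhoFun_eq A x hb h, rhoFun_eq A y hb' h', rhoFun_eq A (x * y) hbb hxy, map_mul, map_mul,
    div_mul_div_comm]

theorem rhoFun_add (x y : bigO A) : rhoFun A (x + y) = rhoFun A x + rhoFun A y := by
  obtain ⟨a, b, hb, h⟩ := x.2
  obtain ⟨a', b', hb', h'⟩ := y.2
  have hbb : red A (b * b') ≠ 0 := by rw [map_mul]; exact mul_ne_zero hb hb'
  have hxy : ((x + y : bigO A) : LaurentSeries K) * incl A (b * b') =
      incl A (a * b' + b * a') := by
    rw [Subring.coe_add, map_mul, map_add, map_mul, map_mul, ← h, ← h']; ring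
  rw [rhoFun_eq A x hb h, rhoFun_eq A y hb' h', rhoFun_eq A (x + y) hbb hxy, map_mul, map_add,
    map_mul, map_mul, div_add_div _ _ hb hb']

/-- The reduction map `ρ : 𝒪 →+* k((q))`. -/
def rho : bigO A →+* LaurentSeries (resField A) where
  toFun := rhoFun A
  map_one' := rhoFun_one A
  map_mul' := rhoFun_mul A
  map_zero' := rhoFun_zero A
  map_add' := rhoFun_add A

theorem rho_eq (x : bigO A) {a b : LaurentSeries A} (hb : red A b ≠ 0)
    (h : (x : LaurentSeries K) * incl A b = incl A a) : rho A x = red A a / red A b :=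
  rhoFun_eq A x hb h

theorem rho_incl (a : LaurentSeries A) : rho A ⟨incl A a, incl_mem_bigO A a⟩ = red A a := by
  rw [rho_eq A ⟨incl A a, incl_mem_bigO A a⟩ (a := a) (b := 1) (by rw [map_one]; exact one_ne_zero)
    (by rw [map_one, mul_one]), map_one, div_one]

theorem algebraMap_eq_C {L : Type*} [Field L] (c : L) :
    algebraMap L (LaurentSeries L) c = HahnSeries.C c := by
  rw [algebraMap_laurentSeries_eq_single, HahnSeries.C_apply]

theorem C_mem_bigO (c : A) : (HahnSeries.C (c : K) : LaurentSeries K) ∈ bigO A := by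
  rw [← incl_C]; exact incl_mem_bigO A _

theorem rho_C (c : A) :
    rho A ⟨HahnSeries.C (c : K), C_mem_bigO A c⟩ = HahnSeries.C (IsLocalRing.residue A c) := by
  have h : (⟨HahnSeries.C (c : K), C_mem_bigO A c⟩ : bigO A) =
      ⟨incl A (HahnSeries.C c), incl_mem_bigO A _⟩ := Subtype.ext (incl_C A c).symm
  rw [h, rho_incl, red_C]

end BigO

section Induced

variable {K : Type*} [Field K] (A : ValuationSubring K)
variable (F : IntermediateField K (LaurentSeries K))

/-- the elements of `F` lying in the big Gauss ring -/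
def OF : Subring F := (bigO A).comap (F.val : F →+* LaurentSeries K)

theorem mem_OF_iff (x : F) : x ∈ OF A F ↔ (x : LaurentSeries K) ∈ bigO A := Iff.rfl

/-- `OF → bigO` -/
def toBigO : OF A F →+* bigO A :=
  ((F.val : F →+* LaurentSeries K).comp (OF A F).subtype).codRestrict (bigO A) (fun x => x.2)

@[simp] theorem coe_toBigO (x : OF A F) : (toBigO A F x : LaurentSeries K) = ((x : F) : LaurentSeries K) :=
  rfl

/-- the reduction map on `F ∩ 𝒪` -/
def rhoF : OF A F →+* LaurentSeries (resField A) := (rho A).comp (toBigO A F)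

theorem rhoF_apply (x : OF A F) : rhoF A F x = rho A (toBigO A F x) := rfl

theorem algebraMap_mem_OF (c : A) : algebraMap K F (c : K) ∈ OF A F := by
  rw [mem_OF_iff]
  have : ((algebraMap K F (c : K) : F) : LaurentSeries K) = HahnSeries.C (c : K) := by
    rw [← algebraMap_eq_C]; rfl
  rw [this]
  exact C_mem_bigO A c

theorem coe_algebraMap_eq_C (c : K) :
    ((algebraMap K F c : F) : LaurentSeries K) = HahnSeries.C c := by
  rw [← algebraMap_eq_C]; rfl

theorem rhoF_algebraMap (c : A) :
    rhoF A F ⟨algebraMap K F (c : K), algebraMap_mem_OF A F c⟩ =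
      HahnSeries.C (IsLocalRing.residue A c) := by
  rw [rhoF_apply]
  have h : toBigO A F ⟨algebraMap K F (c : K), algebraMap_mem_OF A F c⟩ =
      ⟨HahnSeries.C (c : K), C_mem_bigO A c⟩ := Subtype.ext (coe_algebraMap_eq_C F (c : K))
  rw [h]
  exact rho_C A c

variable {A F}

/-- **Reduction of an embedding.**  If `ρ_F` maps `F ∩ 𝒪` onto `F̄`, its kernel is `𝔪_A (F ∩ 𝒪)`,
and the `K`-embedding `σ : F → K((q))` maps `F ∩ 𝒪` into `𝒪`, then `σ` induces a `k`-embedding
`σ̄ : F̄ → k((q))` with `σ̄ (ρ_F x) = ρ (σ x)`. -/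
theorem exists_inducedHom
    (Fb : IntermediateField (resField A) (LaurentSeries (resField A)))
    (hrange : ∀ x : OF A F, rhoF A F x ∈ Fb)
    (hsurj : ∀ z ∈ Fb, ∃ x : OF A F, rhoF A F x = z)
    (hker : ∀ x : OF A F, rhoF A F x = 0 →
      ∃ (π : A) (w : OF A F), π ∈ IsLocalRing.maximalIdeal A ∧
        (x : F) = algebraMap K F (π : K) * (w : F))
    (σ : F →ₐ[K] LaurentSeries K) (hσ : ∀ x : OF A F, σ (x : F) ∈ bigO A) :
    ∃ σb : Fb →ₐ[resField A] LaurentSeries (resField A),
      ∀ x : OF A F, σb ⟨rhoF A F x, hrange x⟩ = rho A ⟨σ (x : F), hσ x⟩ := by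
  -- the two ring homs out of `OF`
  let φ : OF A F →+* LaurentSeries (resField A) :=
    (rho A).comp (((σ : F →+* LaurentSeries K).comp (OF A F).subtype).codRestrict (bigO A) hσ)
  let ψ : OF A F →+* Fb := (rhoF A F).codRestrict Fb.toSubring (fun x => hrange x)
  have hψ : Function.Surjective ψ := by
    rintro ⟨z, hz⟩
    obtain ⟨x, hx⟩ := hsurj z hz
    exact ⟨x, Subtype.ext hx⟩
  have hφ : ∀ x : OF A F, φ x = rho A ⟨σ (x : F), hσ x⟩ := fun x => rfl
  have hkerle : RingHom.ker ψ ≤ RingHom.ker φ := by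
    intro x hx
    rw [RingHom.mem_ker] at hx ⊢
    have hx0 : rhoF A F x = 0 := congrArg Subtype.val hx
    obtain ⟨π, w, hπ, hxw⟩ := hker x hx0
    rw [hφ]
    have h1 : σ (x : F) = HahnSeries.C (π : K) * σ (w : F) := by
      rw [hxw, map_mul, AlgHom.commutes, algebraMap_eq_C]
    have h2 : (⟨σ (x : F), hσ x⟩ : bigO A) =
        ⟨HahnSeries.C (π : K), C_mem_bigO A π⟩ * ⟨σ (w : F), hσ w⟩ := Subtype.ext h1
    rw [h2, map_mul, rho_C]
    have : IsLocalRing.residue A π = 0 := by
      rw [IsLocalRing.residue_eq_zero_iff]; exact hπ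
    rw [this, map_zero, zero_mul]
  let σb0 : Fb →+* LaurentSeries (resField A) := RingHom.liftOfSurjective ψ hψ ⟨φ, hkerle⟩
  have hσb0 : ∀ x : OF A F, σb0 (ψ x) = φ x := fun x =>
    RingHom.liftOfRightInverse_comp_apply ψ _ _ ⟨φ, hkerle⟩ x
  refine ⟨{ σb0 with commutes' := ?_ }, fun x => ?_⟩
  · intro c
    obtain ⟨c, rfl⟩ := IsLocalRing.residue_surjective c
    have h1 : algebraMap (resField A) Fb (IsLocalRing.residue A c) =
        ψ ⟨algebraMap K F (c : K), algebraMap_mem_OF A F c⟩ := by
      apply Subtype.ext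
      show _ = rhoF A F ⟨algebraMap K F (c : K), algebraMap_mem_OF A F c⟩
      rw [rhoF_algebraMap, ← algebraMap_eq_C]; rfl
    show σb0 _ = _
    rw [h1, hσb0, hφ]
    have h2 : (⟨σ (algebraMap K F (c : K)), hσ ⟨_, algebraMap_mem_OF A F c⟩⟩ : bigO A) =
        ⟨HahnSeries.C (c : K), C_mem_bigO A c⟩ := by
      apply Subtype.ext
      show σ (algebraMap K F (c : K)) = _
      rw [AlgHom.commutes, algebraMap_eq_C]
    rw [h2, rho_C, algebraMap_eq_C]
  · show σb0 _ = _
    have : (⟨rhoF A F x, hrange x⟩ : Fb) = ψ x := rfl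
    rw [this, hσb0, hφ]

end Induced

end Fermat.Agent.S18.CuspRed86
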