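/-
S18 moonshot (blueprint 14), package [KLEMMA]-ADAPTER, part 1 (helper73): abstract reduction theory.

`GaussData w` bundles what [GAUSS]/[BRIDGE] must provide about the valued field `(F, w)` over
`(L, v)`: a reduction ring hom `red : O_w → Fb` with kernel `{w < 1}`, a surjective residue map
`res : O_v → k` compatible with `red`, and the LATTICE lemma (orthonormal generating families of
finite-dimensional `L`-subspaces of `F`).

Exports (all Mathlib only):
* `redF`, `resL` : total versions of `red`, `res` with the expected algebra;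
* `ortho_of_linearIndependent_red` : a family of integral elements with `k`-independent reductions
  is orthonormal (`w (c j) ≤ w (∑ c i • u i)`);
* `finrank_le_of_red_mem` : the LATTICE INEQUALITY `dim_L V ≤ dim_k Vbar` if integral elements of `V`
  reduce into `Vbar`  (gives `gbar_R ≤ g_R`);
* `exists_lift_of_finrank_eq` : if moreover the dimensions agree, every element of `Vbar` is the
  reduction of an integral element of `V`;
* `exists_integral_combination` : if `u_j ∈ V` integral, reductions a `k`-basis of `Vbar`,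
  `dim V = dim Vbar`, then every integral `y ∈ V` is an INTEGRAL combination of the `u_j`
  (Nakayama without modules).
-/
import Mathlib

set_option autoImplicit false

namespace Fermat.Agent.S18.KGauss73

variable {L F k Fb Γ₀ : Type*} [Field L] [Field F] [Algebra L F] [Field k] [Field Fb]
  [Algebra k Fb] [LinearOrderedCommGroupWithZero Γ₀]

/-- Abstract reduction data for a valued function field `(F, w)` over `(L, w|_L)`. -/
structure GaussData (w : Valuation F Γ₀) (k Fb : Type*) [Field k] [Field Fb] [Algebra k Fb] where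
  red : w.integer →+* Fb
  red_eq_zero : ∀ x : w.integer, red x = 0 ↔ w (x : F) < 1
  res : (w.comap (algebraMap L F)).integer →+* k
  res_surj : Function.Surjective res
  red_algebraMap : ∀ c : (w.comap (algebraMap L F)).integer,
    red ⟨algebraMap L F (c : L), c.2⟩ = algebraMap k Fb (res c)
  lattice : ∀ V : Submodule L F, Module.Finite L V → ∃ (n : ℕ) (g : Fin n → F),
    (∀ j, g j ∈ V) ∧ (∀ j, w (g j) ≤ 1) ∧ (∀ y ∈ V, ∃ c : Fin n → L, y = ∑ j, c j • g j) ∧
    ∀ (c : Fin n → L) (j : Fin n), w (algebraMap L F (c j)) ≤ w (∑ i, c i • g i)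

namespace GaussData

variable {w : Valuation F Γ₀} (G : GaussData (L := L) w k Fb)

open Classical in
/-- total reduction map (junk value `0` outside the integers) -/
noncomputable def redF (y : F) : Fb := if h : w y ≤ 1 then G.red ⟨y, h⟩ else 0

open Classical in
/-- total residue map on `L` -/
noncomputable def resL (c : L) : k :=
  if h : w (algebraMap L F c) ≤ 1 then G.res ⟨c, h⟩ else 0

theorem redF_of_le {y : F} (h : w y ≤ 1) : G.redF y = G.red ⟨y, h⟩ := by
  unfold redF; rw [dif_pos h]

theorem resL_of_le {c : L} (h : w (algebraMap L F c) ≤ 1) : G.resL c = G.res ⟨c, h⟩ := by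
  unfold resL; rw [dif_pos h]

theorem redF_add {x y : F} (hx : w x ≤ 1) (hy : w y ≤ 1) :
    G.redF (x + y) = G.redF x + G.redF y := by
  have hxy : w (x + y) ≤ 1 := (w.map_add x y).trans (max_le hx hy)
  rw [G.redF_of_le hx, G.redF_of_le hy, G.redF_of_le hxy, ← map_add]
  rfl

theorem redF_mul {x y : F} (hx : w x ≤ 1) (hy : w y ≤ 1) :
    G.redF (x * y) = G.redF x * G.redF y := by
  have hxy : w (x * y) ≤ 1 := by
    rw [map_mul]; exact mul_le_one' hx hy
  rw [G.redF_of_le hx, G.redF_of_le hy, G.redF_of_le hxy, ← map_mul]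
  rfl

theorem redF_one : G.redF (1 : F) = 1 := by
  rw [G.redF_of_le (by simp : w (1 : F) ≤ 1)]
  exact map_one G.red

theorem redF_zero : G.redF (0 : F) = 0 := by
  rw [G.redF_of_le (by simp : w (0 : F) ≤ 1)]
  exact map_zero G.red

theorem redF_neg {x : F} (hx : w x ≤ 1) : G.redF (-x) = -G.redF x := by
  have hnx : w (-x) ≤ 1 := by rwa [Valuation.map_neg]
  rw [G.redF_of_le hx, G.redF_of_le hnx, ← map_neg]
  rfl

theorem redF_sub {x y : F} (hx : w x ≤ 1) (hy : w y ≤ 1) :
    G.redF (x - y) = G.redF x - G.redF y := by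
  have hny : w (-y) ≤ 1 := by rwa [Valuation.map_neg]
  rw [sub_eq_add_neg, G.redF_add hx hny, G.redF_neg hy, sub_eq_add_neg]

theorem redF_pow {x : F} (hx : w x ≤ 1) (n : ℕ) : G.redF (x ^ n) = G.redF x ^ n := by
  induction n with
  | zero => simp [G.redF_one]
  | succ n ih =>
    have hxn : w (x ^ n) ≤ 1 := by rw [map_pow]; exact pow_le_one' hx n
    rw [pow_succ, G.redF_mul hxn hx, ih, pow_succ]

theorem redF_eq_zero_iff {x : F} (hx : w x ≤ 1) : G.redF x = 0 ↔ w x < 1 := by
  rw [G.redF_of_le hx]
  exact G.red_eq_zero ⟨x, hx⟩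

theorem redF_eq_one_of_sub_one_lt {x : F} (h : w (x - 1) < 1) : G.redF x = 1 := by
  have hx : w x ≤ 1 := by
    have : x = (x - 1) + 1 := by ring
    rw [this]
    exact (w.map_add _ _).trans (max_le h.le (by simp))
  have h1 : G.redF (x - 1) = 0 := (G.redF_eq_zero_iff h.le).mpr h
  rw [G.redF_sub hx (by simp), G.redF_one, sub_eq_zero] at h1
  exact h1

theorem sub_one_lt_of_redF_eq_one {x : F} (hx : w x ≤ 1) (h : G.redF x = 1) : w (x - 1) < 1 := by
  have hx1 : w (x - 1) ≤ 1 := (w.map_sub _ _).trans (max_le hx (by simp))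
  rw [← G.redF_eq_zero_iff hx1, G.redF_sub hx (by simp), G.redF_one, h, sub_self]

theorem redF_algebraMap {c : L} (hc : w (algebraMap L F c) ≤ 1) :
    G.redF (algebraMap L F c) = algebraMap k Fb (G.resL c) := by
  rw [G.redF_of_le hc, G.resL_of_le hc]
  exact G.red_algebraMap ⟨c, hc⟩

theorem redF_smul {c : L} {y : F} (hc : w (algebraMap L F c) ≤ 1) (hy : w y ≤ 1) :
    G.redF (c • y) = G.resL c • G.redF y := by
  rw [Algebra.smul_def, G.redF_mul hc hy, G.redF_algebraMap hc, Algebra.smul_def]

theorem resL_eq_zero_iff {c : L} (hc : w (algebraMap L F c) ≤ 1) :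
    G.resL c = 0 ↔ w (algebraMap L F c) < 1 := by
  rw [← G.redF_eq_zero_iff hc, G.redF_algebraMap hc]
  constructor
  · intro h; rw [h, map_zero]
  · intro h
    exact (map_eq_zero_iff _ (algebraMap k Fb).injective).mp h

theorem resL_one : G.resL (1 : L) = 1 := by
  have h1 : w (algebraMap L F (1 : L)) ≤ 1 := by simp
  rw [G.resL_of_le h1]
  exact map_one G.res

theorem exists_resL_eq (a : k) : ∃ c : L, w (algebraMap L F c) ≤ 1 ∧ G.resL c = a := by
  obtain ⟨c, hc⟩ := G.res_surj a
  exact ⟨c, c.2, by rw [G.resL_of_le c.2]; exact hc⟩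

theorem smul_le_one {c : L} {y : F} (hc : w (algebraMap L F c) ≤ 1) (hy : w y ≤ 1) :
    w (c • y) ≤ 1 := by
  rw [Algebra.smul_def, map_mul]; exact mul_le_one' hc hy

theorem sum_le_one {n : ℕ} {c : Fin n → L} {u : Fin n → F}
    (hc : ∀ j, w (algebraMap L F (c j)) ≤ 1) (hu : ∀ j, w (u j) ≤ 1) :
    w (∑ j, c j • u j) ≤ 1 :=
  w.map_sum_le fun j _ => smul_le_one (hc j) (hu j)

theorem redF_sum {n : ℕ} {c : Fin n → L} {u : Fin n → F}
    (hc : ∀ j, w (algebraMap L F (c j)) ≤ 1) (hu : ∀ j, w (u j) ≤ 1) :
    G.redF (∑ j, c j • u j) = ∑ j, G.resL (c j) • G.redF (u j) := by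
  classical
  have key : ∀ s : Finset (Fin n), w (∑ j ∈ s, c j • u j) ≤ 1 ∧
      G.redF (∑ j ∈ s, c j • u j) = ∑ j ∈ s, G.resL (c j) • G.redF (u j) := by
    intro s
    induction s using Finset.induction_on with
    | empty => simp [G.redF_zero]
    | insert a s ha ih =>
      rw [Finset.sum_insert ha, Finset.sum_insert ha]
      have h1 : w (c a • u a) ≤ 1 := smul_le_one (hc a) (hu a)
      refine ⟨(w.map_add _ _).trans (max_le h1 ih.1), ?_⟩
      rw [G.redF_add h1 ih.1, ih.2, G.redF_smul (hc a) (hu a)]
  exact (key Finset.univ).2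

/-- **Orthonormality criterion**: integral elements with `k`-independent reductions are
orthonormal. -/
theorem ortho_of_linearIndependent_red {n : ℕ} {u : Fin n → F} (hu : ∀ j, w (u j) ≤ 1)
    (hli : LinearIndependent k (fun j => G.redF (u j))) (c : Fin n → L) (j : Fin n) :
    w (algebraMap L F (c j)) ≤ w (∑ i, c i • u i) := by
  classical
  by_contra hcon
  rw [not_le] at hcon
  -- maximal coefficient
  obtain ⟨j₀, -, hj₀⟩ := Finset.exists_max_image Finset.univ
    (fun i => w (algebraMap L F (c i))) ⟨j, Finset.mem_univ _⟩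
  have hbig : w (∑ i, c i • u i) < w (algebraMap L F (c j₀)) :=
    lt_of_lt_of_le hcon (hj₀ j (Finset.mem_univ _))
  have hc0 : c j₀ ≠ 0 := by
    intro h
    rw [h, map_zero, map_zero] at hbig
    exact not_lt.mpr zero_le hbig
  have hcF : algebraMap L F (c j₀) ≠ 0 := (map_ne_zero _).mpr hc0
  have hwc : w (algebraMap L F (c j₀)) ≠ 0 := (map_ne_zero w).mpr hcF
  set d : Fin n → L := fun i => (c j₀)⁻¹ * c i with hd
  have hd1 : ∀ i, w (algebraMap L F (d i)) ≤ 1 := by
    intro i
    rw [hd]
    simp only [map_mul, map_inv₀]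
    have := hj₀ i (Finset.mem_univ _)
    calc (w (algebraMap L F (c j₀)))⁻¹ * w (algebraMap L F (c i))
        ≤ (w (algebraMap L F (c j₀)))⁻¹ * w (algebraMap L F (c j₀)) := by gcongr
      _ = 1 := inv_mul_cancel₀ hwc
  have hsum : ∑ i, d i • u i = (c j₀)⁻¹ • ∑ i, c i • u i := by
    rw [Finset.smul_sum]
    refine Finset.sum_congr rfl fun i _ => ?_
    rw [hd, mul_smul]
  have hlt : w (∑ i, d i • u i) < 1 := by
    rw [hsum, Algebra.smul_def, map_mul, map_inv₀, map_inv₀]
    calc (w (algebraMap L F (c j₀)))⁻¹ * w (∑ i, c i • u i)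
        < (w (algebraMap L F (c j₀)))⁻¹ * w (algebraMap L F (c j₀)) := by
          exact mul_lt_mul_of_pos_left hbig (zero_lt_iff.mpr (inv_ne_zero hwc))
      _ = 1 := inv_mul_cancel₀ hwc
  have hred : ∑ i, G.resL (d i) • G.redF (u i) = 0 := by
    rw [← G.redF_sum hd1 hu]
    exact (G.redF_eq_zero_iff hlt.le).mpr hlt
  have := Fintype.linearIndependent_iff.mp hli (fun i => G.resL (d i)) hred j₀
  have hdj : d j₀ = 1 := by rw [hd]; exact inv_mul_cancel₀ hc0
  rw [hdj, G.resL_one] at this
  exact one_ne_zero this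

end GaussData

section Dim

variable {w : Valuation F Γ₀} (G : GaussData (L := L) w k Fb)

open GaussData

/-- an orthonormal family is linearly independent -/
theorem linearIndependent_of_ortho {n : ℕ} {g : Fin n → F}
    (hortho : ∀ (c : Fin n → L) (j : Fin n), w (algebraMap L F (c j)) ≤ w (∑ i, c i • g i)) :
    LinearIndependent L g := by
  rw [Fintype.linearIndependent_iff]
  intro c hc j
  have := hortho c j
  rw [hc, map_zero] at this
  have h0 : w (algebraMap L F (c j)) = 0 := le_antisymm this zero_le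
  exact (map_eq_zero_iff _ (algebraMap L F).injective).mp ((map_eq_zero w).mp h0)

/-- reductions of an orthonormal integral family are `k`-linearly independent -/
theorem linearIndependent_red_of_ortho {n : ℕ} {g : Fin n → F} (hg : ∀ j, w (g j) ≤ 1)
    (hortho : ∀ (c : Fin n → L) (j : Fin n), w (algebraMap L F (c j)) ≤ w (∑ i, c i • g i)) :
    LinearIndependent k (fun j => G.redF (g j)) := by
  rw [Fintype.linearIndependent_iff]
  intro a ha j
  choose c hc1 hca using fun i => G.exists_resL_eq (a i)
  have h1 : G.redF (∑ i, c i • g i) = 0 := by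
    rw [G.redF_sum hc1 hg]
    simp only [hca]
    exact ha
  have h2 : w (∑ i, c i • g i) < 1 := (G.redF_eq_zero_iff (sum_le_one hc1 hg)).mp h1
  have h3 : w (algebraMap L F (c j)) < 1 := lt_of_le_of_lt (hortho c j) h2
  rw [← hca j]
  exact (G.resL_eq_zero_iff (hc1 j)).mpr h3

theorem span_eq_of_generates {n : ℕ} {g : Fin n → F} {V : Submodule L F} (hgV : ∀ j, g j ∈ V)
    (hgen : ∀ y ∈ V, ∃ c : Fin n → L, y = ∑ j, c j • g j) :
    Submodule.span L (Set.range g) = V := by
  apply le_antisymm
  · rw [Submodule.span_le]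
    rintro _ ⟨j, rfl⟩
    exact hgV j
  · intro y hy
    obtain ⟨c, rfl⟩ := hgen y hy
    exact Submodule.sum_mem _ fun j _ =>
      Submodule.smul_mem _ _ (Submodule.subset_span ⟨j, rfl⟩)

/-- **Lattice inequality**: if the integral elements of `V` reduce into `Vb`, then
`dim_L V ≤ dim_k Vb`. -/
theorem finrank_le_of_red_mem (V : Submodule L F) [Module.Finite L V] (Vb : Submodule k Fb)
    [Module.Finite k Vb] (hred : ∀ y ∈ V, w y ≤ 1 → G.redF y ∈ Vb) :
    Module.finrank L V ≤ Module.finrank k Vb := by
  obtain ⟨n, g, hgV, hg1, hgen, hortho⟩ := G.lattice V inferInstance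
  have hli : LinearIndependent L g := linearIndependent_of_ortho hortho
  have hfr : Module.finrank L V = n := by
    rw [← span_eq_of_generates hgV hgen, finrank_span_eq_card hli, Fintype.card_fin]
  have hlib : LinearIndependent k (fun j => G.redF (g j)) :=
    linearIndependent_red_of_ortho G hg1 hortho
  let gb : Fin n → Vb := fun j => ⟨G.redF (g j), hred _ (hgV j) (hg1 j)⟩
  have hlib' : LinearIndependent k gb := by
    apply LinearIndependent.of_comp Vb.subtype
    exact hlib
  have := hlib'.fintype_card_le_finrank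
  rw [Fintype.card_fin] at this
  rw [hfr]
  exact this

/-- If moreover the dimensions agree, the reduction `V ∩ O → Vb` is surjective. -/
theorem exists_lift_of_finrank_eq (V : Submodule L F) [Module.Finite L V] (Vb : Submodule k Fb)
    [Module.Finite k Vb] (hred : ∀ y ∈ V, w y ≤ 1 → G.redF y ∈ Vb)
    (hdim : Module.finrank L V = Module.finrank k Vb) (z : Fb) (hz : z ∈ Vb) :
    ∃ y ∈ V, w y ≤ 1 ∧ G.redF y = z := by
  obtain ⟨n, g, hgV, hg1, hgen, hortho⟩ := G.lattice V inferInstance
  have hli : LinearIndependent L g := linearIndependent_of_ortho hortho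
  have hfr : Module.finrank L V = n := by
    rw [← span_eq_of_generates hgV hgen, finrank_span_eq_card hli, Fintype.card_fin]
  have hlib : LinearIndependent k (fun j => G.redF (g j)) :=
    linearIndependent_red_of_ortho G hg1 hortho
  let gb : Fin n → Vb := fun j => ⟨G.redF (g j), hred _ (hgV j) (hg1 j)⟩
  have hlib' : LinearIndependent k gb := by
    apply LinearIndependent.of_comp Vb.subtype
    exact hlib
  have hcard : Fintype.card (Fin n) = Module.finrank k Vb := by
    rw [Fintype.card_fin, ← hdim, hfr]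
  have hspan : Submodule.span k (Set.range gb) = ⊤ :=
    hlib'.span_eq_top_of_card_eq_finrank' hcard
  have hzmem : (⟨z, hz⟩ : Vb) ∈ Submodule.span k (Set.range gb) := by rw [hspan]; trivial
  obtain ⟨a, ha⟩ := (Submodule.mem_span_range_iff_exists_fun k).mp hzmem
  choose c hc1 hca using fun i => G.exists_resL_eq (a i)
  refine ⟨∑ i, c i • g i, Submodule.sum_mem _ fun i _ => Submodule.smul_mem _ _ (hgV i),
    sum_le_one hc1 hg1, ?_⟩
  rw [G.redF_sum hc1 hg1]
  simp only [hca]
  have := congrArg (fun x : Vb => (x : Fb)) ha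
  simpa [gb] using this

/-- **Nakayama without modules**: `n = dim V` integral elements of `V` with `k`-independent
reductions generate the lattice `V ∩ O` with integral coefficients. -/
theorem exists_integral_combination (V : Submodule L F) [Module.Finite L V] {n : ℕ}
    {u : Fin n → F} (huV : ∀ j, u j ∈ V) (hu1 : ∀ j, w (u j) ≤ 1)
    (hli : LinearIndependent k (fun j => G.redF (u j))) (hn : Module.finrank L V = n)
    (y : F) (hy : y ∈ V) (hy1 : w y ≤ 1) :
    ∃ c : Fin n → L, (∀ j, w (algebraMap L F (c j)) ≤ 1) ∧ y = ∑ j, c j • u j := by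
  have hortho := G.ortho_of_linearIndependent_red hu1 hli
  have hliL : LinearIndependent L u := linearIndependent_of_ortho hortho
  let uV : Fin n → V := fun j => ⟨u j, huV j⟩
  have hliV : LinearIndependent L uV := by
    apply LinearIndependent.of_comp V.subtype
    exact hliL
  have hcard : Fintype.card (Fin n) = Module.finrank L V := by rw [Fintype.card_fin, hn]
  have hspan : Submodule.span L (Set.range uV) = ⊤ :=
    hliV.span_eq_top_of_card_eq_finrank' hcard
  have hymem : (⟨y, hy⟩ : V) ∈ Submodule.span L (Set.range uV) := by rw [hspan]; trivial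
  obtain ⟨c, hc⟩ := (Submodule.mem_span_range_iff_exists_fun L).mp hymem
  have hyc : y = ∑ j, c j • u j := by
    have := congrArg (fun x : V => (x : F)) hc
    simpa [uV] using this.symm
  refine ⟨c, fun j => ?_, hyc⟩
  exact (hortho c j).trans (hyc ▸ hy1)

end Dim

end Fermat.Agent.S18.KGauss73
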