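/-
S18 moonshot, package [CUSP-LITE] (helper3), part (C-SEMI): SEMICONTINUITY OF `#cusps + genus`.

Separable RatFunc setting of `DW63` (helper63) over an algebraically closed field `K` of ANY
characteristic: `Binf K F` = integral closure of the valuation ring at infinity, `c(F)` = number of
its primes (= places over `x = ∞`), `dwGenus K F` = Dedekind–Weber genus (= Riemann genus).

* `radSpace K F r` = `L(rE - E_red)` = `{f ∈ L(rE) | x^{-r} f ∈ every prime of Binf}`
  (`E = (x)_∞`, `E_red` = sum of the places over `∞`), `mem_radSpace_iff`;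
* `finrank_radSpace`, `exists_forall_finrank_radSpace` :
    `dim_K L(rE - E_red) = n r + 1 - g - c`  for `r ≥ max d_i` (NO `HasPrincipalDivisors` needed:
    normal basis + `dim Binf/rad = c`, `dim Binf/(1/x) = n` + rank–nullity);
* `pow_mem_LE_of_mem_radSpace` : `y ∈ L(rE - E_red) ⇒ y^n ∈ L((rn-1)E)`  (`e_w ≤ n`);
* `mem_radSpace_of_pow_mem`    : `y ∈ L(rE)`, `y^n ∈ L((rn-1)E) ⇒ y ∈ L(rE - E_red)`;
* **`card_add_dwGenus_le`** (C-SEMI): for a `KGauss73.GaussData` reduction `(L, F, w) ⤳ (k, Fb)` with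
  `[F : L(x)] = [Fb : k(x̄)]` and the two-chart INTEGRALITY lemma
  `y ∈ L(rE), w y ≤ 1 ⇒ redF y ∈ L̄(rĒ)`:   `c(Fb) + g(Fb) ≤ c(F) + g(F)`.
With `6 (2 ḡ - 2 + c̄) ≥ ψ` (RH92 + C-BASE) and `6 (2 g - 2 + c) = ψ` (Char0Diff39) this gives `ḡ ≥ g`.
No sorry.
-/
import Fermat.Agent.S18.DW63.Riemann
import Fermat.Agent.S18.KGauss73

set_option autoImplicit false
set_option linter.unusedSectionVars false

open Polynomial AlgebraicCurve IsDedekindDomain Module UniqueFactorizationMonoid
open scoped Classical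

noncomputable section

namespace Fermat.Agent.S18.CuspSemi3

open Fermat.Agent.S20.NormalBasis (Oinf mInf)
open Fermat.Agent.S20 Fermat.Agent.S20.T1
open Fermat.Agent.S20.LatticeDims (scaled latticeInter)
open Fermat.Agent.S24 Fermat.Agent.S24.PlaceDedekind
open Fermat.Agent.S18.DW63

section Rad

variable (K F : Type*) [Field K] [IsAlgClosed K] [Field F] [Algebra K F] [Algebra (RatFunc K) F]
  [IsScalarTower K (RatFunc K) F] [Algebra K[X] F] [IsScalarTower K[X] (RatFunc K) F]
  [FiniteDimensional (RatFunc K) F] [Algebra.IsSeparable (RatFunc K) F]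

/-- the Jacobson radical of `Binf`: the intersection of all its height one primes. -/
def radInf : Ideal (Binf K F) := ⨅ w : HeightOneSpectrum (Binf K F), w.asIdeal

theorem mem_radInf_iff (b : Binf K F) :
    b ∈ radInf K F ↔ ∀ w : HeightOneSpectrum (Binf K F), b ∈ w.asIdeal := by
  rw [radInf, Ideal.mem_iInf]

theorem radInf_eq_prod : radInf K F = ∏ w : HeightOneSpectrum (Binf K F), w.asIdeal := by
  have h := IsDedekindDomain.inf_pow_eq_prod_of_prime (Finset.univ)
    (fun w : HeightOneSpectrum (Binf K F) => w.asIdeal) (fun _ => 1) (fun w _ => w.prime)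
    (fun w _ w' _ h hh => h (HeightOneSpectrum.ext hh))
  simp only [pow_one] at h
  rw [radInf, ← h, Finset.inf_univ_eq_iInf]

theorem radInf_ne_bot : radInf K F ≠ ⊥ := by
  rw [radInf_eq_prod, ← Ideal.zero_eq_bot, Finset.prod_ne_zero_iff]
  exact fun w _ => w.ne_bot

theorem finrank_quot_radInf :
    finrank K (Binf K F ⧸ radInf K F) = Fintype.card (HeightOneSpectrum (Binf K F)) := by
  rw [QuotLen9.finrank_quotient_eq_card_normalizedFactors (residue_surjective_Binf K F)
    (radInf_ne_bot K F), radInf_eq_prod, Finset.prod_eq_multiset_prod,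
    normalizedFactors_prod_of_prime]
  · simp
  · intro p hp
    rw [Multiset.mem_map] at hp
    obtain ⟨w, _, rfl⟩ := hp
    exact w.prime

/-- the ideal `𝔪_∞ B_∞ = (1/x) B_∞`. -/
def piIdeal : Ideal (Binf K F) := Ideal.span {algebraMap (Oinf K) (Binf K F) T1Inf69.piInf}

theorem piIdeal_eq : piIdeal K F = (mInf : Ideal (Oinf K)).map (algebraMap (Oinf K) (Binf K F)) :=
  (T1Inf69.map_mInf (k := K) (F := F)).symm

theorem piIdeal_ne_bot : piIdeal K F ≠ ⊥ := by
  rw [piIdeal, Ne, Ideal.span_singleton_eq_bot]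
  exact piInf_map_ne_zero K F

theorem piIdeal_le_radInf : piIdeal K F ≤ radInf K F := by
  rw [piIdeal, Ideal.span_singleton_le_iff_mem, mem_radInf_iff]
  exact fun w => piInf_mem K F w

theorem finrank_quot_piIdeal :
    finrank K (Binf K F ⧸ piIdeal K F) = finrank (RatFunc K) F := by
  rw [QuotLen9.finrank_quotient_eq_finsum
    (fun P => residue_surjective_Binf K F P.asIdeal P.isMaximal) (piIdeal_ne_bot K F),
    finsum_eq_sum_of_fintype, piIdeal_eq, sum_count_map_mInf]

/-- `L(rE)` as a `K`-subspace of `F`. -/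
abbrev LE (r : ℤ) : Submodule K F := riemannRochSpace (r • poleDiv K F)

theorem mem_LE_iff (r : ℤ) (f : F) :
    f ∈ LE K F r ↔ f ∈ Bfin K F ∧ xF K F ^ (-r) * f ∈ Binf K F := by
  rw [LE, mem_riemannRochSpace_smul_poleDiv_iff, X_zpow_smul_eq]

theorem piInf_coe :
    ((algebraMap (Oinf K) (Binf K F) T1Inf69.piInf : Binf K F) : F) = (xF K F)⁻¹ := by
  change algebraMap (Oinf K) F T1Inf69.piInf = _
  rw [T1Inf69.algebraMap_Oinf_eq, T1Inf69.coe_piInf, map_inv₀]
  rfl

/-- the map `f ↦ x^{-r} f` from `L(rE)` to `Binf`. -/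
def mr (r : ℤ) : LE K F r →ₗ[K] Binf K F where
  toFun f := ⟨xF K F ^ (-r) * f, ((mem_LE_iff K F r f).mp f.2).2⟩
  map_add' f g := Subtype.ext (by
    show xF K F ^ (-r) * ((f : F) + g) = xF K F ^ (-r) * f + xF K F ^ (-r) * g
    ring)
  map_smul' c f := Subtype.ext (by
    show xF K F ^ (-r) * (c • (f : F)) = c • (xF K F ^ (-r) * (f : F))
    rw [mul_smul_comm])

theorem mr_coe (r : ℤ) (f : LE K F r) : ((mr K F r f : Binf K F) : F) = xF K F ^ (-r) * f := rfl

theorem xF_zpow_neg_sub_one (r : ℤ) :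
    xF K F ^ (-(r - 1)) = xF K F * xF K F ^ (-r) := by
  rw [← zpow_one_add₀ (xF_ne_zero K F)]
  congr 1
  ring

theorem mr_mem_piIdeal_iff (r : ℤ) (f : LE K F r) :
    mr K F r f ∈ piIdeal K F ↔ (f : F) ∈ LE K F (r - 1) := by
  have hx := xF_ne_zero K F
  rw [piIdeal, Ideal.mem_span_singleton']
  constructor
  · rintro ⟨b, hb⟩
    rw [mem_LE_iff]
    refine ⟨((mem_LE_iff K F r f).mp f.2).1, ?_⟩
    have h1 := congrArg Subtype.val hb
    rw [MulMemClass.coe_mul, piInf_coe, mr_coe] at h1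
    have h2 : xF K F ^ (-(r - 1)) * (f : F) = b := by
      rw [xF_zpow_neg_sub_one, mul_assoc, ← h1]
      field_simp
    rw [h2]
    exact b.2
  · intro hf
    rw [mem_LE_iff] at hf
    refine ⟨⟨_, hf.2⟩, Subtype.ext ?_⟩
    rw [MulMemClass.coe_mul, piInf_coe, mr_coe]
    show xF K F ^ (-(r - 1)) * (f : F) * (xF K F)⁻¹ = xF K F ^ (-r) * f
    rw [xF_zpow_neg_sub_one]
    field_simp

theorem LE_mono (r : ℤ) : LE K F (r - 1) ≤ LE K F r := by
  intro f hf
  have hx := xF_ne_zero K F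
  rw [mem_LE_iff] at hf ⊢
  refine ⟨hf.1, ?_⟩
  have h : xF K F ^ (-r) * f =
      ((algebraMap (Oinf K) (Binf K F) T1Inf69.piInf * ⟨_, hf.2⟩ : Binf K F) : F) := by
    rw [MulMemClass.coe_mul, piInf_coe]
    show xF K F ^ (-r) * f = (xF K F)⁻¹ * (xF K F ^ (-(r - 1)) * f)
    rw [xF_zpow_neg_sub_one]
    field_simp
  rw [h]
  exact Subtype.mem _

/-- `L(rE) → Binf / (1/x) Binf` -/
def psiI (r : ℤ) : LE K F r →ₗ[K] (Binf K F ⧸ piIdeal K F) :=
  (Ideal.Quotient.mkₐ K (piIdeal K F)).toLinearMap ∘ₗ mr K F r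

/-- `L(rE) → Binf / rad Binf` -/
def psiJ (r : ℤ) : LE K F r →ₗ[K] (Binf K F ⧸ radInf K F) :=
  (Ideal.Quotient.mkₐ K (radInf K F)).toLinearMap ∘ₗ mr K F r

theorem psiI_apply (r : ℤ) (f : LE K F r) :
    psiI K F r f = Ideal.Quotient.mk (piIdeal K F) (mr K F r f) := rfl

theorem psiJ_apply (r : ℤ) (f : LE K F r) :
    psiJ K F r f = Ideal.Quotient.mk (radInf K F) (mr K F r f) := rfl

theorem ker_psiI (r : ℤ) :
    LinearMap.ker (psiI K F r) = (LE K F (r - 1)).comap (LE K F r).subtype := by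
  ext f
  rw [LinearMap.mem_ker, Submodule.mem_comap, psiI_apply, Ideal.Quotient.eq_zero_iff_mem,
    mr_mem_piIdeal_iff]
  rfl

variable {K F}

theorem psiI_surjective {ι : Type*} [Fintype ι] (u : Basis ι (RatFunc K) F) (d : ι → ℤ)
    (hu : Submodule.span K[X] (Set.range u) = Subalgebra.toSubmodule (Bfin K F))
    (hd : Submodule.span (Oinf K) (Set.range (scaled u d)) = Subalgebra.toSubmodule (Binf K F))
    (r : ℤ) (hr : ∀ i, d i ≤ r) : Function.Surjective (psiI K F r) := by
  have hfin : Module.Finite K (LE K F r) := finite_riemannRochSpace_smul_poleDiv r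
  have hfinQ : Module.Finite K (Binf K F ⧸ piIdeal K F) :=
    QuotLen9.finite_quotient (residue_surjective_Binf K F) (piIdeal_ne_bot K F)
  have h1 := LinearMap.finrank_range_add_finrank_ker (psiI K F r)
  rw [ker_psiI, (Submodule.comapSubtypeEquivOfLe (LE_mono K F r)).finrank_eq] at h1
  have h2 := finrank_riemannRochSpace_of_le u d hu hd r (fun i => by linarith [hr i])
  have h3 := finrank_riemannRochSpace_of_le u d hu hd (r - 1) (fun i => by linarith [hr i])
  have hn : finrank (RatFunc K) F = Fintype.card ι := Module.finrank_eq_card_basis u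
  have h4 : finrank K (LinearMap.range (psiI K F r)) = finrank K (Binf K F ⧸ piIdeal K F) := by
    rw [finrank_quot_piIdeal, hn]
    have h5 : (finrank K (LinearMap.range (psiI K F r)) : ℤ) = Fintype.card ι := by
      have h1' : (finrank K (LinearMap.range (psiI K F r)) : ℤ) +
          finrank K (LE K F (r - 1)) = finrank K (LE K F r) := by exact_mod_cast h1
      rw [h2, h3] at h1'
      linarith
    exact_mod_cast h5
  rw [← LinearMap.range_eq_top]
  exact Submodule.eq_top_of_finrank_eq h4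

theorem psiJ_surjective {ι : Type*} [Fintype ι] (u : Basis ι (RatFunc K) F) (d : ι → ℤ)
    (hu : Submodule.span K[X] (Set.range u) = Subalgebra.toSubmodule (Bfin K F))
    (hd : Submodule.span (Oinf K) (Set.range (scaled u d)) = Subalgebra.toSubmodule (Binf K F))
    (r : ℤ) (hr : ∀ i, d i ≤ r) : Function.Surjective (psiJ K F r) := by
  intro q
  obtain ⟨b, rfl⟩ := Ideal.Quotient.mk_surjective q
  obtain ⟨f, hf⟩ := psiI_surjective u d hu hd r hr (Ideal.Quotient.mk (piIdeal K F) b)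
  refine ⟨f, ?_⟩
  rw [psiI_apply, Ideal.Quotient.eq] at hf
  rw [psiJ_apply, Ideal.Quotient.eq]
  exact piIdeal_le_radInf K F hf

variable (K F)

/-- `L(rE - E_red)`: the functions in `L(rE)` with `x^{-r} f` in every prime of `Binf`. -/
def radSpace (r : ℤ) : Submodule K F := (LinearMap.ker (psiJ K F r)).map (LE K F r).subtype

theorem mem_radSpace_iff (r : ℤ) (f : F) :
    f ∈ radSpace K F r ↔
      ∃ hf : f ∈ LE K F r, ∀ w : HeightOneSpectrum (Binf K F), mr K F r ⟨f, hf⟩ ∈ w.asIdeal := by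
  rw [radSpace, Submodule.mem_map]
  constructor
  · rintro ⟨g, hg, rfl⟩
    refine ⟨g.2, ?_⟩
    rw [LinearMap.mem_ker, psiJ_apply, Ideal.Quotient.eq_zero_iff_mem, mem_radInf_iff] at hg
    exact hg
  · rintro ⟨hf, h⟩
    refine ⟨⟨f, hf⟩, ?_, rfl⟩
    rw [LinearMap.mem_ker, psiJ_apply, Ideal.Quotient.eq_zero_iff_mem, mem_radInf_iff]
    exact h

theorem radSpace_le (r : ℤ) : radSpace K F r ≤ LE K F r := by
  intro f hf
  obtain ⟨h, -⟩ := (mem_radSpace_iff K F r f).mp hf
  exact h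

instance finite_radSpace (r : ℤ) : Module.Finite K (radSpace K F r) := by
  have : Module.Finite K (LE K F r) := finite_riemannRochSpace_smul_poleDiv r
  exact Submodule.finiteDimensional_of_le (radSpace_le K F r)

variable {K F}

/-- **`dim L(rE - E_red) = n (r + 1) - Σ d_i - #{primes of Binf}`** for `r ≥ max d_i`. -/
theorem finrank_radSpace {ι : Type*} [Fintype ι] (u : Basis ι (RatFunc K) F) (d : ι → ℤ)
    (hu : Submodule.span K[X] (Set.range u) = Subalgebra.toSubmodule (Bfin K F))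
    (hd : Submodule.span (Oinf K) (Set.range (scaled u d)) = Subalgebra.toSubmodule (Binf K F))
    (r : ℤ) (hr : ∀ i, d i ≤ r) :
    (finrank K (radSpace K F r) : ℤ) =
      (Fintype.card ι : ℤ) * (r + 1) - ∑ i, d i -
        Fintype.card (HeightOneSpectrum (Binf K F)) := by
  have hfin : Module.Finite K (LE K F r) := finite_riemannRochSpace_smul_poleDiv r
  have h1 := LinearMap.finrank_range_add_finrank_ker (psiJ K F r)
  rw [LinearMap.range_eq_top.mpr (psiJ_surjective u d hu hd r hr), finrank_top,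
    finrank_quot_radInf] at h1
  have h2 := finrank_riemannRochSpace_of_le u d hu hd r (fun i => by linarith [hr i])
  have h3 : finrank K (radSpace K F r) = finrank K (LinearMap.ker (psiJ K F r)) :=
    (Submodule.equivMapOfInjective _ (Submodule.injective_subtype _) _).symm.finrank_eq
  rw [h3, ← h2]
  have h1' : (Fintype.card (HeightOneSpectrum (Binf K F)) : ℤ) +
      finrank K (LinearMap.ker (psiJ K F r)) = finrank K (LE K F r) := by exact_mod_cast h1
  linarith

/-- The same in terms of the Dedekind–Weber genus. -/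
theorem exists_forall_finrank_radSpace :
    ∃ r₀ : ℤ, ∀ r : ℤ, r₀ ≤ r →
      (finrank K (radSpace K F r) : ℤ) =
        (finrank (RatFunc K) F : ℤ) * r + 1 - dwGenus K F -
          Fintype.card (HeightOneSpectrum (Binf K F)) := by
  obtain ⟨u, d, hu, hd⟩ := exists_normal_basis K F
  have hn : finrank (RatFunc K) F = Fintype.card (Fin (finrank (RatFunc K) F)) := by simp
  refine ⟨Finset.univ.sup' ⟨⟨0, finrank_pos⟩, Finset.mem_univ _⟩ d, fun r hr => ?_⟩
  rw [finrank_radSpace u d hu hd r (fun i => (Finset.le_sup' d (Finset.mem_univ i)).trans hr),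
    dwGenus_eq u d hu hd, ← hn]
  ring


/-! ### The two halves of the reduction step -/

theorem neg_ord_xF_le_finrank (w : HeightOneSpectrum (Binf K F)) :
    -(infPlace K F w).ord (xF K F) ≤ (finrank (RatFunc K) F : ℤ) := by
  rw [← sum_neg_ord_eq_finrank K F]
  exact Finset.single_le_sum
    (f := fun w : HeightOneSpectrum (Binf K F) => -(infPlace K F w).ord (xF K F))
    (fun w' _ => by have := ord_xF_infPlace_neg K F w'; omega) (Finset.mem_univ w)

theorem one_le_ord_of_mem (w : HeightOneSpectrum (Binf K F)) (b : Binf K F)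
    (hb : b ∈ w.asIdeal) (hb0 : (b : F) ≠ 0) : 1 ≤ (infPlace K F w).ord (b : F) := by
  rw [ord_infPlace]
  have hv : w.valuation F (b : F) < 1 := (w.valuation_lt_one_iff_mem b).mpr hb
  have h0 : w.valuation F (b : F) ≠ 0 := by
    rw [Ne, map_eq_zero]; exact hb0
  have : WithZero.log (w.valuation F (b : F)) < 0 := by
    rw [WithZero.log_lt_iff_lt_exp h0, WithZero.exp_zero]; exact hv
  omega

/-- generic side: if `y ∈ L(rE - E_red)` then `y^n ∈ L((rn - 1) E)`, `n = [F : K(x)]`. -/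
theorem pow_mem_LE_of_mem_radSpace (r : ℕ) (hr : 1 ≤ r) {y : F} (hy : y ∈ radSpace K F r) :
    y ^ (finrank (RatFunc K) F) ∈ LE K F ((r * finrank (RatFunc K) F - 1 : ℕ) : ℤ) := by
  set n := finrank (RatFunc K) F with hn
  have hn1 : 1 ≤ n := finrank_pos
  obtain ⟨hyL, hrad⟩ := (mem_radSpace_iff K F r y).mp hy
  have hyB := ((mem_LE_iff K F r y).mp hyL).1
  rw [mem_LE_iff]
  refine ⟨pow_mem hyB n, ?_⟩
  rw [mem_Binf_iff]
  intro w
  rw [PlaceLocal.mem_iff_ord_nonneg]
  rcases eq_or_ne y 0 with rfl | hy0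
  · rw [zero_pow (by omega), mul_zero, Place.ord_zero]
  have hx := xF_ne_zero K F
  have hb0 : ((mr K F r ⟨y, hyL⟩ : Binf K F) : F) ≠ 0 := by
    rw [mr_coe]; exact mul_ne_zero (zpow_ne_zero _ hx) hy0
  have h1 := one_le_ord_of_mem w _ (hrad w) hb0
  rw [mr_coe, Place.ord_mul _ (zpow_ne_zero _ hx) hy0, Place.ord_zpow] at h1
  rw [Place.ord_mul _ (zpow_ne_zero _ hx) (pow_ne_zero _ hy0), Place.ord_zpow,
    ← zpow_natCast y n, Place.ord_zpow]
  have he1 := ord_xF_infPlace_neg K F w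
  have he2 := neg_ord_xF_le_finrank w
  rw [← hn] at he2
  set e := (infPlace K F w).ord (xF K F) with he
  set o := (infPlace K F w).ord y with ho
  have hpos : 1 ≤ r * n := Nat.mul_pos hr hn1
  have hm : ((r * n - 1 : ℕ) : ℤ) = (r : ℤ) * n - 1 := by
    push_cast [Nat.cast_sub hpos]; ring
  rw [hm]
  have hn0 : (0 : ℤ) ≤ n := Int.natCast_nonneg n
  have h2 : 0 ≤ (n : ℤ) * (o - 1 - (r : ℤ) * e) := mul_nonneg hn0 (by linarith)
  have hr0 : (1 : ℤ) ≤ r := by exact_mod_cast hr
  nlinarith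

/-- special side: if `y ∈ L(rE)` and `y^n ∈ L((rn - 1) E)` for some `n ≥ 1`, then
`y ∈ L(rE - E_red)`. -/
theorem mem_radSpace_of_pow_mem (r : ℕ) (hr : 1 ≤ r) {n : ℕ} (hn : 1 ≤ n) {y : F}
    (hy : y ∈ LE K F r) (hyn : y ^ n ∈ LE K F ((r * n - 1 : ℕ) : ℤ)) :
    y ∈ radSpace K F r := by
  rw [mem_radSpace_iff]
  refine ⟨hy, fun w => ?_⟩
  have hx := xF_ne_zero K F
  have hpos : 1 ≤ r * n := Nat.mul_pos hr hn
  have hm : ((r * n - 1 : ℕ) : ℤ) = (r : ℤ) * n - 1 := by
    push_cast [Nat.cast_sub hpos]; ring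
  set c : Binf K F := ⟨_, ((mem_LE_iff K F _ _).mp hyn).2⟩ with hc
  have hpow : (mr K F r ⟨y, hy⟩) ^ n = algebraMap (Oinf K) (Binf K F) T1Inf69.piInf * c := by
    apply Subtype.ext
    rw [SubmonoidClass.coe_pow, MulMemClass.coe_mul, piInf_coe, mr_coe]
    show (xF K F ^ (-(r : ℤ)) * y) ^ n = (xF K F)⁻¹ * (xF K F ^ (-((r * n - 1 : ℕ) : ℤ)) * y ^ n)
    rw [hm, mul_pow, ← zpow_natCast (xF K F ^ (-(r : ℤ))) n, ← zpow_mul, ← mul_assoc]
    congr 1
    rw [← zpow_neg_one, ← zpow_add₀ hx]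
    congr 1
    ring
  have hmem : (mr K F r ⟨y, hy⟩) ^ n ∈ w.asIdeal := by
    rw [hpow]
    exact Ideal.mul_mem_right _ _ (piInf_mem K F w)
  exact w.isPrime.mem_of_pow_mem n hmem

end Rad

/-! ### Semicontinuity of `#cusps + genus` -/

section Semi

variable {L F : Type*} [Field L] [IsAlgClosed L] [Field F] [Algebra L F] [Algebra (RatFunc L) F]
  [IsScalarTower L (RatFunc L) F] [Algebra L[X] F] [IsScalarTower L[X] (RatFunc L) F]
  [FiniteDimensional (RatFunc L) F] [Algebra.IsSeparable (RatFunc L) F]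
  {k Fb : Type*} [Field k] [IsAlgClosed k] [Field Fb] [Algebra k Fb] [Algebra (RatFunc k) Fb]
  [IsScalarTower k (RatFunc k) Fb] [Algebra k[X] Fb] [IsScalarTower k[X] (RatFunc k) Fb]
  [FiniteDimensional (RatFunc k) Fb] [Algebra.IsSeparable (RatFunc k) Fb]
  {Γ₀ : Type*} [LinearOrderedCommGroupWithZero Γ₀]

/-- **(C-SEMI)** `#cusps + genus` can only drop under reduction: if integral elements of `L(rE)`
reduce into `L̄(rĒ)` (two-chart integrality lemma) and the degrees over the rational function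
fields agree, then `c̄ + ḡ ≤ c + g`. -/
theorem card_add_dwGenus_le (w : Valuation F Γ₀) (G : KGauss73.GaussData (L := L) w k Fb)
    (hn : finrank (RatFunc L) F = finrank (RatFunc k) Fb)
    (hint : ∀ (r : ℕ) (y : F), y ∈ LE L F r → w y ≤ 1 → G.redF y ∈ LE k Fb r) :
    (Fintype.card (HeightOneSpectrum (Binf k Fb)) : ℤ) + dwGenus k Fb ≤
      Fintype.card (HeightOneSpectrum (Binf L F)) + dwGenus L F := by
  obtain ⟨r₁, h₁⟩ := exists_forall_finrank_radSpace (K := L) (F := F)
  obtain ⟨r₂, h₂⟩ := exists_forall_finrank_radSpace (K := k) (F := Fb)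
  set r : ℕ := (max (max r₁ r₂) 1).toNat with hrdef
  have hrr : max (max r₁ r₂) 1 ≤ (r : ℤ) := Int.self_le_toNat _
  have hr1 : r₁ ≤ (r : ℤ) := le_trans (le_trans (le_max_left _ _) (le_max_left _ _)) hrr
  have hr2 : r₂ ≤ (r : ℤ) := le_trans (le_trans (le_max_right _ _) (le_max_left _ _)) hrr
  have hr : 1 ≤ r := by
    have : (1 : ℤ) ≤ (r : ℤ) := le_trans (le_max_right _ _) hrr
    exact_mod_cast this
  have hred : ∀ y ∈ radSpace L F r, w y ≤ 1 → G.redF y ∈ radSpace k Fb r := by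
    intro y hy hwy
    have h1 := hint r y (radSpace_le L F r hy) hwy
    have h2 := pow_mem_LE_of_mem_radSpace r hr hy
    have hwyn : w (y ^ finrank (RatFunc L) F) ≤ 1 := by
      rw [map_pow]; exact pow_le_one' hwy _
    have h3 := hint _ _ h2 hwyn
    rw [G.redF_pow hwy] at h3
    exact mem_radSpace_of_pow_mem r hr finrank_pos h1 h3
  have key := KGauss73.finrank_le_of_red_mem G (radSpace L F r) (radSpace k Fb r) hred
  have e1 := h₁ r hr1
  have e2 := h₂ r hr2
  rw [hn] at e1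
  have key' : (finrank L (radSpace L F r) : ℤ) ≤ finrank k (radSpace k Fb r) := by
    exact_mod_cast key
  linarith

end Semi

end Fermat.Agent.S18.CuspSemi3
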