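/-
S18 project, `Level33.LevelData` field [LATTICE] (helper56): adapter from the [BRIDGE] outputs to the
exact shape of the field `lattice`.

* `lattice_of_gaussOrtho` (abstract, Mathlib + GaussOrtho71): if `y` is a Gauss-orthonormal
  `L(x)`-frame of `F` for the valuation ring `O` (`A = O ∩ L`, `ρ : O →+* Fb` compatible with the
  residue map of `A`) then every finite-dimensional `L`-subspace `V` of `F` has an `L`-basis
  `e_i ∈ V ∩ O` with `k`-independent reductions and `V ∩ O = ⊕ A e_i`.
* `isGaussOrtho_frame` / `lattice_field` (concrete): for `F = F_M = modularFunctionFieldBar M`,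
  `A | ℓ`, `ℓ ∤ M`, and ANY `(O, ρ)` satisfying the [BRIDGE] fields `ker_ρ`, `ρ_incl`, `const_mem`,
  `ρ_const` of `LevelData`, the frame `x = j`, `y_i =` the `ψ(M)` integral monomials of
  `Bridge28.exists_frame_of_liesOver` is Gauss-orthonormal, and the field `lattice` holds VERBATIM.
-/
import Fermat.Agent.S18.Spine33
import Fermat.Agent.S18.GaussOrtho71
import Fermat.Agent.S18.Bridge28.Frame
import Fermat.Agent.S24.Exports
import Fermat.Agent.S28.MainKernel

set_option autoImplicit false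
set_option linter.unusedSectionVars false

open ModularCurve AlgebraicCurve HahnSeries Module IntermediateField Polynomial

noncomputable section

namespace Fermat.Agent.S18.LatticeInst56

open Fermat.Agent.S18.Spine33 Fermat.Agent.S18.GaussOrtho71

/-! ### Abstract adapter -/

section Abstract

variable {L F : Type*} [Field L] [Field F] [Algebra L F]
  (O : ValuationSubring F) (A : ValuationSubring L)
  (hA : ∀ c : L, algebraMap L F c ∈ O ↔ c ∈ A)

include hA in
theorem baseRing_le : (baseRing L O).toSubring ≤ A.toSubring := fun c hc => (hA c).1 hc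

/-- the residue map of `A`, read on `baseRing L O = O ∩ L` -/
def redA : baseRing L O →+* IsLocalRing.ResidueField A :=
  (IsLocalRing.residue A).comp (Subring.inclusion (baseRing_le O A hA))

theorem redA_apply (a : baseRing L O) :
    redA O A hA a = IsLocalRing.residue A ⟨(a : L), (hA a).1 a.2⟩ := rfl

theorem redA_surjective : Function.Surjective (redA O A hA) := by
  intro z
  obtain ⟨a, rfl⟩ := IsLocalRing.residue_surjective z
  exact ⟨⟨(a : L), (hA a).2 a.2⟩, rfl⟩

theorem redA_eq_zero (a : baseRing L O) (ha : (a : L) ∈ (baseRing L O).nonunits) :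
    redA O A hA a = 0 := by
  rw [redA_apply, IsLocalRing.residue_eq_zero_iff]
  -- `a ∈ A.nonunits`
  have h1 : (a : L) ∈ A.nonunits := by
    rw [mem_nonunits_iff_inv] at ha ⊢
    rcases ha with h0 | hinv
    · exact Or.inl h0
    · refine Or.inr fun h => hinv ?_
      exact (hA _).2 h
  rw [ValuationSubring.mem_nonunits_iff_exists_mem_maximalIdeal] at h1
  obtain ⟨_, h2⟩ := h1
  exact h2

variable {O A}

include hA in
/-- **Abstract [LATTICE]**: a Gauss-orthonormal frame gives the lattice lemma in residue form. -/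
theorem lattice_of_gaussOrtho {Fb : Type*} [Field Fb] [Algebra (IsLocalRing.ResidueField A) Fb]
    (ρ : O →+* Fb)
    (hρA : ∀ (c : A) (h : algebraMap L F (c : L) ∈ O),
      ρ ⟨_, h⟩ = algebraMap (IsLocalRing.ResidueField A) Fb (IsLocalRing.residue A c))
    {n : ℕ} (hn : 0 < n) {x : F} {y : Fin n → F} (hG : IsGaussOrtho L O x y)
    (hdeg : finrank L⟮x⟯ F = n) (V : Submodule L F) (hV : Module.Finite L V) :
    ∃ (r : ℕ) (e : Fin r → F) (he : ∀ i, e i ∈ O), r = finrank L V ∧ (∀ i, e i ∈ V) ∧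
      LinearIndependent (IsLocalRing.ResidueField A) (fun i => ρ ⟨e i, he i⟩) ∧
      ∀ z ∈ V, z ∈ O → ∃ α : Fin r → L, (∀ i, α i ∈ A) ∧ z = ∑ i, α i • e i := by
  have hVfg : V.FG := Module.Finite.iff_fg.mp hV
  obtain ⟨d, b, hb, hbV, hspan⟩ := hG.exists_orthonormal_basis hn hdeg V hVfg
  refine ⟨d, b, hb.mem, (finrank_eq_of_orthonormal_basis hb hbV hspan).symm, hbV, ?_, ?_⟩
  · refine hb.linearIndependent_red ρ (redA O A hA) (redA_surjective O A hA)
      (redA_eq_zero O A hA) fun a => ?_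
    exact hρA ⟨(a : L), (hA a).1 a.2⟩ a.2
  · intro z hz hzO
    obtain ⟨c, hc, hzc⟩ := hb.exists_int_repr (hspan hz) hzO
    exact ⟨c, fun i => (hA _).1 (hc i), hzc⟩

include hA in
/-- **Abstract Gauss-orthonormality from a frame with independent reductions** (the hypothesis in
`k(x̄)`-linear form). -/
theorem isGaussOrtho_of_frame {Fb : Type*} [Field Fb] [Algebra (IsLocalRing.ResidueField A) Fb]
    (ρ : O →+* Fb) (hker : ∀ z : O, z ∈ IsLocalRing.maximalIdeal O → ρ z = 0)
    (hρA : ∀ (c : A) (h : algebraMap L F (c : L) ∈ O),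
      ρ ⟨_, h⟩ = algebraMap (IsLocalRing.ResidueField A) Fb (IsLocalRing.residue A c))
    {n : ℕ} {x : F} {y : Fin n → F} (hx : x ∈ O) (hy : ∀ i, y i ∈ O)
    (htr : Transcendental (IsLocalRing.ResidueField A) (ρ ⟨x, hx⟩))
    (hlin : LinearIndependent ↥((IsLocalRing.ResidueField A)⟮ρ ⟨x, hx⟩⟯)
      (fun i => ρ ⟨y i, hy i⟩)) :
    IsGaussOrtho L O x y := by
  refine isGaussOrtho_of_reduction ρ (fun z hz => hker z ?_) (redA O A hA)
    (fun a => hρA ⟨(a : L), (hA a).1 a.2⟩ a.2) hx hy fun q hq => ?_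
  · obtain ⟨_, h⟩ := (ValuationSubring.mem_nonunits_iff_exists_mem_maximalIdeal).1 hz
    exact h
  · -- coefficients in `k(x̄)`
    set xb := ρ ⟨x, hx⟩ with hxb
    have hmem : ∀ i, aeval xb (q i) ∈ (IsLocalRing.ResidueField A)⟮xb⟯ := fun i => by
      rw [aeval_def, eval₂_eq_sum_range]
      refine sum_mem fun j _ => mul_mem (IntermediateField.algebraMap_mem _ _) (pow_mem (mem_adjoin_simple_self _ _) _)
    have h0 : ∑ i, (⟨aeval xb (q i), hmem i⟩ : ↥((IsLocalRing.ResidueField A)⟮xb⟯)) •
        ρ ⟨y i, hy i⟩ = 0 := by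
      rw [← hq]
      refine Finset.sum_congr rfl fun i _ => ?_
      rw [IntermediateField.smul_def, smul_eq_mul]
    have h1 := (Fintype.linearIndependent_iff.mp hlin) _ h0
    intro i
    have h2 : aeval xb (q i) = 0 := congrArg Subtype.val (h1 i)
    exact (transcendental_iff.mp htr) (q i) h2

end Abstract

/-! ### The two `k`-module structures on `k((q))` -/

section ModuleDiamond

variable (k : Type*) [Field k]

/-- On `k((q))` the module structure coming from the (default) algebra instance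
`HahnSeries.powerSeriesAlgebra` is EQUAL (not definitionally) to the coefficientwise one
`HahnSeries.instModule` used by `Level33` (`LinearIndependent k _`, `Submodule.span k _`). -/
theorem laurent_module_eq :
    (Algebra.toModule : Module k (LaurentSeries k)) = (HahnSeries.instModule) := by
  refine Module.ext' _ _ fun r x => ?_
  show algebraMap k (LaurentSeries k) r * x = r • x
  rw [algebraMap_laurentSeries_eq_single, HahnSeries.single_zero_mul_eq_smul]

variable {k}

/-- transport of linear independence between the two module structures -/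
theorem linearIndependent_instModule {ι : Type*} {v : ι → LaurentSeries k}
    (h : @LinearIndependent ι k (LaurentSeries k) v _ _ Algebra.toModule) :
    @LinearIndependent ι k (LaurentSeries k) v _ _ HahnSeries.instModule := by
  rw [← laurent_module_eq k]
  exact h

end ModuleDiamond

/-! ### The concrete frame of `F_M` -/

section Concrete

variable (A : ValuationSubring Kb) {ℓ : ℕ} [Fact ℓ.Prime] (hA : A.LiesOverPrime ℓ)
  (M : ℕ) [NeZero M] (hM : ¬ ℓ ∣ M)

/-- lift of an integral series to `A((q))` -/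
def liftZ : LaurentSeries ℤ →+* LaurentSeries A := coeffMap (Int.castRingHom A)

theorem incl_liftZ (s : LaurentSeries ℤ) :
    incl A (liftZ A s) = coeffMap (Int.castRingHom Kb) s := by
  rw [incl, liftZ, coeffMap_coeffMap]
  exact coeffMap_congr (RingHom.ext_int _ _) s

theorem red_liftZ (s : LaurentSeries ℤ) :
    red A (liftZ A s) = coeffMap (Int.castRingHom (kA A)) s := by
  rw [red, liftZ, coeffMap_coeffMap]
  exact coeffMap_congr (RingHom.ext_int _ _) s

theorem incl_jqModC : incl A (jqModC A) = jqModC Kb := coeffMap_jqModC _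

theorem red_jqModC : red A (jqModC A) = jqModC (kA A) := coeffMap_jqModC _

/-- `j` as an element of `F_M` -/
def jM : FK M := ⟨jqModC Kb, Bridge28.jqModC_mem_bar M⟩

theorem jM_eq_jF : jM M = Fermat.Agent.S24.jF M :=
  Subtype.ext (Bridge28.coeffEmb_jq).symm

theorem finrank_adjoin_jM : finrank Kb⟮jM M⟯ (FK M) = dedekindPsi M := by
  rw [jM_eq_jF]
  exact Fermat.Agent.S24.Exports.degOver_jF M

variable {A M}

section WithO

variable (O : ValuationSubring (FK M)) (ρ : O →+* LaurentSeries (kA A))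
  (ker_ρ : ∀ x : O, ρ x = 0 ↔ x ∈ IsLocalRing.maximalIdeal O)
  (ρ_incl : ∀ (U : LaurentSeries A) (h : incl A U ∈ modularFunctionFieldBar M),
    ∃ hO : (⟨incl A U, h⟩ : FK M) ∈ O, ρ ⟨_, hO⟩ = red A U)
  (const_mem : ∀ c : Kb, algebraMap Kb (FK M) c ∈ O ↔ c ∈ A)
  (ρ_const : ∀ (c : A) (h : algebraMap Kb (FK M) (c : Kb) ∈ O),
    ρ ⟨_, h⟩ = HahnSeries.C (IsLocalRing.residue A c))

include ρ_incl in
theorem jM_mem : ∃ hO : jM M ∈ O, ρ ⟨_, hO⟩ = jqModC (kA A) := by
  have h : incl A (jqModC A) ∈ modularFunctionFieldBar M := by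
    rw [incl_jqModC]; exact Bridge28.jqModC_mem_bar M
  obtain ⟨hO, hρ⟩ := ρ_incl (jqModC A) h
  have heq : (⟨incl A (jqModC A), h⟩ : FK M) = jM M := Subtype.ext (incl_jqModC A)
  have hO' : jM M ∈ O := heq ▸ hO
  refine ⟨hO', ?_⟩
  have hsub : (⟨jM M, hO'⟩ : O) = ⟨⟨incl A (jqModC A), h⟩, hO⟩ := Subtype.ext heq.symm
  rw [hsub, hρ, red_jqModC]

include ρ_incl in
theorem monomial_mem (s : LaurentSeries ℤ)
    (hs : coeffMap (Int.castRingHom Kb) s ∈ modularFunctionFieldBar M) :
    ∃ hO : (⟨coeffMap (Int.castRingHom Kb) s, hs⟩ : FK M) ∈ O,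
      ρ ⟨_, hO⟩ = coeffMap (Int.castRingHom (kA A)) s := by
  have h : incl A (liftZ A s) ∈ modularFunctionFieldBar M := by
    rw [incl_liftZ]; exact hs
  obtain ⟨hO, hρ⟩ := ρ_incl (liftZ A s) h
  have heq : (⟨incl A (liftZ A s), h⟩ : FK M) = ⟨coeffMap (Int.castRingHom Kb) s, hs⟩ :=
    Subtype.ext (incl_liftZ A s)
  have hO' : (⟨coeffMap (Int.castRingHom Kb) s, hs⟩ : FK M) ∈ O := heq ▸ hO
  refine ⟨hO', ?_⟩
  have hsub : (⟨⟨coeffMap (Int.castRingHom Kb) s, hs⟩, hO'⟩ : O) =
      ⟨⟨incl A (liftZ A s), h⟩, hO⟩ := Subtype.ext heq.symm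
  rw [hsub, hρ, red_liftZ]

include hA hM ker_ρ ρ_incl const_mem ρ_const in
/-- **The concrete Gauss-orthonormal frame**: `x = j` and `ψ(M)` integral monomials. -/
theorem isGaussOrtho_frame :
    ∃ y : Fin (dedekindPsi M) → FK M, IsGaussOrtho Kb O (jM M) y := by
  obtain ⟨s, _, hsbar, _, hlin⟩ := Bridge28.exists_frame_of_liesOver A hA M hM
  obtain ⟨hj, hρj⟩ := jM_mem O ρ ρ_incl
  choose hy hρy using fun i => monomial_mem O ρ ρ_incl (s i) (hsbar i)
  refine ⟨fun i => ⟨coeffMap (Int.castRingHom Kb) (s i), hsbar i⟩, ?_⟩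
  refine isGaussOrtho_of_frame const_mem ρ (fun z hz => (ker_ρ z).2 hz) (fun c h => ?_) hj hy ?_ ?_
  · rw [ρ_const c h, algebraMap_laurentSeries_eq_single]; rfl
  · rw [hρj]; exact Fermat.Agent.S28.MainKernel.transcendental_jqModC' _
  · rw [hρj]
    have hfun : (fun i => ρ ⟨(⟨coeffMap (Int.castRingHom Kb) (s i), hsbar i⟩ : FK M), hy i⟩) =
        fun i => coeffMap (Int.castRingHom (kA A)) (s i) := funext hρy
    rw [hfun]
    exact hlin

include hA hM ker_ρ ρ_incl const_mem ρ_const in
/-- **The field `lattice` of `Level33.LevelData`, verbatim.** -/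
theorem lattice_field : ∀ V : Submodule Kb (FK M), Module.Finite Kb V →
    ∃ (r : ℕ) (e : Fin r → FK M) (he : ∀ i, e i ∈ O), r = finrank Kb V ∧ (∀ i, e i ∈ V) ∧
      LinearIndependent (kA A) (fun i => ρ ⟨e i, he i⟩) ∧
      ∀ z ∈ V, z ∈ O → ∃ α : Fin r → Kb, (∀ i, α i ∈ A) ∧ z = ∑ i, α i • e i := by
  intro V hV
  obtain ⟨y, hG⟩ := isGaussOrtho_frame hA hM O ρ ker_ρ ρ_incl const_mem ρ_const
  have hψ : 0 < dedekindPsi M := by
    have h := finrank_adjoin_jM M
    have hpos : 0 < finrank Kb⟮jM M⟯ (FK M) := by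
      have : FiniteDimensional Kb⟮jM M⟯ (FK M) := by
        rw [jM_eq_jF]; exact (Fermat.Agent.S24.Exports.isFunctionFieldOver_jF M).finite
      exact finrank_pos
    omega
  obtain ⟨r, e, he, hr, heV, hli, hrep⟩ := lattice_of_gaussOrtho const_mem ρ
    (fun c h => by rw [ρ_const c h, algebraMap_laurentSeries_eq_single]; rfl) hψ hG
    (finrank_adjoin_jM M) V hV
  exact ⟨r, e, he, hr, heV, linearIndependent_instModule hli, hrep⟩

end WithO

end Concrete

end Fermat.Agent.S18.LatticeInst56
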