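/-
S18 moonshot, package [CUSP-LITE] (helper3), (C-SEMI) INSTANCE FORM.

`CuspSemi3.card_add_dwGenus_le` with its integrality hypothesis discharged from helper95's
`GaussInt95` package (`IsGauss`, `IsOrtho`, `RedCompat`: exactly what helper29's `GaussM29` proves for
the level-`M` frame), in the shape consumed by `GenusField39.genus_field_four/nine` and
`GenusEqMod8.dwGenus_FM_le` (`hsemi` / `hCsemi`, with `RH92.cInf`):

  `cInf_add_dwGenus_le hG hb hred G hGred hn :
      RH92.cInf k Fb + dwGenus k Fb ≤ RH92.cInf K F + dwGenus K F`.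
No sorry.
-/
import Fermat.Agent.S18.CuspSemi3
import Fermat.Agent.S18.LevelInt73
import Fermat.Agent.S18.RH92.RatFunc

set_option autoImplicit false
set_option linter.unusedSectionVars false

open Polynomial AlgebraicCurve IsDedekindDomain Module
open scoped Classical

noncomputable section

namespace Fermat.Agent.S18.CuspSemiInst3

open Fermat.Agent.S20.NormalBasis (Oinf)
open Fermat.Agent.S20 Fermat.Agent.S20.T1
open Fermat.Agent.S18.DW63 Fermat.Agent.S18.CuspSemi3

variable {K F : Type*} [Field K] [IsAlgClosed K] [Field F] [Algebra K F] [Algebra (RatFunc K) F]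
  [IsScalarTower K (RatFunc K) F] [Algebra K[X] F] [IsScalarTower K[X] (RatFunc K) F]
  [FiniteDimensional (RatFunc K) F] [Algebra.IsSeparable (RatFunc K) F]
  {k Fb : Type*} [Field k] [IsAlgClosed k] [Field Fb] [Algebra k Fb] [Algebra (RatFunc k) Fb]
  [IsScalarTower k (RatFunc k) Fb] [Algebra k[X] Fb] [IsScalarTower k[X] (RatFunc k) Fb]
  [FiniteDimensional (RatFunc k) Fb] [Algebra.IsSeparable (RatFunc k) Fb]
  {A : ValuationSubring K} {O : ValuationSubring F} (π : A →+* k) (red : O →+* Fb)

/-- the two-chart integrality lemma in the `L(rE)` shape of `CuspSemi3.card_add_dwGenus_le`. -/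
theorem red_mem_LE (hG : GaussInt95.IsGauss A O) {ι : Type*} [Fintype ι]
    {bas : Module.Basis ι (RatFunc K) F} (hb : GaussInt95.IsOrtho O bas)
    (hred : GaussInt95.RedCompat π red) (r : ℕ) {y : F} (hy : y ∈ LE K F r) (hyO : y ∈ O) :
    red ⟨y, hyO⟩ ∈ LE k Fb r := by
  obtain ⟨h1, h2⟩ := (mem_LE_iff K F r y).mp hy
  have hz2 : IsIntegral (GaussInt95.Oinf K) (y / GaussInt95.xF K F ^ r) := by
    have : y / GaussInt95.xF K F ^ r = xF K F ^ (-(r : ℤ)) * y := by
      show y / xF K F ^ r = _
      rw [zpow_neg, zpow_natCast]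
      field_simp
    rw [this]
    exact h2
  obtain ⟨r1, r2⟩ := GaussInt95.red_isIntegral π red hG hb hred hyO h1 r hz2
  rw [mem_LE_iff]
  refine ⟨r1, ?_⟩
  have : xF k Fb ^ (-(r : ℤ)) * red ⟨y, hyO⟩ = red ⟨y, hyO⟩ / GaussInt95.xF k Fb ^ r := by
    show _ = red ⟨y, hyO⟩ / xF k Fb ^ r
    rw [zpow_neg, zpow_natCast]
    field_simp
  rw [this]
  exact r2

/-- **(C-SEMI), instance form**: from the Gauss/orthonormal-frame/reduction-compatibility package
of `GaussInt95` and a `KGauss73.GaussData` whose reduction is `red`. -/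
theorem cInf_add_dwGenus_le (hG : GaussInt95.IsGauss A O) {ι : Type*} [Fintype ι]
    {bas : Module.Basis ι (RatFunc K) F} (hb : GaussInt95.IsOrtho O bas)
    (hred : GaussInt95.RedCompat π red)
    (G : KGauss73.GaussData (L := K) O.valuation k Fb)
    (hGred : ∀ (y : F) (hy : y ∈ O), G.redF y = red ⟨y, hy⟩)
    (hn : finrank (RatFunc K) F = finrank (RatFunc k) Fb) :
    RH92.cInf k Fb + dwGenus k Fb ≤ RH92.cInf K F + dwGenus K F := by
  have h := card_add_dwGenus_le (L := K) (F := F) (k := k) (Fb := Fb) O.valuation G hn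
    (fun r y hy hwy => by
      have hyO : y ∈ O := (ValuationSubring.valuation_le_one_iff O y).mp hwy
      rw [hGred y hyO]
      exact red_mem_LE π red hG hb hred r hy hyO)
  rw [RH92.card_primesOverFinset_eq_fintypeCard, RH92.card_primesOverFinset_eq_fintypeCard]
  exact_mod_cast h

end Fermat.Agent.S18.CuspSemiInst3
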