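/-
S18 / [DWBAR] fields of `Level33.LevelData` (helper47), ABSTRACT HALF.

Setting: helper63's separable RatFunc setting `DW63` (`k` any field, `F / RatFunc k` finite
separable, `Bfin`/`Binf` the two integral closures) TOGETHER WITH a `k`-algebra embedding
`φ : F →ₐ[k] LaurentSeries k` with `φ (xF k F) = jqModC k` (for `F = F̄_M = modularFunctionFieldFullC k M`
this is the inclusion).  From a Dedekind–Weber normal basis `(u, d)` we produce, in EXACTLY the shape
of `Level33.fam` / `Level33.Lbar`: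

* `ub i := φ (u i)`, `db := d`;
* `indep : LinearIndependent k (Level33.fam ub)`;
* `mem_Lbar_iff : φ z ∈ Level33.Lbar ub db a b ↔ xF ^ b * z ∈ Bfin ∧ xF ^ (-a) * z ∈ Binf`
  (the integrality description needed by the [INT] fields `red_mem`, `root_mem`);
* `one_mem`, `Lbar_le_range`, `root_mem`, `mul_mem`;
* `sum_db : Σ db = dwGenus + n - 1` (for [GENUS]).

Everything is bundled in `DWBarData` / `nonempty_dwBarData`.  Complete proofs.
-/
import Fermat.Agent.S18.Level33
import Fermat.Agent.S18.DW63.Genus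

set_option autoImplicit false
set_option linter.unusedSectionVars false
set_option linter.unusedVariables false

open Polynomial Module ModularCurve

noncomputable section

namespace Fermat.Agent.S18.DWBar47

open Fermat.Agent.S20.NormalBasis (Oinf)
open Fermat.Agent.S20 Fermat.Agent.S20.T1
open Fermat.Agent.S20.LatticeDims (scaled latticeInter coordSpace mem_coordSpace mem_latticeInter
  mem_inter_iff_mem_latticeInter intDegree_X_zpow)
open Fermat.Agent.S18.Level33 (fam IdxF Lbar mem_IdxF)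

/-! ### `X ^ e`, `e : ℤ`, are `k`-linearly independent in `RatFunc k` -/

section XPow

open scoped RatFunc

variable {k : Type*} [Field k]

theorem linearIndependent_X_zpow :
    LinearIndependent k (fun e : ℤ => ((RatFunc.X : RatFunc k)) ^ e) := by
  rw [linearIndependent_iff']
  intro s g hg e he
  have h1 := congrArg (algebraMap (RatFunc k) (LaurentSeries k)) hg
  rw [map_sum, map_zero] at h1
  have h2 : ∀ i ∈ s, algebraMap (RatFunc k) (LaurentSeries k) (g i • (RatFunc.X : RatFunc k) ^ i) =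
      HahnSeries.single i (g i) := by
    intro i _
    rw [Algebra.smul_def, map_mul, map_zpow₀]
    have hC : (algebraMap (RatFunc k) (LaurentSeries k)) ((algebraMap k (RatFunc k)) (g i)) =
        HahnSeries.C (g i) := by
      rw [RatFunc.algebraMap_eq_C, ← RatFunc.algebraMap_C,
        ← IsScalarTower.algebraMap_apply k[X] (RatFunc k) (LaurentSeries k)]
      simp
    rw [hC]
    have hX : algebraMap (RatFunc k) (LaurentSeries k) RatFunc.X = HahnSeries.single 1 1 :=
      RatFunc.coe_X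
    rw [hX, ← RatFunc.single_zpow, HahnSeries.C_mul_eq_smul]
    ext j
    simp [HahnSeries.coeff_single]
  rw [Finset.sum_congr rfl h2] at h1
  have h3 : (∑ x ∈ s, HahnSeries.single x (g x) : LaurentSeries k).coeff e = g e := by
    rw [HahnSeries.coeff_sum, Finset.sum_eq_single_of_mem e he]
    · simp
    · intro j _ hj
      exact HahnSeries.coeff_single_of_ne (Ne.symm hj)
  rw [h1] at h3
  simpa using h3.symm

end XPow

/-! ### Linear algebra: the family `X ^ e • u i` -/

section LinAlg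

variable {k : Type*} [Field k] {F : Type*} [Field F] [Algebra k F] [Algebra (RatFunc k) F]
  [IsScalarTower k (RatFunc k) F] {n : ℕ}

/-- the family `X ^ e • u i` in `F` -/
def famF (u : Basis (Fin n) (RatFunc k) F) (p : Fin n × ℤ) : F :=
  ((RatFunc.X : RatFunc k) ^ p.2) • u p.1

theorem linearIndependent_famF (u : Basis (Fin n) (RatFunc k) F) :
    LinearIndependent k (famF u) := by
  have h := linearIndependent_smul (R := k) (linearIndependent_X_zpow (k := k))
    u.linearIndependent
  exact h.comp (fun p : Fin n × ℤ => (p.2, p.1)) (fun a b hab => by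
    have h1 := (Prod.mk.inj hab).1
    have h2 := (Prod.mk.inj hab).2
    exact Prod.ext h2 h1)

/-- the span of `X ^ e • u i`, `-b ≤ e ≤ a - d i` -/
def spanF (u : Basis (Fin n) (RatFunc k) F) (d : Fin n → ℤ) (a b : ℤ) : Submodule k F :=
  Submodule.span k (famF u '' (IdxF d a b : Set (Fin n × ℤ)))

theorem famF_mem_spanF {u : Basis (Fin n) (RatFunc k) F} {d : Fin n → ℤ} {a b : ℤ}
    {p : Fin n × ℤ} (h1 : -b ≤ p.2) (h2 : p.2 ≤ a - d p.1) : famF u p ∈ spanF u d a b :=
  Submodule.subset_span ⟨p, by rw [Finset.mem_coe, mem_IdxF]; exact ⟨h1, h2⟩, rfl⟩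

/-- multiplication by `X ^ b` as a `k`-linear map -/
def mulX (b : ℤ) : F →ₗ[k] F :=
  (LinearMap.lsmul (RatFunc k) F ((RatFunc.X : RatFunc k) ^ b)).restrictScalars k

@[simp] theorem mulX_apply (b : ℤ) (z : F) :
    mulX (k := k) b z = ((RatFunc.X : RatFunc k) ^ b) • z := rfl

theorem X_zpow_mem_coordSpace {m c : ℤ} (h0 : 0 ≤ m) (hc : m ≤ -c) :
    ((RatFunc.X : RatFunc k) ^ m) ∈ coordSpace (k := k) c := by
  rw [mem_coordSpace]
  refine ⟨⟨(X : k[X]) ^ m.toNat, ?_⟩, Or.inr ?_⟩
  · rw [map_pow, RatFunc.algebraMap_X, ← zpow_natCast, Int.toNat_of_nonneg h0]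
  · rw [intDegree_X_zpow]
    exact hc

/-- **coordinate description** of `spanF`. -/
theorem mem_spanF_iff (u : Basis (Fin n) (RatFunc k) F) (d : Fin n → ℤ) (a b : ℤ) (z : F) :
    z ∈ spanF u d a b ↔
      ((RatFunc.X : RatFunc k) ^ b) • z ∈ latticeInter u fun i => d i - (a + b) := by
  constructor
  · intro hz
    have hle : spanF u d a b ≤ (latticeInter u fun i => d i - (a + b)).comap (mulX (k := k) b) := by
      rw [spanF, Submodule.span_le]
      rintro _ ⟨p, hp, rfl⟩
      rw [Finset.mem_coe, mem_IdxF] at hp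
      rw [SetLike.mem_coe, Submodule.mem_comap, mulX_apply, famF, smul_smul, ← zpow_add₀
        RatFunc.X_ne_zero, mem_latticeInter]
      intro j
      rw [map_smul, Finsupp.smul_apply, u.repr_self, smul_eq_mul]
      by_cases hj : p.1 = j
      · rw [hj, Finsupp.single_eq_same, mul_one]
        apply X_zpow_mem_coordSpace
        · omega
        · have := hp.2; rw [hj] at this; omega
      · rw [Finsupp.single_eq_of_ne (Ne.symm hj), mul_zero]
        exact Submodule.zero_mem _
    exact hle hz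
  · intro hz
    rw [mem_latticeInter] at hz
    rw [← u.sum_repr z]
    refine Submodule.sum_mem _ fun i _ => ?_
    -- the `i`-th coordinate
    have hi := hz i
    rw [map_smul, Finsupp.smul_apply, smul_eq_mul] at hi
    obtain ⟨p, hp, hpe⟩ := hi
    rw [SetLike.mem_coe, mem_degreeLT] at hp
    have hpe' : algebraMap k[X] (RatFunc k) p = (RatFunc.X : RatFunc k) ^ b * u.repr z i := hpe
    have hr : u.repr z i = (RatFunc.X : RatFunc k) ^ (-b) * algebraMap k[X] (RatFunc k) p := by
      rw [hpe', ← mul_assoc, ← zpow_add₀ RatFunc.X_ne_zero, neg_add_cancel, zpow_zero, one_mul]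
    rw [hr, ← p.sum_monomial_eq, Polynomial.sum_def, map_sum, Finset.mul_sum, Finset.sum_smul]
    refine Submodule.sum_mem _ fun j hj => ?_
    have hjlt : (j : ℤ) < (1 - (d i - (a + b))).toNat := by
      have h1 : (j : WithBot ℕ) ≤ p.degree := le_degree_of_mem_supp j hj
      have h2 : (j : WithBot ℕ) < ((1 - (d i - (a + b))).toNat : ℕ) := lt_of_le_of_lt h1 hp
      exact_mod_cast h2
    have hterm : ((RatFunc.X : RatFunc k) ^ (-b) *
        algebraMap k[X] (RatFunc k) (monomial j (p.coeff j))) • u i =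
        (p.coeff j) • famF u (i, (j : ℤ) - b) := by
      rw [← C_mul_X_pow_eq_monomial, map_mul, map_pow, RatFunc.algebraMap_X, RatFunc.algebraMap_C,
        ← RatFunc.algebraMap_eq_C, famF, ← zpow_natCast, mul_left_comm,
        ← zpow_add₀ RatFunc.X_ne_zero, mul_smul, algebraMap_smul, neg_add_eq_sub]
    rw [hterm]
    refine Submodule.smul_mem _ _ (famF_mem_spanF ?_ ?_)
    · show -b ≤ (j : ℤ) - b
      omega
    · show (j : ℤ) - b ≤ a - d i
      omega

instance (u : Basis (Fin n) (RatFunc k) F) (d : Fin n → ℤ) (a b : ℤ) :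
    Module.Finite k (spanF u d a b) :=
  Module.Finite.span_of_finite k ((IdxF d a b).finite_toSet.image _)

/-! ### transport to `LaurentSeries k` -/

variable (φ : F →ₐ[k] LaurentSeries k)

/-- `ub i = φ (u i)` -/
def ubOf (u : Basis (Fin n) (RatFunc k) F) : Fin n → LaurentSeries k := fun i => φ (u i)

theorem φ_injective : Function.Injective φ := φ.toRingHom.injective

/-- `φ` as a `k`-linear map for the `HahnSeries` module structure on `LaurentSeries k`
(the one used by `Level33.Lbar`). -/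
def φl : F →ₗ[k] LaurentSeries k where
  toFun := φ
  map_add' := map_add φ
  map_smul' c z := by
    show φ (c • z) = c • φ z
    rw [Algebra.smul_def, map_mul, AlgHom.commutes, algebraMap_laurentSeries_eq_single]
    exact HahnSeries.C_mul_eq_smul

@[simp] theorem φl_apply (z : F) : φl φ z = φ z := rfl

theorem φl_injective : Function.Injective (φl φ) := φ_injective φ

variable {φ}

theorem map_X_zpow_smul (hφ : φ (algebraMap (RatFunc k) F RatFunc.X) = jqModC k) (e : ℤ) (z : F) :
    φ (((RatFunc.X : RatFunc k) ^ e) • z) = jqModC k ^ e * φ z := by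
  rw [Algebra.smul_def, map_mul, map_zpow₀, map_zpow₀, hφ]

theorem map_famF (hφ : φ (algebraMap (RatFunc k) F RatFunc.X) = jqModC k)
    (u : Basis (Fin n) (RatFunc k) F) (p : Fin n × ℤ) :
    φ (famF u p) = fam (ubOf φ u) p := by
  rw [famF, map_X_zpow_smul hφ]
  rfl

theorem indep (hφ : φ (algebraMap (RatFunc k) F RatFunc.X) = jqModC k)
    (u : Basis (Fin n) (RatFunc k) F) : LinearIndependent k (fam (ubOf φ u)) := by
  have h := (linearIndependent_famF u).map' (φl φ)
    (LinearMap.ker_eq_bot.mpr (φl_injective φ))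
  have h2 : (φl φ ∘ famF u) = fam (ubOf φ u) := by
    funext p
    exact map_famF hφ u p
  rwa [h2] at h

theorem Lbar_eq_map (hφ : φ (algebraMap (RatFunc k) F RatFunc.X) = jqModC k)
    (u : Basis (Fin n) (RatFunc k) F) (d : Fin n → ℤ) (a b : ℤ) :
    Lbar (ubOf φ u) d a b = (spanF u d a b).map (φl φ) := by
  rw [Lbar, spanF, Submodule.map_span, Set.image_image]
  congr 1
  apply Set.image_congr
  intro p _
  exact (map_famF hφ u p).symm

theorem mem_Lbar_iff_mem_spanF (hφ : φ (algebraMap (RatFunc k) F RatFunc.X) = jqModC k)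
    (u : Basis (Fin n) (RatFunc k) F) (d : Fin n → ℤ) (a b : ℤ) (z : F) :
    φ z ∈ Lbar (ubOf φ u) d a b ↔ z ∈ spanF u d a b := by
  rw [Lbar_eq_map hφ]
  constructor
  · rintro ⟨y, hy, hyz⟩
    have : y = z := φ_injective φ hyz
    rwa [← this]
  · intro hz
    exact ⟨z, hz, rfl⟩

theorem Lbar_le_range (hφ : φ (algebraMap (RatFunc k) F RatFunc.X) = jqModC k)
    (u : Basis (Fin n) (RatFunc k) F) (d : Fin n → ℤ) (a b : ℤ) :
    ∀ w ∈ Lbar (ubOf φ u) d a b, ∃ z : F, φ z = w := by
  intro w hw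
  rw [Lbar_eq_map hφ] at hw
  obtain ⟨y, _, hy⟩ := hw
  exact ⟨y, hy⟩

end LinAlg

/-! ### The Dedekind–Weber normal basis: integrality description of `L̄(a,b)` -/

section DW

variable {k F : Type*} [Field k] [Field F] [Algebra k F] [Algebra (RatFunc k) F]
  [IsScalarTower k (RatFunc k) F] [Algebra k[X] F] [IsScalarTower k[X] (RatFunc k) F]
  [FiniteDimensional (RatFunc k) F] [Algebra.IsSeparable (RatFunc k) F] {n : ℕ}

theorem X_zpow_smul_eq (e : ℤ) (z : F) :
    ((RatFunc.X : RatFunc k) ^ e) • z = xF k F ^ e * z := by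
  rw [Algebra.smul_def, map_zpow₀]
  rfl

/-- For a normal basis `(u, d)`: `spanF u d a b = {z | x^b z ∈ Bfin, x^(-a) z ∈ Binf}`. -/
theorem mem_spanF_iff_integral (u : Basis (Fin n) (RatFunc k) F) (d : Fin n → ℤ)
    (hu : Submodule.span k[X] (Set.range u) = Subalgebra.toSubmodule (Bfin k F))
    (hd : Submodule.span (Oinf k) (Set.range (scaled u d)) = Subalgebra.toSubmodule (Binf k F))
    (a b : ℤ) (z : F) :
    z ∈ spanF u d a b ↔ xF k F ^ b * z ∈ Bfin k F ∧ xF k F ^ (-a) * z ∈ Binf k F := by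
  rw [mem_spanF_iff,
    ← mem_inter_iff_mem_latticeInter (Rinf := Oinf k) DW63.range_algebraMap_Oinf u,
    ← DW63.smul_mem_span_scaled_iff, hu, hd, smul_smul, ← zpow_add₀ RatFunc.X_ne_zero,
    X_zpow_smul_eq, X_zpow_smul_eq]
  have h : -(a + b) + b = -a := by ring
  rw [h]
  rfl

variable {φ : F →ₐ[k] LaurentSeries k}

/-- **Integrality description of `Level33.Lbar`** for a normal basis. -/
theorem mem_Lbar_iff (hφ : φ (xF k F) = jqModC k)
    (u : Basis (Fin n) (RatFunc k) F) (d : Fin n → ℤ)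
    (hu : Submodule.span k[X] (Set.range u) = Subalgebra.toSubmodule (Bfin k F))
    (hd : Submodule.span (Oinf k) (Set.range (scaled u d)) = Subalgebra.toSubmodule (Binf k F))
    (a b : ℤ) (z : F) :
    φ z ∈ Lbar (ubOf φ u) d a b ↔ xF k F ^ b * z ∈ Bfin k F ∧ xF k F ^ (-a) * z ∈ Binf k F := by
  rw [mem_Lbar_iff_mem_spanF hφ, mem_spanF_iff_integral u d hu hd]

variable [IsAlgClosed k]

variable (k F) in
/-- The [DWBAR] package of `Level33.LevelData` (plus what [INT] and [GENUS] need), for the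
embedding `φ : F → k((q))`. -/
structure DWBarData (φ : F →ₐ[k] LaurentSeries k) (n : ℕ) where
  ub : Fin n → LaurentSeries k
  db : Fin n → ℤ
  indep : LinearIndependent k (fam ub)
  mem_iff : ∀ (a b : ℤ) (z : F),
    φ z ∈ Lbar ub db a b ↔ xF k F ^ b * z ∈ Bfin k F ∧ xF k F ^ (-a) * z ∈ Binf k F
  le_range : ∀ (a b : ℤ), ∀ w ∈ Lbar ub db a b, ∃ z : F, φ z = w
  sum_db : ∑ i, db i = (DW63.dwGenus k F : ℤ) + n - 1

/-- **[DWBAR]**: existence of the package, from the Dedekind–Weber normal basis. -/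
theorem nonempty_dwBarData (hφ : φ (xF k F) = jqModC k) (hn : finrank (RatFunc k) F = n) :
    Nonempty (DWBarData k F φ n) := by
  subst hn
  obtain ⟨u, d, hu, hd⟩ := DW63.exists_normal_basis k F
  refine ⟨{
    ub := ubOf φ u
    db := d
    indep := indep hφ u
    mem_iff := mem_Lbar_iff hφ u d hu hd
    le_range := Lbar_le_range hφ u d
    sum_db := ?_ }⟩
  have h := DW63.dwGenus_eq u d hu hd
  rw [h]
  ring

namespace DWBarData

variable (Dat : DWBarData k F φ n)

/-- `1 ∈ L̄(0,0)` (the field `one_mem` of `Level33.LevelData`). -/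
theorem one_mem : (1 : LaurentSeries k) ∈ Lbar Dat.ub Dat.db 0 0 := by
  have h := (Dat.mem_iff 0 0 1).2 ⟨by rw [zpow_zero, mul_one]; exact Subalgebra.one_mem _,
    by rw [neg_zero, zpow_zero, mul_one]; exact Subalgebra.one_mem _⟩
  rwa [map_one] at h

/-- integrality form, natural exponents (the shape of `GaussInt95.red_isIntegral`). -/
theorem mem_iff_nat (a b : ℕ) (z : F) :
    φ z ∈ Lbar Dat.ub Dat.db a b ↔
      IsIntegral k[X] (xF k F ^ b * z) ∧ IsIntegral (Oinf k) (z / xF k F ^ a) := by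
  rw [Dat.mem_iff, zpow_natCast, zpow_neg, zpow_natCast, div_eq_inv_mul]
  rfl

/-- `L̄` is multiplicative. -/
theorem mul_mem {a b a' b' : ℤ} {z z' : F} (hz : φ z ∈ Lbar Dat.ub Dat.db a b)
    (hz' : φ z' ∈ Lbar Dat.ub Dat.db a' b') :
    φ (z * z') ∈ Lbar Dat.ub Dat.db (a + a') (b + b') := by
  rw [Dat.mem_iff] at hz hz' ⊢
  have hx : xF k F ≠ 0 := DW63.xF_ne_zero k F
  refine ⟨?_, ?_⟩
  · have h := Subalgebra.mul_mem _ hz.1 hz'.1
    have e : xF k F ^ (b + b') * (z * z') = xF k F ^ b * z * (xF k F ^ b' * z') := by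
      rw [zpow_add₀ hx]; ring
    rwa [e]
  · have h := Subalgebra.mul_mem _ hz.2 hz'.2
    have e : xF k F ^ (-(a + a')) * (z * z') = xF k F ^ (-a) * z * (xF k F ^ (-a') * z') := by
      rw [neg_add, zpow_add₀ hx]; ring
    rwa [e]

/-- `L̄` is root closed (the content of the field `root_mem` of `Level33.LevelData`). -/
theorem root_mem (m : ℕ) (hm : 0 < m) (a b : ℤ) (z : F)
    (hz : (φ z) ^ m ∈ Lbar Dat.ub Dat.db (m * a) (m * b)) : φ z ∈ Lbar Dat.ub Dat.db a b := by
  rw [← map_pow, Dat.mem_iff] at hz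
  rw [Dat.mem_iff]
  have hx : xF k F ≠ 0 := DW63.xF_ne_zero k F
  refine ⟨?_, ?_⟩
  · have e : xF k F ^ ((m : ℤ) * b) * z ^ m = (xF k F ^ b * z) ^ m := by
      rw [mul_pow, ← zpow_natCast (xF k F ^ b), ← zpow_mul, mul_comm b]
    have h := hz.1
    rw [e] at h
    exact IsIntegral.of_pow hm h
  · have e : xF k F ^ (-((m : ℤ) * a)) * z ^ m = (xF k F ^ (-a) * z) ^ m := by
      rw [mul_pow, ← zpow_natCast (xF k F ^ (-a)), ← zpow_mul, mul_comm (-a), mul_neg]
    have h := hz.2
    rw [e] at h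
    exact IsIntegral.of_pow hm h

/-- the field `root_mem` of `Level33.LevelData`, for elements of the range of `φ`. -/
theorem root_mem_nat (m a b : ℕ) (hm : 0 < m) (w : LaurentSeries k) (hw : ∃ z : F, φ z = w)
    (h : w ^ m ∈ Lbar Dat.ub Dat.db ((m * a : ℕ) : ℤ) ((m * b : ℕ) : ℤ)) :
    w ∈ Lbar Dat.ub Dat.db a b := by
  obtain ⟨z, rfl⟩ := hw
  refine Dat.root_mem m hm a b z ?_
  push_cast at h
  exact h

/-- the field `genus`-side identity: `Σ db - n + 1 = dwGenus`. -/
theorem sum_db_sub : ∑ i, Dat.db i - (n : ℤ) + 1 = (DW63.dwGenus k F : ℤ) := by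
  rw [Dat.sum_db]; ring

end DWBarData

end DW

end Fermat.Agent.S18.DWBar47
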