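/-
S18 / [DWBAR] fields of `Level33.LevelData` (helper47), CONCRETE HALF.

For `k : Type` an algebraically closed field, `M` with `(M : k) ≠ 0`, on the special fibre
`F̄_M = modularFunctionFieldFullC k M` with helper72's instance chain
(`letI := T1Setup.algRat (SepInst72.transcendental_xbar k M)`, `letI := T1Setup.algPoly (xbar k M)`):

* `exists_isNormalBasis`  : a Dedekind–Weber normal basis `(u, d)` indexed by `Fin n` for any `n` with
  `finrank (RatFunc k) F̄_M = n`, in BOTH shapes (`DW63` `hu ∧ hd` and `LBar95.IsNormalBasis`), together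
  with the genus identity `Σ d - n + 1 = Riemann12.gR k F̄_M` (instance-free genus);
* `exists_dwbar` : the [DWBAR] fields `ub db indep one_mem` of `Level33.LevelData` VERBATIM, plus
  range / root-closedness / genus identity, with NO instance in the statement.
Complete proofs.
-/
import Fermat.Agent.S18.DWBar47
import Fermat.Agent.S18.SepInst72
import Fermat.Agent.S18.LBar95
import Fermat.Agent.S18.DW63.Transfer

set_option autoImplicit false
set_option linter.unusedSectionVars false
set_option linter.unusedVariables false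
set_option linter.style.haveILetI false

open Polynomial Module ModularCurve

noncomputable section

namespace Fermat.Agent.S18.DWBarInst47

open Fermat.Agent.S20.NormalBasis (Oinf)
open Fermat.Agent.S20 Fermat.Agent.S20.T1
open Fermat.Agent.S20.LatticeDims (scaled)
open Fermat.Agent.S18.Level33 (fam Lbar)

/-! ### generic: the two shapes of "normal basis" agree -/

section Generic

variable {k F : Type*} [Field k] [Field F] [Algebra k F] [Algebra (RatFunc k) F]
  [IsScalarTower k (RatFunc k) F] [Algebra k[X] F] [IsScalarTower k[X] (RatFunc k) F]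
  {ι : Type*} [Fintype ι]

theorem isNormalBasis_of (u : Basis ι (RatFunc k) F) (d : ι → ℤ)
    (hu : Submodule.span k[X] (Set.range u) = Subalgebra.toSubmodule (Bfin k F))
    (hd : Submodule.span (Oinf k) (Set.range (scaled u d)) = Subalgebra.toSubmodule (Binf k F)) :
    LBar95.IsNormalBasis u d :=
  ⟨hu, hd⟩

end Generic

/-! ### the special fibre -/

section Special

variable (k : Type) [Field k] [IsAlgClosed k] (M : ℕ) [NeZero M]

/-- the inclusion `F̄_M → k((q))` -/
def inclBar : ↥(modularFunctionFieldFullC k M) →ₐ[k] LaurentSeries k :=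
  (modularFunctionFieldFullC k M).val

@[simp] theorem inclBar_apply (z : ↥(modularFunctionFieldFullC k M)) :
    inclBar k M z = (z : LaurentSeries k) := rfl

/-- **A Dedekind–Weber normal basis of the special fibre**, indexed by `Fin n`. -/
theorem exists_isNormalBasis (hM : (M : k) ≠ 0) :
    letI := T1Setup.algRat (SepInst72.transcendental_xbar k M)
    letI := T1Setup.algPoly (K := k) (SepInst72.xbar k M)
    ∀ n : ℕ, finrank (RatFunc k) ↥(modularFunctionFieldFullC k M) = n →
    ∃ (u : Basis (Fin n) (RatFunc k) ↥(modularFunctionFieldFullC k M)) (d : Fin n → ℤ),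
      (Submodule.span k[X] (Set.range u) =
        Subalgebra.toSubmodule (Bfin k ↥(modularFunctionFieldFullC k M))) ∧
      (Submodule.span (Oinf k) (Set.range (scaled u d)) =
        Subalgebra.toSubmodule (Binf k ↥(modularFunctionFieldFullC k M))) ∧
      LBar95.IsNormalBasis u d ∧
      ∑ i, d i - (n : ℤ) + 1 = Riemann12.gR k ↥(modularFunctionFieldFullC k M) := by
  letI := T1Setup.algRat (SepInst72.transcendental_xbar k M)
  letI := T1Setup.algPoly (K := k) (SepInst72.xbar k M)
  haveI := T1Setup.isScalarTower_K (SepInst72.transcendental_xbar k M)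
  haveI := T1Setup.isScalarTower_poly (SepInst72.transcendental_xbar k M)
  haveI := SepInst72.finiteDimensional_algRat k M hM
  haveI := SepInst72.isSeparable_algRat k M hM
  intro n hn
  subst hn
  obtain ⟨u, d, hu, hd⟩ := DW63.exists_normal_basis k ↥(modularFunctionFieldFullC k M)
  refine ⟨u, d, hu, hd, isNormalBasis_of u d hu hd, ?_⟩
  rw [DW63.gR_eq k ↥(modularFunctionFieldFullC k M), DW63.dwGenus_eq u d hu hd]

/-- **[DWBAR]**: the fields `ub db indep one_mem` of `Level33.LevelData` for the special fibre, in
EXACTLY their shape, with the auxiliary facts needed by [INT] (`root`, `range`) and [GENUS]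
(`Σ db - n + 1 = gR`). -/
theorem exists_dwbar (hM : (M : k) ≠ 0) :
    letI := T1Setup.algRat (SepInst72.transcendental_xbar k M)
    ∀ n : ℕ, finrank (RatFunc k) ↥(modularFunctionFieldFullC k M) = n →
    ∃ (ub : Fin n → LaurentSeries k) (db : Fin n → ℤ),
      LinearIndependent k (fam ub) ∧
      (1 : LaurentSeries k) ∈ Lbar ub db 0 0 ∧
      (∀ (a b : ℤ), ∀ w ∈ Lbar ub db a b, w ∈ modularFunctionFieldFullC k M) ∧
      (∀ (m : ℕ), 0 < m → ∀ (a b : ℤ), ∀ w ∈ modularFunctionFieldFullC k M,
        w ^ m ∈ Lbar ub db (m * a) (m * b) → w ∈ Lbar ub db a b) ∧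
      ∑ i, db i - (n : ℤ) + 1 = Riemann12.gR k ↥(modularFunctionFieldFullC k M) := by
  letI := T1Setup.algRat (SepInst72.transcendental_xbar k M)
  letI := T1Setup.algPoly (K := k) (SepInst72.xbar k M)
  haveI := T1Setup.isScalarTower_K (SepInst72.transcendental_xbar k M)
  haveI := T1Setup.isScalarTower_poly (SepInst72.transcendental_xbar k M)
  haveI := SepInst72.finiteDimensional_algRat k M hM
  haveI := SepInst72.isSeparable_algRat k M hM
  intro n hn
  have hφ : inclBar k M (xF k ↥(modularFunctionFieldFullC k M)) = jqModC k :=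
    SepInst72.algebraMap_X_coe k M
  obtain ⟨Dat⟩ := DWBar47.nonempty_dwBarData (φ := inclBar k M) hφ hn
  refine ⟨Dat.ub, Dat.db, Dat.indep, Dat.one_mem, ?_, ?_, ?_⟩
  · intro a b w hw
    obtain ⟨z, rfl⟩ := Dat.le_range a b w hw
    exact z.2
  · intro m hm a b w hw h
    exact Dat.root_mem m hm a b ⟨w, hw⟩ h
  · rw [DW63.gR_eq k ↥(modularFunctionFieldFullC k M)]
    exact Dat.sum_db_sub

end Special

end Fermat.Agent.S18.DWBarInst47
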