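/-
S18, package [DESCENT-SIGMA] (helper74) = Step 5 / P6 of blueprint 15 (helper29).

Descent of `m`-th roots from level `M = s N` to level `N` along `σ_s : q ↦ q^s`,
with NO ramification theory: only the degree bounds (S5)(S6) of S28/KEY0 and the orders of
Laurent series modulo `s`.

`K` : algebraically closed field of characteristic `0` (in `Type`), `p` prime,
`s = p` if `p ∣ N`, `s = p²` if `p ∤ N`, `M = s N`.
-/
import Mathlib
import Fermat.Prelude.Def_ModularCurve_X0ModL
import Fermat.Prelude.Def_ModularCurve_ArithmeticGalois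
import Fermat.Agent.S28.KEY0
import Fermat.Agent.S28.KeyUpper
import Fermat.Agent.S28.ModEq
import Fermat.Agent.S28.Twist

set_option autoImplicit false

noncomputable section

namespace Fermat.Agent.S18.DescentSigma74

open ModularCurve HahnSeries IntermediateField Polynomial Fermat.Agent.S28 Fermat.Agent.S28.KEY0

/-! ### Part 0: roots data over a field with a primitive root of unity -/

/-- The roots data over a field `K` with a primitive `r`-th root of unity, from `ModEqData`. -/
def rootsDataOfPrimitiveRoot {K : Type} [Field K] (r : ℕ) [NeZero r] (D : ModEqData r) (ζ : Kˣ)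
    (hζ : IsPrimitiveRoot (ζ : K) r) : RootsData K r where
  Φ := D.Phi
  monic := D.monic
  natDegree_eq := D.natDegree_eq
  ρ b := twist (ζ ^ b) (jqModC K)
  c b := (((ζ ^ b) ^ (-1 : ℤ) : Kˣ) : K)
  roots := by
    have h := D.roots K ζ (hζ.isRoot_cyclotomic (Nat.pos_of_ne_zero (NeZero.ne r)))
    have : NeZero (r * r) := ⟨Nat.mul_ne_zero (NeZero.ne r) (NeZero.ne r)⟩
    rw [tq_eq, tq_eq]
    exact h
  ρ_zero := by rw [pow_zero, twist_one]
  leads b _ := leadsAt_twist_jqModC _
  c_ne_zero b _ := Units.ne_zero _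
  c_ne_one b hb hb0 := by
    intro h
    have h1 : ((ζ ^ b) ^ (-1 : ℤ) : Kˣ) = 1 := Units.ext h
    rw [zpow_neg_one, inv_eq_one] at h1
    have h2 : ((ζ : Kˣ) : K) ^ b = 1 := by
      have := congrArg (fun u : Kˣ => (u : K)) h1
      simpa using this
    exact hζ.pow_ne_one_of_pos_of_lt hb0 hb h2

/-- In an algebraically closed field of characteristic zero there are primitive roots of unity
of every order, as units. -/
theorem exists_primitiveRoot_unit (K : Type) [Field K] [IsAlgClosed K] [CharZero K] (r : ℕ)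
    [NeZero r] : ∃ ζ : Kˣ, IsPrimitiveRoot (ζ : K) r := by
  have : NeZero (r : K) := ⟨Nat.cast_ne_zero.2 (NeZero.ne r)⟩
  obtain ⟨z, hz⟩ := IsAlgClosed.exists_root (Polynomial.cyclotomic r K)
    (Polynomial.degree_cyclotomic_pos r K (Nat.pos_of_ne_zero (NeZero.ne r))).ne'
  have hz' : IsPrimitiveRoot z r := Polynomial.isRoot_cyclotomic_iff.1 hz
  exact ⟨(hz'.isUnit (NeZero.ne r)).unit, by rw [IsUnit.unit_spec]; exact hz'⟩

/-- Roots data of every prime level over an algebraically closed field of characteristic zero. -/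
def rootsData (K : Type) [Field K] [IsAlgClosed K] [CharZero K] (r : ℕ) (hr : r.Prime) :
    RootsData K r :=
  haveI : NeZero r := ⟨hr.ne_zero⟩
  rootsDataOfPrimitiveRoot r (modEqStatement r hr).some (exists_primitiveRoot_unit K r).choose
    (exists_primitiveRoot_unit K r).choose_spec

/-! ### Part 1: upper bounds for `[F_{sN} : σ_s F_N]` -/

section Upper

variable (K : Type) [Field K] [IsAlgClosed K] [CharZero K]

omit [IsAlgClosed K] [CharZero K] in
theorem qExpandAlgHomC_comp (a b : ℕ) [NeZero a] [NeZero b] [NeZero (a * b)] :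
    (qExpandAlgHomC K a).comp (qExpandAlgHomC K b) = qExpandAlgHomC K (a * b) := by
  ext x : 1
  simp only [AlgHom.comp_apply, qExpandAlgHomC_apply]
  exact qExpand_qExpand b a x

/-- (S5)+(S6), case `p ∣ N`: `[F_{pN} : σ_p F_N] ≤ p`. -/
theorem relrank_map_le_of_dvd (p N : ℕ) [NeZero p] (hp : p.Prime) (hN : N ≠ 0) (hpN : p ∣ N) :
    ((LL K N).map (qExpandAlgHomC K p)).relrank (LL K (p * N)) ≤ (p : Cardinal) := by
  rw [map_LL K p N hN, LL_mul_eq (RingHom.id K) p N hp hN (fun r hr _ => rootsData K r hr)]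
  have h := relrank_LLp_le (RingHom.id K) p N hp (rootsData K p hp)
  rwa [if_pos hpN] at h

/-- (S5)+(S6), general case: `[F_{pN} : σ_p F_N] ≤ p + 1`. -/
theorem relrank_map_le_succ (p N : ℕ) [NeZero p] (hp : p.Prime) (hN : N ≠ 0) :
    ((LL K N).map (qExpandAlgHomC K p)).relrank (LL K (p * N)) ≤ ((p + 1 : ℕ) : Cardinal) := by
  rw [map_LL K p N hN, LL_mul_eq (RingHom.id K) p N hp hN (fun r hr _ => rootsData K r hr)]
  have h := relrank_LLp_le (RingHom.id K) p N hp (rootsData K p hp)
  refine h.trans ?_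
  split_ifs
  · exact_mod_cast Nat.le_succ p
  · exact le_rfl

omit [IsAlgClosed K] [CharZero K] in
theorem map_LL_le (p N : ℕ) [NeZero p] (hN : N ≠ 0) :
    (LL K N).map (qExpandAlgHomC K p) ≤ LL K (p * N) := by
  rw [map_LL K p N hN]
  unfold LLp
  rw [adjoin_le_iff]
  rintro x ⟨d, hd, rfl⟩
  exact tq_mem_LL (mul_dvd_mul_left p hd)

/-- Case `p ∤ N` (in fact always): `[F_{p²N} : σ_{p²} F_N] ≤ (p + 1) p`. -/
theorem relrank_map_sq_le (p N : ℕ) [NeZero p] [NeZero (p * p)] (hp : p.Prime) (hN : N ≠ 0) :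
    ((LL K N).map (qExpandAlgHomC K (p * p))).relrank (LL K (p * (p * N))) ≤
      (((p + 1) * p : ℕ) : Cardinal) := by
  have hpN : p * N ≠ 0 := Nat.mul_ne_zero hp.ne_zero hN
  set A := (LL K N).map (qExpandAlgHomC K (p * p)) with hA
  set B := (LL K (p * N)).map (qExpandAlgHomC K p) with hB
  set C := LL K (p * (p * N)) with hC
  have hA' : A = ((LL K N).map (qExpandAlgHomC K p)).map (qExpandAlgHomC K p) := by
    rw [hA, IntermediateField.map_map, qExpandAlgHomC_comp]
  have hAB : A ≤ B := by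
    rw [hA', hB]
    exact IntermediateField.map_mono _ (map_LL_le K p N hN)
  have hBC : B ≤ C := map_LL_le K p (p * N) hpN
  have h1 : A.relrank B ≤ ((p + 1 : ℕ) : Cardinal) := by
    rw [hA', hB, IntermediateField.relrank_map_map]
    exact relrank_map_le_succ K p N hp hN
  have h2 : B.relrank C ≤ (p : Cardinal) :=
    relrank_map_le_of_dvd K p (p * N) hp hpN (dvd_mul_right p N)
  rw [← relrank_mul_relrank hAB hBC]
  calc A.relrank B * B.relrank C ≤ ((p + 1 : ℕ) : Cardinal) * (p : Cardinal) :=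
        mul_le_mul' h1 h2
    _ = (((p + 1) * p : ℕ) : Cardinal) := by push_cast; rfl

end Upper

/-! ### Part 2: orders of Laurent series and the lower bound `[F_M : F_M ∩ K((q^s))] ≥ s` -/

section Lower

variable {K : Type*} [Field K]

/-- Characterisation of the order of a nonzero Laurent series. -/
theorem order_eq_of_coeff {x : LaurentSeries K} {n : ℤ} (h0 : ∀ k < n, x.coeff k = 0)
    (hn : x.coeff n ≠ 0) : x.order = n :=
  le_antisymm (HahnSeries.order_le_of_coeff_ne_zero hn)
    ((HahnSeries.le_order_iff_forall (HahnSeries.ne_zero_of_coeff_ne_zero hn)).2 h0)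

theorem order_jqModC : (jqModC K).order = -1 := by
  have h := leadsAt_jqModC K
  refine order_eq_of_coeff (fun k hk => h.1 k (by simpa using hk)) ?_
  have h2 : (jqModC K).coeff (-((1 : ℕ) : ℤ)) = 1 := h.2
  simp only [Nat.cast_one] at h2
  rw [h2]; exact one_ne_zero

theorem jqModC_ne_zero : jqModC K ≠ 0 := jqModC_ne_zero_of_nontrivial K

theorem order_qExpand (s : ℕ) [NeZero s] (x : LaurentSeries K) :
    (qExpand K s x).order = (s : ℤ) * x.order := by
  rcases eq_or_ne x 0 with rfl | hx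
  · simp
  have hs : (0 : ℤ) < s := by exact_mod_cast Nat.pos_of_ne_zero (NeZero.ne s)
  refine order_eq_of_coeff (fun k hk => ?_) ?_
  · by_cases hdk : (s : ℤ) ∣ k
    · obtain ⟨m, rfl⟩ := hdk
      rw [qExpand_coeff_mul]
      exact HahnSeries.coeff_eq_zero_of_lt_order (lt_of_mul_lt_mul_left hk hs.le)
    · exact qExpand_coeff_of_not_dvd s x hdk
  · rw [qExpand_coeff_mul]
    exact fun h => hx (HahnSeries.coeff_order_eq_zero.1 h)

/-- The field `K((q^s))` inside `K((q))`. -/
def rangeSigma (K : Type*) [Field K] (s : ℕ) [NeZero s] : IntermediateField K (LaurentSeries K) :=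
  (qExpandAlgHomC K s).fieldRange

theorem mem_rangeSigma {s : ℕ} [NeZero s] {x : LaurentSeries K} :
    x ∈ rangeSigma K s ↔ ∃ y, qExpand K s y = x := by
  unfold rangeSigma
  rw [AlgHom.mem_fieldRange]
  rfl

theorem dvd_order_of_mem_rangeSigma {s : ℕ} [NeZero s] {x : LaurentSeries K}
    (hx : x ∈ rangeSigma K s) : (s : ℤ) ∣ x.order := by
  obtain ⟨y, rfl⟩ := mem_rangeSigma.1 hx
  rw [order_qExpand]
  exact dvd_mul_right _ _

/-- `1, t, …, t^{s-1}` are linearly independent over any subfield of `K((q^s))`. -/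
theorem linearIndependent_pow_jqModC (s : ℕ) [NeZero s] (F' : IntermediateField K (LaurentSeries K))
    (hF' : F' ≤ rangeSigma K s) :
    LinearIndependent F' (fun i : Fin s => (jqModC K) ^ (i : ℕ)) := by
  classical
  rw [Fintype.linearIndependent_iff]
  intro g hg
  by_contra hne
  push Not at hne
  -- the indices with nonzero coefficient
  set I : Finset (Fin s) := Finset.univ.filter (fun i => g i ≠ 0) with hI
  have hIne : I.Nonempty := by
    obtain ⟨i, hi⟩ := hne
    exact ⟨i, Finset.mem_filter.2 ⟨Finset.mem_univ _, hi⟩⟩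
  set o : Fin s → ℤ := fun i => ((g i : LaurentSeries K) * (jqModC K) ^ (i : ℕ)).order with ho
  have hoi : ∀ i ∈ I, o i = (g i : LaurentSeries K).order - (i : ℕ) := by
    intro i hi
    have hgi : (g i : LaurentSeries K) ≠ 0 := by
      have := (Finset.mem_filter.1 hi).2
      exact fun h => this (Subtype.ext h)
    simp only [ho]
    rw [HahnSeries.order_mul hgi (pow_ne_zero _ jqModC_ne_zero), HahnSeries.order_pow, order_jqModC]
    simp
    ring
  obtain ⟨i0, hi0, hmin⟩ := Finset.exists_min_image I o hIne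
  have hinj : ∀ i ∈ I, i ≠ i0 → o i0 < o i := by
    intro i hi hne'
    refine lt_of_le_of_ne (hmin i hi) ?_
    intro heq
    rw [hoi i hi, hoi i0 hi0] at heq
    obtain ⟨a, ha⟩ := dvd_order_of_mem_rangeSigma (hF' (g i).2)
    obtain ⟨b, hb⟩ := dvd_order_of_mem_rangeSigma (hF' (g i0).2)
    rw [ha, hb] at heq
    have h1 : (s : ℤ) ∣ ((i : ℕ) : ℤ) - ((i0 : ℕ) : ℤ) := ⟨a - b, by linarith⟩
    have h2 : ((i : ℕ) : ℤ) < s := by exact_mod_cast i.2
    have h3 : ((i0 : ℕ) : ℤ) < s := by exact_mod_cast i0.2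
    have h4 : (0 : ℤ) ≤ ((i : ℕ) : ℤ) := Int.natCast_nonneg _
    have h5 : (0 : ℤ) ≤ ((i0 : ℕ) : ℤ) := Int.natCast_nonneg _
    have h6 : ((i : ℕ) : ℤ) - ((i0 : ℕ) : ℤ) = 0 := by
      apply Int.eq_zero_of_abs_lt_dvd h1
      rw [abs_lt]; constructor <;> linarith
    apply hne'
    apply Fin.ext
    have : ((i : ℕ) : ℤ) = ((i0 : ℕ) : ℤ) := by linarith
    exact_mod_cast this
  -- look at the coefficient at `o i0`
  have hcoef := congrArg (fun x : LaurentSeries K => x.coeff (o i0)) hg
  simp only [HahnSeries.coeff_zero] at hcoef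
  have hsum : (∑ i, g i • (jqModC K) ^ (i : ℕ) : LaurentSeries K)
      = ∑ i, (g i : LaurentSeries K) * (jqModC K) ^ (i : ℕ) := by
    refine Finset.sum_congr rfl fun i _ => ?_
    rfl
  rw [hsum, HahnSeries.coeff_sum] at hcoef
  rw [Finset.sum_eq_single i0] at hcoef
  · have hx0 : (g i0 : LaurentSeries K) * (jqModC K) ^ (i0 : ℕ) ≠ 0 := by
      have hgi : (g i0 : LaurentSeries K) ≠ 0 := by
        have := (Finset.mem_filter.1 hi0).2
        exact fun h => this (Subtype.ext h)
      exact mul_ne_zero hgi (pow_ne_zero _ jqModC_ne_zero)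
    exact hx0 (HahnSeries.coeff_order_eq_zero.1 hcoef)
  · intro i _ hne'
    by_cases hi : i ∈ I
    · exact HahnSeries.coeff_eq_zero_of_lt_order (hinj i hi hne')
    · have : g i = 0 := by
        by_contra h
        exact hi (Finset.mem_filter.2 ⟨Finset.mem_univ _, h⟩)
      rw [this]; simp
  · intro h; exact absurd (Finset.mem_univ _) h

theorem relrank_ne_zero' {E : Type*} [Field E] [Algebra K E] (A B : IntermediateField K E) :
    A.relrank B ≠ 0 := by
  unfold IntermediateField.relrank Subfield.relrank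
  exact rank_pos.ne'

/-- Lower bound: `[C : C ∩ K((q^s))] ≥ s` as soon as `t ∈ C`. -/
theorem natCast_le_relrank_inf_rangeSigma (s : ℕ) [NeZero s]
    (C : IntermediateField K (LaurentSeries K)) (ht : jqModC K ∈ C) :
    (s : Cardinal) ≤ (C ⊓ rangeSigma K s).relrank C := by
  have hle : C ⊓ rangeSigma K s ≤ C := inf_le_left
  rw [relrank_eq_rank_of_le hle]
  have hli := linearIndependent_pow_jqModC s (C ⊓ rangeSigma K s) inf_le_right
  let v : Fin s → extendScalars hle := fun i => ⟨(jqModC K) ^ (i : ℕ), pow_mem ht _⟩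
  have hv : LinearIndependent (↥(C ⊓ rangeSigma K s)) v := by
    refine LinearIndependent.of_comp (extendScalars hle).val.toLinearMap ?_
    exact hli
  have := hv.cardinal_lift_le_rank
  simpa using this

/-- **(A)** If `A ≤ C`, `A ≤ K((q^s))`, `t ∈ C` and `[C : A] ≤ D < 2 s`, then
`C ∩ K((q^s)) = A`. -/
theorem inf_rangeSigma_eq_of_relrank_le (s : ℕ) [NeZero s]
    (A C : IntermediateField K (LaurentSeries K)) (hAC : A ≤ C) (hAR : A ≤ rangeSigma K s)
    (ht : jqModC K ∈ C) (D : ℕ) (hD : A.relrank C ≤ (D : Cardinal)) (hDs : D < 2 * s) :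
    C ⊓ rangeSigma K s = A := by
  set F' := C ⊓ rangeSigma K s with hF'
  have hAF : A ≤ F' := le_inf hAC hAR
  have hFC : F' ≤ C := inf_le_left
  refine le_antisymm ?_ hAF
  rw [← relfinrank_eq_one_iff]
  have hmul := relrank_mul_relrank hAF hFC
  have hfinC : A.relrank C < Cardinal.aleph0 := hD.trans_lt (Cardinal.natCast_lt_aleph0)
  have hb_le : F'.relrank C ≤ A.relrank C := by
    rw [← hmul]; exact Cardinal.le_mul_left (relrank_ne_zero' A F')
  have ha_le : A.relrank F' ≤ A.relrank C := by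
    rw [← hmul]; exact Cardinal.le_mul_right (relrank_ne_zero' F' C)
  have hfinB : F'.relrank C < Cardinal.aleph0 := hb_le.trans_lt hfinC
  have hfinA : A.relrank F' < Cardinal.aleph0 := ha_le.trans_lt hfinC
  -- natural numbers
  have hnat : A.relfinrank F' * F'.relfinrank C = A.relfinrank C := relfinrank_mul_relfinrank hAF hFC
  have hCD : A.relfinrank C ≤ D := by
    have := Cardinal.toNat_le_toNat hD Cardinal.natCast_lt_aleph0
    rwa [Cardinal.toNat_natCast] at this
  have hsb : s ≤ F'.relfinrank C := by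
    have := Cardinal.toNat_le_toNat (natCast_le_relrank_inf_rangeSigma s C ht) hfinB
    rwa [Cardinal.toNat_natCast] at this
  have ha0 : A.relfinrank F' ≠ 0 := by
    rw [relfinrank_eq_toNat_relrank]
    intro h
    rcases (Cardinal.toNat_eq_zero.1 h) with h | h
    · exact relrank_ne_zero' A F' h
    · exact absurd hfinA (not_lt.2 h)
  have hs0 : 0 < s := Nat.pos_of_ne_zero (NeZero.ne s)
  by_contra hne
  have ha2 : 2 ≤ A.relfinrank F' := by omega
  have : 2 * s ≤ A.relfinrank F' * F'.relfinrank C := Nat.mul_le_mul ha2 hsb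
  omega

end Lower


/-! ### Part 3: the fixed field of `q ↦ ζ q` and descent of `m`-th roots -/

section TwistFixed

variable {K : Type*} [Field K]

/-- A Laurent series fixed by `q ↦ ζ q`, `ζ` a primitive `s`-th root of unity, is a series
in `q^s`. -/
theorem mem_rangeSigma_of_twist_eq (s : ℕ) [NeZero s] (ζ : Kˣ) (hζ : IsPrimitiveRoot (ζ : K) s)
    (x : LaurentSeries K) (hx : twist ζ x = x) : x ∈ rangeSigma K s := by
  have hs : (0 : ℤ) < s := by exact_mod_cast Nat.pos_of_ne_zero (NeZero.ne s)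
  have hvan : ∀ n : ℤ, ¬ (s : ℤ) ∣ n → x.coeff n = 0 := by
    intro n hn
    have h1 := congrArg (fun y : LaurentSeries K => y.coeff n) hx
    simp only [twist_coeff] at h1
    have h2 : ((ζ ^ n : Kˣ) : K) ≠ 1 := by
      intro h
      apply hn
      have h3 : ((ζ : K)) ^ n = 1 := by
        rw [← h]; simp
      exact (hζ.zpow_eq_one_iff_dvd n).1 h3
    have h4 : (((ζ ^ n : Kˣ) : K) - 1) * x.coeff n = 0 := by rw [sub_mul, h1, one_mul, sub_self]
    exact (mul_eq_zero.1 h4).resolve_left (sub_ne_zero.2 h2)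
  rw [mem_rangeSigma]
  have hbdd : BddBelow (Function.support fun k : ℤ => x.coeff ((s : ℤ) * k)) := by
    refine ⟨-|x.order|, fun k hk => ?_⟩
    simp only [Function.mem_support] at hk
    have h1 : x.order ≤ (s : ℤ) * k := HahnSeries.order_le_of_coeff_ne_zero hk
    by_contra hlt
    rw [not_le] at hlt
    have h2 : k < 0 := lt_of_lt_of_le hlt (neg_nonpos.2 (abs_nonneg _))
    have h3 : (s : ℤ) * k ≤ k := by nlinarith
    have h4 : -|x.order| ≤ x.order := neg_abs_le _
    linarith
  refine ⟨HahnSeries.ofSuppBddBelow _ hbdd, ?_⟩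
  ext n
  by_cases hn : (s : ℤ) ∣ n
  · obtain ⟨k, rfl⟩ := hn
    rw [qExpand_coeff_mul]
    rfl
  · rw [qExpand_coeff_of_not_dvd s _ hn, hvan n hn]

/-- `m`-th roots of unity in `K((q))` are constants when `K` is algebraically closed. -/
theorem exists_C_of_pow_eq_one [IsAlgClosed K] (ω : LaurentSeries K) (m : ℕ) (hm : 0 < m)
    (h : ω ^ m = 1) : ∃ c : K, ω = algebraMap K (LaurentSeries K) c := by
  have hint : IsIntegral K ω := by
    refine ⟨X ^ m - 1, Polynomial.monic_X_pow_sub_C 1 hm.ne', ?_⟩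
    simp [h]
  have hdeg : (minpoly K ω).degree = 1 :=
    IsAlgClosed.degree_eq_one_of_irreducible K (minpoly.irreducible hint)
  obtain ⟨c, hc⟩ := minpoly.mem_range_of_degree_eq_one K ω hdeg
  exact ⟨c, hc.symm⟩

/-- **(B)** If `g^m = σ_s f` with `f ≠ 0` and `m ∣ ord f`, then `g ∈ K((q^s))`. -/
theorem mem_rangeSigma_of_pow_eq [IsAlgClosed K] (s : ℕ) [NeZero s] (ζ : Kˣ)
    (hζ : IsPrimitiveRoot (ζ : K) s) (m : ℕ) (hm : 0 < m) (f g : LaurentSeries K) (hf : f ≠ 0)
    (hgm : g ^ m = qExpand K s f) (hord : (m : ℤ) ∣ f.order) : g ∈ rangeSigma K s := by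
  apply mem_rangeSigma_of_twist_eq s ζ hζ
  have hζs : ζ ^ s = 1 := by
    apply Units.ext
    rw [Units.val_pow_eq_pow_val, Units.val_one]
    exact hζ.pow_eq_one
  have hg0 : g ≠ 0 := by
    rintro rfl
    rw [zero_pow hm.ne'] at hgm
    exact hf ((qExpand_injective (R := K) s) (by rw [← hgm, map_zero]))
  have hpow : (twist ζ g) ^ m = g ^ m := by
    rw [← map_pow, hgm, twist_qExpand_of_pow_eq_one s ζ hζs]
  have hω : (twist ζ g / g) ^ m = 1 := by
    rw [div_pow, hpow, div_self (pow_ne_zero _ hg0)]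
  obtain ⟨c, hc⟩ := exists_C_of_pow_eq_one _ m hm hω
  have htw : twist ζ g = algebraMap K (LaurentSeries K) c * g := by
    rw [← hc, div_mul_cancel₀ _ hg0]
  -- compare leading coefficients
  set n0 := g.order with hn0
  have hgn0 : g.coeff n0 ≠ 0 := fun h => hg0 (HahnSeries.coeff_order_eq_zero.1 h)
  have h1 := congrArg (fun y : LaurentSeries K => y.coeff n0) htw
  simp only [twist_coeff] at h1
  rw [algebraMap_laurentSeries_eq_single, ← HahnSeries.C_apply, HahnSeries.C_mul_eq_smul,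
    HahnSeries.coeff_smul, smul_eq_mul] at h1
  have hc' : ((ζ ^ n0 : Kˣ) : K) = c := mul_right_cancel₀ hgn0 h1
  -- `n0` is a multiple of `s`
  have hmn : (m : ℤ) * n0 = (s : ℤ) * f.order := by
    have := congrArg HahnSeries.order hgm
    rw [HahnSeries.order_pow, order_qExpand, nsmul_eq_mul] at this
    exact this
  obtain ⟨e, he⟩ := hord
  have hn0e : n0 = (s : ℤ) * e := by
    have hm0 : (m : ℤ) ≠ 0 := by exact_mod_cast hm.ne'
    apply mul_left_cancel₀ hm0
    rw [hmn, he]; ring
  have hc1 : c = 1 := by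
    rw [← hc', hn0e, zpow_mul, zpow_natCast, hζs, one_zpow, Units.val_one]
  rw [htw, hc1, map_one, one_mul]

end TwistFixed


/-! ### Part 4: the descent theorems -/

section Main

variable (K : Type) [Field K] [IsAlgClosed K] [CharZero K]

omit [IsAlgClosed K] [CharZero K] in
theorem map_le_rangeSigma (s : ℕ) [NeZero s] (E : IntermediateField K (LaurentSeries K)) :
    E.map (qExpandAlgHomC K s) ≤ rangeSigma K s := by
  rintro x hx
  obtain ⟨y, -, rfl⟩ := (IntermediateField.mem_map _).1 hx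
  exact mem_rangeSigma.2 ⟨y, rfl⟩

omit [IsAlgClosed K] [CharZero K] in
theorem jqModC_mem_LL (N : ℕ) : jqModC K ∈ LL K N := by
  rw [← tq_one]; exact tq_mem_LL (one_dvd _)

/-- **(A)**, case `p ∣ N`, `s = p`:  `F_{pN} ∩ K((q^p)) = σ_p F_N`. -/
theorem LL_inf_rangeSigma_of_dvd (p N : ℕ) [NeZero p] (hp : p.Prime) (hN : N ≠ 0) (hpN : p ∣ N) :
    LL K (p * N) ⊓ rangeSigma K p = (LL K N).map (qExpandAlgHomC K p) :=
  inf_rangeSigma_eq_of_relrank_le p _ _ (map_LL_le K p N hN) (map_le_rangeSigma K p _)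
    (jqModC_mem_LL K _) p (relrank_map_le_of_dvd K p N hp hN hpN)
    (by have := hp.two_le; omega)

/-- **(A)**, case `s = p²` (used when `p ∤ N`):  `F_{p²N} ∩ K((q^{p²})) = σ_{p²} F_N`. -/
theorem LL_inf_rangeSigma_sq (p N : ℕ) [NeZero p] [NeZero (p * p)] (hp : p.Prime) (hN : N ≠ 0) :
    LL K (p * (p * N)) ⊓ rangeSigma K (p * p) = (LL K N).map (qExpandAlgHomC K (p * p)) :=
  inf_rangeSigma_eq_of_relrank_le (p * p) _ _
    (by
      have h1 : (LL K N).map (qExpandAlgHomC K (p * p)) =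
          ((LL K N).map (qExpandAlgHomC K p)).map (qExpandAlgHomC K p) := by
        rw [IntermediateField.map_map, qExpandAlgHomC_comp]
      rw [h1]
      exact (IntermediateField.map_mono _ (map_LL_le K p N hN)).trans
        (map_LL_le K p (p * N) (Nat.mul_ne_zero hp.ne_zero hN)))
    (map_le_rangeSigma K (p * p) _)
    (jqModC_mem_LL K _) ((p + 1) * p) (relrank_map_sq_le K p N hp hN)
    (by have := hp.two_le; nlinarith)

/-- Abstract root descent: if `C ∩ K((q^s)) = σ_s E`, `f ∈ E`, `g ∈ C`, `g^m = σ_s f` and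
`m ∣ ord f`, then `f` has an `m`-th root `g'` in `E` with `σ_s g' = g`. -/
theorem exists_root_of_inf_eq (s : ℕ) [NeZero s] (E C : IntermediateField K (LaurentSeries K))
    (hEC : C ⊓ rangeSigma K s = E.map (qExpandAlgHomC K s))
    (m : ℕ) (hm : 0 < m) (f g : LaurentSeries K) (hf0 : f ≠ 0) (hg : g ∈ C)
    (hgm : g ^ m = qExpand K s f) (hord : (m : ℤ) ∣ f.order) :
    ∃ g' ∈ E, qExpand K s g' = g ∧ g' ^ m = f := by
  obtain ⟨ζ, hζ⟩ := exists_primitiveRoot_unit K s
  have hgR : g ∈ rangeSigma K s := mem_rangeSigma_of_pow_eq s ζ hζ m hm f g hf0 hgm hord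
  have hgA : g ∈ E.map (qExpandAlgHomC K s) := by
    rw [← hEC]; exact ⟨hg, hgR⟩
  obtain ⟨g', hg'E, hg'⟩ := (IntermediateField.mem_map _).1 hgA
  refine ⟨g', hg'E, hg', ?_⟩
  apply qExpand_injective (R := K) s
  rw [map_pow]
  rw [qExpandAlgHomC_apply] at hg'
  rw [hg', hgm]

/-- **Descent**, case `p ∣ N`, `M = pN`: for `f ∈ F_N`, `g ∈ F_{pN}` with `g^m = σ_p f`,
`m ∣ ord_q f`: `f` is an `m`-th power in `F_N`. -/
theorem exists_root_of_dvd (p N : ℕ) [NeZero p] [NeZero N] [NeZero (p * N)] (hp : p.Prime)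
    (hpN : p ∣ N) (m : ℕ) (hm : 0 < m) (f g : LaurentSeries K) (hf0 : f ≠ 0)
    (hg : g ∈ modularFunctionFieldFullC K (p * N))
    (hgm : g ^ m = qExpand K p f) (hord : (m : ℤ) ∣ f.order) :
    ∃ g' ∈ modularFunctionFieldFullC K N, qExpand K p g' = g ∧ g' ^ m = f := by
  rw [← LL_eq] at hg ⊢
  exact exists_root_of_inf_eq K p _ _ (LL_inf_rangeSigma_of_dvd K p N hp (NeZero.ne N) hpN)
    m hm f g hf0 hg hgm hord

/-- **Descent**, case `s = p²`, `M = p²N`: for `f ∈ F_N`, `g ∈ F_{p²N}` with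
`g^m = σ_{p²} f`, `m ∣ ord_q f`: `f` is an `m`-th power in `F_N`. -/
theorem exists_root_sq (p N : ℕ) [NeZero p] [NeZero (p * p)] [NeZero N] [NeZero (p * (p * N))]
    (hp : p.Prime) (m : ℕ) (hm : 0 < m) (f g : LaurentSeries K) (hf0 : f ≠ 0)
    (hg : g ∈ modularFunctionFieldFullC K (p * (p * N)))
    (hgm : g ^ m = qExpand K (p * p) f) (hord : (m : ℤ) ∣ f.order) :
    ∃ g' ∈ modularFunctionFieldFullC K N, qExpand K (p * p) g' = g ∧ g' ^ m = f := by
  rw [← LL_eq] at hg ⊢
  exact exists_root_of_inf_eq K (p * p) _ _ (LL_inf_rangeSigma_sq K p N hp (NeZero.ne N))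
    m hm f g hf0 hg hgm hord

end Main

/-! ### Part 5: the Prelude field over `Q̄` -/

section Qbar

variable (L : Type*) [Field L] [Algebra ℚ L]

theorem coeffEmb_qExpand_jq (d : ℕ) [NeZero d] :
    coeffEmb L (qExpand ℚ d jq) = qExpand L d (jqModC L) := by
  unfold coeffEmb
  rw [coeffMap_qExpand]
  congr 1
  exact coeffMap_jqModC (algebraMap ℚ L)

/-- `laurentBaseChange L (modularFunctionFieldFull N) = modularFunctionFieldFullC L N`. -/
theorem laurentBaseChange_full_eq_fullC (N : ℕ) [NeZero N] :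
    laurentBaseChange L (modularFunctionFieldFull N) = modularFunctionFieldFullC L N := by
  apply le_antisymm
  · rw [laurentBaseChange, IntermediateField.adjoin_le_iff]
    rintro _ ⟨x, hx, rfl⟩
    have hx' : x ∈ IntermediateField.adjoin ℚ (divisorExpansions N) := hx
    clear hx
    induction hx' using IntermediateField.adjoin_induction with
    | mem y hy =>
      obtain ⟨d, hne, hd, rfl⟩ := hy
      rw [SetLike.mem_coe, coeffEmb_qExpand_jq]
      exact jqModCd_mem_full L N hd
    | algebraMap c =>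
      have : coeffEmb L (algebraMap ℚ (LaurentSeries ℚ) c)
          = algebraMap L (LaurentSeries L) (algebraMap ℚ L c) := by
        rw [algebraMap_laurentSeries_eq_single, algebraMap_laurentSeries_eq_single, coeffEmb,
          coeffMap_single]
      rw [SetLike.mem_coe, this]
      exact IntermediateField.algebraMap_mem _ _
    | add y z _ _ hy hz => rw [SetLike.mem_coe, map_add]; exact add_mem hy hz
    | inv y _ hy => rw [SetLike.mem_coe, map_inv₀]; exact inv_mem hy
    | mul y z _ _ hy hz => rw [SetLike.mem_coe, map_mul]; exact mul_mem hy hz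
  · rw [modularFunctionFieldFullC, IntermediateField.adjoin_le_iff]
    rintro _ ⟨d, hne, hd, rfl⟩
    rw [SetLike.mem_coe, ← coeffEmb_qExpand_jq]
    exact coeffEmb_mem_laurentBaseChange L (jqd_mem_full N hd)

end Qbar

theorem modularFunctionFieldBar_eq_fullC (N : ℕ) [NeZero N] :
    modularFunctionFieldBar N = modularFunctionFieldFullC (AlgebraicClosure ℚ) N :=
  laurentBaseChange_full_eq_fullC (AlgebraicClosure ℚ) N

/-- **Descent over `Q̄`**, case `p ∣ N`, `M = pN`. -/
theorem qbar_exists_root_of_dvd (p N : ℕ) [NeZero p] [NeZero N] [NeZero (p * N)] (hp : p.Prime)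
    (hpN : p ∣ N) (m : ℕ) (hm : 0 < m) (f g : LaurentSeries (AlgebraicClosure ℚ)) (hf0 : f ≠ 0)
    (hg : g ∈ modularFunctionFieldBar (p * N))
    (hgm : g ^ m = qExpand (AlgebraicClosure ℚ) p f) (hord : (m : ℤ) ∣ f.order) :
    ∃ g' ∈ modularFunctionFieldBar N, qExpand (AlgebraicClosure ℚ) p g' = g ∧ g' ^ m = f := by
  rw [modularFunctionFieldBar_eq_fullC] at hg ⊢
  exact exists_root_of_dvd (AlgebraicClosure ℚ) p N hp hpN m hm f g hf0 hg hgm hord

/-- **Descent over `Q̄`**, case `s = p²`, `M = p²N`. -/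
theorem qbar_exists_root_sq (p N : ℕ) [NeZero p] [NeZero (p * p)] [NeZero N]
    [NeZero (p * (p * N))] (hp : p.Prime) (m : ℕ) (hm : 0 < m)
    (f g : LaurentSeries (AlgebraicClosure ℚ)) (hf0 : f ≠ 0)
    (hg : g ∈ modularFunctionFieldBar (p * (p * N)))
    (hgm : g ^ m = qExpand (AlgebraicClosure ℚ) (p * p) f) (hord : (m : ℤ) ∣ f.order) :
    ∃ g' ∈ modularFunctionFieldBar N,
      qExpand (AlgebraicClosure ℚ) (p * p) g' = g ∧ g' ^ m = f := by
  rw [modularFunctionFieldBar_eq_fullC] at hg ⊢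
  exact exists_root_sq (AlgebraicClosure ℚ) p N hp m hm f g hf0 hg hgm hord

/-- `σ_s` maps `F_N` into `F_{sN}` over `Q̄`. -/
theorem qbar_qExpand_mem (s N : ℕ) [NeZero s] [NeZero N] [NeZero (s * N)]
    {f : LaurentSeries (AlgebraicClosure ℚ)} (hf : f ∈ modularFunctionFieldBar N) :
    qExpand (AlgebraicClosure ℚ) s f ∈ modularFunctionFieldBar (s * N) := by
  rw [modularFunctionFieldBar_eq_fullC] at hf ⊢
  have h := full_degeneracyC_map_le (AlgebraicClosure ℚ) N s
  have h2 : qExpand (AlgebraicClosure ℚ) s f ∈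
      (modularFunctionFieldFullC (AlgebraicClosure ℚ) N).map
        (qExpandAlgHomC (AlgebraicClosure ℚ) s) :=
    (IntermediateField.mem_map _).2 ⟨f, hf, rfl⟩
  have h3 := h h2
  rwa [Nat.mul_comm N s] at h3

end Fermat.Agent.S18.DescentSigma74
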