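/-
S18: `descent : Spine33.DescentStatement` (helper74), from `DescentSigma74` (bp 15 Step 5).
-/
import Fermat.Agent.S18.Spine33
import Fermat.Agent.S18.DescentSigma74

set_option autoImplicit false

noncomputable section

namespace Fermat.Agent.S18.Descent74

open ModularCurve HahnSeries Fermat.Agent.S18 Fermat.Agent.S18.Spine33

theorem bar_congr {a b : ℕ} (h : a = b) : modularFunctionFieldBar a = modularFunctionFieldBar b := by
  subst h; rfl

/-- **[DESCENT]** of the S18 spine. -/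
theorem descent : DescentStatement := by
  intro N s _ _ hpair m hm f hf0 hord hu
  obtain ⟨u, hu, hum⟩ := hu
  have hf0' : (f : LaurentSeries Kb) ≠ 0 := fun h => hf0 (Subtype.ext h)
  have key : ∃ g' ∈ modularFunctionFieldBar N, g' ^ m = (f : LaurentSeries Kb) := by
    rcases hpair with rfl | ⟨rfl, h2⟩ | ⟨rfl, h2, h4⟩ | ⟨rfl, h3⟩ | ⟨rfl, h3, h9⟩
    · refine ⟨u, ?_, ?_⟩
      · rw [bar_congr (one_mul N)] at hu; exact hu
      · rw [hum, qExpand_one_apply]
    · -- `s = 4 = 2 * 2`
      have : NeZero (2 * 2) := ⟨by norm_num⟩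
      have : NeZero (2 * (2 * N)) := ⟨by have := NeZero.ne N; omega⟩
      rw [bar_congr (show 4 * N = 2 * (2 * N) by ring)] at hu
      rw [qExpand_congr (show 4 = 2 * 2 by norm_num)] at hum
      obtain ⟨g', hg', -, hg'm⟩ := DescentSigma74.qbar_exists_root_sq 2 N Nat.prime_two m hm
        (f : LaurentSeries Kb) u hf0' hu hum hord
      exact ⟨g', hg', hg'm⟩
    · -- `s = 2`, `2 ∣ N`
      obtain ⟨g', hg', -, hg'm⟩ := DescentSigma74.qbar_exists_root_of_dvd 2 N Nat.prime_two h2 m hm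
        (f : LaurentSeries Kb) u hf0' hu hum hord
      exact ⟨g', hg', hg'm⟩
    · -- `s = 9 = 3 * 3`
      have : NeZero (3 * 3) := ⟨by norm_num⟩
      have : NeZero (3 * (3 * N)) := ⟨by have := NeZero.ne N; omega⟩
      rw [bar_congr (show 9 * N = 3 * (3 * N) by ring)] at hu
      rw [qExpand_congr (show 9 = 3 * 3 by norm_num)] at hum
      obtain ⟨g', hg', -, hg'm⟩ := DescentSigma74.qbar_exists_root_sq 3 N Nat.prime_three m hm
        (f : LaurentSeries Kb) u hf0' hu hum hord
      exact ⟨g', hg', hg'm⟩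
    · -- `s = 3`, `3 ∣ N`
      obtain ⟨g', hg', -, hg'm⟩ := DescentSigma74.qbar_exists_root_of_dvd 3 N Nat.prime_three h3 m hm
        (f : LaurentSeries Kb) u hf0' hu hum hord
      exact ⟨g', hg', hg'm⟩
  obtain ⟨g', hg', hg'm⟩ := key
  exact ⟨⟨g', hg'⟩, Subtype.ext hg'm⟩

end Fermat.Agent.S18.Descent74
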