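/-
S18 moonshot (blueprint 14), package [DESCENT]-ABS (helper84).

Abstract descent `M → N`: if `E/F` is a finite extension, `w` a discrete place of `E` whose
ramification index `t` over `F` satisfies `[E:F] < 2 t`, the residue field of `w ∩ F` is the
algebraically closed constant field `K`, `m` is invertible in `K`, and `u ∈ E` satisfies
`u ^ m ∈ F` and `t ∣ ord_w u`, then `u ∈ F`.

Mathlib + Prelude (`Def_AlgebraicCurve_DivisorPushPull`) only.
-/
import Mathlib
import Fermat.Prelude.Def_AlgebraicCurve_DivisorPushPull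

set_option autoImplicit false

namespace Fermat.Agent.S18.Descent84

open Polynomial

/-! ## Part 0: abstract order functions -/

/-- `ν : E → ℤ` is an additive order function for the valuation subring `V`. -/
structure IsOrdFn {E : Type*} [Field E] (V : ValuationSubring E) (ν : E → ℤ) : Prop where
  map_mul : ∀ x y : E, x ≠ 0 → y ≠ 0 → ν (x * y) = ν x + ν y
  mem_iff : ∀ x : E, x ≠ 0 → (x ∈ V ↔ 0 ≤ ν x)

/-- `x` is zero or has order `> n`. -/
def Above {E : Type*} [Field E] (ν : E → ℤ) (n : ℤ) (x : E) : Prop := x = 0 ∨ n < ν x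

namespace IsOrdFn

variable {E : Type*} [Field E] {V : ValuationSubring E} {ν : E → ℤ} (h : IsOrdFn V ν)

include h

theorem map_one : ν 1 = 0 := by
  have := h.map_mul 1 1 one_ne_zero one_ne_zero
  rw [mul_one] at this
  omega

theorem map_inv {x : E} (hx : x ≠ 0) : ν x⁻¹ = -ν x := by
  have := h.map_mul x x⁻¹ hx (inv_ne_zero hx)
  rw [mul_inv_cancel₀ hx, h.map_one] at this
  omega

theorem map_neg_one : ν (-1) = 0 := by
  have := h.map_mul (-1) (-1) (neg_ne_zero.mpr one_ne_zero) (neg_ne_zero.mpr one_ne_zero)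
  rw [neg_mul_neg, mul_one, h.map_one] at this
  omega

theorem map_neg {x : E} (hx : x ≠ 0) : ν (-x) = ν x := by
  have := h.map_mul (-1) x (neg_ne_zero.mpr one_ne_zero) hx
  rw [neg_one_mul, h.map_neg_one] at this
  omega

theorem map_pow {x : E} (hx : x ≠ 0) (n : ℕ) : ν (x ^ n) = n * ν x := by
  induction n with
  | zero => simp [h.map_one]
  | succ n ih =>
    rw [pow_succ, h.map_mul _ _ (pow_ne_zero n hx) hx, ih]
    push_cast
    ring

theorem map_zpow {x : E} (hx : x ≠ 0) (n : ℤ) : ν (x ^ n) = n * ν x := by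
  cases n with
  | ofNat n => simpa using h.map_pow hx n
  | negSucc n =>
    rw [zpow_negSucc, h.map_inv (pow_ne_zero _ hx), h.map_pow hx, Int.negSucc_eq]
    push_cast
    ring

theorem mem_of_nonneg {x : E} (hx : x = 0 ∨ 0 ≤ ν x) : x ∈ V := by
  rcases eq_or_ne x 0 with rfl | hx0
  · exact V.zero_mem
  · exact (h.mem_iff x hx0).mpr (hx.resolve_left hx0)

theorem nonneg_of_mem {x : E} (hx0 : x ≠ 0) (hx : x ∈ V) : 0 ≤ ν x :=
  (h.mem_iff x hx0).mp hx

/-- the ultrametric inequality -/
theorem le_map_add {x y : E} (hx : x ≠ 0) (hy : y ≠ 0) (hxy : x + y ≠ 0) :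
    min (ν x) (ν y) ≤ ν (x + y) := by
  wlog hle : ν x ≤ ν y generalizing x y
  · have := this hy hx (by rwa [add_comm]) (by omega)
    rwa [add_comm, min_comm] at this
  rw [min_eq_left hle]
  have hq : y * x⁻¹ ∈ V := by
    refine (h.mem_iff _ (mul_ne_zero hy (inv_ne_zero hx))).mpr ?_
    rw [h.map_mul _ _ hy (inv_ne_zero hx), h.map_inv hx]
    omega
  have h1 : 1 + y * x⁻¹ ∈ V := V.add_mem _ _ V.one_mem hq
  have hne : 1 + y * x⁻¹ ≠ 0 := by
    intro h0
    apply hxy
    have : x + y = x * (1 + y * x⁻¹) := by field_simp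
    rw [this, h0, mul_zero]
  have hnn := h.nonneg_of_mem hne h1
  have : x + y = x * (1 + y * x⁻¹) := by field_simp
  rw [this, h.map_mul _ _ hx hne]
  omega

theorem Above.add {n : ℤ} {x y : E} (hx : Above ν n x) (hy : Above ν n y) :
    Above ν n (x + y) := by
  rcases eq_or_ne x 0 with rfl | hx0
  · rwa [zero_add]
  rcases eq_or_ne y 0 with rfl | hy0
  · rwa [add_zero]
  rcases eq_or_ne (x + y) 0 with hxy | hxy
  · exact Or.inl hxy
  · right
    have := h.le_map_add hx0 hy0 hxy
    have h1 := hx.resolve_left hx0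
    have h2 := hy.resolve_left hy0
    exact lt_of_lt_of_le (lt_min h1 h2) this

theorem Above.sum {ι : Type*} {n : ℤ} (s : Finset ι) (g : ι → E)
    (hg : ∀ i ∈ s, Above ν n (g i)) : Above ν n (∑ i ∈ s, g i) := by
  classical
  induction s using Finset.induction_on with
  | empty => exact Or.inl (by simp)
  | insert a s ha ih =>
    rw [Finset.sum_insert ha]
    exact Above.add h (hg a (Finset.mem_insert_self a s))
      (ih fun i hi => hg i (Finset.mem_insert_of_mem hi))

theorem Above.mul_mem {n : ℤ} {x y : E} (hx : Above ν n x) (hy : y ∈ V) :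
    Above ν n (x * y) := by
  rcases eq_or_ne x 0 with rfl | hx0
  · exact Or.inl (zero_mul y)
  rcases eq_or_ne y 0 with rfl | hy0
  · exact Or.inl (mul_zero x)
  right
  rw [h.map_mul _ _ hx0 hy0]
  have := h.nonneg_of_mem hy0 hy
  have := hx.resolve_left hx0
  omega

/-- if `x ≠ 0` and `y` has strictly larger order (or is zero) then `x + y ≠ 0` and
`ν (x + y) = ν x`. -/
theorem map_add_of_above {x y : E} (hx : x ≠ 0) (hy : Above ν (ν x) y) :
    x + y ≠ 0 ∧ ν (x + y) = ν x := by
  rcases eq_or_ne y 0 with rfl | hy0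
  · rw [add_zero]; exact ⟨hx, rfl⟩
  have hlt := hy.resolve_left hy0
  have hne : x + y ≠ 0 := by
    intro h0
    have : y = -x := by linear_combination h0
    rw [this, h.map_neg hx] at hlt
    omega
  refine ⟨hne, le_antisymm ?_ ?_⟩
  · -- ν (x+y) ≤ ν x : x = (x+y) + (-y)
    by_contra hcon
    rw [not_le] at hcon
    have hny : -y ≠ 0 := neg_ne_zero.mpr hy0
    have hx' : (x + y) + (-y) ≠ 0 := by simpa using hx
    have := h.le_map_add hne hny hx'
    rw [h.map_neg hy0] at this
    have e : (x + y) + (-y) = x := by ring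
    rw [e] at this
    have := lt_min hcon hlt
    omega
  · have := h.le_map_add hx hy0 hne
    rw [min_eq_left (le_of_lt hlt)] at this
    exact this

theorem map_prod {ι : Type*} (s : Finset ι) (g : ι → E) (hg : ∀ i ∈ s, g i ≠ 0) :
    ν (∏ i ∈ s, g i) = ∑ i ∈ s, ν (g i) := by
  classical
  induction s using Finset.induction_on with
  | empty => simp [h.map_one]
  | insert a s ha ih =>
    rw [Finset.prod_insert ha, Finset.sum_insert ha,
      h.map_mul _ _ (hg a (Finset.mem_insert_self a s))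
        (Finset.prod_ne_zero_iff.mpr fun i hi => hg i (Finset.mem_insert_of_mem hi)),
      ih fun i hi => hg i (Finset.mem_insert_of_mem hi)]

end IsOrdFn

/-! ## Part A: a Kummer extension `F(u)`, `u ^ m = f` a unit, `m` a unit, is unramified -/

section CoreA

variable {E : Type*} [Field E] {V : ValuationSubring E} {ν : E → ℤ}

/-- Core induction: all values `A(u)`, `A ∈ O[X]`, have order divisible by `t`. -/
theorem dvd_nu_eval₂ (h : IsOrdFn V ν) {O : Type*} [CommRing O] (ψ : O →+* E) (t : ℤ)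
    (ht : 0 < t)
    (hO : ∀ a : O, ψ a ≠ 0 → 0 ≤ ν (ψ a) ∧ t ∣ ν (ψ a))
    (π : O) (hπ0 : ψ π ≠ 0) (hπ : ν (ψ π) = t)
    (hdiv : ∀ a : O, (ψ a = 0 ∨ t ≤ ν (ψ a)) → ∃ b : O, a = π * b)
    (u : E) (hu0 : u ≠ 0) (hu : ν u = 0) (m : ℕ) (f : O) (huf : u ^ m = ψ f)
    (c : O) (hc0 : ψ c ≠ 0) (hc : ν (ψ c) = 0) (huc : Above ν 0 (u - ψ c))
    (hm0 : ψ (m : O) ≠ 0) (hm : ν (ψ (m : O)) = 0) :
    ∀ A : O[X], A.eval₂ ψ u ≠ 0 → t ∣ ν (A.eval₂ ψ u) := by
  -- everything in `O[u]` is integral
  have hψV : ∀ a : O, ψ a ∈ V := fun a => by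
    rcases eq_or_ne (ψ a) 0 with h0 | h0
    · rw [h0]; exact V.zero_mem
    · exact (h.mem_iff _ h0).mpr (hO a h0).1
  have huV : u ∈ V := (h.mem_iff _ hu0).mpr (le_of_eq hu.symm)
  have hV : ∀ B : O[X], B.eval₂ ψ u ∈ V := by
    intro B
    rw [eval₂_eq_sum_range]
    exact sum_mem fun i _ => V.mul_mem _ _ (hψV _) (pow_mem huV _)
  -- decomposition `B = (X - c) B' + B(c)`
  have hdec : ∀ B : O[X], ∃ B' : O[X],
      B.eval₂ ψ u = (u - ψ c) * B'.eval₂ ψ u + ψ (B.eval c) := by
    intro B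
    obtain ⟨B', hB'⟩ := X_sub_C_dvd_sub_C_eval (a := c) (p := B)
    refine ⟨B', ?_⟩
    have : B = (X - C c) * B' + C (B.eval c) := by rw [← hB']; ring
    conv_lhs => rw [this]
    simp only [eval₂_add, eval₂_mul, eval₂_sub, eval₂_X, eval₂_C]
  -- the polynomial `H = (X^m - c^m)/(X - c)`
  set H : O[X] := ∑ i ∈ Finset.range m, X ^ i * C c ^ (m - 1 - i) with hH
  have hHmul : H * (X - C c) = X ^ m - C c ^ m := geom_sum₂_mul X (C c) m
  have hHeval : H.eval c = (m : O) * c ^ (m - 1) := by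
    simp only [hH, eval_finsetSum, eval_mul, eval_pow, eval_X, eval_C]
    exact geom_sum₂_self c m
  have hHu : H.eval₂ ψ u * (u - ψ c) = ψ (f - c ^ m) := by
    have := congrArg (eval₂ ψ u) hHmul
    simp only [eval₂_mul, eval₂_sub, eval₂_X, eval₂_C, eval₂_pow] at this
    rw [this, huf, map_sub, map_pow]
  have hHc0 : ψ (H.eval c) ≠ 0 := by
    rw [hHeval, map_mul, map_pow]
    exact mul_ne_zero hm0 (pow_ne_zero _ hc0)
  have hHcν : ν (ψ (H.eval c)) = 0 := by
    rw [hHeval, map_mul, map_pow, h.map_mul _ _ hm0 (pow_ne_zero _ hc0), hm, h.map_pow hc0, hc]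
    ring
  obtain ⟨H', hH'⟩ := hdec H
  have hHne : H.eval₂ ψ u ≠ 0 ∧ ν (H.eval₂ ψ u) = 0 := by
    rw [hH', add_comm]
    have := h.map_add_of_above hHc0 (y := (u - ψ c) * H'.eval₂ ψ u)
      (by rw [hHcν]; exact IsOrdFn.Above.mul_mem h huc (hV H'))
    rwa [hHcν] at this
  -- `f - c^m` is divisible by `π`
  have hfc : ψ (f - c ^ m) = 0 ∨ t ≤ ν (ψ (f - c ^ m)) := by
    rcases eq_or_ne (ψ (f - c ^ m)) 0 with h0 | h0
    · exact Or.inl h0
    right
    have hab : Above ν 0 (ψ (f - c ^ m)) := by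
      rw [← hHu, mul_comm]
      exact IsOrdFn.Above.mul_mem h huc (hV H)
    have hpos := hab.resolve_left h0
    obtain ⟨k, hk⟩ := (hO _ h0).2
    rw [hk] at hpos ⊢
    have hk1 : 1 ≤ k := by
      by_contra hcon
      have : k ≤ 0 := by omega
      have := mul_nonpos_of_nonneg_of_nonpos ht.le this
      omega
    nlinarith
  obtain ⟨g, hg⟩ := hdiv _ hfc
  -- the induction
  have key : ∀ n : ℕ, ∀ A : O[X], A.eval₂ ψ u ≠ 0 → ν (A.eval₂ ψ u) < n →
      t ∣ ν (A.eval₂ ψ u) := by
    intro n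
    induction n with
    | zero =>
      intro A hA hlt
      have := h.nonneg_of_mem hA (hV A)
      simp only [Nat.cast_zero] at hlt
      omega
    | succ n ih =>
      intro A hA hlt
      obtain ⟨B', hB'⟩ := hdec A
      by_cases hcase : ψ (A.eval c) ≠ 0 ∧ ν (ψ (A.eval c)) = 0
      · -- case (a): `A(c)` is a unit
        have := h.map_add_of_above hcase.1 (y := (u - ψ c) * B'.eval₂ ψ u)
          (by rw [hcase.2]; exact IsOrdFn.Above.mul_mem h huc (hV B'))
        rw [hB', add_comm, this.2, hcase.2]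
        exact dvd_zero t
      · -- case (b): `A(c)` is divisible by `π`
        have hb : ψ (A.eval c) = 0 ∨ t ≤ ν (ψ (A.eval c)) := by
          rcases eq_or_ne (ψ (A.eval c)) 0 with h0 | h0
          · exact Or.inl h0
          right
          have h1 := (hO _ h0).1
          obtain ⟨k, hk⟩ := (hO _ h0).2
          have hne : ν (ψ (A.eval c)) ≠ 0 := fun h2 => hcase ⟨h0, h2⟩
          rw [hk] at h1 hne ⊢
          have hk1 : 1 ≤ k := by
            by_contra hcon
            have hk0 : k ≤ 0 := by omega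
            have := mul_nonpos_of_nonneg_of_nonpos ht.le hk0
            have : t * k = 0 := by omega
            exact hne this
          nlinarith
        obtain ⟨a', ha'⟩ := hdiv _ hb
        set R : O[X] := C g * B' + C a' * H with hR
        have hRu : A.eval₂ ψ u * H.eval₂ ψ u = ψ π * R.eval₂ ψ u := by
          rw [hB', ha']
          simp only [hR, eval₂_add, eval₂_mul, eval₂_C, map_mul]
          have e1 : (u - ψ c) * H.eval₂ ψ u = ψ π * ψ g := by
            rw [mul_comm, hHu, hg, map_mul]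
          calc ((u - ψ c) * B'.eval₂ ψ u + ψ π * ψ a') * H.eval₂ ψ u
              = ((u - ψ c) * H.eval₂ ψ u) * B'.eval₂ ψ u + ψ π * ψ a' * H.eval₂ ψ u := by ring
            _ = ψ π * (ψ g * B'.eval₂ ψ u + ψ a' * H.eval₂ ψ u) := by rw [e1]; ring
        have hR0 : R.eval₂ ψ u ≠ 0 := by
          intro h0
          rw [h0, mul_zero] at hRu
          exact mul_ne_zero hA hHne.1 hRu
        have hνR : ν (A.eval₂ ψ u) = t + ν (R.eval₂ ψ u) := by
          have := congrArg ν hRu
          rw [h.map_mul _ _ hA hHne.1, h.map_mul _ _ hπ0 hR0, hHne.2, hπ] at this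
          omega
        have hlt' : ν (R.eval₂ ψ u) < n := by
          push_cast at hlt
          omega
        have := ih R hR0 hlt'
        rw [hνR]
        exact dvd_add (dvd_refl t) this
  intro A hA
  have hnn := h.nonneg_of_mem hA (hV A)
  exact key ((ν (A.eval₂ ψ u)).toNat + 1) A hA (by push_cast; omega)

end CoreA

section CoreA'

variable {F E : Type*} [Field F] [Field E] [Algebra F E] {V : ValuationSubring E} {ν : E → ℤ}

/-- All nonzero elements of `F[u]` have order divisible by `t`. -/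
theorem dvd_nu_aeval (h : IsOrdFn V ν) (t : ℤ) (ht : 0 < t)
    (hT : ∀ x : F, x ≠ 0 → t ∣ ν (algebraMap F E x))
    (πF : F) (hπ0 : πF ≠ 0) (hπ : ν (algebraMap F E πF) = t)
    (u : E) (hu0 : u ≠ 0) (hu : ν u = 0) (m : ℕ) (f : F) (huf : u ^ m = algebraMap F E f)
    (c : F) (hc0 : c ≠ 0) (hc : ν (algebraMap F E c) = 0)
    (huc : Above ν 0 (u - algebraMap F E c))
    (hm0 : (m : F) ≠ 0) (hm : ν (algebraMap F E (m : F)) = 0) :
    ∀ p : F[X], aeval u p ≠ 0 → t ∣ ν (aeval u p) := by
  have hφ0 : ∀ x : F, x ≠ 0 → algebraMap F E x ≠ 0 := fun x hx => by simpa using hx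
  set O : ValuationSubring F := V.comap (algebraMap F E) with hOdef
  have hmemO : ∀ x : F, x ∈ O ↔ algebraMap F E x ∈ V := fun x => ValuationSubring.mem_comap
  have hmemO' : ∀ x : F, x ≠ 0 → (x ∈ O ↔ 0 ≤ ν (algebraMap F E x)) := fun x hx => by
    rw [hmemO, h.mem_iff _ (hφ0 x hx)]
  set ψ : O →+* E := (algebraMap F E).comp O.subtype with hψ
  have hψapp : ∀ a : O, ψ a = algebraMap F E (a : F) := fun a => rfl
  have hψ0 : ∀ a : O, ψ a ≠ 0 → (a : F) ≠ 0 := by
    intro a ha h0
    apply ha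
    rw [hψapp, h0, map_zero]
  have hO : ∀ a : O, ψ a ≠ 0 → 0 ≤ ν (ψ a) ∧ t ∣ ν (ψ a) := by
    intro a ha
    exact ⟨(hmemO' _ (hψ0 a ha)).mp a.2, hT _ (hψ0 a ha)⟩
  have hπmem : πF ∈ O := (hmemO' _ hπ0).mpr (by rw [hπ]; exact ht.le)
  have hdiv : ∀ a : O, (ψ a = 0 ∨ t ≤ ν (ψ a)) → ∃ b : O, a = (⟨πF, hπmem⟩ : O) * b := by
    intro a ha
    rcases eq_or_ne (a : F) 0 with h0 | h0
    · refine ⟨0, ?_⟩
      rw [mul_zero]
      exact Subtype.ext h0
    · have hψa : ψ a ≠ 0 := by rw [hψapp]; exact hφ0 _ h0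
      have hle := ha.resolve_left hψa
      have hx0 : (a : F) * πF⁻¹ ≠ 0 := mul_ne_zero h0 (inv_ne_zero hπ0)
      have hxmem : (a : F) * πF⁻¹ ∈ O := by
        rw [hmemO' _ hx0, map_mul, map_inv₀,
          h.map_mul _ _ (hφ0 _ h0) (inv_ne_zero (hφ0 _ hπ0)), h.map_inv (hφ0 _ hπ0), hπ]
        rw [hψapp] at hle
        omega
      refine ⟨⟨_, hxmem⟩, Subtype.ext ?_⟩
      show (a : F) = πF * ((a : F) * πF⁻¹)
      field_simp
  have hfν : ν (algebraMap F E f) = 0 := by
    rw [← huf, h.map_pow hu0, hu, mul_zero]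
  have hf0 : f ≠ 0 := by
    intro h0
    rw [h0, map_zero] at huf
    exact pow_ne_zero m hu0 huf
  have hfmem : f ∈ O := (hmemO' _ hf0).mpr (le_of_eq hfν.symm)
  have hcmem : c ∈ O := (hmemO' _ hc0).mpr (le_of_eq hc.symm)
  have hmO : ψ (m : O) = algebraMap F E (m : F) := by
    rw [map_natCast, map_natCast]
  have key := dvd_nu_eval₂ h ψ t ht hO ⟨πF, hπmem⟩ (hφ0 _ hπ0) hπ hdiv u hu0 hu m ⟨f, hfmem⟩ huf
    ⟨c, hcmem⟩ (hφ0 _ hc0) hc huc (by rw [hmO]; exact hφ0 _ hm0) (by rw [hmO]; exact hm)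
  intro p hp
  obtain ⟨b, hbM, hb⟩ := IsLocalization.integerNormalization_spec (nonZeroDivisors O) p
  set A := IsLocalization.integerNormalization (nonZeroDivisors O) p with hA
  have hev : A.eval₂ ψ u = algebraMap F E (b : F) * aeval u p := by
    have e1 : A.eval₂ ψ u = (A.map (algebraMap O F)).eval₂ (algebraMap F E) u := by
      rw [eval₂_map]
      rfl
    rw [e1, hb, ← IsScalarTower.algebraMap_smul F b p, eval₂_smul, aeval_def]
    rfl
  have hb0 : (b : F) ≠ 0 := by
    have := nonZeroDivisors.ne_zero hbM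
    intro h0
    exact this (Subtype.ext h0)
  have hne : A.eval₂ ψ u ≠ 0 := by
    rw [hev]
    exact mul_ne_zero (hφ0 _ hb0) hp
  have h1 := key A hne
  rw [hev, h.map_mul _ _ (hφ0 _ hb0) hp] at h1
  exact (Int.dvd_add_right (hT _ hb0)).mp h1

end CoreA'

/-! ## Part B: the residue class of `u` is a constant -/

section CoreB

variable {K E : Type*} [Field K] [Field E] [Algebra K E] {V : ValuationSubring E} {ν : E → ℤ}

theorem exists_const_approx (h : IsOrdFn V ν) [IsAlgClosed K]
    (m : ℕ) (hm : (m : K) ≠ 0) (u : E) (hu0 : u ≠ 0) (hu : ν u = 0)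
    (c0 : K) (hc0 : Above ν 0 (u ^ m - algebraMap K E c0)) :
    ∃ c : K, c ≠ 0 ∧ Above ν 0 (u - algebraMap K E c) := by
  have hφ0 : ∀ x : K, x ≠ 0 → algebraMap K E x ≠ 0 := fun x hx => by simpa using hx
  have hmpos : 0 < m := by
    rcases Nat.eq_zero_or_pos m with rfl | hpos
    · exact absurd Nat.cast_zero hm
    · exact hpos
  have hc00 : c0 ≠ 0 := by
    rintro rfl
    rw [map_zero, sub_zero] at hc0
    rcases hc0 with h0 | h0
    · exact pow_ne_zero m hu0 h0
    · rw [h.map_pow hu0, hu, mul_zero] at h0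
      exact lt_irrefl 0 h0
  have : NeZero (m : K) := ⟨hm⟩
  obtain ⟨ζ, hζ⟩ := HasEnoughRootsOfUnity.exists_primitiveRoot K m
  obtain ⟨α, hα⟩ := IsAlgClosed.exists_pow_nat_eq c0 hmpos
  have hα0 : α ≠ 0 := by
    rintro rfl
    rw [zero_pow hmpos.ne'] at hα
    exact hc00 hα.symm
  have hζ0 : ζ ≠ 0 := hζ.ne_zero hmpos.ne'
  have hprod := congrArg (aeval u) (X_pow_sub_C_eq_prod hζ hmpos hα)
  simp only [map_sub, map_pow, aeval_X, aeval_C, map_prod] at hprod
  -- hprod : u ^ m - algebraMap K E c0 = ∏ i ∈ range m, (u - algebraMap K E (ζ ^ i * α))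
  have huV : u ∈ V := (h.mem_iff _ hu0).mpr (le_of_eq hu.symm)
  by_cases hex : ∃ i ∈ Finset.range m, u - algebraMap K E (ζ ^ i * α) = 0
  · obtain ⟨i, _, hi⟩ := hex
    exact ⟨ζ ^ i * α, mul_ne_zero (pow_ne_zero _ hζ0) hα0, Or.inl hi⟩
  · push Not at hex
    have hne : ∏ i ∈ Finset.range m, (u - algebraMap K E (ζ ^ i * α)) ≠ 0 :=
      Finset.prod_ne_zero_iff.mpr hex
    have hpos : 0 < ν (∏ i ∈ Finset.range m, (u - algebraMap K E (ζ ^ i * α))) := by
      rw [← hprod] at hne ⊢
      exact hc0.resolve_left hne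
    rw [h.map_prod _ _ hex] at hpos
    by_contra hcon
    have hall : ∀ i ∈ Finset.range m, ν (u - algebraMap K E (ζ ^ i * α)) ≤ 0 := by
      intro i hi
      by_contra hlt
      rw [not_le] at hlt
      exact hcon ⟨ζ ^ i * α, mul_ne_zero (pow_ne_zero _ hζ0) hα0, Or.inr hlt⟩
    have := Finset.sum_nonpos hall
    omega

end CoreB

/-! ## Part C: a degree bound from divisibility of orders -/

section CoreC

variable {F E : Type*} [Field F] [Field E] [Algebra F E] {V : ValuationSubring E} {ν : E → ℤ}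

theorem le_finrank_of_dvd (h : IsOrdFn V ν) (E' : IntermediateField F E)
    [FiniteDimensional E' E] (t : ℕ)
    (hE' : ∀ y ∈ E', y ≠ 0 → (t : ℤ) ∣ ν y) (ϖ : E) (hϖ0 : ϖ ≠ 0) (hϖ : ν ϖ = 1) :
    t ≤ Module.finrank E' E := by
  classical
  have hli : LinearIndependent E' (fun i : Fin t => ϖ ^ (i : ℕ)) := by
    rw [Fintype.linearIndependent_iff]
    intro g hg
    by_contra hcon
    push Not at hcon
    obtain ⟨j, hj⟩ := hcon
    set term : Fin t → E := fun i => (g i : E) * ϖ ^ (i : ℕ) with hterm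
    have hsum : ∑ i, term i = 0 := by
      rw [← hg]
      refine Finset.sum_congr rfl fun i _ => ?_
      rw [hterm, IntermediateField.smul_def, smul_eq_mul]
    set S : Finset (Fin t) := Finset.univ.filter fun i => g i ≠ 0 with hS
    have hSne : S.Nonempty := ⟨j, by simp [hS, hj]⟩
    obtain ⟨i0, hi0S, hmin⟩ := Finset.exists_min_image S (fun i => ν (term i)) hSne
    have hgi0 : g i0 ≠ 0 := by simpa [hS] using hi0S
    have hne : ∀ i : Fin t, g i ≠ 0 → term i ≠ 0 := fun i hi =>
      mul_ne_zero (by simpa using hi) (pow_ne_zero _ hϖ0)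
    have hν : ∀ i : Fin t, g i ≠ 0 → ν (term i) = ν (g i : E) + (i : ℕ) := by
      intro i hi
      have hgi : (g i : E) ≠ 0 := by simpa using hi
      rw [hterm]
      simp only
      rw [h.map_mul _ _ hgi (pow_ne_zero _ hϖ0), h.map_pow hϖ0, hϖ, mul_one]
    have habove : ∀ i ∈ Finset.univ.erase i0, Above ν (ν (term i0)) (term i) := by
      intro i hi
      have hii0 : i ≠ i0 := (Finset.mem_erase.mp hi).1
      by_cases hgi : g i = 0
      · left
        rw [hterm]
        simp only
        rw [hgi]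
        simp
      · right
        have hiS : i ∈ S := by simp [hS, hgi]
        have hle := hmin i hiS
        rcases lt_or_eq_of_le hle with hlt | heq
        · exact hlt
        · exfalso
          rw [hν i hgi, hν i0 hgi0] at heq
          obtain ⟨a, ha⟩ := hE' (g i : E) (g i).2 (by simpa using hgi)
          obtain ⟨b, hb⟩ := hE' (g i0 : E) (g i0).2 (by simpa using hgi0)
          rw [ha, hb] at heq
          have h1 : (i : ℕ) < t := i.2
          have h2 : (i0 : ℕ) < t := i0.2
          have hab : (t : ℤ) * (b - a) = ((i : ℕ) : ℤ) - ((i0 : ℕ) : ℤ) := by linarith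
          have : (i : ℕ) = (i0 : ℕ) := by
            rcases lt_trichotomy (b - a) 0 with hneg | hz | hpos
            · have : (t : ℤ) * (b - a) ≤ (t : ℤ) * (-1) :=
                mul_le_mul_of_nonneg_left (by omega) (by omega)
              omega
            · rw [hz, mul_zero] at hab
              omega
            · have : (t : ℤ) * 1 ≤ (t : ℤ) * (b - a) :=
                mul_le_mul_of_nonneg_left (by omega) (by omega)
              omega
          exact hii0 (Fin.ext this)
    have hrest := IsOrdFn.Above.sum h (Finset.univ.erase i0) term habove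
    have := h.map_add_of_above (hne i0 hgi0) hrest
    rw [Finset.add_sum_erase _ _ (Finset.mem_univ i0), hsum] at this
    exact this.1 rfl
  have := hli.fintype_card_le_finrank
  simpa using this

end CoreC

/-! ## Part D: abstract descent -/

section CoreD

variable {K F E : Type*} [Field K] [Field F] [Field E] [Algebra K F] [Algebra F E] [Algebra K E]
  [IsScalarTower K F E] {V : ValuationSubring E} {ν : E → ℤ}

/-- Abstract descent, normalised case `ν u = 0`. -/
theorem mem_range_of_normalized (h : IsOrdFn V ν) [IsAlgClosed K] [FiniteDimensional F E]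
    (t : ℕ) (ht : 0 < t)
    (hT : ∀ x : F, x ≠ 0 → (t : ℤ) ∣ ν (algebraMap F E x))
    (πF : F) (hπ0 : πF ≠ 0) (hπ : ν (algebraMap F E πF) = t)
    (ϖ : E) (hϖ0 : ϖ ≠ 0) (hϖ : ν ϖ = 1)
    (hK : ∀ c : K, c ≠ 0 → ν (algebraMap K E c) = 0)
    (hres : ∀ a : F, a ≠ 0 → ν (algebraMap F E a) = 0 →
      ∃ c : K, Above ν 0 (algebraMap F E (a - algebraMap K F c)))
    (hdeg : Module.finrank F E < 2 * t)
    (m : ℕ) (hm : (m : K) ≠ 0)
    (u : E) (hu0 : u ≠ 0) (hu : ν u = 0) (f : F) (huf : u ^ m = algebraMap F E f) :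
    u ∈ (algebraMap F E).range := by
  have hφ0 : ∀ x : F, x ≠ 0 → algebraMap F E x ≠ 0 := fun x hx => by simpa using hx
  have hfν : ν (algebraMap F E f) = 0 := by
    rw [← huf, h.map_pow hu0, hu, mul_zero]
  have hf0 : f ≠ 0 := by
    intro h0
    rw [h0, map_zero] at huf
    exact pow_ne_zero m hu0 huf
  obtain ⟨c0, hc0⟩ := hres f hf0 hfν
  rw [map_sub, ← huf, ← IsScalarTower.algebraMap_apply] at hc0
  obtain ⟨c, hcne, hc⟩ := exists_const_approx h m hm u hu0 hu c0 hc0
  have hcF0 : algebraMap K F c ≠ 0 := by simpa using hcne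
  have hcFν : ν (algebraMap F E (algebraMap K F c)) = 0 := by
    rw [← IsScalarTower.algebraMap_apply]
    exact hK c hcne
  have hmF : ((m : ℕ) : F) = algebraMap K F (m : K) := by rw [map_natCast]
  have hmF0 : ((m : ℕ) : F) ≠ 0 := by
    rw [hmF]
    exact (map_ne_zero (algebraMap K F)).mpr hm
  have hmFν : ν (algebraMap F E ((m : ℕ) : F)) = 0 := by
    rw [hmF, ← IsScalarTower.algebraMap_apply]
    exact hK _ hm
  have key := dvd_nu_aeval h (t : ℤ) (by exact_mod_cast ht) hT πF hπ0 hπ u hu0 hu m f huf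
    (algebraMap K F c) hcF0 hcFν (by rw [← IsScalarTower.algebraMap_apply]; exact hc) hmF0 hmFν
  -- the intermediate field `F(u)`
  have hint : IsIntegral F u := Algebra.IsIntegral.isIntegral u
  have hE' : ∀ y ∈ IntermediateField.adjoin F {u}, y ≠ 0 → (t : ℤ) ∣ ν y := by
    intro y hy hy0
    have hy' : y ∈ (IntermediateField.adjoin F {u}).toSubalgebra := hy
    rw [IntermediateField.adjoin_simple_toSubalgebra_of_isAlgebraic hint.isAlgebraic,
      Algebra.adjoin_singleton_eq_range_aeval] at hy'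
    obtain ⟨p, rfl⟩ := hy'
    exact key p hy0
  have hle := le_finrank_of_dvd h (IntermediateField.adjoin F {u}) t hE' ϖ hϖ0 hϖ
  have hmul := Module.finrank_mul_finrank F (IntermediateField.adjoin F {u}) E
  have hpos : 0 < Module.finrank F (IntermediateField.adjoin F {u}) := Module.finrank_pos
  have hone : Module.finrank F (IntermediateField.adjoin F {u}) = 1 := by
    by_contra hne
    have h2 : 2 ≤ Module.finrank F (IntermediateField.adjoin F {u}) := by omega
    have : 2 * t ≤ Module.finrank F (IntermediateField.adjoin F {u}) *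
        Module.finrank (IntermediateField.adjoin F {u}) E := Nat.mul_le_mul h2 hle
    omega
  have hbot : IntermediateField.adjoin F {u} = ⊥ := IntermediateField.finrank_eq_one_iff.mp hone
  have hu_mem : u ∈ IntermediateField.adjoin F {u} := IntermediateField.mem_adjoin_simple_self F u
  rw [hbot, IntermediateField.mem_bot] at hu_mem
  obtain ⟨x, hx⟩ := hu_mem
  exact ⟨x, hx⟩

/-- Abstract descent: `t ∣ ν u` suffices. -/
theorem mem_range_of_dvd (h : IsOrdFn V ν) [IsAlgClosed K] [FiniteDimensional F E]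
    (t : ℕ) (ht : 0 < t)
    (hT : ∀ x : F, x ≠ 0 → (t : ℤ) ∣ ν (algebraMap F E x))
    (πF : F) (hπ0 : πF ≠ 0) (hπ : ν (algebraMap F E πF) = t)
    (ϖ : E) (hϖ0 : ϖ ≠ 0) (hϖ : ν ϖ = 1)
    (hK : ∀ c : K, c ≠ 0 → ν (algebraMap K E c) = 0)
    (hres : ∀ a : F, a ≠ 0 → ν (algebraMap F E a) = 0 →
      ∃ c : K, Above ν 0 (algebraMap F E (a - algebraMap K F c)))
    (hdeg : Module.finrank F E < 2 * t)
    (m : ℕ) (hm : (m : K) ≠ 0)
    (u : E) (hu0 : u ≠ 0) (hord : (t : ℤ) ∣ ν u) (f : F) (huf : u ^ m = algebraMap F E f) :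
    u ∈ (algebraMap F E).range := by
  have hφ0 : ∀ x : F, x ≠ 0 → algebraMap F E x ≠ 0 := fun x hx => by simpa using hx
  obtain ⟨k, hk⟩ := hord
  have hπE0 : algebraMap F E πF ≠ 0 := hφ0 _ hπ0
  set u' : E := u * (algebraMap F E πF) ^ (-k) with hu'
  have hu'0 : u' ≠ 0 := mul_ne_zero hu0 (zpow_ne_zero _ hπE0)
  have hu'ν : ν u' = 0 := by
    rw [hu', h.map_mul _ _ hu0 (zpow_ne_zero _ hπE0), h.map_zpow hπE0, hπ, hk]
    ring
  have hu'f : u' ^ m = algebraMap F E (f * πF ^ (-k * (m : ℤ))) := by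
    rw [hu', mul_pow, huf, map_mul, map_zpow₀, ← zpow_natCast ((algebraMap F E πF) ^ (-k)) m,
      ← zpow_mul]
  obtain ⟨x, hx⟩ := mem_range_of_normalized h t ht hT πF hπ0 hπ ϖ hϖ0 hϖ hK hres hdeg m hm u' hu'0
    hu'ν _ hu'f
  refine ⟨x * πF ^ k, ?_⟩
  rw [map_mul, map_zpow₀, hx, hu', mul_assoc, ← zpow_add₀ hπE0]
  simp

end CoreD

/-! ## Part E: bridge to the Prelude `Place` API -/

section Bridge

open AlgebraicCurve IsLocalRing

variable {K F E : Type*} [Field K] [Field F] [Field E] [Algebra K E]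

theorem place_ord_nonneg_of_mem (w : Place K E) {f : E} (hf : f ∈ w.toValuationSubring) :
    0 ≤ w.ord f := by
  rcases eq_or_ne f 0 with rfl | hf0
  · simp
  obtain ⟨π, hπ⟩ := IsDiscreteValuationRing.exists_irreducible w.toValuationSubring
  obtain ⟨n, u, hu⟩ :=
    IsDiscreteValuationRing.eq_unit_mul_pow_irreducible
      (x := (⟨f, hf⟩ : w.toValuationSubring)) (by simpa [Subtype.ext_iff] using hf0) hπ
  have hcoe : f = ((u : w.toValuationSubring) : E) * ((π : E) ^ (n : ℤ)) := by
    have h := congrArg (Subtype.val) hu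
    push_cast at h
    rw [zpow_natCast]
    exact h
  rw [hcoe, w.ord_unit_smul_zpow u hπ (n : ℤ)]
  exact Int.natCast_nonneg n

theorem place_mem_of_ord_nonneg (w : Place K E) {f : E} (hf : f ≠ 0) (h : 0 ≤ w.ord f) :
    f ∈ w.toValuationSubring := by
  obtain ⟨π, hπ⟩ := IsDiscreteValuationRing.exists_irreducible w.toValuationSubring
  obtain ⟨u, hu⟩ := w.exists_unit_mul_zpow hf hπ
  rw [hu, show w.ord f = (((w.ord f).toNat : ℕ) : ℤ) from (Int.toNat_of_nonneg h).symm,
    zpow_natCast]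
  exact mul_mem (u : w.toValuationSubring).2 (pow_mem (π : w.toValuationSubring).2 _)

theorem isOrdFn_place (w : Place K E) : IsOrdFn w.toValuationSubring w.ord where
  map_mul := fun _ _ hx hy => w.ord_mul hx hy
  mem_iff := fun _ hx => ⟨place_ord_nonneg_of_mem w, place_mem_of_ord_nonneg w hx⟩

theorem place_ord_algebraMap_eq_zero (w : Place K E) (c : K) :
    w.ord (algebraMap K E c) = 0 := by
  have h1 := place_ord_nonneg_of_mem w (w.algebraMap_mem' c)
  have h2 := place_ord_nonneg_of_mem w (w.algebraMap_mem' c⁻¹)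
  rw [map_inv₀, w.ord_inv] at h2
  omega

theorem place_exists_ord_eq_one (w : Place K E) : ∃ ϖ : E, ϖ ≠ 0 ∧ w.ord ϖ = 1 := by
  obtain ⟨π, hπ⟩ := IsDiscreteValuationRing.exists_irreducible w.toValuationSubring
  refine ⟨(π : E), ?_, w.ord_coe_irreducible hπ⟩
  simpa [ne_eq, ZeroMemClass.coe_eq_zero] using hπ.ne_zero

variable [Algebra K F] [Algebra F E] [IsScalarTower K F E]

/-- the residue field of `w ∩ F` is `K`: every unit of `w ∩ F` is congruent to a constant. -/
theorem place_exists_const_sub_above [IsAlgClosed K] [Algebra.IsIntegral F E] (w : Place K E)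
    [Module.Finite K (w.restrict F).ResidueField] {a : F} (ha0 : a ≠ 0)
    (ha : w.ord (algebraMap F E a) = 0) :
    ∃ c : K, Above w.ord 0 (algebraMap F E (a - algebraMap K F c)) := by
  have hφ0 : ∀ x : F, x ≠ 0 → algebraMap F E x ≠ 0 := fun x hx => by simpa using hx
  have hmemO : ∀ x : F, x ≠ 0 →
      (x ∈ (w.restrict F).toValuationSubring ↔ 0 ≤ w.ord (algebraMap F E x)) := by
    intro x hx
    rw [Place.restrict_toValuationSubring, ValuationSubring.mem_comap]
    exact ⟨place_ord_nonneg_of_mem w, place_mem_of_ord_nonneg w (hφ0 x hx)⟩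
  have hamem : a ∈ (w.restrict F).toValuationSubring := (hmemO a ha0).mpr (le_of_eq ha.symm)
  have : Algebra.IsIntegral K (w.restrict F).ResidueField :=
    Algebra.IsIntegral.of_finite K (w.restrict F).ResidueField
  have hbij : Function.Bijective (algebraMap K (w.restrict F).ResidueField) :=
    IsAlgClosed.algebraMap_bijective_of_isIntegral
  obtain ⟨c, hc⟩ := hbij.2 (residue _ (⟨a, hamem⟩ : (w.restrict F).toValuationSubring))
  refine ⟨c, ?_⟩
  rcases eq_or_ne (a - algebraMap K F c) 0 with h0 | h0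
  · left
    rw [h0, map_zero]
  right
  have hcmem : algebraMap K F c ∈ (w.restrict F).toValuationSubring :=
    (w.restrict F).algebraMap_mem' c
  have hxmem : a - algebraMap K F c ∈ (w.restrict F).toValuationSubring :=
    sub_mem hamem hcmem
  have hnn := (hmemO _ h0).mp hxmem
  by_contra hcon
  have hzero : w.ord (algebraMap F E (a - algebraMap K F c)) = 0 := by omega
  -- then `a - c` is a unit of the restricted valuation ring, contradicting `hc`
  have hinvmem : (a - algebraMap K F c)⁻¹ ∈ (w.restrict F).toValuationSubring := by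
    rw [hmemO _ (inv_ne_zero h0), map_inv₀, w.ord_inv, hzero, neg_zero]
  have hunit : IsUnit (⟨a - algebraMap K F c, hxmem⟩ : (w.restrict F).toValuationSubring) :=
    ⟨⟨⟨_, hxmem⟩, ⟨_, hinvmem⟩, Subtype.ext (mul_inv_cancel₀ h0),
      Subtype.ext (inv_mul_cancel₀ h0)⟩, rfl⟩
  have hres0 : residue _ (⟨a - algebraMap K F c, hxmem⟩ : (w.restrict F).toValuationSubring)
      = 0 := by
    have e : (⟨a - algebraMap K F c, hxmem⟩ : (w.restrict F).toValuationSubring)
        = ⟨a, hamem⟩ - algebraMap K (w.restrict F).toValuationSubring c := Subtype.ext rfl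
    rw [e, map_sub, ← hc]
    exact sub_self _
  rw [residue_eq_zero_iff] at hres0
  exact (IsLocalRing.mem_maximalIdeal _).mp hres0 hunit

/-- **Descent** (Prelude form).  `E/F` finite, `w` a place of `E` with ramification index
`t` over `F` with `[E:F] < 2 t`; residue field of `w ∩ F` finite over the algebraically closed
constant field `K`; `m` invertible in `K`.  If `u ^ m ∈ F` and `t ∣ ord_w u` then `u ∈ F`. -/
theorem mem_range_of_pow_eq_algebraMap [IsAlgClosed K] [FiniteDimensional F E] (w : Place K E)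
    [Module.Finite K (w.restrict F).ResidueField]
    (hdeg : Module.finrank F E < 2 * w.ramificationIndex F)
    {m : ℕ} (hm : (m : K) ≠ 0) {u : E} (hu0 : u ≠ 0) {f : F}
    (huf : u ^ m = algebraMap F E f)
    (hord : (w.ramificationIndex F : ℤ) ∣ w.ord u) :
    u ∈ (algebraMap F E).range := by
  obtain ⟨πF, hπ0, hπ⟩ := w.exists_ord_eq_ramificationIndex (F := F)
  obtain ⟨ϖ, hϖ0, hϖ⟩ := place_exists_ord_eq_one w
  exact mem_range_of_dvd (K := K) (isOrdFn_place w) (w.ramificationIndex F)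
    (w.ramificationIndex_pos (F := F))
    (fun x hx => w.ramificationIndex_dvd_ord (F := F) hx) πF hπ0 hπ ϖ hϖ0 hϖ
    (fun c _ => place_ord_algebraMap_eq_zero w c)
    (fun a ha0 ha => place_exists_const_sub_above w ha0 ha) hdeg m hm u hu0 hord f huf

/-- **Descent of principality** (Prelude divisors).  If the pull-back of `D` to `E` is the
divisor of `u` with `u ^ m ∈ F`, and some place of `E` has ramification index `> [E:F]/2`
over `F`, then `D` itself is principal. -/
theorem isPrincipal_of_pullback_eq_ord [IsAlgClosed K] [FiniteDimensional F E]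
    [HasPrincipalDivisors K E]
    (hsurj : ∀ v : Place K F, ∃ w : Place K E, w.restrict F = v)
    (w0 : Place K E) [Module.Finite K (w0.restrict F).ResidueField]
    (hdeg : Module.finrank F E < 2 * w0.ramificationIndex F)
    {m : ℕ} (hm : (m : K) ≠ 0) (D : Divisor K F) {u : E} (hu0 : u ≠ 0)
    (hu : ∀ w : Place K E, Divisor.pullback E D w = w.ord u) {f : F}
    (huf : u ^ m = algebraMap F E f) :
    D.IsPrincipal := by
  have hord : (w0.ramificationIndex F : ℤ) ∣ w0.ord u := by
    rw [← hu w0, Divisor.pullback_apply]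
    exact dvd_mul_right _ _
  obtain ⟨g, hg⟩ := mem_range_of_pow_eq_algebraMap w0 hdeg hm hu0 huf hord
  have hg0 : g ≠ 0 := by
    rintro rfl
    rw [map_zero] at hg
    exact hu0 hg.symm
  refine ⟨g, hg0, fun v => ?_⟩
  obtain ⟨w, rfl⟩ := hsurj v
  have h1 := hu w
  rw [Divisor.pullback_apply, ← hg, w.ord_restrict g] at h1
  have hpos : (0 : ℤ) < (w.ramificationIndex F : ℤ) := by
    exact_mod_cast w.ramificationIndex_pos (F := F)
  exact mul_left_cancel₀ hpos.ne' h1

/-- Variant: only `m • D = div f` and `div u = pullback D` are assumed; the constant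
`u ^ m / f` is absorbed using that functions without zeros and poles on `E` are constants. -/
theorem isPrincipal_of_pullback_eq_ord_of_nsmul [IsAlgClosed K] [FiniteDimensional F E]
    [HasPrincipalDivisors K E]
    (hsurj : ∀ v : Place K F, ∃ w : Place K E, w.restrict F = v)
    (hconst : ∀ g : E, g ≠ 0 → (∀ w : Place K E, w.ord g = 0) → ∃ c : K, g = algebraMap K E c)
    (w0 : Place K E) [Module.Finite K (w0.restrict F).ResidueField]
    (hdeg : Module.finrank F E < 2 * w0.ramificationIndex F)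
    {m : ℕ} (hm : (m : K) ≠ 0) (D : Divisor K F) {f : F} (hf0 : f ≠ 0)
    (hmD : ∀ v : Place K F, (m : ℤ) * D v = v.ord f)
    {u : E} (hu0 : u ≠ 0) (hu : ∀ w : Place K E, Divisor.pullback E D w = w.ord u) :
    D.IsPrincipal := by
  have hmpos : 0 < m := by
    rcases Nat.eq_zero_or_pos m with rfl | hpos
    · exact absurd Nat.cast_zero hm
    · exact hpos
  have hφf0 : algebraMap F E f ≠ 0 := by simpa using hf0
  -- `u ^ m / f` has trivial divisor
  have hq0 : u ^ m * (algebraMap F E f)⁻¹ ≠ 0 := mul_ne_zero (pow_ne_zero m hu0) (inv_ne_zero hφf0)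
  have hqord : ∀ w : Place K E, w.ord (u ^ m * (algebraMap F E f)⁻¹) = 0 := by
    intro w
    rw [w.ord_mul (pow_ne_zero m hu0) (inv_ne_zero hφf0), w.ord_inv, w.ord_restrict f,
      ← hmD (w.restrict F), ← zpow_natCast, w.ord_zpow, ← hu w, Divisor.pullback_apply]
    ring
  obtain ⟨c, hc⟩ := hconst _ hq0 hqord
  have hc0 : c ≠ 0 := by
    rintro rfl
    rw [map_zero] at hc
    exact hq0 hc
  obtain ⟨c1, hc1⟩ := IsAlgClosed.exists_pow_nat_eq c hmpos
  have hc10 : c1 ≠ 0 := by
    rintro rfl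
    rw [zero_pow hmpos.ne'] at hc1
    exact hc0 hc1.symm
  have hc1E0 : algebraMap K E c1 ≠ 0 := by simpa using hc10
  have hu1 : (u * (algebraMap K E c1)⁻¹) ^ m = algebraMap F E f := by
    rw [mul_pow, inv_pow, ← map_pow, hc1, ← hc]
    field_simp
  refine isPrincipal_of_pullback_eq_ord hsurj w0 hdeg hm D
    (mul_ne_zero hu0 (inv_ne_zero hc1E0)) (fun w => ?_) hu1
  rw [hu w, w.ord_mul hu0 (inv_ne_zero hc1E0), w.ord_inv, place_ord_algebraMap_eq_zero w c1]
  ring

end Bridge

end Fermat.Agent.S18.Descent84
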