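import Mathlib
import Fermat.Prelude.Def_ModularCurve_X0ModL
import Fermat.Agent.S28.KEY0
import Fermat.Agent.S28.KeyLowerBasic

/-!
# S18, package [DESCENT]-SIGMA (helper14): the `q`-expansion descent `M → N`

Blueprint 15, Step 5.  `σ_s := qExpandAlgHomC K s` (`q ↦ q ^ s`), `Ep K s = K((q^s))` its range.

* `inf_Ep_eq_of_relrank_le` : if `C ≤ F`, `C ≤ K((q^s))`, `t ∈ F` and `[F : C] < 2 s`, then
  `F ⊓ K((q^s)) = C`  (`1, t⁻¹, …, t^{-(s-1)}` are linearly independent over `K((q^s))`).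
* `LL_inf_Ep_of_dvd`, `LL_inf_Ep_sq` : `L_{pM} ⊓ K((q^p)) = σ_p L_M` if `p ∣ M`,
  `L_{p²M} ⊓ K((q^{p²})) = σ_{p²} L_M` in general  (`L_N = K(t_d : d ∣ N)`; S28.KEY0 (S5), (S6)).
* `mem_Ep_of_pow_mem_Ep` : `g ^ m ∈ K((q^s))`, `(m : K) ≠ 0`, `s ∣ ord g` ⟹ `g ∈ K((q^s))`.
-/

set_option autoImplicit false

namespace Fermat.Agent.S18.DescentSigma14

open ModularCurve HahnSeries IntermediateField Fermat.Agent.S28 Fermat.Agent.S28.KEY0
open Fermat.Agent.S28.KeyLowerBasic (Ep mem_Ep_iff map_le_Ep)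

noncomputable section

/-! ### Part A: `1, t⁻¹, …` are independent over `K((q^s))` -/

section Indep

variable {K : Type*} [Field K] (s : ℕ) [NeZero s]

theorem dvd_order_of_mem_Ep {x : LaurentSeries K} (hx : x ∈ Ep K s) : (s : ℤ) ∣ x.order := by
  by_cases h0 : x = 0
  · subst h0; simp
  · by_contra hnd
    exact (HahnSeries.coeff_order_eq_zero.not.mpr h0) ((mem_Ep_iff K s).mp hx _ hnd)

/-- Core independence: a vanishing combination `∑ cᵢ uᵢ` with `cᵢ ∈ K((q^s))` and
`ord uᵢ = i` (`i < s`) has all `cᵢ = 0`. -/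
theorem eq_zero_of_sum_mul_eq_zero (c u : Fin s → LaurentSeries K)
    (hc : ∀ i, c i ∈ Ep K s) (hu : ∀ i, u i ≠ 0) (hord : ∀ i, (u i).order = ((i : ℕ) : ℤ))
    (h : ∑ i, c i * u i = 0) : ∀ i, c i = 0 := by
  classical
  by_contra hne
  push Not at hne
  obtain ⟨j, hj⟩ := hne
  set S := Finset.univ.filter (fun i => c i ≠ 0) with hS
  have hSne : S.Nonempty := ⟨j, by simp [hS, hj]⟩
  obtain ⟨i0, hi0S, hmin⟩ := Finset.exists_min_image S (fun i => (c i * u i).order) hSne
  have hci0 : c i0 ≠ 0 := (Finset.mem_filter.mp hi0S).2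
  have hordmul : ∀ i, c i ≠ 0 → (c i * u i).order = (c i).order + ((i : ℕ) : ℤ) := by
    intro i hi
    rw [HahnSeries.order_mul hi (hu i), hord i]
  set n0 := (c i0 * u i0).order with hn0
  have hcoeff : (∑ i, c i * u i).coeff n0 = (c i0 * u i0).coeff n0 := by
    rw [HahnSeries.coeff_sum]
    apply Finset.sum_eq_single i0
    · intro i _ hii0
      by_cases hci : c i = 0
      · rw [hci, zero_mul, HahnSeries.coeff_zero]
      · have hiS : i ∈ S := Finset.mem_filter.mpr ⟨Finset.mem_univ _, hci⟩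
        have hle : n0 ≤ (c i * u i).order := hmin i hiS
        have hneq : (c i * u i).order ≠ n0 := by
          intro heq
          rw [hn0, hordmul i hci, hordmul i0 hci0] at heq
          obtain ⟨a, ha⟩ := dvd_order_of_mem_Ep s (hc i)
          obtain ⟨b, hb⟩ := dvd_order_of_mem_Ep s (hc i0)
          rw [ha, hb] at heq
          have h1 : ((i : ℕ) : ℤ) % (s : ℤ) = ((i0 : ℕ) : ℤ) % (s : ℤ) := by
            have := congrArg (fun z : ℤ => z % (s : ℤ)) heq
            simpa [Int.add_mul_emod_self_left, Int.add_emod, Int.mul_emod_right] using this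
          have hi : ((i : ℕ) : ℤ) % (s : ℤ) = ((i : ℕ) : ℤ) :=
            Int.emod_eq_of_lt (by positivity) (by exact_mod_cast i.2)
          have hi0 : ((i0 : ℕ) : ℤ) % (s : ℤ) = ((i0 : ℕ) : ℤ) :=
            Int.emod_eq_of_lt (by positivity) (by exact_mod_cast i0.2)
          rw [hi, hi0] at h1
          exact hii0 (Fin.ext (by exact_mod_cast h1))
        exact HahnSeries.coeff_eq_zero_of_lt_order (lt_of_le_of_ne hle (Ne.symm hneq))
    · intro h'
      exact absurd (Finset.mem_univ _) h'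
  rw [h, HahnSeries.coeff_zero] at hcoeff
  have hne0 : c i0 * u i0 ≠ 0 := mul_ne_zero hci0 (hu i0)
  exact (HahnSeries.coeff_order_eq_zero.not.mpr hne0) hcoeff.symm

/-- `ord (t⁻¹) = 1`. -/
theorem order_inv_jqModC (K : Type*) [Field K] : ((jqModC K)⁻¹).order = 1 := by
  have ht0 : jqModC K ≠ 0 := jqModC_ne_zero_of_nontrivial K
  have h1 : jqModC K * (jqModC K)⁻¹ = 1 := mul_inv_cancel₀ ht0
  have h2 := HahnSeries.order_mul ht0 (inv_ne_zero ht0)
  rw [h1, HahnSeries.order_one, Fermat.Agent.S28.KeyLowerBasic.order_jqModC] at h2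
  linarith

theorem order_inv_jqModC_pow (K : Type*) [Field K] (i : ℕ) :
    (((jqModC K)⁻¹) ^ i).order = (i : ℤ) := by
  rw [HahnSeries.order_pow, order_inv_jqModC, nsmul_eq_mul, mul_one]

/-- `[F : F ⊓ K((q^s))] ≥ s` as soon as `t ∈ F`. -/
theorem natCast_le_relrank_inf_Ep (F : IntermediateField K (LaurentSeries K))
    (ht : jqModC K ∈ F) : (s : Cardinal) ≤ (F ⊓ Ep K s).relrank F := by
  have hle : F ⊓ Ep K s ≤ F := inf_le_left
  rw [relrank_eq_rank_of_le hle]
  have ht0 : jqModC K ≠ 0 := jqModC_ne_zero_of_nontrivial K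
  let v : Fin s → ↥(extendScalars hle) := fun i =>
    ⟨((jqModC K)⁻¹) ^ (i : ℕ), by
      rw [mem_extendScalars]
      exact pow_mem (inv_mem ht) _⟩
  have hv : LinearIndependent ↥(F ⊓ Ep K s) v := by
    rw [Fintype.linearIndependent_iff]
    intro g hg i
    have h1 := congrArg (fun x : ↥(extendScalars hle) => (x : LaurentSeries K)) hg
    simp only [AddSubmonoidClass.coe_finsetSum, ZeroMemClass.coe_zero] at h1
    have h2 : ∑ i, ((g i : ↥(F ⊓ Ep K s)) : LaurentSeries K) * ((jqModC K)⁻¹) ^ (i : ℕ) = 0 := by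
      rw [← h1]
      rfl
    have h3 := eq_zero_of_sum_mul_eq_zero s (fun i => ((g i : ↥(F ⊓ Ep K s)) : LaurentSeries K))
      (fun i => ((jqModC K)⁻¹) ^ (i : ℕ)) (fun i => (g i).2.2)
      (fun i => pow_ne_zero _ (inv_ne_zero ht0)) (fun i => order_inv_jqModC_pow K i) h2 i
    exact Subtype.ext h3
  have h4 := hv.cardinal_lift_le_rank
  simpa using h4

theorem relrank_ne_zero' {E : Type*} [Field E] [Algebra K E] (A B : IntermediateField K E) :
    A.relrank B ≠ 0 := by
  have h : (A ⊓ B).relrank B = Module.rank ↥(A ⊓ B) ↥(extendScalars (inf_le_right : A ⊓ B ≤ B)) :=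
    relrank_eq_rank_of_le inf_le_right
  rw [← inf_relrank_right, h]
  exact (rank_pos).ne'

/-- **General descent lemma**: if `C ≤ F`, `C ≤ K((q^s))`, `t ∈ F` and `[F : C] ≤ n < 2 s`, then
`F ⊓ K((q^s)) = C`. -/
theorem inf_Ep_eq_of_relrank_le (F C : IntermediateField K (LaurentSeries K))
    (hCF : C ≤ F) (hC : C ≤ Ep K s) (ht : jqModC K ∈ F) (n : ℕ)
    (hn : C.relrank F ≤ (n : Cardinal)) (hns : n < 2 * s) : F ⊓ Ep K s = C := by
  have hCF' : C ≤ F ⊓ Ep K s := le_inf hCF hC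
  have hF'F : F ⊓ Ep K s ≤ F := inf_le_left
  refine le_antisymm ?_ hCF'
  rw [← relrank_eq_one_iff]
  by_contra hne1
  have h0 : C.relrank (F ⊓ Ep K s) ≠ 0 := relrank_ne_zero' _ _
  have h2 : (2 : Cardinal) ≤ C.relrank (F ⊓ Ep K s) :=
    Cardinal.two_le_iff_one_lt.mpr (lt_of_le_of_ne (Cardinal.one_le_iff_ne_zero.mpr h0) (Ne.symm hne1))
  have hs := natCast_le_relrank_inf_Ep s F ht
  have hmul := relrank_mul_relrank hCF' hF'F
  have h3 : (2 : Cardinal) * (s : Cardinal) ≤ (n : Cardinal) := by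
    calc (2 : Cardinal) * (s : Cardinal) ≤ C.relrank (F ⊓ Ep K s) * (F ⊓ Ep K s).relrank F :=
          mul_le_mul' h2 hs
      _ = C.relrank F := hmul
      _ ≤ n := hn
  have h4 : ((2 * s : ℕ) : Cardinal) ≤ (n : Cardinal) := by
    push_cast
    exact h3
  have h5 : 2 * s ≤ n := by exact_mod_cast h4
  omega

end Indep

/-! ### Part C: the levels `p M` and `p² M` -/

section Levels

variable {K : Type*} [Field K] {K' : Type*} [Field K'] (f : K →+* K')

theorem jqModC_mem_LL (N : ℕ) : jqModC K ∈ LL K N := by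
  rw [← tq_one K]
  exact tq_mem_LL (one_dvd N)

include f in
theorem LLp_le_LL_mul (p M : ℕ) (hp : p.Prime) (hM : M ≠ 0)
    (D : ∀ r, r.Prime → r ∣ p * M → RootsData K' r) : LLp K p M ≤ LL K (p * M) := by
  rw [LL_mul_eq f p M hp hM D]
  exact le_sup_left

include f in
theorem relrank_LLp_LL_le (p M : ℕ) (hp : p.Prime) (hM : M ≠ 0)
    (D : ∀ r, r.Prime → r ∣ p * M → RootsData K' r) :
    (LLp K p M).relrank (LL K (p * M)) ≤ ((if p ∣ M then p else p + 1 : ℕ) : Cardinal) := by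
  rw [LL_mul_eq f p M hp hM D]
  exact relrank_LLp_le f p M hp (D p hp (dvd_mul_right p M))

include f in
/-- (D1a) `L_{pM} ⊓ K((q^p)) = σ_p L_M` when `p ∣ M`. -/
theorem LL_inf_Ep_of_dvd (p M : ℕ) [NeZero p] (hp : p.Prime) (hM : M ≠ 0) (hpM : p ∣ M)
    (D : ∀ r, r.Prime → r ∣ p * M → RootsData K' r) :
    LL K (p * M) ⊓ Ep K p = (LL K M).map (qExpandAlgHomC K p) := by
  have hC : (LL K M).map (qExpandAlgHomC K p) ≤ Ep K p := map_le_Ep K p _
  rw [map_LL K p M hM] at hC ⊢
  refine inf_Ep_eq_of_relrank_le p (LL K (p * M)) (LLp K p M) (LLp_le_LL_mul f p M hp hM D) hC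
    (jqModC_mem_LL _) p ?_ (by have := hp.pos; omega)
  have h := relrank_LLp_LL_le f p M hp hM D
  rwa [if_pos hpM] at h

theorem qExpandAlgHomC_comp (a b : ℕ) [NeZero a] [NeZero b] [NeZero (a * b)] :
    (qExpandAlgHomC K a).comp (qExpandAlgHomC K b) = qExpandAlgHomC K (a * b) := by
  apply AlgHom.ext
  intro x
  simp only [AlgHom.comp_apply, qExpandAlgHomC_apply]
  exact qExpand_qExpand b a x

include f in
/-- (D1b) `L_{p²M} ⊓ K((q^{p²})) = σ_{p²} L_M`. -/
theorem LL_inf_Ep_sq (p M : ℕ) [NeZero p] [NeZero (p * p)] (hp : p.Prime) (hM : M ≠ 0)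
    (D : ∀ r, r.Prime → r ∣ p * M → RootsData K' r) :
    LL K (p * (p * M)) ⊓ Ep K (p * p) = (LL K M).map (qExpandAlgHomC K (p * p)) := by
  have hpM0 : p * M ≠ 0 := Nat.mul_ne_zero hp.ne_zero hM
  have D' : ∀ r, r.Prime → r ∣ p * (p * M) → RootsData K' r := fun r hr hrd =>
    D r hr (by
      rcases (Nat.Prime.dvd_mul hr).mp hrd with h | h
      · exact dvd_mul_of_dvd_left h M
      · exact h)
  set C := (LL K M).map (qExpandAlgHomC K (p * p)) with hCdef
  have hC_eq : C = (LLp K p M).map (qExpandAlgHomC K p) := by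
    rw [hCdef, ← map_LL K p M hM, IntermediateField.map_map, qExpandAlgHomC_comp]
  have hC1_eq : LLp K p (p * M) = (LL K (p * M)).map (qExpandAlgHomC K p) :=
    (map_LL K p (p * M) hpM0).symm
  have hCC1 : C ≤ LLp K p (p * M) := by
    rw [hC_eq, hC1_eq]
    exact IntermediateField.map_mono _ (LLp_le_LL_mul f p M hp hM D)
  have hC1F : LLp K p (p * M) ≤ LL K (p * (p * M)) := LLp_le_LL_mul f p (p * M) hp hpM0 D'
  have hr1 : C.relrank (LLp K p (p * M)) ≤ ((p + 1 : ℕ) : Cardinal) := by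
    rw [hC_eq, hC1_eq, relrank_map_map]
    refine (relrank_LLp_LL_le f p M hp hM D).trans ?_
    split_ifs
    · exact_mod_cast Nat.le_succ p
    · exact le_rfl
  have hr2 : (LLp K p (p * M)).relrank (LL K (p * (p * M))) ≤ ((p : ℕ) : Cardinal) := by
    have h := relrank_LLp_LL_le f p (p * M) hp hpM0 D'
    rwa [if_pos (dvd_mul_right p M)] at h
  have hr : C.relrank (LL K (p * (p * M))) ≤ (((p + 1) * p : ℕ) : Cardinal) := by
    rw [← relrank_mul_relrank hCC1 hC1F]
    push_cast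
    exact mul_le_mul' (by exact_mod_cast hr1) hr2
  have hCE : C ≤ Ep K (p * p) := map_le_Ep K (p * p) _
  refine inf_Ep_eq_of_relrank_le (p * p) (LL K (p * (p * M))) C (hCC1.trans hC1F) hCE
    (jqModC_mem_LL _) ((p + 1) * p) hr ?_
  have := hp.two_le
  nlinarith

end Levels

/-! ### Part D: `m`-th roots -/

section Root

variable {K : Type*} [Field K]

theorem coeff_mul_natCast (x : LaurentSeries K) (n : ℕ) (e : ℤ) :
    (x * (n : LaurentSeries K)).coeff e = x.coeff e * (n : K) := by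
  induction n with
  | zero => simp
  | succ n ih =>
    rw [Nat.cast_succ, mul_add, mul_one, HahnSeries.coeff_add, ih, Nat.cast_succ, mul_add, mul_one]

/-- (D2) If `g ^ m ∈ K((q^s))` with `m` invertible in `K` and `s ∣ ord g`, then `g ∈ K((q^s))`. -/
theorem mem_Ep_of_pow_mem_Ep (s : ℕ) [NeZero s] (m : ℕ) (hm : (m : K) ≠ 0) (g : LaurentSeries K)
    (hgm : g ^ m ∈ Ep K s) (hord : (s : ℤ) ∣ g.order) : g ∈ Ep K s := by
  classical
  by_contra hg
  rw [mem_Ep_iff] at hg
  push Not at hg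
  obtain ⟨n1, hn1, hgn1⟩ := hg
  have hm0 : m ≠ 0 := by
    rintro rfl
    exact hm Nat.cast_zero
  have hg0 : g ≠ 0 := by
    rintro rfl
    exact hgn1 (HahnSeries.coeff_zero)
  -- good and bad parts
  have hbddA : BddBelow (Function.support fun n : ℤ => if (s : ℤ) ∣ n then g.coeff n else 0) := by
    refine ⟨g.order, fun n hn => ?_⟩
    simp only [Function.mem_support, ne_eq, ite_eq_right_iff, not_forall] at hn
    obtain ⟨_, hn⟩ := hn
    exact HahnSeries.order_le_of_coeff_ne_zero hn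
  set a : LaurentSeries K :=
    HahnSeries.ofSuppBddBelow (fun n : ℤ => if (s : ℤ) ∣ n then g.coeff n else 0) hbddA with ha
  have hacoeff : ∀ n, a.coeff n = if (s : ℤ) ∣ n then g.coeff n else 0 := fun n => rfl
  set b : LaurentSeries K := g - a with hb
  have hbcoeff : ∀ n, b.coeff n = if (s : ℤ) ∣ n then 0 else g.coeff n := by
    intro n
    rw [hb, HahnSeries.coeff_sub, hacoeff]
    split_ifs <;> simp
  have hgab : g = a + b := by rw [hb]; ring
  have haE : a ∈ Ep K s := by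
    rw [mem_Ep_iff]
    intro n hn
    rw [hacoeff, if_neg hn]
  have hb0 : b ≠ 0 := by
    intro h
    have := hbcoeff n1
    rw [h, HahnSeries.coeff_zero, if_neg hn1] at this
    exact hgn1 this.symm
  set k := b.order with hk
  have hbk : b.coeff k ≠ 0 := HahnSeries.coeff_order_eq_zero.not.mpr hb0
  have hsk : ¬ (s : ℤ) ∣ k := by
    intro h
    apply hbk
    rw [hbcoeff, if_pos h]
  have hgk : g.coeff k ≠ 0 := by
    have := hbcoeff k
    rw [if_neg hsk] at this
    rwa [← this]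
  have hgo : g.coeff g.order ≠ 0 := HahnSeries.coeff_order_eq_zero.not.mpr hg0
  have hago : a.coeff g.order ≠ 0 := by
    rw [hacoeff, if_pos hord]
    exact hgo
  have ha0 : a ≠ 0 := by
    intro h
    rw [h] at hago
    exact hago HahnSeries.coeff_zero
  have haord : a.order = g.order := by
    apply le_antisymm (HahnSeries.order_le_of_coeff_ne_zero hago)
    have h1 : a.coeff a.order ≠ 0 := HahnSeries.coeff_order_eq_zero.not.mpr ha0
    rw [hacoeff] at h1
    split_ifs at h1 with h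
    · exact HahnSeries.order_le_of_coeff_ne_zero h1
    · exact absurd rfl h1
  have hlt : a.order < k := by
    have h1 : g.order ≤ k := HahnSeries.order_le_of_coeff_ne_zero hgk
    have h2 : g.order ≠ k := by
      intro h
      rw [← h] at hsk
      exact hsk hord
    rw [haord]
    exact lt_of_le_of_ne h1 h2
  -- the critical exponent
  set e : ℤ := ((m - 1 : ℕ) : ℤ) * a.order + k with he
  have hse : ¬ (s : ℤ) ∣ e := by
    intro h
    apply hsk
    have h1 : (s : ℤ) ∣ ((m - 1 : ℕ) : ℤ) * a.order := Dvd.dvd.mul_left (haord ▸ hord) _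
    exact (Int.dvd_add_right h1).mp h
  have hzero : (g ^ m).coeff e = 0 := (mem_Ep_iff K s).mp hgm e hse
  have hordpow : ∀ (x : LaurentSeries K) (j : ℕ), (x ^ j).order = (j : ℤ) * x.order := by
    intro x j
    rw [HahnSeries.order_pow, nsmul_eq_mul]
  have hexp : (g ^ m).coeff e =
      (a ^ (m - 1) * b ^ (m - (m - 1)) * ((m.choose (m - 1) : ℕ) : LaurentSeries K)).coeff e := by
    rw [hgab, add_pow, HahnSeries.coeff_sum]
    apply Finset.sum_eq_single (m - 1)
    · intro j hj hjne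
      rw [coeff_mul_natCast]
      have hjm : j ≤ m := Nat.lt_succ_iff.mp (Finset.mem_range.mp hj)
      rcases Nat.lt_or_ge j (m - 1) with hjlt | hjge
      · -- order too large
        have hne : a ^ j * b ^ (m - j) ≠ 0 := mul_ne_zero (pow_ne_zero _ ha0) (pow_ne_zero _ hb0)
        have hord' : (a ^ j * b ^ (m - j)).order = (j : ℤ) * a.order + ((m - j : ℕ) : ℤ) * k := by
          rw [HahnSeries.order_mul (pow_ne_zero _ ha0) (pow_ne_zero _ hb0), hordpow, hordpow]
        rw [HahnSeries.coeff_eq_zero_of_lt_order, zero_mul]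
        rw [hord', he]
        have h1 : ((m - j : ℕ) : ℤ) = (m : ℤ) - j := by
          rw [Nat.cast_sub hjm]
        have h2 : ((m - 1 : ℕ) : ℤ) = (m : ℤ) - 1 := by
          rw [Nat.cast_sub (Nat.one_le_iff_ne_zero.mpr hm0)]
          simp
        rw [h1, h2]
        have h3 : (j : ℤ) + 1 < (m : ℤ) := by omega
        nlinarith
      · -- j = m
        have hjm' : j = m := by omega
        subst hjm'
        rw [Nat.sub_self, pow_zero, mul_one]
        have : a ^ j ∈ Ep K s := pow_mem haE j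
        rw [(mem_Ep_iff K s).mp this e hse, zero_mul]
    · intro h
      exfalso
      apply h
      rw [Finset.mem_range]
      omega
  rw [hexp, coeff_mul_natCast] at hzero
  have h1 : m - (m - 1) = 1 := by omega
  have h2 : m.choose (m - 1) = m := by
    rw [Nat.choose_symm (Nat.one_le_iff_ne_zero.mpr hm0), Nat.choose_one_right]
  rw [h1, pow_one, h2] at hzero
  have h3 : e = (a ^ (m - 1)).order + b.order := by
    rw [he, hordpow]
  rw [h3, HahnSeries.coeff_mul_order_add_order] at hzero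
  have h4 : (a ^ (m - 1)).leadingCoeff ≠ 0 := HahnSeries.leadingCoeff_ne_zero.mpr (pow_ne_zero _ ha0)
  have h5 : b.leadingCoeff ≠ 0 := HahnSeries.leadingCoeff_ne_zero.mpr hb0
  exact mul_ne_zero (mul_ne_zero h4 h5) hm hzero

end Root

/-! ### Part E: assembly for `modularFunctionFieldFullC` -/

section Assembly

variable {K : Type*} [Field K] {K' : Type*} [Field K'] (f : K →+* K')

theorem order_qExpand (s : ℕ) [NeZero s] (y : LaurentSeries K) :
    (qExpand K s y).order = (s : ℤ) * y.order := by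
  by_cases hy : y = 0
  · subst hy; simp
  have hs : (0 : ℤ) < s := by exact_mod_cast Nat.pos_of_ne_zero (NeZero.ne s)
  have hy' : qExpand K s y ≠ 0 := fun h => hy (qExpand_injective s (by rw [h, map_zero]))
  apply le_antisymm
  · apply HahnSeries.order_le_of_coeff_ne_zero
    rw [qExpand_coeff_mul]
    exact HahnSeries.coeff_order_eq_zero.not.mpr hy
  · have h1 : (qExpand K s y).coeff (qExpand K s y).order ≠ 0 :=
      HahnSeries.coeff_order_eq_zero.not.mpr hy'
    by_cases hd : (s : ℤ) ∣ (qExpand K s y).order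
    · obtain ⟨c, hc⟩ := hd
      rw [hc, qExpand_coeff_mul] at h1
      rw [hc]
      exact mul_le_mul_of_nonneg_left (HahnSeries.order_le_of_coeff_ne_zero h1) hs.le
    · exact absurd (qExpand_coeff_of_not_dvd s y hd) h1

/-- If `g ^ m = σ_s y` with `m ∣ ord y`, `m ≠ 0`, then `s ∣ ord g`. -/
theorem dvd_order_of_pow_eq_qExpand (s : ℕ) [NeZero s] (m : ℕ) (hm : m ≠ 0)
    (g y : LaurentSeries K) (hgy : g ^ m = qExpand K s y) (hord : (m : ℤ) ∣ y.order) :
    (s : ℤ) ∣ g.order := by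
  obtain ⟨c, hc⟩ := hord
  have h1 : (g ^ m).order = (m : ℤ) * g.order := by rw [HahnSeries.order_pow, nsmul_eq_mul]
  rw [hgy, order_qExpand, hc] at h1
  have hm' : (m : ℤ) ≠ 0 := by exact_mod_cast hm
  refine ⟨c, ?_⟩
  apply mul_left_cancel₀ hm'
  rw [← h1]
  ring

/-- Abstract form of the descent: `F_M ⊓ K((q^s)) = σ_s F_N`, `g ∈ F_M`, `y ∈ F_N`,
`g ^ m = σ_s y`, `m ∣ ord y`, `(m : K) ≠ 0`  ⟹  `g = σ_s z` with `z ∈ F_N`, `z ^ m = y`. -/
theorem exists_root_of_inf_Ep_eq (s : ℕ) [NeZero s]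
    (FM FN : IntermediateField K (LaurentSeries K))
    (hinf : FM ⊓ Ep K s = FN.map (qExpandAlgHomC K s))
    (m : ℕ) (hm : (m : K) ≠ 0) (g y : LaurentSeries K) (hg : g ∈ FM)
    (hgy : g ^ m = qExpand K s y) (hord : (m : ℤ) ∣ y.order) :
    ∃ z ∈ FN, qExpand K s z = g ∧ z ^ m = y := by
  have hm0 : m ≠ 0 := by
    rintro rfl
    exact hm Nat.cast_zero
  have hgE : g ∈ Ep K s := by
    apply mem_Ep_of_pow_mem_Ep s m hm g
    · rw [hgy]
      exact Fermat.Agent.S28.KeyLowerBasic.qExpand_mem_Ep K s y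
    · exact dvd_order_of_pow_eq_qExpand s m hm0 g y hgy hord
  have hmem : g ∈ FM ⊓ Ep K s := ⟨hg, hgE⟩
  rw [hinf] at hmem
  obtain ⟨z, hz, hzg⟩ := hmem
  refine ⟨z, hz, hzg, ?_⟩
  apply qExpand_injective s
  rw [map_pow]
  have : qExpand K s z = g := hzg
  rw [this, hgy]

include f in
/-- (D3a) level `p N → N` for `p ∣ N`. -/
theorem exists_root_of_dvd (p N : ℕ) [NeZero p] [NeZero N] [NeZero (p * N)] (hp : p.Prime)
    (hpN : p ∣ N) (D : ∀ r, r.Prime → r ∣ p * N → RootsData K' r)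
    (m : ℕ) (hm : (m : K) ≠ 0) (g y : LaurentSeries K)
    (hg : g ∈ modularFunctionFieldFullC K (p * N))
    (hgy : g ^ m = qExpand K p y) (hord : (m : ℤ) ∣ y.order) :
    ∃ z ∈ modularFunctionFieldFullC K N, qExpand K p z = g ∧ z ^ m = y := by
  rw [← LL_eq K (p * N)] at hg
  rw [← LL_eq K N]
  exact exists_root_of_inf_Ep_eq p (LL K (p * N)) (LL K N)
    (LL_inf_Ep_of_dvd f p N hp (NeZero.ne N) hpN D) m hm g y hg hgy hord

include f in
/-- (D3b) level `p² N → N`. -/
theorem exists_root_sq (p N : ℕ) [NeZero p] [NeZero (p * p)] [NeZero N] [NeZero (p * (p * N))]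
    (hp : p.Prime) (D : ∀ r, r.Prime → r ∣ p * N → RootsData K' r)
    (m : ℕ) (hm : (m : K) ≠ 0) (g y : LaurentSeries K)
    (hg : g ∈ modularFunctionFieldFullC K (p * (p * N)))
    (hgy : g ^ m = qExpand K (p * p) y) (hord : (m : ℤ) ∣ y.order) :
    ∃ z ∈ modularFunctionFieldFullC K N, qExpand K (p * p) z = g ∧ z ^ m = y := by
  rw [← LL_eq K (p * (p * N))] at hg
  rw [← LL_eq K N]
  exact exists_root_of_inf_Ep_eq (p * p) (LL K (p * (p * N))) (LL K N)
    (LL_inf_Ep_sq f p N hp (NeZero.ne N) D) m hm g y hg hgy hord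

end Assembly

end

end Fermat.Agent.S18.DescentSigma14
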