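import Fermat.Agent.S18.Spine33
import Fermat.Agent.S18.DescentSigma14
import Fermat.Agent.S18.BarFullC97
import Fermat.Agent.S28.KeyUpper
import Fermat.Agent.S28.ModEq

/-!
# S18: `theorem descent : Spine33.DescentStatement` (helper14)

The `q ↦ q^s` descent of blueprint 15, Step 5, in the exact shape of `Spine33.DescentStatement`.
Inputs: `DescentSigma14` (levels `p N`, `p² N` via S28.KEY0 (S5), (S6)), the modular equations
`S28.modEqStatement` (roots data over `ℂ`), and `modularFunctionFieldBar N = ℚ̄(t_d : d ∣ N)`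
(`BarFullC97`).
-/

set_option autoImplicit false
set_option linter.style.haveILetI false

namespace Fermat.Agent.S18.DescentSpine14

open ModularCurve HahnSeries Fermat.Agent.S28 Fermat.Agent.S28.KEY0 Fermat.Agent.S18.Spine33
  Fermat.Agent.S18.DescentSigma14

noncomputable section

/-- An embedding `ℚ̄ → ℂ`. -/
def toComplex : Kb →+* ℂ :=
  haveI : Algebra.IsAlgebraic ℚ Kb := AlgebraicClosure.isAlgebraic ℚ
  (IsAlgClosed.lift (M := ℂ) (R := ℚ) (S := Kb) : Kb →ₐ[ℚ] ℂ).toRingHom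

/-- Roots data of the modular equation of prime level `r` over `ℂ` (S28). -/
def rootsData (r : ℕ) (hr : r.Prime) : RootsData ℂ r :=
  haveI : NeZero r := ⟨hr.ne_zero⟩
  rootsDataOfModEqData r (modEqStatement r hr).some

/-- level `p N → N`, `p ∣ N`, over `ℚ̄`. -/
theorem exists_root_of_dvd_Kb (p N : ℕ) [NeZero p] [NeZero N] [NeZero (p * N)] (hp : p.Prime)
    (hpN : p ∣ N) (m : ℕ) (hm : 0 < m) (g y : LaurentSeries Kb)
    (hg : g ∈ modularFunctionFieldFullC Kb (p * N))
    (hgy : g ^ m = qExpand Kb p y) (hord : (m : ℤ) ∣ y.order) :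
    ∃ z ∈ modularFunctionFieldFullC Kb N, qExpand Kb p z = g ∧ z ^ m = y :=
  exists_root_of_dvd toComplex p N hp hpN (fun r hr _ => rootsData r hr) m
    (by exact_mod_cast hm.ne') g y hg hgy hord

/-- level `p² N → N` over `ℚ̄`. -/
theorem exists_root_sq_Kb (p N : ℕ) [NeZero p] [NeZero (p * p)] [NeZero N] [NeZero (p * (p * N))]
    (hp : p.Prime) (m : ℕ) (hm : 0 < m) (g y : LaurentSeries Kb)
    (hg : g ∈ modularFunctionFieldFullC Kb (p * (p * N)))
    (hgy : g ^ m = qExpand Kb (p * p) y) (hord : (m : ℤ) ∣ y.order) :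
    ∃ z ∈ modularFunctionFieldFullC Kb N, qExpand Kb (p * p) z = g ∧ z ^ m = y :=
  exists_root_sq toComplex p N hp (fun r hr _ => rootsData r hr) m
    (by exact_mod_cast hm.ne') g y hg hgy hord

/-- **[DESCENT]** in the shape of `Spine33`. -/
theorem descent : DescentStatement := by
  intro N s _ _ hpair m hm0 f hf0 hord hex
  obtain ⟨u, hu, hum⟩ := hex
  rw [BarFullC97.modularFunctionFieldBar_eq] at hu
  have key : ∃ z ∈ modularFunctionFieldFullC Kb N, z ^ m = (f : LaurentSeries Kb) := by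
    rcases hpair with rfl | ⟨rfl, -⟩ | ⟨rfl, h2, -⟩ | ⟨rfl, -⟩ | ⟨rfl, h3, -⟩
    · -- s = 1
      rw [one_mul] at hu
      rw [qExpand_one_apply] at hum
      exact ⟨u, hu, hum⟩
    · -- s = 4
      haveI : NeZero (2 * 2) := ⟨by norm_num⟩
      haveI : NeZero (2 * (2 * N)) :=
        ⟨Nat.mul_ne_zero (by norm_num) (Nat.mul_ne_zero (by norm_num) (NeZero.ne N))⟩
      have e : 4 * N = 2 * (2 * N) := by ring
      rw [e] at hu
      rw [qExpand_congr (show 4 = 2 * 2 by norm_num)] at hum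
      obtain ⟨z, hz, -, hzm⟩ :=
        exists_root_sq_Kb 2 N Nat.prime_two m hm0 u (f : LaurentSeries Kb) hu hum hord
      exact ⟨z, hz, hzm⟩
    · -- s = 2
      haveI : NeZero (2 * N) := ⟨Nat.mul_ne_zero (by norm_num) (NeZero.ne N)⟩
      obtain ⟨z, hz, -, hzm⟩ :=
        exists_root_of_dvd_Kb 2 N Nat.prime_two h2 m hm0 u (f : LaurentSeries Kb) hu hum hord
      exact ⟨z, hz, hzm⟩
    · -- s = 9
      haveI : NeZero (3 * 3) := ⟨by norm_num⟩
      haveI : NeZero (3 * (3 * N)) :=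
        ⟨Nat.mul_ne_zero (by norm_num) (Nat.mul_ne_zero (by norm_num) (NeZero.ne N))⟩
      have e : 9 * N = 3 * (3 * N) := by ring
      rw [e] at hu
      rw [qExpand_congr (show 9 = 3 * 3 by norm_num)] at hum
      obtain ⟨z, hz, -, hzm⟩ :=
        exists_root_sq_Kb 3 N Nat.prime_three m hm0 u (f : LaurentSeries Kb) hu hum hord
      exact ⟨z, hz, hzm⟩
    · -- s = 3
      haveI : NeZero (3 * N) := ⟨Nat.mul_ne_zero (by norm_num) (NeZero.ne N)⟩
      obtain ⟨z, hz, -, hzm⟩ :=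
        exists_root_of_dvd_Kb 3 N Nat.prime_three h3 m hm0 u (f : LaurentSeries Kb) hu hum hord
      exact ⟨z, hz, hzm⟩
  obtain ⟨z, hz, hzm⟩ := key
  refine ⟨⟨z, ?_⟩, Subtype.ext ?_⟩
  · rw [BarFullC97.modularFunctionFieldBar_eq]
    exact hz
  · simpa using hzm

end

end Fermat.Agent.S18.DescentSpine14
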