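/-
S18 project (blueprint 14), package [WA] (helper78): the WEAK APPROXIMATION THEOREM for the places
of a function field, in terms of the Prelude `AlgebraicCurve.Place` API (Stichtenoth 1.3.1).

No hypothesis on `K`, `F` beyond `[Field K] [Field F] [Algebra K F]`.

Main results (`P : Place K F`, `S : Finset (Place K F)`):
* `exists_ord_pos_ord_neg`        : `P ≠ Q → ∃ x, 0 < P.ord x ∧ Q.ord x < 0`
* `exists_ord_pos_forall_ord_neg` : `P ∉ S → ∃ x, 0 < P.ord x ∧ ∀ Q ∈ S, Q.ord x < 0`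
* `exists_ord_neg_forall_ord_pos` : `P ∉ S → ∃ x, P.ord x < 0 ∧ ∀ Q ∈ S, 0 < Q.ord x`
* `exists_near_one`               : `P ∉ S → ∃ w, r < P.ord (w - 1) ∧ ∀ Q ∈ S, r < Q.ord w`
* `exists_close`                  : `∃ z, ∀ P ∈ S, z = y P ∨ r < P.ord (z - y P)`
* `weak_approximation`            : `∃ x, ∀ P ∈ S, P.ord (x - y P) = r P`
-/
import Mathlib
import Fermat.Agent.S24.Pkg_FF0

set_option autoImplicit false

open AlgebraicCurve

namespace Fermat.Agent.S18.WeakApprox78

open Fermat.Agent.S24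

variable {K F : Type*} [Field K] [Field F] [Algebra K F]

/-! ### Basic helpers -/

theorem ne_zero_of_ord_ne_zero (P : Place K F) {x : F} (h : P.ord x ≠ 0) : x ≠ 0 := by
  rintro rfl
  exact h P.ord_zero

theorem ord_pow (P : Place K F) (x : F) (n : ℕ) : P.ord (x ^ n) = n * P.ord x := by
  rw [← zpow_natCast, P.ord_zpow]

theorem ord_sub_comm (P : Place K F) (x y : F) : P.ord (x - y) = P.ord (y - x) := by
  rw [← neg_sub, FF.ord_neg]

/-- `x + y` has the order of `x` if `ord x < ord y` (also for `y = 0` when `ord x < 0`). -/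
theorem ord_add_of_lt (P : Place K F) {x y : F} (hx : x ≠ 0) (h : y ≠ 0 → P.ord x < P.ord y) :
    P.ord (x + y) = P.ord x := by
  rcases eq_or_ne y 0 with rfl | hy
  · rw [add_zero]
  · exact FF.ord_add_eq_of_lt P hx hy (h hy)

/-- Two distinct places have incomparable valuation rings. -/
theorem exists_mem_not_mem {P Q : Place K F} (h : P ≠ Q) :
    ∃ a : F, a ∈ P.toValuationSubring ∧ a ∉ Q.toValuationSubring := by
  by_contra hcon
  push Not at hcon
  exact h (Place.ext (place_eq_of_le P Q.toValuationSubring Q.ne_top' hcon))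

theorem ord_neg_of_not_mem (P : Place K F) {a : F} (ha : a ∉ P.toValuationSubring) :
    P.ord a < 0 := by
  have ha0 : a ≠ 0 := fun h0 => ha (h0 ▸ P.toValuationSubring.zero_mem)
  by_contra hh
  exact ha ((FF.mem_iff_ord_nonneg P ha0).2 (not_lt.mp hh))

/-- A uniformiser. -/
theorem exists_ord_eq_one (P : Place K F) : ∃ x : F, P.ord x = 1 := by
  obtain ⟨π, hπ⟩ := IsDiscreteValuationRing.exists_irreducible P.toValuationSubring
  exact ⟨π, P.ord_coe_irreducible hπ⟩

/-- Every integer is an order. -/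
theorem exists_ord_eq (P : Place K F) (r : ℤ) : ∃ x : F, x ≠ 0 ∧ P.ord x = r := by
  obtain ⟨π, hπ⟩ := exists_ord_eq_one P
  have hπ0 : π ≠ 0 := ne_zero_of_ord_ne_zero P (by rw [hπ]; exact one_ne_zero)
  exact ⟨π ^ r, zpow_ne_zero r hπ0, by rw [P.ord_zpow, hπ, mul_one]⟩

/-! ### Step 1: separating places -/

theorem exists_ord_pos_ord_neg {P Q : Place K F} (h : P ≠ Q) :
    ∃ x : F, 0 < P.ord x ∧ Q.ord x < 0 := by
  obtain ⟨a, haP, haQ⟩ := exists_mem_not_mem h
  obtain ⟨b, hbQ, hbP⟩ := exists_mem_not_mem h.symm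
  have ha0 : a ≠ 0 := fun h0 => haQ (h0 ▸ Q.toValuationSubring.zero_mem)
  have hb0 : b ≠ 0 := fun h0 => hbP (h0 ▸ P.toValuationSubring.zero_mem)
  have h1 : 0 ≤ P.ord a := (FF.mem_iff_ord_nonneg P ha0).1 haP
  have h2 : P.ord b < 0 := ord_neg_of_not_mem P hbP
  have h3 : 0 ≤ Q.ord b := (FF.mem_iff_ord_nonneg Q hb0).1 hbQ
  have h4 : Q.ord a < 0 := ord_neg_of_not_mem Q haQ
  refine ⟨a * b⁻¹, ?_, ?_⟩
  · rw [P.ord_mul ha0 (inv_ne_zero hb0), P.ord_inv]; omega
  · rw [Q.ord_mul ha0 (inv_ne_zero hb0), Q.ord_inv]; omega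

theorem exists_ord_pos_forall_ord_neg (P : Place K F) (S : Finset (Place K F)) (hP : P ∉ S) :
    ∃ x : F, 0 < P.ord x ∧ ∀ Q ∈ S, Q.ord x < 0 := by
  classical
  induction S using Finset.induction_on with
  | empty =>
    obtain ⟨x, hx⟩ := exists_ord_eq_one P
    exact ⟨x, by rw [hx]; exact one_pos, fun Q hQ => absurd hQ (Finset.notMem_empty Q)⟩
  | insert Q S hQS ih =>
    have hPQ : P ≠ Q := fun h => hP (h ▸ Finset.mem_insert_self _ _)
    have hPS : P ∉ S := fun h => hP (Finset.mem_insert_of_mem h)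
    obtain ⟨x, hxP, hxS⟩ := ih hPS
    by_cases hxQ : Q.ord x < 0
    · exact ⟨x, hxP, fun Q' hQ' => by
        rcases Finset.mem_insert.1 hQ' with rfl | h
        · exact hxQ
        · exact hxS Q' h⟩
    obtain ⟨y, hyP, hyQ⟩ := exists_ord_pos_ord_neg hPQ
    have hx0 : x ≠ 0 := ne_zero_of_ord_ne_zero P hxP.ne'
    have hy0 : y ≠ 0 := ne_zero_of_ord_ne_zero P hyP.ne'
    -- choose the exponent
    obtain ⟨r, hr1, hbig⟩ : ∃ r : ℕ, 1 ≤ r ∧ ∀ Q' ∈ S, (Q'.ord x).natAbs < r := by
      refine ⟨1 + ∑ Q' ∈ S, (Q'.ord x).natAbs, by omega, fun Q' hQ' => ?_⟩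
      have := Finset.single_le_sum (f := fun Q' : Place K F => (Q'.ord x).natAbs)
        (fun _ _ => Nat.zero_le _) hQ'
      exact Nat.lt_one_add_iff.2 this
    have hr1' : (1 : ℤ) ≤ (r : ℤ) := by exact_mod_cast hr1
    have hyr0 : y ^ r ≠ 0 := pow_ne_zero r hy0
    have hxQ' : 0 ≤ Q.ord x := not_lt.mp hxQ
    have hryQ : (r : ℤ) * Q.ord y < 0 := mul_neg_of_pos_of_neg (by omega) hyQ
    have hzQ : Q.ord (x + y ^ r) = r * Q.ord y := by
      rw [add_comm, ord_add_of_lt Q hyr0, ord_pow]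
      intro _
      rw [ord_pow]
      omega
    have hzQneg : Q.ord (x + y ^ r) < 0 := by
      rw [hzQ]; exact hryQ
    have hz0 : x + y ^ r ≠ 0 := ne_zero_of_ord_ne_zero Q hzQneg.ne
    refine ⟨x + y ^ r, ?_, fun Q' hQ' => ?_⟩
    · have h1 := ord_add_ge P hx0 hyr0 hz0
      have h2 : 0 < P.ord (y ^ r) := by
        rw [ord_pow]; exact mul_pos (by omega) hyP
      have : 0 < min (P.ord x) (P.ord (y ^ r)) := lt_min hxP h2
      omega
    · rcases Finset.mem_insert.1 hQ' with rfl | h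
      · exact hzQneg
      · have hxneg := hxS Q' h
        have hb := hbig Q' h
        have hne : Q'.ord x ≠ Q'.ord (y ^ r) := by
          rw [ord_pow]
          intro heq
          rcases eq_or_ne (Q'.ord y) 0 with h0 | h0
          · rw [h0, mul_zero] at heq; omega
          · have h1 : (r : ℤ) ≤ |(r : ℤ) * Q'.ord y| := by
              rw [abs_mul, Nat.abs_cast]
              have h2 : (1 : ℤ) ≤ |Q'.ord y| := Int.one_le_abs h0
              calc (r : ℤ) = r * 1 := (mul_one _).symm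
                _ ≤ r * |Q'.ord y| := mul_le_mul_of_nonneg_left h2 (by omega)
            rw [← heq, Int.abs_eq_natAbs] at h1
            omega
        rcases lt_or_gt_of_ne hne with hlt | hgt
        · rw [ord_add_of_lt Q' hx0 (fun _ => hlt)]; exact hxneg
        · rw [add_comm, ord_add_of_lt Q' hyr0 (fun _ => hgt)]; omega

theorem exists_ord_neg_forall_ord_pos (P : Place K F) (S : Finset (Place K F)) (hP : P ∉ S) :
    ∃ x : F, P.ord x < 0 ∧ ∀ Q ∈ S, 0 < Q.ord x := by
  obtain ⟨x, hxP, hxS⟩ := exists_ord_pos_forall_ord_neg P S hP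
  refine ⟨x⁻¹, by rw [P.ord_inv]; omega, fun Q hQ => ?_⟩
  have := hxS Q hQ
  rw [Q.ord_inv]; omega

/-! ### Step 2: an element close to `1` at `P` and close to `0` on `S` -/

theorem exists_near_one (P : Place K F) (S : Finset (Place K F)) (hP : P ∉ S) (r : ℤ) :
    ∃ w : F, w ≠ 0 ∧ w - 1 ≠ 0 ∧ r < P.ord (w - 1) ∧ ∀ Q ∈ S, r < Q.ord w := by
  obtain ⟨x, hxP, hxS⟩ := exists_ord_pos_forall_ord_neg P S hP
  have hx0 : x ≠ 0 := ne_zero_of_ord_ne_zero P hxP.ne'
  obtain ⟨s, hsr, hs1⟩ : ∃ s : ℕ, r < (s : ℤ) ∧ (1 : ℤ) ≤ (s : ℤ) := by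
    refine ⟨r.toNat + 1, ?_, ?_⟩
    · have := Int.self_le_toNat r
      push_cast; omega
    · push_cast; omega
  have hxs0 : x ^ s ≠ 0 := pow_ne_zero s hx0
  have hsP : (s : ℤ) ≤ s * P.ord x := by
    calc (s : ℤ) = s * 1 := (mul_one _).symm
      _ ≤ s * P.ord x := mul_le_mul_of_nonneg_left (by omega) (by omega)
  have hP1 : P.ord (1 + x ^ s) = 0 := by
    rw [ord_add_of_lt P one_ne_zero, P.ord_one]
    intro _
    rw [P.ord_one, ord_pow]; omega
  have hden : (1 : F) + x ^ s ≠ 0 := by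
    intro h0
    have h1 : x ^ s = -1 := by linear_combination h0
    have h2 : P.ord (x ^ s) = 0 := by rw [h1, FF.ord_neg, P.ord_one]
    rw [ord_pow] at h2
    omega
  have hw1 : (1 + x ^ s)⁻¹ - 1 = -(x ^ s) * (1 + x ^ s)⁻¹ := by
    field_simp
    ring
  refine ⟨(1 + x ^ s)⁻¹, inv_ne_zero hden, ?_, ?_, fun Q hQ => ?_⟩
  · rw [hw1]
    exact mul_ne_zero (neg_ne_zero.2 hxs0) (inv_ne_zero hden)
  · rw [hw1, P.ord_mul (neg_ne_zero.2 hxs0) (inv_ne_zero hden), FF.ord_neg, P.ord_inv, hP1,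
      ord_pow]
    omega
  · have hxQ := hxS Q hQ
    have hsQ : (s : ℤ) * Q.ord x ≤ -(s : ℤ) := by
      have : (s : ℤ) * Q.ord x ≤ s * (-1) := mul_le_mul_of_nonneg_left (by omega) (by omega)
      omega
    have hQ1 : Q.ord (1 + x ^ s) = s * Q.ord x := by
      rw [add_comm, ord_add_of_lt Q hxs0, ord_pow]
      intro _
      rw [ord_pow, Q.ord_one]; omega
    rw [Q.ord_inv, hQ1]
    omega

/-! ### Step 3: simultaneous approximation -/

/-- `z` is `r`-close to `y` at `P`: `z = y` or `r < ord_P (z - y)`. -/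
def Close (P : Place K F) (r : ℤ) (z y : F) : Prop := z = y ∨ r < P.ord (z - y)

theorem Close.refl (P : Place K F) (r : ℤ) (y : F) : Close P r y y := Or.inl rfl

theorem close_iff_of_ne (P : Place K F) (r : ℤ) {z y : F} (h : z ≠ y) :
    Close P r z y ↔ r < P.ord (z - y) :=
  ⟨fun h' => h'.resolve_left h, Or.inr⟩

theorem Close.add {P : Place K F} {r : ℤ} {z y z' y' : F} (h : Close P r z y)
    (h' : Close P r z' y') : Close P r (z + z') (y + y') := by
  by_cases hzy : z = y
  · subst hzy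
    rcases h' with rfl | h'
    · exact Or.inl rfl
    · right; rwa [add_sub_add_left_eq_sub]
  by_cases hzy' : z' = y'
  · subst hzy'
    right
    rw [add_sub_add_right_eq_sub]
    exact h.resolve_left hzy
  by_cases h0 : z + z' = y + y'
  · exact Or.inl h0
  right
  have h1 := h.resolve_left hzy
  have h1' := h'.resolve_left hzy'
  have e : z + z' - (y + y') = (z - y) + (z' - y') := by ring
  have hne : (z - y) + (z' - y') ≠ 0 := by rw [← e]; exact sub_ne_zero.2 h0
  rw [e]
  have := ord_add_ge P (sub_ne_zero.2 hzy) (sub_ne_zero.2 hzy') hne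
  have hmin : r < min (P.ord (z - y)) (P.ord (z' - y')) := lt_min h1 h1'
  omega

theorem Close.sum {P : Place K F} {r : ℤ} {ι : Type*} (s : Finset ι) (a b : ι → F)
    (h : ∀ i ∈ s, Close P r (a i) (b i)) : Close P r (∑ i ∈ s, a i) (∑ i ∈ s, b i) := by
  classical
  induction s using Finset.induction_on with
  | empty => simpa using Close.refl P r 0
  | insert i s hi ih =>
    rw [Finset.sum_insert hi, Finset.sum_insert hi]
    exact (h i (Finset.mem_insert_self _ _)).add (ih fun j hj => h j (Finset.mem_insert_of_mem hj))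

/-- `y * w` is close to `y` if `w` is close enough to `1`. -/
theorem close_mul_of_near_one (P : Place K F) {r r' : ℤ} {y w : F}
    (hy : r ≤ r' + P.ord y) (hw : r' < P.ord (w - 1)) (hw1 : w - 1 ≠ 0) :
    Close P r (y * w) y := by
  rcases eq_or_ne y 0 with rfl | hy0
  · left; rw [zero_mul]
  right
  have e : y * w - y = y * (w - 1) := by ring
  rw [e, P.ord_mul hy0 hw1]
  omega

/-- `y * w` is close to `0` if `w` is close enough to `0`. -/
theorem close_mul_of_near_zero (P : Place K F) {r r' : ℤ} {y w : F}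
    (hy : r ≤ r' + P.ord y) (hw : r' < P.ord w) (hw0 : w ≠ 0) :
    Close P r (y * w) 0 := by
  rcases eq_or_ne y 0 with rfl | hy0
  · left; rw [zero_mul]
  right
  rw [sub_zero, P.ord_mul hy0 hw0]
  omega

/-- **Simultaneous approximation**: for finitely many places and targets `y P`, there is `z`
which is `r`-close to `y P` at every `P ∈ S`. -/
theorem exists_close (S : Finset (Place K F)) (y : Place K F → F) (r : ℤ) :
    ∃ z : F, ∀ P ∈ S, Close P r z (y P) := by
  classical
  set B : ℕ := ∑ P ∈ S, ∑ Q ∈ S, (P.ord (y Q)).natAbs with hB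
  have hBle : ∀ P ∈ S, ∀ Q ∈ S, (P.ord (y Q)).natAbs ≤ B := fun P hP Q hQ => by
    have h1 := Finset.single_le_sum (f := fun Q : Place K F => (P.ord (y Q)).natAbs)
      (fun _ _ => Nat.zero_le _) hQ
    have h2 := Finset.single_le_sum
      (f := fun P : Place K F => ∑ Q ∈ S, (P.ord (y Q)).natAbs) (fun _ _ => Nat.zero_le _) hP
    exact h1.trans h2
  set r' : ℤ := r + B with hr'
  have hw : ∀ Q : Place K F, ∃ w : F, w ≠ 0 ∧ w - 1 ≠ 0 ∧ r' < Q.ord (w - 1) ∧
      ∀ P ∈ S.erase Q, r' < P.ord w :=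
    fun Q => exists_near_one Q (S.erase Q) (Finset.notMem_erase Q S) r'
  choose w hw0 hw1 hwQ hwS using hw
  refine ⟨∑ Q ∈ S, y Q * w Q, fun P hP => ?_⟩
  have hsum : y P = ∑ Q ∈ S, (if Q = P then y P else 0) := by
    rw [Finset.sum_ite_eq' S P, if_pos hP]
  rw [hsum]
  refine Close.sum S _ _ fun Q hQ => ?_
  have hbound : r ≤ r' + P.ord (y Q) := by
    have := hBle P hP Q hQ
    omega
  by_cases hQP : Q = P
  · subst hQP
    rw [if_pos rfl]
    exact close_mul_of_near_one Q hbound (hwQ Q) (hw1 Q)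
  · rw [if_neg hQP]
    exact close_mul_of_near_zero P hbound
      (hwS Q P (Finset.mem_erase.2 ⟨fun h => hQP h.symm, hP⟩)) (hw0 Q)

/-! ### Step 4: the weak approximation theorem -/

/-- **Weak approximation theorem** (Stichtenoth 1.3.1): for finitely many places `P ∈ S`, elements
`y P ∈ F` and integers `r P` there is `x ∈ F` with `ord_P (x - y P) = r P` for all `P ∈ S`. -/
theorem weak_approximation (S : Finset (Place K F)) (y : Place K F → F) (r : Place K F → ℤ) :
    ∃ x : F, ∀ P ∈ S, P.ord (x - y P) = r P := by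
  classical
  have hz : ∀ P : Place K F, ∃ z : F, z ≠ 0 ∧ P.ord z = r P := fun P => exists_ord_eq P (r P)
  choose z hz0 hzr using hz
  set R : ℤ := ∑ P ∈ S, |r P| with hR
  have hRle : ∀ P ∈ S, r P ≤ R := fun P hP => by
    have h1 := Finset.single_le_sum (f := fun P : Place K F => |r P|)
      (fun _ _ => abs_nonneg _) hP
    exact (le_abs_self (r P)).trans h1
  obtain ⟨x, hx⟩ := exists_close S (fun P => y P + z P) R
  refine ⟨x, fun P hP => ?_⟩
  have e : x - y P = z P + (x - (y P + z P)) := by ring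
  rw [e, ord_add_of_lt P (hz0 P), hzr]
  intro hne
  rw [hzr]
  have := (hx P hP).resolve_left (sub_ne_zero.1 hne)
  have := hRle P hP
  omega

/-- The consequence used for cusps: an element integral at all places of `S` with a pole at a
given place `Q ∉ S`. -/
theorem exists_forall_ord_nonneg_ord_neg (Q : Place K F) (S : Finset (Place K F)) (hQ : Q ∉ S) :
    ∃ f : F, (∀ P ∈ S, 0 ≤ P.ord f) ∧ Q.ord f < 0 := by
  obtain ⟨x, hxQ, hxS⟩ := exists_ord_neg_forall_ord_pos Q S hQ
  exact ⟨x, fun P hP => (hxS P hP).le, hxQ⟩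

end Fermat.Agent.S18.WeakApprox78
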