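/-
S18 project (blueprint 14), package [CUSP-ORBIT] part 3 (helper78): INTEGRALITY.

`F/K(t)` finite separable of degree `n`, `σ i : F →ₐ[K] K((w))` (`i : ι`, `card ι = n`) pairwise
distinct embeddings with the same value `σ i t` of negative order.  If `f ∈ F` has
`0 ≤ (σ i f).order` for ALL `i`, then `0 ≤ Q.ord f` for EVERY place `Q` of `F` over `t = ∞`
(`ord_nonneg_of_forall_order_nonneg`).  Completion-free: the minimal polynomial of `f` over `K(t)`
has all its roots among the `σ i f`, hence coefficients of nonnegative order.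

Also: `ord_aeval` (order of a polynomial in `t` at a pole of `t`), `ord_nonneg_transfer`
(the sign of `ord c`, `c ∈ K(t)`, is the same at all poles of `t`).
-/
import Mathlib
import Fermat.Agent.S18.WeakApprox78
import Fermat.Agent.S18.EmbPlace78

set_option autoImplicit false

open AlgebraicCurve HahnSeries WithZero Polynomial IntermediateField

namespace Fermat.Agent.S18.EmbIntegral78

open Fermat.Agent.S24 Fermat.Agent.S18.WeakApprox78 Fermat.Agent.S18.EmbPlace78

variable {K F : Type*} [Field K] [Field F] [Algebra K F]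

/-! ### Polynomials in `t` at a pole of `t` -/

theorem ord_aeval (P : Place K F) {t : F} (ht : P.ord t < 0) :
    ∀ (n : ℕ) (p : K[X]), p ≠ 0 → p.natDegree = n →
      aeval t p ≠ 0 ∧ P.ord (aeval t p) = n * P.ord t := by
  intro n
  induction n using Nat.strong_induction_on with
  | _ n ih =>
    intro p hp hn
    have ht0 : t ≠ 0 := ne_zero_of_ord_ne_zero P ht.ne
    have ha : p.leadingCoeff ≠ 0 := leadingCoeff_ne_zero.2 hp
    have haF : algebraMap K F p.leadingCoeff ≠ 0 := by simpa using ha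
    set x : F := algebraMap K F p.leadingCoeff * t ^ n with hx
    have hx0 : x ≠ 0 := mul_ne_zero haF (pow_ne_zero n ht0)
    have hxord : P.ord x = n * P.ord t := by
      rw [hx, P.ord_mul haF (pow_ne_zero n ht0), FF.ord_algebraMap, zero_add, ord_pow]
    have hdecomp : aeval t p = x + aeval t p.eraseLead := by
      conv_lhs => rw [← eraseLead_add_monomial_natDegree_leadingCoeff p]
      rw [map_add, aeval_monomial, hn, add_comm]
    rcases eq_or_ne p.eraseLead 0 with h0 | h0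
    · rw [hdecomp, h0, map_zero, add_zero]
      exact ⟨hx0, hxord⟩
    have hlt : p.eraseLead.natDegree < n := by
      rcases eraseLead_natDegree_lt_or_eraseLead_eq_zero p with h | h
      · omega
      · exact absurd h h0
    obtain ⟨hr0, hrord⟩ := ih _ hlt p.eraseLead h0 rfl
    have hordlt : P.ord x < P.ord (aeval t p.eraseLead) := by
      rw [hxord, hrord]
      have : ((p.eraseLead.natDegree : ℤ) - n) * P.ord t > 0 :=
        mul_pos_of_neg_of_neg (by omega) ht
      nlinarith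
    have hord : P.ord (x + aeval t p.eraseLead) = P.ord x :=
      FF.ord_add_eq_of_lt P hx0 hr0 hordlt
    refine ⟨?_, by rw [hdecomp, hord, hxord]⟩
    rw [hdecomp]
    intro hsum
    have : aeval t p.eraseLead = -x := by linear_combination hsum
    rw [this, FF.ord_neg] at hordlt
    omega

/-- The sign of the order of an element of `K(t)` is the same at all poles of `t`. -/
theorem ord_nonneg_transfer (P Q : Place K F) {t : F} (hP : P.ord t < 0) (hQ : Q.ord t < 0)
    {c : F} (hc : c ∈ K⟮t⟯) (h : 0 ≤ P.ord c) : 0 ≤ Q.ord c := by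
  obtain ⟨p, q, rfl⟩ := (mem_adjoin_simple_iff K c).1 hc
  rcases eq_or_ne p 0 with rfl | hp
  · simp
  rcases eq_or_ne q 0 with rfl | hq
  · simp
  obtain ⟨hp0, hpP⟩ := ord_aeval P hP _ p hp rfl
  obtain ⟨hq0, hqP⟩ := ord_aeval P hP _ q hq rfl
  obtain ⟨_, hpQ⟩ := ord_aeval Q hQ _ p hp rfl
  obtain ⟨_, hqQ⟩ := ord_aeval Q hQ _ q hq rfl
  rw [div_eq_mul_inv, P.ord_mul hp0 (inv_ne_zero hq0), P.ord_inv, hpP, hqP] at h
  rw [div_eq_mul_inv, Q.ord_mul hp0 (inv_ne_zero hq0), Q.ord_inv, hpQ, hqQ]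
  have h1 : ((p.natDegree : ℤ) - q.natDegree) * P.ord t ≥ 0 := by linarith
  have h2 : (p.natDegree : ℤ) - q.natDegree ≤ 0 := nonpos_of_mul_nonneg_left h1 hP
  have h3 : ((p.natDegree : ℤ) - q.natDegree) * Q.ord t ≥ 0 :=
    mul_nonneg_of_nonpos_of_nonpos h2 hQ.le
  linarith

/-! ### Embeddings agree on `K(t)` -/

theorem algHom_eq_on_adjoin {Ω : Type*} [Field Ω] [Algebra K Ω] (σ τ : F →ₐ[K] Ω) {t : F}
    (h : σ t = τ t) {x : F} (hx : x ∈ K⟮t⟯) : σ x = τ x := by
  obtain ⟨p, q, rfl⟩ := (mem_adjoin_simple_iff K x).1 hx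
  rw [map_div₀, map_div₀, ← aeval_algHom_apply, ← aeval_algHom_apply, ← aeval_algHom_apply,
    ← aeval_algHom_apply, h]

/-! ### Integrality -/

/-- the subring `K[[w]]` of `K((w))` -/
noncomputable def A₀ (K : Type*) [Field K] : Subring (LaurentSeries K) :=
  (Valued.v : Valuation (LaurentSeries K) ℤᵐ⁰).valuationSubring.toSubring

theorem mem_A₀ {K : Type*} [Field K] (x : LaurentSeries K) : x ∈ A₀ K ↔ 0 ≤ x.order := by
  show x ∈ (Valued.v : Valuation (LaurentSeries K) ℤᵐ⁰).valuationSubring ↔ _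
  rw [Valuation.mem_valuationSubring_iff, valued_le_one_iff]

theorem esymm_mem {R : Type*} [CommRing R] (S : Subring R) (s : Multiset R) (hs : ∀ a ∈ s, a ∈ S)
    (n : ℕ) : s.esymm n ∈ S := by
  rw [Multiset.esymm]
  refine Subring.multiset_sum_mem _ _ fun a ha => ?_
  obtain ⟨u, hu, rfl⟩ := Multiset.mem_map.1 ha
  refine Subring.multiset_prod_mem _ _ fun b hb => hs b ?_
  exact Multiset.mem_of_le (Multiset.mem_powersetCard.1 hu).1 hb

/-- **Integrality**: an element all of whose conjugates `σ i f` are power series is integral at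
every place over `t = ∞`. -/
theorem ord_nonneg_of_forall_order_nonneg {ι : Type*} [Fintype ι]
    (σ : ι → F →ₐ[K] LaurentSeries K) (hσ : Function.Injective σ) (t : F)
    (hsame : ∀ i j, σ i t = σ j t) (hneg : ∀ i, (σ i t).order < 0)
    [FiniteDimensional K⟮t⟯ F] [Algebra.IsSeparable K⟮t⟯ F]
    (hcard : Fintype.card ι = Module.finrank K⟮t⟯ F)
    (f : F) (hf : ∀ i, 0 ≤ (σ i f).order) (Q : Place K F) (hQ : Q.ord t < 0) :
    0 ≤ Q.ord f := by
  classical
  -- a base index
  have hpos : 0 < Fintype.card ι := by rw [hcard]; exact Module.finrank_pos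
  obtain ⟨i₀⟩ : Nonempty ι := Fintype.card_pos_iff.1 hpos
  -- the algebraic closure of `K((w))` as a `K(t)`-algebra
  let Ω := LaurentSeries K
  let Ωb := AlgebraicClosure Ω
  let φ₀ : K⟮t⟯ →+* Ωb :=
    (algebraMap Ω Ωb).comp (((σ i₀ : F →ₐ[K] Ω) : F →+* Ω).comp (algebraMap K⟮t⟯ F))
  letI : Algebra K⟮t⟯ Ωb := φ₀.toAlgebra
  have hφ₀ : ∀ x : K⟮t⟯, algebraMap K⟮t⟯ Ωb x = algebraMap Ω Ωb (σ i₀ (x : F)) := fun x => rfl
  have hinj : Function.Injective (algebraMap Ω Ωb) := (algebraMap Ω Ωb).injective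
  -- the embeddings as `K(t)`-algebra homomorphisms
  let τ : ι → (F →ₐ[K⟮t⟯] Ωb) := fun i =>
    { ((algebraMap Ω Ωb).comp ((σ i : F →ₐ[K] Ω) : F →+* Ω)) with
      commutes' := fun x => by
        show algebraMap Ω Ωb (σ i (x : F)) = algebraMap Ω Ωb (σ i₀ (x : F))
        rw [algHom_eq_on_adjoin (σ i) (σ i₀) (hsame i i₀) x.2] }
  have hτ : ∀ i (y : F), τ i y = algebraMap Ω Ωb (σ i y) := fun i y => rfl
  have hτinj : Function.Injective τ := by
    intro i j hij
    apply hσ
    ext y : 1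
    apply hinj
    rw [← hτ, ← hτ, hij]
  have hτbij : Function.Bijective τ := by
    refine hτinj.bijective_of_nat_card_le ?_
    rw [Nat.card_eq_fintype_card, Nat.card_eq_fintype_card, hcard, AlgHom.card K⟮t⟯ F Ωb]
  -- the minimal polynomial
  have hfint : IsIntegral K⟮t⟯ f := Algebra.IsIntegral.isIntegral f
  set m := minpoly K⟮t⟯ f with hm
  have hmonic : m.Monic := minpoly.monic hfint
  set mΩ := m.map (algebraMap K⟮t⟯ Ωb) with hmΩ
  have hmΩmonic : mΩ.Monic := hmonic.map _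
  have hsplit : mΩ.Splits := IsAlgClosed.splits mΩ
  let R₀ : Subring Ωb := (A₀ K).map (algebraMap Ω Ωb)
  have hroots : ∀ α ∈ mΩ.roots, α ∈ R₀ := by
    intro α hα
    have hα0 : aeval α m = 0 := by
      have := (mem_roots hmΩmonic.ne_zero).1 hα
      rwa [IsRoot.def, hmΩ, eval_map, ← aeval_def] at this
    obtain ⟨φ, hφ⟩ := IntermediateField.exists_algHom_of_splits_of_aeval
      (F := K⟮t⟯) (E := F) (K := Ωb)
      (fun s => ⟨Algebra.IsIntegral.isIntegral s, IsAlgClosed.splits _⟩) hα0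
    obtain ⟨i, rfl⟩ := hτbij.2 φ
    rw [← hφ, hτ]
    exact Subring.mem_map.2 ⟨σ i f, (mem_A₀ _).2 (hf i), rfl⟩
  have hcoeff : ∀ k, mΩ.coeff k ∈ R₀ := by
    intro k
    rcases le_or_gt k mΩ.natDegree with hk | hk
    · rw [coeff_eq_esymm_roots_of_card hsplit.natDegree_eq_card_roots.symm hk,
        hmΩmonic.leadingCoeff, one_mul]
      exact R₀.mul_mem (R₀.pow_mem (R₀.neg_mem R₀.one_mem) _) (esymm_mem R₀ _ hroots _)
    · rw [coeff_eq_zero_of_natDegree_lt hk]
      exact R₀.zero_mem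
  -- the coefficients are integral at the place of `σ i₀`, hence at `Q`
  have hi₀ : ∃ x : F, (σ i₀ x).order < 0 := ⟨t, hneg i₀⟩
  set P₀ := embPlace (σ i₀) hi₀ with hP₀
  have hP₀t : P₀.ord t < 0 := by
    by_contra hh
    have := (ord_embPlace_nonneg_iff (σ i₀) hi₀ t).1 (not_lt.mp hh)
    have := hneg i₀
    omega
  have hcoeffQ : ∀ k, 0 ≤ Q.ord ((m.coeff k : K⟮t⟯) : F) := by
    intro k
    have h1 : algebraMap Ω Ωb (σ i₀ ((m.coeff k : K⟮t⟯) : F)) ∈ R₀ := by
      have := hcoeff k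
      rwa [hmΩ, coeff_map, hφ₀] at this
    obtain ⟨y, hy, hy'⟩ := Subring.mem_map.1 h1
    have h2 : σ i₀ ((m.coeff k : K⟮t⟯) : F) = y := (hinj hy').symm
    have h3 : 0 ≤ (σ i₀ ((m.coeff k : K⟮t⟯) : F)).order := by rw [h2]; exact (mem_A₀ _).1 hy
    have h4 : 0 ≤ P₀.ord ((m.coeff k : K⟮t⟯) : F) :=
      (ord_embPlace_nonneg_iff (σ i₀) hi₀ _).2 h3
    exact ord_nonneg_transfer P₀ Q hP₀t hQ (m.coeff k).2 h4
  -- the valuation argument
  by_contra hneg'
  have hfneg : Q.ord f < 0 := not_le.mp hneg'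
  have hf0 : f ≠ 0 := ne_zero_of_ord_ne_zero Q hfneg.ne
  set d := m.natDegree with hd
  have hd1 : 1 ≤ d := minpoly.natDegree_pos hfint
  have haeval : ∑ k ∈ Finset.range (d + 1), ((m.coeff k : K⟮t⟯) : F) * f ^ k = 0 := by
    have h := minpoly.aeval K⟮t⟯ f
    rw [aeval_eq_sum_range] at h
    rw [← h]
    refine Finset.sum_congr rfl fun k _ => ?_
    rw [Algebra.smul_def]
    rfl
  rw [Finset.sum_range_succ] at haeval
  have hlead : ((m.coeff d : K⟮t⟯) : F) = 1 := by
    have : m.coeff d = 1 := hmonic.coeff_natDegree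
    rw [this]; rfl
  rw [hlead, one_mul] at haeval
  have hclose : Close Q (d * Q.ord f)
      (∑ k ∈ Finset.range d, ((m.coeff k : K⟮t⟯) : F) * f ^ k) (∑ _k ∈ Finset.range d, (0 : F)) := by
    refine Close.sum _ _ _ fun k hk => ?_
    have hk' : k < d := Finset.mem_range.1 hk
    rcases eq_or_ne ((m.coeff k : K⟮t⟯) : F) 0 with h0 | h0
    · left; rw [h0, zero_mul]
    right
    rw [sub_zero, Q.ord_mul h0 (pow_ne_zero k hf0), ord_pow]
    have h1 := hcoeffQ k
    have h2 : ((d : ℤ) - k) * Q.ord f < 0 := mul_neg_of_pos_of_neg (by omega) hfneg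
    nlinarith
  rw [Finset.sum_const_zero] at hclose
  have hsumeq : ∑ k ∈ Finset.range d, ((m.coeff k : K⟮t⟯) : F) * f ^ k = -(f ^ d) := by
    linear_combination haeval
  rw [hsumeq] at hclose
  rcases hclose with h | h
  · exact pow_ne_zero d hf0 (neg_eq_zero.1 h)
  · rw [sub_zero, FF.ord_neg, ord_pow] at h
    omega

end Fermat.Agent.S18.EmbIntegral78
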