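import Mathlib
import Fermat.Agent.S18.FFLSpace5
import Fermat.Agent.S18.Riemann12

/-!
# S18 [FF]-LSPACE bridge (helper5)

`Riemann12.LSpace G` (helper12) is the Prelude `riemannRochSpace G`; consequently the
`finite_zero` field of `Riemann12.FFFacts` follows from `IsCurveOver` and the existence of one
place, and `FFFacts` reduces to the single lower bound `lower`.
-/

set_option autoImplicit false

namespace Fermat.Agent.S18.FFBridge5

open AlgebraicCurve Module Fermat.Agent.S18

variable {K F : Type*} [Field K] [Field F] [Algebra K F]

theorem LSpace_eq_riemannRochSpace (G : Divisor K F) :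
    Riemann12.LSpace G = riemannRochSpace G := by
  ext y
  rw [Riemann12.mem_LSpace, mem_riemannRochSpace_iff]
  constructor
  · rintro (h | h) v
    · exact Or.inl h
    · right
      have := h v
      omega
  · intro h
    by_cases hy : y = 0
    · exact Or.inl hy
    · right
      intro v
      have := (h v).resolve_left hy
      omega

theorem ell_eq_finrank (G : Divisor K F) :
    Riemann12.ell G = finrank K (riemannRochSpace G) := by
  unfold Riemann12.ell
  rw [LSpace_eq_riemannRochSpace]

/-- All `Riemann12.LSpace G` are finite-dimensional, given one place. -/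
theorem finite_LSpace [HasPrincipalDivisors K F] (hres : ∀ w : Place K F, w.FiniteResidue)
    (v₀ : Place K F) (G : Divisor K F) : Module.Finite K (Riemann12.LSpace G) := by
  rw [LSpace_eq_riemannRochSpace]
  exact FFLSpace5.finite_riemannRochSpace hres v₀ G

/-- `Riemann12.FFFacts` from `IsCurveOver`, one place, and the lower bound. -/
theorem ffFacts_of_lower [IsCurveOver K F] (v₀ : Place K F)
    (hlower : ∃ B C : Divisor K F, 0 < Divisor.degree B ∧
      ∀ r : ℕ, ((r : ℤ) + 1) * Divisor.degree B ≤ (Riemann12.ell ((r : ℤ) • B + C) : ℤ)) :
    Riemann12.FFFacts K F where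
  finite_residue := fun v => IsCurveOver.finiteResidue v
  finite_zero := finite_LSpace (fun w => ⟨IsCurveOver.finiteResidue w⟩) v₀ 0
  lower := hlower

/-- `ℓ(0) = 1` in `Riemann12` vocabulary (`K` algebraically closed). -/
theorem ell_zero [IsAlgClosed K] [IsCurveOver K F] (v₀ : Place K F) :
    Riemann12.ell (0 : Divisor K F) = 1 := by
  rw [ell_eq_finrank]
  exact FFLSpace5.finrank_riemannRochSpace_zero v₀

end Fermat.Agent.S18.FFBridge5
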