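import Mathlib
import Fermat.Prelude.Def_AlgebraicCurve_IsCurveOver
import Fermat.Prelude.Def_AlgebraicCurve_Repartitions
import Fermat.Agent.S18.FFLSpace5

/-!
# S18 package [FF]-DEG-LOWER (helper5): `[F : K(x)] ≤ deg (x)_∞`, class-free

For `x : F` transcendental over `K` with `[F : K(x)] = n < ∞`, a `K(x)`-basis `u_i` of `F` and the
pole divisor `B = (x)_∞`, the `(r+1) n` elements `x^j u_i` (`0 ≤ j ≤ r`) are `K`-linearly
independent and lie in `L(r B + C)` where `C` is the sum of the pole divisors of the `u_i`.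
Combined with the class-free bound `ℓ(G) ≤ ℓ(0) + deg G⁺` of `FFLSpace5` this gives
`n ≤ deg B` (Stichtenoth 1.4.11, the `≥` half).  No `HasPrincipalDivisors`, any characteristic.
-/

namespace Fermat.Agent.S18.FFDegLower5

open AlgebraicCurve IsLocalRing Module IntermediateField
open Fermat.Agent.S18.FFLSpace5

variable {K F : Type*} [Field K] [Field F] [Algebra K F]

/-- Powers of a transcendental element are linearly independent. -/
theorem linearIndependent_pow_of_transcendental {A : Type*} [CommRing A] [Algebra K A] {x : A}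
    (hx : Transcendental K x) : LinearIndependent K (fun j : ℕ => x ^ j) := by
  have hinj : Function.Injective (Polynomial.aeval x : Polynomial K →ₐ[K] A) :=
    transcendental_iff_injective.mp hx
  have h1 : LinearIndependent K (fun s : ℕ => (Polynomial.monomial s (1 : K))) := by
    have := (Polynomial.basisMonomials K).linearIndependent
    rwa [Polynomial.coe_basisMonomials] at this
  have h2 := h1.map' (Polynomial.aeval x : Polynomial K →ₐ[K] A).toLinearMap
    (LinearMap.ker_eq_bot.mpr hinj)
  have h3 : (fun j : ℕ => x ^ j) =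
      (Polynomial.aeval x : Polynomial K →ₐ[K] A).toLinearMap ∘
        fun s : ℕ => (Polynomial.monomial s (1 : K)) := by
    funext j
    simp [Polynomial.aeval_monomial]
  rw [h3]
  exact h2

theorem ord_pow (v : Place K F) (f : F) (n : ℕ) : v.ord (f ^ n) = n * v.ord f := by
  have := v.ord_zpow f (n : ℤ)
  rwa [zpow_natCast] at this

/-- The pole divisor of `u`, given finiteness of its pole set. -/
noncomputable def poleDivisor (u : F) (h : {w : Place K F | w.ord u < 0}.Finite) :
    Divisor K F :=
  Finsupp.onFinset h.toFinset (fun w => max 0 (-(w.ord u))) (by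
    intro w hw
    rw [Set.Finite.mem_toFinset]
    show w.ord u < 0
    by_contra hcon
    rw [not_lt] at hcon
    exact hw (max_eq_left (by linarith)))

theorem poleDivisor_apply (u : F) (h : {w : Place K F | w.ord u < 0}.Finite) (w : Place K F) :
    poleDivisor u h w = max 0 (-(w.ord u)) := rfl

theorem poleDivisor_nonneg (u : F) (h : {w : Place K F | w.ord u < 0}.Finite) :
    0 ≤ poleDivisor u h := by
  intro w
  rw [poleDivisor_apply]
  exact le_max_left _ _

theorem neg_ord_le_poleDivisor (u : F) (h : {w : Place K F | w.ord u < 0}.Finite)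
    (w : Place K F) : -(w.ord u) ≤ poleDivisor u h w := by
  rw [poleDivisor_apply]
  exact le_max_right _ _

section Main

variable (x : F)

/-- `x^j u ∈ L(r B + C)` when `B = (x)_∞`, `C ≥ (u)_∞` and `j ≤ r`. -/
theorem pow_mul_mem (B C : Divisor K F) (hB : ∀ w : Place K F, B w = max 0 (-(w.ord x)))
    (hx0 : x ≠ 0) {u : F} (hu0 : u ≠ 0) (hu : ∀ w : Place K F, -(w.ord u) ≤ C w) {r j : ℕ}
    (hj : j ≤ r) : x ^ j * u ∈ riemannRochSpace (r • B + C) := by
  rw [mem_riemannRochSpace_iff]
  intro w
  right
  rw [w.ord_mul (pow_ne_zero j hx0) hu0, ord_pow, Finsupp.add_apply, Finsupp.smul_apply, hB w,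
    nsmul_eq_mul]
  have h1 := hu w
  have h2 : (0 : ℤ) ≤ max 0 (-(w.ord x)) := le_max_left _ _
  have h3 : -(w.ord x) ≤ max 0 (-(w.ord x)) := le_max_right _ _
  have h4 : (j : ℤ) * (-(w.ord x)) ≤ j * max 0 (-(w.ord x)) :=
    mul_le_mul_of_nonneg_left h3 (Nat.cast_nonneg j)
  have h5 : (j : ℤ) * max 0 (-(w.ord x)) ≤ r * max 0 (-(w.ord x)) :=
    mul_le_mul_of_nonneg_right (Nat.cast_le.mpr hj) h2
  linarith

variable (E : IntermediateField K F) [FiniteDimensional E F]

/-- **Lower bound, linear-independence form.**  `E` an intermediate field containing `x`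
(e.g. `E = K(x)`), `n = [F : E]`, `B = (x)_∞`: there is an effective divisor `C` such that every
`L(r B + C)` contains `(r+1) n` linearly independent elements.  Needs only finiteness of pole
sets. -/
theorem exists_linearIndependent_of_mem (hx : Transcendental K x) (hxE : x ∈ E)
    (hpol : ∀ u : F, u ≠ 0 → {w : Place K F | w.ord u < 0}.Finite)
    (B : Divisor K F) (hB : ∀ w : Place K F, B w = max 0 (-(w.ord x))) :
    ∃ C : Divisor K F, 0 ≤ C ∧ ∀ r : ℕ,
      ∃ e : Fin (r + 1) × Fin (finrank E F) → riemannRochSpace (r • B + C),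
        LinearIndependent K e := by
  classical
  let u : Basis (Fin (finrank E F)) E F := Module.finBasis E F
  have hu0 : ∀ i, u i ≠ 0 := fun i => u.ne_zero i
  let C : Divisor K F := ∑ i, poleDivisor (u i) (hpol (u i) (hu0 i))
  have hC0 : 0 ≤ C := Finset.sum_nonneg (fun i _ => poleDivisor_nonneg _ _)
  have hCu : ∀ i (w : Place K F), -(w.ord (u i)) ≤ C w := by
    intro i w
    calc -(w.ord (u i)) ≤ poleDivisor (u i) (hpol (u i) (hu0 i)) w :=
          neg_ord_le_poleDivisor _ _ _
      _ ≤ C w := by
        show _ ≤ (∑ i, poleDivisor (u i) (hpol (u i) (hu0 i))) w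
        rw [Finsupp.finsetSum_apply]
        exact Finset.single_le_sum
          (f := fun i => poleDivisor (u i) (hpol (u i) (hu0 i)) w)
          (fun i _ => poleDivisor_nonneg _ _ w) (Finset.mem_univ i)
  refine ⟨C, hC0, fun r => ?_⟩
  have hx0 : x ≠ 0 := by
    rintro rfl
    exact hx isAlgebraic_zero
  have hgen : Transcendental K (⟨x, hxE⟩ : E) := by
    rw [← transcendental_algebraMap_iff (A := F) (algebraMap E F).injective]
    exact hx
  have hb : LinearIndependent K (fun j : Fin (r + 1) => (⟨x, hxE⟩ : E) ^ (j : ℕ)) :=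
    (linearIndependent_pow_of_transcendental hgen).comp _ Fin.val_injective
  have hc : LinearIndependent E u := u.linearIndependent
  have hli := linearIndependent_smul hb hc
  have hmem : ∀ p : Fin (r + 1) × Fin (finrank E F),
      (⟨x, hxE⟩ : E) ^ (p.1 : ℕ) • u p.2 ∈ riemannRochSpace (r • B + C) := by
    intro p
    have h1 : (⟨x, hxE⟩ : E) ^ (p.1 : ℕ) • u p.2 = x ^ (p.1 : ℕ) * u p.2 := by
      rw [Algebra.smul_def, map_pow]
      rfl
    rw [h1]
    exact pow_mul_mem x B C hB hx0 (hu0 p.2) (hCu p.2) (Nat.lt_succ_iff.mp p.1.2)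
  refine ⟨fun p => ⟨_, hmem p⟩, ?_⟩
  exact LinearIndependent.of_comp (riemannRochSpace (r • B + C)).subtype hli

/-- **Lower bound, dimension form** (class-free): `(r+1) [F : E] ≤ ℓ(r B + C)`. -/
theorem exists_mul_finrank_le_of_mem (hx : Transcendental K x) (hxE : x ∈ E)
    (hpol : ∀ u : F, u ≠ 0 → {w : Place K F | w.ord u < 0}.Finite)
    (hres : ∀ w : Place K F, w.FiniteResidue)
    (h0 : Module.Finite K (riemannRochSpace (0 : Divisor K F)))
    (B : Divisor K F) (hB : ∀ w : Place K F, B w = max 0 (-(w.ord x))) :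
    ∃ C : Divisor K F, 0 ≤ C ∧ ∀ r : ℕ,
      (r + 1) * finrank E F ≤ finrank K (riemannRochSpace (r • B + C)) := by
  obtain ⟨C, hC, h⟩ := exists_linearIndependent_of_mem x E hx hxE hpol B hB
  refine ⟨C, hC, fun r => ?_⟩
  obtain ⟨e, he⟩ := h r
  have hfin := (finite_and_finrank_le_of_finite_zero hres h0 (r • B + C)).1
  have := he.fintype_card_le_finrank
  simpa [Fintype.card_prod] using this

/-- **`[F : E] ≤ deg (x)_∞`** for every intermediate field `E ∋ x` (class-free, any
characteristic). -/
theorem finrank_le_degree_of_mem (hx : Transcendental K x) (hxE : x ∈ E)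
    (hpol : ∀ u : F, u ≠ 0 → {w : Place K F | w.ord u < 0}.Finite)
    (hres : ∀ w : Place K F, w.FiniteResidue)
    (h0 : Module.Finite K (riemannRochSpace (0 : Divisor K F)))
    (B : Divisor K F) (hB : ∀ w : Place K F, B w = max 0 (-(w.ord x))) :
    (finrank E F : ℤ) ≤ Divisor.degree B := by
  obtain ⟨C, hC, h⟩ := exists_mul_finrank_le_of_mem x E hx hxE hpol hres h0 B hB
  have hB0 : 0 ≤ B := by
    intro w
    rw [hB]
    exact le_max_left _ _
  have hd : 0 ≤ Divisor.degree B := degree_nonneg hB0
  have key : ∀ r : ℕ, ((r : ℤ) + 1) * (finrank E F : ℤ) ≤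
      (finrank K (riemannRochSpace (0 : Divisor K F)) : ℤ) + r * Divisor.degree B +
        Divisor.degree C := by
    intro r
    have h1 := (finite_and_finrank_le_of_finite_zero hres h0 (r • B + C)).2
    have h2 : (r • B + C) ⊔ 0 = r • B + C :=
      sup_eq_left.mpr (add_nonneg (nsmul_nonneg hB0 r) hC)
    rw [h2, map_add, map_nsmul, nsmul_eq_mul] at h1
    have h3 := h r
    have h4 : (((r + 1) * finrank E F : ℕ) : ℤ) ≤
        (finrank K (riemannRochSpace (r • B + C)) : ℤ) := by exact_mod_cast h3
    push_cast at h4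
    linarith
  by_contra hlt
  rw [not_le] at hlt
  have hlt' : Divisor.degree B + 1 ≤ (finrank E F : ℤ) := hlt
  set M : ℤ := (finrank K (riemannRochSpace (0 : Divisor K F)) : ℤ) + Divisor.degree C with hM
  have h5 := key M.toNat
  have h6 : M ≤ (M.toNat : ℤ) := Int.self_le_toNat M
  have h7 : (0 : ℤ) ≤ ((M.toNat : ℤ) + 1) * ((finrank E F : ℤ) - (Divisor.degree B + 1)) :=
    mul_nonneg (by positivity) (sub_nonneg.mpr hlt')
  nlinarith

end Main

section Simple

variable (x : F) [FiniteDimensional K⟮x⟯ F]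

/-- `(r+1) [F : K(x)]` independent elements in `L(r (x)_∞ + C)`. -/
theorem exists_linearIndependent (hx : Transcendental K x)
    (hpol : ∀ u : F, u ≠ 0 → {w : Place K F | w.ord u < 0}.Finite)
    (B : Divisor K F) (hB : ∀ w : Place K F, B w = max 0 (-(w.ord x))) :
    ∃ C : Divisor K F, 0 ≤ C ∧ ∀ r : ℕ,
      ∃ e : Fin (r + 1) × Fin (finrank K⟮x⟯ F) → riemannRochSpace (r • B + C),
        LinearIndependent K e :=
  exists_linearIndependent_of_mem x K⟮x⟯ hx (mem_adjoin_simple_self K x) hpol B hB

/-- `(r+1) [F : K(x)] ≤ ℓ(r (x)_∞ + C)`. -/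
theorem exists_mul_finrank_le (hx : Transcendental K x)
    (hpol : ∀ u : F, u ≠ 0 → {w : Place K F | w.ord u < 0}.Finite)
    (hres : ∀ w : Place K F, w.FiniteResidue)
    (h0 : Module.Finite K (riemannRochSpace (0 : Divisor K F)))
    (B : Divisor K F) (hB : ∀ w : Place K F, B w = max 0 (-(w.ord x))) :
    ∃ C : Divisor K F, 0 ≤ C ∧ ∀ r : ℕ,
      (r + 1) * finrank K⟮x⟯ F ≤ finrank K (riemannRochSpace (r • B + C)) :=
  exists_mul_finrank_le_of_mem x K⟮x⟯ hx (mem_adjoin_simple_self K x) hpol hres h0 B hB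

/-- **`[F : K(x)] ≤ deg (x)_∞`** (class-free, any characteristic). -/
theorem finrank_le_degree (hx : Transcendental K x)
    (hpol : ∀ u : F, u ≠ 0 → {w : Place K F | w.ord u < 0}.Finite)
    (hres : ∀ w : Place K F, w.FiniteResidue)
    (h0 : Module.Finite K (riemannRochSpace (0 : Divisor K F)))
    (B : Divisor K F) (hB : ∀ w : Place K F, B w = max 0 (-(w.ord x))) :
    (finrank K⟮x⟯ F : ℤ) ≤ Divisor.degree B :=
  finrank_le_degree_of_mem x K⟮x⟯ hx (mem_adjoin_simple_self K x) hpol hres h0 B hB

/-- **`[F : K(x)] ≤ deg (x)_0`**: the same for the zero divisor (apply the pole version to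
`x⁻¹ ∈ K(x)`). -/
theorem finrank_le_degree_zeros (hx : Transcendental K x)
    (hpol : ∀ u : F, u ≠ 0 → {w : Place K F | w.ord u < 0}.Finite)
    (hres : ∀ w : Place K F, w.FiniteResidue)
    (h0 : Module.Finite K (riemannRochSpace (0 : Divisor K F)))
    (Z : Divisor K F) (hZ : ∀ w : Place K F, Z w = max 0 (w.ord x)) :
    (finrank K⟮x⟯ F : ℤ) ≤ Divisor.degree Z := by
  have hxi : Transcendental K x⁻¹ := fun h => hx (by simpa using h.inv)
  refine finrank_le_degree_of_mem x⁻¹ K⟮x⟯ hxi (K⟮x⟯.inv_mem (mem_adjoin_simple_self K x))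
    hpol hres h0 Z ?_
  intro w
  rw [hZ, Place.ord_inv, neg_neg]

end Simple


section Const

/-- Elements algebraic over `K` have order `0` at every place. -/
theorem ord_eq_zero_of_isAlgebraic (w : Place K F) {y : F} (hy : IsAlgebraic K y) :
    w.ord y = 0 := by
  rcases eq_or_ne y 0 with rfl | hy0
  · exact w.ord_zero
  have key : ∀ z : F, IsAlgebraic K z → z ≠ 0 → 0 ≤ w.ord z := by
    intro z hz hz0
    have h1 : IsIntegral K z := hz.isIntegral
    have h2 : IsIntegral w.toValuationSubring z := h1.tower_top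
    obtain ⟨a, ha⟩ := IsIntegrallyClosed.isIntegral_iff.mp h2
    have h3 : z ∈ w.toValuationSubring := by
      rw [← ha]
      exact a.2
    exact ((mem_valuationSubring_iff w).mp h3).resolve_left hz0
  have h1 := key y hy hy0
  have h2 := key y⁻¹ hy.inv (inv_ne_zero hy0)
  rw [Place.ord_inv] at h2
  omega

variable (hconst : ∀ y : F, (∀ w : Place K F, 0 ≤ w.ord y) → y ∈ Set.range (algebraMap K F))
include hconst

/-- If pole-free elements are constants then `L(0) = K`. -/
theorem riemannRochSpace_zero_eq_of_const :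
    riemannRochSpace (0 : Divisor K F) = LinearMap.range (Algebra.linearMap K F) := by
  apply le_antisymm
  · intro f hf
    have h1 : ∀ w : Place K F, 0 ≤ w.ord f := by
      intro w
      rcases mem_riemannRochSpace_iff.mp hf w with h | h
      · rw [h, Place.ord_zero]
      · simpa using h
    obtain ⟨c, hc⟩ := hconst f h1
    exact ⟨c, hc⟩
  · rintro _ ⟨c, rfl⟩
    exact algebraMap_mem_riemannRochSpace_zero c

theorem finite_zero_of_const : Module.Finite K (riemannRochSpace (0 : Divisor K F)) := by
  rw [riemannRochSpace_zero_eq_of_const hconst]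
  exact Module.Finite.range _

theorem finrank_zero_of_const : finrank K (riemannRochSpace (0 : Divisor K F)) = 1 := by
  rw [riemannRochSpace_zero_eq_of_const hconst]
  have hinj : Function.Injective (Algebra.linearMap K F) := (algebraMap K F).injective
  rw [LinearMap.finrank_range_of_inj hinj, finrank_self]

end Const

section Assembly

/-- **The `lower` hypothesis of `Riemann12.FFFacts`** (Prelude vocabulary, `ℤ`-smul form):
from the lower bound of this file and the upper bound `deg (x)_∞ ≤ [F : K(x)]`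
(Stichtenoth 1.3.3). -/
theorem lower_of_degree_le (x : F) [FiniteDimensional K⟮x⟯ F] (hx : Transcendental K x)
    (hpol : ∀ u : F, u ≠ 0 → {w : Place K F | w.ord u < 0}.Finite)
    (hres : ∀ w : Place K F, w.FiniteResidue)
    (h0 : Module.Finite K (riemannRochSpace (0 : Divisor K F)))
    (B : Divisor K F) (hB : ∀ w : Place K F, B w = max 0 (-(w.ord x)))
    (hle : Divisor.degree B ≤ (finrank K⟮x⟯ F : ℤ)) :
    Divisor.degree B = (finrank K⟮x⟯ F : ℤ) ∧ 0 < Divisor.degree B ∧
      ∃ C : Divisor K F, 0 ≤ C ∧ ∀ r : ℕ, ((r : ℤ) + 1) * Divisor.degree B ≤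
        (finrank K (riemannRochSpace ((r : ℤ) • B + C)) : ℤ) := by
  have hge := finrank_le_degree x hx hpol hres h0 B hB
  have heq : Divisor.degree B = (finrank K⟮x⟯ F : ℤ) := le_antisymm hle hge
  have hpos : 0 < finrank K⟮x⟯ F := finrank_pos
  refine ⟨heq, by rw [heq]; exact_mod_cast hpos, ?_⟩
  obtain ⟨C, hC, h⟩ := exists_mul_finrank_le x hx hpol hres h0 B hB
  refine ⟨C, hC, fun r => ?_⟩
  rw [heq, natCast_zsmul]
  have := h r
  exact_mod_cast this

/-- **`HasPrincipalDivisors` from the two degree bounds**: assume finite residue fields,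
`L(0)` finite-dimensional, `[F : K(x)] < ∞` for all transcendental `x`, finiteness of zero sets
and the upper bound `deg (x)_0 ≤ [F : K(x)]` (Stichtenoth 1.3.3).  Then `deg (x)_0 =
deg (x)_∞ = [F : K(x)]` and every nonzero `f` has a principal divisor of degree `0`. -/
theorem hasPrincipalDivisors_of_bounds
    (hres : ∀ w : Place K F, w.FiniteResidue)
    (h0 : Module.Finite K (riemannRochSpace (0 : Divisor K F)))
    (hfin : ∀ x : F, Transcendental K x → FiniteDimensional K⟮x⟯ F)
    (hzeros : ∀ x : F, Transcendental K x → {w : Place K F | 0 < w.ord x}.Finite)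
    (hupper : ∀ x : F, Transcendental K x → ∀ Z : Divisor K F,
      (∀ w : Place K F, Z w = max 0 (w.ord x)) → Divisor.degree Z ≤ (finrank K⟮x⟯ F : ℤ)) :
    HasPrincipalDivisors K F := by
  have hinvT : ∀ x : F, Transcendental K x → Transcendental K x⁻¹ :=
    fun x hx h => hx (by simpa using h.inv)
  have hpol : ∀ u : F, u ≠ 0 → {w : Place K F | w.ord u < 0}.Finite := by
    intro u _
    by_cases hu : IsAlgebraic K u
    · convert Set.finite_empty (α := Place K F)
      ext w
      simp [ord_eq_zero_of_isAlgebraic w hu]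
    · have := hzeros u⁻¹ (hinvT u hu)
      convert this using 2
      ext w
      rw [Place.ord_inv]
      constructor <;> intro h <;> omega
  constructor
  intro f hf0
  by_cases hf : IsAlgebraic K f
  · refine ⟨0, fun v => ?_, map_zero _⟩
    rw [ord_eq_zero_of_isAlgebraic v hf]
    rfl
  · have hfT : Transcendental K f := hf
    have := hfin f hfT
    -- zero and pole divisors
    let Z : Divisor K F := Finsupp.onFinset (hzeros f hfT).toFinset (fun w => max 0 (w.ord f))
      (by
        intro w hw
        rw [Set.Finite.mem_toFinset]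
        show 0 < w.ord f
        by_contra hcon
        rw [not_lt] at hcon
        exact hw (max_eq_left hcon))
    let B : Divisor K F := poleDivisor f (hpol f hf0)
    have hZ : ∀ w : Place K F, Z w = max 0 (w.ord f) := fun w => rfl
    have hB : ∀ w : Place K F, B w = max 0 (-(w.ord f)) := fun w => rfl
    have h1 := finrank_le_degree f hfT hpol hres h0 B hB
    have h2 := finrank_le_degree_zeros f hfT hpol hres h0 Z hZ
    have h3 := hupper f hfT Z hZ
    -- upper bound for poles via `f⁻¹`
    have : FiniteDimensional K⟮f⁻¹⟯ F := hfin f⁻¹ (hinvT f hfT)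
    have h4 := hupper f⁻¹ (hinvT f hfT) B (by
      intro w
      rw [hB, Place.ord_inv])
    have h5 : (finrank K⟮f⁻¹⟯ F : ℤ) ≤ Divisor.degree B :=
      finrank_le_degree_zeros f⁻¹ (hinvT f hfT) hpol hres h0 B (by
        intro w
        rw [hB, Place.ord_inv])
    have h6 : (finrank K⟮f⁻¹⟯ F : ℤ) = Divisor.degree B := le_antisymm h5 h4
    refine ⟨Z - B, fun v => ?_, ?_⟩
    · rw [Finsupp.sub_apply, hZ, hB]
      rcases le_total 0 (v.ord f) with h | h
      · rw [max_eq_right h, max_eq_left (by omega)]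
        ring
      · rw [max_eq_left h, max_eq_right (by omega)]
        ring
    · rw [map_sub]
      have : Divisor.degree Z = (finrank K⟮f⟯ F : ℤ) := le_antisymm h3 h2
      -- `deg B ≥ [F:K(f)]` and `deg B = [F:K(f⁻¹)] ≤ ...`; compare via the zero divisor of `f⁻¹`
      have h7 : Divisor.degree B ≤ (finrank K⟮f⟯ F : ℤ) := by
        -- `B` is the zero divisor of `f⁻¹`, and `f ∈ K(f⁻¹)`, so `[F:K(f⁻¹)] ≤ deg Z`
        have hZ' : ∀ w : Place K F, Z w = max 0 (-(w.ord f⁻¹)) := by
          intro w
          rw [hZ, Place.ord_inv, neg_neg]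
        have h8 : (finrank K⟮f⁻¹⟯ F : ℤ) ≤ Divisor.degree Z :=
          finrank_le_degree f⁻¹ (hinvT f hfT) hpol hres h0 Z hZ'
        linarith
      linarith

end Assembly

end Fermat.Agent.S18.FFDegLower5
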