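import Mathlib
import Fermat.Agent.S18.FFDegLower5
import Fermat.Agent.S18.FFBridge5

/-!
# S18 [FF] assembly (helper5): class-free function-field data ⟹ `HasPrincipalDivisors`,
`Riemann12.FFFacts`, Riemann genus

`ClassFreeData K F` collects exactly the facts that Stichtenoth 1.1.6/1.1.19 (`hconst`) and
1.3.3 (`hres`, `hzeros`, `hupper`) provide, with no class assumption.  From them:
`HasPrincipalDivisors K F`, `deg (x)_0 = deg (x)_∞ = [F : K(x)]`, `Riemann12.FFFacts K F`,
existence of the Riemann genus, `ℓ(0) = 1`.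
-/

set_option autoImplicit false

namespace Fermat.Agent.S18.FFAssemble5

open AlgebraicCurve Module IntermediateField Fermat.Agent.S18
open Fermat.Agent.S18.FFLSpace5 Fermat.Agent.S18.FFDegLower5

variable (K F : Type*) [Field K] [Field F] [Algebra K F]

/-- The class-free function-field facts (Stichtenoth 1.1.19 + 1.3.3). -/
structure ClassFreeData : Prop where
  /-- residue fields are finite over `K` -/
  hres : ∀ w : Place K F, w.FiniteResidue
  /-- pole-free elements are constants -/
  hconst : ∀ y : F, (∀ w : Place K F, 0 ≤ w.ord y) → y ∈ Set.range (algebraMap K F)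
  /-- `F` is finite over `K(x)` for every transcendental `x` -/
  hfin : ∀ x : F, Transcendental K x → FiniteDimensional K⟮x⟯ F
  /-- finitely many zeros -/
  hzeros : ∀ x : F, Transcendental K x → {w : Place K F | 0 < w.ord x}.Finite
  /-- `deg (x)_0 ≤ [F : K(x)]` -/
  hupper : ∀ x : F, Transcendental K x → ∀ Z : Divisor K F,
    (∀ w : Place K F, Z w = max 0 (w.ord x)) → Divisor.degree Z ≤ (finrank K⟮x⟯ F : ℤ)
  /-- a transcendental element exists -/
  htrans : ∃ x : F, Transcendental K x

variable {K F}

namespace ClassFreeData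

theorem transcendental_inv {x : F} (hx : Transcendental K x) : Transcendental K x⁻¹ :=
  fun h => hx (by simpa using h.inv)

variable (d : ClassFreeData K F)
include d

theorem h0 : Module.Finite K (riemannRochSpace (0 : Divisor K F)) :=
  finite_zero_of_const d.hconst

theorem finrank_zero : finrank K (riemannRochSpace (0 : Divisor K F)) = 1 :=
  finrank_zero_of_const d.hconst

/-- finitely many poles, for every nonzero element -/
theorem hpol : ∀ u : F, u ≠ 0 → {w : Place K F | w.ord u < 0}.Finite := by
  intro u _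
  by_cases hu : IsAlgebraic K u
  · convert Set.finite_empty (α := Place K F)
    ext w
    simp [ord_eq_zero_of_isAlgebraic w hu]
  · have := d.hzeros u⁻¹ (transcendental_inv hu)
    convert this using 2
    ext w
    rw [Place.ord_inv]
    constructor <;> intro h <;> omega

/-- finitely many zeros, for every nonzero element -/
theorem hzer : ∀ u : F, u ≠ 0 → {w : Place K F | 0 < w.ord u}.Finite := by
  intro u _
  by_cases hu : IsAlgebraic K u
  · convert Set.finite_empty (α := Place K F)
    ext w
    simp [ord_eq_zero_of_isAlgebraic w hu]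
  · exact d.hzeros u hu

theorem hasPrincipalDivisors : HasPrincipalDivisors K F :=
  hasPrincipalDivisors_of_bounds d.hres d.h0 d.hfin d.hzeros d.hupper

/-- `deg (x)_0 = [F : K(x)]`. -/
theorem degree_zeros_eq {x : F} (hx : Transcendental K x) (Z : Divisor K F)
    (hZ : ∀ w : Place K F, Z w = max 0 (w.ord x)) :
    Divisor.degree Z = (@finrank K⟮x⟯ F _ _ _ : ℤ) := by
  have := d.hfin x hx
  exact le_antisymm (d.hupper x hx Z hZ)
    (finrank_le_degree_zeros x hx d.hpol d.hres d.h0 Z hZ)

/-- `deg (x)_∞ = [F : K(x)]`. -/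
theorem degree_poles_eq {x : F} (hx : Transcendental K x) (B : Divisor K F)
    (hB : ∀ w : Place K F, B w = max 0 (-(w.ord x))) :
    Divisor.degree B = (@finrank K⟮x⟯ F _ _ _ : ℤ) := by
  have := d.hfin x hx
  have hxi := transcendental_inv hx
  have := d.hfin x⁻¹ hxi
  refine le_antisymm ?_ (finrank_le_degree x hx d.hpol d.hres d.h0 B hB)
  -- `B` is the zero divisor of `x⁻¹`
  have hB' : ∀ w : Place K F, B w = max 0 (w.ord x⁻¹) := by
    intro w
    rw [hB, Place.ord_inv]
  have h1 := d.hupper x⁻¹ hxi B hB'
  -- a zero divisor `Z` of `x` = pole divisor of `x⁻¹`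
  let Z : Divisor K F := poleDivisor x⁻¹ (d.hpol x⁻¹ (by
    rintro h
    rw [inv_eq_zero] at h
    exact hx (h ▸ isAlgebraic_zero)))
  have hZ : ∀ w : Place K F, Z w = max 0 (w.ord x) := by
    intro w
    show max 0 (-(w.ord x⁻¹)) = _
    rw [Place.ord_inv, neg_neg]
  have hZ' : ∀ w : Place K F, Z w = max 0 (-(w.ord x⁻¹)) := fun w => rfl
  have h2 := finrank_le_degree x⁻¹ hxi d.hpol d.hres d.h0 Z hZ'
  have h3 := d.hupper x hx Z hZ
  linarith

/-- **`Riemann12.FFFacts`** from class-free data. -/
theorem ffFacts [HasPrincipalDivisors K F] : Riemann12.FFFacts K F where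
  finite_residue := fun v => (d.hres v).finite
  finite_zero := by
    rw [FFBridge5.LSpace_eq_riemannRochSpace]
    exact d.h0
  lower := by
    obtain ⟨x, hx⟩ := d.htrans
    have hx0 : x ≠ 0 := by
      rintro rfl
      exact hx isAlgebraic_zero
    have := d.hfin x hx
    let B : Divisor K F := poleDivisor x (d.hpol x hx0)
    have hB : ∀ w : Place K F, B w = max 0 (-(w.ord x)) := fun w => rfl
    obtain ⟨_, hpos, C, _, hC⟩ := lower_of_degree_le x hx d.hpol d.hres d.h0 B hB
      (d.degree_poles_eq hx B hB).le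
    refine ⟨B, C, hpos, fun r => ?_⟩
    rw [FFBridge5.ell_eq_finrank]
    exact hC r

/-- `ℓ(0) = 1` in `Riemann12` vocabulary. -/
theorem ell_zero : Riemann12.ell (0 : Divisor K F) = 1 := by
  rw [FFBridge5.ell_eq_finrank]
  exact d.finrank_zero

/-- **Riemann's theorem** for class-free data: a Riemann genus `g ≥ 0` exists. -/
theorem exists_isRiemannGenus : ∃ g : ℤ, 0 ≤ g ∧ Riemann12.IsRiemannGenus K F g := by
  have := d.hasPrincipalDivisors
  obtain ⟨g, hg⟩ := (d.ffFacts).exists_isRiemannGenus
  exact ⟨g, hg.nonneg d.ell_zero, hg⟩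

/-- All `L(G)` are finite-dimensional, `ℓ(G) ≤ ℓ(0) + deg G⁺ = 1 + deg G⁺`. -/
theorem finite_riemannRochSpace (G : Divisor K F) : Module.Finite K (riemannRochSpace G) :=
  (finite_and_finrank_le_of_finite_zero d.hres d.h0 G).1

theorem finrank_le (G : Divisor K F) :
    (finrank K (riemannRochSpace G) : ℤ) ≤ 1 + Divisor.degree (G ⊔ 0) := by
  have := (finite_and_finrank_le_of_finite_zero d.hres d.h0 G).2
  rw [d.finrank_zero] at this
  exact_mod_cast this

end ClassFreeData

end Fermat.Agent.S18.FFAssemble5
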