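/-
S18 / [FF]-CONST, second seat (helper19): CHARACTERISTIC-FREE, SEPARABILITY-FREE.

`K` a field, `F` a field over `K` which is finite over `K(w)` for every transcendental `w`
("function field of one variable").  Then

* every valuation subring `V ≠ ⊤` of `F` containing `K` is a principal ideal ring
  (`isPrincipalIdealRing_of_valuationSubring`);
* every transcendental `u` has a zero and a pole at some `Place K F`
  (`exists_place_ord_pos`, `exists_place_ord_neg`);
* an element which is regular at every place is algebraic over `K`, hence constant if `K` is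
  algebraically closed in `F` (`mem_range_of_forall_ord_nonneg`, `mem_range_of_forall_ord_eq_zero`);
* exchange: `F` finite over `K(t)` for ONE `t` implies `F` finite over `K(x)` for EVERY
  transcendental `x` (`hfin_of_finiteDimensional`); `finiteDimensional_of_relrank_lt` converts the
  `relrank` shape of `S28.KEY0`.

Route (independent of the chain argument of Stichtenoth 1.1.6): for `w ∈ 𝔪_V`, `w ≠ 0`,
`n = [F : K(w)]`, every `x ∈ Fˣ` satisfies `v(x)^(n!) = v(w)^a` for an integer `a = a(x)`
(two terms of the minimal equation of `x` over `K(w)` have the same value, and the values of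
`K(w)ˣ` are the integral powers of `v(w)`); an ideal `I ≠ 0` of `V` is generated by an element of
minimal exponent `a`.
All proofs complete.
-/
import Mathlib
import Fermat.Prelude.Def_AlgebraicCurve_DivisorClassGroup
import Fermat.Agent.S24.PlaceLocal

set_option autoImplicit false

open AlgebraicCurve IntermediateField Polynomial

namespace Fermat.Agent.S18.FFConst19

section TwoTerms

variable {E F : Type*} [Field E] [Field F] [Algebra E F]
variable {Γ₀ : Type*} [LinearOrderedCommGroupWithZero Γ₀]

/-- In a finite extension `F/E` of degree `n`, for every valuation `v` on `F` and `x ≠ 0` some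
power `v x ^ d` with `1 ≤ d ≤ n` is the value of an element of `Eˣ`. -/
theorem exists_pow_eq_bdd [FiniteDimensional E F] (v : Valuation F Γ₀) {x : F} (hx : x ≠ 0) :
    ∃ (d : ℕ) (q : E), 0 < d ∧ d ≤ Module.finrank E F ∧ q ≠ 0 ∧
      v x ^ d = v (algebraMap E F q) := by
  classical
  have hint : IsIntegral E x := IsIntegral.of_finite E x
  set p : E[X] := minpoly E x with hp_def
  have hp0 : p ≠ 0 := minpoly.ne_zero hint
  have hpdeg : p.natDegree ≤ Module.finrank E F := minpoly.natDegree_le x
  have hp : aeval x p = 0 := minpoly.aeval E x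
  rw [aeval_eq_sum_range] at hp
  set f : ℕ → F := fun i => p.coeff i • x ^ i with hf
  have hvx : v x ≠ 0 := (Valuation.ne_zero_iff v).mpr hx
  have hfne : ∀ i, p.coeff i ≠ 0 → v (f i) ≠ 0 := by
    intro i hi
    rw [hf]
    simp only [Algebra.smul_def]
    rw [map_mul, map_pow]
    refine mul_ne_zero ?_ (pow_ne_zero _ hvx)
    exact (Valuation.ne_zero_iff v).mpr (by simpa using hi)
  have hsupp : ∑ i ∈ p.support, f i = 0 := by
    rw [← hp]
    apply Finset.sum_subset
    · intro i hi
      rw [Finset.mem_range]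
      exact Nat.lt_succ_of_le (le_natDegree_of_mem_supp i hi)
    · intro i _ hi
      show p.coeff i • x ^ i = 0
      rw [notMem_support_iff.mp hi, zero_smul]
  have hne : p.support.Nonempty := by
    rwa [Finset.nonempty_iff_ne_empty, Ne, support_eq_empty]
  obtain ⟨j, hj, hjmax⟩ := Finset.exists_max_image p.support (fun i => v (f i)) hne
  have hjne : v (f j) ≠ 0 := hfne j (mem_support_iff.mp hj)
  have hex : ∃ i ∈ p.support, i ≠ j ∧ v (f i) = v (f j) := by
    by_contra hcon
    push Not at hcon
    have hlt : ∀ i ∈ p.support \ {j}, v (f i) < v (f j) := by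
      intro i hi
      rw [Finset.mem_sdiff, Finset.mem_singleton] at hi
      exact lt_of_le_of_ne (hjmax i hi.1) (hcon i hi.1 hi.2)
    have := Valuation.map_sum_eq_of_lt v hj hlt
    rw [hsupp, map_zero] at this
    exact hjne this.symm
  obtain ⟨i, hi, hij, hval⟩ := hex
  have hci : p.coeff i ≠ 0 := mem_support_iff.mp hi
  have hcj : p.coeff j ≠ 0 := mem_support_iff.mp hj
  have hile : i ≤ p.natDegree := le_natDegree_of_mem_supp i hi
  have hjle : j ≤ p.natDegree := le_natDegree_of_mem_supp j hj
  have hval' : v (algebraMap E F (p.coeff i)) * v x ^ i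
      = v (algebraMap E F (p.coeff j)) * v x ^ j := by
    simpa [hf, Algebra.smul_def] using hval
  have hvi : v (algebraMap E F (p.coeff i)) ≠ 0 :=
    (Valuation.ne_zero_iff v).mpr (by simpa using hci)
  have hvj : v (algebraMap E F (p.coeff j)) ≠ 0 :=
    (Valuation.ne_zero_iff v).mpr (by simpa using hcj)
  rcases lt_or_gt_of_ne hij with hlt | hlt
  · refine ⟨j - i, p.coeff i / p.coeff j, Nat.sub_pos_of_lt hlt, by omega,
      div_ne_zero hci hcj, ?_⟩
    rw [map_div₀, map_div₀, eq_div_iff hvj]
    have : v x ^ j = v x ^ (j - i) * v x ^ i := by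
      rw [← pow_add, Nat.sub_add_cancel hlt.le]
    rw [this] at hval'
    have h2 : v (algebraMap E F (p.coeff i)) * v x ^ i
        = (v x ^ (j - i) * v (algebraMap E F (p.coeff j))) * v x ^ i := by
      rw [hval']; ac_rfl
    exact (mul_right_cancel₀ (pow_ne_zero i hvx) h2).symm
  · refine ⟨i - j, p.coeff j / p.coeff i, Nat.sub_pos_of_lt hlt, by omega,
      div_ne_zero hcj hci, ?_⟩
    rw [map_div₀, map_div₀, eq_div_iff hvi]
    have : v x ^ i = v x ^ (i - j) * v x ^ j := by
      rw [← pow_add, Nat.sub_add_cancel hlt.le]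
    rw [this] at hval'
    have h2 : v (algebraMap E F (p.coeff j)) * v x ^ j
        = (v x ^ (i - j) * v (algebraMap E F (p.coeff i))) * v x ^ j := by
      rw [← hval']; ac_rfl
    exact (mul_right_cancel₀ (pow_ne_zero j hvx) h2).symm

end TwoTerms


section Values

variable {K F : Type*} [Field K] [Field F] [Algebra K F]
variable (V : ValuationSubring F)

/-- nonzero constants are units of `V` -/
theorem val_algebraMap_eq_one (hK : ∀ a : K, algebraMap K F a ∈ V) {c : K} (hc : c ≠ 0) :
    V.valuation (algebraMap K F c) = 1 := by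
  have h1 : V.valuation (algebraMap K F c) ≤ 1 := (V.valuation_le_one_iff _).mpr (hK c)
  have h2 : V.valuation (algebraMap K F c⁻¹) ≤ 1 := (V.valuation_le_one_iff _).mpr (hK c⁻¹)
  rw [map_inv₀, map_inv₀] at h2
  have h0 : V.valuation (algebraMap K F c) ≠ 0 :=
    (Valuation.ne_zero_iff _).mpr (by simpa using hc)
  have h3 : 1 ≤ V.valuation (algebraMap K F c) := by
    rwa [inv_le_one₀ (zero_lt_iff.mpr h0)] at h2
  exact le_antisymm h1 h3

theorem aeval_mem (hK : ∀ a : K, algebraMap K F a ∈ V) {w : F} (hw : w ∈ V) (p : K[X]) :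
    aeval w p ∈ V := by
  rw [aeval_eq_sum_range]
  refine sum_mem fun i _ => ?_
  rw [Algebra.smul_def]
  exact mul_mem (hK _) (pow_mem hw i)

/-- a polynomial with nonzero constant term takes a unit value at a nonunit `w` -/
theorem val_aeval_of_coeff_zero_ne (hK : ∀ a : K, algebraMap K F a ∈ V) {w : F}
    (hw : w ∈ V.nonunits) {p : K[X]} (hp : p.coeff 0 ≠ 0) :
    V.valuation (aeval w p) = 1 := by
  have hwV : w ∈ V := V.nonunits_subset hw
  have h := Polynomial.divX_mul_X_add p
  have hsplit : aeval w p = aeval w p.divX * w + algebraMap K F (p.coeff 0) := by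
    conv_lhs => rw [← h]
    rw [map_add, map_mul, aeval_X, aeval_C]
  rw [hsplit]
  have hlt : V.valuation (aeval w p.divX * w) < 1 := by
    rw [map_mul]
    have h1 : V.valuation (aeval w p.divX) ≤ 1 :=
      (V.valuation_le_one_iff _).mpr (aeval_mem V hK hwV _)
    have h2 : V.valuation w < 1 := V.mem_nonunits_iff.mp hw
    calc V.valuation (aeval w p.divX) * V.valuation w ≤ 1 * V.valuation w :=
          mul_le_mul' h1 le_rfl
      _ = V.valuation w := one_mul _
      _ < 1 := h2
  have h1 : V.valuation (algebraMap K F (p.coeff 0)) = 1 := val_algebraMap_eq_one V hK hp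
  rw [Valuation.map_add_eq_of_lt_right _ (by rw [h1]; exact hlt), h1]

/-- the value of a nonzero polynomial in a nonunit `w` is a power of the value of `w` -/
theorem val_aeval (hK : ∀ a : K, algebraMap K F a ∈ V) {w : F}
    (hw : w ∈ V.nonunits) {p : K[X]} (hp : p ≠ 0) :
    ∃ m : ℕ, V.valuation (aeval w p) = V.valuation w ^ m := by
  obtain ⟨q, hq, hnd⟩ := Polynomial.exists_eq_pow_rootMultiplicity_mul_and_not_dvd p hp 0
  rw [C_0, sub_zero] at hq hnd
  have hq0 : q.coeff 0 ≠ 0 := fun h0 => hnd (Polynomial.X_dvd_iff.mpr h0)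
  refine ⟨p.rootMultiplicity 0, ?_⟩
  conv_lhs => rw [hq]
  rw [map_mul, map_pow, aeval_X, map_mul, map_pow, val_aeval_of_coeff_zero_ne V hK hw hq0, mul_one]

/-- the values of `K(w)ˣ` are the integral powers of the value of `w` -/
theorem val_adjoin_simple (hK : ∀ a : K, algebraMap K F a ∈ V) {w : F}
    (hw : w ∈ V.nonunits) (q : K⟮w⟯) (hq : q ≠ 0) :
    ∃ b : ℤ, V.valuation (algebraMap K⟮w⟯ F q) = V.valuation w ^ b := by
  obtain ⟨r, s, hrs⟩ := (IntermediateField.mem_adjoin_simple_iff K (q : F)).mp q.2
  have hqF : (q : F) ≠ 0 := fun h => hq (Subtype.ext h)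
  have hr : aeval w r ≠ 0 := by
    intro h0
    rw [h0, zero_div] at hrs
    exact hqF hrs
  have hs : aeval w s ≠ 0 := by
    intro h0
    rw [h0, div_zero] at hrs
    exact hqF hrs
  have hr0 : r ≠ 0 := fun h => hr (by rw [h, map_zero])
  have hs0 : s ≠ 0 := fun h => hs (by rw [h, map_zero])
  obtain ⟨m1, h1⟩ := val_aeval V hK hw hr0
  obtain ⟨m2, h2⟩ := val_aeval V hK hw hs0
  have hrs' : algebraMap K⟮w⟯ F q = aeval w r / aeval w s := hrs
  by_cases hvw : V.valuation w = 0
  · have hm1 : m1 = 0 := by
      by_contra hne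
      rw [hvw, zero_pow hne] at h1
      exact (Valuation.ne_zero_iff _).mpr hr h1
    have hm2 : m2 = 0 := by
      by_contra hne
      rw [hvw, zero_pow hne] at h2
      exact (Valuation.ne_zero_iff _).mpr hs h2
    refine ⟨0, ?_⟩
    rw [hrs', map_div₀, h1, h2, hm1, hm2, pow_zero, div_one, zpow_zero]
  · refine ⟨(m1 : ℤ) - m2, ?_⟩
    rw [hrs', map_div₀, h1, h2, zpow_sub₀ hvw, zpow_natCast, zpow_natCast]

end Values

section PID

variable {K F : Type*} [Field K] [Field F] [Algebra K F]
variable (V : ValuationSubring F)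

/-- every value is commensurable with the value of `w`, with the UNIFORM exponent `n!`,
`n = [F : K(w)]`. -/
theorem exists_zpow_eq (hK : ∀ a : K, algebraMap K F a ∈ V) {w : F}
    (hw : w ∈ V.nonunits) [FiniteDimensional K⟮w⟯ F] {x : F} (hx : x ≠ 0) :
    ∃ a : ℤ, V.valuation x ^ (Module.finrank K⟮w⟯ F).factorial = V.valuation w ^ a := by
  obtain ⟨d, q, hd0, hdn, hq0, hdq⟩ := exists_pow_eq_bdd (E := K⟮w⟯) V.valuation hx
  obtain ⟨b, hb⟩ := val_adjoin_simple V hK hw q hq0
  obtain ⟨e, he⟩ := Nat.dvd_factorial hd0 hdn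
  refine ⟨b * e, ?_⟩
  rw [he, pow_mul, hdq, hb, zpow_mul, zpow_natCast]

/-- **A valuation subring of `F ⊇ K` with a nonzero nonunit `w` such that `F / K(w)` is finite is a
principal ideal ring.** -/
theorem isPrincipalIdealRing_of_nonunit (hK : ∀ a : K, algebraMap K F a ∈ V) {w : F}
    (hw0 : w ≠ 0) (hw : w ∈ V.nonunits) [FiniteDimensional K⟮w⟯ F] :
    IsPrincipalIdealRing V := by
  classical
  set N : ℕ := (Module.finrank K⟮w⟯ F).factorial with hN
  have hN0 : N ≠ 0 := Nat.factorial_ne_zero _
  have hg0 : 0 < V.valuation w := zero_lt_iff.mpr ((Valuation.ne_zero_iff _).mpr hw0)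
  have hg1 : V.valuation w < 1 := V.mem_nonunits_iff.mp hw
  -- the exponent of an element of `V` is nonnegative
  have hnonneg : ∀ (x : V) (a : ℤ), V.valuation (x : F) ^ N = V.valuation w ^ a → 0 ≤ a := by
    intro x a hxa
    have h1 : V.valuation (x : F) ^ N ≤ 1 := pow_le_one₀ zero_le (V.valuation_le_one x)
    rw [hxa, ← zpow_zero (V.valuation w)] at h1
    exact (zpow_le_zpow_iff_right_of_lt_one₀ hg0 hg1).mp h1
  refine ⟨fun I => ?_⟩
  by_cases hI : I = ⊥
  · rw [hI]; exact bot_isPrincipal
  obtain ⟨x0, hx0I, hx00⟩ := Submodule.exists_mem_ne_zero_of_ne_bot hI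
  -- exponents realised in `I`
  let Pr : ℕ → Prop := fun a => ∃ x ∈ I, x ≠ 0 ∧ V.valuation (x : F) ^ N = V.valuation w ^ (a : ℤ)
  have hPr : ∃ a, Pr a := by
    have hx0F : (x0 : F) ≠ 0 := fun h => hx00 (Subtype.ext h)
    obtain ⟨a, ha⟩ := exists_zpow_eq V hK hw hx0F
    have ha0 := hnonneg x0 a ha
    refine ⟨a.toNat, x0, hx0I, hx00, ?_⟩
    rw [Int.toNat_of_nonneg ha0]
    exact ha
  obtain ⟨x1, hx1I, hx10, hx1⟩ := Nat.find_spec hPr
  refine ⟨⟨x1, le_antisymm ?_ ?_⟩⟩
  · intro y hy
    rw [Submodule.mem_span_singleton]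
    rcases eq_or_ne y 0 with rfl | hy0
    · exact ⟨0, by simp⟩
    have hyF : (y : F) ≠ 0 := fun h => hy0 (Subtype.ext h)
    obtain ⟨a, ha⟩ := exists_zpow_eq V hK hw hyF
    have ha0 := hnonneg y a ha
    have hPra : Pr a.toNat := ⟨y, hy, hy0, by rw [Int.toNat_of_nonneg ha0]; exact ha⟩
    have hmin : Nat.find hPr ≤ a.toNat := Nat.find_min' hPr hPra
    have hle : ((Nat.find hPr : ℕ) : ℤ) ≤ a := by
      have : ((Nat.find hPr : ℕ) : ℤ) ≤ (a.toNat : ℤ) := by exact_mod_cast hmin
      rwa [Int.toNat_of_nonneg ha0] at this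
    have hval : V.valuation (y : F) ^ N ≤ V.valuation (x1 : F) ^ N := by
      rw [ha, hx1]
      exact (zpow_le_zpow_iff_right_of_lt_one₀ hg0 hg1).mpr hle
    have hval' : V.valuation (y : F) ≤ V.valuation (x1 : F) :=
      (pow_le_pow_iff_left₀ zero_le zero_le hN0).mp hval
    obtain ⟨c, hc⟩ := (V.valuation_le_iff _ _).mp hval'
    exact ⟨c, Subtype.ext (by simpa [smul_eq_mul] using hc)⟩
  · rw [Submodule.span_singleton_le_iff_mem]
    exact hx1I

end PID

section Existence

variable {K F : Type*} [Field K] [Field F] [Algebra K F]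

/-- Chevalley: a transcendental element is a nonunit of some valuation subring containing `K`. -/
theorem exists_valuationSubring_nonunit {w : F} (hw : Transcendental K w) :
    ∃ V : ValuationSubring F, (∀ a : K, algebraMap K F a ∈ V) ∧ w ∈ V.nonunits := by
  let A : Subring F := (Algebra.adjoin K {w}).toSubring
  have hwA : w ∈ A := Algebra.self_mem_adjoin_singleton K w
  let wA : A := ⟨w, hwA⟩
  have hnu : ¬ IsUnit wA := by
    intro hu
    obtain ⟨u, hu⟩ := isUnit_iff_exists_inv.mp hu
    have huA : (u : F) ∈ Algebra.adjoin K {w} := u.2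
    rw [Algebra.adjoin_singleton_eq_range_aeval] at huA
    obtain ⟨p, hp⟩ := huA
    have h1 : w * (u : F) = 1 := congrArg Subtype.val hu
    have hp' : aeval w p = (u : F) := hp
    have h2 : aeval w (X * p - 1) = 0 := by
      rw [map_sub, map_mul, aeval_X, map_one, hp', h1, sub_self]
    have h3 := (transcendental_iff.mp hw) _ h2
    have h4 := congrArg (fun f => Polynomial.coeff f 0) h3
    simp at h4
  have hI : Ideal.span {wA} ≠ ⊤ := fun h => hnu (Ideal.span_singleton_eq_top.mp h)
  obtain ⟨B, hAB, hsub⟩ := Ideal.image_subset_nonunits_valuationSubring (Ideal.span {wA}) hI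
  refine ⟨B, fun a => hAB ?_, ?_⟩
  · exact (Algebra.adjoin K {w}).algebraMap_mem a
  · exact hsub ⟨wA, Ideal.subset_span rfl, rfl⟩

/-- **Every valuation subring `≠ ⊤` containing `K` is a PID** (any characteristic, no separability).
-/
theorem isPrincipalIdealRing_of_valuationSubring
    (hfin : ∀ x : F, Transcendental K x → FiniteDimensional K⟮x⟯ F) (V : ValuationSubring F)
    (hK : ∀ a : K, algebraMap K F a ∈ V) (hV : V ≠ ⊤) : IsPrincipalIdealRing V := by
  -- pick `x ∉ V`; then `w = x⁻¹` is a nonzero nonunit, and it is transcendental over `K`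
  obtain ⟨x, hx⟩ : ∃ x : F, x ∉ V := by
    by_contra hcon
    push Not at hcon
    exact hV (eq_top_iff.mpr fun y _ => hcon y)
  have hx0 : x ≠ 0 := fun h => hx (h ▸ V.zero_mem)
  have hw0 : x⁻¹ ≠ 0 := inv_ne_zero hx0
  have hw : x⁻¹ ∈ V.nonunits := by
    rw [V.mem_nonunits_iff_or, inv_inv]
    exact Or.inr hx
  have htr : Transcendental K x⁻¹ := by
    intro halg
    -- an algebraic element is integral over `K ⊆ V`, hence in `V`; same for its inverse
    have halg' : IsAlgebraic K x := by
      have := halg.inv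
      rwa [inv_inv] at this
    have hint : IsIntegral K x := halg'.isIntegral
    obtain ⟨p, hp, hpx⟩ := hint
    let ι : K →+* V := (algebraMap K F).codRestrict V.toSubring hK
    have hintV : IsIntegral V x := by
      refine ⟨p.map ι, hp.map ι, ?_⟩
      rw [Polynomial.eval₂_map]
      exact hpx
    obtain ⟨y, hy⟩ := IsIntegrallyClosed.algebraMap_eq_of_integral (R := V) (K := F) hintV
    exact hx (hy ▸ y.2)
  have := hfin _ htr
  exact isPrincipalIdealRing_of_nonunit V hK hw0 hw

/-- **Every transcendental element has a zero.** -/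
theorem exists_place_ord_pos
    (hfin : ∀ x : F, Transcendental K x → FiniteDimensional K⟮x⟯ F) (u : F)
    (hu : Transcendental K u) : ∃ P : Place K F, 0 < P.ord u := by
  obtain ⟨V, hK, hnu⟩ := exists_valuationSubring_nonunit hu
  have hu0 : u ≠ 0 := fun h => hu (h ▸ isAlgebraic_zero)
  have hV : V ≠ ⊤ := by
    rintro rfl
    rcases (ValuationSubring.mem_nonunits_iff_or _).mp hnu with h | h
    · exact hu0 h
    · exact h (ValuationSubring.mem_top _)
  have := hfin u hu
  have hpid : IsPrincipalIdealRing V := isPrincipalIdealRing_of_nonunit V hK hu0 hnu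
  let P : Place K F := ⟨V, hK, hV, hpid⟩
  refine ⟨P, ?_⟩
  have huV : u ∈ V := V.nonunits_subset hnu
  have h1 : (⟨u, huV⟩ : P.toValuationSubring) ≠ 0 := fun h => hu0 (congrArg Subtype.val h)
  have h2 := (Fermat.Agent.S24.PlaceLocal.ord_pos_iff_mem_maximalIdeal P h1).mpr
    (ValuationSubring.coe_mem_nonunits_iff.mp hnu)
  exact h2

/-- **Every transcendental element has a pole.** -/
theorem exists_place_ord_neg
    (hfin : ∀ x : F, Transcendental K x → FiniteDimensional K⟮x⟯ F) (u : F)
    (hu : Transcendental K u) : ∃ P : Place K F, P.ord u < 0 := by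
  have hu' : Transcendental K u⁻¹ := by
    intro h
    apply hu
    have := h.inv
    rwa [inv_inv] at this
  obtain ⟨P, hP⟩ := exists_place_ord_pos hfin u⁻¹ hu'
  refine ⟨P, ?_⟩
  rw [Place.ord_inv] at hP
  omega

/-- **An element without poles is constant** (`K` algebraically closed in `F`). -/
theorem mem_range_of_forall_ord_nonneg
    (hfin : ∀ x : F, Transcendental K x → FiniteDimensional K⟮x⟯ F)
    (hK : ∀ y : F, IsAlgebraic K y → y ∈ (algebraMap K F).range) (y : F)
    (h : ∀ P : Place K F, 0 ≤ P.ord y) : y ∈ (algebraMap K F).range := by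
  by_contra hy
  have htr : Transcendental K y := fun halg => hy (hK y halg)
  obtain ⟨P, hP⟩ := exists_place_ord_neg hfin y htr
  exact absurd (h P) (not_le.mpr hP)

/-- **An element without zeros and poles is constant.** -/
theorem mem_range_of_forall_ord_eq_zero
    (hfin : ∀ x : F, Transcendental K x → FiniteDimensional K⟮x⟯ F)
    (hK : ∀ y : F, IsAlgebraic K y → y ∈ (algebraMap K F).range) (y : F)
    (h : ∀ P : Place K F, P.ord y = 0) : y ∈ (algebraMap K F).range :=
  mem_range_of_forall_ord_nonneg hfin hK y fun P => (h P).ge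

/-- For `K` algebraically closed, algebraic elements of any field extension are constants. -/
theorem mem_range_of_isAlgebraic [IsAlgClosed K] (y : F) (hy : IsAlgebraic K y) :
    y ∈ (algebraMap K F).range := by
  have hint : IsIntegral K y := hy.isIntegral
  have hdeg := IsAlgClosed.degree_eq_one_of_irreducible K (minpoly.irreducible hint)
  exact minpoly.mem_range_of_degree_eq_one K y hdeg

end Existence

section Exchange

universe u v

variable {K : Type v} {F : Type u} [Field K] [Field F] [Algebra K F]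

open scoped IntermediateField.algebraAdjoinAdjoin in
/-- `F` algebraic over `K(t)` and `x` transcendental over `K` ⟹ `F` algebraic over `K(x)`. -/
theorem isAlgebraic_adjoin_simple_of_transcendental (t : F) [Algebra.IsAlgebraic K⟮t⟯ F]
    {x : F} (hx : Transcendental K x) : Algebra.IsAlgebraic K⟮x⟯ F := by
  have h1 : Algebra.IsAlgebraic (Algebra.adjoin K ({t} : Set F)) F :=
    (IsFractionRing.comap_isAlgebraic_iff (A := Algebra.adjoin K ({t} : Set F)) (K := K⟮t⟯)
      (C := F)).mpr inferInstance
  have h2 : Algebra.trdeg K F ≤ 1 := by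
    have := Algebra.IsAlgebraic.trdeg_le_cardinalMk K ({t} : Set F)
    rwa [Cardinal.mk_singleton] at this
  have h3 : AlgebraicIndependent K (fun _ : PUnit.{u + 1} => x) :=
    algebraicIndependent_unique_type_iff.mpr hx
  have h4 : IsTranscendenceBasis K (fun _ : PUnit.{u + 1} => x) :=
    h3.isTranscendenceBasis_of_trdeg_le_of_finite (by simpa using h2)
  have h5 := h4.isAlgebraic_field
  have h6 : Set.range (fun _ : PUnit.{u + 1} => x) = {x} := by
    ext y; simp [eq_comm]
  rwa [h6] at h5

/-- **Exchange**: `F` finite over `K(t)` and `x` transcendental over `K` ⟹ `F` finite over `K(x)`.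
-/
theorem finiteDimensional_adjoin_simple_of_transcendental (t : F) [FiniteDimensional K⟮t⟯ F]
    {x : F} (hx : Transcendental K x) : FiniteDimensional K⟮x⟯ F := by
  classical
  have : Algebra.IsAlgebraic K⟮x⟯ F := isAlgebraic_adjoin_simple_of_transcendental t hx
  let b := Module.finBasis K⟮t⟯ F
  let S : Set F := insert t (Set.range b)
  have : Finite S := Set.Finite.to_subtype ((Set.finite_range b).insert t)
  have hfd : FiniteDimensional K⟮x⟯ (adjoin K⟮x⟯ S) :=
    finiteDimensional_adjoin fun y _ => Algebra.IsIntegral.isIntegral y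
  have htop : adjoin K⟮x⟯ S = ⊤ := by
    rw [eq_top_iff]
    intro y _
    have ht : t ∈ adjoin K⟮x⟯ S := subset_adjoin _ _ (Set.mem_insert _ _)
    have hle : K⟮t⟯ ≤ (adjoin K⟮x⟯ S).restrictScalars K :=
      adjoin_simple_le_iff.mpr ht
    rw [← b.sum_repr y]
    refine sum_mem fun i _ => ?_
    rw [Algebra.smul_def]
    refine mul_mem (hle (b.repr y i).2) (subset_adjoin _ _ (Set.mem_insert_of_mem _ ⟨i, rfl⟩))
  rw [htop] at hfd
  exact Module.Finite.equiv (IntermediateField.topEquiv (F := K⟮x⟯) (E := F)).toLinearEquiv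

/-- One finite transcendental generator suffices for the hypothesis `hfin`. -/
theorem hfin_of_finiteDimensional (t : F) [FiniteDimensional K⟮t⟯ F] :
    ∀ x : F, Transcendental K x → FiniteDimensional K⟮x⟯ F :=
  fun _ hx => finiteDimensional_adjoin_simple_of_transcendental t hx

end Exchange

section Relrank

variable {K L : Type*} [Field K] [Field L] [Algebra K L]

/-- pulling `K(t)` back to an intermediate field containing `t` -/
theorem comap_val_adjoin_simple (B : IntermediateField K L) {t : L} (ht : t ∈ B) :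
    (K⟮t⟯).comap B.val = K⟮(⟨t, ht⟩ : B)⟯ := by
  apply le_antisymm
  · intro y hy
    have hy' : (y : L) ∈ K⟮t⟯ := hy
    obtain ⟨r, s, hrs⟩ := (IntermediateField.mem_adjoin_simple_iff K (y : L)).mp hy'
    rw [IntermediateField.mem_adjoin_simple_iff]
    refine ⟨r, s, Subtype.ext ?_⟩
    have h1 : ∀ p : K[X], ((aeval (⟨t, ht⟩ : B) p : B) : L) = aeval t p := by
      intro p
      have := Polynomial.aeval_algHom_apply B.val (⟨t, ht⟩ : B) p
      simpa using this.symm
    rw [hrs]
    push_cast
    rw [h1, h1]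
  · rw [adjoin_simple_le_iff]
    show ((⟨t, ht⟩ : B) : L) ∈ K⟮t⟯
    exact mem_adjoin_simple_self K t

/-- finiteness in the `relrank` shape of `S28.KEY0` gives finiteness over `K(t)` inside `B`. -/
theorem finiteDimensional_of_relrank_lt (B : IntermediateField K L) {t : L} (ht : t ∈ B)
    (h : (K⟮t⟯).relrank B < Cardinal.aleph0) :
    FiniteDimensional K⟮(⟨t, ht⟩ : B)⟯ B := by
  have h1 := IntermediateField.rank_comap (K⟮t⟯) B.val
  rw [IntermediateField.fieldRange_val, comap_val_adjoin_simple B ht] at h1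
  rw [← h1] at h
  exact Module.rank_lt_aleph0_iff.mp h

end Relrank

end Fermat.Agent.S18.FFConst19
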