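/-
S18 moonshot, package [FF]-CONST (helper58): existence of places and "pole-free ⇒ constant",
CHARACTERISTIC-FREE and SEPARABILITY-FREE, on the Prelude `AlgebraicCurve.Place` API.

Setting: `K` a field, `F/K` a field extension with
  `hfin : ∀ x : F, Transcendental K x → FiniteDimensional K⟮x⟯ F`
(a function field in one variable).  Exports:

* `isPrincipalIdealRing_of_valuationSubring` (Stichtenoth 1.1.6): every valuation subring of `F`
  containing `K` is a PID.  Proof: `dim_K V/xV ≤ [F : K(x)]` (elements independent modulo `xV` are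
  independent over `K(x)`), so `V/xV` is Noetherian, so `V` is Noetherian, and Noetherian Bezout
  domains are PIDs.  No Dedekind domains, no integral closures, no separability.
* `exists_valuationSubring_nonunit` (Chevalley, via Mathlib's `LocalSubring` API).
* `exists_place_ord_pos`, `exists_place_ord_neg` (Stichtenoth 1.1.19/1.1.20): a transcendental
  element has a zero and a pole.
* `mem_range_of_forall_ord_nonneg`, `mem_range_of_forall_ord_eq_zero` (+ `_of_isAlgClosed`):
  pole-free ⇒ constant, trivial divisor ⇒ constant.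
* `finiteDimensional_adjoin_of_transcendental`: a field essentially of finite type over `K` and
  algebraic over `K(t)` satisfies `hfin`.
-/
import Mathlib
import Fermat.Agent.S24.FF.PlaceBasic

set_option autoImplicit false
set_option linter.style.haveILetI false

namespace Fermat.Agent.S18.FFConst58

open AlgebraicCurve IntermediateField Polynomial

universe u v

variable {K : Type u} {F : Type v} [Field K] [Field F] [Algebra K F]

/-! ### Independence modulo `x V` gives independence over `K(x)` -/

/-- A nontrivial polynomial relation `∑ φ_i(x) y_i = 0` (`x ≠ 0`) can be divided by a power of `x`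
so that some constant coefficient is nonzero. -/
theorem exists_primitive_relation {ι : Type*} [Fintype ι] (x : F) (hx : x ≠ 0) (y : ι → F) :
    ∀ (n : ℕ) (φ : ι → K[X]), (∀ i, (φ i).natDegree ≤ n) → (∃ i, φ i ≠ 0) →
      ∑ i, aeval x (φ i) * y i = 0 →
      ∃ ψ : ι → K[X], (∃ i, (ψ i).coeff 0 ≠ 0) ∧ ∑ i, aeval x (ψ i) * y i = 0 := by
  intro n
  induction n with
  | zero =>
    intro φ hdeg ⟨i, hi⟩ hrel
    refine ⟨φ, ⟨i, ?_⟩, hrel⟩
    intro h0
    apply hi
    have := Polynomial.eq_C_of_natDegree_le_zero (hdeg i)
    rw [this, h0, map_zero]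
  | succ n ih =>
    intro φ hdeg ⟨i, hi⟩ hrel
    by_cases hc : ∃ i, (φ i).coeff 0 ≠ 0
    · exact ⟨φ, hc, hrel⟩
    · simp only [not_exists, not_not] at hc
      have hφ : ∀ i, φ i = (φ i).divX * X := by
        intro i
        have h := Polynomial.divX_mul_X_add (φ i)
        rw [hc i, map_zero, add_zero] at h
        exact h.symm
      apply ih (fun i => (φ i).divX)
      · intro i
        rw [Polynomial.natDegree_divX_eq_natDegree_tsub_one]
        have := hdeg i
        omega
      · refine ⟨i, ?_⟩
        intro h0
        apply hi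
        rw [hφ i, h0, zero_mul]
      · have h1 : x * ∑ i, aeval x ((φ i).divX) * y i = 0 := by
          rw [Finset.mul_sum, ← hrel]
          refine Finset.sum_congr rfl fun i _ => ?_
          conv_rhs => rw [hφ i]
          rw [map_mul, aeval_X]
          ring
        exact (mul_eq_zero.mp h1).resolve_left hx

theorem aeval_mem (V : ValuationSubring F) (hK : ∀ a : K, algebraMap K F a ∈ V) {x : F}
    (hx : x ∈ V) (p : K[X]) : aeval x p ∈ V := by
  induction p using Polynomial.induction_on' with
  | add p q hp hq => rw [map_add]; exact V.add_mem _ _ hp hq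
  | monomial n a =>
    rw [aeval_monomial]
    exact V.mul_mem _ _ (hK a) (pow_mem hx n)

open scoped IntermediateField.algebraAdjoinAdjoin in
/-- Elements of `V` which are `K`-linearly independent modulo `x V` are linearly independent over
`K(x)`. -/
theorem linearIndependent_adjoin (V : ValuationSubring F) (hK : ∀ a : K, algebraMap K F a ∈ V)
    {x : F} (hx0 : x ≠ 0) (hxV : x ∈ V) {ι : Type*} [Fintype ι] (y : ι → F)
    (hyV : ∀ i, y i ∈ V)
    (hind : ∀ a : ι → K, (∃ z ∈ V, ∑ i, algebraMap K F (a i) * y i = x * z) → ∀ i, a i = 0) :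
    LinearIndependent K⟮x⟯ y := by
  classical
  rw [← LinearIndependent.iff_fractionRing (Algebra.adjoin K {x}) K⟮x⟯]
  rw [Fintype.linearIndependent_iff]
  intro g hg
  by_contra hne
  simp only [not_forall] at hne
  obtain ⟨i₀, hi₀⟩ := hne
  have hpoly : ∀ i, ∃ φ : K[X], aeval x φ = (g i : F) := by
    intro i
    have h : (g i : F) ∈ (aeval x : K[X] →ₐ[K] F).range := by
      rw [← Algebra.adjoin_singleton_eq_range_aeval]
      exact (g i).2
    exact h
  choose φ hφ using hpoly
  have hφ0 : φ i₀ ≠ 0 := by
    intro h0
    apply hi₀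
    apply Subtype.ext
    rw [← hφ i₀, h0, map_zero]
    rfl
  have hrel : ∑ i, aeval x (φ i) * y i = 0 := by
    rw [← hg]
    refine Finset.sum_congr rfl fun i _ => ?_
    rw [hφ i]
    rfl
  obtain ⟨ψ, ⟨i₁, hi₁⟩, hψ⟩ := exists_primitive_relation x hx0 y
    (Finset.univ.sup fun i => (φ i).natDegree) φ
    (fun i => Finset.le_sup (f := fun i => (φ i).natDegree) (Finset.mem_univ i)) ⟨i₀, hφ0⟩ hrel
  have hzero := hind (fun i => (ψ i).coeff 0) ⟨-∑ i, aeval x ((ψ i).divX) * y i, ?_, ?_⟩ i₁
  · exact hi₁ hzero
  · apply V.neg_mem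
    apply sum_mem
    intro i _
    exact V.mul_mem _ _ (aeval_mem V hK hxV _) (hyV i)
  · rw [mul_neg, Finset.mul_sum, eq_neg_iff_add_eq_zero, ← Finset.sum_add_distrib, ← hψ]
    refine Finset.sum_congr rfl fun i _ => ?_
    conv_rhs => rw [← Polynomial.divX_mul_X_add (ψ i)]
    rw [map_add, map_mul, aeval_X, aeval_C]
    ring

/-! ### Non-units are transcendental -/

/-- an element integral over `K` lies in every valuation subring containing `K` -/
theorem mem_of_isIntegral (V : ValuationSubring F) (hK : ∀ a : K, algebraMap K F a ∈ V) {b : F}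
    (hb : IsIntegral K b) : b ∈ V := by
  obtain ⟨p, hp, hpb⟩ := hb
  let ι : K →+* V := (algebraMap K F).codRestrict V.toSubring hK
  have hint : IsIntegral V b := by
    refine ⟨p.map ι, hp.map ι, ?_⟩
    rw [Polynomial.eval₂_map]
    exact hpb
  obtain ⟨y, hy⟩ := IsIntegrallyClosed.algebraMap_eq_of_integral (R := V) (K := F) hint
  rw [← hy]
  exact y.2

/-- a nonzero non-unit of a valuation subring containing `K` is transcendental over `K` -/
theorem transcendental_of_inv_not_mem (V : ValuationSubring F)
    (hK : ∀ a : K, algebraMap K F a ∈ V) {x : F} (hx : x⁻¹ ∉ V) : Transcendental K x := by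
  intro halg
  exact hx (mem_of_isIntegral V hK (isAlgebraic_iff_isIntegral.mp halg.inv))

/-! ### `V / x V` is finite-dimensional over `K`; `V` is a PID -/

section Quot

variable (V : ValuationSubring F) (hK : ∀ a : K, algebraMap K F a ∈ V)

/-- the `K`-algebra structure of a valuation subring containing `K` -/
@[reducible] def algebraOfMem : Algebra K V :=
  ((algebraMap K F).codRestrict V.toSubring hK).toAlgebra

theorem finite_quotient_span {x : F} (hx0 : x ≠ 0) (hxV : x ∈ V) [FiniteDimensional K⟮x⟯ F] :
    letI := algebraOfMem V hK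
    Module.Finite K (V ⧸ Ideal.span {(⟨x, hxV⟩ : V)}) := by
  letI := algebraOfMem V hK
  classical
  set I : Ideal V := Ideal.span {(⟨x, hxV⟩ : V)} with hI
  have hcoe : ∀ a : K, ((algebraMap K V a : V) : F) = algebraMap K F a := fun a => rfl
  have hrank : Module.rank K (V ⧸ I) ≤ (Module.finrank K⟮x⟯ F : ℕ) := by
    apply rank_le
    intro s hs
    choose lift hlift using (Ideal.Quotient.mk_surjective (I := I))
    have hli : LinearIndependent K⟮x⟯ (fun i : s => ((lift i.1 : V) : F)) := by
      apply linearIndependent_adjoin V hK hx0 hxV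
      · intro i; exact (lift i.1).2
      · intro a ⟨z, hz, hsum⟩
        have h1 : (∑ i : s, a i • lift i.1 : V) = (⟨x, hxV⟩ : V) * ⟨z, hz⟩ := by
          apply Subtype.ext
          rw [MulMemClass.coe_mul, ← hsum]
          rw [AddSubmonoidClass.coe_finsetSum]
          refine Finset.sum_congr rfl fun i _ => ?_
          rw [Algebra.smul_def, MulMemClass.coe_mul, hcoe]
        have h2 : (Ideal.Quotient.mk I) (∑ i : s, a i • lift i.1 : V) = 0 := by
          rw [h1, Ideal.Quotient.eq_zero_iff_mem]
          exact Ideal.mul_mem_right _ _ (Ideal.subset_span rfl)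
        rw [map_sum] at h2
        have h3 : ∑ i : s, a i • (i : V ⧸ I) = 0 := by
          rw [← h2]
          refine Finset.sum_congr rfl fun i _ => ?_
          have h4 : (Ideal.Quotient.mk I) (a i • lift i.1) =
              a i • (Ideal.Quotient.mk I) (lift i.1) := rfl
          rw [h4, hlift]
        exact Fintype.linearIndependent_iff.mp hs a h3
    have := hli.fintype_card_le_finrank
    simpa using this
  exact Module.rank_lt_aleph0_iff.mp (hrank.trans_lt (Cardinal.natCast_lt_aleph0))

/-- **Stichtenoth 1.1.6**, char-free and separability-free: in a field `F/K` which is finite over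
`K(x)` for every transcendental `x`, every valuation subring containing `K` is a PID. -/
theorem isPrincipalIdealRing_of_valuationSubring
    (hfin : ∀ x : F, Transcendental K x → FiniteDimensional K⟮x⟯ F)
    (V : ValuationSubring F) (hK : ∀ a : K, algebraMap K F a ∈ V) :
    IsPrincipalIdealRing V := by
  letI := algebraOfMem V hK
  have hnoeth : IsNoetherianRing V := by
    rw [isNoetherianRing_iff, isNoetherian_def]
    intro I
    by_cases hbot : I = ⊥
    · rw [hbot]; exact Submodule.fg_bot
    by_cases htop : I = ⊤
    · rw [htop]; exact ⟨{1}, by simp⟩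
    obtain ⟨x, hxI, hx0⟩ := Submodule.exists_mem_ne_zero_of_ne_bot hbot
    have hxnu : ¬ IsUnit x := fun h => htop (Ideal.eq_top_of_isUnit_mem _ hxI h)
    have hxF0 : (x : F) ≠ 0 := fun h => hx0 (Subtype.ext h)
    have hxinv : (x : F)⁻¹ ∉ V := by
      intro hmem
      apply hxnu
      refine IsUnit.of_mul_eq_one (⟨(x : F)⁻¹, hmem⟩ : V) ?_
      apply Subtype.ext
      show (x : F) * (x : F)⁻¹ = 1
      exact mul_inv_cancel₀ hxF0
    have htr : Transcendental K (x : F) := transcendental_of_inv_not_mem V hK hxinv
    haveI := hfin (x : F) htr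
    have hfinq : Module.Finite K (V ⧸ Ideal.span {x}) :=
      finite_quotient_span V hK hxF0 x.2
    set J : Ideal V := Ideal.span {x} with hJ
    have hJI : J ≤ I := (Ideal.span_singleton_le_iff_mem I).mpr hxI
    haveI : IsNoetherian K (V ⧸ J) := inferInstance
    haveI : IsNoetherian V (V ⧸ J) := isNoetherian_of_tower K inferInstance
    apply Submodule.fg_of_fg_map_of_fg_inf_ker J.mkQ
    · exact IsNoetherian.noetherian _
    · rw [Submodule.ker_mkQ, inf_eq_right.mpr hJI]
      exact ⟨{x}, by simp [hJ]⟩
  exact ((IsBezout.TFAE (R := V)).out 0 1).mp hnoeth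

end Quot

/-! ### Chevalley: existence of places -/

/-- **Chevalley**: a transcendental element lies in the maximal ideal of some valuation subring
containing `K`. -/
theorem exists_valuationSubring_nonunit (u : F) (hu : Transcendental K u) :
    ∃ V : ValuationSubring F, (∀ a : K, algebraMap K F a ∈ V) ∧ u ∈ V ∧ u⁻¹ ∉ V := by
  classical
  set A : Subring F := (Algebra.adjoin K {u}).toSubring with hA
  have huA : u ∈ A := Algebra.subset_adjoin (Set.mem_singleton u)
  set I : Ideal A := Ideal.span {(⟨u, huA⟩ : A)} with hI
  have hItop : I ≠ ⊤ := by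
    intro htop
    have h1 : (1 : A) ∈ I := by rw [htop]; trivial
    rw [hI, Ideal.mem_span_singleton'] at h1
    obtain ⟨a, ha⟩ := h1
    have ha' : (a : F) * u = 1 := congrArg Subtype.val ha
    have hmem : (a : F) ∈ (aeval u : K[X] →ₐ[K] F).range := by
      rw [← Algebra.adjoin_singleton_eq_range_aeval]
      exact a.2
    obtain ⟨p, hp⟩ := hmem
    have h0 : aeval u (p * X - 1) = 0 := by
      rw [map_sub, map_mul, aeval_X, map_one]
      have : (aeval u) p = (a : F) := hp
      rw [this, ha', sub_self]
    have h2 := (transcendental_iff.mp hu) _ h0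
    have h3 := congrArg (fun q : K[X] => q.coeff 0) h2
    simp at h3
  obtain ⟨B, hAB, hIB⟩ := Ideal.image_subset_nonunits_valuationSubring I hItop
  have huB : u ∈ B.nonunits := hIB ⟨⟨u, huA⟩, Ideal.subset_span rfl, rfl⟩
  have hval : B.valuation u < 1 := (B.mem_nonunits_iff).mp huB
  refine ⟨B, fun a => hAB (Subalgebra.algebraMap_mem _ a), ?_, ?_⟩
  · exact (B.valuation_le_one_iff u).mp hval.le
  · intro hinv
    have h1 : B.valuation u⁻¹ ≤ 1 := (B.valuation_le_one_iff _).mpr hinv
    have hu0 : u ≠ 0 := by
      rintro rfl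
      exact hu (isAlgebraic_zero)
    have h2 : B.valuation u * B.valuation u⁻¹ = 1 := by
      rw [← map_mul, mul_inv_cancel₀ hu0, map_one]
    have h3 : B.valuation u * B.valuation u⁻¹ < 1 := by
      calc B.valuation u * B.valuation u⁻¹ ≤ B.valuation u * 1 := by gcongr
        _ = B.valuation u := mul_one _
        _ < 1 := hval
    rw [h2] at h3
    exact lt_irrefl _ h3

section Places

variable (hfin : ∀ x : F, Transcendental K x → FiniteDimensional K⟮x⟯ F)
include hfin

/-- the place attached to a valuation subring `≠ ⊤` containing `K` -/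
def placeOfValuationSubring (V : ValuationSubring F) (hK : ∀ a : K, algebraMap K F a ∈ V)
    (hV : V ≠ ⊤) : Place K F :=
  ⟨V, hK, hV, isPrincipalIdealRing_of_valuationSubring hfin V hK⟩

/-- **Stichtenoth 1.1.19/1.1.20**: a transcendental element has a zero. -/
theorem exists_place_ord_pos (u : F) (hu : Transcendental K u) :
    ∃ P : Place K F, 0 < P.ord u := by
  obtain ⟨V, hK, huV, hinv⟩ := exists_valuationSubring_nonunit u hu
  have hu0 : u ≠ 0 := by
    rintro rfl
    exact hu isAlgebraic_zero
  have hne : V ≠ ⊤ := by
    intro h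
    apply hinv
    rw [h]
    trivial
  let P : Place K F := placeOfValuationSubring hfin V hK hne
  refine ⟨P, ?_⟩
  have h1 : ¬ 0 ≤ P.ord u⁻¹ := fun h =>
    hinv ((Fermat.Agent.S24.FF.mem_iff_ord_nonneg P (inv_ne_zero hu0)).mpr h)
  rw [P.ord_inv] at h1
  omega

/-- a transcendental element has a pole. -/
theorem exists_place_ord_neg (u : F) (hu : Transcendental K u) :
    ∃ P : Place K F, P.ord u < 0 := by
  have hu' : Transcendental K u⁻¹ := fun h => hu (by simpa using h.inv)
  obtain ⟨P, hP⟩ := exists_place_ord_pos hfin u⁻¹ hu'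
  refine ⟨P, ?_⟩
  rw [P.ord_inv] at hP
  omega

/-- **pole-free ⇒ constant** (`K` algebraically closed in `F`). -/
theorem mem_range_of_forall_ord_nonneg
    (hK : ∀ y : F, IsAlgebraic K y → y ∈ (algebraMap K F).range) (y : F)
    (h : ∀ P : Place K F, 0 ≤ P.ord y) : y ∈ (algebraMap K F).range := by
  by_contra hy
  have htr : Transcendental K y := fun halg => hy (hK y halg)
  obtain ⟨P, hP⟩ := exists_place_ord_neg hfin y htr
  have := h P
  omega

/-- **trivial divisor ⇒ constant**. -/
theorem mem_range_of_forall_ord_eq_zero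
    (hK : ∀ y : F, IsAlgebraic K y → y ∈ (algebraMap K F).range) (y : F)
    (h : ∀ P : Place K F, P.ord y = 0) : y ∈ (algebraMap K F).range :=
  mem_range_of_forall_ord_nonneg hfin hK y fun P => (h P).ge

omit hfin in
theorem mem_range_of_isAlgebraic_of_isAlgClosed [IsAlgClosed K] (z : F) (hz : IsAlgebraic K z) :
    z ∈ (algebraMap K F).range := by
  have hint : IsIntegral K z := isAlgebraic_iff_isIntegral.mp hz
  have hdeg : (minpoly K z).degree = 1 :=
    IsAlgClosed.degree_eq_one_of_irreducible K (minpoly.irreducible hint)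
  exact minpoly.mem_range_of_degree_eq_one K z hdeg

/-- pole-free ⇒ constant, for an algebraically closed constant field -/
theorem mem_range_of_forall_ord_nonneg_of_isAlgClosed [IsAlgClosed K] (y : F)
    (h : ∀ P : Place K F, 0 ≤ P.ord y) : y ∈ (algebraMap K F).range :=
  mem_range_of_forall_ord_nonneg hfin mem_range_of_isAlgebraic_of_isAlgClosed y h

/-- trivial divisor ⇒ constant, for an algebraically closed constant field -/
theorem mem_range_of_forall_ord_eq_zero_of_isAlgClosed [IsAlgClosed K] (y : F)
    (h : ∀ P : Place K F, P.ord y = 0) : y ∈ (algebraMap K F).range :=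
  mem_range_of_forall_ord_eq_zero hfin mem_range_of_isAlgebraic_of_isAlgClosed y h

/-- there is at least one place (as soon as `F ≠ K`-algebraic) -/
theorem nonempty_place (u : F) (hu : Transcendental K u) : Nonempty (Place K F) :=
  let ⟨P, _⟩ := exists_place_ord_pos hfin u hu
  ⟨P⟩

end Places

/-! ### The finiteness hypothesis -/

open scoped IntermediateField.algebraAdjoinAdjoin in
/-- a field essentially of finite type over `K` and algebraic over `K(t)` is finite over `K(x)`
for every transcendental `x`. -/
theorem finiteDimensional_adjoin_of_transcendental [Algebra.EssFiniteType K F]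
    (t : F) [Algebra.IsAlgebraic K⟮t⟯ F] (x : F) (hx : Transcendental K x) :
    FiniteDimensional K⟮x⟯ F := by
  have halg : Algebra.IsAlgebraic (Algebra.adjoin K {t}) F :=
    (IsFractionRing.comap_isAlgebraic_iff (A := Algebra.adjoin K {t}) (K := K⟮t⟯) (C := F)).mpr
      inferInstance
  have htr : Algebra.trdeg K F ≤ 1 := by
    have h := Algebra.IsAlgebraic.trdeg_le_cardinalMk K ({t} : Set F)
    simpa using h
  have hind : AlgebraicIndependent K (fun _ : PUnit.{v + 1} => x) :=
    algebraicIndependent_unique_type_iff.mpr hx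
  have hbasis : IsTranscendenceBasis K (fun _ : PUnit.{v + 1} => x) :=
    hind.isTranscendenceBasis_of_trdeg_le_of_finite (by simpa using htr)
  have halg' := hbasis.isAlgebraic_field
  rw [Set.range_const] at halg'
  haveI : Algebra.IsAlgebraic K⟮x⟯ F := halg'
  haveI : Algebra.EssFiniteType K⟮x⟯ F := Algebra.EssFiniteType.of_comp K K⟮x⟯ F
  exact Algebra.finite_of_essFiniteType_of_isAlgebraic

/-- the same with a finiteness hypothesis over `K(t)` -/
theorem finiteDimensional_adjoin_of_transcendental' (t : F) [FiniteDimensional K⟮t⟯ F] (x : F)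
    (hx : Transcendental K x) : FiniteDimensional K⟮x⟯ F := by
  haveI : Algebra.EssFiniteType K K⟮t⟯ :=
    IntermediateField.essFiniteType_iff.mpr
      (IntermediateField.fg_adjoin_of_finite (Set.finite_singleton t))
  haveI : Algebra.EssFiniteType K F := Algebra.EssFiniteType.comp K K⟮t⟯ F
  exact finiteDimensional_adjoin_of_transcendental t x hx

end Fermat.Agent.S18.FFConst58
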