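/-
S18 moonshot, package [FF]-CONST, instance (helper58): the special-fibre function field
`F̄_N = modularFunctionFieldFullC k N` (`k` algebraically closed of ANY characteristic,
`(N : k) ≠ 0`) satisfies the hypothesis `hfin` of `FFConst58`, hence:

* every valuation subring of `F̄_N` containing `k` is a PID (`isPrincipalIdealRing_fullC`);
* every transcendental element has a zero and a pole (`exists_place_ord_pos_fullC`, `…_neg_…`);
* **an element of `F̄_N` with trivial divisor (or just without poles) is a constant**
  (`mem_range_of_forall_ord_eq_zero_fullC`, `mem_range_of_forall_ord_nonneg_fullC`) — the only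
  statement about Prelude places of a characteristic-`ℓ` field that [NORMALIZE] needs.

No separability, no Dedekind domains: only integrality of the `t_d` over `k(t)` (S28 KEYL
`Input.isIntegral_tq`, from the modular equations) and the abstract file.
-/
import Fermat.Agent.S18.FFConst58
import Fermat.Agent.S28.KeyLowerMain
import Fermat.Agent.S28.ModEq

set_option autoImplicit false
set_option linter.style.haveILetI false
set_option linter.unusedSectionVars false
set_option synthInstance.maxHeartbeats 400000
set_option maxHeartbeats 1000000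

namespace Fermat.Agent.S18.FFConstInst58

open AlgebraicCurve IntermediateField ModularCurve HahnSeries
open Fermat.Agent.S28 Fermat.Agent.S28.KeyLowerBasic Fermat.Agent.S28.KeyLower
open Fermat.Agent.S18.FFConst58

noncomputable section

variable (k : Type) [Field k] (N : ℕ) [NeZero N]

/-- the function field `F̄_N`, as a type -/
abbrev Fb : Type := ↥(modularFunctionFieldFullC k N)

/-- `t_d` as an element of `F̄_N` -/
def tqF (d : ℕ) (hd : d ∣ N) : Fb k N := ⟨tq k d, tq_mem_fullC k hd⟩

/-- `t = t_1` as an element of `F̄_N` -/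
def tF : Fb k N := ⟨jqModC k, jqModC_mem_full k N⟩

theorem coe_tF : ((tF k N : Fb k N) : LaurentSeries k) = tq k 1 := (tq_one k).symm

/-- the generators -/
def gens : Set (Fb k N) := {y | ∃ d, d ∣ N ∧ (y : LaurentSeries k) = tq k d}

theorem finite_divisors_set : {d : ℕ | d ∣ N}.Finite := by
  refine (Finset.finite_toSet (Nat.divisors N)).subset ?_
  intro d hd
  exact Finset.mem_coe.mpr (Nat.mem_divisors.mpr ⟨hd, NeZero.ne N⟩)

theorem val_image_gens :
    (Subtype.val '' gens k N : Set (LaurentSeries k)) = (fun d => tq k d) '' {d | d ∣ N} := by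
  ext x
  constructor
  · rintro ⟨y, ⟨d, hd, hy⟩, rfl⟩
    exact ⟨d, hd, hy.symm⟩
  · rintro ⟨d, hd, rfl⟩
    exact ⟨tqF k N d hd, ⟨d, hd, rfl⟩, rfl⟩

theorem adjoin_gens : adjoin k (gens k N) = ⊤ := by
  apply IntermediateField.lift_injective (modularFunctionFieldFullC k N)
  rw [IntermediateField.lift_adjoin, IntermediateField.lift_top, val_image_gens,
    ← fullC_eq_adjoin]

theorem fg_fullC : (modularFunctionFieldFullC k N).FG := by
  rw [fullC_eq_adjoin]
  exact IntermediateField.fg_adjoin_of_finite ((finite_divisors_set N).image _)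

instance essFiniteType_fullC : Algebra.EssFiniteType k (Fb k N) :=
  IntermediateField.essFiniteType_iff.mpr (fg_fullC k N)

variable [IsAlgClosed k]

/-- every generator is integral over `k(t)` (inside `F̄_N`) -/
theorem isIntegral_gen (hN : (N : k) ≠ 0) {y : Fb k N} (hy : y ∈ gens k N) :
    IsIntegral k⟮tF k N⟯ y := by
  obtain ⟨d, hd, hyd⟩ := hy
  have hd0 : 0 < d := Nat.pos_of_ne_zero (by
    rintro rfl
    exact NeZero.ne N (zero_dvd_iff.mp hd))
  have hdk : (d : k) ≠ 0 := by
    intro h0
    obtain ⟨c, rfl⟩ := hd
    apply hN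
    push_cast
    rw [h0, zero_mul]
  set A' : IntermediateField k (Fb k N) := k⟮tF k N⟯ with hA'
  -- integrality over `lift A'` in the Laurent series field (S28 KEYL)
  have hmem : tq k 1 ∈ IntermediateField.lift A' := by
    rw [← coe_tF k N]
    exact (IntermediateField.mem_lift (tF k N)).mpr (mem_adjoin_simple_self k (tF k N))
  have hint : IsIntegral (IntermediateField.lift A') (tq k d) :=
    (inputOf k modEqStatement).isIntegral_tq (IntermediateField.lift A') hmem d hd0 hdk
  -- transport along `lift A' ≃ A'`
  have h1 : IsIntegral A' (tq k d) := by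
    have := IsIntegral.map_of_comp_eq (R := IntermediateField.lift A') (S := LaurentSeries k)
      (T := A') (U := LaurentSeries k)
      ((IntermediateField.liftAlgEquiv A').symm : IntermediateField.lift A' →+* A')
      (RingHom.id (LaurentSeries k)) ?_ hint
    · simpa using this
    · refine RingHom.ext fun a => ?_
      obtain ⟨b, rfl⟩ := (IntermediateField.liftAlgEquiv A').surjective a
      simp only [RingHom.coe_comp, RingHom.coe_coe, Function.comp_apply,
        AlgEquiv.symm_apply_apply, RingHom.id_comp]
      exact (IntermediateField.liftAlgEquiv_apply A' b).symm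
  have h2 : (algebraMap (Fb k N) (LaurentSeries k)) y = tq k d := hyd
  rw [← h2] at h1
  exact (isIntegral_algebraMap_iff (algebraMap (Fb k N) (LaurentSeries k)).injective).mp h1

/-- `F̄_N` is algebraic over `k(t)`. -/
theorem isAlgebraic_fullC (hN : (N : k) ≠ 0) : Algebra.IsAlgebraic k⟮tF k N⟯ (Fb k N) := by
  set A' : IntermediateField k (Fb k N) := k⟮tF k N⟯ with hA'
  have hle : adjoin k (gens k N) ≤ (algebraicClosure A' (Fb k N)).restrictScalars k := by
    rw [IntermediateField.adjoin_le_iff]
    intro y hy
    exact mem_algebraicClosure_iff.mpr (isIntegral_gen k N hN hy).isAlgebraic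
  rw [adjoin_gens] at hle
  refine ⟨fun y => ?_⟩
  exact mem_algebraicClosure_iff.mp (hle (IntermediateField.mem_top (x := y)))

/-- **the finiteness hypothesis `hfin` for `F̄_N`** -/
theorem hfin_fullC (hN : (N : k) ≠ 0) (x : Fb k N) (hx : Transcendental k x) :
    FiniteDimensional k⟮x⟯ (Fb k N) := by
  haveI := isAlgebraic_fullC k N hN
  exact finiteDimensional_adjoin_of_transcendental (tF k N) x hx

/-- every valuation subring of `F̄_N` containing `k` is a PID -/
theorem isPrincipalIdealRing_fullC (hN : (N : k) ≠ 0) (V : ValuationSubring (Fb k N))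
    (hK : ∀ a : k, algebraMap k (Fb k N) a ∈ V) : IsPrincipalIdealRing V :=
  isPrincipalIdealRing_of_valuationSubring (hfin_fullC k N hN) V hK

/-- a transcendental element of `F̄_N` has a zero -/
theorem exists_place_ord_pos_fullC (hN : (N : k) ≠ 0) (u : Fb k N) (hu : Transcendental k u) :
    ∃ P : Place k (Fb k N), 0 < P.ord u :=
  exists_place_ord_pos (hfin_fullC k N hN) u hu

/-- a transcendental element of `F̄_N` has a pole -/
theorem exists_place_ord_neg_fullC (hN : (N : k) ≠ 0) (u : Fb k N) (hu : Transcendental k u) :
    ∃ P : Place k (Fb k N), P.ord u < 0 :=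
  exists_place_ord_neg (hfin_fullC k N hN) u hu

/-- **pole-free ⇒ constant** in `F̄_N` -/
theorem mem_range_of_forall_ord_nonneg_fullC (hN : (N : k) ≠ 0) (y : Fb k N)
    (h : ∀ P : Place k (Fb k N), 0 ≤ P.ord y) : y ∈ (algebraMap k (Fb k N)).range :=
  mem_range_of_forall_ord_nonneg_of_isAlgClosed (hfin_fullC k N hN) y h

/-- **trivial divisor ⇒ constant** in `F̄_N` -/
theorem mem_range_of_forall_ord_eq_zero_fullC (hN : (N : k) ≠ 0) (y : Fb k N)
    (h : ∀ P : Place k (Fb k N), P.ord y = 0) : y ∈ (algebraMap k (Fb k N)).range :=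
  mem_range_of_forall_ord_eq_zero_of_isAlgClosed (hfin_fullC k N hN) y h

/-- the same, in terms of Laurent series: the element is a constant series -/
theorem exists_eq_C_of_forall_ord_eq_zero (hN : (N : k) ≠ 0) (y : Fb k N)
    (h : ∀ P : Place k (Fb k N), P.ord y = 0) :
    ∃ c : k, (y : LaurentSeries k) = HahnSeries.C c := by
  obtain ⟨c, hc⟩ := mem_range_of_forall_ord_eq_zero_fullC k N hN y h
  refine ⟨c, ?_⟩
  rw [← hc, HahnSeries.C_apply, ← algebraMap_laurentSeries_eq_single]
  rfl

/-- `F̄_N` has at least one place -/
theorem nonempty_place_fullC (hN : (N : k) ≠ 0) : Nonempty (Place k (Fb k N)) := by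
  by_contra hne
  rw [not_nonempty_iff] at hne
  -- `t` would be a constant
  have h := mem_range_of_forall_ord_nonneg_fullC k N hN (tF k N) (fun P => hne.elim P)
  obtain ⟨c, hc⟩ := h
  have h1 : algebraMap k (LaurentSeries k) c = jqModC k := congrArg Subtype.val hc
  have h2 := congrArg (fun s : LaurentSeries k => s.coeff (-1)) h1
  simp only [coeff_jqModC_neg_one] at h2
  rw [algebraMap_laurentSeries_eq_single, HahnSeries.coeff_single_of_ne (by norm_num)] at h2
  exact zero_ne_one h2

end

end Fermat.Agent.S18.FFConstInst58
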