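/-
S18 / [FF]-CONST for the special fibre (helper19): the concrete instance of `FFConst19` for
`F̄_N = modularFunctionFieldFullC k N`, `k` algebraically closed of ANY characteristic, with the
`S28.KEY0` finiteness over `k(j)` as the only hypothesis:
an element of `F̄_N` without zeros and poles (or just without poles) is a constant.
This is the only statement about Prelude places of a characteristic-`ℓ` field needed by
[NORMALIZE].  All proofs complete.
-/
import Mathlib
import Fermat.Prelude.Def_ModularCurve_X0ModL
import Fermat.Agent.S18.FFConst19

set_option autoImplicit false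

open AlgebraicCurve IntermediateField Polynomial

namespace Fermat.Agent.S18.FFConstMod19

open Fermat.Agent.S18.FFConst19

section Modular

open ModularCurve

variable (k : Type*) [Field k] [IsAlgClosed k] (N : ℕ)

/-- **[FF]-CONST for `F̄_N`**: with the `S28.KEY0` finiteness over `k(j)`, an element of
`F̄_N = modularFunctionFieldFullC k N` without zeros and poles is a constant. -/
theorem modular_const_of_forall_ord_eq_zero
    (hfinN : (k⟮jqModC k⟯).relrank (modularFunctionFieldFullC k N) < Cardinal.aleph0)
    (y : modularFunctionFieldFullC k N)
    (h : ∀ P : Place k (modularFunctionFieldFullC k N), P.ord y = 0) :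
    ∃ c : k, y = algebraMap k (modularFunctionFieldFullC k N) c := by
  have := finiteDimensional_of_relrank_lt (modularFunctionFieldFullC k N)
    (jqModC_mem_full k N) hfinN
  have hfin := hfin_of_finiteDimensional (K := k)
    (⟨jqModC k, jqModC_mem_full k N⟩ : modularFunctionFieldFullC k N)
  obtain ⟨c, hc⟩ := mem_range_of_forall_ord_eq_zero hfin
    (fun z hz => mem_range_of_isAlgebraic z hz) y h
  exact ⟨c, hc.symm⟩

/-- same, for elements regular everywhere -/
theorem modular_const_of_forall_ord_nonneg
    (hfinN : (k⟮jqModC k⟯).relrank (modularFunctionFieldFullC k N) < Cardinal.aleph0)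
    (y : modularFunctionFieldFullC k N)
    (h : ∀ P : Place k (modularFunctionFieldFullC k N), 0 ≤ P.ord y) :
    ∃ c : k, y = algebraMap k (modularFunctionFieldFullC k N) c := by
  have := finiteDimensional_of_relrank_lt (modularFunctionFieldFullC k N)
    (jqModC_mem_full k N) hfinN
  have hfin := hfin_of_finiteDimensional (K := k)
    (⟨jqModC k, jqModC_mem_full k N⟩ : modularFunctionFieldFullC k N)
  obtain ⟨c, hc⟩ := mem_range_of_forall_ord_nonneg hfin
    (fun z hz => mem_range_of_isAlgebraic z hz) y h
  exact ⟨c, hc.symm⟩

end Modular

end Fermat.Agent.S18.FFConstMod19
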