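/-
helper6 — S18 [FF]-DEG (blueprint 14, package [FF], degree half), CHAR-FREE, no separability.

Standing hypotheses (`K`, `F` arbitrary fields, `Algebra K F`):
* `hF : FFDeg6.FFHyp K F`  : some `x ∈ F` is transcendental over `K` with `[F : K(x)] < ∞`;
* `h0 : Module.Finite K (riemannRochSpace (0 : Divisor K F))`  (`FFDeg6.finite_zero_of_const`:
  it follows from "pole-free ⇒ constant").

Main exports (namespace `Fermat.Agent.S18.FFDeg6`):
* `exists_approx`                : weak approximation for finitely many Prelude places;
* `sum_mul_le_finrank`           : Stichtenoth 1.3.3;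
* `residue_bound`, `finite_zeros`, `finite_poles`, `sum_ord_mul_deg_le`;
* `finite_residue_all hF`        : every place has finite residue field;
* `poleDiv hF y`, `degree_poleDiv_le`, `finrank_le_degree_poleDiv`, `degree_poleDiv_eq`
                                 : `deg (y)_∞ = [F : K(y)]` (Stichtenoth 1.4.11);
* `divisorOf`, `hasPrincipalDivisors hF h0 : HasPrincipalDivisors K F`;
* `ffFacts hF h0 : Riemann12.FFFacts K F`.
-/
import Fermat.Agent.S18.FFDeg6.WA
import Fermat.Agent.S18.FFDeg6.Indep
import Fermat.Agent.S18.FFDeg6.Zeros
import Fermat.Agent.S18.FFDeg6.Degree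
import Fermat.Agent.S18.FFDeg6.Facts
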