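/-
S18 project, [FF]-DEG item (2) (helper25, second seat for helper6): STICHTENOTH 1.3.3.
For `x ∈ F` with `[F : K(x)] < ∞` and finitely many zeros `P` of `x`, each with a `K`-linearly
independent family of `f P` residues, `∑ ord_P(x) * f P ≤ [F : K(x)]`.
Char-free, no separability, no class assumptions; on top of helper78's weak approximation.
-/
import Mathlib
import Fermat.Agent.S18.WeakApprox78

set_option autoImplicit false

open AlgebraicCurve IntermediateField Polynomial

namespace Fermat.Agent.S18.ZerosBound25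

open Fermat.Agent.S24 Fermat.Agent.S18.WeakApprox78

variable {K F : Type*} [Field K] [Field F] [Algebra K F]

/-! ### The predicate `Big P r y`: `y = 0` or `ord_P y ≥ r` -/

/-- `y` vanishes to order at least `r` at `P` (with `y = 0` allowed). -/
def Big (P : Place K F) (r : ℤ) (y : F) : Prop := y = 0 ∨ r ≤ P.ord y

namespace Big

variable {P : Place K F} {r r' : ℤ} {y y' : F}

theorem zero : Big P r (0 : F) := Or.inl rfl

theorem mono (h : Big P r y) (hr : r' ≤ r) : Big P r' y :=
  h.imp id fun h' => hr.trans h'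

theorem of_ord (h : r ≤ P.ord y) : Big P r y := Or.inr h

theorem neg (h : Big P r y) : Big P r (-y) := by
  rcases h with rfl | h
  · simp [Big]
  · exact Or.inr (by rwa [FF.ord_neg])

theorem add (h : Big P r y) (h' : Big P r y') : Big P r (y + y') := by
  by_cases hy : y = 0
  · subst hy; rw [zero_add]; exact h'
  by_cases hy' : y' = 0
  · subst hy'; rw [add_zero]; exact h
  by_cases hs : y + y' = 0
  · exact Or.inl hs
  · have h1 := h.resolve_left hy
    have h2 := h'.resolve_left hy'
    exact Or.inr ((le_min h1 h2).trans (FF.min_ord_le_ord_add P hy hy' hs))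

theorem sum {ι : Type*} (s : Finset ι) (a : ι → F) (h : ∀ i ∈ s, Big P r (a i)) :
    Big P r (∑ i ∈ s, a i) := by
  classical
  induction s using Finset.induction_on with
  | empty => simp [Big]
  | insert i s hi ih =>
    rw [Finset.sum_insert hi]
    exact (h i (Finset.mem_insert_self i s)).add
      (ih fun j hj => h j (Finset.mem_insert_of_mem hj))

theorem mul (h : Big P r y) (h' : Big P r' y') : Big P (r + r') (y * y') := by
  rcases h with rfl | h
  · simp [Big]
  rcases h' with rfl | h'
  · simp [Big]
  by_cases hy : y = 0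
  · subst hy; simp [Big]
  by_cases hy' : y' = 0
  · subst hy'; simp [Big]
  · exact Or.inr (by rw [P.ord_mul hy hy']; exact add_le_add h h')

theorem of_mem (h : y ∈ P.toValuationSubring) : Big P 0 y := by
  by_cases hy : y = 0
  · exact Or.inl hy
  · exact Or.inr ((FF.mem_iff_ord_nonneg P hy).mp h)

theorem mem (h : Big P 0 y) : y ∈ P.toValuationSubring := by
  rcases h with rfl | h
  · exact P.toValuationSubring.zero_mem
  · by_cases hy : y = 0
    · subst hy; exact P.toValuationSubring.zero_mem
    · exact (FF.mem_iff_ord_nonneg P hy).mpr h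

theorem pow (h : Big P r y) (n : ℕ) : Big P (n * r) (y ^ n) := by
  induction n with
  | zero => simpa using (of_mem (P := P) P.toValuationSubring.one_mem)
  | succ n ih =>
    rw [pow_succ]
    have := ih.mul h
    refine this.mono ?_
    push_cast; linarith

end Big

theorem not_big_of_ord {P : Place K F} {y : F} {a : ℤ} (hy : y ≠ 0) (h : P.ord y = a) :
    ¬ Big P (a + 1) y := by
  rintro (h0 | h1)
  · exact hy h0
  · omega

/-- polynomials in an element of `O_P` lie in `O_P` -/
theorem aeval_mem {P : Place K F} {x : F} (hx : x ∈ P.toValuationSubring) (q : K[X]) :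
    aeval x q ∈ P.toValuationSubring := by
  rw [aeval_eq_sum_range]
  refine Subring.sum_mem _ fun i _ => ?_
  rw [Algebra.smul_def]
  exact P.toValuationSubring.mul_mem _ _ (P.algebraMap_mem' _) (pow_mem hx i)

theorem aeval_eq_coeff_zero_add (x : F) (q : K[X]) :
    aeval x q = algebraMap K F (q.coeff 0) + x * aeval x q.divX := by
  conv_lhs => rw [← Polynomial.divX_mul_X_add q]
  simp only [map_add, map_mul, aeval_X, aeval_C]
  ring

/-- a `K`-combination of elements of `O_P` with independent residues and not all coefficients zero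
is a unit of `O_P` -/
theorem ord_comb_eq_zero (P : Place K F) {f : ℕ} (s : Fin f → P.toValuationSubring)
    (hs : LinearIndependent K (fun j => IsLocalRing.residue P.toValuationSubring (s j)))
    (c : Fin f → K) (hc : ∃ j, c j ≠ 0) :
    (∑ j, algebraMap K F (c j) * (s j : F)) ≠ 0 ∧
      P.ord (∑ j, algebraMap K F (c j) * (s j : F)) = 0 := by
  set u' : P.toValuationSubring := ∑ j, algebraMap K P.toValuationSubring (c j) * s j with hu'
  have hcoe : ((u' : P.toValuationSubring) : F) = ∑ j, algebraMap K F (c j) * (s j : F) := by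
    rw [hu']
    push_cast
    rfl
  have hres : IsLocalRing.residue P.toValuationSubring u'
      = ∑ j, c j • IsLocalRing.residue P.toValuationSubring (s j) := by
    rw [hu', map_sum]
    refine Finset.sum_congr rfl fun j _ => ?_
    rw [map_mul, Algebra.smul_def]
    rfl
  have hne : IsLocalRing.residue P.toValuationSubring u' ≠ 0 := by
    rw [hres]
    intro h0
    obtain ⟨j, hj⟩ := hc
    exact hj (Fintype.linearIndependent_iff.mp hs c h0 j)
  have hunit : IsUnit u' := by
    by_contra hnu
    exact hne ((IsLocalRing.residue_eq_zero_iff _).mpr ((IsLocalRing.mem_maximalIdeal _).mpr hnu))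
  obtain ⟨w, hw⟩ := hunit
  rw [← hcoe, ← hw]
  refine ⟨?_, P.ord_coe_unit w⟩
  intro h0
  have : (w : P.toValuationSubring) = 0 := Subtype.ext h0
  exact w.ne_zero this

/-- **Local block lemma.** -/
theorem coeff_zero_of_local_relation (P : Place K F) (x : F) (e : ℕ) (he : P.ord x = e)
    (t : F) (ht : P.ord t = 1) {f : ℕ} (z : Fin f → F) (s : Fin f → P.toValuationSubring)
    (hz : ∀ j, Big P 1 (z j - (s j : F)))
    (hs : LinearIndependent K (fun j => IsLocalRing.residue P.toValuationSubring (s j)))
    (φ : Fin e → Fin f → K[X]) (ρ : F) (hρ : Big P e ρ)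
    (hrel : ∑ a : Fin e, ∑ j : Fin f, aeval x (φ a j) * (t ^ (a : ℕ) * z j) + ρ = 0) :
    ∀ (a : Fin e) (j : Fin f), (φ a j).coeff 0 = 0 := by
  classical
  -- basic facts
  have ht0 : t ≠ 0 := ne_zero_of_ord_ne_zero P (by rw [ht]; norm_num)
  have htmem : Big P 1 t := Big.of_ord (le_of_eq ht.symm)
  have hxbig : Big P e x := Big.of_ord (le_of_eq he.symm)
  have hxmem : x ∈ P.toValuationSubring := (hxbig.mono (by positivity)).mem
  have hzmem : ∀ j, Big P 0 (z j) := by
    intro j
    have h1 : Big P 0 (z j - (s j : F)) := (hz j).mono (by norm_num)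
    have h2 : Big P 0 ((s j : F)) := Big.of_mem (s j).2
    have := h1.add h2
    rwa [sub_add_cancel] at this
  have hq : ∀ q : K[X], Big P 0 (aeval x q) := fun q => Big.of_mem (aeval_mem hxmem q)
  have htpow : ∀ n : ℕ, Big P n (t ^ n) := by
    intro n
    have := htmem.pow n
    simpa using this
  -- strong induction on the exponent
  suffices H : ∀ n : ℕ, ∀ a : Fin e, (a : ℕ) = n → ∀ j, (φ a j).coeff 0 = 0 from
    fun a j => H a a rfl j
  intro n
  induction n using Nat.strong_induction_on with
  | _ n ih =>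
  intro a₀ ha₀ j₀
  by_contra hne
  have hc : ∃ j, (φ a₀ j).coeff 0 ≠ 0 := ⟨j₀, hne⟩
  obtain ⟨hu0, hu⟩ := ord_comb_eq_zero P s hs (fun j => (φ a₀ j).coeff 0) hc
  set u : F := ∑ j, algebraMap K F ((φ a₀ j).coeff 0) * (s j : F) with hudef
  -- the remainder inside the block
  set r : F := ∑ j, algebraMap K F ((φ a₀ j).coeff 0) * (z j - (s j : F))
    + x * ∑ j, aeval x (φ a₀ j).divX * z j with hrdef
  have hrbig : Big P 1 r := by
    refine Big.add (Big.sum _ _ fun j _ => ?_) ?_
    · have h1 : Big P 0 (algebraMap K F ((φ a₀ j).coeff 0)) := Big.of_mem (P.algebraMap_mem' _)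
      simpa using h1.mul (hz j)
    · have h1 : Big P 0 (∑ j, aeval x (φ a₀ j).divX * z j) :=
        Big.sum _ _ fun j _ => by simpa using (hq _).mul (hzmem j)
      have h2 := hxbig.mul h1
      refine h2.mono ?_
      have : (1 : ℤ) ≤ e := by
        have : 0 < e := Nat.pos_of_ne_zero (by rintro rfl; exact a₀.elim0)
        exact_mod_cast this
      linarith
  have hinner0 : u + r ≠ 0 := by
    intro h0
    have : Big P 1 u := by
      have h1 : u = -r := eq_neg_of_add_eq_zero_left h0
      rw [h1]; exact hrbig.neg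
    rcases this with h | h
    · exact hu0 h
    · rw [hu] at h; norm_num at h
  have hinner : P.ord (u + r) = 0 := by
    rw [ord_add_of_lt P hu0, hu]
    intro hr0
    rw [hu]
    rcases hrbig with h | h
    · exact absurd h hr0
    · omega
  -- the block
  have hblock : ∑ j : Fin f, aeval x (φ a₀ j) * (t ^ (a₀ : ℕ) * z j) = t ^ (a₀ : ℕ) * (u + r) := by
    rw [hudef, hrdef]
    simp only [Finset.mul_sum, ← Finset.sum_add_distrib]
    refine Finset.sum_congr rfl fun j _ => ?_
    rw [aeval_eq_coeff_zero_add x (φ a₀ j)]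
    ring
  have hBne : t ^ (a₀ : ℕ) * (u + r) ≠ 0 := mul_ne_zero (pow_ne_zero _ ht0) hinner0
  have hBord : P.ord (t ^ (a₀ : ℕ) * (u + r)) = (a₀ : ℕ) := by
    rw [P.ord_mul (pow_ne_zero _ ht0) hinner0, hinner, ord_pow, ht]; ring
  -- the other terms are big
  have hother : ∀ a : Fin e, a ≠ a₀ → ∀ j, Big P ((a₀ : ℕ) + 1 : ℤ)
      (aeval x (φ a j) * (t ^ (a : ℕ) * z j)) := by
    intro a haa j
    rcases lt_or_gt_of_ne (fun h => haa (Fin.ext h) : (a : ℕ) ≠ (a₀ : ℕ)) with hlt | hgt
    · -- a < a₀ : the constant coefficient vanishes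
      have hc0 : (φ a j).coeff 0 = 0 := ih a (ha₀ ▸ hlt) a rfl j
      rw [aeval_eq_coeff_zero_add x (φ a j), hc0, map_zero, zero_add]
      have h1 : Big P e (x * aeval x (φ a j).divX) := by simpa using hxbig.mul (hq _)
      have h2 : Big P 0 (t ^ (a : ℕ) * z j) := by
        have := ((htpow a).mono (by positivity : (0 : ℤ) ≤ (a : ℕ))).mul (hzmem j)
        simpa using this
      have h3 := h1.mul h2
      refine h3.mono ?_
      have : ((a₀ : ℕ) : ℤ) + 1 ≤ e := by exact_mod_cast a₀.2
      linarith
    · have h1 : Big P (a : ℕ) (t ^ (a : ℕ) * z j) := by simpa using (htpow a).mul (hzmem j)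
      have h2 := (hq (φ a j)).mul h1
      refine h2.mono ?_
      have : ((a₀ : ℕ) : ℤ) + 1 ≤ (a : ℕ) := by exact_mod_cast hgt
      linarith
  -- isolate the block
  have hsplit : ∑ a : Fin e, ∑ j : Fin f, aeval x (φ a j) * (t ^ (a : ℕ) * z j)
      = t ^ (a₀ : ℕ) * (u + r)
        + ∑ a ∈ Finset.univ.erase a₀, ∑ j : Fin f, aeval x (φ a j) * (t ^ (a : ℕ) * z j) := by
    rw [← hblock]
    exact (Finset.add_sum_erase Finset.univ
      (fun a => ∑ j : Fin f, aeval x (φ a j) * (t ^ (a : ℕ) * z j)) (Finset.mem_univ a₀)).symm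
  rw [hsplit] at hrel
  have hBbig : Big P ((a₀ : ℕ) + 1 : ℤ) (t ^ (a₀ : ℕ) * (u + r)) := by
    have h1 : t ^ (a₀ : ℕ) * (u + r)
        = -(∑ a ∈ Finset.univ.erase a₀, ∑ j : Fin f, aeval x (φ a j) * (t ^ (a : ℕ) * z j) + ρ) := by
      linear_combination hrel
    rw [h1]
    refine Big.neg (Big.add (Big.sum _ _ fun a ha => Big.sum _ _ fun j _ => ?_) ?_)
    · exact hother a (Finset.ne_of_mem_erase ha) j
    · refine hρ.mono ?_
      have : ((a₀ : ℕ) : ℤ) + 1 ≤ e := by exact_mod_cast a₀.2
      linarith
  exact not_big_of_ord hBne hBord hBbig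

section Global

variable (x : F) (S : Finset (Place K F)) (f : Place K F → ℕ)

/-- the order of `x` at `P`, as a natural number -/
noncomputable def eN (P : Place K F) : ℕ := (P.ord x).toNat

/-- Weak-approximation data for the zeros bound. -/
structure WAData (s : ∀ P : Place K F, Fin (f P) → P.toValuationSubring) where
  t : Place K F → F
  z : ∀ P : Place K F, Fin (f P) → F
  ht : ∀ P ∈ S, P.ord (t P) = 1
  ht' : ∀ P ∈ S, ∀ Q ∈ S, Q ≠ P → Q.ord (t P) = 0
  hz : ∀ P ∈ S, ∀ j, Big P 1 (z P j - (s P j : F))
  hz' : ∀ P ∈ S, ∀ j, ∀ Q ∈ S, Q ≠ P → Big Q (eN x Q) (z P j)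

theorem exists_waData (s : ∀ P : Place K F, Fin (f P) → P.toValuationSubring) :
    Nonempty (WAData x S f s) := by
  classical
  have h1 : ∀ P : Place K F, ∃ t : F, ∀ Q ∈ S, Q.ord (t - 0) = if Q = P then 1 else 0 :=
    fun P => weak_approximation S (fun _ => 0) (fun Q => if Q = P then 1 else 0)
  choose t ht using h1
  set R : ℤ := ∑ Q ∈ S, (eN x Q : ℤ) with hR
  have hRle : ∀ Q ∈ S, (eN x Q : ℤ) ≤ R := fun Q hQ =>
    Finset.single_le_sum (f := fun Q : Place K F => (eN x Q : ℤ))
      (fun _ _ => Int.natCast_nonneg _) hQ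
  have hR0 : 0 ≤ R := Finset.sum_nonneg fun _ _ => Int.natCast_nonneg _
  have h2 : ∀ (P : Place K F) (j : Fin (f P)), ∃ z : F, ∀ Q ∈ S,
      z = (if Q = P then (s P j : F) else 0) ∨ R < Q.ord (z - (if Q = P then (s P j : F) else 0)) :=
    fun P j => exists_close S (fun Q => if Q = P then (s P j : F) else 0) R
  choose z hz using h2
  refine ⟨⟨t, z, ?_, ?_, ?_, ?_⟩⟩
  · intro P hP
    have := ht P P hP
    simpa using this
  · intro P _ Q hQ hQP
    have := ht P Q hQ
    simpa [hQP] using this
  · intro P hP j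
    have := hz P j P hP
    simp only [if_true] at this
    rcases this with h | h
    · left; rw [h, sub_self]
    · right; omega
  · intro P _ j Q hQ hQP
    have := hz P j Q hQ
    simp only [if_neg hQP, sub_zero] at this
    rcases this with h | h
    · left; exact h
    · right; have := hRle Q hQ; omega

variable {x S f}

/-- the index type of the independent family -/
abbrev Idx (x : F) (S : Finset (Place K F)) (f : Place K F → ℕ) : Type _ :=
  Σ P : ↥S, Fin (eN x (P : Place K F)) × Fin (f (P : Place K F))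

/-- the independent family `t_P ^ a * z_{P,j}` -/
def wfam {s : ∀ P : Place K F, Fin (f P) → P.toValuationSubring} (D : WAData x S f s)
    (i : Idx x S f) : F :=
  D.t i.1 ^ (i.2.1 : ℕ) * D.z i.1 i.2.2

theorem eN_cast {P : Place K F} (h : 0 < P.ord x) : P.ord x = (eN x P : ℤ) := by
  rw [eN, Int.toNat_of_nonneg h.le]

theorem core_coeff_zero {s : ∀ P : Place K F, Fin (f P) → P.toValuationSubring}
    (hS : ∀ P ∈ S, 0 < P.ord x)
    (hs : ∀ P ∈ S, LinearIndependent K
      (fun j => IsLocalRing.residue P.toValuationSubring (s P j)))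
    (D : WAData x S f s) (p : Idx x S f → K[X])
    (hrel : ∑ i, aeval x (p i) * wfam D i = 0) : ∀ i, (p i).coeff 0 = 0 := by
  classical
  rintro ⟨P₀, a₀, j₀⟩
  have hP₀ : (P₀ : Place K F) ∈ S := P₀.2
  have hx0 : x ≠ 0 := ne_zero_of_ord_ne_zero (P₀ : Place K F) (hS _ hP₀).ne'
  have hxmem : x ∈ (P₀ : Place K F).toValuationSubring :=
    (Big.of_ord (P := (P₀ : Place K F)) (hS _ hP₀).le).mem
  set ρ : F := ∑ P ∈ (Finset.univ : Finset ↥S).erase P₀,
    ∑ aj : Fin (eN x (P : Place K F)) × Fin (f (P : Place K F)),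
      aeval x (p ⟨P, aj⟩) * wfam D ⟨P, aj⟩ with hρdef
  have hρ : Big (P₀ : Place K F) (eN x (P₀ : Place K F)) ρ := by
    refine Big.sum _ _ fun P hP => Big.sum _ _ fun aj _ => ?_
    have hPne : (P₀ : Place K F) ≠ (P : Place K F) := fun h =>
      (Finset.ne_of_mem_erase hP) (Subtype.ext h.symm)
    have h1 : Big (P₀ : Place K F) 0 (aeval x (p ⟨P, aj⟩)) := Big.of_mem (aeval_mem hxmem _)
    have ht0 : D.t P ≠ 0 :=
      ne_zero_of_ord_ne_zero (P : Place K F) (by rw [D.ht P P.2]; norm_num)
    have h2 : Big (P₀ : Place K F) 0 (D.t P) :=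
      Big.of_ord (le_of_eq (D.ht' P P.2 P₀ hP₀ hPne).symm)
    have h3 : Big (P₀ : Place K F) 0 (D.t P ^ (aj.1 : ℕ)) := by
      simpa using h2.pow (aj.1 : ℕ)
    have h4 := D.hz' P P.2 aj.2 P₀ hP₀ hPne
    have := h1.mul (h3.mul h4)
    simpa [wfam] using this
  have key := coeff_zero_of_local_relation (P₀ : Place K F) x (eN x (P₀ : Place K F))
    (eN_cast (hS _ hP₀)) (D.t P₀) (D.ht P₀ hP₀) (D.z P₀) (s P₀) (D.hz P₀ hP₀) (hs P₀ hP₀)
    (fun a j => p ⟨P₀, (a, j)⟩) ρ hρ ?_
  · exact key a₀ j₀
  · rw [← hrel, Fintype.sum_sigma, ← Finset.add_sum_erase Finset.univ _ (Finset.mem_univ P₀),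
      Fintype.sum_prod_type]
    rfl

theorem X_pow_dvd_of_relation {s : ∀ P : Place K F, Fin (f P) → P.toValuationSubring}
    (hS : ∀ P ∈ S, 0 < P.ord x)
    (hs : ∀ P ∈ S, LinearIndependent K
      (fun j => IsLocalRing.residue P.toValuationSubring (s P j)))
    (D : WAData x S f s) : ∀ (n : ℕ) (p : Idx x S f → K[X]),
      ∑ i, aeval x (p i) * wfam D i = 0 → ∀ i, X ^ n ∣ p i := by
  intro n
  induction n with
  | zero => intro p _ i; simp
  | succ n ih =>
    intro p hrel i
    have hc := core_coeff_zero hS hs D p hrel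
    have hx0 : x ≠ 0 := ne_zero_of_ord_ne_zero (i.1 : Place K F) (hS _ i.1.2).ne'
    have hp : ∀ k, p k = X * (p k).divX := fun k =>
      (Polynomial.X_mul_divX_add (p k)).symm.trans (by rw [hc k, map_zero, add_zero])
    have hrel' : ∑ k, aeval x ((p k).divX) * wfam D k = 0 := by
      have : x * ∑ k, aeval x ((p k).divX) * wfam D k = 0 := by
        rw [← hrel, Finset.mul_sum]
        refine Finset.sum_congr rfl fun k _ => ?_
        conv_rhs => rw [hp k]
        rw [map_mul, aeval_X]
        ring
      exact (mul_eq_zero.mp this).resolve_left hx0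
    obtain ⟨q, hq⟩ := ih (fun k => (p k).divX) hrel' i
    refine ⟨q, ?_⟩
    rw [hp i, hq, pow_succ]
    ring

theorem eq_zero_of_relation {s : ∀ P : Place K F, Fin (f P) → P.toValuationSubring}
    (hS : ∀ P ∈ S, 0 < P.ord x)
    (hs : ∀ P ∈ S, LinearIndependent K
      (fun j => IsLocalRing.residue P.toValuationSubring (s P j)))
    (D : WAData x S f s) (p : Idx x S f → K[X])
    (hrel : ∑ i, aeval x (p i) * wfam D i = 0) : ∀ i, p i = 0 := by
  intro i
  have h := X_pow_dvd_of_relation hS hs D ((p i).natDegree + 1) p hrel i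
  exact Polynomial.eq_zero_of_dvd_of_natDegree_lt h (by rw [natDegree_X_pow]; exact Nat.lt_succ_self _)

open scoped IntermediateField.algebraAdjoinAdjoin in
/-- the family `t_P ^ a * z_{P,j}` is linearly independent over `K(x)` -/
theorem linearIndependent_wfam {s : ∀ P : Place K F, Fin (f P) → P.toValuationSubring}
    (hS : ∀ P ∈ S, 0 < P.ord x)
    (hs : ∀ P ∈ S, LinearIndependent K
      (fun j => IsLocalRing.residue P.toValuationSubring (s P j)))
    (D : WAData x S f s) : LinearIndependent K⟮x⟯ (wfam D) := by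
  have hA : LinearIndependent (Algebra.adjoin K {x}) (wfam D) := by
    rw [Fintype.linearIndependent_iff]
    intro g hg i
    have hmem : ∀ k, ∃ q : K[X], aeval x q = (g k : F) := by
      intro k
      have : (g k : F) ∈ (aeval x : K[X] →ₐ[K] F).range := by
        rw [← Algebra.adjoin_singleton_eq_range_aeval]; exact (g k).2
      exact this
    choose p hp using hmem
    have hrel : ∑ k, aeval x (p k) * wfam D k = 0 := by
      rw [← hg]
      refine Finset.sum_congr rfl fun k _ => ?_
      rw [hp k]; rfl
    have h0 := eq_zero_of_relation hS hs D p hrel i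
    apply Subtype.ext
    rw [← hp i, h0, map_zero]; rfl
  exact hA.localization (S := nonZeroDivisors (Algebra.adjoin K {x})) K⟮x⟯

/-- **Stichtenoth 1.3.3.** -/
theorem sum_ord_mul_le_finrank [FiniteDimensional K⟮x⟯ F]
    (hS : ∀ P ∈ S, 0 < P.ord x) (s : ∀ P : Place K F, Fin (f P) → P.toValuationSubring)
    (hs : ∀ P ∈ S, LinearIndependent K
      (fun j => IsLocalRing.residue P.toValuationSubring (s P j))) :
    ∑ P ∈ S, (P.ord x).toNat * f P ≤ Module.finrank K⟮x⟯ F := by
  obtain ⟨D⟩ := exists_waData x S f s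
  have hli := linearIndependent_wfam hS hs D
  have hcard := hli.fintype_card_le_finrank
  have hcount : Fintype.card (Idx x S f) = ∑ P ∈ S, (P.ord x).toNat * f P := by
    rw [Fintype.card_sigma]
    simp only [Fintype.card_prod, Fintype.card_fin]
    exact Finset.sum_coe_sort S (fun P => eN x P * f P)
  rwa [hcount] at hcard

end Global

section Corollaries

variable (x : F) [FiniteDimensional K⟮x⟯ F]

/-- any finite set of zeros of `x` has at most `[F : K(x)]` elements -/
theorem card_zeros_le (S : Finset (Place K F)) (hS : ∀ P ∈ S, 0 < P.ord x) :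
    S.card ≤ Module.finrank K⟮x⟯ F := by
  have h := sum_ord_mul_le_finrank (x := x) (S := S) (f := fun _ => 1) hS
    (fun P _ => 1) (fun P _ => by
      have : (fun _ : Fin 1 => IsLocalRing.residue P.toValuationSubring (1 : P.toValuationSubring))
          = fun _ : Fin 1 => (1 : IsLocalRing.ResidueField P.toValuationSubring) := by
        funext _; exact map_one _
      rw [this]
      exact LinearIndependent.of_subsingleton (0 : Fin 1) one_ne_zero)
  refine le_trans ?_ h
  rw [Finset.card_eq_sum_ones]
  refine Finset.sum_le_sum fun P hP => ?_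
  have := hS P hP
  have h1 : 1 ≤ (P.ord x).toNat := by omega
  simpa using h1

/-- `x` has only finitely many zeros -/
theorem finite_zeros : {P : Place K F | 0 < P.ord x}.Finite := by
  by_contra hinf
  have hinf' : {P : Place K F | 0 < P.ord x}.Infinite := hinf
  obtain ⟨T, hT, hcard⟩ := hinf'.exists_subset_card_eq (Module.finrank K⟮x⟯ F + 1)
  have := card_zeros_le x T (fun P hP => hT hP)
  omega

/-- at a zero `P` of `x`, a `K`-independent family of residues has at most `[F : K(x)]` members -/
theorem card_le_of_linearIndependent_residue (P : Place K F) (hP : 0 < P.ord x) {n : ℕ}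
    (r : Fin n → P.ResidueField) (hr : LinearIndependent K r) :
    (P.ord x).toNat * n ≤ Module.finrank K⟮x⟯ F := by
  classical
  have hsurj : Function.Surjective (IsLocalRing.residue P.toValuationSubring) :=
    IsLocalRing.residue_surjective
  choose s' hs' using fun j => hsurj (r j)
  have h := sum_ord_mul_le_finrank (x := x) (S := {P}) (f := fun Q => if Q = P then n else 0)
    (by intro Q hQ; rw [Finset.mem_singleton.mp hQ]; exact hP)
    (fun Q j => if h : Q = P then h ▸ s' (Fin.cast (by rw [if_pos h]) j) else 0)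
    (by
      intro Q hQ
      obtain rfl := Finset.mem_singleton.mp hQ
      simp only [dite_true]
      have : (fun j : Fin (if Q = Q then n else 0) =>
          IsLocalRing.residue Q.toValuationSubring (s' (Fin.cast (by rw [if_pos rfl]) j)))
          = r ∘ (Fin.cast (by rw [if_pos rfl])) := by
        funext j; simp [hs']
      rw [this]
      exact hr.comp _ (Fin.cast_injective _))
  simpa using h

/-- residue fields at zeros of `x` are finite-dimensional over `K` -/
theorem finite_residueField_of_zero (P : Place K F) (hP : 0 < P.ord x) :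
    Module.Finite K P.ResidueField := by
  have hrank : Module.rank K P.ResidueField ≤ (Module.finrank K⟮x⟯ F : ℕ) := by
    apply rank_le
    intro t ht
    have h := card_le_of_linearIndependent_residue x P hP
      (fun j : Fin t.card => ((t.equivFin.symm j : t) : P.ResidueField))
      (ht.comp _ t.equivFin.symm.injective)
    have h1 : 1 ≤ (P.ord x).toNat := by omega
    calc t.card = 1 * t.card := (one_mul _).symm
      _ ≤ (P.ord x).toNat * t.card := Nat.mul_le_mul_right _ h1
      _ ≤ _ := h
  exact Module.rank_lt_aleph0_iff.mp (lt_of_le_of_lt hrank Cardinal.natCast_lt_aleph0)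

/-- **`deg (x)_0 ≤ [F : K(x)]`**, for any finite set of zeros. -/
theorem sum_ord_mul_deg_le (S : Finset (Place K F)) (hS : ∀ P ∈ S, 0 < P.ord x) :
    ∑ P ∈ S, (P.ord x).toNat * P.deg ≤ Module.finrank K⟮x⟯ F := by
  classical
  have hfin : ∀ P ∈ S, Module.Finite K P.ResidueField := fun P hP =>
    finite_residueField_of_zero x P (hS P hP)
  have hsurj : ∀ P : Place K F, Function.Surjective (IsLocalRing.residue P.toValuationSubring) :=
    fun P => IsLocalRing.residue_surjective
  -- a basis of each residue field (junk outside S)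
  have hex : ∀ P : Place K F, ∃ s : Fin P.deg → P.toValuationSubring, P ∈ S →
      LinearIndependent K (fun j => IsLocalRing.residue P.toValuationSubring (s j)) := by
    intro P
    by_cases hP : P ∈ S
    · have := hfin P hP
      let b : Module.Basis (Fin P.deg) K P.ResidueField := Module.finBasis K P.ResidueField
      choose s hs using fun j => hsurj P (b j)
      refine ⟨s, fun _ => ?_⟩
      have : (fun j => IsLocalRing.residue P.toValuationSubring (s j)) = b := by
        funext j; exact hs j
      rw [this]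
      exact b.linearIndependent
    · exact ⟨fun _ => 0, fun h => absurd h hP⟩
  choose s hs using hex
  exact sum_ord_mul_le_finrank (x := x) (S := S) (f := fun P => P.deg) hS s hs

end Corollaries

section Poles

theorem adjoin_inv_eq (x : F) : K⟮x⁻¹⟯ = K⟮x⟯ := by
  apply le_antisymm
  · rw [adjoin_simple_le_iff]; exact inv_mem (mem_adjoin_simple_self K x)
  · rw [adjoin_simple_le_iff]
    have := inv_mem (mem_adjoin_simple_self K x⁻¹)
    simpa using this

theorem finiteDimensional_adjoin_inv (x : F) [h : FiniteDimensional K⟮x⟯ F] :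
    FiniteDimensional K⟮x⁻¹⟯ F := by
  rw [adjoin_inv_eq]; exact h

theorem finrank_adjoin_inv (x : F) :
    Module.finrank K⟮x⁻¹⟯ F = Module.finrank K⟮x⟯ F := by
  rw [adjoin_inv_eq]

variable (x : F) [FiniteDimensional K⟮x⟯ F]

/-- any finite set of poles of `x` has at most `[F : K(x)]` elements -/
theorem card_poles_le (S : Finset (Place K F)) (hS : ∀ P ∈ S, P.ord x < 0) :
    S.card ≤ Module.finrank K⟮x⟯ F := by
  have := finiteDimensional_adjoin_inv (K := K) x
  have h := card_zeros_le x⁻¹ S (fun P hP => by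
    rw [Place.ord_inv]; have := hS P hP; omega)
  rwa [finrank_adjoin_inv] at h

/-- `x` has only finitely many poles -/
theorem finite_poles : {P : Place K F | P.ord x < 0}.Finite := by
  have := finiteDimensional_adjoin_inv (K := K) x
  have h := finite_zeros (K := K) x⁻¹
  refine h.subset fun P hP => ?_
  have hP' : P.ord x < 0 := hP
  change 0 < P.ord x⁻¹
  rw [Place.ord_inv]; omega

/-- residue fields at poles of `x` are finite-dimensional over `K` -/
theorem finite_residueField_of_pole (P : Place K F) (hP : P.ord x < 0) :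
    Module.Finite K P.ResidueField := by
  have := finiteDimensional_adjoin_inv (K := K) x
  exact finite_residueField_of_zero x⁻¹ P (by rw [Place.ord_inv]; omega)

/-- **`deg (x)_∞ ≤ [F : K(x)]`**, for any finite set of poles. -/
theorem sum_neg_ord_mul_deg_le (S : Finset (Place K F)) (hS : ∀ P ∈ S, P.ord x < 0) :
    ∑ P ∈ S, (-(P.ord x)).toNat * P.deg ≤ Module.finrank K⟮x⟯ F := by
  have := finiteDimensional_adjoin_inv (K := K) x
  have h := sum_ord_mul_deg_le x⁻¹ S (fun P hP => by
    rw [Place.ord_inv]; have := hS P hP; omega)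
  simp only [Place.ord_inv] at h
  rwa [finrank_adjoin_inv] at h

/-- the support of the principal divisor of `x` is finite -/
theorem finite_support_ord : {P : Place K F | P.ord x ≠ 0}.Finite := by
  refine ((finite_zeros (K := K) x).union (finite_poles (K := K) x)).subset fun P hP => ?_
  have hP' : P.ord x ≠ 0 := hP
  rcases lt_or_gt_of_ne hP' with h | h
  · exact Or.inr h
  · exact Or.inl h

end Poles

end Fermat.Agent.S18.ZerosBound25
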