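import Mathlib
import Fermat.Agent.S18.FFAssemble5
import Fermat.Agent.S18.ZerosBound25
import Fermat.Agent.S18.FFConst30

/-!
# S18/S37 [FF] instance (helper5): one transcendental `x` with `[F : K(x)] < ∞` ⟹ everything

For ANY field `K` algebraically closed in `F` (e.g. `K` algebraically closed), any characteristic,
NO separability: if `F` is finite over `K(x)` for one transcendental `x`, then
`ClassFreeData K F` holds, hence `HasPrincipalDivisors K F`, `Riemann12.FFFacts K F`, the Riemann
genus exists, `deg (y)_0 = deg (y)_∞ = [F : K(y)]` for every transcendental `y`.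

Inputs: `ZerosBound25` (helper25, Stichtenoth 1.3.3), `FFConst30` (helper30, places exist /
pole-free ⟹ algebraic), `FFDegLower5`/`FFAssemble5`.
-/

set_option autoImplicit false

namespace Fermat.Agent.S18.FFInst5

open AlgebraicCurve Module IntermediateField Fermat.Agent.S18
open Fermat.Agent.S18.FFLSpace5 Fermat.Agent.S18.FFDegLower5 Fermat.Agent.S18.FFAssemble5

variable {K F : Type*} [Field K] [Field F] [Algebra K F]

/-- residue fields of all places are finite over `K`. -/
theorem finiteResidue_of_transcendental (x : F) [FiniteDimensional K⟮x⟯ F] (w : Place K F) :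
    w.FiniteResidue := by
  obtain ⟨π, hπ0, hπ⟩ := exists_uniformizer w
  have hπT : Transcendental K π := by
    intro halg
    have := ord_eq_zero_of_isAlgebraic w halg
    omega
  have := FFConst30.finiteDimensional_adjoin_of_transcendental x hπT
  exact ⟨ZerosBound25.finite_residueField_of_zero π w (by omega)⟩

/-- `deg (y)_0 ≤ [F : K(y)]` in divisor form. -/
theorem degree_zeros_le (y : F) [FiniteDimensional K⟮y⟯ F] (Z : Divisor K F)
    (hZ : ∀ w : Place K F, Z w = max 0 (w.ord y)) :
    Divisor.degree Z ≤ (finrank K⟮y⟯ F : ℤ) := by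
  have hS : ∀ P ∈ Z.support, 0 < P.ord y := by
    intro P hP
    have h1 : Z P ≠ 0 := Finsupp.mem_support_iff.mp hP
    rw [hZ] at h1
    by_contra hcon
    rw [not_lt] at hcon
    exact h1 (max_eq_left hcon)
  have h := ZerosBound25.sum_ord_mul_deg_le y Z.support hS
  rw [degree_eq_sum, Finsupp.sum]
  have h2 : ∑ w ∈ Z.support, Z w * (w.deg : ℤ) =
      ((∑ P ∈ Z.support, (P.ord y).toNat * P.deg : ℕ) : ℤ) := by
    push_cast
    refine Finset.sum_congr rfl fun w hw => ?_
    have := hS w hw
    rw [hZ, max_eq_right this.le, Int.toNat_of_nonneg this.le]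
  rw [h2]
  exact_mod_cast h

/-- **Class-free data from one transcendental `x` with `[F : K(x)] < ∞`**, `K` algebraically
closed in `F`. -/
theorem classFreeData_of_algClosedIn (x : F) (hx : Transcendental K x)
    [FiniteDimensional K⟮x⟯ F]
    (hK : ∀ y : F, IsAlgebraic K y → y ∈ Set.range (algebraMap K F)) : ClassFreeData K F where
  hres := finiteResidue_of_transcendental x
  hconst := fun y hy => hK y (FFConst30.isAlgebraic_of_forall_ord_nonneg x hy)
  hfin := fun _ ht => FFConst30.finiteDimensional_adjoin_of_transcendental x ht
  hzeros := fun y hy => by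
    have := FFConst30.finiteDimensional_adjoin_of_transcendental x hy
    exact ZerosBound25.finite_zeros y
  hupper := fun y hy Z hZ => by
    have := FFConst30.finiteDimensional_adjoin_of_transcendental x hy
    exact degree_zeros_le y Z hZ
  htrans := ⟨x, hx⟩

/-- The same for `K` algebraically closed. -/
theorem classFreeData [IsAlgClosed K] (x : F) (hx : Transcendental K x)
    [FiniteDimensional K⟮x⟯ F] : ClassFreeData K F :=
  classFreeData_of_algClosedIn x hx fun y hy => by
    have : Algebra.IsAlgebraic K K⟮y⟯ := IntermediateField.isAlgebraic_adjoin_simple hy.isIntegral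
    obtain ⟨a, ha⟩ := (IsAlgClosed.algebraMap_bijective_of_isIntegral (k := K) (K := K⟮y⟯)).2
      (AdjoinSimple.gen K y)
    refine ⟨a, ?_⟩
    have := congrArg (algebraMap K⟮y⟯ F) ha
    rwa [← IsScalarTower.algebraMap_apply, AdjoinSimple.algebraMap_gen] at this

section AlgClosed

variable [IsAlgClosed K] (x : F) (hx : Transcendental K x) [FiniteDimensional K⟮x⟯ F]
include hx

/-- **`HasPrincipalDivisors K F`**, any characteristic, no separability. -/
theorem hasPrincipalDivisors : HasPrincipalDivisors K F :=
  (classFreeData x hx).hasPrincipalDivisors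

/-- **`Riemann12.FFFacts K F`**. -/
theorem ffFacts [HasPrincipalDivisors K F] : Riemann12.FFFacts K F :=
  (classFreeData x hx).ffFacts

/-- **Riemann's theorem**: a genus `g ≥ 0` exists. -/
theorem exists_isRiemannGenus : ∃ g : ℤ, 0 ≤ g ∧ Riemann12.IsRiemannGenus K F g :=
  (classFreeData x hx).exists_isRiemannGenus

end AlgClosed

/-- all places have degree one (`K` algebraically closed). -/
theorem deg_eq_one [IsAlgClosed K] (x : F) [FiniteDimensional K⟮x⟯ F] (w : Place K F) :
    w.deg = 1 := by
  have := (finiteResidue_of_transcendental x w).finite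
  exact w.deg_eq_one_of_isAlgClosed_of_finite

/-- a place exists. -/
theorem nonempty_place (x : F) (hx : Transcendental K x) [FiniteDimensional K⟮x⟯ F] :
    Nonempty (Place K F) := FFConst30.exists_place x hx

end Fermat.Agent.S18.FFInst5
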