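/-
S18 / S37 [FF]-INST-DW (helper30): the PLACE-LEVEL function-field package of the SPECIAL FIBRE
`F̄_M = modularFunctionFieldFullC k M` (`k : Type` algebraically closed, `(M : k) ≠ 0`), obtained by
feeding `FFInst30.sepFF_tC` (separating variable `t̄`) into helper63's instance-free corollaries
`DW63/Transfer.lean`:

* `hasPrincipalDivisors_fullC : HasPrincipalDivisors k (FC k M)`;
* `deg_eq_one_fullC'`, `finite_residue_fullC`;
* `isRiemannGenus_fullC : IsRiemannGenus k (FC k M) (gR k (FC k M))`, `gR_nonneg_fullC`,
  `riemann_le_fullC`, `exists_riemann_eq_fullC`, `finite_riemannRochSpace_fullC`;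
* `exists_poleDivisor_fullC` (pole divisor of `t̄`, degree `[F̄_M : k(t̄)]`);
* the same at the residue field of `A | ℓ`, `ℓ ∤ M` (`..._residueField`).
Consumers: S37 [R]-INST (Deuring reduction at the good level), any Place-level use of `F̄_M`.
-/
import Fermat.Agent.S18.FFInst30
import Fermat.Agent.S18.DW63.Transfer

set_option autoImplicit false
set_option linter.unusedSectionVars false
set_option linter.style.haveILetI false

open AlgebraicCurve IntermediateField ModularCurve Module

noncomputable section

namespace Fermat.Agent.S18.FFInstDW30

open Fermat.Agent.S18.FFInst30 Fermat.Agent.S18.DW63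
open Fermat.Agent.S18.Riemann12 (IsRiemannGenus gR)

section concrete

variable (k : Type) [Field k] [IsAlgClosed k] (M : ℕ) [NeZero M] (hM : (M : k) ≠ 0)

include hM

theorem hasPrincipalDivisors_fullC : HasPrincipalDivisors k (FC k M) := by
  haveI := finiteDimensional_tC k M hM
  haveI := isSeparable_tC k M hM
  exact hasPrincipalDivisors_of_separating (transcendental_tC k M)

theorem deg_eq_one_fullC' (v : Place k (FC k M)) : v.deg = 1 := by
  haveI := finiteDimensional_tC k M hM
  haveI := isSeparable_tC k M hM
  exact deg_eq_one_of_separating (transcendental_tC k M) v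

theorem finite_residue_fullC (v : Place k (FC k M)) : Module.Finite k v.ResidueField := by
  haveI := finiteDimensional_tC k M hM
  haveI := isSeparable_tC k M hM
  exact finite_residue_of_separating (transcendental_tC k M) v

theorem isRiemannGenus_fullC : IsRiemannGenus k (FC k M) (gR k (FC k M)) := by
  haveI := finiteDimensional_tC k M hM
  haveI := isSeparable_tC k M hM
  exact isRiemannGenus_gR_of_separating (transcendental_tC k M)

theorem gR_nonneg_fullC : 0 ≤ gR k (FC k M) := by
  haveI := finiteDimensional_tC k M hM
  haveI := isSeparable_tC k M hM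
  exact gR_nonneg_of_separating (transcendental_tC k M)

theorem riemann_le_fullC (G : Divisor k (FC k M)) :
    Divisor.degree G + 1 - gR k (FC k M) ≤ (finrank k (riemannRochSpace G) : ℤ) := by
  haveI := finiteDimensional_tC k M hM
  haveI := isSeparable_tC k M hM
  exact riemann_le_of_separating (transcendental_tC k M) G

theorem exists_riemann_eq_fullC :
    ∃ c : ℤ, ∀ G : Divisor k (FC k M), c ≤ Divisor.degree G →
      (finrank k (riemannRochSpace G) : ℤ) = Divisor.degree G + 1 - gR k (FC k M) := by
  haveI := finiteDimensional_tC k M hM
  haveI := isSeparable_tC k M hM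
  exact exists_riemann_eq_of_separating (transcendental_tC k M)

theorem finite_riemannRochSpace_fullC (G : Divisor k (FC k M)) :
    Module.Finite k (riemannRochSpace G) := by
  haveI := finiteDimensional_tC k M hM
  haveI := isSeparable_tC k M hM
  exact finite_riemannRochSpace_of_separating (transcendental_tC k M) G

theorem exists_poleDivisor_fullC :
    ∃ E : Divisor k (FC k M), (∀ v : Place k (FC k M), E v = max 0 (-(v.ord (tC k M)))) ∧
      Divisor.degree E = (finrank ↥(k⟮tC k M⟯) (FC k M) : ℤ) := by
  haveI := finiteDimensional_tC k M hM
  haveI := isSeparable_tC k M hM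
  exact exists_poleDivisor_of_separating (transcendental_tC k M)

end concrete

section residue

set_option synthInstance.maxHeartbeats 400000

variable (A : ValuationSubring (AlgebraicClosure ℚ)) {ℓ : ℕ} [Fact ℓ.Prime]
  (hA : A.LiesOverPrime ℓ) (M : ℕ) [NeZero M] (hM : ¬ ℓ ∣ M)

include hA hM

/-- `HasPrincipalDivisors` for the special fibre at `A | ℓ`, `ℓ ∤ M`. -/
theorem hasPrincipalDivisors_residueField :
    HasPrincipalDivisors (IsLocalRing.ResidueField A) (FC (IsLocalRing.ResidueField A) M) := by
  haveI : IsAlgClosed (IsLocalRing.ResidueField A) := ValRing25.residueField_isAlgClosed A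
  exact hasPrincipalDivisors_fullC _ M (natCast_residueField_ne_zero A hA hM)

theorem deg_eq_one_residueField (v : Place (IsLocalRing.ResidueField A)
    (FC (IsLocalRing.ResidueField A) M)) : v.deg = 1 := by
  haveI : IsAlgClosed (IsLocalRing.ResidueField A) := ValRing25.residueField_isAlgClosed A
  exact deg_eq_one_fullC' _ M (natCast_residueField_ne_zero A hA hM) v

theorem isRiemannGenus_residueField :
    IsRiemannGenus (IsLocalRing.ResidueField A) (FC (IsLocalRing.ResidueField A) M)
      (gR (IsLocalRing.ResidueField A) (FC (IsLocalRing.ResidueField A) M)) := by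
  haveI : IsAlgClosed (IsLocalRing.ResidueField A) := ValRing25.residueField_isAlgClosed A
  exact isRiemannGenus_fullC _ M (natCast_residueField_ne_zero A hA hM)

end residue

end Fermat.Agent.S18.FFInstDW30
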