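import Mathlib
import Fermat.Agent.S18.FFInst5
import Fermat.Agent.S18.FFInst30

/-!
# S18/S37: the Prelude-Place function-field package of the SPECIAL FIBRE (helper5)

For `k` algebraically closed (any characteristic) and `(M : k) ≠ 0`, the special fibre
`F̄_M = modularFunctionFieldFullC k M` satisfies `HasPrincipalDivisors`, `Riemann12.FFFacts`,
has a Riemann genus `≥ 0`, all places of degree one, finite-dimensional `L(G)`,
`deg (y)_0 = deg (y)_∞ = [F̄_M : k(y)]`.  Also at `k = ResidueField A`, `A | ℓ`, `ℓ ∤ M`.
-/

set_option autoImplicit false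

namespace Fermat.Agent.S18.FFInstFullC5

open AlgebraicCurve Module IntermediateField ModularCurve Fermat.Agent.S18
open Fermat.Agent.S18.FFInst30

section concrete

variable (k : Type) [Field k] [IsAlgClosed k] (M : ℕ) [NeZero M] (hM : (M : k) ≠ 0)
include hM

/-- the class-free data of the special fibre -/
theorem classFreeData_fullC : FFAssemble5.ClassFreeData k (FC k M) := by
  have := finiteDimensional_tC k M hM
  exact FFInst5.classFreeData (tC k M) (transcendental_tC k M)

/-- **`HasPrincipalDivisors k F̄_M`** -/
theorem hasPrincipalDivisors_fullC : HasPrincipalDivisors k (FC k M) :=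
  (classFreeData_fullC k M hM).hasPrincipalDivisors

/-- **`Riemann12.FFFacts k F̄_M`** -/
theorem ffFacts_fullC [HasPrincipalDivisors k (FC k M)] : Riemann12.FFFacts k (FC k M) :=
  (classFreeData_fullC k M hM).ffFacts

/-- **Riemann's theorem on the special fibre** -/
theorem exists_isRiemannGenus_fullC :
    ∃ g : ℤ, 0 ≤ g ∧ Riemann12.IsRiemannGenus k (FC k M) g :=
  (classFreeData_fullC k M hM).exists_isRiemannGenus

theorem finite_riemannRochSpace_fullC (G : Divisor k (FC k M)) :
    Module.Finite k (riemannRochSpace G) :=
  (classFreeData_fullC k M hM).finite_riemannRochSpace G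

theorem ell_zero_fullC : Riemann12.ell (0 : Divisor k (FC k M)) = 1 :=
  (classFreeData_fullC k M hM).ell_zero

end concrete

section residue

set_option synthInstance.maxHeartbeats 400000

variable (A : ValuationSubring (AlgebraicClosure ℚ)) {ℓ : ℕ} [Fact ℓ.Prime]

/-- the class-free data of the special fibre at the residue field of `A | ℓ`, `ℓ ∤ M` -/
theorem classFreeData_residueField (hA : A.LiesOverPrime ℓ) (M : ℕ) [NeZero M] (hM : ¬ ℓ ∣ M) :
    FFAssemble5.ClassFreeData (IsLocalRing.ResidueField A) (FC (IsLocalRing.ResidueField A) M) := by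
  have : IsAlgClosed (IsLocalRing.ResidueField A) := ValRing25.residueField_isAlgClosed A
  exact classFreeData_fullC _ M (natCast_residueField_ne_zero A hA hM)

theorem hasPrincipalDivisors_residueField (hA : A.LiesOverPrime ℓ) (M : ℕ) [NeZero M]
    (hM : ¬ ℓ ∣ M) :
    HasPrincipalDivisors (IsLocalRing.ResidueField A) (FC (IsLocalRing.ResidueField A) M) :=
  (classFreeData_residueField A hA M hM).hasPrincipalDivisors

theorem exists_isRiemannGenus_residueField (hA : A.LiesOverPrime ℓ) (M : ℕ) [NeZero M]
    (hM : ¬ ℓ ∣ M) :
    ∃ g : ℤ, 0 ≤ g ∧ Riemann12.IsRiemannGenus (IsLocalRing.ResidueField A)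
      (FC (IsLocalRing.ResidueField A) M) g :=
  (classFreeData_residueField A hA M hM).exists_isRiemannGenus

end residue

end Fermat.Agent.S18.FFInstFullC5
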