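/-
S18 / glue [BRIDGE] → [INT] (helper33).

For an ARBITRARY `S : BridgeKernel15.Frame A ι` (helper15) we instantiate the instance-free
INTEGRALITY LEMMA of helper93 (`GaussInt93`): for `z ∈ O_F = O ∩ F`,
* `z` integral over `L[j]`   ⇒ `ρ z` integral over `k[t]`   (`t = ρ j`);
* `z` integral over `L[j⁻¹]` ⇒ `ρ z` integral over `k[t⁻¹]`;
and the twisted `L(aE + bE')`-shape.  No `RatFunc` instances on `F` are needed.
-/
import Fermat.Agent.S18.BridgeKernel15
import Fermat.Agent.S18.GaussInt93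

set_option autoImplicit false

noncomputable section

namespace Fermat.Agent.S18.FrameInt33

open ModularCurve HahnSeries Polynomial IntermediateField
open Fermat.Agent.S18.Bridge28 Fermat.Agent.S18.BridgeO15 Fermat.Agent.S18.BridgeGauss15
open Fermat.Agent.S18.BridgeKernel15

variable {L : Type*} [Field L] {A : ValuationSubring L} {ι : Type*} [Fintype ι] (S : Frame A ι)

/-- `j` as an element of `F`. -/
def jF : S.F := ⟨S.j, S.hjF⟩

/-- `j` as an element of `O_F`. -/
def jO : S.OF := ⟨jF S, (S.mem_OF_iff _).2 S.hj⟩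

/-- the frame as elements of `O_F`. -/
def xOF (i : ι) : S.OF := ⟨⟨S.x i, S.hxF i⟩, (S.mem_OF_iff _).2 (S.hxO i)⟩

@[simp] theorem coe_jO : ((jO S : S.OF) : S.F) = jF S := rfl

@[simp] theorem coe_jF : ((jF S : S.F) : LaurentSeries L) = S.j := rfl

theorem rhoF_jO : S.rhoF (jO S) = S.t := rfl

theorem rhoF_xOF (i : ι) : S.rhoF (xOF S i) = rho A (S.xO i) := rfl

theorem transcendental_rhoF_jO : Transcendental (IsLocalRing.ResidueField A) (S.rhoF (jO S)) :=
  S.ht

/-- `O_F ∩ L ⊆ A`. -/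
theorem mem_A_of_mem_ringA (a : L) (ha : a ∈ GaussInt93.ringA L S.OF) : a ∈ A :=
  (S.algebraMap_mem_OF_iff a).1 ha

/-- the inclusion `O_F ∩ L → A` -/
def toA : GaussInt93.ringA L S.OF →+* A :=
  (GaussInt93.ringA L S.OF).subtype.codRestrict A (fun a => mem_A_of_mem_ringA S a a.2)

@[simp] theorem coe_toA (a : GaussInt93.ringA L S.OF) : ((toA S a : A) : L) = a := rfl

/-- the residue map of `O_F ∩ L`. -/
def rhoA : GaussInt93.ringA L S.OF →+* IsLocalRing.ResidueField A :=
  (IsLocalRing.residue A).comp (toA S)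

theorem isUnit_of_rhoF_ne_zero (x : S.OF) (hx : S.rhoF x ≠ 0) : IsUnit x := by
  by_contra hnu
  apply hx
  rw [S.rhoF_eq_zero_iff]
  rw [ValuationSubring.mem_nonunits_iff_exists_mem_maximalIdeal]
  exact ⟨x.2, (IsLocalRing.mem_maximalIdeal _).2 hnu⟩

/-- **compatible residue data** for `GaussInt93`. -/
theorem resData : GaussInt93.ResData S.OF S.rhoF (rhoA S) where
  isUnit_of_ne_zero := isUnit_of_rhoF_ne_zero S
  compat := by
    intro a
    have haA : (a : L) ∈ A := mem_A_of_mem_ringA S a a.2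
    rw [S.rhoF_apply, algebraMap_k_eq_C]
    have h := rho_C A haA
    show _ = HahnSeries.C (IsLocalRing.residue A (toA S a))
    have h2 : toA S a = ⟨(a : L), haA⟩ := rfl
    rw [h2, ← h]
    apply rho_congr
    show ((algebraMap L S.F (a : L) : S.F) : LaurentSeries L) = HahnSeries.C (a : L)
    rw [IntermediateField.coe_algebraMap_apply, algebraMap_eq_C]

/-- polynomials in `t` lie in `k(t)`. -/
theorem aeval_t_mem (p : (IsLocalRing.ResidueField A)[X]) :
    aeval S.t p ∈ (IsLocalRing.ResidueField A)⟮S.t⟯ := by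
  have h1 : Algebra.adjoin (IsLocalRing.ResidueField A) {S.t} ≤
      ((IsLocalRing.ResidueField A)⟮S.t⟯).toSubalgebra :=
    IntermediateField.algebra_adjoin_le_adjoin _ _
  exact h1 (aeval_mem_adjoin_singleton _ _)

/-- **residual independence** of the frame over `k[t]`. -/
theorem resIndep : GaussInt93.ResIndep (IsLocalRing.ResidueField A) S.rhoF (jO S) (xOF S) := by
  intro p hp
  have h := S.hli (fun i => aeval S.t (p i)) (fun i => aeval_t_mem S (p i)) hp
  intro i
  exact transcendental_iff.1 S.ht _ (h i)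

/-- an element of `L(j)` is a quotient of polynomials in `j` with nonzero denominator. -/
theorem exists_frac {c : LaurentSeries L} (hc : c ∈ L⟮S.j⟯) :
    ∃ r s : L[X], aeval S.j s ≠ 0 ∧ c * aeval S.j s = aeval S.j r := by
  obtain ⟨r, s, rfl⟩ := (IntermediateField.mem_adjoin_simple_iff L c).1 hc
  by_cases hs : aeval S.j s = 0
  · refine ⟨0, 1, by simp, ?_⟩
    rw [hs, div_zero, zero_mul, map_zero]
  · exact ⟨r, s, hs, div_mul_cancel₀ _ hs⟩

theorem coe_aeval_jF (p : L[X]) : ((aeval (jF S) p : S.F) : LaurentSeries L) = aeval S.j p := by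
  have h := Polynomial.aeval_algHom_apply (S.F.val) (jF S) p
  exact h.symm

/-- **spanning hypothesis** in denominator-cleared form. -/
theorem hspan (w : S.F) : ∃ (d : L[X]) (p : ι → L[X]), d ≠ 0 ∧
    aeval ((jO S : S.OF) : S.F) d * w = ∑ i, aeval ((jO S : S.OF) : S.F) (p i) * ((xOF S i : S.OF) : S.F) := by
  classical
  obtain ⟨c, hcj, hw⟩ := S.hspan (w : LaurentSeries L) w.2
  choose r s hs hrs using fun i => exists_frac S (hcj i)
  refine ⟨∏ i, s i, fun i => r i * ∏ i' ∈ Finset.univ.erase i, s i', ?_, ?_⟩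
  · intro h0
    have h1 : aeval S.j (∏ i, s i) = 0 := by rw [h0, map_zero]
    rw [map_prod] at h1
    obtain ⟨i, -, hi⟩ := Finset.prod_eq_zero_iff.1 h1
    exact hs i hi
  · apply Subtype.ext
    rw [coe_jO]
    push_cast
    rw [coe_aeval_jF, hw, Finset.mul_sum]
    refine Finset.sum_congr rfl fun i _ => ?_
    show _ = ((aeval (jF S) (r i * ∏ i' ∈ Finset.univ.erase i, s i') : S.F) : LaurentSeries L) * S.x i
    rw [coe_aeval_jF, map_mul, ← hrs i, ← Finset.mul_prod_erase Finset.univ s (Finset.mem_univ i),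
      map_mul]
    ring

/-- **INTEGRALITY LEMMA at the finite chart**: `z ∈ O_F` integral over `L[j]` ⇒ `ρ z` integral
over `k[t]`. -/
theorem red_isIntegral_fin (z : S.OF)
    (hz : (aeval (jF S) : L[X] →ₐ[L] S.F).toRingHom.IsIntegralElem (z : S.F)) :
    (aeval S.t : (IsLocalRing.ResidueField A)[X] →ₐ[IsLocalRing.ResidueField A]
      LaurentSeries (IsLocalRing.ResidueField A)).toRingHom.IsIntegralElem (S.rhoF z) :=
  GaussInt93.isIntegralElem_residue (resData S) (jO S) (transcendental_rhoF_jO S) (xOF S)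
    (resIndep S) (hspan S) z hz

/-- **INTEGRALITY LEMMA at the infinite chart**: `z ∈ O_F` integral over `L[j⁻¹]` ⇒ `ρ z`
integral over `k[t⁻¹]`. -/
theorem red_isIntegral_inf (z : S.OF)
    (hz : (aeval (jF S)⁻¹ : L[X] →ₐ[L] S.F).toRingHom.IsIntegralElem (z : S.F)) :
    (aeval (S.t)⁻¹ : (IsLocalRing.ResidueField A)[X] →ₐ[IsLocalRing.ResidueField A]
      LaurentSeries (IsLocalRing.ResidueField A)).toRingHom.IsIntegralElem (S.rhoF z) :=
  GaussInt93.isIntegralElem_residue_inv (resData S) (jO S) (transcendental_rhoF_jO S) (xOF S)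
    (resIndep S) (hspan S) z hz

/-- `j⁻¹` as an element of `O_F` (`j` is a unit of `O_F` since `t` is transcendental). -/
def jinvO : S.OF := GaussInt93.invO (resData S) (jO S) (transcendental_rhoF_jO S)

@[simp] theorem coe_jinvO : ((jinvO S : S.OF) : S.F) = (jF S)⁻¹ := rfl

theorem rhoF_jinvO : S.rhoF (jinvO S) = (S.t)⁻¹ :=
  GaussInt93.rho_invO (resData S) (jO S) (transcendental_rhoF_jO S)

/-- **twisted form** (`L(aE + bE')`-shape): if `y ∈ O_F`, `j^b y` is integral over `L[j]` and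
`j^(-a) y` is integral over `L[j⁻¹]`, then `t^b ρ(y)` is integral over `k[t]` and `t^(-a) ρ(y)` is
integral over `k[t⁻¹]`. -/
theorem red_isIntegral_twisted (y : S.OF) (a b : ℕ)
    (h1 : (aeval (jF S) : L[X] →ₐ[L] S.F).toRingHom.IsIntegralElem ((jF S) ^ b * (y : S.F)))
    (h2 : (aeval (jF S)⁻¹ : L[X] →ₐ[L] S.F).toRingHom.IsIntegralElem
      (((jF S)⁻¹) ^ a * (y : S.F))) :
    (aeval S.t : (IsLocalRing.ResidueField A)[X] →ₐ[IsLocalRing.ResidueField A]
      LaurentSeries (IsLocalRing.ResidueField A)).toRingHom.IsIntegralElem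
        (S.t ^ b * S.rhoF y) ∧
    (aeval (S.t)⁻¹ : (IsLocalRing.ResidueField A)[X] →ₐ[IsLocalRing.ResidueField A]
      LaurentSeries (IsLocalRing.ResidueField A)).toRingHom.IsIntegralElem
        ((S.t)⁻¹ ^ a * S.rhoF y) := by
  constructor
  · have := red_isIntegral_fin S (jO S ^ b * y) h1
    rwa [map_mul, map_pow, rhoF_jO] at this
  · have := red_isIntegral_inf S (jinvO S ^ a * y) h2
    rwa [map_mul, map_pow, rhoF_jinvO] at this

end Fermat.Agent.S18.FrameInt33
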