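import Mathlib

/-!
# S18 / LATTICE (helper89): linear algebra over a valuation ring

Mathlib-only package for the `[GAUSS]` / `[KLEMMA]` layers of the S18 blueprint.

* `exists_echelon`: every `L`-subspace `V` of `ι → L` (`ι` finite, `A` a valuation subring of `L`)
  has a *reduced echelon* family `b t` (`t` in a finite pivot set `T ⊆ ι`) with entries in `A`,
  `b t t' = δ`, and `f = ∑ t ∈ T, f t • b t` for every `f ∈ V`.
  Consequently `V ∩ A^ι = ⊕ A b_t` and the reductions of the `b t` are independent.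
* `nakayama_wrapper`: Nakayama for a finitely generated module over a local ring.
* `cramer_primitive`: Cramer's rule for an injective matrix over a domain.
-/

set_option autoImplicit false
set_option linter.unusedSectionVars false

namespace Fermat.Agent.S18.Lattice89

section Echelon

variable {L : Type*} [Field L] (A : ValuationSubring L) {ι : Type*} [Fintype ι]

/-- Existence of a coordinate of maximal valuation. -/
theorem exists_max_coord (v : ι → L) (hv : v ≠ 0) :
    ∃ i₀, v i₀ ≠ 0 ∧ ∀ i, A.valuation (v i) ≤ A.valuation (v i₀) := by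
  classical
  obtain ⟨j, hj⟩ : ∃ j, v j ≠ 0 := by
    by_contra h
    push Not at h
    exact hv (funext h)
  obtain ⟨i₀, -, hi₀⟩ := Finset.exists_max_image Finset.univ (fun i => A.valuation (v i))
    ⟨j, Finset.mem_univ j⟩
  refine ⟨i₀, ?_, fun i => hi₀ i (Finset.mem_univ i)⟩
  intro h0
  have h1 := hi₀ j (Finset.mem_univ j)
  rw [h0, map_zero] at h1
  exact hj ((map_eq_zero _).1 (le_antisymm h1 zero_le))

/-- **Echelon lemma.** -/
theorem exists_echelon [DecidableEq ι] (V : Submodule L (ι → L)) :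
    ∃ (T : Finset ι) (b : ι → ι → L),
      (∀ t ∈ T, b t ∈ V) ∧ (∀ t ∈ T, ∀ i, b t i ∈ A) ∧
      (∀ t ∈ T, ∀ t' ∈ T, b t t' = if t = t' then 1 else 0) ∧
      (∀ f ∈ V, f = ∑ t ∈ T, f t • b t) := by
  classical
  induction' hn : Module.finrank L V using Nat.strong_induction_on with n ih generalizing V
  by_cases hbot : V = ⊥
  · refine ⟨∅, 0, by simp, by simp, by simp, fun f hf => ?_⟩
    rw [hbot, Submodule.mem_bot] at hf
    simp [hf]
  obtain ⟨v, hvV, hv0⟩ := (Submodule.ne_bot_iff V).1 hbot
  obtain ⟨i₀, hi₀, hmax⟩ := exists_max_coord A v hv0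
  set w : ι → L := (v i₀)⁻¹ • v with hw
  have hwV : w ∈ V := V.smul_mem _ hvV
  have hw1 : w i₀ = 1 := by simp [hw, hi₀]
  have hwA : ∀ i, w i ∈ A := by
    intro i
    rw [← A.valuation_le_one_iff, hw, Pi.smul_apply, smul_eq_mul, map_mul, map_inv₀]
    have hpos : A.valuation (v i₀) ≠ 0 := (map_ne_zero _).2 hi₀
    calc (A.valuation (v i₀))⁻¹ * A.valuation (v i)
        ≤ (A.valuation (v i₀))⁻¹ * A.valuation (v i₀) := by
          have := hmax i
          gcongr
      _ = 1 := inv_mul_cancel₀ hpos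
  set V' : Submodule L (ι → L) := V ⊓ LinearMap.ker (LinearMap.proj (R := L) (φ := fun _ => L) i₀)
    with hV'
  have hV'le : V' ≤ V := inf_le_left
  have hV'0 : ∀ f ∈ V', f i₀ = 0 := fun f hf => by
    have := hf.2
    simpa [LinearMap.mem_ker] using this
  have hlt : V' < V := by
    refine lt_of_le_of_ne hV'le fun h => ?_
    have : w ∈ V' := h ▸ hwV
    have h0 := hV'0 w this
    rw [hw1] at h0
    exact one_ne_zero h0
  have hrank : Module.finrank L V' < n := hn ▸ Submodule.finrank_lt_finrank_of_lt hlt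
  obtain ⟨T', b', hb'V, hb'A, hb'δ, hb'span⟩ := ih _ hrank V' rfl
  have hb'0 : ∀ t ∈ T', b' t i₀ = 0 := fun t ht => hV'0 _ (hb'V t ht)
  have hi₀T' : i₀ ∉ T' := fun h => by
    have h1 := hb'δ i₀ h i₀ h
    rw [if_pos rfl, hb'0 i₀ h] at h1
    exact zero_ne_one h1
  set w' : ι → L := w - ∑ t ∈ T', w t • b' t with hw'
  have hw'V : w' ∈ V :=
    V.sub_mem hwV (V.sum_mem fun t ht => V.smul_mem _ (hV'le (hb'V t ht)))
  have hw'1 : w' i₀ = 1 := by
    rw [hw', Pi.sub_apply, Finset.sum_apply, hw1]
    rw [Finset.sum_eq_zero, sub_zero]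
    intro t ht
    rw [Pi.smul_apply, hb'0 t ht, smul_zero]
  have hw'0 : ∀ t' ∈ T', w' t' = 0 := by
    intro t' ht'
    rw [hw', Pi.sub_apply, Finset.sum_apply]
    rw [Finset.sum_eq_single t']
    · rw [Pi.smul_apply, hb'δ t' ht' t' ht', if_pos rfl, smul_eq_mul, mul_one, sub_self]
    · intro t ht hne
      rw [Pi.smul_apply, hb'δ t ht t' ht', if_neg hne, smul_zero]
    · intro h; exact absurd ht' h
  have hw'A : ∀ i, w' i ∈ A := by
    intro i
    rw [hw', Pi.sub_apply, Finset.sum_apply]
    refine sub_mem (hwA i) (sum_mem fun t ht => ?_)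
    rw [Pi.smul_apply, smul_eq_mul]
    exact mul_mem (hwA t) (hb'A t ht i)
  have hne : ∀ t ∈ T', t ≠ i₀ := fun t ht h => hi₀T' (h ▸ ht)
  refine ⟨insert i₀ T', Function.update b' i₀ w', ?_, ?_, ?_, ?_⟩
  · intro t ht
    rcases Finset.mem_insert.1 ht with h | h
    · rw [h, Function.update_self]; exact hw'V
    · rw [Function.update_of_ne (hne t h)]; exact hV'le (hb'V t h)
  · intro t ht i
    rcases Finset.mem_insert.1 ht with h | h
    · rw [h, Function.update_self]; exact hw'A i
    · rw [Function.update_of_ne (hne t h)]; exact hb'A t h i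
  · intro t ht t' ht'
    rcases Finset.mem_insert.1 ht with h | h <;> rcases Finset.mem_insert.1 ht' with h' | h'
    · rw [h, h', Function.update_self, if_pos rfl, hw'1]
    · rw [h, Function.update_self, if_neg (hne t' h').symm, hw'0 t' h']
    · rw [h', Function.update_of_ne (hne t h), if_neg (hne t h), hb'0 t h]
    · rw [Function.update_of_ne (hne t h), hb'δ t h t' h']
  · intro f hf
    set g : ι → L := f - f i₀ • w' with hg
    have hgV' : g ∈ V' := by
      refine ⟨V.sub_mem hf (V.smul_mem _ hw'V), ?_⟩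
      simp [LinearMap.mem_ker, hg, hw'1]
    have hgt : ∀ t ∈ T', g t = f t := fun t ht => by
      rw [hg, Pi.sub_apply, Pi.smul_apply, hw'0 t ht, smul_zero, sub_zero]
    have hgsum := hb'span g hgV'
    rw [Finset.sum_insert hi₀T', Function.update_self]
    have : ∑ t ∈ T', f t • Function.update b' i₀ w' t = ∑ t ∈ T', g t • b' t :=
      Finset.sum_congr rfl fun t ht => by rw [Function.update_of_ne (hne t ht), hgt t ht]
    rw [this, ← hgsum, hg]
    abel

end Echelon


section EchelonCor

variable {L : Type*} [Field L] (A : ValuationSubring L) {ι : Type*} [Fintype ι]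

/-- A reduced echelon family for `V` with pivot set `T`. -/
structure IsEchelon (V : Submodule L (ι → L)) (T : Finset ι) (b : ι → ι → L) : Prop where
  mem : ∀ t ∈ T, b t ∈ V
  integral : ∀ t ∈ T, ∀ i, b t i ∈ A
  diag : ∀ t ∈ T, b t t = 1
  offdiag : ∀ t ∈ T, ∀ t' ∈ T, t ≠ t' → b t t' = 0
  repr : ∀ f ∈ V, f = ∑ t ∈ T, f t • b t

theorem exists_isEchelon (V : Submodule L (ι → L)) :
    ∃ (T : Finset ι) (b : ι → ι → L), IsEchelon A V T b := by
  classical
  obtain ⟨T, b, h1, h2, h3, h4⟩ := exists_echelon A V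
  refine ⟨T, b, h1, h2, fun t ht => ?_, fun t ht t' ht' hne => ?_, h4⟩
  · rw [h3 t ht t ht, if_pos rfl]
  · rw [h3 t ht t' ht', if_neg hne]

variable {A} {V : Submodule L (ι → L)} {T : Finset ι} {b : ι → ι → L}

/-- The pivot coordinates of a combination are its coefficients. -/
theorem IsEchelon.coord (h : IsEchelon A V T b) (c : ι → L) {t' : ι} (ht' : t' ∈ T) :
    (∑ t ∈ T, c t • b t) t' = c t' := by
  classical
  rw [Finset.sum_apply, Finset.sum_eq_single t']
  · rw [Pi.smul_apply, h.diag t' ht', smul_eq_mul, mul_one]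
  · intro t ht hne
    rw [Pi.smul_apply, h.offdiag t ht t' ht' hne, smul_zero]
  · intro hn; exact absurd ht' hn

theorem IsEchelon.sum_mem (h : IsEchelon A V T b) (c : ι → L) : (∑ t ∈ T, c t • b t) ∈ V :=
  V.sum_mem fun t ht => V.smul_mem _ (h.mem t ht)

/-- Orthonormality, integral form: a combination with entries in `A` has coefficients in `A`. -/
theorem IsEchelon.coeff_mem (h : IsEchelon A V T b) (c : ι → L)
    (hc : ∀ i, (∑ t ∈ T, c t • b t) i ∈ A) : ∀ t ∈ T, c t ∈ A := fun t ht => by
  have := hc t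
  rwa [h.coord c ht] at this

/-- Orthonormality, strict form. -/
theorem IsEchelon.coeff_lt_one (h : IsEchelon A V T b) (c : ι → L)
    (hc : ∀ i, A.valuation ((∑ t ∈ T, c t • b t) i) < 1) : ∀ t ∈ T, A.valuation (c t) < 1 :=
  fun t ht => by
    have := hc t
    rwa [h.coord c ht] at this

/-- Conversely, integral coefficients give integral entries. -/
theorem IsEchelon.sum_integral (h : IsEchelon A V T b) (c : ι → L) (hc : ∀ t ∈ T, c t ∈ A) (i : ι) :
    (∑ t ∈ T, c t • b t) i ∈ A := by
  rw [Finset.sum_apply]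
  refine _root_.sum_mem fun t ht => ?_
  rw [Pi.smul_apply, smul_eq_mul]
  exact A.mul_mem _ _ (hc t ht) (h.integral t ht i)

theorem IsEchelon.sum_lt_one (h : IsEchelon A V T b) (c : ι → L)
    (hc : ∀ t ∈ T, A.valuation (c t) < 1) (i : ι) :
    A.valuation ((∑ t ∈ T, c t • b t) i) < 1 := by
  rw [Finset.sum_apply]
  refine A.valuation.map_sum_lt one_ne_zero fun t ht => ?_
  rw [Pi.smul_apply, smul_eq_mul, map_mul]
  calc A.valuation (c t) * A.valuation (b t i) ≤ A.valuation (c t) * 1 := by
        have := (A.valuation_le_one_iff _).2 (h.integral t ht i)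
        gcongr
    _ = A.valuation (c t) := mul_one _
    _ < 1 := hc t ht

/-- `V ∩ A^ι` is the `A`-span of the echelon family. -/
theorem IsEchelon.integral_iff (h : IsEchelon A V T b) (f : ι → L) :
    (f ∈ V ∧ ∀ i, f i ∈ A) ↔ ∃ c : ι → L, (∀ t ∈ T, c t ∈ A) ∧ f = ∑ t ∈ T, c t • b t := by
  constructor
  · rintro ⟨hf, hfA⟩
    exact ⟨f, fun t _ => hfA t, h.repr f hf⟩
  · rintro ⟨c, hc, rfl⟩
    exact ⟨h.sum_mem c, h.sum_integral c hc⟩

/-- Uniqueness of coefficients. -/
theorem IsEchelon.coeff_unique (h : IsEchelon A V T b) (c c' : ι → L)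
    (hcc : ∑ t ∈ T, c t • b t = ∑ t ∈ T, c' t • b t) : ∀ t ∈ T, c t = c' t := fun t ht => by
  rw [← h.coord c ht, ← h.coord c' ht, hcc]

theorem IsEchelon.linearIndependent (h : IsEchelon A V T b) :
    LinearIndependent L (fun t : T => b t) := by
  classical
  rw [Fintype.linearIndependent_iff]
  intro g hg t
  set c : ι → L := fun i => if hi : i ∈ T then g ⟨i, hi⟩ else 0 with hc
  have hsum : ∑ t ∈ T, c t • b t = 0 := by
    rw [← hg, ← Finset.sum_coe_sort T (fun t => c t • b t)]
    refine Finset.sum_congr rfl fun t _ => ?_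
    simp only [hc, t.2, dif_pos]
  have := h.coord c t.2
  rw [hsum, Pi.zero_apply] at this
  rw [hc] at this
  simp only [t.2, dif_pos] at this
  exact this.symm

theorem IsEchelon.span_eq (h : IsEchelon A V T b) :
    Submodule.span L (Set.range fun t : T => b t) = V := by
  apply le_antisymm
  · rw [Submodule.span_le]
    rintro _ ⟨t, rfl⟩
    exact h.mem t t.2
  · intro f hf
    rw [h.repr f hf]
    refine Submodule.sum_mem _ fun t ht => Submodule.smul_mem _ _ (Submodule.subset_span ⟨⟨t, ht⟩, rfl⟩)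

theorem IsEchelon.card_eq_finrank (h : IsEchelon A V T b) : T.card = Module.finrank L V := by
  have h1 := finrank_span_eq_card h.linearIndependent
  rw [h.span_eq] at h1
  rw [h1, Fintype.card_coe]

end EchelonCor

section Pullback

variable {L : Type*} [Field L] (A : ValuationSubring L) {ι : Type*} [Fintype ι]
variable {F : Type*} [Field F] [Algebra L F] (O : ValuationSubring F)

/-- **Lattice lemma, pulled back along an isometric coordinate map.**
`V` a finite-dimensional `L`-subspace of a valued field `(F, O)`, `φ : V → L^ι` an injective linear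
map with `y ∈ O ↔ φ y ∈ A^ι` and `y ∈ 𝔪_O ↔ φ y ∈ 𝔪_A^ι`.  Then `V` has an `L`-basis `v`
consisting of elements of `O` which is orthonormal: a combination lies in `O` (resp. `𝔪_O`) iff
all its coefficients lie in `A` (resp. `𝔪_A`). -/
theorem exists_orthonormal_basis (V : Submodule L F) (φ : V →ₗ[L] (ι → L))
    (hinj : Function.Injective φ)
    (hφ : ∀ y : V, (y : F) ∈ O ↔ ∀ i, φ y i ∈ A)
    (hφ' : ∀ y : V, O.valuation (y : F) < 1 ↔ ∀ i, A.valuation (φ y i) < 1) :
    ∃ (T : Finset ι) (v : T → F), (∀ t, v t ∈ V) ∧ (∀ t, v t ∈ O) ∧ LinearIndependent L v ∧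
      Submodule.span L (Set.range v) = V ∧ T.card = Module.finrank L V ∧
      (∀ c : T → L, (∑ t, c t • v t) ∈ O ↔ ∀ t, c t ∈ A) ∧
      (∀ c : T → L, O.valuation (∑ t, c t • v t) < 1 ↔ ∀ t, A.valuation (c t) < 1) := by
  classical
  obtain ⟨T, b, h⟩ := exists_isEchelon A (LinearMap.range φ)
  have hpre : ∀ t : T, ∃ y : V, φ y = b t := fun t => h.mem t t.2
  choose w hw using hpre
  -- combination formula
  have hcomb : ∀ c : T → L, φ (∑ t, c t • w t) = ∑ t ∈ T, (fun i => if hi : i ∈ T then c ⟨i, hi⟩ else 0) t • b t := by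
    intro c
    rw [map_sum, ← Finset.sum_coe_sort T]
    refine Finset.sum_congr rfl fun t _ => ?_
    rw [map_smul, hw]
    simp only [t.2, dif_pos]
  have hcoe : ∀ c : T → L, ((∑ t, c t • w t : V) : F) = ∑ t, c t • (w t : F) := by
    intro c
    rw [Submodule.coe_sum]
    rfl
  have hlin : LinearIndependent L w := by
    have h1 : LinearIndependent L (fun t : T => φ (w t)) := by
      simp only [hw]; exact h.linearIndependent
    exact LinearIndependent.of_comp φ h1
  have hspanw : Submodule.span L (Set.range w) = ⊤ := by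
    rw [eq_top_iff]
    intro y _
    have hy : φ y ∈ LinearMap.range φ := ⟨y, rfl⟩
    have hrepr := h.repr (φ y) hy
    have : φ y = φ (∑ t : T, (φ y t) • w t) := by
      rw [map_sum]
      simp only [map_smul, hw]
      rw [Finset.sum_coe_sort T (fun t => φ y t • b t)]
      exact hrepr
    rw [hinj this]
    exact Submodule.sum_mem _ fun t _ => Submodule.smul_mem _ _ (Submodule.subset_span ⟨t, rfl⟩)
  refine ⟨T, fun t => (w t : F), fun t => (w t).2, fun t => ?_, ?_, ?_, ?_, ?_, ?_⟩
  · rw [hφ, hw]; exact h.integral t t.2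
  · exact hlin.map' V.subtype (Submodule.ker_subtype V)
  · have : (Set.range fun t : T => (w t : F)) = V.subtype '' Set.range w := by
      rw [← Set.range_comp]; rfl
    rw [this, Submodule.span_image, hspanw, Submodule.map_top, Submodule.range_subtype]
  · rw [h.card_eq_finrank, LinearMap.finrank_range_of_inj hinj]
  · intro c
    rw [← hcoe, hφ, hcomb]
    constructor
    · intro hc t
      have := h.coeff_mem _ hc t t.2
      simpa only [t.2, dif_pos] using this
    · intro hc
      refine h.sum_integral _ fun t ht => ?_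
      simp only [ht, dif_pos]
      exact hc ⟨t, ht⟩
  · intro c
    rw [← hcoe, hφ', hcomb]
    constructor
    · intro hc t
      have := h.coeff_lt_one _ hc t t.2
      simpa only [t.2, dif_pos] using this
    · intro hc
      refine h.sum_lt_one _ fun t ht => ?_
      simp only [ht, dif_pos]
      exact hc ⟨t, ht⟩

end Pullback

section Nakayama

open IsLocalRing

/-- Nakayama for a finitely generated submodule over a local ring: if every element of `Λ` is
congruent to an element of `Λ'` modulo `𝔪 Λ`, then `Λ ≤ Λ'`. -/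
theorem nakayama_wrapper {R M : Type*} [CommRing R] [IsLocalRing R] [AddCommGroup M] [Module R M]
    {Λ Λ' : Submodule R M} (hfg : Λ.FG) (h : Λ ≤ Λ' ⊔ maximalIdeal R • Λ) : Λ ≤ Λ' :=
  Submodule.le_of_le_smul_of_le_jacobson_bot hfg
    (by rw [IsLocalRing.jacobson_eq_maximalIdeal ⊥ bot_ne_top]) h

theorem nakayama_wrapper' {R M : Type*} [CommRing R] [IsLocalRing R] [AddCommGroup M] [Module R M]
    {Λ Λ' : Submodule R M} (hfg : Λ.FG)
    (h : ∀ x ∈ Λ, ∃ y ∈ Λ', x - y ∈ maximalIdeal R • Λ) : Λ ≤ Λ' := by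
  refine nakayama_wrapper hfg fun x hx => ?_
  obtain ⟨y, hy, hxy⟩ := h x hx
  rw [Submodule.mem_sup]
  exact ⟨y, hy, x - y, hxy, by abel⟩

end Nakayama

section Cramer

variable {R : Type*} [CommRing R] [IsDomain R]

/-- **Cramer, matrix form**: an injective matrix over a domain has a left inverse up to a nonzero
scalar. -/
theorem exists_left_inverse_up_to_scalar {m n : Type*} [Fintype m] [Fintype n] [DecidableEq n]
    [DecidableEq m]
    (M : Matrix m n R) (hinj : Function.Injective M.mulVec) :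
    ∃ (d : R) (N : Matrix n m R), d ≠ 0 ∧ N * M = d • (1 : Matrix n n R) := by
  classical
  set K := FractionRing R
  set MK : Matrix m n K := M.map (algebraMap R K) with hMK
  -- injectivity over `K`
  have hinjK : Function.Injective (Matrix.toLin' MK) := by
    rw [injective_iff_map_eq_zero]
    intro x hx
    rw [Matrix.toLin'_apply] at hx
    obtain ⟨⟨d, hd⟩, hdx⟩ := IsLocalization.exist_integer_multiples_of_finite (nonZeroDivisors R) x
    choose y hy using hdx
    have hd0 : (algebraMap R K d) ≠ 0 := by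
      rw [Ne, IsFractionRing.to_map_eq_zero_iff]
      exact nonZeroDivisors.ne_zero hd
    have hy' : ∀ i, algebraMap R K (y i) = algebraMap R K d * x i := fun i => by
      rw [hy i, Algebra.smul_def]
    have hMy : M.mulVec y = 0 := by
      funext i
      apply IsFractionRing.injective R K
      rw [Pi.zero_apply, map_zero]
      have : algebraMap R K (M.mulVec y i) = algebraMap R K d * MK.mulVec x i := by
        simp only [Matrix.mulVec, dotProduct, map_sum, map_mul, hy', hMK, Matrix.map_apply,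
          Finset.mul_sum]
        refine Finset.sum_congr rfl fun j _ => by ring
      rw [this, hx, Pi.zero_apply, mul_zero]
    have hy0 : y = 0 := hinj (by rw [hMy, Matrix.mulVec_zero])
    funext i
    have := hy' i
    rw [hy0, Pi.zero_apply, map_zero] at this
    rcases mul_eq_zero.1 this.symm with h | h
    · exact absurd h hd0
    · exact h
  -- left inverse over `K`
  obtain ⟨g, hg⟩ := LinearMap.exists_leftInverse_of_injective (Matrix.toLin' MK)
    (LinearMap.ker_eq_bot.2 hinjK)
  set NK : Matrix n m K := LinearMap.toMatrix' g with hNK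
  have hNM : NK * MK = 1 := by
    have : LinearMap.toMatrix' (g.comp (Matrix.toLin' MK)) = NK * MK := by
      rw [LinearMap.toMatrix'_comp, LinearMap.toMatrix'_toLin']
    rw [← this, hg, LinearMap.toMatrix'_id]
  -- clear denominators
  obtain ⟨⟨d, hd⟩, hdN⟩ := IsLocalization.exist_integer_multiples_of_finite (nonZeroDivisors R)
    (fun p : n × m => NK p.1 p.2)
  choose N' hN' using hdN
  refine ⟨d, Matrix.of fun i j => N' (i, j), nonZeroDivisors.ne_zero hd, ?_⟩
  apply Matrix.map_injective (IsFractionRing.injective R K)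
  have hNmap : (Matrix.of fun i j => N' (i, j)).map (algebraMap R K) = algebraMap R K d • NK := by
    ext i j
    rw [Matrix.map_apply, Matrix.of_apply, hN' (i, j), Matrix.smul_apply, smul_eq_mul]
    exact Algebra.smul_def _ _
  show ((Matrix.of fun i j => N' (i, j)) * M).map (algebraMap R K) =
    (d • (1 : Matrix n n R)).map (algebraMap R K)
  rw [Matrix.map_mul, hNmap, ← hMK, Matrix.smul_mul, hNM]
  ext i j
  rw [Matrix.smul_apply, Matrix.map_apply, Matrix.smul_apply, Matrix.one_apply, Matrix.one_apply]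
  split_ifs <;> simp

/-- **Cramer, divisibility form.** -/
theorem cramer_primitive {m n : Type*} [Fintype m] [Fintype n] [DecidableEq n] [DecidableEq m]
    (M : Matrix m n R) (hinj : Function.Injective M.mulVec) :
    ∃ d : R, d ≠ 0 ∧ ∀ (ξ : n → R) (π : R), (∀ i, π ∣ M.mulVec ξ i) → ∀ j, π ∣ d * ξ j := by
  obtain ⟨d, N, hd, hNM⟩ := exists_left_inverse_up_to_scalar M hinj
  refine ⟨d, hd, fun ξ π hπ j => ?_⟩
  have h1 : N.mulVec (M.mulVec ξ) = d • ξ := by
    rw [Matrix.mulVec_mulVec, hNM, Matrix.smul_mulVec, Matrix.one_mulVec]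
  have h2 : d * ξ j = N.mulVec (M.mulVec ξ) j := by rw [h1, Pi.smul_apply, smul_eq_mul]
  rw [h2, Matrix.mulVec, dotProduct]
  exact Finset.dvd_sum fun i _ => Dvd.dvd.mul_left (hπ i) _

end Cramer


section CramerModule

open IsLocalRing

variable {R : Type*} [CommRing R] [IsDomain R]
variable {Λ₁ Λ₂ : Type*} [AddCommGroup Λ₁] [Module R Λ₁] [Module.Free R Λ₁] [Module.Finite R Λ₁]
  [AddCommGroup Λ₂] [Module R Λ₂] [Module.Free R Λ₂] [Module.Finite R Λ₂]

/-- **Cramer, module form**: an injective linear map between finite free modules over a domain has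
a left inverse up to a nonzero scalar. -/
theorem exists_comp_eq_smul_id (φ : Λ₁ →ₗ[R] Λ₂) (hφ : Function.Injective φ) :
    ∃ (d : R) (ψ : Λ₂ →ₗ[R] Λ₁), d ≠ 0 ∧ ∀ x, ψ (φ x) = d • x := by
  classical
  set b₁ := Module.Free.chooseBasis R Λ₁
  set b₂ := Module.Free.chooseBasis R Λ₂
  set M := LinearMap.toMatrix b₁ b₂ φ with hM
  have hinj : Function.Injective M.mulVec := by
    intro ξ ξ' h
    have h1 : ∀ ζ : Module.Free.ChooseBasisIndex R Λ₁ → R,
        M.mulVec ζ = b₂.repr (φ (b₁.equivFun.symm ζ)) := by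
      intro ζ
      have := LinearMap.toMatrix_mulVec_repr b₁ b₂ φ (b₁.equivFun.symm ζ)
      rw [← this, ← Module.Basis.equivFun_apply, LinearEquiv.apply_symm_apply]
    rw [h1, h1] at h
    have h2 := hφ (b₂.repr.injective (DFunLike.coe_injective h))
    exact b₁.equivFun.symm.injective h2
  obtain ⟨d, N, hd, hNM⟩ := exists_left_inverse_up_to_scalar M hinj
  refine ⟨d, Matrix.toLin b₂ b₁ N, hd, fun x => ?_⟩
  have h1 : (Matrix.toLin b₂ b₁ N).comp φ = Matrix.toLin b₁ b₁ (N * M) := by
    rw [Matrix.toLin_mul b₁ b₂ b₁, hM, Matrix.toLin_toMatrix]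
  have h2 : Matrix.toLin b₁ b₁ (d • (1 : Matrix _ _ R)) = d • LinearMap.id := by
    rw [map_smul, Matrix.toLin_one]
  have := congrArg (fun f : Λ₁ →ₗ[R] Λ₁ => f x) (h1.trans (hNM ▸ h2))
  simpa using this

/-- **No primitive approximate kernel.**  If `φ` is injective there is `d ≠ 0` such that whenever a
primitive vector `ξ` (not in `𝔪 Λ₁`) has `φ ξ ∈ π Λ₂`, then `π ∣ d`. -/
theorem dvd_of_primitive_of_map_mem [IsLocalRing R] (φ : Λ₁ →ₗ[R] Λ₂) (hφ : Function.Injective φ) :
    ∃ d : R, d ≠ 0 ∧ ∀ (ξ : Λ₁) (π : R), ξ ∉ (maximalIdeal R • ⊤ : Submodule R Λ₁) →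
      (∃ η : Λ₂, φ ξ = π • η) → π ∣ d := by
  classical
  obtain ⟨d, ψ, hd, hψ⟩ := exists_comp_eq_smul_id φ hφ
  refine ⟨d, hd, fun ξ π hξ ⟨η, hη⟩ => ?_⟩
  set b₁ := Module.Free.chooseBasis R Λ₁
  have h1 : d • ξ = π • ψ η := by rw [← hψ, hη, map_smul]
  obtain ⟨j, hj⟩ : ∃ j, b₁.repr ξ j ∉ maximalIdeal R := by
    by_contra hall
    push Not at hall
    apply hξ
    rw [← b₁.sum_repr ξ]
    exact Submodule.sum_mem _ fun j _ => Submodule.smul_mem_smul (hall j) Submodule.mem_top
  have hu : IsUnit (b₁.repr ξ j) := by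
    by_contra hnu
    exact hj ((IsLocalRing.mem_maximalIdeal _).2 hnu)
  obtain ⟨u, hu⟩ := hu
  have h2 : d * b₁.repr ξ j = π * b₁.repr (ψ η) j := by
    have := congrArg (fun z => b₁.repr z j) h1
    simpa using this
  refine ⟨b₁.repr (ψ η) j * (↑u⁻¹ : R), ?_⟩
  rw [← mul_assoc, ← h2, ← hu, mul_assoc, Units.mul_inv, mul_one]

end CramerModule

section Isometry

variable {L : Type*} [Field L] (A : ValuationSubring L) {ι : Type*} [Fintype ι]
variable {F : Type*} [Field F] [Algebra L F] (O : ValuationSubring F)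

/-- If `(F, O)` and `(L, A)` have the same value group, the strict isometry property of a coordinate
map follows from the non-strict one. -/
theorem lt_one_iff_of_isometry (hOA : ∀ c : L, algebraMap L F c ∈ O ↔ c ∈ A)
    (hval : ∀ y : F, y ≠ 0 → ∃ c : L, c ≠ 0 ∧ O.valuation y = O.valuation (algebraMap L F c))
    (V : Submodule L F) (φ : V →ₗ[L] (ι → L)) (hinj : Function.Injective φ)
    (hφ : ∀ y : V, (y : F) ∈ O ↔ ∀ i, φ y i ∈ A) (y : V) :
    O.valuation (y : F) < 1 ↔ ∀ i, A.valuation (φ y i) < 1 := by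
  classical
  have hlt : ∀ c : L, c ≠ 0 → (A.valuation c < 1 ↔ O.valuation (algebraMap L F c) < 1) := by
    intro c hc
    have h1 : A.valuation c < 1 ↔ c⁻¹ ∉ A := by
      rw [← A.valuation_le_one_iff, map_inv₀, not_le, one_lt_inv₀ ((A.valuation.pos_iff).2 hc)]
    have hc' : algebraMap L F c ≠ 0 := (map_ne_zero _).2 hc
    have h2 : O.valuation (algebraMap L F c) < 1 ↔ (algebraMap L F c)⁻¹ ∉ O := by
      rw [← O.valuation_le_one_iff, map_inv₀, not_le, one_lt_inv₀ ((O.valuation.pos_iff).2 hc')]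
    rw [h1, h2, ← map_inv₀, hOA]
  constructor
  · intro hy i
    by_cases hy0 : (y : F) = 0
    · have : y = 0 := Subtype.ext hy0
      rw [this, map_zero, Pi.zero_apply, map_zero]; exact zero_lt_one
    obtain ⟨c, hc, hyc⟩ := hval _ hy0
    have hcA : A.valuation c < 1 := (hlt c hc).2 (hyc ▸ hy)
    have hmem : ((c⁻¹ • y : V) : F) ∈ O := by
      rw [← O.valuation_le_one_iff, Submodule.coe_smul, Algebra.smul_def, map_mul, map_inv₀, map_inv₀,
        hyc]
      rw [inv_mul_cancel₀ ((map_ne_zero _).2 ((map_ne_zero _).2 hc))]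
    have := (hφ _).1 hmem i
    rw [map_smul, Pi.smul_apply, smul_eq_mul, ← A.valuation_le_one_iff, map_mul, map_inv₀] at this
    have hcpos : 0 < A.valuation c := (A.valuation.pos_iff).2 hc
    have h3 : A.valuation (φ y i) ≤ A.valuation c := by
      rwa [inv_mul_le_iff₀ hcpos, mul_one] at this
    exact lt_of_le_of_lt h3 hcA
  · intro hall
    by_cases hy0 : φ y = 0
    · have : y = 0 := hinj (by rw [hy0, map_zero])
      rw [this, Submodule.coe_zero, map_zero]; exact zero_lt_one
    obtain ⟨i₀, hi₀, hmax⟩ := exists_max_coord A (φ y) hy0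
    set a := φ y i₀ with ha
    have hapos : 0 < A.valuation a := (A.valuation.pos_iff).2 hi₀
    have hmem : ((a⁻¹ • y : V) : F) ∈ O := by
      rw [hφ]
      intro i
      rw [map_smul, Pi.smul_apply, smul_eq_mul, ← A.valuation_le_one_iff, map_mul, map_inv₀,
        inv_mul_le_iff₀ hapos, mul_one]
      exact hmax i
    rw [← O.valuation_le_one_iff, Submodule.coe_smul, Algebra.smul_def, map_mul, map_inv₀,
      map_inv₀] at hmem
    have ha' : O.valuation (algebraMap L F a) < 1 := (hlt a hi₀).1 (hall i₀)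
    have hapos' : 0 < O.valuation (algebraMap L F a) :=
      (O.valuation.pos_iff).2 ((map_ne_zero _).2 hi₀)
    rw [inv_mul_le_iff₀ hapos', mul_one] at hmem
    exact lt_of_le_of_lt hmem ha'

end Isometry

end Fermat.Agent.S18.Lattice89
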