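import Mathlib
import Fermat.Agent.S18.Lattice89

/-!
# S18 / [GAUSS]-COORD (helper89): orthonormal frames and the lattice lemma in a valued field

Mathlib-only.  `w : Valuation F Γ₀`, `L` a subfield of `F` (via `Algebra L F`).

* `ResIndep w e`: the family `e : I → F` is *residually independent* over `L`: every
  `L`-combination with integral coefficients, one of which is a unit, has valuation `1`.
* `ResIndep.val_eq`, `le_one_iff`, `lt_one_iff`: such a family is orthonormal.
* `exists_orthonormal_basis_of_frame`: if `β * V ⊆ span_L (e)` with `w β = 1`, the finite-dim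
  `L`-subspace `V` of `F` has an orthonormal basis (LATTICE LEMMA in `F`).
* `lemmaB`: `r = dim V` residually independent integral elements of `V` span `V ∩ O_w` over `A`.
-/

set_option autoImplicit false
set_option linter.unusedSectionVars false

namespace Fermat.Agent.S18.GaussCoord89

open Fermat.Agent.S18.Lattice89

variable {L F Γ₀ : Type*} [Field L] [Field F] [Algebra L F] [LinearOrderedCommGroupWithZero Γ₀]
variable (w : Valuation F Γ₀)

/-- Residual independence of a family over `L` with respect to `w`. -/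
def ResIndep {I : Type*} (e : I → F) : Prop :=
  ∀ a : I →₀ L, (∀ i, w (algebraMap L F (a i)) ≤ 1) → (∃ i, w (algebraMap L F (a i)) = 1) →
    w (Finsupp.linearCombination L e a) = 1

variable {w}

section ResIndep

variable {I : Type*} {e : I → F}

/-- Orthonormality: the valuation of a combination is the maximal valuation of its coefficients. -/
theorem ResIndep.val_eq (he : ResIndep (L := L) w e) (a : I →₀ L) (ha : a ≠ 0) :
    ∃ i₀ ∈ a.support, (∀ i, w (algebraMap L F (a i)) ≤ w (algebraMap L F (a i₀))) ∧
      w (Finsupp.linearCombination L e a) = w (algebraMap L F (a i₀)) := by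
  classical
  have hne : a.support.Nonempty := Finsupp.support_nonempty_iff.2 ha
  obtain ⟨i₀, hi₀, hmax⟩ := Finset.exists_max_image a.support
    (fun i => w (algebraMap L F (a i))) hne
  have hmax' : ∀ i, w (algebraMap L F (a i)) ≤ w (algebraMap L F (a i₀)) := by
    intro i
    by_cases hi : i ∈ a.support
    · exact hmax i hi
    · rw [Finsupp.notMem_support_iff.1 hi, map_zero, map_zero]; exact zero_le
  refine ⟨i₀, hi₀, hmax', ?_⟩
  set c := a i₀ with hc
  have hc0 : c ≠ 0 := Finsupp.mem_support_iff.1 hi₀
  have hwc : w (algebraMap L F c) ≠ 0 := (map_ne_zero _).2 ((map_ne_zero _).2 hc0)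
  have h1 := he (c⁻¹ • a) (fun i => ?_) ⟨i₀, ?_⟩
  · rw [map_smul, Algebra.smul_def, map_mul, map_inv₀, map_inv₀] at h1
    rw [← mul_one (w (algebraMap L F c)), ← h1, mul_inv_cancel_left₀ hwc]
  · rw [Finsupp.smul_apply, smul_eq_mul, map_mul, map_mul, map_inv₀, map_inv₀]
    calc (w (algebraMap L F c))⁻¹ * w (algebraMap L F (a i))
        ≤ (w (algebraMap L F c))⁻¹ * w (algebraMap L F c) := by
          have := hmax' i
          gcongr
      _ = 1 := inv_mul_cancel₀ hwc
  · rw [Finsupp.smul_apply, smul_eq_mul, ← hc, inv_mul_cancel₀ hc0, map_one, map_one]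

theorem ResIndep.le_one_iff (he : ResIndep (L := L) w e) (a : I →₀ L) :
    w (Finsupp.linearCombination L e a) ≤ 1 ↔ ∀ i, w (algebraMap L F (a i)) ≤ 1 := by
  by_cases ha : a = 0
  · subst ha; simp
  obtain ⟨i₀, -, hmax, hval⟩ := he.val_eq a ha
  rw [hval]
  exact ⟨fun h i => (hmax i).trans h, fun h => h i₀⟩

theorem ResIndep.lt_one_iff (he : ResIndep (L := L) w e) (a : I →₀ L) :
    w (Finsupp.linearCombination L e a) < 1 ↔ ∀ i, w (algebraMap L F (a i)) < 1 := by
  by_cases ha : a = 0
  · subst ha; simp
  obtain ⟨i₀, -, hmax, hval⟩ := he.val_eq a ha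
  rw [hval]
  exact ⟨fun h i => lt_of_le_of_lt (hmax i) h, fun h => h i₀⟩

theorem ResIndep.linearIndependent (he : ResIndep (L := L) w e) : LinearIndependent L e := by
  rw [linearIndependent_iff]
  intro a ha
  by_contra hne
  obtain ⟨i₀, hi₀, -, hval⟩ := he.val_eq a hne
  rw [ha, map_zero] at hval
  exact (map_ne_zero w).2 ((map_ne_zero _).2 (Finsupp.mem_support_iff.1 hi₀)) hval.symm

theorem ResIndep.val_one (he : ResIndep (L := L) w e) (i : I) : w (e i) = 1 := by
  have := he (Finsupp.single i 1) (fun j => ?_) ⟨i, by simp⟩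
  · simpa using this
  · classical
    rw [Finsupp.single_apply]
    split_ifs <;> simp

/-- Value-group statement: a nonzero element of the span has the valuation of an element of `L`. -/
theorem ResIndep.exists_val_eq (he : ResIndep (L := L) w e) {z : F}
    (hz : z ∈ Submodule.span L (Set.range e)) (hz0 : z ≠ 0) :
    ∃ c : L, c ≠ 0 ∧ w z = w (algebraMap L F c) := by
  obtain ⟨a, rfl⟩ := (Finsupp.mem_span_range_iff_exists_finsupp).1 hz
  have ha : a ≠ 0 := by
    rintro rfl
    exact hz0 (by simp)
  obtain ⟨i₀, hi₀, -, hval⟩ := he.val_eq a ha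
  refine ⟨a i₀, Finsupp.mem_support_iff.1 hi₀, ?_⟩
  rw [← hval, Finsupp.linearCombination_apply]

end ResIndep


section Convert

/-- Conversion between `w` and the valuation of its valuation subring. -/
theorem valuationSubring_lt_one_iff (x : F) :
    w.valuationSubring.valuation x < 1 ↔ w x < 1 :=
  ((Valuation.isEquiv_valuation_valuationSubring w).lt_one_iff_lt_one).symm

end Convert

section Main

variable {I : Type*} {e : I → F}

/-- **LATTICE LEMMA in `F`**: if `β * V` lies in the span of a residually independent family and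
`w β = 1`, then the finite-dimensional `L`-subspace `V` has an orthonormal basis. -/
theorem exists_orthonormal_basis_of_frame (he : ResIndep (L := L) w e) (V : Submodule L F)
    [FiniteDimensional L V] (β : F) (hβ : w β = 1)
    (hV : ∀ z ∈ V, β * z ∈ Submodule.span L (Set.range e)) :
    ∃ (r : ℕ) (v : Fin r → F), r = Module.finrank L V ∧ (∀ t, v t ∈ V) ∧ (∀ t, w (v t) ≤ 1) ∧
      LinearIndependent L v ∧ Submodule.span L (Set.range v) = V ∧
      (∀ c : Fin r → L, w (∑ t, c t • v t) ≤ 1 ↔ ∀ t, w (algebraMap L F (c t)) ≤ 1) ∧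
      (∀ c : Fin r → L, w (∑ t, c t • v t) < 1 ↔ ∀ t, w (algebraMap L F (c t)) < 1) := by
  classical
  have hβ0 : β ≠ 0 := by
    rintro rfl
    rw [map_zero] at hβ
    exact zero_ne_one hβ
  have hli := he.linearIndependent
  -- multiplication by β into the span
  let mulβ : V →ₗ[L] Submodule.span L (Set.range e) :=
    { toFun := fun z => ⟨β * (z : F), hV z z.2⟩
      map_add' := fun z z' => by
        apply Subtype.ext
        simp [mul_add]
      map_smul' := fun c z => by
        apply Subtype.ext
        simp }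
  let φ₀ : V →ₗ[L] (I →₀ L) := hli.repr ∘ₗ mulβ
  have hφ₀ : ∀ z : V, Finsupp.linearCombination L e (φ₀ z) = β * (z : F) := by
    intro z
    exact hli.linearCombination_repr (mulβ z)
  -- a finite set of indices carrying all supports
  let bV := Module.finBasis L V
  let T : Finset I := Finset.univ.biUnion fun s => (φ₀ (bV s)).support
  have hT : ∀ z : V, φ₀ z ∈ Finsupp.supported L L (T : Set I) := by
    have hle : (⊤ : Submodule L V) ≤ (Finsupp.supported L L (T : Set I)).comap φ₀ := by
      rw [← bV.span_eq, Submodule.span_le]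
      rintro _ ⟨s, rfl⟩
      show φ₀ (bV s) ∈ Finsupp.supported L L (T : Set I)
      rw [Finsupp.mem_supported]
      intro i hi
      exact Finset.mem_biUnion.2 ⟨s, Finset.mem_univ s, hi⟩
    exact fun z => hle (Submodule.mem_top (x := z))
  have hT0 : ∀ (z : V) (i : I), i ∉ T → φ₀ z i = 0 := by
    intro z i hi
    have := (Finsupp.mem_supported L (φ₀ z)).1 (hT z)
    by_contra h
    exact hi (this (Finsupp.mem_support_iff.2 h))
  let ψ : V →ₗ[L] (T → L) := LinearMap.pi fun t => (Finsupp.lapply (t : I)) ∘ₗ φ₀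
  have hψ : ∀ (z : V) (t : T), ψ z t = φ₀ z t := fun z t => rfl
  have hall : ∀ (z : V) (P : L → Prop), P 0 → ((∀ i, P (φ₀ z i)) ↔ ∀ t : T, P (ψ z t)) := by
    intro z P hP0
    constructor
    · intro h t; exact h t
    · intro h i
      by_cases hi : i ∈ T
      · exact h ⟨i, hi⟩
      · rw [hT0 z i hi]; exact hP0
  have hinj : Function.Injective ψ := by
    rw [injective_iff_map_eq_zero]
    intro z hz
    have h0 : φ₀ z = 0 := by
      ext i
      have := (hall z (fun c => c = 0) rfl).2 (fun t => by rw [hz]; rfl) i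
      simpa using this
    have h1 := hφ₀ z
    rw [h0, map_zero] at h1
    have : (z : F) = 0 := by
      rcases mul_eq_zero.1 h1.symm with h | h
      · exact absurd h hβ0
      · exact h
    exact Subtype.ext this
  have hwβz : ∀ z : V, w (β * (z : F)) = w (z : F) := fun z => by rw [map_mul, hβ, one_mul]
  set A : ValuationSubring L := (w.comap (algebraMap L F)).valuationSubring with hA
  set O : ValuationSubring F := w.valuationSubring with hO
  have hφ : ∀ y : V, (y : F) ∈ O ↔ ∀ i, ψ y i ∈ A := by
    intro y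
    rw [hO, Valuation.mem_valuationSubring_iff, ← hwβz, ← hφ₀, he.le_one_iff,
      hall y (fun c => w (algebraMap L F c) ≤ 1) (by simp)]
    rfl
  have hφ' : ∀ y : V, O.valuation (y : F) < 1 ↔ ∀ i, A.valuation (ψ y i) < 1 := by
    intro y
    rw [hO, valuationSubring_lt_one_iff, ← hwβz, ← hφ₀, he.lt_one_iff,
      hall y (fun c => w (algebraMap L F c) < 1) (by simp)]
    refine forall_congr' fun t => ?_
    rw [hA, valuationSubring_lt_one_iff]
    rfl
  obtain ⟨T', v, hvV, hvO, hlin, hspan, hcard, hint, hstr⟩ :=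
    exists_orthonormal_basis A O V ψ hinj hφ hφ'
  let eqv : Fin T'.card ≃ T' := (Finset.equivFin T').symm
  have hsum : ∀ c : Fin T'.card → L,
      ∑ t, c t • v (eqv t) = ∑ s : T', (c (eqv.symm s)) • v s := by
    intro c
    rw [← Equiv.sum_comp eqv]
    simp
  refine ⟨T'.card, v ∘ eqv, hcard, fun t => hvV _, fun t => ?_, hlin.comp eqv eqv.injective, ?_,
    ?_, ?_⟩
  · have := hvO (eqv t)
    rwa [hO, Valuation.mem_valuationSubring_iff] at this
  · rw [Set.range_comp, eqv.range_eq_univ, Set.image_univ]
    exact hspan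
  · intro c
    simp only [Function.comp_apply]
    rw [hsum, ← Valuation.mem_valuationSubring_iff, ← hO, hint]
    constructor
    · intro h t
      have := h (eqv t)
      rwa [Equiv.symm_apply_apply, hA, Valuation.mem_valuationSubring_iff] at this
    · intro h s
      rw [hA, Valuation.mem_valuationSubring_iff]
      exact h _
  · intro c
    simp only [Function.comp_apply]
    rw [hsum, ← valuationSubring_lt_one_iff, ← hO, hstr]
    constructor
    · intro h t
      have := h (eqv t)
      rwa [Equiv.symm_apply_apply, hA, valuationSubring_lt_one_iff] at this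
    · intro h s
      rw [hA, valuationSubring_lt_one_iff]
      exact h _

end Main


section LemmaB

/-- A finite family which is orthonormal in the sense of the conclusion of
`exists_orthonormal_basis_of_frame` is residually independent. -/
theorem resIndep_of_iff {r : ℕ} {v : Fin r → F}
    (hle : ∀ c : Fin r → L, w (∑ t, c t • v t) ≤ 1 ↔ ∀ t, w (algebraMap L F (c t)) ≤ 1)
    (hlt : ∀ c : Fin r → L, w (∑ t, c t • v t) < 1 ↔ ∀ t, w (algebraMap L F (c t)) < 1) :
    ResIndep (L := L) w v := by
  intro a ha ⟨i, hi⟩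
  have hsum : Finsupp.linearCombination L v a = ∑ t, a t • v t := by
    rw [Finsupp.linearCombination_apply, Finsupp.sum_fintype]
    intro t; exact zero_smul _ _
  rw [hsum]
  refine le_antisymm ((hle _).2 ha) (not_lt.1 fun h => ?_)
  have := (hlt _).1 h i
  rw [hi] at this
  exact lt_irrefl _ this

/-- **Lemma B**: `r = dim V` residually independent integral elements of `V` generate `V ∩ O_w`
over the valuation ring of `L`. -/
theorem lemmaB (V : Submodule L F) [FiniteDimensional L V] {r : ℕ} {v : Fin r → F}
    (hv : ∀ t, v t ∈ V) (he : ResIndep (L := L) w v) (hr : r = Module.finrank L V)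
    {y : F} (hy : y ∈ V) (hwy : w y ≤ 1) :
    ∃ c : Fin r → L, (∀ t, w (algebraMap L F (c t)) ≤ 1) ∧ y = ∑ t, c t • v t := by
  classical
  have hli := he.linearIndependent
  -- `v` spans `V`
  let v' : Fin r → V := fun t => ⟨v t, hv t⟩
  have hli' : LinearIndependent L v' := by
    apply LinearIndependent.of_comp V.subtype
    exact hli
  have hspan : Submodule.span L (Set.range v') = ⊤ :=
    hli'.span_eq_top_of_card_eq_finrank' (by rw [Fintype.card_fin, hr])
  have hymem : (⟨y, hy⟩ : V) ∈ Submodule.span L (Set.range v') := hspan ▸ Submodule.mem_top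
  obtain ⟨a, ha⟩ := (Finsupp.mem_span_range_iff_exists_finsupp).1 hymem
  have hy' : y = Finsupp.linearCombination L v a := by
    have := congrArg (fun z : V => (z : F)) ha
    simp only at this
    rw [← this, Finsupp.linearCombination_apply, Finsupp.sum, Finsupp.sum, Submodule.coe_sum]
    rfl
  refine ⟨fun t => a t, ?_, ?_⟩
  · rw [hy'] at hwy
    exact (he.le_one_iff a).1 hwy
  · rw [hy', Finsupp.linearCombination_apply, Finsupp.sum_fintype]
    intro t; exact zero_smul _ _

end LemmaB

section FunctionField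

open Polynomial

/-- The frame `x ^ j * y i`. -/
def frame {n : ℕ} (x : F) (y : Fin n → F) : Fin n × ℕ → F := fun p => x ^ p.2 * y p.1

variable {n : ℕ} {x : F} {y : Fin n → F}

/-- The elements of `F` stabilising the `L`-span of the frame form a subalgebra containing `x`. -/
def frameStab (x : F) (y : Fin n → F) : Subalgebra L F where
  carrier := {q | ∀ u ∈ Submodule.span L (Set.range (frame x y)),
    q * u ∈ Submodule.span L (Set.range (frame x y))}
  mul_mem' := fun {a b} ha hb u hu => by
    rw [mul_assoc]; exact ha _ (hb u hu)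
  add_mem' := fun {a b} ha hb u hu => by
    rw [add_mul]; exact Submodule.add_mem _ (ha u hu) (hb u hu)
  algebraMap_mem' := fun c u hu => by
    rw [← Algebra.smul_def]; exact Submodule.smul_mem _ _ hu

theorem x_mem_frameStab : x ∈ frameStab (L := L) x y := by
  intro u hu
  induction hu using Submodule.span_induction with
  | mem u hu =>
    obtain ⟨p, rfl⟩ := hu
    refine Submodule.subset_span ⟨(p.1, p.2 + 1), ?_⟩
    simp only [frame]
    rw [pow_succ]; ring
  | zero => rw [mul_zero]; exact Submodule.zero_mem _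
  | add u u' _ _ hu hu' => rw [mul_add]; exact Submodule.add_mem _ hu hu'
  | smul c u _ hu => rw [mul_smul_comm]; exact Submodule.smul_mem _ _ hu

theorem aeval_mem_frameStab (b : L[X]) : aeval x b ∈ frameStab (L := L) x y := by
  have h1 : Algebra.adjoin L {x} ≤ frameStab (L := L) x y :=
    Algebra.adjoin_le (Set.singleton_subset_iff.2 x_mem_frameStab)
  exact h1 (aeval_mem_adjoin_singleton L x)

theorem y_mem_span (i : Fin n) : y i ∈ Submodule.span L (Set.range (frame x y)) :=
  Submodule.subset_span ⟨(i, 0), by simp [frame]⟩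

/-- Gauss: a nonzero polynomial in `x` has the valuation of a constant. -/
theorem exists_val_aeval_eq (he : ResIndep (L := L) w (frame x y)) (i₀ : Fin n) (b : L[X])
    (hb : aeval x b ≠ 0) : ∃ c : L, c ≠ 0 ∧ w (aeval x b) = w (algebraMap L F c) := by
  have hmem : aeval x b * y i₀ ∈ Submodule.span L (Set.range (frame x y)) :=
    aeval_mem_frameStab b _ (y_mem_span i₀)
  have hy1 : w (y i₀) = 1 := by
    have := he.val_one (i₀, 0)
    simpa [frame] using this
  have hy0 : y i₀ ≠ 0 := by
    rintro h; rw [h, map_zero] at hy1; exact zero_ne_one hy1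
  obtain ⟨c, hc, hval⟩ := he.exists_val_eq hmem (mul_ne_zero hb hy0)
  refine ⟨c, hc, ?_⟩
  rw [← hval, map_mul, hy1, mul_one]

variable (hspan : ∀ z : F, ∃ b : L[X], aeval x b ≠ 0 ∧
  aeval x b * z ∈ Submodule.span L (Set.range (frame x y)))

include hspan in
theorem exists_index : Nonempty (Fin n) := by
  by_contra h
  rw [not_nonempty_iff] at h
  obtain ⟨b, hb, hmem⟩ := hspan 1
  have : Set.range (frame x y) = ∅ := Set.range_eq_empty _
  rw [this, Submodule.span_empty, Submodule.mem_bot, mul_one] at hmem
  exact hb hmem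

include hspan in
/-- Value groups agree. -/
theorem exists_val_eq_of_frame (he : ResIndep (L := L) w (frame x y)) {z : F} (hz : z ≠ 0) :
    ∃ c : L, c ≠ 0 ∧ w z = w (algebraMap L F c) := by
  obtain ⟨i₀⟩ := exists_index hspan
  obtain ⟨b, hb, hmem⟩ := hspan z
  obtain ⟨c₁, hc₁, h₁⟩ := he.exists_val_eq hmem (mul_ne_zero hb hz)
  obtain ⟨c₂, hc₂, h₂⟩ := exists_val_aeval_eq he i₀ b hb
  refine ⟨c₁ / c₂, div_ne_zero hc₁ hc₂, ?_⟩
  rw [map_div₀, map_div₀, ← h₁, ← h₂, map_mul]
  have : w (aeval x b) ≠ 0 := (_root_.map_ne_zero w).2 hb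
  rw [mul_div_cancel_left₀ _ this]

include hspan in
/-- **LATTICE LEMMA for a function field with an orthonormal frame.** -/
theorem exists_orthonormal_basis_functionField (he : ResIndep (L := L) w (frame x y))
    (V : Submodule L F) [FiniteDimensional L V] :
    ∃ (r : ℕ) (v : Fin r → F), r = Module.finrank L V ∧ (∀ t, v t ∈ V) ∧ (∀ t, w (v t) ≤ 1) ∧
      LinearIndependent L v ∧ Submodule.span L (Set.range v) = V ∧
      (∀ c : Fin r → L, w (∑ t, c t • v t) ≤ 1 ↔ ∀ t, w (algebraMap L F (c t)) ≤ 1) ∧
      (∀ c : Fin r → L, w (∑ t, c t • v t) < 1 ↔ ∀ t, w (algebraMap L F (c t)) < 1) := by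
  classical
  obtain ⟨i₀⟩ := exists_index hspan
  let bV := Module.finBasis L V
  choose b hb0 hbmem using fun s => hspan (bV s : F)
  let B : L[X] := ∏ s, b s
  have hB0 : aeval x B ≠ 0 := by
    rw [map_prod]
    exact Finset.prod_ne_zero_iff.2 fun s _ => hb0 s
  have hBmem : ∀ s, aeval x B * (bV s : F) ∈ Submodule.span L (Set.range (frame x y)) := by
    intro s
    have hsplit : B = (∏ s' ∈ Finset.univ.erase s, b s') * b s := by
      rw [Finset.prod_erase_mul _ _ (Finset.mem_univ s)]
    rw [hsplit, map_mul, mul_assoc]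
    exact aeval_mem_frameStab _ _ (hbmem s)
  have hBall : ∀ z ∈ V, aeval x B * z ∈ Submodule.span L (Set.range (frame x y)) := by
    intro z hz
    have hle : (⊤ : Submodule L V) ≤
        (Submodule.span L (Set.range (frame x y))).comap
          ((LinearMap.mulLeft L (aeval x B)) ∘ₗ V.subtype) := by
      rw [← bV.span_eq, Submodule.span_le]
      rintro _ ⟨s, rfl⟩
      exact hBmem s
    exact hle (Submodule.mem_top (x := ⟨z, hz⟩))
  obtain ⟨c, hc, hval⟩ := exists_val_aeval_eq he i₀ B hB0
  have hc' : algebraMap L F c ≠ 0 := (_root_.map_ne_zero _).2 hc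
  refine exists_orthonormal_basis_of_frame he V ((algebraMap L F c)⁻¹ * aeval x B) ?_ ?_
  · rw [map_mul, map_inv₀, hval, inv_mul_cancel₀ ((_root_.map_ne_zero w).2 hc')]
  · intro z hz
    have : (algebraMap L F c)⁻¹ * aeval x B * z = c⁻¹ • (aeval x B * z) := by
      rw [Algebra.smul_def, map_inv₀, mul_assoc]
    rw [this]
    exact Submodule.smul_mem _ _ (hBall z hz)

end FunctionField

section Residue

variable {I : Type*} {e : I → F}

/-- Residual independence from linear independence of the images under a reduction map. -/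
theorem resIndep_of_linearIndependent {k R : Type*} [Field k] [CommRing R] [Algebra k R]
    (red : w.integer →+* R) (hker : ∀ z : w.integer, red z = 0 ↔ w (z : F) < 1)
    (ρ : (w.comap (algebraMap L F)).integer →+* k)
    (hρ : ∀ a : (w.comap (algebraMap L F)).integer, ρ a = 0 → w (algebraMap L F (a : L)) < 1)
    (hcompat : ∀ a : (w.comap (algebraMap L F)).integer,
      red ⟨algebraMap L F (a : L), a.2⟩ = algebraMap k R (ρ a))
    (he : ∀ i, w (e i) ≤ 1) (hli : LinearIndependent k (fun i => red ⟨e i, he i⟩)) :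
    ResIndep (L := L) w e := by
  classical
  intro a ha ⟨i₀, hi₀⟩
  have hterm : ∀ i, w (a i • e i) ≤ 1 := fun i => by
    rw [Algebra.smul_def, map_mul]
    exact mul_le_one' (ha i) (he i)
  have hle : w (Finsupp.linearCombination L e a) ≤ 1 := by
    rw [Finsupp.linearCombination_apply, Finsupp.sum]
    exact w.map_sum_le fun i _ => hterm i
  refine le_antisymm hle (not_lt.1 fun hlt => ?_)
  -- the reduction of the combination vanishes
  let a' : I → (w.comap (algebraMap L F)).integer := fun i => ⟨a i, ha i⟩
  have hred : red ⟨Finsupp.linearCombination L e a, hle⟩ =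
      ∑ i ∈ a.support, ρ (a' i) • red ⟨e i, he i⟩ := by
    have h1 : (⟨Finsupp.linearCombination L e a, hle⟩ : w.integer) =
        ∑ i ∈ a.support, (⟨algebraMap L F (a i), ha i⟩ : w.integer) * ⟨e i, he i⟩ := by
      apply Subtype.ext
      show Finsupp.linearCombination L e a = ((∑ i ∈ a.support,
        (⟨algebraMap L F (a i), ha i⟩ : w.integer) * ⟨e i, he i⟩ : w.integer) : F)
      rw [AddSubmonoidClass.coe_finsetSum, Finsupp.linearCombination_apply, Finsupp.sum]
      refine Finset.sum_congr rfl fun i _ => ?_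
      rw [Subring.coe_mul, Algebra.smul_def]
    rw [h1, map_sum]
    refine Finset.sum_congr rfl fun i _ => ?_
    rw [map_mul, Algebra.smul_def]
    congr 1
    exact hcompat (a' i)
  have hzero : ∑ i ∈ a.support, ρ (a' i) • red ⟨e i, he i⟩ = 0 := by
    rw [← hred]
    exact (hker _).2 hlt
  have hi₀s : i₀ ∈ a.support := by
    rw [Finsupp.mem_support_iff]
    rintro h
    rw [h, map_zero, map_zero] at hi₀
    exact zero_ne_one hi₀
  have := linearIndependent_iff'.1 hli a.support (fun i => ρ (a' i)) hzero i₀ hi₀s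
  have hlt' := hρ (a' i₀) this
  rw [show ((a' i₀ : (w.comap (algebraMap L F)).integer) : L) = a i₀ from rfl, hi₀] at hlt'
  exact lt_irrefl _ hlt'

end Residue


section Reduction

variable {k Fbar : Type*} [Field k] [Field Fbar] [Algebra k Fbar]
  (red : w.integer →+* Fbar) (hker : ∀ z : w.integer, red z = 0 ↔ w (z : F) < 1)
  (ρ : (w.comap (algebraMap L F)).integer →+* k) (hρsurj : Function.Surjective ρ)
  (hρ : ∀ a : (w.comap (algebraMap L F)).integer, ρ a = 0 ↔ w (algebraMap L F (a : L)) < 1)
  (hcompat : ∀ a : (w.comap (algebraMap L F)).integer,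
    red ⟨algebraMap L F (a : L), a.2⟩ = algebraMap k Fbar (ρ a))

include hcompat in
/-- Reduction of an integral combination of integral elements. -/
theorem red_sum {r : ℕ} (v : Fin r → F) (hv : ∀ t, w (v t) ≤ 1)
    (c : Fin r → (w.comap (algebraMap L F)).integer)
    (hz : w (∑ t, ((c t : (w.comap (algebraMap L F)).integer) : L) • v t) ≤ 1) :
    red ⟨∑ t, ((c t : (w.comap (algebraMap L F)).integer) : L) • v t, hz⟩ =
      ∑ t, ρ (c t) • red ⟨v t, hv t⟩ := by
  have h1 : (⟨∑ t, ((c t : (w.comap (algebraMap L F)).integer) : L) • v t, hz⟩ : w.integer) =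
      ∑ t, (⟨algebraMap L F (c t : L), (c t).2⟩ : w.integer) * ⟨v t, hv t⟩ := by
    apply Subtype.ext
    show (∑ t, ((c t : (w.comap (algebraMap L F)).integer) : L) • v t) =
      ((∑ t, (⟨algebraMap L F (c t : L), (c t).2⟩ : w.integer) * ⟨v t, hv t⟩ : w.integer) : F)
    rw [AddSubmonoidClass.coe_finsetSum]
    refine Finset.sum_congr rfl fun t _ => ?_
    rw [Subring.coe_mul, Algebra.smul_def]
  rw [h1, map_sum]
  refine Finset.sum_congr rfl fun t _ => ?_
  rw [map_mul, Algebra.smul_def, hcompat]

include hker hρ hcompat in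
/-- The reductions of an orthonormal family are `k`-linearly independent. -/
theorem linearIndependent_red {r : ℕ} (v : Fin r → F) (hv : ∀ t, w (v t) ≤ 1)
    (hlt : ∀ c : Fin r → L, w (∑ t, c t • v t) < 1 ↔ ∀ t, w (algebraMap L F (c t)) < 1)
    (hρsurj : Function.Surjective ρ) :
    LinearIndependent k (fun t => red ⟨v t, hv t⟩) := by
  rw [Fintype.linearIndependent_iff]
  intro g hg t
  choose c hc using fun t => hρsurj (g t)
  have hterm : ∀ t, w (((c t : (w.comap (algebraMap L F)).integer) : L) • v t) ≤ 1 := fun t => by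
    rw [Algebra.smul_def, map_mul]
    exact mul_le_one' (c t).2 (hv t)
  have hz : w (∑ t, ((c t : (w.comap (algebraMap L F)).integer) : L) • v t) ≤ 1 :=
    w.map_sum_le fun t _ => hterm t
  have h1 := red_sum red ρ hcompat v hv c hz
  simp only [hc] at h1
  rw [hg] at h1
  have h2 := (hker _).1 h1
  have h3 := (hlt _).1 h2 t
  rw [← hc t]
  exact (hρ _).2 h3

include hker hρ hcompat in
/-- **Surjectivity of reduction.**  If `V` has an orthonormal basis of `r = dim V` elements, the
reduction of `V ∩ O_w` lies in `Vbar`, and `dim Vbar ≤ dim V`, then every element of `Vbar`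
lifts to `V ∩ O_w`. -/
theorem exists_lift (V : Submodule L F) [FiniteDimensional L V] (Vbar : Submodule k Fbar)
    [FiniteDimensional k Vbar]
    (hred : ∀ z ∈ V, ∀ hz : w z ≤ 1, red ⟨z, hz⟩ ∈ Vbar)
    (hdim : Module.finrank k Vbar ≤ Module.finrank L V)
    {r : ℕ} (v : Fin r → F) (hr : r = Module.finrank L V) (hvV : ∀ t, v t ∈ V)
    (hv : ∀ t, w (v t) ≤ 1)
    (hlt : ∀ c : Fin r → L, w (∑ t, c t • v t) < 1 ↔ ∀ t, w (algebraMap L F (c t)) < 1)
    (hρsurj : Function.Surjective ρ) {u : Fbar} (hu : u ∈ Vbar) :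
    ∃ z ∈ V, ∃ hz : w z ≤ 1, red ⟨z, hz⟩ = u := by
  classical
  have hli := linearIndependent_red red hker ρ hρ hcompat v hv hlt hρsurj
  -- the reductions form a basis of `Vbar`
  let vb : Fin r → Vbar := fun t => ⟨red ⟨v t, hv t⟩, hred _ (hvV t) (hv t)⟩
  have hli' : LinearIndependent k vb := by
    apply LinearIndependent.of_comp Vbar.subtype
    exact hli
  have hcard : Module.finrank k Vbar = r := by
    apply le_antisymm (hr ▸ hdim)
    have := hli'.fintype_card_le_finrank
    rwa [Fintype.card_fin] at this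
  have hspan : Submodule.span k (Set.range vb) = ⊤ :=
    hli'.span_eq_top_of_card_eq_finrank' (by rw [Fintype.card_fin, hcard])
  have humem : (⟨u, hu⟩ : Vbar) ∈ Submodule.span k (Set.range vb) := hspan ▸ Submodule.mem_top
  obtain ⟨g, hg⟩ := (Submodule.mem_span_range_iff_exists_fun k).1 humem
  choose c hc using fun t => hρsurj (g t)
  have hterm : ∀ t, w (((c t : (w.comap (algebraMap L F)).integer) : L) • v t) ≤ 1 := fun t => by
    rw [Algebra.smul_def, map_mul]
    exact mul_le_one' (c t).2 (hv t)
  have hz : w (∑ t, ((c t : (w.comap (algebraMap L F)).integer) : L) • v t) ≤ 1 :=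
    w.map_sum_le fun t _ => hterm t
  refine ⟨_, V.sum_mem fun t _ => V.smul_mem _ (hvV t), hz, ?_⟩
  rw [red_sum red ρ hcompat v hv c hz]
  simp only [hc]
  have := congrArg (fun z : Vbar => (z : Fbar)) hg
  simp only [Submodule.coe_sum, Submodule.coe_smul] at this
  exact this

end Reduction

end Fermat.Agent.S18.GaussCoord89
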