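/-
S18 / S37 glue (helper73): the CONCRETE `KGauss73.GaussData` at level `M`, GENERAL FORM.

Same as `GaussDataInst73`, but for ANY reduction datum `R : RedData A M` (a valuation subring `O` of
`F_M`, a residue map `ρ : O →+* k((q))` with kernel the maximal ideal, constants, value group, range
in `F̄_M`), so that it applies both to `Bridge28.BridgeData` (`RedData.ofBridge`) and to the pair
`(LevelInst29.OF' S F' hF, rhoF' S F' hF)` of an arbitrary frame (`RedData.ofFrame`).
-/
import Mathlib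
import Fermat.Agent.S18.Bridge28.Exports
import Fermat.Agent.S18.KGauss73
import Fermat.Agent.S18.LevelInst29

set_option autoImplicit false
set_option linter.unusedSectionVars false
set_option synthInstance.maxHeartbeats 400000
set_option maxHeartbeats 1600000

open ModularCurve IntermediateField

noncomputable section

namespace Fermat.Agent.S18.GaussDataInst73b

open Fermat.Agent.S18.Spine33 Fermat.Agent.S18.Bridge28 Fermat.Agent.S18.KGauss73


/-- the part of a reduction datum used to build `KGauss73.GaussData` -/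
structure RedData (A : ValuationSubring Kb) (M : ℕ) where
  O : ValuationSubring (FK M)
  ρ : O →+* LaurentSeries (kA A)
  ker_ρ : ∀ x : O, ρ x = 0 ↔ x ∈ IsLocalRing.maximalIdeal O
  const_mem : ∀ c : Kb, algebraMap Kb (FK M) c ∈ O ↔ c ∈ A
  ρ_const : ∀ (c : A) (h : algebraMap Kb (FK M) (c : Kb) ∈ O),
    ρ ⟨_, h⟩ = HahnSeries.C (IsLocalRing.residue A c)
  hval : ∀ y : FK M, y ≠ 0 → ∃ c : Kb, O.valuation (algebraMap Kb (FK M) c) = O.valuation y
  ρ_mem : ∀ x : O, ρ x ∈ modularFunctionFieldFullC (kA A) M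

/-- from `Bridge28.BridgeData` -/
def RedData.ofBridge {A : ValuationSubring Kb} {M : ℕ} (B : BridgeData A M) : RedData A M where
  O := B.O
  ρ := B.ρ
  ker_ρ := B.ker_ρ
  const_mem := B.const_mem
  ρ_const := B.ρ_const
  hval := B.hval
  ρ_mem := B.ρ_mem

/-- from an arbitrary frame with field `F_M` whose residue map lands in `F̄_M` -/
def RedData.ofFrame {A : ValuationSubring Kb} {M : ℕ} {ι : Type*} [Fintype ι]
    (S : BridgeKernel15.Frame A ι) (hF : S.F = modularFunctionFieldBar M)
    (hrange : ∀ y : LevelInst29.OF' S (modularFunctionFieldBar M) hF,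
      LevelInst29.rhoF' S (modularFunctionFieldBar M) hF y ∈ modularFunctionFieldFullC (kA A) M) :
    RedData A M where
  O := LevelInst29.OF' S (modularFunctionFieldBar M) hF
  ρ := LevelInst29.rhoF' S (modularFunctionFieldBar M) hF
  ker_ρ := LevelInst29.ker_rhoF' S _ hF
  const_mem := LevelInst29.const_mem_OF' S _ hF
  ρ_const := LevelInst29.rhoF'_const S _ hF
  hval := LevelInst29.hval_OF' S _ hF
  ρ_mem := hrange

variable {A : ValuationSubring Kb} {M : ℕ} (B : RedData A M)

/-- the special fibre `F̄_M` as a type -/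
abbrev FbM (A : ValuationSubring Kb) (M : ℕ) : Type := ↥(modularFunctionFieldFullC (kA A) M)

/-- the Gauss valuation -/
abbrev wB : Valuation (FK M) (ValuationSubring.ValueGroup B.O) := B.O.valuation

theorem wB_le_one_iff (y : FK M) : wB B y ≤ 1 ↔ y ∈ B.O :=
  ValuationSubring.valuation_le_one_iff _ _

/-- `{w ≤ 1} → O` -/
def toO : (wB B).integer →+* B.O where
  toFun x := ⟨x.1, (wB_le_one_iff B _).mp x.2⟩
  map_one' := rfl
  map_mul' _ _ := rfl
  map_zero' := rfl
  map_add' _ _ := rfl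

/-- the reduction map `{w ≤ 1} → F̄_M` -/
def redB : (wB B).integer →+* FbM A M :=
  (B.ρ.codRestrict (modularFunctionFieldFullC (kA A) M) B.ρ_mem).comp (toO B)

theorem coe_redB (x : (wB B).integer) :
    ((redB B x : FbM A M) : LaurentSeries (kA A)) = B.ρ (toO B x) := rfl

theorem mem_A_of_le_one {c : Kb} (hc : (wB B).comap (algebraMap Kb (FK M)) c ≤ 1) : c ∈ A :=
  (B.const_mem c).mp ((wB_le_one_iff B _).mp hc)

/-- `{c ∈ ℚ̄ | w c ≤ 1} → A` -/
def toA : ((wB B).comap (algebraMap Kb (FK M))).integer →+* A where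
  toFun c := ⟨c.1, mem_A_of_le_one B c.2⟩
  map_one' := rfl
  map_mul' _ _ := rfl
  map_zero' := rfl
  map_add' _ _ := rfl

/-- the residue map on constants -/
def resB : ((wB B).comap (algebraMap Kb (FK M))).integer →+* kA A :=
  (IsLocalRing.residue A).comp (toA B)

theorem resB_surjective : Function.Surjective (resB B) := by
  intro z
  obtain ⟨a, rfl⟩ := IsLocalRing.residue_surjective z
  have ha : (wB B).comap (algebraMap Kb (FK M)) (a : Kb) ≤ 1 :=
    (wB_le_one_iff B _).mpr ((B.const_mem _).mpr a.2)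
  exact ⟨⟨(a : Kb), ha⟩, rfl⟩

theorem redB_eq_zero (x : (wB B).integer) : redB B x = 0 ↔ wB B (x : FK M) < 1 := by
  have h1 : redB B x = 0 ↔ B.ρ (toO B x) = 0 := by
    constructor
    · intro h
      have := congrArg (fun z : FbM A M => (z : LaurentSeries (kA A))) h
      simpa [coe_redB] using this
    · intro h
      apply Subtype.ext
      rw [coe_redB, h]
      rfl
  rw [h1, B.ker_ρ]
  exact ValuationSubring.valuation_lt_one_iff B.O (toO B x)

theorem redB_algebraMap (c : ((wB B).comap (algebraMap Kb (FK M))).integer) :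
    redB B ⟨algebraMap Kb (FK M) (c : Kb), c.2⟩ = algebraMap (kA A) (FbM A M) (resB B c) := by
  apply Subtype.ext
  rw [coe_redB, IntermediateField.coe_algebraMap_apply, BridgeGauss15.algebraMap_eq_C]
  exact B.ρ_const (toA B c) _

/-- the `Level33.LevelData`-shaped lattice statement -/
def LatticeStmt : Prop :=
  ∀ V : Submodule Kb (FK M), Module.Finite Kb V →
    ∃ (r : ℕ) (e : Fin r → FK M) (he : ∀ i, e i ∈ B.O), r = Module.finrank Kb V ∧
      (∀ i, e i ∈ V) ∧ LinearIndependent (kA A) (fun i => B.ρ ⟨e i, he i⟩) ∧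
      ∀ z ∈ V, z ∈ B.O → ∃ α : Fin r → Kb, (∀ i, α i ∈ A) ∧ z = ∑ i, α i • e i

/-- orthonormality from independent residues -/
theorem ortho_of_indep {r : ℕ} (e : Fin r → FK M) (he : ∀ i, e i ∈ B.O)
    (hli : LinearIndependent (kA A) (fun i => B.ρ ⟨e i, he i⟩)) (c : Fin r → Kb) (j : Fin r) :
    wB B (algebraMap Kb (FK M) (c j)) ≤ wB B (∑ i, c i • e i) := by
  classical
  by_cases hall : ∀ i, c i = 0
  · rw [hall j, map_zero, map_zero]
    exact zero_le
  push Not at hall
  -- a coefficient of maximal valuation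
  obtain ⟨i₀, -, hmax⟩ := Finset.exists_max_image Finset.univ
    (fun i => wB B (algebraMap Kb (FK M) (c i))) ⟨j, Finset.mem_univ j⟩
  have hc₀ : c i₀ ≠ 0 := by
    obtain ⟨i₁, hi₁⟩ := hall
    intro h0
    have h1 := hmax i₁ (Finset.mem_univ _)
    rw [h0, map_zero, map_zero] at h1
    have h2 : wB B (algebraMap Kb (FK M) (c i₁)) ≠ 0 :=
      (Valuation.ne_zero_iff _).mpr ((map_ne_zero _).mpr hi₁)
    exact h2 (le_antisymm h1 zero_le)
  have hw₀ : wB B (algebraMap Kb (FK M) (c i₀)) ≠ 0 :=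
    (Valuation.ne_zero_iff _).mpr ((map_ne_zero _).mpr hc₀)
  -- normalised coefficients
  set b : Fin r → Kb := fun i => c i / c i₀ with hb
  have hbA : ∀ i, b i ∈ A := by
    intro i
    rw [← B.const_mem, ← wB_le_one_iff, hb, map_div₀, map_div₀]
    exact div_le_one_of_le₀ (hmax i (Finset.mem_univ _)) zero_le
  have hbO : ∀ i, algebraMap Kb (FK M) (b i) ∈ B.O := fun i => (B.const_mem _).mpr (hbA i)
  -- the normalised sum and its residue
  have hsumO : ∑ i, b i • e i ∈ B.O :=
    sum_mem fun i _ => by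
      rw [Algebra.smul_def]
      exact B.O.mul_mem _ _ (hbO i) (he i)
  have hρ : B.ρ ⟨∑ i, b i • e i, hsumO⟩ =
      ∑ i, IsLocalRing.residue A ⟨b i, hbA i⟩ • B.ρ ⟨e i, he i⟩ := by
    have h1 : (⟨∑ i, b i • e i, hsumO⟩ : B.O) =
        ∑ i, (⟨algebraMap Kb (FK M) (b i), hbO i⟩ : B.O) * ⟨e i, he i⟩ := by
      apply Subtype.ext
      show ∑ i, b i • e i =
        ((∑ i, (⟨algebraMap Kb (FK M) (b i), hbO i⟩ : B.O) * ⟨e i, he i⟩ : B.O) : FK M)
      rw [AddSubmonoidClass.coe_finsetSum]
      exact Finset.sum_congr rfl fun i _ => by rw [Algebra.smul_def]; rfl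
    rw [h1, map_sum]
    refine Finset.sum_congr rfl fun i _ => ?_
    rw [map_mul, B.ρ_const ⟨b i, hbA i⟩ (hbO i), HahnSeries.C_mul_eq_smul]
  have hne : B.ρ ⟨∑ i, b i • e i, hsumO⟩ ≠ 0 := by
    rw [hρ]
    intro h0
    have h1 := (Fintype.linearIndependent_iff.mp hli) _ h0 i₀
    have h2 : (⟨b i₀, hbA i₀⟩ : A) = 1 := Subtype.ext (by simp [hb, div_self hc₀])
    rw [h2, map_one] at h1
    exact one_ne_zero h1
  have hw1 : wB B (∑ i, b i • e i) = 1 := by
    refine le_antisymm ((wB_le_one_iff B _).mpr hsumO) (not_lt.mp fun hlt => hne ?_)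
    rw [B.ker_ρ]
    exact (ValuationSubring.valuation_lt_one_iff B.O ⟨_, hsumO⟩).mpr hlt
  have hsum : ∑ i, c i • e i = algebraMap Kb (FK M) (c i₀) * ∑ i, b i • e i := by
    rw [Finset.mul_sum]
    refine Finset.sum_congr rfl fun i _ => ?_
    rw [Algebra.smul_def, Algebra.smul_def, ← mul_assoc, ← map_mul, hb]
    congr 2
    field_simp
  rw [hsum, map_mul, hw1, mul_one]
  exact hmax j (Finset.mem_univ _)

/-- **The concrete reduction data at level `M`.** -/
def gaussData (hlat : LatticeStmt B) : GaussData (L := Kb) (wB B) (kA A) (FbM A M) where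
  red := redB B
  red_eq_zero := redB_eq_zero B
  res := resB B
  res_surj := resB_surjective B
  red_algebraMap := redB_algebraMap B
  lattice := by
    intro V hV
    obtain ⟨r, e, he, -, heV, hli, hgen⟩ := hlat V hV
    refine ⟨r, e, heV, fun j => (wB_le_one_iff B _).mpr (he j), ?_, ortho_of_indep B e he hli⟩
    intro y hy
    by_cases hy0 : y = 0
    · exact ⟨fun _ => 0, by simp [hy0]⟩
    obtain ⟨c, hc⟩ := B.hval y hy0
    have hc0 : c ≠ 0 := by
      rintro rfl
      rw [map_zero, map_zero] at hc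
      exact (Valuation.ne_zero_iff _).mpr hy0 hc.symm
    have hcF : algebraMap Kb (FK M) c ≠ 0 := (map_ne_zero _).mpr hc0
    have hzV : c⁻¹ • y ∈ V := V.smul_mem _ hy
    have hzO : c⁻¹ • y ∈ B.O := by
      rw [← wB_le_one_iff, Algebra.smul_def, map_mul, map_inv₀, map_inv₀]
      show (B.O.valuation (algebraMap Kb (FK M) c))⁻¹ * B.O.valuation y ≤ 1
      rw [hc, inv_mul_cancel₀ ((Valuation.ne_zero_iff _).mpr hy0)]
    obtain ⟨α, -, hα⟩ := hgen _ hzV hzO
    refine ⟨fun i => c * α i, ?_⟩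
    have : y = c • (c⁻¹ • y) := by rw [smul_smul, mul_inv_cancel₀ hc0, one_smul]
    rw [this, hα, Finset.smul_sum]
    exact Finset.sum_congr rfl fun i _ => by rw [smul_smul]

theorem coe_redF (hlat : LatticeStmt B) {y : FK M} (hy : y ∈ B.O) :
    (((gaussData B hlat).redF y : FbM A M) : LaurentSeries (kA A)) = B.ρ ⟨y, hy⟩ := by
  rw [GaussData.redF_of_le _ ((wB_le_one_iff B y).mpr hy)]
  rfl

end Fermat.Agent.S18.GaussDataInst73b
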