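/-
S18 moonshot (blueprint 14), package [GAUSS]-INTEGRALITY (helper43).

The INTEGRALITY LEMMA of blueprint 14:  `y ∈ L(rE)`, `W(y) ≥ 0`  ⟹  `ȳ ∈ L̄(r Ē)`,
`E = (x)_∞`, split into three abstract pieces.

(A) `val_le_of_monic_equation` (Mathlib only, any valuation, any characteristic):
    a monic equation `y^d + ∑_{i<d} q_i(x) y^i = 0` with `natDegree q_i ≤ r (d - i)` forces
    `V y ≤ max 1 (V x) ^ r` for every valuation `V` that is `≤ 1` on the constants.
    (Placewise form of `y ∈ L(r (x)_∞)`.)
(B) `exists_integral_equation` (RatFunc setting of S20/T1): if `v` is a valuation on `F` having an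
    orthonormal `RatFunc L`-basis and restricting to the Gauss valuation on `L[X]`, then every
    `y` with `v y ≤ 1`, `y ∈ Bfin` (integral over `L[X]`) and `y / x^r ∈ Binf` (integral over the
    valuation ring at infinity) satisfies such a monic equation with `q_i ∈ L[X]` having
    `v`-integral coefficients.
(C) `reduction_equation`: the equation survives any residue map.
-/
import Mathlib

set_option autoImplicit false
set_option linter.unusedSectionVars false

open Polynomial

namespace Fermat.Agent.S18.GaussInt43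

open scoped BigOperators

/-! ### (A) the valuation lemma -/

section PartA

variable {K F : Type*} [Field K] [Field F] [Algebra K F] {Γ₀ : Type*}
  [LinearOrderedCommGroupWithZero Γ₀] (V : Valuation F Γ₀)

/-- `V (q(x)) ≤ max 1 (V x) ^ natDegree q` if `V ≤ 1` on constants. -/
lemma val_aeval_le (hK : ∀ c : K, V (algebraMap K F c) ≤ 1) (x : F) (q : K[X]) :
    V (aeval x q) ≤ max 1 (V x) ^ q.natDegree := by
  rw [aeval_eq_sum_range]
  refine V.map_sum_le ?_
  intro j hj
  rw [Finset.mem_range, Nat.lt_succ_iff] at hj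
  rw [Algebra.smul_def, map_mul, map_pow]
  calc V (algebraMap K F (q.coeff j)) * V x ^ j ≤ 1 * max 1 (V x) ^ j := by
        gcongr
        · exact hK _
        · exact le_max_right _ _
    _ = max 1 (V x) ^ j := one_mul _
    _ ≤ max 1 (V x) ^ q.natDegree := pow_le_pow_right' (le_max_left _ _) hj

/-- **(A)** A monic equation with degree-bounded polynomial coefficients bounds the valuation. -/
theorem val_le_of_monic_equation (hK : ∀ c : K, V (algebraMap K F c) ≤ 1) (x y : F) (d r : ℕ)
    (q : ℕ → K[X]) (hdeg : ∀ i, i < d → (q i).natDegree ≤ r * (d - i))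
    (heq : y ^ d + ∑ i ∈ Finset.range d, aeval x (q i) * y ^ i = 0) :
    V y ≤ max 1 (V x) ^ r := by
  by_contra hlt
  rw [not_le] at hlt
  set t := max 1 (V x) with ht
  have ht1 : (1 : Γ₀) ≤ t := le_max_left _ _
  have htr1 : (1 : Γ₀) ≤ t ^ r := one_le_pow_of_one_le' ht1 r
  have hy0 : 0 < V y := lt_of_lt_of_le (lt_of_lt_of_le zero_lt_one htr1) hlt.le
  have hsum : V (∑ i ∈ Finset.range d, aeval x (q i) * y ^ i) < V y ^ d := by
    refine V.map_sum_lt (pow_ne_zero _ hy0.ne') ?_
    intro i hi
    rw [Finset.mem_range] at hi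
    rw [map_mul, map_pow]
    have h1 : V (aeval x (q i)) ≤ (t ^ r) ^ (d - i) := by
      refine (val_aeval_le V hK x (q i)).trans ?_
      rw [← pow_mul]
      exact pow_le_pow_right' ht1 (hdeg i hi)
    have h2 : (t ^ r) ^ (d - i) < V y ^ (d - i) :=
      pow_lt_pow_left₀ hlt zero_le (by omega)
    calc V (aeval x (q i)) * V y ^ i ≤ (t ^ r) ^ (d - i) * V y ^ i := by gcongr
      _ < V y ^ (d - i) * V y ^ i := by
          exact mul_lt_mul_of_pos_right h2 (pow_pos hy0 i)
      _ = V y ^ d := by rw [← pow_add]; congr 1; omega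
  have : V (y ^ d) = V (∑ i ∈ Finset.range d, aeval x (q i) * y ^ i) := by
    have h := eq_neg_of_add_eq_zero_left heq
    rw [h, Valuation.map_neg]
  rw [map_pow] at this
  exact absurd this.symm (ne_of_lt hsum)

end PartA


/-! ### (B) the integral equation over `A[X]` -/

section PartB

open scoped Classical

variable {L F : Type*} [Field L] [Field F] [Algebra L F] [Algebra (RatFunc L) F]
  [IsScalarTower L (RatFunc L) F] [Algebra L[X] F] [IsScalarTower L[X] (RatFunc L) F]
  {Γ₀ : Type*} [LinearOrderedCommGroupWithZero Γ₀] (v : Valuation F Γ₀)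

/-- restriction of `v` to `RatFunc L` -/
noncomputable abbrev wRat : Valuation (RatFunc L) Γ₀ := v.comap (algebraMap (RatFunc L) F)

/-- the Gauss valuation ring `O ∩ L(X)` -/
noncomputable abbrev ringO₁ : ValuationSubring (RatFunc L) := (wRat v).valuationSubring

/-- the valuation ring at infinity of `L(X)` (same as `S20.NormalBasis.Oinf`). -/
noncomputable abbrev ringOinf (L : Type*) [Field L] : ValuationSubring (RatFunc L) :=
  (RatFunc.inftyValuation L).valuationSubring

/-- the image of `X` in `F`. -/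
noncomputable def xF (L F : Type*) [Field L] [Field F] [Algebra (RatFunc L) F] : F :=
  algebraMap (RatFunc L) F RatFunc.X

/-- Orthonormal `RatFunc L`-basis of `F` w.r.t. `v`. -/
structure OrthoBasis (n : ℕ) (b : Fin n → F) : Prop where
  le_one : ∀ i, v (b i) ≤ 1
  span : ∀ z : F, ∃ c : Fin n → RatFunc L, z = ∑ i, algebraMap (RatFunc L) F (c i) * b i
  ortho : ∀ c : Fin n → RatFunc L, v (∑ i, algebraMap (RatFunc L) F (c i) * b i) ≤ 1 →
    ∀ i, v (algebraMap (RatFunc L) F (c i)) ≤ 1

variable {v}

/-- Step 1: the unit ball of `v` is integral over the Gauss ring of `L(X)`. -/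
theorem isIntegral_ringO₁ {n : ℕ} {b : Fin n → F} (hb : OrthoBasis (L := L) v n b) {y : F}
    (hy : v y ≤ 1) : IsIntegral (ringO₁ (L := L) v) y := by
  let N : Submodule (ringO₁ (L := L) v) F := Submodule.span (ringO₁ (L := L) v) (Set.range b)
  have hN' : N.FG := Submodule.fg_span (Set.finite_range b)
  have hN : N ≠ ⊥ := by
    obtain ⟨c, hc⟩ := hb.span 1
    have hex : ∃ i, b i ≠ 0 := by
      by_contra h
      push Not at h
      simp [h] at hc
    obtain ⟨i, hi⟩ := hex
    intro hbot
    have hmem : b i ∈ N := Submodule.subset_span ⟨i, rfl⟩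
    rw [hbot, Submodule.mem_bot] at hmem
    exact hi hmem
  refine isIntegral_of_smul_mem_submodule N hN hN' y ?_
  intro z hz
  induction hz using Submodule.span_induction with
  | mem z hz =>
    obtain ⟨j, rfl⟩ := hz
    obtain ⟨c, hc⟩ := hb.span (y * b j)
    have hv : v (y * b j) ≤ 1 := by rw [map_mul]; exact mul_le_one' hy (hb.le_one j)
    rw [hc] at hv
    have hci := hb.ortho c hv
    rw [smul_eq_mul, hc]
    refine N.sum_mem fun i _ => ?_
    have : algebraMap (RatFunc L) F (c i) * b i
        = (⟨c i, hci i⟩ : ringO₁ (L := L) v) • b i := by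
      rw [Algebra.smul_def]; rfl
    rw [this]
    exact N.smul_mem _ (Submodule.subset_span ⟨i, rfl⟩)
  | zero => simp
  | add z z' _ _ hz hz' => rw [smul_add]; exact N.add_mem hz hz'
  | smul a z _ hz => rw [smul_comm]; exact N.smul_mem _ hz

/-- Step 2: the minimal polynomial over `L(X)` of a `v`-integral element has Gauss-integral
coefficients. -/
theorem minpoly_coeff_val_le_one {n : ℕ} {b : Fin n → F} (hb : OrthoBasis (L := L) v n b) {y : F}
    (hy : v y ≤ 1) (i : ℕ) :
    v (algebraMap (RatFunc L) F ((minpoly (RatFunc L) y).coeff i)) ≤ 1 := by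
  have hint := isIntegral_ringO₁ hb hy
  rw [minpoly.isIntegrallyClosed_eq_field_fractions' (RatFunc L) hint, coeff_map]
  exact ((minpoly (ringO₁ (L := L) v) y).coeff i).2


/-! Step 3/4: polynomiality and degree bounds. -/

lemma mem_ringOinf_iff {g : RatFunc L} : g ∈ ringOinf L ↔ g = 0 ∨ g.intDegree ≤ 0 := by
  rw [Valuation.mem_valuationSubring_iff]
  by_cases hg : g = 0
  · simp [hg]
  · rw [RatFunc.inftyValuation_apply, RatFunc.inftyValuation_of_nonzero L hg]
    simp [hg, ← WithZero.exp_zero, WithZero.exp_le_exp]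

lemma intDegree_X_pow (k : ℕ) : ((RatFunc.X : RatFunc L) ^ k).intDegree = k := by
  induction k with
  | zero => simp
  | succ k ih =>
    rw [pow_succ, RatFunc.intDegree_mul (pow_ne_zero _ RatFunc.X_ne_zero) RatFunc.X_ne_zero, ih,
      RatFunc.intDegree_X]
    push_cast; ring

/-- Step 4: if `y / x^r` is integral over the valuation ring at infinity, the coefficients of the
minimal polynomial of `y` have bounded degree. -/
theorem minpoly_coeff_intDegree_le {y : F} (r : ℕ) (hy : IsIntegral (RatFunc L) y)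
    (hinf : IsIntegral (ringOinf L) (y / xF L F ^ r)) (i : ℕ) :
    (minpoly (RatFunc L) y).coeff i = 0 ∨
      ((minpoly (RatFunc L) y).coeff i).intDegree ≤
        ((r * ((minpoly (RatFunc L) y).natDegree - i) : ℕ) : ℤ) := by
  set s : RatFunc L := RatFunc.X ^ r with hs
  have hs0 : s ≠ 0 := pow_ne_zero _ RatFunc.X_ne_zero
  have hsF : algebraMap (RatFunc L) F s = xF L F ^ r := by rw [hs, map_pow]; rfl
  have hsF0 : algebraMap (RatFunc L) F s ≠ 0 := by
    rw [Ne, map_eq_zero]; exact hs0
  set y' : F := y / xF L F ^ r with hy'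
  have hyy' : y = algebraMap (RatFunc L) F s * y' := by
    rw [hy', ← hsF]; field_simp
  have hy'y : y' = algebraMap (RatFunc L) F s⁻¹ * y := by
    rw [hy', ← hsF, map_inv₀]; field_simp
  have hy'int : IsIntegral (RatFunc L) y' := by
    rw [hy'y]
    exact IsIntegral.mul isIntegral_algebraMap hy
  set μ := minpoly (RatFunc L) y with hμ
  set ν := minpoly (RatFunc L) y' with hν
  have hμm : μ.Monic := minpoly.monic hy
  have hνm : ν.Monic := minpoly.monic hy'int
  -- μ ∣ scaleRoots ν s
  have h1 : aeval y (ν.scaleRoots s) = 0 := by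
    rw [hyy']
    exact scaleRoots_aeval_eq_zero (minpoly.aeval _ _)
  have hd1 : μ ∣ ν.scaleRoots s := minpoly.dvd _ _ h1
  -- ν ∣ scaleRoots μ s⁻¹
  have h2 : aeval y' (μ.scaleRoots s⁻¹) = 0 := by
    rw [hy'y]
    exact scaleRoots_aeval_eq_zero (minpoly.aeval _ _)
  have hd2 : ν ∣ μ.scaleRoots s⁻¹ := minpoly.dvd _ _ h2
  have hm1 : (ν.scaleRoots s).Monic := (monic_scaleRoots_iff s).mpr hνm
  have hm2 : (μ.scaleRoots s⁻¹).Monic := (monic_scaleRoots_iff s⁻¹).mpr hμm
  have hle1 : μ.natDegree ≤ ν.natDegree := by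
    have := natDegree_le_of_dvd hd1 hm1.ne_zero
    rwa [natDegree_scaleRoots] at this
  have hle2 : ν.natDegree ≤ μ.natDegree := by
    have := natDegree_le_of_dvd hd2 hm2.ne_zero
    rwa [natDegree_scaleRoots] at this
  have heq : ν.scaleRoots s = μ :=
    eq_of_monic_of_dvd_of_natDegree_le hμm hm1 hd1 (by rw [natDegree_scaleRoots]; exact hle2)
  have hdeg : ν.natDegree = μ.natDegree := le_antisymm hle2 hle1
  -- coefficients of ν are in Oinf
  have hνcoeff : ν.coeff i ∈ ringOinf L := by
    rw [hν, minpoly.isIntegrallyClosed_eq_field_fractions' (RatFunc L) hinf, coeff_map]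
    exact ((minpoly (ringOinf L) y').coeff i).2
  have hcoeff : μ.coeff i = ν.coeff i * s ^ (μ.natDegree - i) := by
    rw [← heq, coeff_scaleRoots, natDegree_scaleRoots, hdeg]
  by_cases h0 : ν.coeff i = 0
  · left; rw [hcoeff, h0, zero_mul]
  · right
    have hle := (mem_ringOinf_iff.mp hνcoeff).resolve_left h0
    rw [hcoeff, RatFunc.intDegree_mul h0 (pow_ne_zero _ hs0), hs, ← pow_mul, intDegree_X_pow]
    linarith

variable [IsScalarTower L L[X] F]

lemma algebraMap_poly_eq_aeval (q : L[X]) : algebraMap L[X] F q = aeval (xF L F) q := by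
  have hx : xF L F = algebraMap L[X] F X := by
    rw [IsScalarTower.algebraMap_apply L[X] (RatFunc L) F, RatFunc.algebraMap_X]; rfl
  rw [hx]
  induction q using Polynomial.induction_on' with
  | add p q hp hq => rw [map_add, map_add, hp, hq]
  | monomial n a =>
    rw [aeval_monomial, ← C_mul_X_pow_eq_monomial, map_mul, map_pow]
    congr 1
    exact (IsScalarTower.algebraMap_apply L L[X] F a).symm

/-- **(B)** The integral equation: for `y` with `v y ≤ 1`, `y ∈ Bfin`, `y / x^r ∈ Binf`, the minimal
polynomial gives a monic equation `y^d + ∑_{i<d} q_i(x) y^i = 0` with `q_i ∈ L[X]`,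
`natDegree q_i ≤ r (d - i)` and all coefficients of all `q_i` `v`-integral. -/
theorem exists_integral_equation {n : ℕ} {b : Fin n → F} (hb : OrthoBasis (L := L) v n b)
    (hG : ∀ q : L[X], v (algebraMap L[X] F q) ≤ 1 → ∀ j, v (algebraMap L F (q.coeff j)) ≤ 1)
    {y : F} (hy : v y ≤ 1) (r : ℕ) (hfin : IsIntegral L[X] y)
    (hinf : IsIntegral (ringOinf L) (y / xF L F ^ r)) :
    ∃ (d : ℕ) (q : ℕ → L[X]), (∀ i, i < d → (q i).natDegree ≤ r * (d - i)) ∧
      (∀ i j, v (algebraMap L F ((q i).coeff j)) ≤ 1) ∧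
      y ^ d + ∑ i ∈ Finset.range d, aeval (xF L F) (q i) * y ^ i = 0 := by
  have hyK : IsIntegral (RatFunc L) y := hfin.tower_top
  have hmap : minpoly (RatFunc L) y = (minpoly L[X] y).map (algebraMap L[X] (RatFunc L)) :=
    minpoly.isIntegrallyClosed_eq_field_fractions' (RatFunc L) hfin
  have hmon : (minpoly L[X] y).Monic := minpoly.monic hfin
  have hinj : Function.Injective (algebraMap L[X] (RatFunc L)) :=
    IsFractionRing.injective L[X] (RatFunc L)
  have hnat : (minpoly (RatFunc L) y).natDegree = (minpoly L[X] y).natDegree := by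
    rw [hmap, hmon.natDegree_map]
  refine ⟨(minpoly L[X] y).natDegree, fun i => (minpoly L[X] y).coeff i, ?_, ?_, ?_⟩
  · intro i _
    dsimp only
    have h := minpoly_coeff_intDegree_le (L := L) (F := F) r hyK hinf i
    rw [hnat, hmap, coeff_map] at h
    rcases h with h | h
    · have : (minpoly L[X] y).coeff i = 0 := by
        apply hinj; rw [h, map_zero]
      rw [this]; simp
    · rw [RatFunc.intDegree_polynomial] at h
      exact_mod_cast h
  · intro i j
    dsimp only
    refine hG _ ?_ j
    have h := minpoly_coeff_val_le_one hb hy i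
    rw [hmap, coeff_map, ← IsScalarTower.algebraMap_apply L[X] (RatFunc L) F] at h
    exact h
  · have h := minpoly.aeval L[X] y
    rw [aeval_eq_sum_range, Finset.sum_range_succ, hmon.coeff_natDegree, one_smul] at h
    rw [add_comm] at h
    convert h using 2
    refine Finset.sum_congr rfl fun i _ => ?_
    rw [Algebra.smul_def, algebraMap_poly_eq_aeval]

end PartB


/-! ### (C) reduction of the equation, (D) the integrality lemma -/

section PartC

variable {L F : Type*} [Field L] [Field F] [Algebra L F] {Γ₀ : Type*}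
  [LinearOrderedCommGroupWithZero Γ₀] (v : Valuation F Γ₀)

/-- the valuation ring `A = O_v ∩ L` (same as `KCore43.ringA`). -/
abbrev ringA : ValuationSubring L := (v.comap (algebraMap L F)).valuationSubring

variable {v} {k Fbar : Type*} [Field k] [Field Fbar] [Algebra k Fbar]

/-- **(C)** A monic equation with `v`-integral polynomial coefficients survives any residue map
`φ : O_v → Fbar` compatible with `ψ : A → k` on constants. -/
theorem reduction_equation (φ : v.valuationSubring →+* Fbar) (ψ : ringA (L := L) v →+* k)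
    (hcompat : ∀ (c : L) (hc : v (algebraMap L F c) ≤ 1),
      φ ⟨algebraMap L F c, hc⟩ = algebraMap k Fbar (ψ ⟨c, hc⟩))
    {x y : F} (hx : v x ≤ 1) (hy : v y ≤ 1) (d : ℕ) (q : ℕ → L[X])
    (hq : ∀ i j, v (algebraMap L F ((q i).coeff j)) ≤ 1)
    (heq : y ^ d + ∑ i ∈ Finset.range d, aeval x (q i) * y ^ i = 0) :
    ∃ qbar : ℕ → k[X], (∀ i, (qbar i).natDegree ≤ (q i).natDegree) ∧
      (φ ⟨y, hy⟩) ^ d + ∑ i ∈ Finset.range d, aeval (φ ⟨x, hx⟩) (qbar i) * (φ ⟨y, hy⟩) ^ i = 0 := by
  classical
  let yO : v.valuationSubring := ⟨y, hy⟩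
  let xO : v.valuationSubring := ⟨x, hx⟩
  let cO : ℕ → ℕ → v.valuationSubring := fun i j => ⟨algebraMap L F ((q i).coeff j), hq i j⟩
  let qbar : ℕ → k[X] := fun i =>
    ∑ j ∈ Finset.range ((q i).natDegree + 1), monomial j (ψ ⟨(q i).coeff j, hq i j⟩)
  refine ⟨qbar, ?_, ?_⟩
  · intro i
    refine natDegree_sum_le_of_forall_le _ _ ?_
    intro j hj
    rw [Finset.mem_range, Nat.lt_succ_iff] at hj
    exact (natDegree_monomial_le _).trans hj
  · -- the equation inside O
    have hcoe : ∀ i, ((∑ j ∈ Finset.range ((q i).natDegree + 1), cO i j * xO ^ j :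
        v.valuationSubring) : F) = aeval x (q i) := by
      intro i
      rw [aeval_eq_sum_range]
      push_cast
      refine Finset.sum_congr rfl fun j _ => ?_
      rw [Algebra.smul_def]
    have hE : yO ^ d + ∑ i ∈ Finset.range d,
        (∑ j ∈ Finset.range ((q i).natDegree + 1), cO i j * xO ^ j) * yO ^ i = 0 := by
      apply Subtype.ext
      push_cast
      rw [← heq]
      congr 1
      refine Finset.sum_congr rfl fun i _ => ?_
      rw [← hcoe i]
      push_cast
      rfl
    have hφ := congrArg φ hE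
    rw [map_zero, map_add, map_pow, map_sum] at hφ
    rw [← hφ]
    congr 1
    refine Finset.sum_congr rfl fun i _ => ?_
    rw [map_mul, map_pow, map_sum]
    congr 1
    simp only [map_sum, aeval_monomial]
    refine Finset.sum_congr rfl fun j _ => ?_
    rw [map_mul, map_pow, hcompat]

/-- **(D) INTEGRALITY LEMMA** (blueprint 14), valuation form: in the RatFunc setting with an
orthonormal basis, if `v y ≤ 1`, `y ∈ Bfin`, `y / x^r ∈ Binf`, then the residue `ȳ = φ y` satisfies
`V ȳ ≤ max 1 (V x̄) ^ r` for EVERY valuation `V` of `Fbar` that is `≤ 1` on `k`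
(i.e. `ȳ ∈ L̄(r (x̄)_∞)`). -/
theorem integrality_lemma [Algebra (RatFunc L) F] [IsScalarTower L (RatFunc L) F]
    [Algebra L[X] F] [IsScalarTower L[X] (RatFunc L) F] [IsScalarTower L L[X] F]
    {n : ℕ} {b : Fin n → F} (hb : OrthoBasis (L := L) v n b)
    (hG : ∀ q : L[X], v (algebraMap L[X] F q) ≤ 1 → ∀ j, v (algebraMap L F (q.coeff j)) ≤ 1)
    (φ : v.valuationSubring →+* Fbar) (ψ : ringA (L := L) v →+* k)
    (hcompat : ∀ (c : L) (hc : v (algebraMap L F c) ≤ 1),
      φ ⟨algebraMap L F c, hc⟩ = algebraMap k Fbar (ψ ⟨c, hc⟩))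
    (hx : v (xF L F) ≤ 1) {y : F} (hy : v y ≤ 1) (r : ℕ) (hfin : IsIntegral L[X] y)
    (hinf : IsIntegral (ringOinf L) (y / xF L F ^ r))
    {Γ' : Type*} [LinearOrderedCommGroupWithZero Γ'] (V : Valuation Fbar Γ')
    (hV : ∀ c : k, V (algebraMap k Fbar c) ≤ 1) :
    V (φ ⟨y, hy⟩) ≤ max 1 (V (φ ⟨xF L F, hx⟩)) ^ r := by
  obtain ⟨d, q, hdeg, hq, heq⟩ := exists_integral_equation hb hG hy r hfin hinf
  obtain ⟨qbar, hqdeg, heqbar⟩ := reduction_equation φ ψ hcompat hx hy d q hq heq
  exact val_le_of_monic_equation V hV _ _ d r qbar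
    (fun i hi => (hqdeg i).trans (hdeg i hi)) heqbar

end PartC

end Fermat.Agent.S18.GaussInt43
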