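/-
S18 moonshot (blueprint 14), package [GAUSS], the INTEGRALITY LEMMA in abstract form (helper76).

`F` finite over `RatFunc L`, `O` a valuation subring of `F` (the Gauss valuation `W`).  If `y : F`
is integral over `L[X]` (no poles at the finite places), `y / X^r` is integral over the valuation
ring at infinity of `RatFunc L` (poles at infinity bounded by `r (x)_∞`) and `y` is integral over
the Gauss ring `O ∩ L(X)`, then `y` is a root of a monic polynomial `∑ c_i(X) T^i` with
`c_i ∈ A[X]` (`A = O ∩ L`), `deg c_i ≤ (d - i) r`.  Reducing along any ring hom out of `O` gives the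
same for the reduction `ȳ`, hence `ȳ ∈ L̄(r (x̄)_∞)` in valuation-subring form.
Mathlib only.
-/
import Mathlib

set_option autoImplicit false

open Polynomial

namespace Fermat.Agent.S18.GaussInt76

section General

variable {K F : Type*} [Field K] [Field F] [Algebra K F]

/-- Coefficients of the minimal polynomial over the fraction field of an integrally closed domain
`R` of an element integral over `R` (instance-free formulation of integrality). -/
theorem minpoly_coeff_mem_range (R : Type*) [CommRing R] [IsDomain R] [IsIntegrallyClosed R]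
    [Algebra R K] [IsFractionRing R K] {z : F}
    (h : ∃ p : R[X], p.Monic ∧ p.eval₂ ((algebraMap K F).comp (algebraMap R K)) z = 0) (i : ℕ) :
    (minpoly K z).coeff i ∈ (algebraMap R K).range := by
  obtain ⟨p, hpm, hpz⟩ := h
  letI : Algebra R F := ((algebraMap K F).comp (algebraMap R K)).toAlgebra
  haveI : IsScalarTower R K F := IsScalarTower.of_algebraMap_eq (fun _ => rfl)
  have hz : IsIntegral R z := ⟨p, hpm, hpz⟩
  rw [minpoly.isIntegrallyClosed_eq_field_fractions' K hz, coeff_map]
  exact ⟨_, rfl⟩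

/-- Integrality over a valuation subring of `K`, instance-free. -/
def IntOver (V : ValuationSubring K) (z : F) : Prop :=
  ∃ p : K[X], p.Monic ∧ (∀ i, p.coeff i ∈ V) ∧ aeval z p = 0

theorem IntOver.minpoly_coeff_mem {V : ValuationSubring K} {z : F} (h : IntOver V z) (i : ℕ) :
    (minpoly K z).coeff i ∈ V := by
  obtain ⟨p, hpm, hpV, hpz⟩ := h
  have hlift : p ∈ Polynomial.lifts (algebraMap V K) := by
    rw [Polynomial.lifts_iff_coeff_lifts]
    intro n
    exact ⟨⟨p.coeff n, hpV n⟩, rfl⟩
  obtain ⟨q, hq, _, hqm⟩ := Polynomial.lifts_and_degree_eq_and_monic hlift hpm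
  have h2 : ∃ p : (V : Type _)[X], p.Monic ∧
      p.eval₂ ((algebraMap K F).comp (algebraMap V K)) z = 0 := by
    refine ⟨q, hqm, ?_⟩
    rw [← hq, aeval_def, eval₂_map] at hpz
    exact hpz
  obtain ⟨c, hc⟩ := minpoly_coeff_mem_range (K := K) (F := F) V h2 i
  rw [← hc]
  exact c.2

theorem IntOver.isIntegral {V : ValuationSubring K} {z : F} (h : IntOver V z) : IsIntegral K z := by
  obtain ⟨p, hpm, _, hpz⟩ := h
  exact ⟨p, hpm, hpz⟩

/-- An element of `O` is integral over `O ∩ K` as soon as `F/K` has a basis in `O` whose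
coordinate functionals preserve `O` (one direction of `W`-orthonormality). -/
theorem intOver_of_basis (O : ValuationSubring F) {ι : Type*} [Fintype ι] [DecidableEq ι]
    (b : Module.Basis ι K F) (hbO : ∀ i, b i ∈ O)
    (hb : ∀ z : F, z ∈ O → ∀ i, algebraMap K F (b.repr z i) ∈ O)
    {y : F} (hy : y ∈ O) : IntOver (O.comap (algebraMap K F)) y := by
  set V : ValuationSubring K := O.comap (algebraMap K F) with hV
  set M : Matrix ι ι K := Algebra.leftMulMatrix b y with hM
  have hMV : ∀ i j, M i j ∈ V := by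
    intro i j
    rw [hM, Algebra.leftMulMatrix_eq_repr_mul]
    exact hb _ (O.mul_mem _ _ hy (hbO j)) i
  set M₀ : Matrix ι ι V := fun i j => ⟨M i j, hMV i j⟩ with hM₀
  have hmap : M₀.map (algebraMap V K) = M := by
    ext i j; rfl
  refine ⟨M.charpoly, Matrix.charpoly_monic M, ?_, ?_⟩
  · intro i
    rw [← hmap, Matrix.charpoly_map, coeff_map]
    exact (M₀.charpoly.coeff i).2
  · have h1 : aeval M M.charpoly = 0 := Matrix.aeval_self_charpoly M
    rw [hM, Polynomial.aeval_algHom_apply] at h1
    exact (map_eq_zero_iff _ (Algebra.leftMulMatrix_injective b)).mp h1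

theorem intOver_of_isIntegral (V : ValuationSubring K) [Algebra V F] [IsScalarTower V K F]
    {z : F} (h : IsIntegral V z) : IntOver V z := by
  obtain ⟨p, hp, h⟩ := h
  refine ⟨p.map (algebraMap V K), hp.map _, fun i => ?_, ?_⟩
  · rw [coeff_map]; exact (p.coeff i).2
  · rwa [aeval_def, eval₂_map, ← IsScalarTower.algebraMap_eq]

end General

section Main

open scoped Classical

variable {L F : Type*} [Field L] [Field F] [Algebra (RatFunc L) F]

/-- The valuation ring at infinity of `L(X)` (`= S20.NormalBasis.Oinf`). -/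
noncomputable abbrev OInf (L : Type*) [Field L] : ValuationSubring (RatFunc L) :=
  (RatFunc.inftyValuation L).valuationSubring

theorem mem_OInf_iff {f : RatFunc L} : f ∈ OInf L ↔ f = 0 ∨ f.intDegree ≤ 0 := by
  rw [Valuation.mem_valuationSubring_iff]
  by_cases hf : f = 0
  · simp [hf]
  · rw [RatFunc.inftyValuation_apply, RatFunc.inftyValuation_of_nonzero L hf]
    simp [hf, ← WithZero.exp_zero, WithZero.exp_le_exp]

theorem hfin_of_isIntegral [Algebra L[X] F] [IsScalarTower L[X] (RatFunc L) F] {y : F}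
    (h : IsIntegral L[X] y) : ∃ p : (L[X])[X], p.Monic ∧
      p.eval₂ ((algebraMap (RatFunc L) F).comp (algebraMap L[X] (RatFunc L))) y = 0 := by
  obtain ⟨p, hp, h⟩ := h
  exact ⟨p, hp, by rwa [← IsScalarTower.algebraMap_eq]⟩

/-- **Integrality lemma, polynomial form.** -/
theorem exists_coeffs (O : ValuationSubring F) (A : Subring L)
    (hGauss : ∀ c : L[X], algebraMap (RatFunc L) F (algebraMap L[X] (RatFunc L) c) ∈ O →
      ∀ n, c.coeff n ∈ A)
    (r : ℕ) (y : F)
    (hfin : ∃ p : (L[X])[X], p.Monic ∧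
      p.eval₂ ((algebraMap (RatFunc L) F).comp (algebraMap L[X] (RatFunc L))) y = 0)
    (hinf : IntOver (OInf L) (y / algebraMap (RatFunc L) F (RatFunc.X ^ r)))
    (hO : IntOver (O.comap (algebraMap (RatFunc L) F)) y) :
    ∃ (d : ℕ) (c : ℕ → L[X]), c d = 1 ∧ (∀ i n, (c i).coeff n ∈ A) ∧
      (∀ i, i ≤ d → (c i).natDegree ≤ (d - i) * r) ∧
      ∑ i ∈ Finset.range (d + 1),
        algebraMap (RatFunc L) F (algebraMap L[X] (RatFunc L) (c i)) * y ^ i = 0 := by
  classical
  set K := RatFunc L with hK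
  have hyint : IsIntegral K y := hO.isIntegral
  set m := minpoly K y with hm
  set d := m.natDegree with hd
  have hinj : Function.Injective (algebraMap L[X] K) := IsFractionRing.injective L[X] K
  -- the coefficients are polynomials
  have h1 : ∀ i, ∃ c : L[X], algebraMap L[X] K c = m.coeff i := fun i =>
    minpoly_coeff_mem_range (K := K) (F := F) L[X] hfin i
  choose c hc using h1
  refine ⟨d, c, ?_, ?_, ?_, ?_⟩
  · apply hinj
    rw [hc, map_one]
    exact (minpoly.monic hyint).coeff_natDegree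
  · intro i n
    apply hGauss (c i)
    rw [hc]
    exact hO.minpoly_coeff_mem i
  · intro i hi
    by_cases hci : c i = 0
    · rw [hci]; simp
    -- scaling
    set a : K := RatFunc.X ^ r with ha
    have ha0 : a ≠ 0 := pow_ne_zero _ RatFunc.X_ne_zero
    set z : F := y / algebraMap K F a with hz
    have haF : algebraMap K F a ≠ 0 := by
      rw [Ne, map_eq_zero_iff _ (algebraMap K F).injective]; exact ha0
    have hyz : y = a • z := by
      rw [Algebra.smul_def, hz, mul_div_cancel₀ _ haF]
    have hzint : IsIntegral K z := hinf.isIntegral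
    have hmz : m = (minpoly K z).scaleRoots a := by
      rw [hm, hyz]
      exact IsIntegrallyClosed.minpoly_smul ha0 hzint
    have hdz : (minpoly K z).natDegree = d := by
      rw [hd, hmz, natDegree_scaleRoots]
    have hcoeff : m.coeff i = (minpoly K z).coeff i * a ^ (d - i) := by
      rw [hmz, coeff_scaleRoots, hdz]
    set e := (minpoly K z).coeff i with he
    have heO : e ∈ OInf L := hinf.minpoly_coeff_mem i
    have hne : algebraMap L[X] K (c i) ≠ 0 := by
      rw [Ne, map_eq_zero_iff _ hinj]; exact hci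
    have he0 : e ≠ 0 := by
      intro h0
      apply hne
      rw [hc, hcoeff, h0, zero_mul]
    have hdeg : e.intDegree ≤ 0 := (mem_OInf_iff.mp heO).resolve_left he0
    have h3 : ((c i).natDegree : ℤ) = e.intDegree + ((d - i) * r : ℕ) := by
      have h4 : (algebraMap L[X] K (c i)).intDegree = ((c i).natDegree : ℤ) :=
        RatFunc.intDegree_polynomial
      rw [← h4, hc, hcoeff, RatFunc.intDegree_mul he0 (pow_ne_zero _ ha0), ha, ← pow_mul]
      congr 1
      have : (RatFunc.X : K) ^ (r * (d - i)) = algebraMap L[X] K (X ^ (r * (d - i))) := by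
        rw [map_pow, RatFunc.algebraMap_X]
      rw [this, RatFunc.intDegree_polynomial, natDegree_X_pow, mul_comm]
    have : ((c i).natDegree : ℤ) ≤ ((d - i) * r : ℕ) := by rw [h3]; linarith
    exact_mod_cast this
  · have h5 : aeval y m = 0 := minpoly.aeval K y
    rw [aeval_eq_sum_range, ← hd] at h5
    rw [← h5]
    refine Finset.sum_congr rfl fun i _ => ?_
    rw [hc, Algebra.smul_def]

/-- The ring hom `A →+* O` (constants). -/
noncomputable def constHom (O : ValuationSubring F) (A : Subring L)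
    (hAO : ∀ a ∈ A, algebraMap (RatFunc L) F (RatFunc.C a) ∈ O) : A →+* O where
  toFun a := ⟨algebraMap (RatFunc L) F (RatFunc.C (a : L)), hAO a a.2⟩
  map_one' := by ext; simp
  map_mul' a b := by ext; simp
  map_zero' := by ext; simp
  map_add' a b := by ext; simp

theorem coe_eval₂_constHom (O : ValuationSubring F) (A : Subring L)
    (hAO : ∀ a ∈ A, algebraMap (RatFunc L) F (RatFunc.C a) ∈ O)
    (hx : algebraMap (RatFunc L) F RatFunc.X ∈ O) (q : (A : Type _)[X]) :
    ((q.eval₂ (constHom O A hAO) ⟨_, hx⟩ : O) : F) =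
      algebraMap (RatFunc L) F (algebraMap L[X] (RatFunc L) (q.map A.subtype)) := by
  induction q using Polynomial.induction_on' with
  | add p q hp hq =>
    rw [eval₂_add, Polynomial.map_add, map_add, map_add]
    push_cast
    rw [hp, hq]
  | monomial n a =>
    rw [eval₂_monomial, Polynomial.map_monomial, ← C_mul_X_pow_eq_monomial, map_mul, map_mul,
      map_pow, map_pow, RatFunc.algebraMap_C, RatFunc.algebraMap_X]
    rfl

/-- **Integrality lemma, reduced form**: along any ring hom `φ : O →+* B` compatible with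
`ψ : A →+* k`, `j : k →+* B`, the reduction `ȳ` is a root of a monic polynomial
`∑ c̄_i(x̄) T^i` with `c̄_i ∈ k[X]`, `deg c̄_i ≤ (d - i) r`. -/
theorem exists_coeffs_reduced (O : ValuationSubring F) (A : Subring L)
    (hGauss : ∀ c : L[X], algebraMap (RatFunc L) F (algebraMap L[X] (RatFunc L) c) ∈ O →
      ∀ n, c.coeff n ∈ A)
    (r : ℕ) (y : F)
    (hfin : ∃ p : (L[X])[X], p.Monic ∧
      p.eval₂ ((algebraMap (RatFunc L) F).comp (algebraMap L[X] (RatFunc L))) y = 0)
    (hinf : IntOver (OInf L) (y / algebraMap (RatFunc L) F (RatFunc.X ^ r)))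
    (hO : IntOver (O.comap (algebraMap (RatFunc L) F)) y)
    (hAO : ∀ a ∈ A, algebraMap (RatFunc L) F (RatFunc.C a) ∈ O)
    (hx : algebraMap (RatFunc L) F RatFunc.X ∈ O) (hyO : y ∈ O)
    {k B : Type*} [CommRing k] [CommRing B] (ψ : A →+* k) (j : k →+* B) (φ : O →+* B)
    (hcomp : ∀ a : A, j (ψ a) = φ (constHom O A hAO a)) :
    ∃ (d : ℕ) (cb : ℕ → k[X]), cb d = 1 ∧ (∀ i, i ≤ d → (cb i).natDegree ≤ (d - i) * r) ∧
      ∑ i ∈ Finset.range (d + 1), (cb i).eval₂ j (φ ⟨_, hx⟩) * (φ ⟨y, hyO⟩) ^ i = 0 := by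
  classical
  obtain ⟨d, c, hcd, hcA, hcdeg, hsum⟩ := exists_coeffs O A hGauss r y hfin hinf hO
  have hsub : ∀ i, (↑(c i).coeffs : Set L) ⊆ A := by
    intro i a ha
    obtain ⟨n, -, rfl⟩ := Polynomial.mem_coeffs_iff.mp (Finset.mem_coe.mp ha)
    exact hcA i n
  set q : ℕ → (A : Type _)[X] := fun i => (c i).toSubring A (hsub i) with hq
  have hqmap : ∀ i, (q i).map A.subtype = c i := fun i => Polynomial.map_toSubring _ _ _
  refine ⟨d, fun i => (q i).map ψ, ?_, ?_, ?_⟩
  · have : q d = 1 := by
      apply Polynomial.map_injective A.subtype Subtype.val_injective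
      rw [hqmap, hcd, Polynomial.map_one]
    show (q d).map ψ = 1
    rw [this, Polynomial.map_one]
  · intro i hi
    calc ((q i).map ψ).natDegree ≤ (q i).natDegree := natDegree_map_le
      _ = (c i).natDegree := by rw [hq]; exact Polynomial.natDegree_toSubring _ _ _
      _ ≤ (d - i) * r := hcdeg i hi
  · have h1 : ∑ i ∈ Finset.range (d + 1),
        (q i).eval₂ (constHom O A hAO) ⟨_, hx⟩ * (⟨y, hyO⟩ : O) ^ i = 0 := by
      apply Subtype.ext
      push_cast
      rw [← hsum]
      refine Finset.sum_congr rfl fun i _ => ?_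
      rw [coe_eval₂_constHom, hqmap]
    have h2 := congrArg φ h1
    rw [map_sum, map_zero] at h2
    rw [← h2]
    refine Finset.sum_congr rfl fun i _ => ?_
    rw [map_mul, map_pow, Polynomial.hom_eval₂, eval₂_map]
    congr 2
    ext a
    exact hcomp a

end Main

section Place

variable {B : Type*} [Field B]

/-- Valuation rings are integrally closed, in relation form. -/
theorem mem_of_monic_relation (Q : ValuationSubring B) (d : ℕ) (γ : ℕ → B)
    (hγ : ∀ i, γ i ∈ Q) (hd : γ d = 1) (w : B)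
    (h : ∑ i ∈ Finset.range (d + 1), γ i * w ^ i = 0) : w ∈ Q := by
  by_contra hw
  have hv : 1 < Q.valuation w := by
    rw [← not_le]
    intro hle
    exact hw ((Q.valuation_le_one_iff w).mp hle)
  have hw0 : w ≠ 0 := fun h0 => hw (h0 ▸ Q.zero_mem)
  rw [Finset.sum_range_succ, hd, one_mul] at h
  have h1 : w ^ d = -∑ i ∈ Finset.range d, γ i * w ^ i := eq_neg_of_add_eq_zero_right h
  have h2 : Q.valuation (∑ i ∈ Finset.range d, γ i * w ^ i) < Q.valuation (w ^ d) := by
    apply Valuation.map_sum_lt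
    · rw [Ne, Valuation.zero_iff]; exact pow_ne_zero _ hw0
    · intro i hi
      have hi' : i < d := Finset.mem_range.mp hi
      rw [map_mul, map_pow, map_pow]
      calc Q.valuation (γ i) * Q.valuation w ^ i ≤ 1 * Q.valuation w ^ i := by
            gcongr
            exact (Q.valuation_le_one_iff _).mpr (hγ i)
        _ = Q.valuation w ^ i := one_mul _
        _ < Q.valuation w ^ d := pow_lt_pow_right₀ hv hi'
  rw [h1, Valuation.map_neg] at h2
  exact lt_irrefl _ h2

/-- **Integrality lemma, place form.**  If `ȳ` is a root of `∑ c̄_i(x̄) T^i`, `c̄_d = 1`,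
`deg c̄_i ≤ (d - i) r`, then at every valuation ring `Q ⊇ k` of `B`: `x̄ ∈ Q → ȳ ∈ Q` and
`x̄ ∉ Q → ȳ / x̄^r ∈ Q`; i.e. `ȳ ∈ L̄(r (x̄)_∞)`. -/
theorem mem_of_coeffs {k : Type*} [CommRing k] (j : k →+* B) (Q : ValuationSubring B)
    (hk : ∀ a : k, j a ∈ Q) (xb yb : B) (r d : ℕ) (cb : ℕ → k[X]) (hcd : cb d = 1)
    (hdeg : ∀ i, i ≤ d → (cb i).natDegree ≤ (d - i) * r)
    (hsum : ∑ i ∈ Finset.range (d + 1), (cb i).eval₂ j xb * yb ^ i = 0) :
    (xb ∈ Q → yb ∈ Q) ∧ (xb ∉ Q → yb / xb ^ r ∈ Q) := by
  constructor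
  · intro hx
    refine mem_of_monic_relation Q d (fun i => (cb i).eval₂ j xb) (fun i => ?_) ?_ yb hsum
    · rw [eval₂_eq_sum_range]
      exact Q.toSubring.sum_mem fun n _ => Q.mul_mem _ _ (hk _) (Q.toSubring.pow_mem hx n)
    · show (cb d).eval₂ j xb = 1
      rw [hcd, eval₂_one]
  · intro hx
    have hx0 : xb ≠ 0 := fun h0 => hx (h0 ▸ Q.zero_mem)
    have hxi : xb⁻¹ ∈ Q := (Q.mem_or_inv_mem xb).resolve_left hx
    refine mem_of_monic_relation Q d
      (fun i => if i ≤ d then (cb i).eval₂ j xb / xb ^ ((d - i) * r) else 0)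
      (fun i => ?_) ?_ (yb / xb ^ r) ?_
    · show (if i ≤ d then (cb i).eval₂ j xb / xb ^ ((d - i) * r) else 0) ∈ Q
      split_ifs with hi
      · rw [eval₂_eq_sum_range, Finset.sum_div]
        refine Q.toSubring.sum_mem fun n hn => ?_
        have hn' : n ≤ (d - i) * r :=
          (Nat.lt_succ_iff.mp (Finset.mem_range.mp hn)).trans (hdeg i hi)
        have : j ((cb i).coeff n) * xb ^ n / xb ^ ((d - i) * r)
            = j ((cb i).coeff n) * xb⁻¹ ^ ((d - i) * r - n) := by
          obtain ⟨m, hm⟩ := Nat.exists_eq_add_of_le hn'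
          rw [hm, Nat.add_sub_cancel_left, pow_add, inv_pow]
          field_simp
        rw [this]
        exact Q.mul_mem _ _ (hk _) (Q.toSubring.pow_mem hxi _)
      · exact Q.zero_mem
    · show (if d ≤ d then (cb d).eval₂ j xb / xb ^ ((d - d) * r) else 0) = 1
      rw [if_pos le_rfl, hcd, eval₂_one]
      simp
    · have h1 : ∑ i ∈ Finset.range (d + 1),
          (if i ≤ d then (cb i).eval₂ j xb / xb ^ ((d - i) * r) else 0) * (yb / xb ^ r) ^ i
          = (∑ i ∈ Finset.range (d + 1), (cb i).eval₂ j xb * yb ^ i) / xb ^ (d * r) := by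
        rw [Finset.sum_div]
        refine Finset.sum_congr rfl fun i hi => ?_
        have hi' : i ≤ d := Nat.lt_succ_iff.mp (Finset.mem_range.mp hi)
        rw [if_pos hi', div_pow, ← pow_mul]
        have h2 : xb ^ (d * r) = xb ^ ((d - i) * r) * xb ^ (r * i) := by
          rw [← pow_add]
          congr 1
          have : d = (d - i) + i := (Nat.sub_add_cancel hi').symm
          nlinarith [this]
        rw [h2]
        field_simp
      rw [h1, hsum, zero_div]

/-- **INTEGRALITY LEMMA (blueprint 14, [GAUSS])**, final form.  `B` a field (the residue field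
of `W`), `φ : O →+* B` the reduction, `k → B` the constants.  For `y ∈ O` integral over `L[X]`,
with `y / X^r` integral over the valuation ring at infinity and `y` integral over the Gauss ring:
at every valuation ring `Q ⊇ k` of `B`, `x̄ ∈ Q → ȳ ∈ Q` and `x̄ ∉ Q → ȳ / x̄^r ∈ Q`. -/
theorem integrality_place {L F : Type*} [Field L] [Field F] [Algebra (RatFunc L) F]
    (O : ValuationSubring F) (A : Subring L)
    (hGauss : ∀ c : L[X], algebraMap (RatFunc L) F (algebraMap L[X] (RatFunc L) c) ∈ O →
      ∀ n, c.coeff n ∈ A)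
    (r : ℕ) (y : F)
    (hfin : ∃ p : (L[X])[X], p.Monic ∧
      p.eval₂ ((algebraMap (RatFunc L) F).comp (algebraMap L[X] (RatFunc L))) y = 0)
    (hinf : IntOver (OInf L) (y / algebraMap (RatFunc L) F (RatFunc.X ^ r)))
    (hO : IntOver (O.comap (algebraMap (RatFunc L) F)) y)
    (hAO : ∀ a ∈ A, algebraMap (RatFunc L) F (RatFunc.C a) ∈ O)
    (hx : algebraMap (RatFunc L) F RatFunc.X ∈ O) (hyO : y ∈ O)
    {k : Type*} [CommRing k] (ψ : A →+* k) (j : k →+* B) (φ : O →+* B)
    (hcomp : ∀ a : A, j (ψ a) = φ (constHom O A hAO a))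
    (Q : ValuationSubring B) (hk : ∀ a : k, j a ∈ Q) :
    (φ ⟨_, hx⟩ ∈ Q → φ ⟨y, hyO⟩ ∈ Q) ∧
      (φ ⟨_, hx⟩ ∉ Q → φ ⟨y, hyO⟩ / φ ⟨_, hx⟩ ^ r ∈ Q) := by
  obtain ⟨d, cb, hcd, hdeg, hsum⟩ :=
    exists_coeffs_reduced O A hGauss r y hfin hinf hO hAO hx hyO ψ j φ hcomp
  exact mem_of_coeffs j Q hk _ _ r d cb hcd hdeg hsum

end Place

end Fermat.Agent.S18.GaussInt76
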