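import Mathlib

/-!
# S18 moonshot, package [GAUSS]-INT: the abstract INTEGRALITY LEMMA (helper93)

Mathlib only.  Setting: fields `L ⊆ F`, a valuation subring `O` of `F`, `A := O ∩ L`
(`O.comap (algebraMap L F)`), a "residue map" `ρ : O →+* Fb` into a field `Fb ⊇ k` whose kernel is
the maximal ideal of `O` and which is compatible with a residue map `ρA : A →+* k`;
`u ∈ O` with `ρ u` transcendental over `k`; `b₁, …, bₙ ∈ O` spanning `F` over `L(u)` whose residues
are linearly independent over `k[ρ u]` (an orthonormal basis: `n = [F : L(u)] = [Fb : k(ρ u)]`).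

Main result `isIntegralElem_residue`: if `z ∈ O` is integral over `L[u]`, then `ρ z` is integral
over `k[ρ u]`.  (Blueprint 14 [GAUSS] integrality lemma = blueprint 15 Step 2.)
-/

namespace Fermat.Agent.S18.GaussInt93

open Polynomial

variable {L F k Fb : Type*} [Field L] [Field F] [Algebra L F] [Field k] [Field Fb] [Algebra k Fb]

/-- `A := O ∩ L` as a valuation subring of `L`. -/
abbrev ringA (L : Type*) {F : Type*} [Field L] [Field F] [Algebra L F] (O : ValuationSubring F) :
    ValuationSubring L :=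
  O.comap (algebraMap L F)

/-- The inclusion `A → O`. -/
def incl (L : Type*) {F : Type*} [Field L] [Field F] [Algebra L F] (O : ValuationSubring F) :
    ringA L O →+* O :=
  (algebraMap L F).restrict (ringA L O) O (fun _ ha => ha)

@[simp] lemma coe_incl (O : ValuationSubring F) (a : ringA L O) :
    ((incl L O a : O) : F) = algebraMap L F (a : L) := rfl

/-- Compatible residue data. -/
structure ResData (O : ValuationSubring F) (ρ : O →+* Fb) (ρA : ringA L O →+* k) : Prop where
  /-- the kernel of `ρ` is the maximal ideal of `O` -/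
  isUnit_of_ne_zero : ∀ x : O, ρ x ≠ 0 → IsUnit x
  /-- compatibility -/
  compat : ∀ a : ringA L O, ρ (incl L O a) = algebraMap k Fb (ρA a)

section basic

variable {O : ValuationSubring F} {ρ : O →+* Fb} {ρA : ringA L O →+* k}

lemma ResData.rhoA_eq_zero (h : ResData O ρ ρA) (a : ringA L O)
    (ha : (a : L) ∈ (ringA L O).nonunits) : ρA a = 0 := by
  by_contra hne
  have h1 : ρ (incl L O a) ≠ 0 := by
    rw [h.compat]
    exact fun h0 => hne ((map_eq_zero_iff _ (algebraMap k Fb).injective).1 h0)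
  obtain ⟨v, hv⟩ := (h.isUnit_of_ne_zero _ h1)
  -- the inverse of `a` lies in `O`, hence in `A`
  have ha0 : (a : L) ≠ 0 := by
    rintro h0
    apply h1
    have : a = 0 := Subtype.ext h0
    rw [this, map_zero, map_zero]
  have hinv : ((a : L))⁻¹ ∈ ringA L O := by
    rw [ValuationSubring.mem_comap, map_inv₀]
    have h2 : ((v⁻¹ : Oˣ) : O) * incl L O a = 1 := by rw [← hv]; exact v.inv_mul
    have h3 : (((v⁻¹ : Oˣ) : O) : F) * algebraMap L F (a : L) = 1 := by
      have := congrArg (Subtype.val) h2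
      simpa using this
    have h4 : (algebraMap L F (a : L))⁻¹ = (((v⁻¹ : Oˣ) : O) : F) :=
      (eq_inv_of_mul_eq_one_left h3).symm
    rw [h4]
    exact ((v⁻¹ : Oˣ) : O).2
  rw [ValuationSubring.mem_nonunits_iff] at ha
  have h5 : (ringA L O).valuation ((a : L))⁻¹ ≤ 1 :=
    ((ringA L O).valuation_le_one_iff _).2 hinv
  rw [map_inv₀] at h5
  have h6 : (ringA L O).valuation (a : L) ≠ 0 := by
    simpa using ha0
  have h7 : (1 : (ringA L O).ValueGroup) ≤ (ringA L O).valuation (a : L) := by
    have := (inv_le_one₀ (zero_lt_iff.2 h6)).1 h5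
    exact this
  exact absurd ha (not_lt.2 h7)

/-- Evaluation of polynomials over `A` at `u ∈ O`, as a ring hom into `O`. -/
noncomputable def evalO (O : ValuationSubring F) (u : O) : (ringA L O)[X] →+* O :=
  eval₂RingHom (incl L O) u

lemma coe_evalO (u : O) (p : (ringA L O)[X]) :
    ((evalO O u p : O) : F) = aeval (u : F) (p.map (ringA L O).subtype) := by
  unfold evalO
  rw [coe_eval₂RingHom]
  have : ((eval₂ (incl L O) u p : O) : F) = O.subtype (eval₂ (incl L O) u p) := rfl
  rw [this, hom_eval₂, aeval_def, eval₂_map]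
  rfl

lemma ResData.rho_evalO (h : ResData O ρ ρA) (u : O) (p : (ringA L O)[X]) :
    ρ (evalO O u p) = aeval (ρ u) (p.map ρA) := by
  unfold evalO
  rw [coe_eval₂RingHom, hom_eval₂, aeval_def, eval₂_map]
  congr 1
  ext a
  simp [h.compat]

end basic

section scale

variable (A : ValuationSubring L)

/-- Gauss normalisation of a finite family of polynomials, not all zero: after scaling by a
nonzero constant all coefficients are in `A` and one of them is `1`; if some coefficient was
not in `A`, the constant is a nonunit of `A`. -/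
lemma exists_scale {ι : Type*} [Fintype ι] (p : ι → L[X]) (hp : ∃ i, p i ≠ 0) :
    ∃ c : L, c ≠ 0 ∧ (∀ i n, c * (p i).coeff n ∈ A) ∧ (∃ i n, c * (p i).coeff n = 1) ∧
      ((∃ i n, (p i).coeff n ∉ A) → c ∈ A.nonunits) := by
  classical
  let S : Finset (Σ _ : ι, ℕ) := Finset.univ.sigma (fun i => (p i).support)
  have hS : S.Nonempty := by
    obtain ⟨i, hi⟩ := hp
    obtain ⟨n, hn⟩ := Polynomial.support_nonempty.2 hi
    exact ⟨⟨i, n⟩, Finset.mem_sigma.2 ⟨Finset.mem_univ _, hn⟩⟩
  obtain ⟨⟨i₀, n₀⟩, h₀S, hmax⟩ :=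
    Finset.exists_max_image S (fun x => A.valuation ((p x.1).coeff x.2)) hS
  have ha₀ : (p i₀).coeff n₀ ≠ 0 := by
    have := (Finset.mem_sigma.1 h₀S).2
    exact Polynomial.mem_support_iff.1 this
  have hv₀ : A.valuation ((p i₀).coeff n₀) ≠ 0 := by simpa using ha₀
  refine ⟨((p i₀).coeff n₀)⁻¹, inv_ne_zero ha₀, ?_, ⟨i₀, n₀, inv_mul_cancel₀ ha₀⟩, ?_⟩
  · intro i n
    by_cases hin : (p i).coeff n = 0
    · rw [hin, mul_zero]; exact A.zero_mem
    · have hmem : (⟨i, n⟩ : Σ _ : ι, ℕ) ∈ S :=
        Finset.mem_sigma.2 ⟨Finset.mem_univ _, Polynomial.mem_support_iff.2 hin⟩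
      have hle := hmax ⟨i, n⟩ hmem
      rw [← A.valuation_le_one_iff, map_mul, map_inv₀]
      exact (inv_mul_le_one₀ (zero_lt_iff.2 hv₀)).2 hle
  · rintro ⟨i, n, hin⟩
    have hne : (p i).coeff n ≠ 0 := fun h0 => hin (h0 ▸ A.zero_mem)
    have hmem : (⟨i, n⟩ : Σ _ : ι, ℕ) ∈ S :=
      Finset.mem_sigma.2 ⟨Finset.mem_univ _, Polynomial.mem_support_iff.2 hne⟩
    have hle := hmax ⟨i, n⟩ hmem
    have hgt : 1 < A.valuation ((p i).coeff n) := by
      rw [← not_le, A.valuation_le_one_iff]; exact hin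
    have hgt₀ : 1 < A.valuation ((p i₀).coeff n₀) := lt_of_lt_of_le hgt hle
    rw [ValuationSubring.mem_nonunits_iff, map_inv₀]
    exact inv_lt_one_of_one_lt₀ hgt₀

/-- A polynomial all of whose coefficients lie in `A` lifts to `A[X]`. -/
lemma exists_lift (q : L[X]) (hq : ∀ n, q.coeff n ∈ A) :
    ∃ q' : A[X], q'.map A.subtype = q := by
  have : q ∈ Polynomial.lifts A.subtype := by
    rw [Polynomial.lifts_iff_coeff_lifts]
    intro n
    exact ⟨⟨q.coeff n, hq n⟩, rfl⟩
  exact this

end scale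

section ortho

variable {O : ValuationSubring F} {ρ : O →+* Fb} {ρA : ringA L O →+* k}

/-- The residues of the `b i` are linearly independent over `k[ρ u]`. -/
def ResIndep (k : Type*) {F Fb : Type*} [Field F] [Field k] [Field Fb] [Algebra k Fb]
    {O : ValuationSubring F} (ρ : O →+* Fb) (u : O) {ι : Type*} [Fintype ι] (b : ι → O) : Prop :=
  ∀ p : ι → k[X], ∑ i, aeval (ρ u) (p i) * ρ (b i) = 0 → ∀ i, p i = 0

/-- ORTHONORMALITY (polynomial form): if `∑ pᵢ(u) bᵢ ∈ O` then all coefficients of all `pᵢ`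
lie in `A`. -/
theorem ortho (h : ResData O ρ ρA) (u : O) {ι : Type*} [Fintype ι] (b : ι → O)
    (hb : ResIndep k ρ u b) (p : ι → L[X])
    (hy : ∑ i, aeval (u : F) (p i) * (b i : F) ∈ O) :
    ∀ i n, (p i).coeff n ∈ ringA L O := by
  classical
  by_contra hcon
  push Not at hcon
  obtain ⟨i₁, n₁, h₁⟩ := hcon
  have hp : ∃ i, p i ≠ 0 := ⟨i₁, fun h0 => h₁ (by rw [h0, coeff_zero]; exact (ringA L O).zero_mem)⟩
  obtain ⟨c, hc0, hcA, ⟨i₀, n₀, h₀⟩, hcn⟩ := exists_scale (ringA L O) p hp
  have hcn' : c ∈ (ringA L O).nonunits := hcn ⟨i₁, n₁, h₁⟩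
  have hcmem : c ∈ ringA L O := (ringA L O).nonunits_subset hcn'
  -- lift the scaled polynomials
  have hlift : ∀ i, ∃ q' : (ringA L O)[X], q'.map (ringA L O).subtype = C c * p i := by
    intro i
    apply exists_lift
    intro n
    rw [coeff_C_mul]
    exact hcA i n
  choose q hq using hlift
  -- the relation in `O`
  have hrel : ∑ i, evalO O u (q i) * b i = incl L O ⟨c, hcmem⟩ * ⟨_, hy⟩ := by
    apply Subtype.ext
    push_cast
    rw [Finset.mul_sum]
    refine Finset.sum_congr rfl (fun i _ => ?_)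
    rw [coe_evalO, hq i, map_mul, aeval_C, coe_incl]
    ring
  have hrel2 := congrArg ρ hrel
  rw [map_sum, map_mul, h.compat, h.rhoA_eq_zero ⟨c, hcmem⟩ hcn', map_zero, zero_mul] at hrel2
  have hrel3 : ∑ i, aeval (ρ u) ((q i).map ρA) * ρ (b i) = 0 := by
    rw [← hrel2]
    refine Finset.sum_congr rfl (fun i _ => ?_)
    rw [map_mul, h.rho_evalO]
  have hzero := hb (fun i => (q i).map ρA) hrel3 i₀
  have hcoef : (q i₀).coeff n₀ = 1 := by
    apply Subtype.ext
    have := congrArg (fun r => r.coeff n₀) (hq i₀)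
    simp only [coeff_map, coeff_C_mul] at this
    rw [h₀] at this
    exact this
  have : ((q i₀).map ρA).coeff n₀ = 1 := by
    rw [coeff_map, hcoef, map_one]
  rw [hzero, coeff_zero] at this
  exact zero_ne_one this

lemma resIndep_one (u : O) (hu : Transcendental k (ρ u)) :
    ResIndep k ρ u (fun _ : Unit => (1 : O)) := by
  intro p hp i
  rw [Fintype.sum_unique, map_one, mul_one] at hp
  have := transcendental_iff.1 hu _ hp
  cases i
  exact this

/-- GAUSS LEMMA: if `q(u) ∈ O` then all coefficients of `q` lie in `A`. -/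
theorem coeff_mem_of_aeval_mem (h : ResData O ρ ρA) (u : O) (hu : Transcendental k (ρ u))
    (q : L[X]) (hq : aeval (u : F) q ∈ O) : ∀ n, q.coeff n ∈ ringA L O := by
  have := ortho h u (fun _ : Unit => (1 : O)) (resIndep_one u hu) (fun _ => q)
    (by simpa using hq)
  exact this ()

/-- The inverse of a unit of `O` lies in `O`. -/
lemma inv_mem_of_isUnit {y : O} (hy : IsUnit y) : ((y : F))⁻¹ ∈ O := by
  obtain ⟨v, rfl⟩ := hy
  have h2 : ((v⁻¹ : Oˣ) : O) * (v : O) = 1 := v.inv_mul
  have h3 : (((v⁻¹ : Oˣ) : O) : F) * ((v : O) : F) = 1 :=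
    congrArg (Subtype.val) h2
  rw [← eq_inv_of_mul_eq_one_left h3]
  exact ((v⁻¹ : Oˣ) : O).2

/-- Every nonzero polynomial in `u` becomes a unit of `O` after scaling by a constant. -/
lemma exists_unit_scale (h : ResData O ρ ρA) (u : O) (hu : Transcendental k (ρ u))
    (d : L[X]) (hd : d ≠ 0) :
    ∃ c : L, c ≠ 0 ∧ ∃ y : O, IsUnit y ∧ (y : F) = algebraMap L F c * aeval (u : F) d := by
  classical
  obtain ⟨c, hc0, hcA, ⟨_, n₀, h₀⟩, -⟩ :=
    exists_scale (ringA L O) (fun _ : Unit => d) ⟨(), hd⟩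
  obtain ⟨q, hq⟩ := exists_lift (ringA L O) (C c * d) (fun n => by
    rw [coeff_C_mul]; exact hcA () n)
  refine ⟨c, hc0, evalO O u q, ?_, ?_⟩
  · apply h.isUnit_of_ne_zero
    rw [h.rho_evalO]
    intro h0
    have hz := transcendental_iff.1 hu _ h0
    have hcoef : (q.map ρA).coeff n₀ = 1 := by
      rw [coeff_map]
      have : q.coeff n₀ = 1 := by
        apply Subtype.ext
        have := congrArg (fun r => r.coeff n₀) hq
        simp only [coeff_map, coeff_C_mul] at this
        rw [h₀] at this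
        exact this
      rw [this, map_one]
    rw [hz, coeff_zero] at hcoef
    exact zero_ne_one hcoef
  · rw [coe_evalO, hq, map_mul, aeval_C]

/-- `u` is transcendental over `L`. -/
lemma aeval_ne_zero (h : ResData O ρ ρA) (u : O) (hu : Transcendental k (ρ u))
    (d : L[X]) (hd : d ≠ 0) : aeval (u : F) d ≠ 0 := by
  obtain ⟨c, hc0, y, hy, hyc⟩ := exists_unit_scale h u hu d hd
  intro h0
  rw [h0, mul_zero] at hyc
  have : y = 0 := Subtype.ext hyc
  rw [this] at hy
  exact not_isUnit_zero hy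

/-- COORDINATES ARE INTEGRAL: if `w ∈ O` and `d(u) w = ∑ pᵢ(u) bᵢ` with `d ≠ 0`, then every
coordinate `pᵢ(u) / d(u)` lies in `O`. -/
theorem coord_mem (h : ResData O ρ ρA) (u : O) (hu : Transcendental k (ρ u))
    {ι : Type*} [Fintype ι] (b : ι → O) (hb : ResIndep k ρ u b)
    (w : F) (hw : w ∈ O) (d : L[X]) (hd : d ≠ 0) (p : ι → L[X])
    (hrel : aeval (u : F) d * w = ∑ i, aeval (u : F) (p i) * (b i : F)) :
    ∀ i, aeval (u : F) (p i) / aeval (u : F) d ∈ O := by
  classical
  obtain ⟨c, hc0, y, hy, hyc⟩ := exists_unit_scale h u hu d hd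
  have hsum : ∑ i, aeval (u : F) (C c * p i) * (b i : F) ∈ O := by
    have : ∑ i, aeval (u : F) (C c * p i) * (b i : F) = (y : F) * w := by
      rw [hyc, mul_assoc, hrel, Finset.mul_sum]
      refine Finset.sum_congr rfl (fun i _ => ?_)
      rw [map_mul, aeval_C]; ring
    rw [this]
    exact O.mul_mem _ _ y.2 hw
  have hco := ortho h u b hb (fun i => C c * p i) hsum
  intro i
  obtain ⟨q, hq⟩ := exists_lift (ringA L O) (C c * p i) (hco i)
  have hmem : aeval (u : F) (C c * p i) ∈ O := by
    rw [← hq, ← coe_evalO]; exact (evalO O u q).2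
  have hcF : algebraMap L F c ≠ 0 := by
    simpa using hc0
  have : aeval (u : F) (p i) / aeval (u : F) d =
      aeval (u : F) (C c * p i) * ((y : F))⁻¹ := by
    rw [hyc, map_mul, aeval_C]
    have hd0 := aeval_ne_zero h u hu d hd
    field_simp
  rw [this]
  exact O.mul_mem _ _ hmem (inv_mem_of_isUnit hy)

end ortho

section core

variable {O : ValuationSubring F} {ρ : O →+* Fb} {ρA : ringA L O →+* k}
variable {E : Type*} [Field E] [Algebra L[X] E] [Algebra E F]
  [Algebra L[X] F] [IsScalarTower L[X] E F]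

/-- `O` is contained in the `O ∩ L(u)`-span of an orthonormal basis. -/
theorem mem_span_of_mem (h : ResData O ρ ρA) (u : O) (hu : Transcendental k (ρ u))
    (halg : ∀ p : L[X], algebraMap L[X] F p = aeval (u : F) p)
    {ι : Type*} [Fintype ι] (b : ι → O) (hb : ResIndep k ρ u b)
    (hspan : ∀ w : F, ∃ (d : L[X]) (p : ι → L[X]), d ≠ 0 ∧
      aeval (u : F) d * w = ∑ i, aeval (u : F) (p i) * (b i : F))
    (w : F) (hw : w ∈ O) :
    w ∈ Submodule.span (O.comap (algebraMap E F)) (Set.range (fun i => (b i : F))) := by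
  classical
  obtain ⟨d, p, hd, hrel⟩ := hspan w
  have hco := coord_mem h u hu b hb w hw d hd p hrel
  have hd0 := aeval_ne_zero h u hu d hd
  have hmap : ∀ i, algebraMap E F (algebraMap L[X] E (p i) / algebraMap L[X] E d) =
      aeval (u : F) (p i) / aeval (u : F) d := by
    intro i
    rw [map_div₀, ← IsScalarTower.algebraMap_apply, ← IsScalarTower.algebraMap_apply, halg, halg]
  have hg : ∀ i, algebraMap L[X] E (p i) / algebraMap L[X] E d ∈ O.comap (algebraMap E F) := by
    intro i
    rw [ValuationSubring.mem_comap, hmap]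
    exact hco i
  have hw' : w = ∑ i, (⟨_, hg i⟩ : O.comap (algebraMap E F)) • ((b i : F)) := by
    have h1 : ∀ i, (⟨_, hg i⟩ : O.comap (algebraMap E F)) • ((b i : F)) =
        aeval (u : F) (p i) / aeval (u : F) d * (b i : F) := by
      intro i
      rw [Algebra.smul_def, ← hmap i]
      rfl
    simp_rw [h1]
    rw [← Finset.sum_congr rfl (fun i _ => (div_mul_eq_mul_div _ _ _).symm),
      ← Finset.sum_div, ← hrel, mul_div_cancel_left₀ _ hd0]
  rw [hw']
  exact Submodule.sum_mem _ (fun i _ => Submodule.smul_mem _ _ (Submodule.subset_span ⟨i, rfl⟩))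

/-- Every element of `O` is integral over `O ∩ L(u)`. -/
theorem isIntegral_comap (h : ResData O ρ ρA) (u : O) (hu : Transcendental k (ρ u))
    (halg : ∀ p : L[X], algebraMap L[X] F p = aeval (u : F) p)
    {ι : Type*} [Fintype ι] (b : ι → O) (hb : ResIndep k ρ u b)
    (hspan : ∀ w : F, ∃ (d : L[X]) (p : ι → L[X]), d ≠ 0 ∧
      aeval (u : F) d * w = ∑ i, aeval (u : F) (p i) * (b i : F))
    (z : F) (hz : z ∈ O) : IsIntegral (O.comap (algebraMap E F)) z := by
  classical
  set N : Submodule (O.comap (algebraMap E F)) F :=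
    Submodule.span (O.comap (algebraMap E F)) (Set.range (fun i => (b i : F))) with hN
  have hmem : ∀ w : F, w ∈ O → w ∈ N := fun w hw =>
    mem_span_of_mem (E := E) h u hu halg b hb hspan w hw
  have hNbot : N ≠ ⊥ := by
    intro h0
    have h1 : (1 : F) ∈ N := hmem 1 O.one_mem
    rw [h0, Submodule.mem_bot] at h1
    exact one_ne_zero h1
  have hFG : N.FG := Submodule.fg_span (Set.finite_range _)
  refine isIntegral_of_smul_mem_submodule N hNbot hFG z ?_
  intro n hn
  induction hn using Submodule.span_induction with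
  | mem x hx =>
    obtain ⟨i, rfl⟩ := hx
    exact hmem _ (O.mul_mem _ _ hz (b i).2)
  | zero => rw [smul_zero]; exact N.zero_mem
  | add x y _ _ hx hy => rw [smul_add]; exact N.add_mem hx hy
  | smul g x _ hx => rw [smul_comm]; exact N.smul_mem g hx

end core

section core2

variable {O : ValuationSubring F} {ρ : O →+* Fb} {ρA : ringA L O →+* k}

/-- CORE: for `z ∈ O` integral over `L[u]`, the minimal polynomial of `z` over `L[u]` has
coefficients in `A[u]`. -/
theorem minpoly_coeff_mem (E : Type*) [Field E] [Algebra L[X] E] [IsFractionRing L[X] E]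
    [Algebra E F] [Algebra L[X] F] [IsScalarTower L[X] E F]
    (h : ResData O ρ ρA) (u : O) (hu : Transcendental k (ρ u))
    (halg : ∀ p : L[X], algebraMap L[X] F p = aeval (u : F) p)
    {ι : Type*} [Fintype ι] (b : ι → O) (hb : ResIndep k ρ u b)
    (hspan : ∀ w : F, ∃ (d : L[X]) (p : ι → L[X]), d ≠ 0 ∧
      aeval (u : F) d * w = ∑ i, aeval (u : F) (p i) * (b i : F))
    (z : F) (hzO : z ∈ O) (hz : IsIntegral L[X] z) :
    ∀ i n, ((minpoly L[X] z).coeff i).coeff n ∈ ringA L O := by
  classical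
  have hint := isIntegral_comap (E := E) h u hu halg b hb hspan z hzO
  have e1 := minpoly.isIntegrallyClosed_eq_field_fractions' E hint
  have e2 := minpoly.isIntegrallyClosed_eq_field_fractions' E hz
  intro i
  have hc : algebraMap L[X] E ((minpoly L[X] z).coeff i) ∈ O.comap (algebraMap E F) := by
    have := congrArg (fun r => r.coeff i) (e2.symm.trans e1)
    simp only [coeff_map] at this
    rw [this]
    exact ((minpoly (O.comap (algebraMap E F)) z).coeff i).2
  rw [ValuationSubring.mem_comap, ← IsScalarTower.algebraMap_apply, halg] at hc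
  exact coeff_mem_of_aeval_mem h u hu _ hc

/-- **INTEGRALITY LEMMA** (instance-free form).  Let `O` be a valuation subring of `F ⊇ L` with
compatible residue data `ρ : O →+* Fb`, `ρA : O ∩ L →+* k`; let `u ∈ O` have transcendental residue
and let `b : ι → O` span `F` over `L(u)` with residues independent over `k[ρ u]`.  If `z ∈ O`
is integral over `L[u]`, then `ρ z` is integral over `k[ρ u]`. -/
theorem isIntegralElem_residue (h : ResData O ρ ρA) (u : O) (hu : Transcendental k (ρ u))
    {ι : Type*} [Fintype ι] (b : ι → O) (hb : ResIndep k ρ u b)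
    (hspan : ∀ w : F, ∃ (d : L[X]) (p : ι → L[X]), d ≠ 0 ∧
      aeval (u : F) d * w = ∑ i, aeval (u : F) (p i) * (b i : F))
    (z : O) (hz : (aeval (u : F) : L[X] →ₐ[L] F).toRingHom.IsIntegralElem (z : F)) :
    (aeval (ρ u) : k[X] →ₐ[k] Fb).toRingHom.IsIntegralElem (ρ z) := by
  classical
  have hinj : Function.Injective ((aeval (u : F) : L[X] →ₐ[L] F).toRingHom) := by
    rw [injective_iff_map_eq_zero]
    intro p hp
    by_contra hne
    exact aeval_ne_zero h u hu p hne hp
  let _ : Algebra (FractionRing L[X]) F := (IsFractionRing.lift hinj).toAlgebra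
  let _ : Algebra L[X] F := ((aeval (u : F) : L[X] →ₐ[L] F).toRingHom).toAlgebra
  have : IsScalarTower L[X] (FractionRing L[X]) F :=
    IsScalarTower.of_algebraMap_eq (fun p => (IsFractionRing.lift_algebraMap hinj p).symm)
  have halg : ∀ p : L[X], algebraMap L[X] F p = aeval (u : F) p := fun p => rfl
  have hz' : IsIntegral L[X] (z : F) := hz
  have hco := minpoly_coeff_mem (FractionRing L[X]) h u hu halg b hb hspan z z.2 hz'
  have hQm : (minpoly L[X] (z : F)).Monic := minpoly.monic hz'
  have hQ0 : eval₂ (algebraMap L[X] F) (z : F) (minpoly L[X] (z : F)) = 0 := by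
    have := minpoly.aeval L[X] (z : F)
    rwa [aeval_def] at this
  have hlift : minpoly L[X] (z : F) ∈ lifts (mapRingHom (ringA L O).subtype) := by
    rw [lifts_iff_coeff_lifts]
    intro i
    obtain ⟨q, hq⟩ := exists_lift (ringA L O) ((minpoly L[X] (z : F)).coeff i) (hco i)
    exact ⟨q, hq⟩
  obtain ⟨Q', hQ', -, hQ'm⟩ := lifts_and_degree_eq_and_monic hlift hQm
  refine ⟨Q'.map (mapRingHom ρA), hQ'm.map _, ?_⟩
  rw [eval₂_map]
  have hcomp : ((aeval (ρ u) : k[X] →ₐ[k] Fb).toRingHom).comp (mapRingHom ρA) =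
      ρ.comp (evalO O u) :=
    RingHom.ext fun p => (h.rho_evalO u p).symm
  rw [hcomp, ← hom_eval₂]
  have hzero : eval₂ (evalO O u) z Q' = 0 := by
    apply Subtype.ext
    have h1 := hom_eval₂ Q' (evalO O u) O.subtype z
    have h2 : O.subtype.comp (evalO O u) =
        (algebraMap L[X] F).comp (mapRingHom (ringA L O).subtype) :=
      RingHom.ext fun p => coe_evalO u p
    rw [h2, ← eval₂_map, hQ'] at h1
    exact h1.trans hQ0
  rw [hzero, map_zero]

end core2

section inverse

/-- Evaluating the reflected polynomial at the inverse. -/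
lemma aeval_inv_reflect {R S : Type*} [Field R] [Field S] [Algebra R S] (x : S) (hx : x ≠ 0)
    (N : ℕ) (f : R[X]) (hf : f.natDegree ≤ N) :
    aeval x⁻¹ (reflect N f) = aeval x f * (x ^ N)⁻¹ := by
  let _ := invertibleOfNonzero hx
  have h1 := eval₂_reflect_mul_pow (algebraMap R S) x N f hf
  rw [invOf_eq_inv] at h1
  rw [aeval_def, aeval_def, ← h1, mul_assoc, mul_inv_cancel₀ (pow_ne_zero N hx), mul_one]

variable {O : ValuationSubring F} {ρ : O →+* Fb} {ρA : ringA L O →+* k}

lemma ne_zero_of_transcendental {R S : Type*} [Field R] [Field S] [Algebra R S] {x : S}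
    (hx : Transcendental R x) : x ≠ 0 := by
  rintro rfl
  exact hx isAlgebraic_zero

/-- The inverse of `u` as an element of `O` (when `ρ u` is transcendental, `u` is a unit). -/
noncomputable def invO (h : ResData O ρ ρA) (u : O) (hu : Transcendental k (ρ u)) : O :=
  ⟨((u : F))⁻¹, inv_mem_of_isUnit (h.isUnit_of_ne_zero u (ne_zero_of_transcendental hu))⟩

@[simp] lemma coe_invO (h : ResData O ρ ρA) (u : O) (hu : Transcendental k (ρ u)) :
    ((invO h u hu : O) : F) = ((u : F))⁻¹ := rfl

lemma coe_ne_zero_of_transcendental (_h : ResData O ρ ρA) (u : O)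
    (hu : Transcendental k (ρ u)) : (u : F) ≠ 0 := by
  intro h0
  have : u = 0 := Subtype.ext h0
  rw [this, map_zero] at hu
  exact ne_zero_of_transcendental hu rfl

lemma rho_invO (h : ResData O ρ ρA) (u : O) (hu : Transcendental k (ρ u)) :
    ρ (invO h u hu) = (ρ u)⁻¹ := by
  have h1 : invO h u hu * u = 1 := by
    apply Subtype.ext
    show ((u : F))⁻¹ * (u : F) = 1
    exact inv_mul_cancel₀ (coe_ne_zero_of_transcendental h u hu)
  have h2 := congrArg ρ h1
  rw [map_mul, map_one] at h2
  exact eq_inv_of_mul_eq_one_left h2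

lemma transcendental_rho_invO (h : ResData O ρ ρA) (u : O) (hu : Transcendental k (ρ u)) :
    Transcendental k (ρ (invO h u hu)) := by
  rw [rho_invO]
  intro halg
  exact hu (IsAlgebraic.inv_iff.1 halg)

/-- Orthonormality with respect to `u` implies orthonormality with respect to `u⁻¹`. -/
lemma resIndep_invO (h : ResData O ρ ρA) (u : O) (hu : Transcendental k (ρ u))
    {ι : Type*} [Fintype ι] (b : ι → O) (hb : ResIndep k ρ u b) :
    ResIndep k ρ (invO h u hu) b := by
  classical
  intro p hp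
  rw [rho_invO] at hp
  set N := Finset.univ.sup (fun i => (p i).natDegree) with hN
  have hdeg : ∀ i, (p i).natDegree ≤ N := fun i =>
    Finset.le_sup (f := fun i => (p i).natDegree) (Finset.mem_univ i)
  have hu0 : ρ u ≠ 0 := ne_zero_of_transcendental hu
  have hu1 : (ρ u)⁻¹ ≠ 0 := inv_ne_zero hu0
  have key : ∀ i, aeval (ρ u) (reflect N (p i)) = aeval (ρ u)⁻¹ (p i) * (ρ u) ^ N := by
    intro i
    have := aeval_inv_reflect (R := k) (ρ u)⁻¹ hu1 N (p i) (hdeg i)
    rw [inv_inv] at this
    rw [this, inv_pow, inv_inv]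
  have hsum : ∑ i, aeval (ρ u) (reflect N (p i)) * ρ (b i) = 0 := by
    have : ∑ i, aeval (ρ u) (reflect N (p i)) * ρ (b i) =
        (∑ i, aeval (ρ u)⁻¹ (p i) * ρ (b i)) * (ρ u) ^ N := by
      rw [Finset.sum_mul]
      refine Finset.sum_congr rfl (fun i _ => ?_)
      rw [key]; ring
    rw [this, hp, zero_mul]
  intro i
  have := hb (fun i => reflect N (p i)) hsum i
  exact reflect_eq_zero_iff.1 this

/-- Spanning with respect to `u` implies spanning with respect to `u⁻¹`. -/
lemma span_invO (h : ResData O ρ ρA) (u : O) (hu : Transcendental k (ρ u))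
    {ι : Type*} [Fintype ι] (b : ι → O)
    (hspan : ∀ w : F, ∃ (d : L[X]) (p : ι → L[X]), d ≠ 0 ∧
      aeval (u : F) d * w = ∑ i, aeval (u : F) (p i) * (b i : F)) :
    ∀ w : F, ∃ (d : L[X]) (p : ι → L[X]), d ≠ 0 ∧
      aeval ((invO h u hu : O) : F) d * w =
        ∑ i, aeval ((invO h u hu : O) : F) (p i) * (b i : F) := by
  classical
  intro w
  obtain ⟨d, p, hd, hrel⟩ := hspan w
  set N := max d.natDegree (Finset.univ.sup (fun i => (p i).natDegree)) with hN
  have hdegd : d.natDegree ≤ N := le_max_left _ _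
  have hdeg : ∀ i, (p i).natDegree ≤ N := fun i =>
    le_trans (Finset.le_sup (f := fun i => (p i).natDegree) (Finset.mem_univ i))
      (le_max_right _ _)
  have hu0 : (u : F) ≠ 0 := coe_ne_zero_of_transcendental h u hu
  refine ⟨reflect N d, fun i => reflect N (p i), fun h0 => hd (reflect_eq_zero_iff.1 h0), ?_⟩
  rw [coe_invO, aeval_inv_reflect (R := L) (u : F) hu0 N d hdegd]
  have : ∀ i, aeval ((u : F))⁻¹ (reflect N (p i)) * (b i : F) =
      aeval (u : F) (p i) * (b i : F) * ((u : F) ^ N)⁻¹ := by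
    intro i
    rw [aeval_inv_reflect (R := L) (u : F) hu0 N (p i) (hdeg i)]; ring
  simp_rw [this]
  rw [← Finset.sum_mul, ← hrel]; ring

/-- **INTEGRALITY LEMMA, `u⁻¹`-version**: if `z ∈ O` is integral over `L[u⁻¹]`, then `ρ z` is
integral over `k[(ρ u)⁻¹]`. -/
theorem isIntegralElem_residue_inv (h : ResData O ρ ρA) (u : O) (hu : Transcendental k (ρ u))
    {ι : Type*} [Fintype ι] (b : ι → O) (hb : ResIndep k ρ u b)
    (hspan : ∀ w : F, ∃ (d : L[X]) (p : ι → L[X]), d ≠ 0 ∧
      aeval (u : F) d * w = ∑ i, aeval (u : F) (p i) * (b i : F))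
    (z : O) (hz : (aeval ((u : F))⁻¹ : L[X] →ₐ[L] F).toRingHom.IsIntegralElem (z : F)) :
    (aeval (ρ u)⁻¹ : k[X] →ₐ[k] Fb).toRingHom.IsIntegralElem (ρ z) := by
  have := isIntegralElem_residue h (invO h u hu) (transcendental_rho_invO h u hu) b
    (resIndep_invO h u hu b hb) (span_invO h u hu b hspan) z hz
  rwa [rho_invO] at this

/-- **`L(rE)`-form of the integrality lemma**: if `y ∈ O` is integral over `L[u]` and `y / u ^ r`
is integral over `L[u⁻¹]` (i.e. `y ∈ L(r (u)_∞)`), then `ρ y` is integral over `k[ρ u]` and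
`ρ y / (ρ u) ^ r` is integral over `k[(ρ u)⁻¹]` (i.e. `ρ y ∈ L(r (ρ u)_∞)`). -/
theorem isIntegralElem_residue_pair (h : ResData O ρ ρA) (u : O) (hu : Transcendental k (ρ u))
    {ι : Type*} [Fintype ι] (b : ι → O) (hb : ResIndep k ρ u b)
    (hspan : ∀ w : F, ∃ (d : L[X]) (p : ι → L[X]), d ≠ 0 ∧
      aeval (u : F) d * w = ∑ i, aeval (u : F) (p i) * (b i : F))
    (y : O) (r : ℕ)
    (hy : (aeval (u : F) : L[X] →ₐ[L] F).toRingHom.IsIntegralElem (y : F))
    (hy' : (aeval ((u : F))⁻¹ : L[X] →ₐ[L] F).toRingHom.IsIntegralElem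
      ((y : F) / (u : F) ^ r)) :
    (aeval (ρ u) : k[X] →ₐ[k] Fb).toRingHom.IsIntegralElem (ρ y) ∧
    (aeval (ρ u)⁻¹ : k[X] →ₐ[k] Fb).toRingHom.IsIntegralElem (ρ y / (ρ u) ^ r) := by
  refine ⟨isIntegralElem_residue h u hu b hb hspan y hy, ?_⟩
  have hz : ((y * (invO h u hu) ^ r : O) : F) = (y : F) / (u : F) ^ r := by
    show (y : F) * (((u : F))⁻¹) ^ r = (y : F) / (u : F) ^ r
    rw [inv_pow, div_eq_mul_inv]
  have := isIntegralElem_residue_inv h u hu b hb hspan (y * (invO h u hu) ^ r)
    (by rw [hz]; exact hy')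
  rwa [map_mul, map_pow, rho_invO, inv_pow, ← div_eq_mul_inv] at this

end inverse

section adapters

variable {O : ValuationSubring F} {ρ : O →+* Fb} {ρA : ringA L O →+* k}

/-- `ResIndep` from linear independence over a field `K'` that plays the role of `k(ρ u)`
(e.g. `RatFunc k` or `IntermediateField.adjoin k {ρ u}`). -/
lemma resIndep_of_linearIndependent (u : O) (hu : Transcendental k (ρ u))
    {K' : Type*} [Field K'] [Algebra k[X] K'] [Algebra K' Fb] [Algebra k[X] Fb]
    [IsScalarTower k[X] K' Fb]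
    (halg : ∀ p : k[X], algebraMap k[X] Fb p = aeval (ρ u) p)
    {ι : Type*} [Fintype ι] (b : ι → O)
    (hli : LinearIndependent K' (fun i => ρ (b i))) : ResIndep k ρ u b := by
  classical
  intro p hp
  have h1 : ∑ i, (algebraMap k[X] K' (p i)) • ρ (b i) = 0 := by
    rw [← hp]
    refine Finset.sum_congr rfl (fun i _ => ?_)
    rw [Algebra.smul_def, ← IsScalarTower.algebraMap_apply, halg]
  have h2 := Fintype.linearIndependent_iff.1 hli _ h1
  intro i
  have h3 : aeval (ρ u) (p i) = 0 := by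
    rw [← halg, IsScalarTower.algebraMap_apply k[X] K' Fb, h2 i, map_zero]
  exact transcendental_iff.1 hu _ h3

/-- The spanning hypothesis from a spanning family over a model `E` of `L(u)`. -/
lemma span_of_span_top (u : O)
    {E : Type*} [Field E] [Algebra L[X] E] [IsFractionRing L[X] E] [Algebra E F] [Algebra L[X] F]
    [IsScalarTower L[X] E F]
    (halg : ∀ p : L[X], algebraMap L[X] F p = aeval (u : F) p)
    {ι : Type*} [Fintype ι] (b : ι → O)
    (hsp : ⊤ ≤ Submodule.span E (Set.range (fun i => (b i : F)))) :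
    ∀ w : F, ∃ (d : L[X]) (p : ι → L[X]), d ≠ 0 ∧
      aeval (u : F) d * w = ∑ i, aeval (u : F) (p i) * (b i : F) := by
  classical
  intro w
  obtain ⟨c, hc⟩ := (Submodule.mem_span_range_iff_exists_fun E).1 (hsp (Submodule.mem_top : w ∈ ⊤))
  obtain ⟨d, hd⟩ := IsLocalization.exist_integer_multiples (nonZeroDivisors L[X]) Finset.univ c
  choose p hp using fun i => hd i (Finset.mem_univ i)
  refine ⟨d, p, nonZeroDivisors.ne_zero d.2, ?_⟩
  rw [← hc, Finset.mul_sum]
  refine Finset.sum_congr rfl (fun i _ => ?_)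
  rw [← halg, ← halg, IsScalarTower.algebraMap_apply L[X] E F (p i), hp i, Algebra.smul_def,
    Algebra.smul_def, map_mul, ← IsScalarTower.algebraMap_apply, mul_assoc]

end adapters

section canonical

/-! The canonical instance: `ρ`, `ρA` the residue maps of `O` and `A = O ∩ L`. -/

variable (L) (O : ValuationSubring F)

lemma isLocalHom_incl : IsLocalHom (incl L O) := by
  refine ⟨fun a ha => ?_⟩
  have hinv : ((incl L O a : O) : F)⁻¹ ∈ O := inv_mem_of_isUnit ha
  rw [coe_incl, ← map_inv₀] at hinv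
  have hmem : ((a : L))⁻¹ ∈ ringA L O := hinv
  have ha0 : (a : L) ≠ 0 := by
    intro h0
    have : a = 0 := Subtype.ext h0
    rw [this, map_zero] at ha
    exact not_isUnit_zero ha
  refine ⟨⟨a, ⟨_, hmem⟩, ?_, ?_⟩, rfl⟩
  · apply Subtype.ext
    show (a : L) * ((a : L))⁻¹ = 1
    exact mul_inv_cancel₀ ha0
  · apply Subtype.ext
    show ((a : L))⁻¹ * (a : L) = 1
    exact inv_mul_cancel₀ ha0

/-- The residue field of `O` as an algebra over the residue field of `A = O ∩ L`. -/
@[reducible] noncomputable def residueAlgebra :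
    Algebra (IsLocalRing.ResidueField (ringA L O)) (IsLocalRing.ResidueField O) :=
  haveI := isLocalHom_incl L O
  (IsLocalRing.ResidueField.map (incl L O)).toAlgebra

/-- The canonical residue data. -/
theorem resData_residue :
    letI := residueAlgebra L O
    ResData O (IsLocalRing.residue O) (IsLocalRing.residue (ringA L O)) := by
  let _ := residueAlgebra L O
  have := isLocalHom_incl L O
  refine ⟨fun x hx => (IsLocalRing.residue_ne_zero_iff_isUnit x).1 hx, fun a => ?_⟩
  rfl

end canonical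

end Fermat.Agent.S18.GaussInt93
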