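/-
S18 moonshot (blueprint 14), package [GAUSS]-INTEG (helper9): the INTEGRALITY LEMMA, abstract form,
Mathlib only.

Setting: `L` a field, `F` a finite extension of `RatFunc L` (with compatible `L`- and `L[X]`-algebra
structures), `O` a valuation subring of `F` (the "Gauss valuation" `W`), `x` := image of `X`.
Inputs (= outputs of the orthonormality package):
* `hG`  (Gauss property on `L[x]`): a polynomial in `x` lies in `O` only if all its coefficients do;
* `b`, `hbO`, `hb` (orthonormal basis): a `RatFunc L`-basis of `F` inside `O` such that a combination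
  `∑ aᵢ bᵢ` lies in `O` only if all `aᵢ` do.

Main result `exists_monic_relation`: if `y ∈ O` is integral over `L[X]` and `y / x^r` is integral over
the valuation ring at infinity of `RatFunc L`, then `P := minpoly L[X] y ∈ L[X][T]` is monic, kills
`y`, all coefficients of all `P.coeff i ∈ L[X]` lie in `A = O ∩ L`, and
`natDegree (P.coeff i) ≤ r * (natDegree P - i)`.

Corollary `residue_mem`: for every ring hom `ρ : O →+* κ` into a field and every valuation subring
`Q` of `κ` containing `ρ(A)`:  `ρ x ∈ Q → ρ y ∈ Q`,  and  `ρ x ∉ Q → ρ y / (ρ x)^r ∈ Q`.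
I.e. `ȳ ∈ L̄(r·(x̄)_∞)`.
-/
import Mathlib

set_option autoImplicit false

open Polynomial

namespace Fermat.Agent.S18.GaussInteg9

noncomputable section

/-! ### Gauss lemma for a valuation subring -/

/-- A monic divisor of a monic polynomial with coefficients in a valuation subring `V` of the
field `E` has coefficients in `V`. -/
theorem coeff_mem_of_monic_dvd {E : Type*} [Field E] (V : ValuationSubring E) {f g : E[X]}
    (hf : f.Monic) (hfV : ∀ i, f.coeff i ∈ V) (hg : g.Monic) (hgf : g ∣ f) (i : ℕ) :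
    g.coeff i ∈ V := by
  have hsub : (↑f.coeffs : Set E) ⊆ V.toSubring := by
    intro a ha
    obtain ⟨n, -, rfl⟩ := Polynomial.mem_coeffs_iff.mp ha
    exact hfV n
  set f' : V.toSubring[X] := f.toSubring V.toSubring hsub with hf'
  have hmap : f'.map (algebraMap V E) = f := Polynomial.map_toSubring f V.toSubring hsub
  have hf'm : f'.Monic := (Polynomial.monic_toSubring f V.toSubring hsub).mpr hf
  obtain ⟨g', hg'⟩ := IsIntegrallyClosed.eq_map_mul_C_of_dvd (R := V) E hf'm (g := g)
    (by rw [hmap]; exact hgf)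
  rw [hg.leadingCoeff, map_one, mul_one] at hg'
  rw [← hg', Polynomial.coeff_map]
  exact (g'.coeff i).2

variable {L F : Type*} [Field L] [Field F] [Algebra L F] [Algebra (RatFunc L) F]
  [IsScalarTower L (RatFunc L) F] [Algebra L[X] F] [IsScalarTower L[X] (RatFunc L) F]

variable (L F) in
/-- The image of `X` in `F`. -/
def xF : F := algebraMap (RatFunc L) F RatFunc.X

theorem algebraMap_C (a : L) : algebraMap L[X] F (C a) = algebraMap L F a := by
  rw [IsScalarTower.algebraMap_apply L[X] (RatFunc L) F, IsScalarTower.algebraMap_apply L (RatFunc L) F,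
    RatFunc.algebraMap_C, RatFunc.algebraMap_eq_C]

theorem algebraMap_X : algebraMap L[X] F X = xF L F := by
  rw [IsScalarTower.algebraMap_apply L[X] (RatFunc L) F, RatFunc.algebraMap_X, xF]

/-- A polynomial in `x`, expanded. -/
theorem algebraMap_eq_sum (c : L[X]) :
    algebraMap L[X] F c = ∑ j ∈ Finset.range (c.natDegree + 1),
      algebraMap L F (c.coeff j) * xF L F ^ j := by
  conv_lhs => rw [c.as_sum_range_C_mul_X_pow]
  rw [map_sum]
  refine Finset.sum_congr rfl fun j _ => ?_
  rw [map_mul, map_pow, algebraMap_C, algebraMap_X]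

/-! ### Step A: the minimal polynomial over `RatFunc L` has `O`-integral coefficients -/

section StepA

variable (O : ValuationSubring F) [FiniteDimensional (RatFunc L) F]
  {ι : Type*} [Fintype ι] [DecidableEq ι] (b : Module.Basis ι (RatFunc L) F)

omit [Algebra L F] [IsScalarTower L (RatFunc L) F] [Algebra L[X] F]
  [IsScalarTower L[X] (RatFunc L) F] in
/-- The entries of the matrix of multiplication by `y ∈ O` in an orthonormal basis lie in `O`. -/
theorem leftMulMatrix_mem (hbO : ∀ i, b i ∈ O)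
    (hb : ∀ a : ι → RatFunc L, (∑ i, a i • b i) ∈ O → ∀ i, algebraMap (RatFunc L) F (a i) ∈ O)
    {y : F} (hy : y ∈ O) (i j : ι) :
    algebraMap (RatFunc L) F (Algebra.leftMulMatrix b y i j) ∈ O := by
  rw [Algebra.leftMulMatrix_eq_repr_mul]
  refine hb (fun i => b.repr (y * b j) i) ?_ i
  rw [b.sum_repr]
  exact O.mul_mem _ _ hy (hbO j)

omit [Algebra L F] [IsScalarTower L (RatFunc L) F] [Algebra L[X] F]
  [IsScalarTower L[X] (RatFunc L) F] in
/-- **Step A.** The coefficients of the minimal polynomial of `y ∈ O` over `RatFunc L` lie in `O`. -/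
theorem minpoly_coeff_mem (hbO : ∀ i, b i ∈ O)
    (hb : ∀ a : ι → RatFunc L, (∑ i, a i • b i) ∈ O → ∀ i, algebraMap (RatFunc L) F (a i) ∈ O)
    {y : F} (hy : y ∈ O) (i : ℕ) :
    algebraMap (RatFunc L) F ((minpoly (RatFunc L) y).coeff i) ∈ O := by
  set V : ValuationSubring (RatFunc L) := O.comap (algebraMap (RatFunc L) F) with hV
  set M : Matrix ι ι (RatFunc L) := Algebra.leftMulMatrix b y with hM
  have hMV : ∀ i j, M i j ∈ V := fun i j => leftMulMatrix_mem O b hbO hb hy i j
  set M' : Matrix ι ι V := fun i j => ⟨M i j, hMV i j⟩ with hM'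
  have hMM' : M = M'.map (algebraMap V (RatFunc L)) := by
    ext i j
    rfl
  have hχV : ∀ n, M.charpoly.coeff n ∈ V := by
    intro n
    rw [hMM', Matrix.charpoly_map, Polynomial.coeff_map]
    exact (M'.charpoly.coeff n).2
  have hχy : aeval y M.charpoly = 0 := by
    apply Algebra.leftMulMatrix_injective b
    rw [← Polynomial.aeval_algHom_apply, map_zero]
    exact Matrix.aeval_self_charpoly M
  have hint : IsIntegral (RatFunc L) y := Algebra.IsIntegral.isIntegral y
  exact coeff_mem_of_monic_dvd V (Matrix.charpoly_monic M) hχV (minpoly.monic hint)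
    (minpoly.dvd (RatFunc L) y hχy) i

end StepA

/-! ### The valuation ring at infinity of `RatFunc L` -/

section Oinf

open scoped Classical in
variable (L) in
/-- The valuation ring at infinity of `RatFunc L`. -/
abbrev Oinf : ValuationSubring (RatFunc L) := (RatFunc.inftyValuation L).valuationSubring

open scoped Classical in
theorem intDegree_nonpos_of_mem_Oinf {u : RatFunc L} (hu : u ∈ Oinf L) (hu0 : u ≠ 0) :
    u.intDegree ≤ 0 := by
  rw [Valuation.mem_valuationSubring_iff, RatFunc.inftyValuation_apply,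
    RatFunc.inftyValuation_of_nonzero L hu0, ← WithZero.exp_zero, WithZero.exp_le_exp] at hu
  exact hu

end Oinf

/-! ### Steps B, C, D and the main theorem -/

section Main

variable (O : ValuationSubring F) [FiniteDimensional (RatFunc L) F]
  {ι : Type*} [Fintype ι] [DecidableEq ι] (b : Module.Basis ι (RatFunc L) F)

omit [Algebra L F] [IsScalarTower L (RatFunc L) F] [FiniteDimensional (RatFunc L) F] in
/-- **Step B.** For `y` integral over `L[X]` the minimal polynomial over `RatFunc L` is the image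
of the minimal polynomial over `L[X]`. -/
theorem minpoly_eq_map {y : F} (hy : IsIntegral L[X] y) :
    minpoly (RatFunc L) y = (minpoly L[X] y).map (algebraMap L[X] (RatFunc L)) :=
  minpoly.isIntegrallyClosed_eq_field_fractions' (RatFunc L) hy

omit [Algebra L F] [IsScalarTower L (RatFunc L) F] [FiniteDimensional (RatFunc L) F] in
theorem natDegree_minpoly_eq {y : F} (hy : IsIntegral L[X] y) :
    (minpoly (RatFunc L) y).natDegree = (minpoly L[X] y).natDegree := by
  rw [minpoly_eq_map hy]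
  exact natDegree_map_eq_of_injective (IsFractionRing.injective L[X] (RatFunc L)) _

/-- **Step C.** All coefficients (in `L`) of all coefficients (in `L[X]`) of `minpoly L[X] y`
lie in `O`. -/
theorem coeff_coeff_mem (hG : ∀ p : L[X], algebraMap L[X] F p ∈ O → ∀ j, algebraMap L F (p.coeff j) ∈ O)
    (hbO : ∀ i, b i ∈ O)
    (hb : ∀ a : ι → RatFunc L, (∑ i, a i • b i) ∈ O → ∀ i, algebraMap (RatFunc L) F (a i) ∈ O)
    {y : F} (hyO : y ∈ O) (hy : IsIntegral L[X] y) (i j : ℕ) :
    algebraMap L F (((minpoly L[X] y).coeff i).coeff j) ∈ O := by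
  refine hG _ ?_ j
  have h := minpoly_coeff_mem O b hbO hb hyO i
  rwa [minpoly_eq_map hy, Polynomial.coeff_map, ← IsScalarTower.algebraMap_apply] at h

omit [Algebra L F] [IsScalarTower L (RatFunc L) F] in
open scoped Classical in
/-- **Step D.** The degree bound: if `(X^r)⁻¹ • y` is a root of a monic polynomial with
coefficients in the valuation ring at infinity, then
`natDegree ((minpoly L[X] y).coeff i) ≤ r * (natDegree (minpoly L[X] y) - i)`. -/
theorem natDegree_coeff_le {y : F} (hy : IsIntegral L[X] y) (r : ℕ)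
    (hz : ∃ g : (RatFunc L)[X], g.Monic ∧ (∀ i, g.coeff i ∈ Oinf L) ∧
      aeval (((RatFunc.X : RatFunc L) ^ r)⁻¹ • y) g = 0) (i : ℕ) :
    ((minpoly L[X] y).coeff i).natDegree ≤ r * ((minpoly L[X] y).natDegree - i) := by
  obtain ⟨g, hgm, hgO, hgz⟩ := hz
  set P := minpoly L[X] y with hP
  by_cases hc : P.coeff i = 0
  · rw [hc, natDegree_zero]; exact Nat.zero_le _
  have hX : ((RatFunc.X : RatFunc L) ^ r)⁻¹ ≠ 0 := inv_ne_zero (pow_ne_zero _ RatFunc.X_ne_zero)
  have hyE : IsIntegral (RatFunc L) y := Algebra.IsIntegral.isIntegral y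
  have hzE : IsIntegral (RatFunc L) (((RatFunc.X : RatFunc L) ^ r)⁻¹ • y) :=
    Algebra.IsIntegral.isIntegral _
  have hsm := IsIntegrallyClosed.minpoly_smul hX hyE
  have hmem := coeff_mem_of_monic_dvd (Oinf L) hgm hgO (minpoly.monic hzE)
    (minpoly.dvd (RatFunc L) _ hgz) i
  rw [hsm, coeff_scaleRoots, natDegree_minpoly_eq hy, minpoly_eq_map hy, Polynomial.coeff_map] at hmem
  have hne : algebraMap L[X] (RatFunc L) (P.coeff i) ≠ 0 := by
    rwa [Ne, FaithfulSMul.algebraMap_eq_zero_iff]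
  have hne2 : algebraMap L[X] (RatFunc L) (P.coeff i) *
      ((RatFunc.X : RatFunc L) ^ r)⁻¹ ^ (P.natDegree - i) ≠ 0 :=
    mul_ne_zero hne (pow_ne_zero _ hX)
  have hdeg := intDegree_nonpos_of_mem_Oinf hmem hne2
  rw [RatFunc.intDegree_mul hne (pow_ne_zero _ hX), RatFunc.intDegree_polynomial] at hdeg
  have hpow : (((RatFunc.X : RatFunc L) ^ r)⁻¹ ^ (P.natDegree - i)).intDegree
      = -((r * (P.natDegree - i) : ℕ) : ℤ) := by
    rw [inv_pow, ← pow_mul, RatFunc.intDegree_inv]
    have : ((RatFunc.X : RatFunc L) ^ (r * (P.natDegree - i))).intDegree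
        = ((r * (P.natDegree - i) : ℕ) : ℤ) := by
      rw [← RatFunc.algebraMap_X, ← map_pow, RatFunc.intDegree_polynomial, natDegree_X_pow]
    rw [this]
  rw [hpow] at hdeg
  omega

omit [Algebra L F] [IsScalarTower L (RatFunc L) F] [Algebra L[X] F]
  [IsScalarTower L[X] (RatFunc L) F] [FiniteDimensional (RatFunc L) F] in
/-- `(X^r)⁻¹ • y = y / x^r`. -/
theorem inv_X_pow_smul (y : F) (r : ℕ) :
    ((RatFunc.X : RatFunc L) ^ r)⁻¹ • y = y / xF L F ^ r := by
  rw [Algebra.smul_def, map_inv₀, map_pow, xF, div_eq_inv_mul]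

omit [Algebra L F] [IsScalarTower L (RatFunc L) F] [Algebra L[X] F]
  [IsScalarTower L[X] (RatFunc L) F] [FiniteDimensional (RatFunc L) F] in
open scoped Classical in
/-- The hypothesis `hz` of `natDegree_coeff_le` / `exists_monic_relation` from integrality over
the valuation ring at infinity. -/
theorem exists_monic_of_isIntegral_Oinf [Algebra (Oinf L) F] [IsScalarTower (Oinf L) (RatFunc L) F]
    {z : F} (hz : IsIntegral (Oinf L) z) :
    ∃ g : (RatFunc L)[X], g.Monic ∧ (∀ i, g.coeff i ∈ Oinf L) ∧ aeval z g = 0 := by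
  obtain ⟨p, hpm, hp⟩ := hz
  refine ⟨p.map (algebraMap (Oinf L) (RatFunc L)), hpm.map _, fun i => ?_, ?_⟩
  · rw [Polynomial.coeff_map]
    exact (p.coeff i).2
  · rw [aeval_map_algebraMap]
    exact hp

/-- **INTEGRALITY LEMMA, explicit form.** `P := minpoly L[X] y` is monic, kills `y`, has all its
`L`-coefficients in `O`, and `natDegree (P.coeff i) ≤ r * (natDegree P - i)`. -/
theorem exists_monic_relation
    (hG : ∀ p : L[X], algebraMap L[X] F p ∈ O → ∀ j, algebraMap L F (p.coeff j) ∈ O)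
    (hbO : ∀ i, b i ∈ O)
    (hb : ∀ a : ι → RatFunc L, (∑ i, a i • b i) ∈ O → ∀ i, algebraMap (RatFunc L) F (a i) ∈ O)
    {y : F} (hyO : y ∈ O) (hy : IsIntegral L[X] y) (r : ℕ)
    (hz : ∃ g : (RatFunc L)[X], g.Monic ∧ (∀ i, g.coeff i ∈ Oinf L) ∧
      aeval (((RatFunc.X : RatFunc L) ^ r)⁻¹ • y) g = 0) :
    ∃ P : L[X][X], P.Monic ∧ aeval y P = 0 ∧
      (∀ i j, algebraMap L F ((P.coeff i).coeff j) ∈ O) ∧
      ∀ i, (P.coeff i).natDegree ≤ r * (P.natDegree - i) :=
  ⟨minpoly L[X] y, minpoly.monic hy, minpoly.aeval _ _,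
    fun i j => coeff_coeff_mem O b hG hbO hb hyO hy i j,
    fun i => natDegree_coeff_le hy r hz i⟩

end Main

/-! ### Consequences on the residue side -/

section Residue

/-- A root of a monic polynomial with coefficients in a valuation subring lies in it
(explicit form). -/
theorem mem_of_monic_relation {κ : Type*} [Field κ] (Q : ValuationSubring κ) (d : ℕ) (C : ℕ → κ)
    (hC : ∀ i, C i ∈ Q) (η : κ) (h : η ^ d + ∑ i ∈ Finset.range d, C i * η ^ i = 0) : η ∈ Q := by
  by_contra hη
  rw [← Q.valuation_le_one_iff, not_le] at hη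
  have hη0 : Q.valuation η ≠ 0 := (zero_lt_one.trans hη).ne'
  have hlt : Q.valuation (∑ i ∈ Finset.range d, C i * η ^ i) < Q.valuation η ^ d := by
    refine Valuation.map_sum_lt _ (pow_ne_zero _ hη0) fun i hi => ?_
    rw [map_mul, map_pow]
    have h1 : Q.valuation (C i) ≤ 1 := (Q.valuation_le_one_iff _).mpr (hC i)
    have h2 : Q.valuation η ^ i < Q.valuation η ^ d :=
      pow_lt_pow_right₀ hη (Finset.mem_range.mp hi)
    calc Q.valuation (C i) * Q.valuation η ^ i ≤ 1 * Q.valuation η ^ i := by gcongr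
      _ = Q.valuation η ^ i := one_mul _
      _ < Q.valuation η ^ d := h2
  have h3 : η ^ d = -∑ i ∈ Finset.range d, C i * η ^ i := eq_neg_of_add_eq_zero_left h
  have h4 : Q.valuation (η ^ d) = Q.valuation (∑ i ∈ Finset.range d, C i * η ^ i) := by
    rw [h3, Valuation.map_neg]
  rw [map_pow] at h4
  exact absurd h4 hlt.ne'

variable (O : ValuationSubring F)

/-- The relation `aeval y P = 0` pushed through a ring homomorphism `ρ : O →+* κ`. -/
theorem map_relation {κ : Type*} [Field κ] (ρ : O →+* κ) (hx : xF L F ∈ O) {y : F} (hyO : y ∈ O)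
    (P : L[X][X]) (hPy : aeval y P = 0)
    (hPO : ∀ i j, algebraMap L F ((P.coeff i).coeff j) ∈ O) :
    ∑ i ∈ Finset.range (P.natDegree + 1),
      (∑ j ∈ Finset.range ((P.coeff i).natDegree + 1),
        ρ ⟨_, hPO i j⟩ * ρ ⟨_, hx⟩ ^ j) * ρ ⟨y, hyO⟩ ^ i = 0 := by
  set S : O := ∑ i ∈ Finset.range (P.natDegree + 1),
      (∑ j ∈ Finset.range ((P.coeff i).natDegree + 1),
        (⟨_, hPO i j⟩ : O) * (⟨_, hx⟩ : O) ^ j) * (⟨y, hyO⟩ : O) ^ i with hS
  have hS0 : S = 0 := by
    apply O.subtype_injective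
    rw [hS, map_sum, map_zero]
    simp only [map_mul, map_sum, map_pow, ValuationSubring.subtype_apply]
    rw [← hPy, aeval_eq_sum_range]
    refine Finset.sum_congr rfl fun i _ => ?_
    rw [Algebra.smul_def, algebraMap_eq_sum]
  have h2 := congrArg ρ hS0
  rw [map_zero, hS, map_sum] at h2
  simpa only [map_mul, map_sum, map_pow] using h2

/-- The coefficient sum attached to the constant polynomial `1` is `1`. -/
theorem coeffSum_one {κ : Type*} [Field κ] (ρ : O →+* κ) (ξ : κ) (c : L[X]) (hc : c = 1)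
    (h : ∀ j, algebraMap L F (c.coeff j) ∈ O) :
    ∑ j ∈ Finset.range (c.natDegree + 1), ρ ⟨_, h j⟩ * ξ ^ j = 1 := by
  subst hc
  rw [natDegree_one, Finset.sum_range_one, pow_zero, mul_one]
  have : (⟨algebraMap L F ((1 : L[X]).coeff 0), h 0⟩ : O) = 1 := by
    apply Subtype.ext
    simp
  rw [this, map_one]

/-- **INTEGRALITY LEMMA, residue form.** Let `P` be as produced by `exists_monic_relation`,
`ρ : O →+* κ` a ring homomorphism into a field and `Q` a valuation subring of `κ` containing the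
image of `A = O ∩ L`.  Then `ρ x ∈ Q → ρ y ∈ Q` and `ρ x ∉ Q → ρ y / (ρ x)^r ∈ Q`:
the reduction of `y` lies in `L̄(r · (x̄)_∞)`. -/
theorem residue_mem {κ : Type*} [Field κ] (ρ : O →+* κ) (Q : ValuationSubring κ)
    (hρ : ∀ (a : L) (h : algebraMap L F a ∈ O), ρ ⟨_, h⟩ ∈ Q)
    (hx : xF L F ∈ O) {y : F} (hyO : y ∈ O)
    (P : L[X][X]) (hPm : P.Monic) (hPy : aeval y P = 0)
    (hPO : ∀ i j, algebraMap L F ((P.coeff i).coeff j) ∈ O)
    (r : ℕ) (hPd : ∀ i, (P.coeff i).natDegree ≤ r * (P.natDegree - i)) :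
    (ρ ⟨_, hx⟩ ∈ Q → ρ ⟨y, hyO⟩ ∈ Q) ∧
      (ρ ⟨_, hx⟩ ∉ Q → ρ ⟨y, hyO⟩ / ρ ⟨_, hx⟩ ^ r ∈ Q) := by
  set ξ := ρ ⟨_, hx⟩ with hξdef
  set η := ρ ⟨y, hyO⟩ with hηdef
  set d := P.natDegree with hd
  set Cκ : ℕ → κ := fun i => ∑ j ∈ Finset.range ((P.coeff i).natDegree + 1),
    ρ ⟨_, hPO i j⟩ * ξ ^ j with hCκ
  have hrel : ∑ i ∈ Finset.range (d + 1), Cκ i * η ^ i = 0 := map_relation O ρ hx hyO P hPy hPO
  have hCd : Cκ d = 1 := coeffSum_one O ρ ξ (P.coeff d) hPm.coeff_natDegree (hPO d)
  rw [Finset.sum_range_succ, hCd, one_mul, add_comm] at hrel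
  refine ⟨fun hξ => ?_, fun hξ => ?_⟩
  · refine mem_of_monic_relation Q d Cκ (fun i => ?_) η hrel
    exact sum_mem fun j _ => Q.mul_mem _ _ (hρ _ _) (pow_mem hξ j)
  · have hξ0 : ξ ≠ 0 := fun h => hξ (h ▸ Q.zero_mem)
    have hξi : ξ⁻¹ ∈ Q := (Q.mem_or_inv_mem ξ).resolve_left hξ
    refine mem_of_monic_relation Q d (fun i => Cκ i / ξ ^ (r * (d - i))) (fun i => ?_)
      (η / ξ ^ r) ?_
    · simp only [hCκ, Finset.sum_div]
      refine sum_mem fun j hj => ?_
      have hj' : j ≤ r * (d - i) :=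
        (Nat.lt_succ_iff.mp (Finset.mem_range.mp hj)).trans (hPd i)
      have hpow : ξ ^ j / ξ ^ (r * (d - i)) = ξ⁻¹ ^ (r * (d - i) - j) := by
        rw [inv_pow, div_eq_iff (pow_ne_zero _ hξ0), inv_mul_eq_div,
          eq_div_iff (pow_ne_zero _ hξ0), ← pow_add, Nat.add_sub_cancel' hj']
      rw [mul_div_assoc, hpow]
      exact Q.mul_mem _ _ (hρ _ _) (pow_mem hξi _)
    · have key : (η / ξ ^ r) ^ d + ∑ i ∈ Finset.range d,
          Cκ i / ξ ^ (r * (d - i)) * (η / ξ ^ r) ^ i =
          (η ^ d + ∑ i ∈ Finset.range d, Cκ i * η ^ i) / ξ ^ (r * d) := by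
        rw [add_div, Finset.sum_div, div_pow, ← pow_mul]
        congr 1
        refine Finset.sum_congr rfl fun i hi => ?_
        have hi' : i ≤ d := (Finset.mem_range.mp hi).le
        have hsplit : ξ ^ (r * d) = ξ ^ (r * (d - i)) * (ξ ^ r) ^ i := by
          rw [← pow_mul, ← pow_add, ← Nat.mul_add, Nat.sub_add_cancel hi']
        rw [hsplit, div_pow]
        field_simp
      rw [key, hrel, zero_div]

end Residue

end

end Fermat.Agent.S18.GaussInteg9
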