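/-
S18 / [GENUS] field of `Level33.LevelData`, INSTANCE-FREE concrete wiring (helper39).

Everything is stated with `Riemann12.gR` (depends only on `K`, `F`, `Algebra K F`) and
`S24.placesOverInfty K x` (Prelude `Place` API): no `RatFunc` instance appears in a statement, so
providers using different `letI`-chains can all feed this file.

* `finrank_adjoin_tower`   : `[F₁ : κ(x₀)] = [F₀ : κ(x₀)] [F₁ : F₀]`;
* `gR_le_of_tower`         : abstract (O3), instance-free;
* `six_mul_two_mul_gR_FM`  : `6 (2 gR ℚ̄ F_M - 2) = ψ(M) - 6 c(M)` for `4 ∣ M ∨ 9 ∣ M`;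
* `gR_eq_sum`              : `gR K F = ∑ d_i - n + 1` for ANY normal basis in ANY separable RatFunc chain;
* `gR_FM_le` / `_four` / `_nine` : `gR ℚ̄ F_M ≤ gR k F̄_M` from degrees + (C-BASE) + (C-SEMI);
* `genus_field_four` / `_nine`  : the `genus` field of `LevelData` with `γ := gR ℚ̄ F_M`.
-/
import Fermat.Agent.S18.GenusEq39
import Fermat.Agent.S18.RH92.Places
import Fermat.Agent.S18.DW63.Main
import Fermat.Agent.S18.SepInst72
import Fermat.Agent.S18.FFInst30
import Fermat.Agent.S18.TowerInst39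
import Fermat.Agent.S18.Char0Num34

set_option autoImplicit false
set_option linter.unusedSectionVars false
set_option linter.style.haveILetI false
set_option synthInstance.maxHeartbeats 400000
set_option maxHeartbeats 1600000

open Polynomial AlgebraicCurve IsDedekindDomain Module ModularCurve IntermediateField
open scoped Classical

noncomputable section

namespace Fermat.Agent.S18.GenusInst39

open Fermat.Agent.S20.NormalBasis (Oinf)
open Fermat.Agent.S20 Fermat.Agent.S20.T1 Fermat.Agent.S24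
open Fermat.Agent.S20.LatticeDims (scaled)
open Fermat.Agent.S18.DW63 Fermat.Agent.S18.RH92
open Fermat.Agent.S18.Riemann12 (gR)

section Abstract

variable {κ F₀ F₁ : Type*} [Field κ] [Field F₀] [Field F₁] [Algebra κ F₀]
  [Algebra κ F₁] [Algebra F₀ F₁] [IsScalarTower κ F₀ F₁]

/-- tower law over `κ(x₀)`. -/
theorem finrank_adjoin_tower {x₀ : F₀} (hx₀ : Transcendental κ x₀) :
    finrank κ⟮algebraMap F₀ F₁ x₀⟯ F₁ = finrank κ⟮x₀⟯ F₀ * finrank F₀ F₁ := by
  have hx₁ : Transcendental κ (algebraMap F₀ F₁ x₀) := transcendental_algebraMap hx₀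
  letI := T1Setup.algRat hx₀
  letI := T1Setup.algRat hx₁
  haveI : IsScalarTower (RatFunc κ) F₀ F₁ := isScalarTower_algRat hx₀ hx₁
  rw [← T1Setup.finrank_eq hx₀, ← T1Setup.finrank_eq hx₁]
  exact (finrank_mul_finrank (RatFunc κ) F₀ F₁).symm

variable [IsAlgClosed κ]

/-- **Abstract (O3), instance-free.** -/
theorem gR_le_of_tower {x₀ : F₀} (hx₀ : Transcendental κ x₀)
    [FiniteDimensional κ⟮x₀⟯ F₀] [Algebra.IsSeparable κ⟮x₀⟯ F₀]
    [FiniteDimensional κ⟮algebraMap F₀ F₁ x₀⟯ F₁]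
    [Algebra.IsSeparable κ⟮algebraMap F₀ F₁ x₀⟯ F₁]
    {g c ψ ψ₀ c₀ : ℤ}
    (hchar0 : 6 * (2 * g - 2) = ψ - 6 * c) (hbase0 : ψ₀ = 6 * (c₀ - 2))
    (hn₁ : (finrank κ⟮algebraMap F₀ F₁ x₀⟯ F₁ : ℤ) = ψ) (hn₀ : (finrank κ⟮x₀⟯ F₀ : ℤ) = ψ₀)
    (hbase : c₀ ≤ (Set.ncard (placesOverInfty κ x₀) : ℤ))
    (hsemi : (Set.ncard (placesOverInfty κ (algebraMap F₀ F₁ x₀)) : ℤ) + gR κ F₁ ≤ c + g) :
    g ≤ gR κ F₁ := by
  have hRH := rh_of_separating_base (K := κ) (F₁ := F₁) hx₀
  have htower : (finrank κ⟮algebraMap F₀ F₁ x₀⟯ F₁ : ℤ) =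
      (finrank κ⟮x₀⟯ F₀ : ℤ) * (finrank F₀ F₁ : ℤ) := by
    exact_mod_cast finrank_adjoin_tower (F₁ := F₁) hx₀
  rw [hn₁, hn₀] at htower
  set d : ℤ := (finrank F₀ F₁ : ℤ) with hd
  have hd0 : 0 ≤ d := Int.natCast_nonneg _
  set c0 : ℤ := (Set.ncard (placesOverInfty κ x₀) : ℤ) with hc0
  set c1 : ℤ := (Set.ncard (placesOverInfty κ (algebraMap F₀ F₁ x₀)) : ℤ) with hc1
  have hprod : 0 ≤ (c0 - c₀) * d := mul_nonneg (by linarith) hd0
  -- `6 (2 g - 2) = 6 (c₀ - 2) d - 6 c`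
  have h1 : 2 * g - 2 = (c₀ - 2) * d - c := by
    have : 6 * (2 * g - 2) = 6 * ((c₀ - 2) * d - c) := by
      rw [hchar0, htower, hbase0]; ring
    linarith
  nlinarith

end Abstract

section Char0

variable (M : ℕ) [NeZero M]

/-- **Characteristic `0` Hurwitz count for the Riemann genus of `F_M`.** -/
theorem six_mul_two_mul_gR_FM (hM : 4 ∣ M ∨ 9 ∣ M) :
    6 * (2 * gR Kbar (FN M) - 2) = (dedekindPsi M : ℤ) - 6 * cuspCount M := by
  have hF : IsFunctionFieldOver Kbar (jF M) := Exports.isFunctionFieldOver_jF M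
  letI := T1Setup.algRat hF.transcendental
  letI := T1Setup.algPoly (K := Kbar) (jF M)
  haveI := T1Setup.isScalarTower_K hF.transcendental
  haveI := T1Setup.isScalarTower_poly hF.transcendental
  haveI := T1Setup.finiteDimensional_of hF
  have hx : T1.xF Kbar (FN M) = jF M := T1Setup.algebraMap_X hF.transcendental
  rw [gR_eq Kbar (FN M)]
  exact GenusEq39.six_mul_two_mul_dwGenus_FM M hx hM

end Char0

section NormalBasis

variable (K F : Type*) [Field K] [IsAlgClosed K] [Field F] [Algebra K F] [Algebra (RatFunc K) F]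
  [IsScalarTower K (RatFunc K) F] [Algebra K[X] F] [IsScalarTower K[X] (RatFunc K) F]
  [FiniteDimensional (RatFunc K) F] [Algebra.IsSeparable (RatFunc K) F]

/-- The Riemann genus from ANY Dedekind–Weber normal basis (any instance chain). -/
theorem gR_eq_sum {n : ℕ} (u : Basis (Fin n) (RatFunc K) F) (d : Fin n → ℤ)
    (hu : Submodule.span K[X] (Set.range u) = Subalgebra.toSubmodule (Bfin K F))
    (hd : Submodule.span (Oinf K) (Set.range (scaled u d)) = Subalgebra.toSubmodule (Binf K F)) :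
    gR K F = ∑ i, d i - n + 1 := by
  have h1 := dwGenus_eq (K := K) (F := F) u d hu hd
  have h2 : finrank (RatFunc K) F = n := by
    rw [Module.finrank_eq_card_basis u, Fintype.card_fin]
  rw [h2] at h1
  rw [gR_eq K F, h1]

end NormalBasis

section Concrete

variable (k : Type) [Field k] [IsAlgClosed k]

open SepInst72 (xbar transcendental_xbar)

variable (M₀ M : ℕ) [NeZero M₀] [NeZero M]

theorem algebraMap_xbar (h : M₀ ∣ M) :
    letI := TowerInst39.algIncl (full_degeneracyC_le k h)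
    algebraMap ↥(modularFunctionFieldFullC k M₀) ↥(modularFunctionFieldFullC k M) (xbar k M₀) =
      xbar k M := rfl

/-- **(O3) on the special fibre, instance-free**: base level `M₀ ∣ M` of genus `0` in char. `0`
(`ψ(M₀) = 6 (c₀ - 2)`), degrees of the special fibres, (C-BASE) at `M₀`, (C-SEMI) at `M`. -/
theorem gR_FM_le (h : M₀ ∣ M) (hM : 4 ∣ M ∨ 9 ∣ M) (hM₀k : (M₀ : k) ≠ 0) (hMk : (M : k) ≠ 0)
    {c₀ : ℤ} (hbase0 : (dedekindPsi M₀ : ℤ) = 6 * (c₀ - 2))
    (hn₁ : finrank k⟮xbar k M⟯ ↥(modularFunctionFieldFullC k M) = dedekindPsi M)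
    (hn₀ : finrank k⟮xbar k M₀⟯ ↥(modularFunctionFieldFullC k M₀) = dedekindPsi M₀)
    (hbase : c₀ ≤ (Set.ncard (placesOverInfty k (xbar k M₀)) : ℤ))
    (hsemi : (Set.ncard (placesOverInfty k (xbar k M)) : ℤ)
        + gR k ↥(modularFunctionFieldFullC k M) ≤ (cuspCount M : ℤ) + gR Kbar (FN M)) :
    gR Kbar (FN M) ≤ gR k ↥(modularFunctionFieldFullC k M) := by
  letI := TowerInst39.algIncl (full_degeneracyC_le k h)
  haveI := TowerInst39.isScalarTower_incl (full_degeneracyC_le k h)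
  haveI : FiniteDimensional k⟮xbar k M₀⟯ ↥(modularFunctionFieldFullC k M₀) :=
    FFInst30.finiteDimensional_tC k M₀ hM₀k
  haveI : Algebra.IsSeparable k⟮xbar k M₀⟯ ↥(modularFunctionFieldFullC k M₀) :=
    FFInst30.isSeparable_tC k M₀ hM₀k
  haveI : FiniteDimensional
      k⟮algebraMap ↥(modularFunctionFieldFullC k M₀) ↥(modularFunctionFieldFullC k M) (xbar k M₀)⟯
      ↥(modularFunctionFieldFullC k M) := FFInst30.finiteDimensional_tC k M hMk
  haveI : Algebra.IsSeparable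
      k⟮algebraMap ↥(modularFunctionFieldFullC k M₀) ↥(modularFunctionFieldFullC k M) (xbar k M₀)⟯
      ↥(modularFunctionFieldFullC k M) := FFInst30.isSeparable_tC k M hMk
  exact gR_le_of_tower (κ := k) (F₀ := ↥(modularFunctionFieldFullC k M₀))
    (F₁ := ↥(modularFunctionFieldFullC k M)) (x₀ := xbar k M₀) (transcendental_xbar k M₀)
    (g := gR Kbar (FN M)) (c := (cuspCount M : ℤ)) (ψ := (dedekindPsi M : ℤ))
    (ψ₀ := (dedekindPsi M₀ : ℤ)) (c₀ := c₀)
    (six_mul_two_mul_gR_FM M hM) hbase0 (by exact_mod_cast hn₁) (by exact_mod_cast hn₀) hbase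
    hsemi

/-- `4 ∣ M` (the good level for odd `ℓ`). -/
theorem gR_FM_le_four (hM : 4 ∣ M) (h4k : ((4 : ℕ) : k) ≠ 0) (hMk : (M : k) ≠ 0)
    (hn₁ : finrank k⟮xbar k M⟯ ↥(modularFunctionFieldFullC k M) = dedekindPsi M)
    (hn₀ : finrank k⟮xbar k 4⟯ ↥(modularFunctionFieldFullC k 4) = 6)
    (hbase : 3 ≤ Set.ncard (placesOverInfty k (xbar k 4)))
    (hsemi : (Set.ncard (placesOverInfty k (xbar k M)) : ℤ)
        + gR k ↥(modularFunctionFieldFullC k M) ≤ (cuspCount M : ℤ) + gR Kbar (FN M)) :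
    gR Kbar (FN M) ≤ gR k ↥(modularFunctionFieldFullC k M) :=
  gR_FM_le k 4 M hM (Or.inl hM) h4k hMk (c₀ := 3)
    (by rw [Char0Num34.dedekindPsi_four]; norm_num) hn₁
    (by rw [Char0Num34.dedekindPsi_four]; exact hn₀) (by exact_mod_cast hbase) hsemi

/-- `9 ∣ M` (the good level for `ℓ = 2`). -/
theorem gR_FM_le_nine (hM : 9 ∣ M) (h9k : ((9 : ℕ) : k) ≠ 0) (hMk : (M : k) ≠ 0)
    (hn₁ : finrank k⟮xbar k M⟯ ↥(modularFunctionFieldFullC k M) = dedekindPsi M)
    (hn₀ : finrank k⟮xbar k 9⟯ ↥(modularFunctionFieldFullC k 9) = 12)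
    (hbase : 4 ≤ Set.ncard (placesOverInfty k (xbar k 9)))
    (hsemi : (Set.ncard (placesOverInfty k (xbar k M)) : ℤ)
        + gR k ↥(modularFunctionFieldFullC k M) ≤ (cuspCount M : ℤ) + gR Kbar (FN M)) :
    gR Kbar (FN M) ≤ gR k ↥(modularFunctionFieldFullC k M) :=
  gR_FM_le k 9 M hM (Or.inr hM) h9k hMk (c₀ := 4)
    (by rw [Char0Num34.dedekindPsi_nine]; norm_num) hn₁
    (by rw [Char0Num34.dedekindPsi_nine]; exact hn₀) (by exact_mod_cast hbase) hsemi

end Concrete

section Field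

/-! ### The `genus` field of `Level33.LevelData`

`γ := gR ℚ̄ F_M`; `(u, d)` ANY Dedekind–Weber normal basis of `F̄_M` in ANY separable `RatFunc k`
chain on `F̄_M` (the chain only enters through `hu`, `hd`). -/

variable (k : Type) [Field k] [IsAlgClosed k] (M : ℕ) [NeZero M]
  [Algebra (RatFunc k) ↥(modularFunctionFieldFullC k M)]
  [IsScalarTower k (RatFunc k) ↥(modularFunctionFieldFullC k M)]
  [Algebra k[X] ↥(modularFunctionFieldFullC k M)]
  [IsScalarTower k[X] (RatFunc k) ↥(modularFunctionFieldFullC k M)]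
  [FiniteDimensional (RatFunc k) ↥(modularFunctionFieldFullC k M)]
  [Algebra.IsSeparable (RatFunc k) ↥(modularFunctionFieldFullC k M)]

theorem genus_field {n : ℕ} (u : Basis (Fin n) (RatFunc k) ↥(modularFunctionFieldFullC k M))
    (d : Fin n → ℤ)
    (hu : Submodule.span k[X] (Set.range u) =
      Subalgebra.toSubmodule (Bfin k ↥(modularFunctionFieldFullC k M)))
    (hd : Submodule.span (Oinf k) (Set.range (scaled u d)) =
      Subalgebra.toSubmodule (Binf k ↥(modularFunctionFieldFullC k M)))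
    (hle : gR Kbar (FN M) ≤ gR k ↥(modularFunctionFieldFullC k M)) :
    gR Kbar (FN M) ≤ ∑ i, d i - n + 1 :=
  hle.trans_eq (gR_eq_sum k _ u d hu hd)

end Field

end Fermat.Agent.S18.GenusInst39
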