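/-
S18 / LD-GENUS wiring (helper39): `LevelAsm29.GenusProp M A hM` (input (I3) of
`LevelAsm29.nonempty_levelData_of_frame`) from

* (C-BASE)  `cuspCount M₀ ≤ #placesOverInfty k x̄_{M₀}`     (`M₀ ∈ {4, 9}`, `M₀ ∣ M`), and
* (C-SEMI)  `cInf k F̄_M + dwGenus k F̄_M ≤ cInf ℚ̄ F_M + dwGenus ℚ̄ F_M`
            in the instance chains `LevelFF12.algRatFM` (generic fibre) and `LevelAsm29.algRatC`
            (special fibre) — the literal output shape of `CuspSemiInst3.cInf_add_dwGenus_le` /
            `CuspSemi80.cInf_add_dwGenus_le`.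

The degrees come from `DegreeBar14`, the characteristic-`0` numerics from `LevelFF12` / `Char0Diff39`,
Riemann–Hurwitz from `RH92` via `GenusInst39.gR_FM_le`.
-/
import Fermat.Agent.S18.LevelAsm29
import Fermat.Agent.S18.GenusInst39
import Fermat.Agent.S18.DegreeBar14

set_option autoImplicit false
set_option linter.unusedSectionVars false
set_option linter.unusedVariables false
set_option linter.style.haveILetI false
set_option synthInstance.maxHeartbeats 400000
set_option maxHeartbeats 1600000

open ModularCurve AlgebraicCurve HahnSeries IntermediateField Polynomial Module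

noncomputable section

namespace Fermat.Agent.S18.GenusProp39

open Fermat.Agent.S18.Spine33 Fermat.Agent.S18.LevelAsm29
open Fermat.Agent.S20 Fermat.Agent.S20.T1 Fermat.Agent.S24
open Fermat.Agent.S18.Riemann12 (gR)
open Fermat.Agent.S18.SepInst72 (xbar transcendental_xbar)

section Char0

variable (M : ℕ) [NeZero M]

/-- the number of places of `F_M` over `j = ∞` is `cuspCount M` (`LevelFF12` chain). -/
theorem cInf_FM :
    letI := LevelFF12.algRatFM M
    letI := LevelFF12.algPolyFM M
    haveI := LevelFF12.towerK M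
    haveI := LevelFF12.towerPoly M
    haveI := LevelFF12.finiteRat M
    haveI := LevelFF12.sepRat M
    RH92.cInf Kb (FK M) = cuspCount M := by
  letI := LevelFF12.algRatFM M
  letI := LevelFF12.algPolyFM M
  haveI := LevelFF12.towerK M
  haveI := LevelFF12.towerPoly M
  haveI := LevelFF12.finiteRat M
  haveI := LevelFF12.sepRat M
  rw [RH92.card_primesOverFinset_eq_natCard]
  exact Char0Diff39.card_heightOneSpectrum_Binf_FM M (LevelFF12.xF_eq M)

end Char0

section Special

variable (k : Type) [Field k] [IsAlgClosed k] (M : ℕ) [NeZero M]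

/-- `cInf` of the special fibre (chain `LevelAsm29.algRatC`) is the instance-free count. -/
theorem cInf_FC (hM : (M : k) ≠ 0) :
    letI := algRatC k M
    letI := algPolyC k M
    haveI := towerKC k M
    haveI := towerPolyC k M
    haveI := finiteRatC k M hM
    haveI := sepRatC k M hM
    RH92.cInf k (FC k M) = Set.ncard (placesOverInfty k (xbar k M)) := by
  letI := algRatC k M
  letI := algPolyC k M
  haveI := towerKC k M
  haveI := towerPolyC k M
  haveI := finiteRatC k M hM
  haveI := sepRatC k M hM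
  rw [RH92.cInf_eq_ncard_placesOverInfty]
  have hx : xF k (FC k M) = xbar k M := T1Setup.algebraMap_X (transcendental_xbar k M)
  rw [hx]

/-- `gR` of the special fibre is `dwGenus` in the chain `LevelAsm29.algRatC`. -/
theorem gR_FC (hM : (M : k) ≠ 0) :
    letI := algRatC k M
    letI := algPolyC k M
    haveI := towerKC k M
    haveI := towerPolyC k M
    haveI := finiteRatC k M hM
    haveI := sepRatC k M hM
    gR k (FC k M) = (DW63.dwGenus k (FC k M) : ℤ) := by
  letI := algRatC k M
  letI := algPolyC k M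
  haveI := towerKC k M
  haveI := towerPolyC k M
  haveI := finiteRatC k M hM
  haveI := sepRatC k M hM
  exact DW63.gR_eq k (FC k M)

end Special

section Main

variable (M : ℕ) [NeZero M] (A : ValuationSubring Kb) [IsAlgClosed (kA A)]

/-- (C-SEMI) at level `M`, in the two instance chains of the assembly. -/
def CSemiProp (hM : (M : kA A) ≠ 0) : Prop :=
  letI := LevelFF12.algRatFM M
  letI := LevelFF12.algPolyFM M
  haveI := LevelFF12.towerK M
  haveI := LevelFF12.towerPoly M
  haveI := LevelFF12.finiteRat M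
  haveI := LevelFF12.sepRat M
  letI := algRatC (kA A) M
  letI := algPolyC (kA A) M
  haveI := towerKC (kA A) M
  haveI := towerPolyC (kA A) M
  haveI := finiteRatC (kA A) M hM
  haveI := sepRatC (kA A) M hM
  RH92.cInf (kA A) (FC (kA A) M) + DW63.dwGenus (kA A) (FC (kA A) M) ≤
    RH92.cInf Kb (FK M) + DW63.dwGenus Kb (FK M)

/-- (C-BASE) at the base level `M₀`, instance-free. -/
def CBaseProp (M₀ : ℕ) [NeZero M₀] : Prop :=
  cuspCount M₀ ≤ Set.ncard (placesOverInfty (kA A) (xbar (kA A) M₀))

/-- (C-SEMI), instance-free form. -/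
theorem csemi_gR (hM : (M : kA A) ≠ 0) (h : CSemiProp M A hM) :
    (Set.ncard (placesOverInfty (kA A) (xbar (kA A) M)) : ℤ) + gR (kA A) (FC (kA A) M) ≤
      (cuspCount M : ℤ) + gR Kb (FK M) := by
  have h' := h
  unfold CSemiProp at h'
  rw [cInf_FM M, cInf_FC (kA A) M hM] at h'
  rw [← LevelFF12.γ_eq_gR M, gR_FC (kA A) M hM]
  have hγ : LevelFF12.γ M = ((LevelFF12.γnat M : ℕ) : ℤ) := rfl
  rw [hγ]
  exact_mod_cast h'

/-- **The genus input of the assembly.** -/
theorem genusProp (hM : (M : kA A) ≠ 0) (M₀ : ℕ) [NeZero M₀] (h0 : M₀ = 4 ∨ M₀ = 9)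
    (hdvd : M₀ ∣ M) (hbase : CBaseProp A M₀) (hsemi : CSemiProp M A hM) :
    GenusProp M A hM := by
  have hM₀ : (M₀ : kA A) ≠ 0 := DegreeBar14.natCast_ne_zero_of_dvd hM hdvd
  have hgood : 4 ∣ M ∨ 9 ∣ M := by
    rcases h0 with rfl | rfl
    · exact Or.inl hdvd
    · exact Or.inr hdvd
  have hbase0 : (dedekindPsi M₀ : ℤ) = 6 * ((cuspCount M₀ : ℤ) - 2) := by
    rcases h0 with rfl | rfl
    · rw [Char0Num34.dedekindPsi_four, Char0Num34.cuspCount_four]; norm_num
    · rw [Char0Num34.dedekindPsi_nine, Char0Num34.cuspCount_nine]; norm_num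
  have hle := GenusInst39.gR_FM_le (kA A) M₀ M hdvd hgood hM₀ hM hbase0
    (DegreeBar14.finrank_adjoin_xbar_eq (kA A) M hM)
    (DegreeBar14.finrank_adjoin_xbar_eq (kA A) M₀ hM₀)
    (by exact_mod_cast hbase) (csemi_gR M A hM hsemi)
  rw [← LevelFF12.γ_eq_gR M, gR_FC (kA A) M hM] at hle
  unfold GenusProp
  have hle' : ((LevelFF12.γnat M : ℕ) : ℤ) ≤ _ := hle
  exact_mod_cast hle'

end Main

end Fermat.Agent.S18.GenusProp39
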