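/-
S18 / LD-ASSEMBLY (helper29), part 5: wiring of `LevelAsm29.GenusProp` from
`GenusEqMod8.dwGenus_FM_le` (helper8/helper39), the degrees (`DegreeBar14`, helper14) and the two
cusp inputs (C-BASE) and (C-SEMI), stated in the instance chains of `LevelFF12` / `LevelAsm29`.
-/
import Fermat.Agent.S18.LevelFinal29
import Fermat.Agent.S18.GenusEqMod8

set_option autoImplicit false
set_option linter.unusedSectionVars false
set_option linter.unusedVariables false
set_option linter.style.haveILetI false
set_option synthInstance.maxHeartbeats 400000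
set_option maxHeartbeats 1600000

open ModularCurve AlgebraicCurve HahnSeries IntermediateField Polynomial Module

noncomputable section

namespace Fermat.Agent.S18.GenusWire29

open Fermat.Agent.S18.Spine33 Fermat.Agent.S18.LevelAsm29
open Fermat.Agent.S20 Fermat.Agent.S20.T1 Fermat.Agent.S24

/-- **(C-BASE)** at the base level `M₀ ∈ {4, 9}` over `k`. -/
def CBaseProp (k : Type) [Field k] (M₀ : ℕ) [NeZero M₀] : Prop :=
  cuspCount M₀ ≤ (placesOverInfty k (GenusEqMod8.jC k M₀)).ncard

variable (A : ValuationSubring Kb) [IsAlgClosed (kA A)] (M : ℕ) [NeZero M]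
  (hMk : (M : kA A) ≠ 0)

/-- **(C-SEMI)** at level `M`, in the instance chains of `LevelFF12` and `LevelAsm29`. -/
def CSemiProp : Prop :=
  letI := LevelFF12.algRatFM M
  letI := LevelFF12.algPolyFM M
  haveI := LevelFF12.towerK M
  haveI := LevelFF12.towerPoly M
  haveI := LevelFF12.finiteRat M
  haveI := LevelFF12.sepRat M
  letI := algRatC (kA A) M
  letI := algPolyC (kA A) M
  haveI := towerKC (kA A) M
  haveI := towerPolyC (kA A) M
  haveI := finiteRatC (kA A) M hMk
  haveI := sepRatC (kA A) M hMk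
  RH92.cInf (kA A) (FC (kA A) M) + DW63.dwGenus (kA A) (FC (kA A) M) ≤
    cuspCount M + DW63.dwGenus Kb (FK M)

theorem genusProp_of (M₀ : ℕ) [NeZero M₀] (hM₀ : M₀ = 4 ∨ M₀ = 9) (hdvd : M₀ ∣ M)
    (hbase : CBaseProp (kA A) M₀) (hsemi : CSemiProp A M hMk) : GenusProp M A hMk := by
  letI := LevelFF12.algRatFM M
  letI := LevelFF12.algPolyFM M
  haveI := LevelFF12.towerK M
  haveI := LevelFF12.towerPoly M
  haveI := LevelFF12.finiteRat M
  haveI := LevelFF12.sepRat M
  letI := algRatC (kA A) M
  letI := algPolyC (kA A) M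
  haveI := towerKC (kA A) M
  haveI := towerPolyC (kA A) M
  haveI := finiteRatC (kA A) M hMk
  haveI := sepRatC (kA A) M hMk
  have hM₀k : (M₀ : kA A) ≠ 0 := DegreeBar14.natCast_ne_zero_of_dvd hMk hdvd
  exact GenusEqMod8.dwGenus_FM_le M₀ M (kA A) hM₀ hdvd (LevelFF12.xF_eq M)
    (T1Setup.algebraMap_X (SepInst72.transcendental_xbar (kA A) M))
    (DegreeBar14.degOver_eq (kA A) M₀ hM₀k) (DegreeBar14.finrank_algRat_eq (kA A) M hMk)
    hbase hsemi

end Fermat.Agent.S18.GenusWire29
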