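/-
S18 / L-INST (ii) (helper98): the CONCRETE separable RatFunc setting of the special fibre
`F̄_M = modularFunctionFieldFullC k M ⊆ k((q))` over `k(j̄)`, `j̄ = jqModC k`, for `k : Type`
algebraically closed (any characteristic) with `(M : k) ≠ 0`.

* `relrank_fullC_eq` : `[F̄_M : k(j̄)] = ψ(M)` (char-`ℓ` KEY0 upper bound with `RootsData` over `k`
  + S28 `keyLower_algClosed`), inside `k((q))`;
* `jbar k M : F̄_M`, `transcendental_jbar`, `rank_jbar`, `finrank_jbar`, `finiteDimensional_jbar`;
* `isSeparable_ratFunc` (from `Sep72`) and `isSeparable_jbar : Algebra.IsSeparable k⟮j̄⟯ F̄_M`;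
* `ratSettingBar k M hM : DW63.RatSetting k F̄_M (jbar k M)` (bundle of all DW63 instances),
  `finrank_ratFunc : finrank (RatFunc k) F̄_M = dedekindPsi M`;
* the tower `F̄_{M₀} ⊆ F̄_M` (`M₀ ∣ M`): `algTower`, `isScalarTower_tower`;
* exports for the special fibre (`HasPrincipalDivisors`, degree one places, Riemann).
Nothing here is a global instance.  No sorry.
-/
import Mathlib
import Fermat.Agent.S28.KeyLowerMain
import Fermat.Agent.S28.KEY0
import Fermat.Agent.S28.KeyUpper
import Fermat.Agent.S28.ModEq
import Fermat.Agent.S28.PrimeIrredMain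
import Fermat.Agent.S28.GaussRingRat
import Fermat.Agent.S18.DescentSigma74
import Fermat.Agent.S18.Sep72
import Fermat.Agent.S18.DW63.Transfer

set_option autoImplicit false
set_option linter.unusedSectionVars false
set_option linter.style.haveILetI false

open ModularCurve IntermediateField Module

noncomputable section

namespace Fermat.Agent.S18.Inst98

open Fermat.Agent.S28 Fermat.Agent.S28.KEY0 Fermat.Agent.S20

/-! ### Part 1: the exact degree `[F̄_M : k(j̄)] = ψ(M)` inside `k((q))` -/

section Degree

variable (k : Type) [Field k] [IsAlgClosed k]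

/-- primitive roots of unity of every order prime to the characteristic, as units. -/
theorem exists_primitiveRoot_unit (r : ℕ) [NeZero r] (hrk : (r : k) ≠ 0) :
    ∃ ζ : kˣ, IsPrimitiveRoot (ζ : k) r := by
  haveI : NeZero (r : k) := ⟨hrk⟩
  obtain ⟨z, hz⟩ := IsAlgClosed.exists_root (Polynomial.cyclotomic r k)
    (Polynomial.degree_cyclotomic_pos r k (Nat.pos_of_ne_zero (NeZero.ne r))).ne'
  have hz' : IsPrimitiveRoot z r := Polynomial.isRoot_cyclotomic_iff.1 hz
  exact ⟨(hz'.isUnit (NeZero.ne r)).unit, by rw [IsUnit.unit_spec]; exact hz'⟩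

/-- Roots data of a prime level `r` with `(r : k) ≠ 0` over an algebraically closed field. -/
def rootsData (r : ℕ) (hr : r.Prime) (hrk : (r : k) ≠ 0) : RootsData k r :=
  haveI : NeZero r := ⟨hr.ne_zero⟩
  DescentSigma74.rootsDataOfPrimitiveRoot r (modEqStatement r hr).some
    (exists_primitiveRoot_unit k r hrk).choose (exists_primitiveRoot_unit k r hrk).choose_spec

variable (M : ℕ) [NeZero M]

/-- **KEY0 over `k`**: `[F̄_M : k(j̄)] ≤ ψ(M)`. -/
theorem relrank_fullC_le (hM : (M : k) ≠ 0) :
    (k⟮jqModC k⟯).relrank (modularFunctionFieldFullC k M) ≤ (dedekindPsi M : Cardinal) := by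
  refine relrank_modularFunctionFieldFullC_le (K := k) (RingHom.id k) M
    (fun r hr hrM => rootsData k r hr (Sep72.natCast_ne_zero_of_dvd k hM hrM)) ?_
  intro p hp hpM
  haveI : NeZero p := ⟨hp.ne_zero⟩
  obtain ⟨-, -, -, -, h1, h2⟩ := P1.p1Statement p hp.two_le (modEqStatement p hp).some k
    (Sep72.natCast_ne_zero_of_dvd k hM hpM)
  have e : fieldTTp k p = k⟮jqModC k⟯ ⊔ k⟮tq k p⟯ := by
    unfold fieldTTp
    rw [tq_eq, ← adjoin_union]
    rfl
  rw [← e]
  have h1' : (k⟮jqModC k⟯).relrank (fieldTTp k p) = ((p + 1 : ℕ) : Cardinal) := h1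
  have h2' : (k⟮tq k p⟯).relrank (fieldTTp k p) = ((p + 1 : ℕ) : Cardinal) := by
    rw [tq_eq]
    exact h2
  rw [h1', h2']

/-- **`[F̄_M : k(j̄)] = ψ(M)`** over an algebraically closed field with `(M : k) ≠ 0`. -/
theorem relrank_fullC_eq (hM : (M : k) ≠ 0) :
    (k⟮jqModC k⟯).relrank (modularFunctionFieldFullC k M) = (dedekindPsi M : Cardinal) :=
  le_antisymm (relrank_fullC_le k M hM) (KeyLower.keyLower_algClosed modEqStatement k M hM)

end Degree

/-! ### Part 2: `j̄` as an element of `F̄_M`, transcendence, degree over `k⟮j̄⟯` -/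

section Jbar

variable (k : Type) [Field k] (M : ℕ) [NeZero M]

/-- `j̄ = jqModC k` as an element of `F̄_M`. -/
def jbar : ↥(modularFunctionFieldFullC k M) := ⟨jqModC k, jqModC_mem_full k M⟩

@[simp] theorem coe_jbar : ((jbar k M : ↥(modularFunctionFieldFullC k M)) : LaurentSeries k) =
    jqModC k := rfl

theorem transcendental_jbar : Transcendental k (jbar k M) := by
  have h := GaussRingRat.transcendental_jqModC k
  intro halg
  apply h
  have := halg.algebraMap (A := LaurentSeries k)
  simpa using this

/-- the image of `k⟮j̄⟯ ⊆ F̄_M` in `k((q))` is `k⟮jqModC k⟯`. -/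
theorem map_adjoin_jbar :
    (k⟮jbar k M⟯).map (modularFunctionFieldFullC k M).val = k⟮jqModC k⟯ := by
  rw [IntermediateField.adjoin_map, Set.image_singleton]
  rfl

/-- `Module.rank k⟮j̄⟯ F̄_M` is the relative rank inside `k((q))`. -/
theorem rank_jbar_eq_relrank :
    Module.rank ↥(k⟮jbar k M⟯) ↥(modularFunctionFieldFullC k M) =
      (k⟮jqModC k⟯).relrank (modularFunctionFieldFullC k M) := by
  rw [← IntermediateField.relrank_top_right,
    ← IntermediateField.relrank_map_map (k⟮jbar k M⟯) ⊤ (modularFunctionFieldFullC k M).val,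
    map_adjoin_jbar, ← AlgHom.fieldRange_eq_map, IntermediateField.fieldRange_val]

variable [IsAlgClosed k]

/-- **`[F̄_M : k⟮j̄⟯] = ψ(M)`** (cardinal form). -/
theorem rank_jbar (hM : (M : k) ≠ 0) :
    Module.rank ↥(k⟮jbar k M⟯) ↥(modularFunctionFieldFullC k M) = (dedekindPsi M : Cardinal) := by
  rw [rank_jbar_eq_relrank, relrank_fullC_eq k M hM]

theorem finiteDimensional_jbar (hM : (M : k) ≠ 0) :
    FiniteDimensional ↥(k⟮jbar k M⟯) ↥(modularFunctionFieldFullC k M) :=
  FiniteDimensional.of_rank_eq_nat (rank_jbar k M hM)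

/-- **`[F̄_M : k⟮j̄⟯] = ψ(M)`**. -/
theorem finrank_jbar (hM : (M : k) ≠ 0) :
    finrank ↥(k⟮jbar k M⟯) ↥(modularFunctionFieldFullC k M) = dedekindPsi M :=
  finrank_eq_of_rank_eq (rank_jbar k M hM)

end Jbar

/-! ### Part 3: the separable RatFunc setting on `F̄_M` -/

/-- separability transfers from `RatFunc K` (structure `T1Setup.algRat hx`) back to `K⟮x⟯`
(converse of `DW63.isSeparable_algRat`). -/
theorem isSeparable_adjoin_of_ratFunc {K F : Type*} [Field K] [Field F] [Algebra K F] {x : F}
    (hx : Transcendental K x)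
    (h : letI := T1Setup.algRat hx
      Algebra.IsSeparable (RatFunc K) F) :
    Algebra.IsSeparable ↥(K⟮x⟯) F := by
  letI := T1Setup.algRat hx
  haveI := h
  exact Algebra.IsSeparable.of_equiv_equiv
    ((RatFunc.algEquivOfTranscendental x hx).toRingEquiv : RatFunc K ≃+* ↥(K⟮x⟯))
    (RingEquiv.refl F) (T1Setup.comp_eq hx)

section Setting

open Polynomial

variable (k : Type) [Field k] (M : ℕ) [NeZero M]

/-- `X ↦ j̄` under the `RatFunc k`-algebra structure `T1Setup.algRat (transcendental_jbar k M)`. -/
theorem algebraMap_X_coe :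
    letI := T1Setup.algRat (transcendental_jbar k M)
    ((algebraMap (RatFunc k) ↥(modularFunctionFieldFullC k M) RatFunc.X :
      ↥(modularFunctionFieldFullC k M)) : LaurentSeries k) = jqModC k := by
  letI := T1Setup.algRat (transcendental_jbar k M)
  rw [T1Setup.algebraMap_X (transcendental_jbar k M)]
  rfl

/-- **Separability of `F̄_M / k(j̄)`, RatFunc form** (`Sep72`; `k` any field with `(M : k) ≠ 0`). -/
theorem isSeparable_ratFunc (hM : (M : k) ≠ 0) :
    letI := T1Setup.algRat (transcendental_jbar k M)
    Algebra.IsSeparable (RatFunc k) ↥(modularFunctionFieldFullC k M) := by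
  letI := T1Setup.algRat (transcendental_jbar k M)
  haveI := T1Setup.isScalarTower_K (transcendental_jbar k M)
  exact Sep72.algebra_isSeparable_ratFunc' k M hM (algebraMap_X_coe k M)

/-- **Separability of `F̄_M / k⟮j̄⟯`** (intermediate-field form, as consumed by the
`DW63.*_of_separating` lemmas). -/
theorem isSeparable_jbar (hM : (M : k) ≠ 0) :
    Algebra.IsSeparable ↥(k⟮jbar k M⟯) ↥(modularFunctionFieldFullC k M) :=
  isSeparable_adjoin_of_ratFunc (transcendental_jbar k M) (isSeparable_ratFunc k M hM)

variable [IsAlgClosed k]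

/-- **The bundled separable RatFunc setting of the special fibre** `F̄_M` over `k(j̄)`. -/
def ratSettingBar (hM : (M : k) ≠ 0) :
    DW63.RatSetting k ↥(modularFunctionFieldFullC k M) (jbar k M) :=
  haveI := finiteDimensional_jbar k M hM
  haveI := isSeparable_jbar k M hM
  DW63.ratSetting (K := k) (transcendental_jbar k M)

/-- `[F̄_M : RatFunc k] = ψ(M)` in the RatFunc setting (`hn₁`/`hn₀` of `GenusEq39`). -/
theorem finrank_ratFunc (hM : (M : k) ≠ 0) :
    letI := T1Setup.algRat (transcendental_jbar k M)
    finrank (RatFunc k) ↥(modularFunctionFieldFullC k M) = dedekindPsi M := by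
  letI := T1Setup.algRat (transcendental_jbar k M)
  rw [T1Setup.finrank_eq (transcendental_jbar k M), finrank_jbar k M hM]

theorem finiteDimensional_ratFunc (hM : (M : k) ≠ 0) :
    letI := T1Setup.algRat (transcendental_jbar k M)
    FiniteDimensional (RatFunc k) ↥(modularFunctionFieldFullC k M) :=
  haveI := finiteDimensional_jbar k M hM
  T1Setup.finiteDimensional (transcendental_jbar k M)

omit [IsAlgClosed k] in
theorem dedekindPsi_four : dedekindPsi 4 = 6 := by
  have h2 : dedekindPsi (2 * 1) = 3 := by
    rw [Psi.dedekindPsi_prime_mul Nat.prime_two one_ne_zero]; simp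
  have h4 : dedekindPsi (2 * 2) = 6 := by
    rw [Psi.dedekindPsi_prime_mul Nat.prime_two two_ne_zero, if_pos dvd_rfl]
    have : dedekindPsi 2 = 3 := h2
    rw [this]
  exact h4

omit [IsAlgClosed k] in
theorem dedekindPsi_nine : dedekindPsi 9 = 12 := by
  have h3 : dedekindPsi (3 * 1) = 4 := by
    rw [Psi.dedekindPsi_prime_mul Nat.prime_three one_ne_zero]; simp
  have h9 : dedekindPsi (3 * 3) = 12 := by
    rw [Psi.dedekindPsi_prime_mul Nat.prime_three three_ne_zero, if_pos dvd_rfl]
    have : dedekindPsi 3 = 4 := h3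
    rw [this]
  exact h9

end Setting

/-! ### Part 4: the tower `F̄_{M₀} ⊆ F̄_M` for `M₀ ∣ M` -/

section Tower

open Polynomial

variable (k : Type) [Field k] {M₀ M : ℕ} [NeZero M₀] [NeZero M] (h : M₀ ∣ M)

/-- the inclusion `F̄_{M₀} → F̄_M` as a `k`-algebra hom. -/
def inclBar : ↥(modularFunctionFieldFullC k M₀) →ₐ[k] ↥(modularFunctionFieldFullC k M) :=
  IntermediateField.inclusion (full_degeneracyC_le k h)

@[simp] theorem coe_inclBar (x : ↥(modularFunctionFieldFullC k M₀)) :
    ((inclBar k h x : ↥(modularFunctionFieldFullC k M)) : LaurentSeries k) = x :=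
  IntermediateField.coe_inclusion (full_degeneracyC_le k h) x

theorem inclBar_jbar : inclBar k h (jbar k M₀) = jbar k M :=
  Subtype.ext (coe_inclBar k h (jbar k M₀))

/-- `F̄_M` as an algebra over `F̄_{M₀}` (`M₀ ∣ M`). -/
@[reducible] def algTower :
    Algebra ↥(modularFunctionFieldFullC k M₀) ↥(modularFunctionFieldFullC k M) :=
  (inclBar k h).toRingHom.toAlgebra

theorem algebraMap_tower_apply (x : ↥(modularFunctionFieldFullC k M₀)) :
    letI := algTower k h
    algebraMap ↥(modularFunctionFieldFullC k M₀) ↥(modularFunctionFieldFullC k M) x =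
      inclBar k h x := rfl

theorem isScalarTower_tower_K :
    letI := algTower k h
    IsScalarTower k ↥(modularFunctionFieldFullC k M₀) ↥(modularFunctionFieldFullC k M) := by
  letI := algTower k h
  exact IsScalarTower.of_algebraMap_eq fun c => ((inclBar k h).commutes c).symm

/-- **The tower `RatFunc k → F̄_{M₀} → F̄_M`** commutes (both RatFunc structures send `X ↦ j̄`). -/
theorem isScalarTower_tower :
    letI := T1Setup.algRat (transcendental_jbar k M₀)
    letI := T1Setup.algRat (transcendental_jbar k M)
    letI := algTower k h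
    IsScalarTower (RatFunc k) ↥(modularFunctionFieldFullC k M₀)
      ↥(modularFunctionFieldFullC k M) := by
  letI := T1Setup.algRat (transcendental_jbar k M₀)
  letI := T1Setup.algRat (transcendental_jbar k M)
  letI := algTower k h
  refine IsScalarTower.of_algebraMap_eq' ?_
  apply IsLocalization.ringHom_ext (nonZeroDivisors k[X])
  refine RingHom.ext fun p => ?_
  show T1Setup.ratHom (transcendental_jbar k M) (algebraMap k[X] (RatFunc k) p) =
    inclBar k h (T1Setup.ratHom (transcendental_jbar k M₀) (algebraMap k[X] (RatFunc k) p))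
  rw [T1Setup.ratHom_algebraMap, T1Setup.ratHom_algebraMap, ← Polynomial.aeval_algHom_apply,
    inclBar_jbar]

end Tower

/-! ### Part 5: instance-free exports for the special fibre (Prelude places of `F̄_M / k`) -/

section Exports

open AlgebraicCurve
open Fermat.Agent.S18.Riemann12 (IsRiemannGenus gR)

variable (k : Type) [Field k] [IsAlgClosed k] (M : ℕ) [NeZero M] (hM : (M : k) ≠ 0)

include hM

/-- **`HasPrincipalDivisors k F̄_M`** (finitely many zeros and poles, `deg div f = 0`). -/
theorem hasPrincipalDivisors_bar : HasPrincipalDivisors k ↥(modularFunctionFieldFullC k M) :=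
  haveI := finiteDimensional_jbar k M hM
  haveI := isSeparable_jbar k M hM
  DW63.hasPrincipalDivisors_of_separating (transcendental_jbar k M)

theorem deg_eq_one_bar (v : Place k ↥(modularFunctionFieldFullC k M)) : v.deg = 1 :=
  haveI := finiteDimensional_jbar k M hM
  haveI := isSeparable_jbar k M hM
  DW63.deg_eq_one_of_separating (transcendental_jbar k M) v

theorem finite_residue_bar (v : Place k ↥(modularFunctionFieldFullC k M)) :
    Module.Finite k v.ResidueField :=
  haveI := finiteDimensional_jbar k M hM
  haveI := isSeparable_jbar k M hM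
  DW63.finite_residue_of_separating (transcendental_jbar k M) v

theorem isRiemannGenus_gR_bar :
    IsRiemannGenus k ↥(modularFunctionFieldFullC k M) (gR k ↥(modularFunctionFieldFullC k M)) :=
  haveI := finiteDimensional_jbar k M hM
  haveI := isSeparable_jbar k M hM
  DW63.isRiemannGenus_gR_of_separating (transcendental_jbar k M)

theorem gR_nonneg_bar : 0 ≤ gR k ↥(modularFunctionFieldFullC k M) :=
  haveI := finiteDimensional_jbar k M hM
  haveI := isSeparable_jbar k M hM
  DW63.gR_nonneg_of_separating (transcendental_jbar k M)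

/-- **Riemann's inequality** on the special fibre, all divisors. -/
theorem riemann_le_bar (G : Divisor k ↥(modularFunctionFieldFullC k M)) :
    Divisor.degree G + 1 - gR k ↥(modularFunctionFieldFullC k M) ≤
      (finrank k (riemannRochSpace G) : ℤ) :=
  haveI := finiteDimensional_jbar k M hM
  haveI := isSeparable_jbar k M hM
  DW63.riemann_le_of_separating (transcendental_jbar k M) G

/-- **Riemann's theorem** on the special fibre: equality in large degree. -/
theorem exists_riemann_eq_bar :
    ∃ c : ℤ, ∀ G : Divisor k ↥(modularFunctionFieldFullC k M), c ≤ Divisor.degree G →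
      (finrank k (riemannRochSpace G) : ℤ) =
        Divisor.degree G + 1 - gR k ↥(modularFunctionFieldFullC k M) :=
  haveI := finiteDimensional_jbar k M hM
  haveI := isSeparable_jbar k M hM
  DW63.exists_riemann_eq_of_separating (transcendental_jbar k M)

theorem finite_riemannRochSpace_bar (G : Divisor k ↥(modularFunctionFieldFullC k M)) :
    Module.Finite k (riemannRochSpace G) :=
  haveI := finiteDimensional_jbar k M hM
  haveI := isSeparable_jbar k M hM
  DW63.finite_riemannRochSpace_of_separating (transcendental_jbar k M) G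

/-- **The pole divisor of `j̄`** on `F̄_M`: `Ē v = max 0 (-ord_v j̄)`, `deg Ē = ψ(M)`. -/
theorem exists_poleDivisor_bar :
    ∃ E : Divisor k ↥(modularFunctionFieldFullC k M),
      (∀ v : Place k ↥(modularFunctionFieldFullC k M), E v = max 0 (-(v.ord (jbar k M)))) ∧
      Divisor.degree E = (dedekindPsi M : ℤ) := by
  haveI := finiteDimensional_jbar k M hM
  haveI := isSeparable_jbar k M hM
  obtain ⟨E, hE, hdeg⟩ := DW63.exists_poleDivisor_of_separating (transcendental_jbar k M)
  exact ⟨E, hE, by rw [hdeg, finrank_jbar k M hM]⟩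

/-- In the bundled setting, the Riemann genus of `F̄_M` is the Dedekind–Weber genus. -/
theorem gR_eq_dwGenus_bar :
    letI := (ratSettingBar k M hM).algRat
    letI := (ratSettingBar k M hM).algPoly
    haveI := (ratSettingBar k M hM).tower_K
    haveI := (ratSettingBar k M hM).tower_poly
    haveI := (ratSettingBar k M hM).fin
    haveI := (ratSettingBar k M hM).sep
    gR k ↥(modularFunctionFieldFullC k M) =
      (DW63.dwGenus k ↥(modularFunctionFieldFullC k M) : ℤ) := by
  letI := (ratSettingBar k M hM).algRat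
  letI := (ratSettingBar k M hM).algPoly
  haveI := (ratSettingBar k M hM).tower_K
  haveI := (ratSettingBar k M hM).tower_poly
  haveI := (ratSettingBar k M hM).fin
  haveI := (ratSettingBar k M hM).sep
  exact DW63.gR_eq k ↥(modularFunctionFieldFullC k M)

end Exports

end Fermat.Agent.S18.Inst98
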