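/-
S18 moonshot (blueprint 14), package [GAUSS]-INTEGRALITY (helper23).  Mathlib only.

The INTEGRALITY LEMMA of blueprint 14 in abstract form:
  `y ∈ L(rE)`, `W(y) ≥ 0`  ⟹  `ȳ ∈ L̄(r Ē)`.
-/
import Mathlib

set_option autoImplicit false

open Polynomial
open scoped Classical

noncomputable section

namespace Fermat.Agent.S18.Integrality23

/-! ### (A) generic: orthonormal basis ⟹ minimal polynomials of integral elements are integral -/

section Generic

variable {K F : Type*} [Field K] [Field F] [Algebra K F]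

/-- A `K`-basis `b` of `F` is orthonormal for the valuation subring `O` of `F`:
`∑ cᵢ bᵢ ∈ O` iff all `cᵢ ∈ O`. -/
def IsOrthonormal (O : ValuationSubring F) {n : ℕ} (b : Module.Basis (Fin n) K F) : Prop :=
  ∀ c : Fin n → K, (∑ i, c i • b i) ∈ O ↔ ∀ i, algebraMap K F (c i) ∈ O

variable {O : ValuationSubring F} {n : ℕ} {b : Module.Basis (Fin n) K F}

theorem IsOrthonormal.basis_mem (hb : IsOrthonormal O b) (j : Fin n) : b j ∈ O := by
  classical
  have h := (hb (fun i => if i = j then 1 else 0)).2 (fun i => by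
    by_cases hij : i = j <;> simp [hij, O.one_mem, O.zero_mem])
  simpa using h

theorem IsOrthonormal.leftMulMatrix_mem (hb : IsOrthonormal O b) {y : F} (hy : y ∈ O)
    (i j : Fin n) : algebraMap K F (Algebra.leftMulMatrix b y i j) ∈ O := by
  have h1 : y * b j ∈ O := O.mul_mem _ _ hy (hb.basis_mem j)
  have h2 : (∑ i, (b.repr (y * b j) i) • b i) = y * b j := b.sum_repr _
  rw [← h2] at h1
  have := (hb _).1 h1 i
  rwa [Algebra.leftMulMatrix_eq_repr_mul]

/-- **Theorem A.** With an orthonormal basis, every element of `O` is integral over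
`O ∩ K`. -/
theorem IsOrthonormal.isIntegral (hb : IsOrthonormal O b) {y : F} (hy : y ∈ O) :
    IsIntegral ↥(O.comap (algebraMap K F)) y := by
  classical
  let N : Matrix (Fin n) (Fin n) ↥(O.comap (algebraMap K F)) :=
    fun i j => ⟨Algebra.leftMulMatrix b y i j, hb.leftMulMatrix_mem hy i j⟩
  have hN : N.map (algebraMap ↥(O.comap (algebraMap K F)) K) = Algebra.leftMulMatrix b y := by
    ext i j; rfl
  refine ⟨N.charpoly, N.charpoly_monic, ?_⟩
  have h1 : (N.charpoly).map (algebraMap ↥(O.comap (algebraMap K F)) K)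
      = (Algebra.leftMulMatrix b y).charpoly := by
    rw [← hN, Matrix.charpoly_map]
  have h2 : aeval y ((Algebra.leftMulMatrix b y).charpoly) = 0 := by
    apply Algebra.leftMulMatrix_injective b
    rw [map_zero, ← Polynomial.aeval_algHom_apply, Matrix.aeval_self_charpoly]
  rw [← h1, aeval_map_algebraMap] at h2
  exact h2

/-- **Theorem A'.** With an orthonormal basis, the minimal polynomial over `K` of an element of
`O` has all its coefficients in `O`. -/
theorem IsOrthonormal.minpoly_coeff_mem (hb : IsOrthonormal O b) {y : F} (hy : y ∈ O) (i : ℕ) :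
    algebraMap K F ((minpoly K y).coeff i) ∈ O := by
  have hint := hb.isIntegral hy
  rw [minpoly.isIntegrallyClosed_eq_field_fractions' K hint, coeff_map]
  exact ((minpoly ↥(O.comap (algebraMap K F)) y).coeff i).2

end Generic

/-! ### (B) integrally closed subrings and scaling of minimal polynomials -/

section Scale

/-- Over an integrally closed domain `R` with fraction field `K`, the minimal polynomial over `K`
of an `R`-integral element has coefficients in `R`. -/
theorem minpoly_coeff_mem_range {R K F : Type*} [CommRing R] [IsDomain R] [Field K] [Field F]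
    [Algebra R K] [IsFractionRing R K] [IsIntegrallyClosed R] [Algebra K F] [Algebra R F]
    [IsScalarTower R K F] {y : F} (hy : IsIntegral R y) (i : ℕ) :
    (minpoly K y).coeff i ∈ (algebraMap R K).range := by
  rw [minpoly.isIntegrallyClosed_eq_field_fractions' K hy, coeff_map]
  exact ⟨_, rfl⟩

variable {K F : Type*} [Field K] [Field F] [Algebra K F]

/-- Scaling the element scales the roots of the minimal polynomial. -/
theorem minpoly_mul_eq_scaleRoots {y : F} (hy : IsIntegral K y) {u : K} (hu : u ≠ 0) :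
    minpoly K (algebraMap K F u * y) = (minpoly K y).scaleRoots u := by
  have hy' : IsIntegral K (algebraMap K F u * y) := isIntegral_algebraMap.mul hy
  have hmon : ((minpoly K y).scaleRoots u).Monic :=
    (monic_scaleRoots_iff u).2 (minpoly.monic hy)
  have hroot : aeval (algebraMap K F u * y) ((minpoly K y).scaleRoots u) = 0 :=
    scaleRoots_aeval_eq_zero (minpoly.aeval K y)
  have hdvd : minpoly K (algebraMap K F u * y) ∣ (minpoly K y).scaleRoots u :=
    minpoly.dvd K _ hroot
  have hroot' : aeval y ((minpoly K (algebraMap K F u * y)).scaleRoots u⁻¹) = 0 := by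
    have h := scaleRoots_aeval_eq_zero (r := u⁻¹) (minpoly.aeval K (algebraMap K F u * y))
    rwa [← mul_assoc, ← map_mul, inv_mul_cancel₀ hu, map_one, one_mul] at h
  have hdvd' : minpoly K y ∣ (minpoly K (algebraMap K F u * y)).scaleRoots u⁻¹ :=
    minpoly.dvd K _ hroot'
  have hmon' : ((minpoly K (algebraMap K F u * y)).scaleRoots u⁻¹).Monic :=
    (monic_scaleRoots_iff u⁻¹).2 (minpoly.monic hy')
  have hdeg : ((minpoly K y).scaleRoots u).natDegree
      ≤ (minpoly K (algebraMap K F u * y)).natDegree := by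
    rw [natDegree_scaleRoots]
    have := natDegree_le_of_dvd hdvd' hmon'.ne_zero
    rwa [natDegree_scaleRoots] at this
  exact (eq_of_monic_of_dvd_of_natDegree_le (minpoly.monic hy') hmon hdvd hdeg).symm

end Scale

/-! ### (C) the `RatFunc` setting -/

section Infty

variable {L : Type*} [Field L]

theorem mem_Oinf_iff {f : RatFunc L} :
    f ∈ (RatFunc.inftyValuation L).valuationSubring ↔ f = 0 ∨ f.intDegree ≤ 0 := by
  rw [Valuation.mem_valuationSubring_iff]
  by_cases hf : f = 0
  · simp [hf]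
  · rw [RatFunc.inftyValuation_apply, RatFunc.inftyValuation_of_nonzero L hf]
    simp [hf, ← WithZero.exp_zero, WithZero.exp_le_exp]

theorem intDegree_pow (f : RatFunc L) (e : ℕ) : (f ^ e).intDegree = e * f.intDegree := by
  by_cases hf : f = 0
  · rcases e with _ | e
    · simp
    · simp [hf]
  induction e with
  | zero => simp
  | succ e ih =>
    rw [pow_succ, RatFunc.intDegree_mul (pow_ne_zero _ hf) hf, ih]
    push_cast
    ring

theorem intDegree_X_inv_pow (e : ℕ) :
    ((RatFunc.X : RatFunc L)⁻¹ ^ e).intDegree = -(e : ℤ) := by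
  rw [intDegree_pow, RatFunc.intDegree_inv, RatFunc.intDegree_X]
  ring

/-- `c / X^e ∈ O_∞` forces `deg c ≤ e`. -/
theorem natDegree_le_of_mul_mem_Oinf {c : L[X]} {e : ℕ}
    (h : algebraMap L[X] (RatFunc L) c * (RatFunc.X : RatFunc L)⁻¹ ^ e
      ∈ (RatFunc.inftyValuation L).valuationSubring) : c.natDegree ≤ e := by
  by_cases hc : c = 0
  · simp [hc]
  have hc' : algebraMap L[X] (RatFunc L) c ≠ 0 := by
    simpa using (map_ne_zero_iff _ (RatFunc.algebraMap_injective L)).2 hc
  have hX : ((RatFunc.X : RatFunc L)⁻¹ ^ e) ≠ 0 := pow_ne_zero _ (inv_ne_zero RatFunc.X_ne_zero)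
  rcases mem_Oinf_iff.1 h with h0 | h0
  · exact absurd h0 (mul_ne_zero hc' hX)
  · rw [RatFunc.intDegree_mul hc' hX, RatFunc.intDegree_polynomial, intDegree_X_inv_pow] at h0
    omega

/-- `deg c ≤ e` gives `c / X^e ∈ O_∞`. -/
theorem mul_mem_Oinf_of_natDegree_le {c : L[X]} {e : ℕ} (h : c.natDegree ≤ e) :
    algebraMap L[X] (RatFunc L) c * (RatFunc.X : RatFunc L)⁻¹ ^ e
      ∈ (RatFunc.inftyValuation L).valuationSubring := by
  by_cases hc : c = 0
  · simp [hc]
  have hc' : algebraMap L[X] (RatFunc L) c ≠ 0 := by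
    simpa using (map_ne_zero_iff _ (RatFunc.algebraMap_injective L)).2 hc
  have hX : ((RatFunc.X : RatFunc L)⁻¹ ^ e) ≠ 0 := pow_ne_zero _ (inv_ne_zero RatFunc.X_ne_zero)
  refine mem_Oinf_iff.2 (Or.inr ?_)
  rw [RatFunc.intDegree_mul hc' hX, RatFunc.intDegree_polynomial, intDegree_X_inv_pow]
  omega

end Infty

section Main

variable {L F : Type*} [Field L] [Field F] [Algebra L F] [Algebra (RatFunc L) F]
  [IsScalarTower L (RatFunc L) F] [Algebra L[X] F] [IsScalarTower L[X] (RatFunc L) F]

/-- **Gauss hypothesis**: on polynomials in `x` the valuation subring `O` is the Gauss one. -/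
def IsGauss (L : Type*) {F : Type*} [Field L] [Field F] [Algebra L F] [Algebra L[X] F]
    (O : ValuationSubring F) : Prop :=
  ∀ p : L[X], algebraMap L[X] F p ∈ O ↔ ∀ i, algebraMap L F (p.coeff i) ∈ O

variable [FiniteDimensional (RatFunc L) F]

omit [IsScalarTower L (RatFunc L) F] in
/-- **Theorem C.** (`RatFunc` setting of S20/T1.)  Let `O` be a valuation subring of `F` which is
Gauss on `L[x]` and admits an orthonormal `L(x)`-basis.  If `y ∈ O` is integral over `L[x]` and
`y / x^r` is integral over the local ring at infinity, then the coefficients of the minimal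
polynomial of `y` over `L(x)` are polynomials `cᵢ ∈ L[x]` with coefficients in `O ∩ L` and
`deg cᵢ ≤ r (d - i)`. -/
theorem exists_integral_coeffs {O : ValuationSubring F} (hG : IsGauss L O) {n : ℕ}
    {b : Module.Basis (Fin n) (RatFunc L) F} (hb : IsOrthonormal O b) {y : F} (hy : y ∈ O)
    (hfin : IsIntegral L[X] y) (r : ℕ)
    (hinf : IsIntegral ↥(RatFunc.inftyValuation L).valuationSubring
      (algebraMap (RatFunc L) F ((RatFunc.X : RatFunc L)⁻¹ ^ r) * y)) :
    ∃ c : ℕ → L[X],
      (∀ i, algebraMap L[X] (RatFunc L) (c i) = (minpoly (RatFunc L) y).coeff i) ∧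
      (∀ i j, algebraMap L F ((c i).coeff j) ∈ O) ∧
      (∀ i, (c i).natDegree ≤ r * ((minpoly (RatFunc L) y).natDegree - i)) := by
  have hyK : IsIntegral (RatFunc L) y := Algebra.IsIntegral.isIntegral y
  have h1 : ∀ i, ∃ c : L[X],
      algebraMap L[X] (RatFunc L) c = (minpoly (RatFunc L) y).coeff i := fun i =>
    minpoly_coeff_mem_range (R := L[X]) (K := RatFunc L) hfin i
  choose c hc using h1
  refine ⟨c, hc, fun i j => ?_, fun i => ?_⟩
  · have h2 := hb.minpoly_coeff_mem hy i
    rw [← hc i, ← IsScalarTower.algebraMap_apply] at h2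
    exact (hG _).1 h2 j
  · have hu : ((RatFunc.X : RatFunc L)⁻¹ ^ r) ≠ 0 := pow_ne_zero _ (inv_ne_zero RatFunc.X_ne_zero)
    have h3 := minpoly_coeff_mem_range
      (R := ↥(RatFunc.inftyValuation L).valuationSubring) (K := RatFunc L) hinf i
    rw [minpoly_mul_eq_scaleRoots hyK hu, coeff_scaleRoots, ← hc i, ← pow_mul] at h3
    obtain ⟨z, hz⟩ := h3
    apply natDegree_le_of_mul_mem_Oinf
    rw [← hz]
    exact z.2

omit [IsScalarTower L (RatFunc L) F] in
/-- **Theorem C'.** Same hypotheses; the conclusion as an explicit monic relation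
`y^d + ∑_{i<d} cᵢ(x) yⁱ = 0` with `cᵢ ∈ (O ∩ L)[x]`, `deg cᵢ ≤ r (d - i)`. -/
theorem exists_relation {O : ValuationSubring F} (hG : IsGauss L O) {n : ℕ}
    {b : Module.Basis (Fin n) (RatFunc L) F} (hb : IsOrthonormal O b) {y : F} (hy : y ∈ O)
    (hfin : IsIntegral L[X] y) (r : ℕ)
    (hinf : IsIntegral ↥(RatFunc.inftyValuation L).valuationSubring
      (algebraMap (RatFunc L) F ((RatFunc.X : RatFunc L)⁻¹ ^ r) * y)) :
    ∃ (d : ℕ) (c : Fin d → L[X]), 0 < d ∧
      (∀ i j, algebraMap L F ((c i).coeff j) ∈ O) ∧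
      (∀ i : Fin d, (c i).natDegree ≤ r * (d - (i : ℕ))) ∧
      y ^ d + ∑ i : Fin d, algebraMap L[X] F (c i) * y ^ (i : ℕ) = 0 := by
  obtain ⟨c, hc, hcO, hcdeg⟩ := exists_integral_coeffs hG hb hy hfin r hinf
  have hyK : IsIntegral (RatFunc L) y := Algebra.IsIntegral.isIntegral y
  set μ := minpoly (RatFunc L) y with hμ
  refine ⟨μ.natDegree, fun i => c i, minpoly.natDegree_pos hyK, fun i j => hcO i j,
    fun i => hcdeg i, ?_⟩
  have h0 : aeval y μ = 0 := minpoly.aeval _ _
  rw [aeval_eq_sum_range, Finset.sum_range_succ, (minpoly.monic hyK).coeff_natDegree, one_smul,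
    Finset.sum_range] at h0
  rw [add_comm]
  convert h0 using 2
  refine Finset.sum_congr rfl fun i _ => ?_
  rw [Algebra.smul_def, ← hc i, ← IsScalarTower.algebraMap_apply]

end Main

/-! ### (D) from a relation to integrality (any field `k`) -/

section Relation

variable {k Fb : Type*} [Field k] [Field Fb] [Algebra k[X] Fb]

/-- A monic relation with coefficients in `k[x]` gives integrality over `k[x]`. -/
theorem isIntegral_of_relation {d : ℕ} (c : Fin d → k[X]) {y : Fb}
    (hrel : y ^ d + ∑ i : Fin d, algebraMap k[X] Fb (c i) * y ^ (i : ℕ) = 0) :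
    IsIntegral k[X] y := by
  refine ⟨X ^ d + ∑ i : Fin d, C (c i) * X ^ (i : ℕ), monic_X_pow_add (degree_sum_fin_lt c), ?_⟩
  rw [eval₂_add, eval₂_pow, eval₂_X, eval₂_finsetSum]
  simp only [eval₂_mul, eval₂_C, eval₂_pow, eval₂_X]
  exact hrel

variable [Algebra (RatFunc k) Fb] [IsScalarTower k[X] (RatFunc k) Fb]

/-- A monic relation with `deg cᵢ ≤ r (d - i)` gives integrality of `y / x^r` over the local ring
at infinity. -/
theorem isIntegral_infty_of_relation {d r : ℕ} (c : Fin d → k[X])
    (hdeg : ∀ i : Fin d, (c i).natDegree ≤ r * (d - (i : ℕ))) {y : Fb}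
    (hrel : y ^ d + ∑ i : Fin d, algebraMap k[X] Fb (c i) * y ^ (i : ℕ) = 0) :
    IsIntegral ↥(RatFunc.inftyValuation k).valuationSubring
      (algebraMap (RatFunc k) Fb ((RatFunc.X : RatFunc k)⁻¹ ^ r) * y) := by
  set u : RatFunc k := (RatFunc.X : RatFunc k)⁻¹ ^ r with hu
  let e : Fin d → ↥(RatFunc.inftyValuation k).valuationSubring := fun i =>
    ⟨algebraMap k[X] (RatFunc k) (c i) * (RatFunc.X : RatFunc k)⁻¹ ^ (r * (d - (i : ℕ))),
      mul_mem_Oinf_of_natDegree_le (hdeg i)⟩
  refine ⟨X ^ d + ∑ i : Fin d, C (e i) * X ^ (i : ℕ), monic_X_pow_add (degree_sum_fin_lt e), ?_⟩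
  rw [eval₂_add, eval₂_pow, eval₂_X, eval₂_finsetSum]
  simp only [eval₂_mul, eval₂_C, eval₂_pow, eval₂_X]
  have hterm : ∀ i : Fin d,
      algebraMap ↥(RatFunc.inftyValuation k).valuationSubring Fb (e i)
        * (algebraMap (RatFunc k) Fb u * y) ^ (i : ℕ)
      = algebraMap (RatFunc k) Fb u ^ d * (algebraMap k[X] Fb (c i) * y ^ (i : ℕ)) := by
    intro i
    have h1 : algebraMap ↥(RatFunc.inftyValuation k).valuationSubring Fb (e i)
        = algebraMap k[X] Fb (c i) * algebraMap (RatFunc k) Fb u ^ (d - (i : ℕ)) := by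
      show algebraMap (RatFunc k) Fb
          (algebraMap k[X] (RatFunc k) (c i) * (RatFunc.X : RatFunc k)⁻¹ ^ (r * (d - (i : ℕ)))) = _
      rw [map_mul, ← IsScalarTower.algebraMap_apply, pow_mul, map_pow, hu]
    have h2 : algebraMap (RatFunc k) Fb u ^ d
        = algebraMap (RatFunc k) Fb u ^ (d - (i : ℕ)) * algebraMap (RatFunc k) Fb u ^ (i : ℕ) := by
      rw [← pow_add]
      congr 1
      have := i.2
      omega
    rw [h1, mul_pow, h2]
    ring
  rw [Finset.sum_congr rfl (fun i _ => hterm i), ← Finset.mul_sum, mul_pow, ← mul_add, hrel,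
    mul_zero]

end Relation

/-! ### (E) reduction of a relation along `O → F̄` -/

section Reduce

variable {L F k Fb : Type*} [Field L] [Field F] [Algebra L F] [Algebra L[X] F]
  [IsScalarTower L L[X] F] [Field k] [Field Fb] [Algebra k Fb] [Algebra k[X] Fb]
  [IsScalarTower k k[X] Fb]

/-- the inclusion `O ∩ L → O` -/
def inclO (O : ValuationSubring F) : ↥(O.comap (algebraMap L F)) →+* ↥O :=
  ((algebraMap L F).comp (O.comap (algebraMap L F)).subtype).codRestrict O.toSubring
    (fun a => a.2)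

omit [Algebra L[X] F] [IsScalarTower L L[X] F] in
@[simp] theorem coe_inclO (O : ValuationSubring F) (a : ↥(O.comap (algebraMap L F))) :
    ((inclO (L := L) O a : ↥O) : F) = algebraMap L F (a : L) := rfl

/-- **Theorem E.** A relation `y^d + ∑ cᵢ(x) yⁱ = 0` in `O` with `cᵢ ∈ (O ∩ L)[x]` and
`deg cᵢ ≤ r(d-i)` reduces, along any ring homomorphism `φ : O → F̄` compatible with a ring
homomorphism `ψ : O ∩ L → k` and sending `x` to `x̄`, to a relation of the same shape over `k`. -/
theorem reduce_relation {O : ValuationSubring F} (φ : ↥O →+* Fb)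
    (ψ : ↥(O.comap (algebraMap L F)) →+* k)
    (hconst : ∀ a : ↥(O.comap (algebraMap L F)), φ (inclO O a) = algebraMap k Fb (ψ a))
    (hx : algebraMap L[X] F X ∈ O)
    (hφx : φ ⟨algebraMap L[X] F X, hx⟩ = algebraMap k[X] Fb X)
    {d r : ℕ} (c : Fin d → L[X]) (hcO : ∀ i j, algebraMap L F ((c i).coeff j) ∈ O)
    (hdeg : ∀ i : Fin d, (c i).natDegree ≤ r * (d - (i : ℕ)))
    {y : F} (hy : y ∈ O)
    (hrel : y ^ d + ∑ i : Fin d, algebraMap L[X] F (c i) * y ^ (i : ℕ) = 0) :
    ∃ cb : Fin d → k[X], (∀ i : Fin d, (cb i).natDegree ≤ r * (d - (i : ℕ))) ∧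
      (φ ⟨y, hy⟩) ^ d + ∑ i : Fin d, algebraMap k[X] Fb (cb i) * (φ ⟨y, hy⟩) ^ (i : ℕ) = 0 := by
  set xO : ↥O := ⟨algebraMap L[X] F X, hx⟩ with hxO
  have hΦ : φ.comp (eval₂RingHom (inclO (L := L) O) xO)
      = (algebraMap k[X] Fb).comp (mapRingHom ψ) := by
    refine ringHom_ext (fun a => ?_) ?_
    · simp only [RingHom.comp_apply, coe_eval₂RingHom, eval₂_C, coe_mapRingHom, map_C]
      rw [hconst, C_eq_algebraMap, ← IsScalarTower.algebraMap_apply]
    · simp only [RingHom.comp_apply, coe_eval₂RingHom, eval₂_X, coe_mapRingHom, map_X]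
      exact hφx
  have hΨ : O.subtype.comp (eval₂RingHom (inclO (L := L) O) xO)
      = (algebraMap L[X] F).comp (mapRingHom (O.comap (algebraMap L F)).subtype) := by
    refine ringHom_ext (fun a => ?_) ?_
    · simp only [RingHom.comp_apply, coe_eval₂RingHom, eval₂_C, coe_mapRingHom, map_C]
      rw [C_eq_algebraMap, ← IsScalarTower.algebraMap_apply]
      rfl
    · simp only [RingHom.comp_apply, coe_eval₂RingHom, eval₂_X, coe_mapRingHom, map_X]
      rfl
  have hlift : ∀ i : Fin d, ∃ q : (↥(O.comap (algebraMap L F)))[X],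
      q.map (O.comap (algebraMap L F)).subtype = c i := by
    intro i
    have : c i ∈ lifts (O.comap (algebraMap L F)).subtype := by
      rw [lifts_iff_coeff_lifts]
      intro j
      exact ⟨⟨(c i).coeff j, hcO i j⟩, rfl⟩
    exact (mem_lifts _).1 this
  choose q hq using hlift
  refine ⟨fun i => (q i).map ψ, fun i => ?_, ?_⟩
  · refine (natDegree_map_le).trans ?_
    have : (q i).natDegree = (c i).natDegree := by
      rw [← hq i, natDegree_map_eq_of_injective (O.comap (algebraMap L F)).subtype_injective]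
    rw [this]
    exact hdeg i
  · have hrelO : (⟨y, hy⟩ : ↥O) ^ d
        + ∑ i : Fin d, eval₂RingHom (inclO (L := L) O) xO (q i) * (⟨y, hy⟩ : ↥O) ^ (i : ℕ) = 0 := by
      apply Subtype.ext
      have hcoe : ∀ i : Fin d,
          ((eval₂RingHom (inclO (L := L) O) xO (q i) : ↥O) : F) = algebraMap L[X] F (c i) := by
        intro i
        have := RingHom.congr_fun hΨ (q i)
        simp only [RingHom.comp_apply, coe_mapRingHom, hq i] at this
        exact this
      push_cast
      simp only [hcoe]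
      exact hrel
    have h := congrArg φ hrelO
    rw [map_add, map_pow, map_sum, map_zero] at h
    convert h using 2
    refine Finset.sum_congr rfl fun i _ => ?_
    rw [map_mul, map_pow]
    congr 1
    have := RingHom.congr_fun hΦ (q i)
    simp only [RingHom.comp_apply, coe_mapRingHom] at this
    exact this.symm

end Reduce

/-! ### (F) the INTEGRALITY LEMMA, assembled -/

section Assembled

variable {L F k Fb : Type*} [Field L] [Field F] [Algebra L F] [Algebra (RatFunc L) F]
  [Algebra L[X] F] [IsScalarTower L[X] (RatFunc L) F] [IsScalarTower L L[X] F]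
  [FiniteDimensional (RatFunc L) F]
  [Field k] [Field Fb] [Algebra k Fb] [Algebra (RatFunc k) Fb] [Algebra k[X] Fb]
  [IsScalarTower k[X] (RatFunc k) Fb] [IsScalarTower k k[X] Fb]

omit [Algebra (RatFunc L) F] [IsScalarTower L[X] (RatFunc L) F] [IsScalarTower L L[X] F]
  [FiniteDimensional (RatFunc L) F] in
theorem IsGauss.X_mem {O : ValuationSubring F} (hG : IsGauss L O) :
    algebraMap L[X] F X ∈ O := by
  refine (hG X).2 fun i => ?_
  rw [coeff_X]
  split_ifs
  · rw [map_one]; exact O.one_mem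
  · rw [map_zero]; exact O.zero_mem

/-- **INTEGRALITY LEMMA (blueprint 14).**  `RatFunc` settings `F / L(x)` and `F̄ / k(x̄)`;
`O` a valuation subring of `F`, Gauss on `L[x]`, with an orthonormal `L(x)`-basis;
`φ : O → F̄`, `ψ : O ∩ L → k` compatible ring homomorphisms with `φ x = x̄`.
If `y ∈ O` lies in `L(rE)` (i.e. `y` integral over `L[x]` and `y/x^r` integral over `O_∞`), then
`φ y` lies in `L̄(r Ē)` (same two integrality statements over `k`). -/
theorem integrality_lemma {O : ValuationSubring F} (hG : IsGauss L O) {n : ℕ}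
    {b : Module.Basis (Fin n) (RatFunc L) F} (hb : IsOrthonormal O b)
    (φ : ↥O →+* Fb) (ψ : ↥(O.comap (algebraMap L F)) →+* k)
    (hconst : ∀ a : ↥(O.comap (algebraMap L F)), φ (inclO O a) = algebraMap k Fb (ψ a))
    (hφx : φ ⟨algebraMap L[X] F X, hG.X_mem⟩ = algebraMap k[X] Fb X)
    {y : F} (hy : y ∈ O) (hfin : IsIntegral L[X] y) (r : ℕ)
    (hinf : IsIntegral ↥(RatFunc.inftyValuation L).valuationSubring
      (algebraMap (RatFunc L) F ((RatFunc.X : RatFunc L)⁻¹ ^ r) * y)) :
    IsIntegral k[X] (φ ⟨y, hy⟩) ∧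
      IsIntegral ↥(RatFunc.inftyValuation k).valuationSubring
        (algebraMap (RatFunc k) Fb ((RatFunc.X : RatFunc k)⁻¹ ^ r) * φ ⟨y, hy⟩) := by
  obtain ⟨d, c, -, hcO, hdeg, hrel⟩ := exists_relation hG hb hy hfin r hinf
  obtain ⟨cb, hcbdeg, hrelb⟩ :=
    reduce_relation φ ψ hconst hG.X_mem hφx c hcO hdeg hy hrel
  exact ⟨isIntegral_of_relation cb hrelb, isIntegral_infty_of_relation cb hcbdeg hrelb⟩

end Assembled

/-! ### (G) valuation-subring (place) form of the conclusion -/

section PlaceForm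

variable {Fb : Type*} [Field Fb]

/-- a root of a monic polynomial with coefficients in a valuation subring lies in it -/
theorem mem_of_monic_relation (V : ValuationSubring Fb) {d : ℕ} (a : Fin d → Fb)
    (ha : ∀ i, a i ∈ V) {t : Fb} (hrel : t ^ d + ∑ i : Fin d, a i * t ^ (i : ℕ) = 0) : t ∈ V := by
  by_contra ht
  have hv : 1 < V.valuation t := by
    rw [← not_le]
    exact fun h => ht ((V.valuation_le_one_iff t).1 h)
  have hvd : V.valuation (t ^ d) ≠ 0 := by
    rw [map_pow]
    exact pow_ne_zero _ (ne_of_gt (lt_trans zero_lt_one hv))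
  have hlt : V.valuation (∑ i : Fin d, a i * t ^ (i : ℕ)) < V.valuation (t ^ d) := by
    refine Valuation.map_sum_lt _ hvd fun i _ => ?_
    rw [map_mul, map_pow, map_pow]
    calc V.valuation (a i) * V.valuation t ^ (i : ℕ)
        ≤ 1 * V.valuation t ^ (i : ℕ) := by
          gcongr
          exact (V.valuation_le_one_iff _).2 (ha i)
      _ = V.valuation t ^ (i : ℕ) := one_mul _
      _ < V.valuation t ^ d := pow_lt_pow_right₀ hv i.2
  have := V.valuation.map_add_eq_of_lt_left hlt
  rw [hrel, map_zero] at this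
  exact hvd this.symm

variable {k : Type*} [Field k] [Algebra k[X] Fb]

theorem algebraMap_poly_mem (V : ValuationSubring Fb)
    (hk : ∀ a : k, algebraMap k[X] Fb (C a) ∈ V) (hx : algebraMap k[X] Fb X ∈ V) (p : k[X]) :
    algebraMap k[X] Fb p ∈ V := by
  induction p using Polynomial.induction_on' with
  | add p q hp hq => rw [map_add]; exact V.add_mem _ _ hp hq
  | monomial n a =>
    rw [← C_mul_X_pow_eq_monomial, map_mul, map_pow]
    exact V.mul_mem _ _ (hk a) (pow_mem hx n)

/-- `p(x) / x^e ∈ V` when `x⁻¹ ∈ V` and `deg p ≤ e`. -/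
theorem algebraMap_poly_mul_inv_pow_mem (V : ValuationSubring Fb)
    (hk : ∀ a : k, algebraMap k[X] Fb (C a) ∈ V) (hx : (algebraMap k[X] Fb X)⁻¹ ∈ V)
    (hx0 : algebraMap k[X] Fb X ≠ 0) (p : k[X]) {e : ℕ} (hp : p.natDegree ≤ e) :
    algebraMap k[X] Fb p * (algebraMap k[X] Fb X)⁻¹ ^ e ∈ V := by
  rw [p.as_sum_range_C_mul_X_pow, map_sum, Finset.sum_mul]
  refine sum_mem fun j hj => ?_
  have hje : j ≤ e := (Nat.lt_succ_iff.1 (Finset.mem_range.1 hj)).trans hp
  have : algebraMap k[X] Fb (C (p.coeff j) * X ^ j) * (algebraMap k[X] Fb X)⁻¹ ^ e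
      = algebraMap k[X] Fb (C (p.coeff j)) * (algebraMap k[X] Fb X)⁻¹ ^ (e - j) := by
    rw [map_mul, map_pow, mul_assoc]
    congr 1
    have he : e = j + (e - j) := by omega
    conv_lhs => rw [he, pow_add, ← mul_assoc, ← mul_pow, mul_inv_cancel₀ hx0, one_pow, one_mul]
  rw [this]
  exact V.mul_mem _ _ (hk _) (pow_mem hx _)

/-- **Place form.** From a monic relation `y^d + ∑ cᵢ(x) yⁱ = 0` over `k[x]` with
`deg cᵢ ≤ r(d-i)`: for every valuation subring `V ⊇ k` of `F̄`,
`x ∈ V → y ∈ V` and `x ∉ V → y / x^r ∈ V`. -/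
theorem mem_valuationSubring_of_relation (V : ValuationSubring Fb)
    (hk : ∀ a : k, algebraMap k[X] Fb (C a) ∈ V) {d r : ℕ} (c : Fin d → k[X])
    (hdeg : ∀ i : Fin d, (c i).natDegree ≤ r * (d - (i : ℕ))) {y : Fb}
    (hrel : y ^ d + ∑ i : Fin d, algebraMap k[X] Fb (c i) * y ^ (i : ℕ) = 0) :
    (algebraMap k[X] Fb X ∈ V → y ∈ V) ∧
      (algebraMap k[X] Fb X ∉ V → (algebraMap k[X] Fb X)⁻¹ ^ r * y ∈ V) := by
  constructor
  · intro hx
    exact mem_of_monic_relation V (fun i => algebraMap k[X] Fb (c i))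
      (fun i => algebraMap_poly_mem V hk hx (c i)) hrel
  · intro hx
    have hx0 : algebraMap k[X] Fb X ≠ 0 := fun h => hx (h ▸ V.zero_mem)
    have hxi : (algebraMap k[X] Fb X)⁻¹ ∈ V := (V.mem_or_inv_mem _).resolve_left hx
    set u : Fb := (algebraMap k[X] Fb X)⁻¹ ^ r with hu
    refine mem_of_monic_relation V
      (fun i => algebraMap k[X] Fb (c i) * (algebraMap k[X] Fb X)⁻¹ ^ (r * (d - (i : ℕ))))
      (fun i => algebraMap_poly_mul_inv_pow_mem V hk hxi hx0 (c i) (hdeg i)) ?_
    have hterm : ∀ i : Fin d,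
        algebraMap k[X] Fb (c i) * (algebraMap k[X] Fb X)⁻¹ ^ (r * (d - (i : ℕ))) * (u * y) ^ (i : ℕ)
          = u ^ d * (algebraMap k[X] Fb (c i) * y ^ (i : ℕ)) := by
      intro i
      have h2 : u ^ d = u ^ (d - (i : ℕ)) * u ^ (i : ℕ) := by
        rw [← pow_add]
        congr 1
        have := i.2
        omega
      rw [pow_mul, ← hu, mul_pow, h2]
      ring
    rw [Finset.sum_congr rfl (fun i _ => hterm i), ← Finset.mul_sum, mul_pow, ← mul_add, hrel,
      mul_zero]

end PlaceForm

end Fermat.Agent.S18.Integrality23
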