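/-
S18 moonshot (blueprint 14 / Spine33 (6)(b)), package [KLEMMA]-ADAPTER, part 3 (helper73).

Same as `KAdapter73`, but the SPECIAL FIBRE enters only through an ABSTRACT family of `k`-subspaces
`Pb a b ≤ Fb` (no places / divisors on the special fibre): one needs `1 ∈ Pb a b`, root extraction
`z ^ m ∈ Pb (m a) (m b) → z ∈ Pb a b`, INTEGRALITY (`hint`), equality of dimensions (`hdim`) and the
sum decomposition (`hsplit`).  E.g. `Pb a b = {z | tbar^b z integral over k[tbar], z / tbar^a integral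
over O_oo}` (normal-basis description).
-/
import Mathlib
import Fermat.Prelude.Def_AlgebraicCurve_Repartitions
import Fermat.Agent.S18.KCore73
import Fermat.Agent.S18.KDiv73
import Fermat.Agent.S18.KGauss73

set_option autoImplicit false

namespace Fermat.Agent.S18.KAdapter73b

open AlgebraicCurve WithZero
open Fermat.Agent.S18.KCore73 Fermat.Agent.S18.KDiv73 Fermat.Agent.S18.KGauss73
open Fermat.Agent.S18.KGauss73.GaussData

variable {L F k Fb Γ₀ : Type*} [Field L] [Field F] [Algebra L F] [Field k] [Field Fb]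
  [Algebra k Fb] [LinearOrderedCommGroupWithZero Γ₀]

section Main

variable {w : Valuation F Γ₀} (G : GaussData (L := L) w k Fb)
  {E E' D : Divisor L F} {Pb : ℕ → ℕ → Submodule k Fb} {m : ℕ} {f : F}

/-- (O1): integral elements of the twisted space `L(aE + bE' - D)` reduce into the untwisted
space `Pb a b`. -/
theorem redF_mem_Pb_of_mem_P1 (hm : w (m : F) = 1) (hf : w (f - 1) < 1)
    (hroot : ∀ (a b : ℕ) (z : Fb), z ^ m ∈ Pb (m * a) (m * b) → z ∈ Pb a b)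
    (hdiv : ∀ v : Place L F, v.ord f = (m : ℤ) * D v)
    (hint : ∀ (a b : ℕ) (y : F), y ∈ P0 E E' a b → w y ≤ 1 → G.redF y ∈ Pb a b)
    {a b : ℕ} {y : F} (hy : y ∈ P1 E E' D a b) (hy1 : w y ≤ 1) :
    G.redF y ∈ Pb a b := by
  have hwf : w f = 1 := val_eq_one_of_sub_one_lt w hf
  have hf0 : f ≠ 0 := by
    intro h
    rw [h, map_zero] at hwf
    exact zero_ne_one hwf
  have hm0 : m ≠ 0 := by
    intro h
    rw [h, Nat.cast_zero, map_zero] at hm
    exact zero_ne_one hm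
  have hmem : y ^ m / f ∈ P0 E E' (m * a) (m * b) := pow_mem_P0 hf0 hdiv hy
  have hym : w (y ^ m) ≤ 1 := by rw [map_pow]; exact pow_le_one' hy1 m
  have hfinv : w (f⁻¹ - 1) < 1 := by
    have : f⁻¹ - 1 = -(f - 1) * f⁻¹ := by field_simp; ring
    rw [this, map_mul, Valuation.map_neg, map_inv₀, hwf, inv_one, mul_one]
    exact hf
  have hfinv1 : w f⁻¹ ≤ 1 := by rw [map_inv₀, hwf, inv_one]
  have hw1 : w (y ^ m / f) ≤ 1 := by
    rw [div_eq_mul_inv, map_mul]; exact mul_le_one' hym hfinv1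
  have hred := hint _ _ _ hmem hw1
  rw [div_eq_mul_inv, G.redF_mul hym hfinv1, G.redF_eq_one_of_sub_one_lt hfinv, mul_one,
    G.redF_pow hy1] at hred
  exact hroot _ _ _ hred

/-- The adapter: `KData` from reduction data. -/
theorem kdata_of
    (hE : ∀ v, 0 ≤ E v) (hE' : ∀ v, 0 ≤ E' v) (hdisj : ∀ v, E v = 0 ∨ E' v = 0)
    (hone : ∀ a b : ℕ, (1 : Fb) ∈ Pb a b)
    (hroot : ∀ (a b : ℕ) (z : Fb), z ^ m ∈ Pb (m * a) (m * b) → z ∈ Pb a b)
    (hm : w (m : F) = 1) (hf : w (f - 1) < 1)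
    (hdiv : ∀ v : Place L F, v.ord f = (m : ℤ) * D v)
    (hval : ∀ y : F, y ≠ 0 → ∃ c : L, w (algebraMap L F c) = w y)
    (harch : ∀ x : F, w x < 1 → ∀ δ : L, δ ≠ 0 → ∃ n : ℕ, w x ^ n < w (algebraMap L F δ))
    (hint : ∀ (a b : ℕ) (y : F), y ∈ P0 E E' a b → w y ≤ 1 → G.redF y ∈ Pb a b)
    (hfin : ∀ a b : ℕ, Module.Finite L (P1 E E' D a b))
    (hfinb : ∀ a b : ℕ, Module.Finite k (Pb a b))
    {c0 : ℕ}
    (hdim : ∀ a b : ℕ, c0 ≤ a + b →
      Module.finrank L (P1 E E' D a b) = Module.finrank k (Pb a b))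
    (hsplit : ∀ a' b' : ℕ, c0 ≤ a' → c0 ≤ b' →
      Pb a' b' ≤ Pb c0 c0 ⊔ Pb a' 0 ⊔ Pb 0 b') :
    KData w m f (P0 E E') (P1 E E' D) c0 := by
  have hwf : w f = 1 := val_eq_one_of_sub_one_lt w hf
  have hf0 : f ≠ 0 := by
    intro h
    rw [h, map_zero] at hwf
    exact zero_ne_one hwf
  have hred1 : ∀ (a b : ℕ) (y : F), y ∈ P1 E E' D a b → w y ≤ 1 → G.redF y ∈ Pb a b :=
    fun a b y hy hy1 => redF_mem_Pb_of_mem_P1 G hm hf hroot hdiv hint hy hy1
  -- lifting lemma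
  have hlift : ∀ a b : ℕ, c0 ≤ a + b → ∀ z ∈ Pb a b,
      ∃ y ∈ P1 E E' D a b, w y ≤ 1 ∧ G.redF y = z := by
    intro a b hab z hz
    have := hfin a b
    have := hfinb a b
    exact exists_lift_of_finrank_eq G _ _ (hred1 a b) (hdim a b hab) z hz
  refine
    { hm := hm
      hf := hf
      hval := hval
      harch := harch
      mono := fun ha hb => P1_mono hE hE' ha hb
      one_mem := fun a b => one_mem_P0 hE hE' a b
      mul_mem := fun hx hy => mul_mem_P1 hx hy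
      pow_mem := fun hy => pow_mem_P0 hf0 hdiv hy
      polar := fun ha hb hξ hη hd => polar hE hE' hdisj ha hb hξ hη hd
      lift_left := ?_
      lift_right := ?_
      split := ?_
      fg := ?_ }
  · obtain ⟨y, hy, hy1, hyr⟩ := hlift c0 0 (by omega) 1 (hone c0 0)
    exact ⟨y, hy, G.sub_one_lt_of_redF_eq_one hy1 hyr⟩
  · obtain ⟨y, hy, hy1, hyr⟩ := hlift 0 c0 (by omega) 1 (hone 0 c0)
    exact ⟨y, hy, G.sub_one_lt_of_redF_eq_one hy1 hyr⟩
  · intro a' b' ha' hb' y hy hy1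
    have := hfin a' b'
    obtain ⟨n, g, hgV, hg1, hgen, hortho⟩ := G.lattice (P1 E E' D a' b') (hfin a' b')
    have hli : LinearIndependent L g := linearIndependent_of_ortho hortho
    have hfr : Module.finrank L (P1 E E' D a' b') = n := by
      rw [← span_eq_of_generates hgV hgen, finrank_span_eq_card hli, Fintype.card_fin]
    -- decompose the reductions
    have hdec : ∀ j : Fin n, ∃ y0 ∈ P1 E E' D c0 c0, ∃ yU ∈ P1 E E' D a' 0,
        ∃ yV ∈ P1 E E' D 0 b', w y0 ≤ 1 ∧ w yU ≤ 1 ∧ w yV ≤ 1 ∧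
          G.redF (y0 + yU + yV) = G.redF (g j) := by
      intro j
      have hz := hsplit a' b' ha' hb' (hred1 a' b' (g j) (hgV j) (hg1 j))
      obtain ⟨z0U, hz0U, zV, hzV, hsum⟩ := Submodule.mem_sup.mp hz
      obtain ⟨z0, hz0, zU, hzU, hsum'⟩ := Submodule.mem_sup.mp hz0U
      obtain ⟨y0, hy0, hy01, hy0r⟩ := hlift c0 c0 (by omega) z0 hz0
      obtain ⟨yU, hyU, hyU1, hyUr⟩ := hlift a' 0 (by omega) zU hzU
      obtain ⟨yV, hyV, hyV1, hyVr⟩ := hlift 0 b' (by omega) zV hzV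
      refine ⟨y0, hy0, yU, hyU, yV, hyV, hy01, hyU1, hyV1, ?_⟩
      have h0U : w (y0 + yU) ≤ 1 := (w.map_add _ _).trans (max_le hy01 hyU1)
      rw [G.redF_add h0U hyV1, G.redF_add hy01 hyU1, hy0r, hyUr, hyVr, hsum', hsum]
    choose y0 hy0 yU hyU yV hyV hy01 hyU1 hyV1 hsumred using hdec
    set u : Fin n → F := fun j => y0 j + yU j + yV j with hu
    have huV : ∀ j, u j ∈ P1 E E' D a' b' := by
      intro j
      refine add_mem (add_mem ?_ ?_) ?_
      · exact P1_mono hE hE' ha' hb' (hy0 j)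
      · exact P1_mono hE hE' le_rfl (Nat.zero_le _) (hyU j)
      · exact P1_mono hE hE' (Nat.zero_le _) le_rfl (hyV j)
    have hu1 : ∀ j, w (u j) ≤ 1 := fun j =>
      (w.map_add _ _).trans (max_le ((w.map_add _ _).trans (max_le (hy01 j) (hyU1 j))) (hyV1 j))
    have hliu : LinearIndependent k (fun j => G.redF (u j)) := by
      have : (fun j => G.redF (u j)) = fun j => G.redF (g j) := funext hsumred
      rw [this]
      exact linearIndependent_red_of_ortho G hg1 hortho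
    obtain ⟨c, hc1, hyc⟩ := exists_integral_combination G _ huV hu1 hliu hfr y hy hy1
    refine ⟨∑ j, c j • y0 j, Submodule.sum_mem _ fun j _ => Submodule.smul_mem _ _ (hy0 j),
      ∑ j, c j • yU j, Submodule.sum_mem _ fun j _ => Submodule.smul_mem _ _ (hyU j),
      ∑ j, c j • yV j, Submodule.sum_mem _ fun j _ => Submodule.smul_mem _ _ (hyV j),
      sum_le_one hc1 hy01, sum_le_one hc1 hyU1, sum_le_one hc1 hyV1, ?_⟩
    rw [hyc, ← Finset.sum_add_distrib, ← Finset.sum_add_distrib]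
    refine Finset.sum_congr rfl fun j _ => ?_
    rw [hu, smul_add, smul_add]
  · obtain ⟨n, g, hgV, hg1, hgen, hortho⟩ := G.lattice (P1 E E' D c0 c0) (hfin c0 c0)
    refine ⟨n, g, hgV, fun y hy hy1 => ?_⟩
    obtain ⟨c, hc⟩ := hgen y hy
    exact ⟨c, fun j => (hortho c j).trans (hc ▸ hy1), hc⟩

/-- **Lemma K (consumer form)**: under the hypotheses of `kdata_of`, `L(-D) ≠ 0`. -/
theorem exists_ne_zero_of
    (hE : ∀ v, 0 ≤ E v) (hE' : ∀ v, 0 ≤ E' v) (hdisj : ∀ v, E v = 0 ∨ E' v = 0)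
    (hone : ∀ a b : ℕ, (1 : Fb) ∈ Pb a b)
    (hroot : ∀ (a b : ℕ) (z : Fb), z ^ m ∈ Pb (m * a) (m * b) → z ∈ Pb a b)
    (hm : w (m : F) = 1) (hf : w (f - 1) < 1)
    (hdiv : ∀ v : Place L F, v.ord f = (m : ℤ) * D v)
    (hval : ∀ y : F, y ≠ 0 → ∃ c : L, w (algebraMap L F c) = w y)
    (harch : ∀ x : F, w x < 1 → ∀ δ : L, δ ≠ 0 → ∃ n : ℕ, w x ^ n < w (algebraMap L F δ))
    (hint : ∀ (a b : ℕ) (y : F), y ∈ P0 E E' a b → w y ≤ 1 → G.redF y ∈ Pb a b)
    (hfin : ∀ a b : ℕ, Module.Finite L (P1 E E' D a b))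
    (hfinb : ∀ a b : ℕ, Module.Finite k (Pb a b))
    {c0 : ℕ}
    (hdim : ∀ a b : ℕ, c0 ≤ a + b →
      Module.finrank L (P1 E E' D a b) = Module.finrank k (Pb a b))
    (hsplit : ∀ a' b' : ℕ, c0 ≤ a' → c0 ≤ b' →
      Pb a' b' ≤ Pb c0 c0 ⊔ Pb a' 0 ⊔ Pb 0 b') :
    ∃ y : F, y ≠ 0 ∧ y ∈ riemannRochSpace (-D) := by
  have hK := kdata_of G hE hE' hdisj hone hroot hm hf hdiv hval harch hint hfin hfinb hdim hsplit
  obtain ⟨y, hy, hy0⟩ := hK.exists_ne_zero
  refine ⟨y, hy0, ?_⟩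
  have : P1 E E' D 0 0 = riemannRochSpace (-D) := by
    unfold P1
    congr 1
    simp
  rw [← this]
  exact hy

/-- **Lemma K (inequality form, = Spine33 (6)(a)+(c))**: instead of equality of dimensions one gives
Riemann's INEQUALITY on the generic fibre (`hlow`, `γ` = a genus bound of `F/L`, `n` = common degree
of `E`, `E'`) and the matching UPPER bound on the special fibre (`hupp`; explicit dimension formula +
genus inequality `γ ≤ gbar`).  The lattice inequality closes the gap. -/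
theorem exists_ne_zero_of_ineq
    (hE : ∀ v, 0 ≤ E v) (hE' : ∀ v, 0 ≤ E' v) (hdisj : ∀ v, E v = 0 ∨ E' v = 0)
    (hone : ∀ a b : ℕ, (1 : Fb) ∈ Pb a b)
    (hroot : ∀ (a b : ℕ) (z : Fb), z ^ m ∈ Pb (m * a) (m * b) → z ∈ Pb a b)
    (hm : w (m : F) = 1) (hf : w (f - 1) < 1)
    (hdiv : ∀ v : Place L F, v.ord f = (m : ℤ) * D v)
    (hval : ∀ y : F, y ≠ 0 → ∃ c : L, w (algebraMap L F c) = w y)
    (harch : ∀ x : F, w x < 1 → ∀ δ : L, δ ≠ 0 → ∃ n : ℕ, w x ^ n < w (algebraMap L F δ))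
    (hint : ∀ (a b : ℕ) (y : F), y ∈ P0 E E' a b → w y ≤ 1 → G.redF y ∈ Pb a b)
    (hfin : ∀ a b : ℕ, Module.Finite L (P1 E E' D a b))
    (hfinb : ∀ a b : ℕ, Module.Finite k (Pb a b))
    {c0 n γ : ℕ}
    (hlow : ∀ a b : ℕ, c0 ≤ a + b → (a + b) * n + 1 ≤ Module.finrank L (P1 E E' D a b) + γ)
    (hupp : ∀ a b : ℕ, c0 ≤ a + b → Module.finrank k (Pb a b) + γ ≤ (a + b) * n + 1)
    (hsplit : ∀ a' b' : ℕ, c0 ≤ a' → c0 ≤ b' →
      Pb a' b' ≤ Pb c0 c0 ⊔ Pb a' 0 ⊔ Pb 0 b') :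
    ∃ y : F, y ≠ 0 ∧ y ∈ riemannRochSpace (-D) := by
  refine exists_ne_zero_of G hE hE' hdisj hone hroot hm hf hdiv hval harch hint hfin hfinb
    (c0 := c0) (fun a b hab => ?_) hsplit
  have := hfin a b
  have := hfinb a b
  have h1 : Module.finrank L (P1 E E' D a b) ≤ Module.finrank k (Pb a b) :=
    finrank_le_of_red_mem G _ _
      (fun y hy hy1 => redF_mem_Pb_of_mem_P1 G hm hf hroot hdiv hint hy hy1)
  have h2 := hlow a b hab
  have h3 := hupp a b hab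
  omega

end Main

end Fermat.Agent.S18.KAdapter73b
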