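/-
S18 moonshot (blueprint 14), package [KLEMMA-ABS] (helper48).

Abstract "Lemma K" = (O1)+(O2) of blueprint 14 as pure valued-field linear algebra.
Mathlib only.  No `Place` API: the Riemann-Roch spaces enter only through abstract families of
subspaces `V a b = L(aE + bE' - D)`, `U a b = L(aE + bE')` of `F` and `Vb a b = Lbar(aEbar + bEbar')`
of the residue field, with the handful of properties used by the Newton/lattice argument.
Conclusion: `V 0 0 = L(-D) ≠ 0`.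
-/
import Mathlib

set_option autoImplicit false

namespace Fermat.Agent.S18.KLemmaAbs48

open IsLocalRing

variable {L : Type*} [Field L] {F : Type*} [Field F] [Algebra L F]
variable {k : Type*} [Field k] {Fb : Type*} [Field Fb] [Algebra k Fb]

/-- The valued-field data: `A ⊆ L` a valuation ring with residue map `resA : A → k`,
`OW ⊆ F` a valuation ring extending it with residue map `res : OW → Fb`, same value group,
rank one. -/
structure Base (A : ValuationSubring L) (OW : ValuationSubring F)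
    (k : Type*) [Field k] (Fb : Type*) [Field Fb] [Algebra k Fb] where
  resA : A →+* k
  res : OW →+* Fb
  mem_iff : ∀ c : L, algebraMap L F c ∈ OW ↔ c ∈ A
  resA_surj : Function.Surjective resA
  resA_ker : ∀ a : A, resA a = 0 ↔ a ∈ maximalIdeal A
  res_ker : ∀ y : OW, res y = 0 ↔ y ∈ maximalIdeal OW
  res_alg : ∀ a : A, res ⟨algebraMap L F a, (mem_iff a).2 a.2⟩ = algebraMap k Fb (resA a)
  val_eq : ∀ y : F, y ≠ 0 → ∃ c : L, c ≠ 0 ∧
    y * (algebraMap L F c)⁻¹ ∈ OW ∧ (y * (algebraMap L F c)⁻¹)⁻¹ ∈ OW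
  rank_one : ∀ ε : A, ε ∈ maximalIdeal A → ∀ c : A, c ≠ 0 → ∃ n : ℕ, ¬ ε ^ n ∣ c
  nontriv : ∃ ε : A, ε ∈ maximalIdeal A ∧ ε ≠ 0

namespace Base

variable {A : ValuationSubring L} {OW : ValuationSubring F} (B : Base A OW k Fb)

/-- The inclusion `A → OW`. -/
def ι : A →+* OW :=
  (algebraMap L F).restrict A OW (fun c hc => (B.mem_iff c).2 hc)

@[simp] lemma coe_ι (a : A) : ((B.ι a : OW) : F) = algebraMap L F (a : L) := rfl

lemma res_ι (a : A) : B.res (B.ι a) = algebraMap k Fb (B.resA a) := B.res_alg a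

lemma coe_sum_OW {ι' : Type*} (s : Finset ι') (g : ι' → OW) :
    ((∑ i ∈ s, g i : OW) : F) = ∑ i ∈ s, (g i : F) :=
  map_sum OW.subtype g s

/-- **Lemma C**: if `s` has `k`-independent residues and `∑ c i • s i` is `W`-integral then all
`c i` are in `A`. -/
lemma coeff_mem_of_sum_mem {r : ℕ} (s : Fin r → OW)
    (hs : LinearIndependent k (fun i => B.res (s i)))
    (c : Fin r → L) (h : ∑ i, c i • ((s i : OW) : F) ∈ OW) : ∀ i, c i ∈ A := by
  by_contra hne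
  push Not at hne
  obtain ⟨i₀, hi₀⟩ := hne
  obtain ⟨j, -, hj⟩ := Finset.exists_max_image Finset.univ (fun i => A.valuation (c i))
    ⟨i₀, Finset.mem_univ _⟩
  have hcj : c j ∉ A := by
    intro hcj
    apply hi₀
    rw [← A.valuation_le_one_iff] at hcj ⊢
    exact (hj i₀ (Finset.mem_univ _)).trans hcj
  have hcj0 : c j ≠ 0 := by
    rintro h0
    exact hcj (h0 ▸ A.zero_mem)
  have hvj : A.valuation (c j) ≠ 0 := (A.valuation.ne_zero_iff).2 hcj0
  have hd : ∀ i, c i * (c j)⁻¹ ∈ A := by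
    intro i
    rw [← A.valuation_le_one_iff, map_mul, map_inv₀]
    have := hj i (Finset.mem_univ _)
    calc A.valuation (c i) * (A.valuation (c j))⁻¹
        ≤ A.valuation (c j) * (A.valuation (c j))⁻¹ := by gcongr
      _ = 1 := mul_inv_cancel₀ hvj
  have hinv : (c j)⁻¹ ∈ A := (A.mem_or_inv_mem (c j)).resolve_left hcj
  have hinvm : (⟨(c j)⁻¹, hinv⟩ : A) ∈ maximalIdeal A := by
    rw [A.valuation_lt_one_iff]
    show A.valuation (c j)⁻¹ < 1
    rw [map_inv₀]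
    have h1 : 1 < A.valuation (c j) := by
      rw [← not_le, A.valuation_le_one_iff]
      exact hcj
    exact inv_lt_one_of_one_lt₀ h1
  -- the identity in `OW`
  have hkey : ∑ i, B.ι ⟨c i * (c j)⁻¹, hd i⟩ * s i
      = B.ι ⟨(c j)⁻¹, hinv⟩ * ⟨_, h⟩ := by
    apply Subtype.ext
    rw [coe_sum_OW]
    simp only [MulMemClass.coe_mul, coe_ι]
    rw [Finset.mul_sum]
    refine Finset.sum_congr rfl fun i _ => ?_
    rw [Algebra.smul_def, map_mul]
    ring
  have hres := congrArg B.res hkey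
  rw [map_sum, map_mul, res_ι, (B.resA_ker _).2 hinvm, map_zero, zero_mul] at hres
  simp only [map_mul, res_ι, ← Algebra.smul_def] at hres
  have := Fintype.linearIndependent_iff.1 hs _ hres j
  have h1 : (⟨c j * (c j)⁻¹, hd j⟩ : A) = 1 := Subtype.ext (mul_inv_cancel₀ hcj0)
  rw [h1, map_one] at this
  exact one_ne_zero this

/-- A nonzero element of the maximal ideal of `A` has inverse outside `A`. -/
lemma inv_not_mem {ε : A} (hε : ε ∈ maximalIdeal A) (hε0 : ε ≠ 0) : ((ε : L))⁻¹ ∉ A := by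
  intro h
  have hε0' : (ε : L) ≠ 0 := fun h0 => hε0 (Subtype.ext h0)
  have : IsUnit ε := by
    refine ⟨⟨ε, ⟨_, h⟩, ?_, ?_⟩, rfl⟩
    · exact Subtype.ext (mul_inv_cancel₀ hε0')
    · exact Subtype.ext (inv_mul_cancel₀ hε0')
  exact hε this

include B in
/-- Residue-independent families are `L`-linearly independent. -/
lemma linearIndependent_coe {r : ℕ} (s : Fin r → OW)
    (hs : LinearIndependent k (fun i => B.res (s i))) :
    LinearIndependent L (fun i => ((s i : OW) : F)) := by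
  rw [Fintype.linearIndependent_iff]
  intro c hc j
  by_contra hj
  obtain ⟨ε, hε, hε0⟩ := B.nontriv
  have hε0' : (ε : L) ≠ 0 := fun h0 => hε0 (Subtype.ext h0)
  set lam : L := (c j * ε)⁻¹ with hlam
  have hsum : ∑ i, (lam * c i) • ((s i : OW) : F) ∈ OW := by
    have : ∑ i, (lam * c i) • ((s i : OW) : F) = lam • ∑ i, c i • ((s i : OW) : F) := by
      rw [Finset.smul_sum]
      exact Finset.sum_congr rfl fun i _ => by rw [mul_smul]
    rw [this, hc, smul_zero]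
    exact OW.zero_mem
  have := B.coeff_mem_of_sum_mem s hs (fun i => lam * c i) hsum j
  have h2 : lam * c j = ((ε : L))⁻¹ := by
    rw [hlam, mul_inv, mul_comm (c j)⁻¹, mul_assoc, inv_mul_cancel₀ hj, mul_one]
  rw [h2] at this
  exact inv_not_mem hε hε0 this

/-- **Lemma B**: a residue-independent family of `finrank L V` elements of `V ∩ OW`
`A`-spans `V ∩ OW`. -/
lemma exists_coeff_of_mem (V : Submodule L F) [FiniteDimensional L V] {r : ℕ}
    (hr : r = Module.finrank L V) (s : Fin r → OW) (hsV : ∀ i, ((s i : OW) : F) ∈ V)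
    (hs : LinearIndependent k (fun i => B.res (s i)))
    (y : OW) (hy : (y : F) ∈ V) : ∃ c : Fin r → A, y = ∑ i, B.ι (c i) * s i := by
  have hli := B.linearIndependent_coe s hs
  let s' : Fin r → V := fun i => ⟨(s i : F), hsV i⟩
  have hli' : LinearIndependent L s' := by
    apply LinearIndependent.of_comp V.subtype
    exact hli
  let bas := basisOfLinearIndependentOfCardEqFinrank' s' hli' (by simpa using hr)
  have hy' : (⟨(y : F), hy⟩ : V) = ∑ i, bas.repr ⟨(y : F), hy⟩ i • s' i := by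
    conv_lhs => rw [← bas.sum_repr ⟨(y : F), hy⟩]
    refine Finset.sum_congr rfl fun i _ => ?_
    rw [coe_basisOfLinearIndependentOfCardEqFinrank']
  have hy'' : (y : F) = ∑ i, bas.repr ⟨(y : F), hy⟩ i • ((s i : OW) : F) := by
    have := congrArg (V.subtype) hy'
    simpa [s'] using this
  have hmem : ∑ i, bas.repr ⟨(y : F), hy⟩ i • ((s i : OW) : F) ∈ OW := by
    rw [← hy'']; exact y.2
  have hc := B.coeff_mem_of_sum_mem s hs (fun i => bas.repr ⟨(y : F), hy⟩ i) hmem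
  refine ⟨fun i => ⟨_, hc i⟩, ?_⟩
  apply Subtype.ext
  rw [coe_sum_OW]
  refine hy''.trans ?_
  refine Finset.sum_congr rfl fun i _ => ?_
  simp only [MulMemClass.coe_mul, coe_ι, Algebra.smul_def]

include B in
/-- Every element of `F` can be scaled into `OW` by a nonzero element of `A`. -/
lemma exists_scale (y : F) : ∃ c : A, c ≠ 0 ∧ (c : L) • y ∈ OW := by
  by_cases hy : y = 0
  · exact ⟨1, one_ne_zero, by rw [hy, smul_zero]; exact OW.zero_mem⟩
  obtain ⟨c', hc', hu, -⟩ := B.val_eq y hy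
  have hc'F : algebraMap L F c' ≠ 0 := by
    rwa [Ne, map_eq_zero]
  rcases A.mem_or_inv_mem c' with h | h
  · refine ⟨1, one_ne_zero, ?_⟩
    have : (1 : L) • y = (y * (algebraMap L F c')⁻¹) * algebraMap L F c' := by
      rw [one_smul, mul_assoc, inv_mul_cancel₀ hc'F, mul_one]
    rw [OneMemClass.coe_one, this]
    exact OW.mul_mem _ _ hu ((B.mem_iff c').2 h)
  · refine ⟨⟨c'⁻¹, h⟩, ?_, ?_⟩
    · intro h0
      have : c'⁻¹ = 0 := congrArg Subtype.val h0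
      exact hc' (inv_eq_zero.1 this)
    · show c'⁻¹ • y ∈ OW
      rw [Algebra.smul_def, map_inv₀, mul_comm]
      exact hu

include B in
/-- Every element of the maximal ideal of `OW` is divisible by a nonzero element of the maximal
ideal of `A`. -/
lemma exists_eps (η : OW) (hη : η ∈ maximalIdeal OW) :
    ∃ ε : A, ε ∈ maximalIdeal A ∧ ε ≠ 0 ∧ ∃ η' : OW, η = B.ι ε * η' := by
  by_cases h0 : η = 0
  · obtain ⟨ε, hε, hε0⟩ := B.nontriv
    exact ⟨ε, hε, hε0, 0, by rw [h0, mul_zero]⟩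
  have h0' : (η : F) ≠ 0 := fun h => h0 (Subtype.ext h)
  obtain ⟨c, hc, hu, hu'⟩ := B.val_eq (η : F) h0'
  have hcF : algebraMap L F c ≠ 0 := by rwa [Ne, map_eq_zero]
  have hu0 : (η : F) * (algebraMap L F c)⁻¹ ≠ 0 := mul_ne_zero h0' (inv_ne_zero hcF)
  have hcOW : algebraMap L F c ∈ OW := by
    have : algebraMap L F c = (η : F) * ((η : F) * (algebraMap L F c)⁻¹)⁻¹ := by
      field_simp
    rw [this]
    exact OW.mul_mem _ _ η.2 hu'
  have hcA : c ∈ A := (B.mem_iff c).1 hcOW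
  have hcm : (⟨c, hcA⟩ : A) ∈ maximalIdeal A := by
    rw [mem_maximalIdeal, mem_nonunits_iff]
    rintro ⟨v, hv⟩
    apply hη
    -- η = ι c * u with both units
    have hvinv : ((↑v⁻¹ : A) : L) * c = 1 := by
      have := congrArg Subtype.val (v.inv_mul)
      rw [hv] at this
      simpa using this
    have hcinvOW : (algebraMap L F c)⁻¹ ∈ OW := by
      have : (algebraMap L F c)⁻¹ = algebraMap L F ((↑v⁻¹ : A) : L) := by
        have h1 : algebraMap L F ((↑v⁻¹ : A) : L) * algebraMap L F c = 1 := by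
          rw [← map_mul, hvinv, map_one]
        exact (eq_inv_of_mul_eq_one_left h1).symm
      rw [this]
      exact (B.mem_iff _).2 (↑v⁻¹ : A).2
    have hηinv : ((η : F))⁻¹ ∈ OW := by
      have : ((η : F))⁻¹ = ((η : F) * (algebraMap L F c)⁻¹)⁻¹ * (algebraMap L F c)⁻¹ := by
        field_simp
      rw [this]
      exact OW.mul_mem _ _ hu' hcinvOW
    refine ⟨⟨η, ⟨_, hηinv⟩, ?_, ?_⟩, rfl⟩
    · exact Subtype.ext (mul_inv_cancel₀ h0')
    · exact Subtype.ext (inv_mul_cancel₀ h0')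
  refine ⟨⟨c, hcA⟩, hcm, ?_, ⟨_, hu⟩, ?_⟩
  · intro h
    exact hc (congrArg Subtype.val h)
  · apply Subtype.ext
    show (η : F) = algebraMap L F c * ((η : F) * (algebraMap L F c)⁻¹)
    field_simp

/-- Two nonzero elements of the maximal ideal have a common nonzero divisor in it. -/
lemma common_eps {ε₁ ε₂ : A} (h₁ : ε₁ ∈ maximalIdeal A) (h₁0 : ε₁ ≠ 0)
    (h₂ : ε₂ ∈ maximalIdeal A) (h₂0 : ε₂ ≠ 0) :
    ∃ ε : A, ε ∈ maximalIdeal A ∧ ε ≠ 0 ∧ ε ∣ ε₁ ∧ ε ∣ ε₂ := by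
  rcases ValuationRing.dvd_total ε₁ ε₂ with h | h
  · exact ⟨ε₁, h₁, h₁0, dvd_rfl, h⟩
  · exact ⟨ε₂, h₂, h₂0, h, dvd_rfl⟩

end Base

/-- The Riemann–Roch data: `V a b = L(aE + bE' - D)`, `U a b = L(aE + bE')`,
`Vb a b = Lbar(a Ebar + b Ebar')`, `m D = div f`, `res f = 1`. -/
structure Spaces {A : ValuationSubring L} {OW : ValuationSubring F} (B : Base A OW k Fb) where
  V : ℕ → ℕ → Submodule L F
  U : ℕ → ℕ → Submodule L F
  Vb : ℕ → ℕ → Submodule k Fb
  m : ℕ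
  f : OW
  c₀ : ℕ
  V_mono : ∀ {a a' b b' : ℕ}, a ≤ a' → b ≤ b' → V a b ≤ V a' b'
  V_fin : ∀ a b, FiniteDimensional L (V a b)
  Vb_fin : ∀ a b, FiniteDimensional k (Vb a b)
  mul_mem : ∀ {a b a' b' : ℕ} {u y : F}, u ∈ U a b → y ∈ V a' b' → u * y ∈ V (a + a') (b + b')
  one_mem_U : ∀ a b, (1 : F) ∈ U a b
  pow_div_mem : ∀ {a b : ℕ} {y : F}, y ∈ V a b → y ^ m * ((f : OW) : F)⁻¹ ∈ U (m * a) (m * b)
  inter_left : ∀ {a a' b' : ℕ}, a ≤ a' → V a' 0 ⊓ V a b' ≤ V a 0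
  inter_right : ∀ {a b b' : ℕ}, b ≤ b' → V 0 b' ⊓ V a b ≤ V 0 b
  inter_zero : ∀ a b, V a 0 ⊓ V 0 b ≤ V 0 0
  hm : (m : k) ≠ 0
  res_f : B.res f = 1
  res_mem : ∀ {a b : ℕ} (y : OW), (y : F) ∈ V a b → B.res y ∈ Vb a b
  lattice : ∀ a b, ∃ e : Fin (Module.finrank L (V a b)) → OW,
    (∀ i, ((e i : OW) : F) ∈ V a b) ∧ LinearIndependent k (fun i => B.res (e i))
  dim_le : ∀ {a b : ℕ}, c₀ ≤ a + b → Module.finrank k (Vb a b) ≤ Module.finrank L (V a b)
  cech : ∀ {a a' b b' : ℕ}, c₀ ≤ a → a ≤ a' → c₀ ≤ b → b ≤ b' →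
    Vb a' b' ≤ Vb a b ⊔ Vb a' 0 ⊔ Vb 0 b'
  one_mem_Vb : ∀ a b, (1 : Fb) ∈ Vb a b

namespace Spaces

variable {A : ValuationSubring L} {OW : ValuationSubring F} {B : Base A OW k Fb} (S : Spaces B)

/-- A-linear combinations of elements of `V a b ∩ OW` stay in `V a b`. -/
lemma sum_mem_V {a b : ℕ} {r : ℕ} (c : Fin r → A) (e : Fin r → OW)
    (he : ∀ i, ((e i : OW) : F) ∈ S.V a b) :
    ((∑ i, B.ι (c i) * e i : OW) : F) ∈ S.V a b := by
  rw [Base.coe_sum_OW]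
  refine Submodule.sum_mem _ fun i _ => ?_
  rw [MulMemClass.coe_mul, Base.coe_ι, ← Algebra.smul_def]
  exact Submodule.smul_mem _ _ (he i)

/-- **Lemma A**: for `a + b ≥ c₀` the reduction `V a b ∩ OW → Vb a b` is surjective. -/
lemma exists_lift {a b : ℕ} (hab : S.c₀ ≤ a + b) (z : Fb) (hz : z ∈ S.Vb a b) :
    ∃ y : OW, (y : F) ∈ S.V a b ∧ B.res y = z := by
  have := S.Vb_fin a b
  obtain ⟨e, heV, hli⟩ := S.lattice a b
  let w : Fin (Module.finrank L (S.V a b)) → S.Vb a b :=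
    fun i => ⟨B.res (e i), S.res_mem (e i) (heV i)⟩
  have hw : LinearIndependent k w := by
    apply LinearIndependent.of_comp (S.Vb a b).subtype
    exact hli
  have hcard : Fintype.card (Fin (Module.finrank L (S.V a b))) = Module.finrank k (S.Vb a b) := by
    apply le_antisymm
    · exact hw.fintype_card_le_finrank
    · simpa using S.dim_le hab
  let bas := basisOfLinearIndependentOfCardEqFinrank' w hw hcard
  have hz' : (⟨z, hz⟩ : S.Vb a b) = ∑ i, bas.repr ⟨z, hz⟩ i • w i := by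
    conv_lhs => rw [← bas.sum_repr ⟨z, hz⟩]
    refine Finset.sum_congr rfl fun i _ => ?_
    rw [coe_basisOfLinearIndependentOfCardEqFinrank']
  choose c hc using fun i => B.resA_surj (bas.repr ⟨z, hz⟩ i)
  refine ⟨∑ i, B.ι (c i) * e i, S.sum_mem_V c e heV, ?_⟩
  have hz'' := congrArg (S.Vb a b).subtype hz'
  simp only [Submodule.subtype_apply, map_sum, map_smul] at hz''
  rw [hz'', map_sum]
  refine Finset.sum_congr rfl fun i _ => ?_
  rw [map_mul, Base.res_ι, hc i, Algebra.smul_def]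

/-- **Lemma D**: for `c₀ ≤ a ≤ a'`, `c₀ ≤ b ≤ b'`,
`Λ_{a',b'} = Λ_{a,b} + Λ_{a',0} + Λ_{0,b'}`. -/
lemma exists_decomp {a a' b b' : ℕ} (ha : S.c₀ ≤ a) (haa : a ≤ a') (hb : S.c₀ ≤ b) (hbb : b ≤ b')
    (y : OW) (hy : (y : F) ∈ S.V a' b') :
    ∃ lam u w : OW, (lam : F) ∈ S.V a b ∧ (u : F) ∈ S.V a' 0 ∧ (w : F) ∈ S.V 0 b' ∧
      y = lam + u + w := by
  have := S.V_fin a' b'
  obtain ⟨e, heV, hli⟩ := S.lattice a' b'
  have hdec : ∀ i, ∃ l₁ u₁ w₁ : OW, (l₁ : F) ∈ S.V a b ∧ (u₁ : F) ∈ S.V a' 0 ∧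
      (w₁ : F) ∈ S.V 0 b' ∧ B.res (l₁ + u₁ + w₁) = B.res (e i) := by
    intro i
    have hmem := S.cech ha haa hb hbb (S.res_mem (e i) (heV i))
    obtain ⟨z₁₂, hz₁₂, z₃, hz₃, hsum⟩ := Submodule.mem_sup.1 hmem
    obtain ⟨z₁, hz₁, z₂, hz₂, hsum'⟩ := Submodule.mem_sup.1 hz₁₂
    obtain ⟨l₁, hl₁, hl₁'⟩ := S.exists_lift (a := a) (b := b) (by omega) z₁ hz₁
    obtain ⟨u₁, hu₁, hu₁'⟩ := S.exists_lift (a := a') (b := 0) (by omega) z₂ hz₂
    obtain ⟨w₁, hw₁, hw₁'⟩ := S.exists_lift (a := 0) (b := b') (by omega) z₃ hz₃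
    refine ⟨l₁, u₁, w₁, hl₁, hu₁, hw₁, ?_⟩
    rw [map_add, map_add, hl₁', hu₁', hw₁', hsum', hsum]
  choose l₁ u₁ w₁ hl₁ hu₁ hw₁ hres using hdec
  let s : Fin (Module.finrank L (S.V a' b')) → OW := fun i => l₁ i + u₁ i + w₁ i
  have hsV : ∀ i, ((s i : OW) : F) ∈ S.V a' b' := by
    intro i
    show ((l₁ i + u₁ i + w₁ i : OW) : F) ∈ _
    rw [AddMemClass.coe_add, AddMemClass.coe_add]
    refine Submodule.add_mem _ (Submodule.add_mem _ ?_ ?_) ?_
    · exact S.V_mono haa hbb (hl₁ i)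
    · exact S.V_mono le_rfl (Nat.zero_le _) (hu₁ i)
    · exact S.V_mono (Nat.zero_le _) le_rfl (hw₁ i)
  have hs : LinearIndependent k (fun i => B.res (s i)) := by
    have : (fun i => B.res (s i)) = fun i => B.res (e i) := funext hres
    rw [this]; exact hli
  obtain ⟨c, hc⟩ := B.exists_coeff_of_mem (S.V a' b') rfl s hsV hs y hy
  refine ⟨∑ i, B.ι (c i) * l₁ i, ∑ i, B.ι (c i) * u₁ i, ∑ i, B.ι (c i) * w₁ i,
    S.sum_mem_V c l₁ hl₁, S.sum_mem_V c u₁ hu₁, S.sum_mem_V c w₁ hw₁, ?_⟩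
  rw [hc, ← Finset.sum_add_distrib, ← Finset.sum_add_distrib]
  refine Finset.sum_congr rfl fun i _ => ?_
  show B.ι (c i) * (l₁ i + u₁ i + w₁ i) = _
  ring

include B in
lemma _root_.Fermat.Agent.S18.KLemmaAbs48.Base.smul_mem_OW (a : A) {z : F} (hz : z ∈ OW) :
    (a : L) • z ∈ OW := by
  rw [Algebra.smul_def]
  exact OW.mul_mem _ _ ((B.mem_iff _).2 a.2) hz

/-- **Lemma E** (substitute for Cramer's rule): if `V 0 0 = ⊥` there is `c ≠ 0` in `A` such that
`x - y ∈ t Λ_{a,b}` (`x ∈ Λ_{a,0}`, `y ∈ Λ_{0,b}`) forces `c x ∈ t OW`. -/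
lemma exists_bound (h00 : S.V 0 0 = ⊥) (a b : ℕ) :
    ∃ c : A, c ≠ 0 ∧ ∀ (x y d : OW) (t : A), (x : F) ∈ S.V a 0 → (y : F) ∈ S.V 0 b →
      (d : F) ∈ S.V a b → x - y = B.ι t * d → ∃ x'' : OW, B.ι c * x = B.ι t * x'' := by
  have := S.V_fin a b
  have := S.V_fin a 0
  have := S.V_fin 0 b
  have hP : S.V a 0 ≤ S.V a b := S.V_mono le_rfl (Nat.zero_le _)
  have hQ : S.V 0 b ≤ S.V a b := S.V_mono (Nat.zero_le _) le_rfl
  let φ : (S.V a 0 × S.V 0 b) →ₗ[L] S.V a b :=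
    (Submodule.inclusion hP).comp (LinearMap.fst L (S.V a 0) (S.V 0 b)) -
      (Submodule.inclusion hQ).comp (LinearMap.snd L (S.V a 0) (S.V 0 b))
  have hφval : ∀ pq : S.V a 0 × S.V 0 b, ((φ pq : S.V a b) : F) = (pq.1 : F) - (pq.2 : F) := by
    intro pq
    simp [φ]
  have hφ : LinearMap.ker φ = ⊥ := by
    rw [LinearMap.ker_eq_bot']
    rintro ⟨p, q⟩ hpq
    have h1 : (p : F) = (q : F) := by
      have := congrArg Subtype.val hpq
      rw [hφval] at this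
      exact sub_eq_zero.1 this
    have hp0 : (p : F) ∈ S.V 0 0 := S.inter_zero a b ⟨p.2, h1 ▸ q.2⟩
    rw [h00, Submodule.mem_bot] at hp0
    have hq0 : (q : F) = 0 := h1 ▸ hp0
    ext
    · exact hp0
    · exact hq0
  obtain ⟨ψ, hψ⟩ := LinearMap.exists_leftInverse_of_injective φ hφ
  obtain ⟨e, heV, hli⟩ := S.lattice a b
  choose cc hcc0 hccm using fun i => B.exists_scale (((ψ ⟨e i, heV i⟩).1 : S.V a 0) : F)
  have hCp : ∀ i, ((∏ j, cc j : A) : L) • (((ψ ⟨e i, heV i⟩).1 : S.V a 0) : F) ∈ OW := by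
    intro i
    rw [← Finset.mul_prod_erase Finset.univ cc (Finset.mem_univ i), mul_comm,
      MulMemClass.coe_mul, mul_smul]
    exact B.smul_mem_OW _ (hccm i)
  refine ⟨∏ i, cc i, Finset.prod_ne_zero_iff.2 (fun i _ => hcc0 i), ?_⟩
  intro x y d t hx hy hd hxy
  obtain ⟨co, hco⟩ := B.exists_coeff_of_mem (S.V a b) rfl e heV hli d hd
  -- the identity in `V a b`
  have hφxy : φ (⟨x, hx⟩, ⟨y, hy⟩) = (t : L) • ∑ i, (co i : L) • (⟨e i, heV i⟩ : S.V a b) := by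
    apply Subtype.ext
    rw [hφval]
    show (x : F) - (y : F) = _
    have h1 : (x : F) - (y : F) = ((x - y : OW) : F) := rfl
    rw [h1, hxy, hco]
    simp only [MulMemClass.coe_mul, Base.coe_ι, Base.coe_sum_OW, Submodule.coe_smul,
      Submodule.coe_sum, Algebra.smul_def]
  have hψφ : ψ (φ (⟨x, hx⟩, ⟨y, hy⟩)) = (⟨x, hx⟩, ⟨y, hy⟩) := by
    have := LinearMap.congr_fun hψ (⟨x, hx⟩, ⟨y, hy⟩)
    simpa using this
  rw [hφxy, map_smul, map_sum] at hψφ
  have hx1 : (x : F) = (t : L) • ∑ i, (co i : L) • (((ψ ⟨e i, heV i⟩).1 : S.V a 0) : F) := by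
    have := congrArg (fun pq : S.V a 0 × S.V 0 b => ((pq.1 : S.V a 0) : F)) hψφ
    simp only [map_smul, Prod.smul_fst, Prod.fst_sum, Submodule.coe_smul, Submodule.coe_sum] at this
    exact this.symm
  refine ⟨∑ i, B.ι (co i) * ⟨_, hCp i⟩, ?_⟩
  apply Subtype.ext
  rw [MulMemClass.coe_mul, MulMemClass.coe_mul, Base.coe_sum_OW, Base.coe_ι, Base.coe_ι]
  conv_lhs => rw [hx1]
  simp only [MulMemClass.coe_mul, Base.coe_ι, Algebra.smul_def, Finset.mul_sum]
  refine Finset.sum_congr rfl fun i _ => ?_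
  ring

/-- The polynomial identity behind Newton's iteration. -/
lemma _root_.Fermat.Agent.S18.KLemmaAbs48.one_sub_pow_eq {R : Type*} [CommRing R] (u : R)
    (m : ℕ) : ∃ Q : R, (1 - u) ^ m = 1 - m * u + u ^ 2 * Q := by
  induction m with
  | zero => exact ⟨0, by simp⟩
  | succ m ih =>
    obtain ⟨Q, hQ⟩ := ih
    refine ⟨Q + m - u * Q, ?_⟩
    rw [pow_succ, hQ]
    push_cast
    ring

lemma _root_.Fermat.Agent.S18.KLemmaAbs48.newton_step {R : Type*} [CommRing R]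
    (x f η μ : R) (m : ℕ) (hμ : (m : R) * μ = 1) (hx : x ^ m = f * (1 + η)) :
    ∃ T : R, (x * (1 - μ * η)) ^ m = f * (1 + η ^ 2 * T) := by
  obtain ⟨Q, hQ⟩ := one_sub_pow_eq (μ * η) m
  refine ⟨-1 + (1 + η) * μ ^ 2 * Q, ?_⟩
  rw [mul_pow, hx, hQ]
  have : (m : R) * (μ * η) = η := by rw [← mul_assoc, hμ, one_mul]
  rw [this]
  ring

include S in
lemma exists_m_inv : ∃ μ : A, ((S.m : ℕ) : A) * μ = 1 := by
  have h1 : ((S.m : ℕ) : A) ∉ maximalIdeal A := by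
    rw [← B.resA_ker, map_natCast]
    exact S.hm
  have h2 : IsUnit ((S.m : ℕ) : A) := by
    rwa [mem_maximalIdeal, mem_nonunits_iff, not_not] at h1
  obtain ⟨u, hu⟩ := h2
  exact ⟨↑u⁻¹, by rw [← hu]; exact u.mul_inv⟩

include S in
lemma f_ne_zero : ((S.f : OW) : F) ≠ 0 := by
  intro h
  have : S.f = 0 := Subtype.ext h
  have h1 := S.res_f
  rw [this, map_zero] at h1
  exact zero_ne_one h1

lemma res_ι_eps {ε : A} (hε : ε ∈ maximalIdeal A) : B.res (B.ι ε) = 0 := by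
  rw [Base.res_ι, (B.resA_ker ε).2 hε, map_zero]

/-- **Newton iteration** on one chart (`Wc a` twisted spaces, `Uc a` untwisted ones). -/
lemma newton (Wc Uc : ℕ → Submodule L F)
    (hmul : ∀ {a a' : ℕ} {u y : F}, u ∈ Uc a → y ∈ Wc a' → u * y ∈ Wc (a + a'))
    (hone : ∀ a, (1 : F) ∈ Uc a)
    (hpow : ∀ {a : ℕ} {y : F}, y ∈ Wc a → y ^ S.m * ((S.f : OW) : F)⁻¹ ∈ Uc (S.m * a))
    (ε : A) (hε : ε ∈ maximalIdeal A) (a₀ : ℕ) (x₀ : OW) (hx₀ : (x₀ : F) ∈ Wc a₀)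
    (hres : B.res x₀ = 1) (η₀ : OW) (hη₀ : x₀ ^ S.m = S.f * (1 + B.ι ε * η₀))
    (n : ℕ) (hn : 1 ≤ n) :
    ∃ (a : ℕ) (x : OW), a₀ ≤ a ∧ (x : F) ∈ Wc a ∧ B.res x = 1 ∧
      ∃ η' : OW, x ^ S.m = S.f * (1 + B.ι ε ^ n * η') := by
  induction n, hn using Nat.le_induction with
  | base => exact ⟨a₀, x₀, le_rfl, hx₀, hres, η₀, by rw [pow_one]; exact hη₀⟩
  | succ n hn ih =>
    obtain ⟨a, x, haa, hxW, hxres, η', hη'⟩ := ih
    obtain ⟨μA, hμA⟩ := S.exists_m_inv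
    set η : OW := B.ι ε ^ n * η' with hηdef
    have hμ : ((S.m : ℕ) : OW) * B.ι μA = 1 := by
      have := congrArg B.ι hμA
      rwa [map_mul, map_natCast, map_one] at this
    obtain ⟨T, hT⟩ := newton_step x S.f η (B.ι μA) S.m hμ hη'
    have hresη : B.res η = 0 := by
      rw [hηdef, map_mul, map_pow, res_ι_eps hε, zero_pow (by omega), zero_mul]
    -- η as an element of Uc
    have hηF : ((η : OW) : F) = (x : F) ^ S.m * ((S.f : OW) : F)⁻¹ - 1 := by
      have := congrArg (Subtype.val) hη'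
      simp only [MulMemClass.coe_mul, SubmonoidClass.coe_pow, AddMemClass.coe_add,
        OneMemClass.coe_one] at this
      rw [this]
      field_simp [S.f_ne_zero]
      ring
    have hηU : ((η : OW) : F) ∈ Uc (S.m * a) := by
      rw [hηF]
      exact Submodule.sub_mem _ (hpow hxW) (hone _)
    have hfac : ((1 - B.ι μA * η : OW) : F) ∈ Uc (S.m * a) := by
      have : ((1 - B.ι μA * η : OW) : F) = 1 - (μA : L) • ((η : OW) : F) := by
        rw [Algebra.smul_def]; rfl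
      rw [this]
      exact Submodule.sub_mem _ (hone _) (Submodule.smul_mem _ _ hηU)
    refine ⟨S.m * a + a, x * (1 - B.ι μA * η), by nlinarith [Nat.zero_le (S.m * a)], ?_, ?_, ?_⟩
    · have : ((x * (1 - B.ι μA * η) : OW) : F) = ((1 - B.ι μA * η : OW) : F) * (x : F) := by
        rw [mul_comm]; rfl
      rw [this]
      exact hmul hfac hxW
    · rw [map_mul, hxres, map_sub, map_one, map_mul, hresη, mul_zero, sub_zero, one_mul]
    · refine ⟨B.ι ε ^ (n - 1) * η' ^ 2 * T, ?_⟩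
      rw [hT, hηdef]
      have : B.ι ε ^ (n + 1) * (B.ι ε ^ (n - 1) * η' ^ 2 * T) = (B.ι ε ^ n * η') ^ 2 * T := by
        have h2 : n + 1 + (n - 1) = n + n := by omega
        calc B.ι ε ^ (n + 1) * (B.ι ε ^ (n - 1) * η' ^ 2 * T)
            = B.ι ε ^ (n + 1 + (n - 1)) * η' ^ 2 * T := by rw [pow_add]; ring
          _ = (B.ι ε ^ n * η') ^ 2 * T := by rw [h2, pow_add]; ring
      rw [this]

lemma isUnit_of_res_ne_zero {y : OW} (h : B.res y ≠ 0) : IsUnit y := by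
  rwa [Ne, B.res_ker, mem_maximalIdeal, mem_nonunits_iff, not_not] at h

include S in
/-- If `x^m = f(1 + t ηx)`, `y^m = f(1 + t ηy)` and `res x = res y = 1` then `t ∣ x - y`. -/
lemma exists_diff (x y ηx ηy t : OW) (hx : B.res x = 1) (hy : B.res y = 1)
    (hxm : x ^ S.m = S.f * (1 + t * ηx)) (hym : y ^ S.m = S.f * (1 + t * ηy)) :
    ∃ d : OW, x - y = t * d := by
  set G : OW := ∑ i ∈ Finset.range S.m, x ^ i * y ^ (S.m - 1 - i) with hG
  have hGmul : G * (x - y) = x ^ S.m - y ^ S.m := (Commute.all x y).geom_sum₂_mul S.m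
  have hresG : B.res G = algebraMap k Fb (S.m : k) := by
    rw [hG, map_sum]
    simp [hx, hy]
  have hGunit : IsUnit G := by
    apply isUnit_of_res_ne_zero (B := B)
    rw [hresG, Ne, map_eq_zero]
    exact S.hm
  obtain ⟨G', hG'⟩ := hGunit.exists_right_inv
  refine ⟨S.f * (ηx - ηy) * G', ?_⟩
  have h1 : x - y = (x ^ S.m - y ^ S.m) * G' := by
    rw [← hGmul, mul_comm G, mul_assoc, hG', mul_one]
  rw [h1, hxm, hym]
  ring

/-- **Abstract Lemma K**: `L(-D) = V 0 0 ≠ 0`. -/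
theorem exists_ne_zero : ∃ u ∈ S.V 0 0, u ≠ 0 := by
  by_contra hcon
  have h00 : S.V 0 0 = ⊥ := by
    rw [Submodule.eq_bot_iff]
    intro u hu
    by_contra hu0
    exact hcon ⟨u, hu, hu0⟩
  obtain ⟨c, hc0, hbound⟩ := S.exists_bound h00 S.c₀ S.c₀
  obtain ⟨xU0, hxU0V, hxU0res⟩ :=
    S.exists_lift (a := S.c₀) (b := 0) (by omega) 1 (S.one_mem_Vb _ _)
  obtain ⟨xV0, hxV0V, hxV0res⟩ :=
    S.exists_lift (a := 0) (b := S.c₀) (by omega) 1 (S.one_mem_Vb _ _)
  have hfunit : IsUnit S.f := by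
    apply isUnit_of_res_ne_zero (B := B)
    rw [S.res_f]
    exact one_ne_zero
  obtain ⟨f', hf'⟩ := hfunit.exists_right_inv
  have hresf' : B.res f' = 1 := by
    have := congrArg B.res hf'
    rwa [map_mul, S.res_f, one_mul, map_one] at this
  have key : ∀ x0 : OW, B.res x0 = 1 → ∃ ε : A, ε ∈ maximalIdeal A ∧ ε ≠ 0 ∧
      ∃ η' : OW, x0 ^ S.m = S.f * (1 + B.ι ε * η') := by
    intro x0 hx0
    have hη : x0 ^ S.m * f' - 1 ∈ maximalIdeal OW := by
      rw [← B.res_ker, map_sub, map_mul, map_pow, hx0, hresf', one_pow, mul_one, map_one, sub_self]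
    obtain ⟨ε, hε, hε0, η', hη'⟩ := B.exists_eps _ hη
    refine ⟨ε, hε, hε0, η', ?_⟩
    rw [← hη']
    calc x0 ^ S.m = x0 ^ S.m * (S.f * f') := by rw [hf', mul_one]
      _ = S.f * (1 + (x0 ^ S.m * f' - 1)) := by ring
  obtain ⟨ε₁, hε₁, hε₁0, η₁, hη₁⟩ := key xU0 hxU0res
  obtain ⟨ε₂, hε₂, hε₂0, η₂, hη₂⟩ := key xV0 hxV0res
  obtain ⟨ε, hε, hε0, ⟨q₁, hq₁⟩, ⟨q₂, hq₂⟩⟩ := Base.common_eps hε₁ hε₁0 hε₂ hε₂0
  have hη₁' : xU0 ^ S.m = S.f * (1 + B.ι ε * (B.ι q₁ * η₁)) := by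
    rw [hη₁, hq₁, map_mul]; ring
  have hη₂' : xV0 ^ S.m = S.f * (1 + B.ι ε * (B.ι q₂ * η₂)) := by
    rw [hη₂, hq₂, map_mul]; ring
  obtain ⟨n, hn⟩ := B.rank_one ε hε c hc0
  have hn1 : 1 ≤ n := by
    by_contra h
    have h0 : n = 0 := by omega
    subst h0
    exact hn (by simp)
  obtain ⟨a', xU, ha', hxUV, hxUres, ηU, hηU⟩ :=
    S.newton (fun a => S.V a 0) (fun a => S.U a 0)
      (fun hu hy => S.mul_mem hu hy) (fun a => S.one_mem_U a 0) (fun hy => S.pow_div_mem hy)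
      ε hε S.c₀ xU0 hxU0V hxU0res _ hη₁' n hn1
  obtain ⟨b', xV, hb', hxVV, hxVres, ηV, hηV⟩ :=
    S.newton (fun b => S.V 0 b) (fun b => S.U 0 b)
      (fun hu hy => S.mul_mem hu hy) (fun b => S.one_mem_U 0 b) (fun hy => S.pow_div_mem hy)
      ε hε S.c₀ xV0 hxV0V hxV0res _ hη₂' n hn1
  obtain ⟨d, hd⟩ := S.exists_diff xU xV ηU ηV (B.ι ε ^ n) hxUres hxVres hηU hηV
  have hεL : (ε : L) ≠ 0 := fun h => hε0 (Subtype.ext h)
  have hεF : algebraMap L F ((ε : L) ^ n) ≠ 0 := by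
    rw [Ne, map_eq_zero]; exact pow_ne_zero _ hεL
  have hιpow : ∀ z : OW, ((B.ι ε ^ n * z : OW) : F) = ((ε : L) ^ n) • (z : F) := by
    intro z
    rw [Algebra.smul_def, MulMemClass.coe_mul, SubmonoidClass.coe_pow, Base.coe_ι, map_pow]
  have hxU' : (xU : F) ∈ S.V a' b' := S.V_mono le_rfl (Nat.zero_le _) hxUV
  have hxV' : (xV : F) ∈ S.V a' b' := S.V_mono (Nat.zero_le _) le_rfl hxVV
  have hdV : (d : F) ∈ S.V a' b' := by
    have h1 : (d : F) = (((ε : L) ^ n)⁻¹) • ((xU : F) - (xV : F)) := by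
      have := congrArg Subtype.val hd
      rw [hιpow] at this
      rw [show (xU : F) - (xV : F) = ((xU - xV : OW) : F) from rfl, this, smul_smul,
        inv_mul_cancel₀ (pow_ne_zero _ hεL), one_smul]
    rw [h1]
    exact Submodule.smul_mem _ _ (Submodule.sub_mem _ hxU' hxV')
  obtain ⟨lam, u, w, hlam, hu, hw, hdec⟩ :=
    S.exists_decomp (a := S.c₀) (a' := a') (b := S.c₀) (b' := b') le_rfl ha' le_rfl hb' d hdV
  set xU' : OW := xU - B.ι ε ^ n * u with hxU'def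
  set xV' : OW := xV + B.ι ε ^ n * w with hxV'def
  have hdiff : xU' - xV' = B.ι (ε ^ n) * lam := by
    rw [map_pow, hxU'def, hxV'def]
    have : xU - B.ι ε ^ n * u - (xV + B.ι ε ^ n * w) = (xU - xV) - B.ι ε ^ n * (u + w) := by ring
    rw [this, hd, hdec]
    ring
  have hεu : ((B.ι ε ^ n * u : OW) : F) ∈ S.V a' 0 := by
    rw [hιpow]; exact Submodule.smul_mem _ _ hu
  have hεw : ((B.ι ε ^ n * w : OW) : F) ∈ S.V 0 b' := by
    rw [hιpow]; exact Submodule.smul_mem _ _ hw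
  have hεlam : ((B.ι (ε ^ n) * lam : OW) : F) ∈ S.V S.c₀ S.c₀ := by
    rw [map_pow, hιpow]; exact Submodule.smul_mem _ _ hlam
  have hxU'1 : (xU' : F) ∈ S.V a' 0 := by
    show ((xU - B.ι ε ^ n * u : OW) : F) ∈ _
    rw [AddSubgroupClass.coe_sub]
    exact Submodule.sub_mem _ hxUV hεu
  have hxV'1 : (xV' : F) ∈ S.V 0 b' := by
    show ((xV + B.ι ε ^ n * w : OW) : F) ∈ _
    rw [AddMemClass.coe_add]
    exact Submodule.add_mem _ hxVV hεw
  have hxU'2 : (xU' : F) ∈ S.V S.c₀ b' := by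
    have h1 : (xU' : F) = (xV' : F) + ((B.ι (ε ^ n) * lam : OW) : F) := by
      have := congrArg Subtype.val hdiff
      rw [AddSubgroupClass.coe_sub] at this
      rw [← this]; ring
    rw [h1]
    exact Submodule.add_mem _ (S.V_mono (Nat.zero_le _) le_rfl hxV'1)
      (S.V_mono le_rfl hb' hεlam)
  have hxU'V : (xU' : F) ∈ S.V S.c₀ 0 := S.inter_left ha' ⟨hxU'1, hxU'2⟩
  have hxV'2 : (xV' : F) ∈ S.V S.c₀ S.c₀ := by
    have h1 : (xV' : F) = (xU' : F) - ((B.ι (ε ^ n) * lam : OW) : F) := by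
      have := congrArg Subtype.val hdiff
      rw [AddSubgroupClass.coe_sub] at this
      rw [← this]; ring
    rw [h1]
    exact Submodule.sub_mem _ (S.V_mono le_rfl (Nat.zero_le _) hxU'V) hεlam
  have hxV'V : (xV' : F) ∈ S.V 0 S.c₀ := S.inter_right hb' ⟨hxV'1, hxV'2⟩
  obtain ⟨x'', hx''⟩ := hbound xU' xV' lam (ε ^ n) hxU'V hxV'V hlam hdiff
  have hresxU' : B.res xU' = 1 := by
    rw [hxU'def, map_sub, map_mul, map_pow, res_ι_eps hε, zero_pow (by omega), zero_mul,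
      sub_zero, hxUres]
  have hunit : IsUnit xU' := by
    apply isUnit_of_res_ne_zero (B := B)
    rw [hresxU']; exact one_ne_zero
  obtain ⟨xinv, hxinv⟩ := hunit.exists_right_inv
  have hc : B.ι c = B.ι (ε ^ n) * (x'' * xinv) := by
    calc B.ι c = B.ι c * (xU' * xinv) := by rw [hxinv, mul_one]
      _ = (B.ι c * xU') * xinv := by ring
      _ = B.ι (ε ^ n) * (x'' * xinv) := by rw [hx'']; ring
  apply hn
  have hcF := congrArg Subtype.val hc
  rw [MulMemClass.coe_mul, Base.coe_ι, Base.coe_ι] at hcF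
  have hz : algebraMap L F ((c : L) * (((ε : L)) ^ n)⁻¹) ∈ OW := by
    have : algebraMap L F ((c : L) * (((ε : L)) ^ n)⁻¹) = ((x'' * xinv : OW) : F) := by
      rw [map_mul, hcF, map_inv₀]
      have h2 : ((ε ^ n : A) : L) = (ε : L) ^ n := rfl
      rw [h2]
      field_simp
    rw [this]
    exact (x'' * xinv).2
  have hzA := (B.mem_iff _).1 hz
  refine ⟨⟨_, hzA⟩, ?_⟩
  apply Subtype.ext
  show (c : L) = (ε : L) ^ n * ((c : L) * ((ε : L) ^ n)⁻¹)
  field_simp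

end Spaces

end Fermat.Agent.S18.KLemmaAbs48
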