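/-
S18 / LD-LATTICE, instantiation half (helper95, second seat of helper56; dispatched by helper29).

The LATTICE LEMMA for the Gauss valuation ring of an ARBITRARY `S : BridgeKernel15.Frame A ι`
(any field `L`, any valuation subring `A`, any finite index type `ι`):

* `resIndep_frame` : the monomials `j ^ s * x_i` are residually independent for the Gauss valuation
  `wS S = S.OF.valuation` (`GaussCoord89.ResIndep`);
* `hspan_frame`    : they span `F` over `L` up to a nonzero polynomial denominator in `j`;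
* `lattice_core`   : for every finite-dimensional `L`-subspace `V` of `F` there are
  `e_1, …, e_r ∈ V ∩ O_F`, `r = dim V`, with `k`-linearly independent residues, such that
  `V ∩ O_F` is the `A`-span of the `e_i`   (via `GaussCoord89.exists_orthonormal_basis_functionField`);
* `lattice_of_frame` : the same for any `(O', ρ')` presenting `(O A ∩ F', rho A)` on `F' = S.F`;
* `latticeProp`    : `LevelAsm29.LatticeProp M A S hF` VERBATIM (the field `lattice` of
  `Level33.LevelData` for `(OF' S _ hF, rhoF' S _ hF)`);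
* `latticeStmt_bridgeData` : `GaussDataInst73.LatticeStmt (Bridge28.bridgeData A M hMk)`, so that
  `GaussDataInst73.gaussData` yields the concrete `KGauss73.GaussData` (C-SEMI, S37 [R]-INST).
-/
import Fermat.Agent.S18.LevelAsm29
import Fermat.Agent.S18.GaussCoord89
import Fermat.Agent.S18.FrameInt33
import Fermat.Agent.S18.GaussDataInst73

set_option autoImplicit false
set_option linter.unusedSectionVars false
set_option linter.unusedVariables false

open Polynomial

noncomputable section

namespace Fermat.Agent.S18.LatticeFrame95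

open Fermat.Agent.S18.BridgeKernel15 Fermat.Agent.S18.FrameInt33
open Fermat.Agent.S18.GaussCoord89 (frame)

/-! ### regrouping a finitely supported family on `Fin n × ℕ` into rows of polynomials -/

section Rows

variable {L F : Type*} [Field L] [Field F] [Algebra L F] {n : ℕ}

/-- the `i`-th row of `a`, as a polynomial -/
def rowPoly (a : Fin n × ℕ →₀ L) (i : Fin n) : L[X] :=
  ∑ p ∈ a.support, if p.1 = i then monomial p.2 (a p) else 0

theorem coeff_rowPoly (a : Fin n × ℕ →₀ L) (i : Fin n) (s : ℕ) :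
    (rowPoly a i).coeff s = a (i, s) := by
  classical
  unfold rowPoly
  rw [finsetSum_coeff]
  by_cases h : (i, s) ∈ a.support
  · rw [Finset.sum_eq_single (i, s)]
    · simp
    · intro p _ hp
      by_cases h1 : p.1 = i
      · rw [if_pos h1, coeff_monomial, if_neg]
        intro h2
        exact hp (Prod.ext h1 h2)
      · rw [if_neg h1, coeff_zero]
    · intro h'; exact absurd h h'
  · rw [Finsupp.notMem_support_iff.1 h]
    refine Finset.sum_eq_zero fun p hp => ?_
    by_cases h1 : p.1 = i
    · rw [if_pos h1, coeff_monomial, if_neg]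
      intro h2
      have : p = (i, s) := Prod.ext h1 h2
      exact h (this ▸ hp)
    · rw [if_neg h1, coeff_zero]

theorem linearCombination_frame (x : F) (y : Fin n → F) (a : Fin n × ℕ →₀ L) :
    Finsupp.linearCombination L (frame x y) a = ∑ i, aeval x (rowPoly a i) * y i := by
  classical
  rw [Finsupp.linearCombination_apply, Finsupp.sum]
  have h1 : ∀ i, aeval x (rowPoly a i) * y i =
      ∑ p ∈ a.support, if p.1 = i then a p • (x ^ p.2 * y p.1) else 0 := by
    intro i
    unfold rowPoly
    rw [map_sum, Finset.sum_mul]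
    refine Finset.sum_congr rfl fun p _ => ?_
    by_cases h : p.1 = i
    · rw [if_pos h, if_pos h, aeval_monomial, Algebra.smul_def, h, mul_assoc]
    · rw [if_neg h, if_neg h, map_zero, zero_mul]
  simp_rw [h1]
  rw [Finset.sum_comm]
  refine Finset.sum_congr rfl fun p _ => ?_
  rw [Finset.sum_ite_eq Finset.univ p.1, if_pos (Finset.mem_univ _)]
  rfl

end Rows

/-! ### the Gauss valuation of a frame -/

section Core

variable {L : Type*} [Field L] {A : ValuationSubring L} {ι : Type*} [Fintype ι] (S : Frame A ι)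

/-- the Gauss valuation of `F` -/
abbrev wS : Valuation S.F (ValuationSubring.ValueGroup S.OF) := S.OF.valuation

theorem wS_le_one_iff (y : S.F) : wS S y ≤ 1 ↔ y ∈ S.OF :=
  ValuationSubring.valuation_le_one_iff _ _

theorem wS_lt_one_iff (y : S.OF) : wS S (y : S.F) < 1 ↔ S.rhoF y = 0 := by
  rw [S.rhoF_eq_zero_iff, ValuationSubring.mem_nonunits_iff]

theorem wS_const_le_one_iff (c : L) : wS S (algebraMap L S.F c) ≤ 1 ↔ c ∈ A := by
  rw [wS_le_one_iff, S.algebraMap_mem_OF_iff]

/-- a constant of `A` as an element of `O_F` -/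
def constO (c : A) : S.OF := ⟨algebraMap L S.F (c : L), (S.algebraMap_mem_OF_iff _).2 c.2⟩

theorem constO_eq_incl (c : A) :
    constO S c = GaussInt93.incl L S.OF ⟨(c : L), (S.algebraMap_mem_OF_iff _).2 c.2⟩ := rfl

theorem rhoF_constO (c : A) :
    S.rhoF (constO S c) = algebraMap (IsLocalRing.ResidueField A)
      (LaurentSeries (IsLocalRing.ResidueField A)) (IsLocalRing.residue A c) := by
  rw [constO_eq_incl, (resData S).compat]
  rfl

theorem residue_eq_zero_of_wS_lt_one (c : A) (h : wS S (algebraMap L S.F (c : L)) < 1) :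
    IsLocalRing.residue A c = 0 := by
  have h1 : S.rhoF (constO S c) = 0 := (wS_lt_one_iff S (constO S c)).1 h
  rw [rhoF_constO] at h1
  exact (map_eq_zero_iff _ (algebraMap (IsLocalRing.ResidueField A)
    (LaurentSeries (IsLocalRing.ResidueField A))).injective).1 h1

/-- the frame elements, indexed by `Fin (card ι)` -/
def yFin (a : Fin (Fintype.card ι)) : S.F := ((xOF S ((Fintype.equivFin ι).symm a) : S.OF) : S.F)

theorem xOF_eq_yFin (i : ι) : ((xOF S i : S.OF) : S.F) = yFin S (Fintype.equivFin ι i) := by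
  unfold yFin
  rw [Equiv.symm_apply_apply]

/-- `j` is transcendental over `L`, in the form needed here. -/
theorem aeval_jF_ne_zero {d : L[X]} (hd : d ≠ 0) : aeval (jF S) d ≠ 0 := by
  obtain ⟨c, hc, y, hy, hyc⟩ :=
    GaussInt93.exists_unit_scale (resData S) (jO S) (transcendental_rhoF_jO S) d hd
  intro h0
  rw [coe_jO] at hyc
  rw [h0, mul_zero] at hyc
  have : y = 0 := Subtype.ext hyc
  rw [this] at hy
  exact not_isUnit_zero hy

/-- **Residual independence** of the monomials `j ^ s * x_i`. -/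
theorem resIndep_frame :
    GaussCoord89.ResIndep (L := L) (wS S) (frame (jF S) (yFin S)) := by
  classical
  intro a ha ⟨p₀, hp₀⟩
  -- all coefficients lie in `O_F ∩ L`
  have haA : ∀ p, a p ∈ GaussInt93.ringA L S.OF := fun p =>
    (wS_le_one_iff S _).1 (ha p)
  -- lift the rows
  have hlift : ∀ i, ∃ q : (GaussInt93.ringA L S.OF)[X],
      q.map (GaussInt93.ringA L S.OF).subtype = rowPoly a i := fun i =>
    GaussInt93.exists_lift (GaussInt93.ringA L S.OF) (rowPoly a i) (fun s => by
      rw [coeff_rowPoly]; exact haA _)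
  choose q hq using hlift
  -- the combination as an element of `O_F`
  let Z : S.OF := ∑ i, GaussInt93.evalO S.OF (jO S) (q i) *
    xOF S ((Fintype.equivFin ι).symm i)
  have hZ : ((Z : S.OF) : S.F) = Finsupp.linearCombination L (frame (jF S) (yFin S)) a := by
    rw [linearCombination_frame]
    show ((∑ i, GaussInt93.evalO S.OF (jO S) (q i) *
      xOF S ((Fintype.equivFin ι).symm i) : S.OF) : S.F) = _
    rw [AddSubmonoidClass.coe_finsetSum]
    refine Finset.sum_congr rfl fun i _ => ?_
    rw [MulMemClass.coe_mul, GaussInt93.coe_evalO, hq i, coe_jO]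
    rfl
  rw [← hZ]
  refine le_antisymm ((wS_le_one_iff S _).2 Z.2) (not_lt.1 fun hlt => ?_)
  have hρ : S.rhoF Z = 0 := (wS_lt_one_iff S Z).1 hlt
  have hρ' : ∑ i, aeval (S.rhoF (jO S)) ((q i).map (rhoA S)) *
      S.rhoF (xOF S ((Fintype.equivFin ι).symm i)) = 0 := by
    rw [← hρ, map_sum]
    refine Finset.sum_congr rfl fun i _ => ?_
    rw [map_mul, (resData S).rho_evalO]
  -- reindex by `ι`
  have hρ'' : ∑ i' : ι, aeval (S.rhoF (jO S)) ((q (Fintype.equivFin ι i')).map (rhoA S)) *
      S.rhoF (xOF S i') = 0 := by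
    rw [← hρ']
    refine Fintype.sum_equiv (Fintype.equivFin ι) _ _ fun i' => ?_
    rw [Equiv.symm_apply_apply]
  have hzero := resIndep S (fun i' => (q (Fintype.equivFin ι i')).map (rhoA S)) hρ''
    ((Fintype.equivFin ι).symm p₀.1)
  simp only [Equiv.apply_symm_apply] at hzero
  -- the coefficient `a p₀` reduces to zero
  have hcoef : rhoA S ⟨a p₀, haA p₀⟩ = 0 := by
    have h1 := congrArg (fun r => r.coeff p₀.2) hzero
    simp only [coeff_map, coeff_zero] at h1
    have h2 : (q p₀.1).coeff p₀.2 = ⟨a p₀, haA p₀⟩ := by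
      apply Subtype.ext
      have := congrArg (fun r => r.coeff p₀.2) (hq p₀.1)
      simp only [coeff_map] at this
      rw [coeff_rowPoly] at this
      exact this
    rw [h2] at h1
    exact h1
  -- but `w (a p₀) = 1`
  have hA : a p₀ ∈ A := mem_A_of_mem_ringA S _ (haA p₀)
  have h0 : a p₀ ≠ 0 := by
    rintro h
    rw [h, map_zero, map_zero] at hp₀
    exact zero_ne_one hp₀
  have hinv : (a p₀)⁻¹ ∈ A := by
    rw [← wS_const_le_one_iff S, map_inv₀, map_inv₀, hp₀, inv_one]
  have hunit : IsUnit (⟨a p₀, hA⟩ : A) :=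
    IsUnit.of_mul_eq_one (⟨(a p₀)⁻¹, hinv⟩ : A) (Subtype.ext (mul_inv_cancel₀ h0))
  have hres : IsLocalRing.residue A ⟨a p₀, hA⟩ = 0 := hcoef
  rw [IsLocalRing.residue_eq_zero_iff] at hres
  exact (IsLocalRing.mem_maximalIdeal _).1 hres hunit

/-- **Spanning** up to a polynomial denominator. -/
theorem hspan_frame (z : S.F) : ∃ b : L[X], aeval (jF S) b ≠ 0 ∧
    aeval (jF S) b * z ∈ Submodule.span L (Set.range (frame (jF S) (yFin S))) := by
  obtain ⟨d, p, hd, hdz⟩ := FrameInt33.hspan S z
  refine ⟨d, aeval_jF_ne_zero S hd, ?_⟩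
  rw [coe_jO] at hdz
  rw [hdz]
  refine Submodule.sum_mem _ fun i _ => ?_
  rw [xOF_eq_yFin]
  exact GaussCoord89.aeval_mem_frameStab (p i) _ (GaussCoord89.y_mem_span _)

/-- **LATTICE LEMMA for the Gauss valuation ring of a frame.** -/
theorem lattice_core (V : Submodule L S.F) [Module.Finite L V] :
    ∃ (r : ℕ) (e : Fin r → S.F) (he : ∀ i, e i ∈ S.OF), r = Module.finrank L V ∧
      (∀ i, e i ∈ V) ∧
      LinearIndependent (IsLocalRing.ResidueField A) (fun i => S.rhoF ⟨e i, he i⟩) ∧
      ∀ z ∈ V, z ∈ S.OF → ∃ α : Fin r → L, (∀ i, α i ∈ A) ∧ z = ∑ i, α i • e i := by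
  classical
  obtain ⟨r, v, hr, hvV, hv1, -, hspanV, hle, hlt⟩ :=
    GaussCoord89.exists_orthonormal_basis_functionField (hspan_frame S) (resIndep_frame S) V
  have he : ∀ i, v i ∈ S.OF := fun i => (wS_le_one_iff S _).1 (hv1 i)
  refine ⟨r, v, he, hr, hvV, ?_, ?_⟩
  · rw [Fintype.linearIndependent_iff]
    intro g hg t
    choose c hc using fun t => IsLocalRing.residue_surjective (R := A) (g t)
    let Z : S.OF := ∑ t, constO S (c t) * ⟨v t, he t⟩
    have hZ : ((Z : S.OF) : S.F) = ∑ t, ((c t : A) : L) • v t := by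
      show ((∑ t, constO S (c t) * ⟨v t, he t⟩ : S.OF) : S.F) = _
      rw [AddSubmonoidClass.coe_finsetSum]
      refine Finset.sum_congr rfl fun t _ => ?_
      rw [MulMemClass.coe_mul, Algebra.smul_def]
      rfl
    have hρZ : S.rhoF Z = 0 := by
      rw [← hg]
      show S.rhoF (∑ t, constO S (c t) * ⟨v t, he t⟩) = _
      rw [map_sum]
      refine Finset.sum_congr rfl fun t _ => ?_
      rw [map_mul, rhoF_constO, hc t, Fermat.Agent.S18.BridgeGauss15.algebraMap_k_eq_C]
      exact HahnSeries.C_mul_eq_smul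
    have hlt1 : wS S (∑ t, ((c t : A) : L) • v t) < 1 := by
      rw [← hZ]; exact (wS_lt_one_iff S Z).2 hρZ
    have := (hlt _).1 hlt1 t
    rw [← hc t]
    exact residue_eq_zero_of_wS_lt_one S (c t) this
  · intro z hzV hzO
    have hz : z ∈ Submodule.span L (Set.range v) := hspanV ▸ hzV
    obtain ⟨α, rfl⟩ := (Submodule.mem_span_range_iff_exists_fun L).1 hz
    refine ⟨α, fun t => ?_, rfl⟩
    have h1 : wS S (∑ t, α t • v t) ≤ 1 := (wS_le_one_iff S _).2 hzO
    exact (wS_const_le_one_iff S _).1 ((hle α).1 h1 t)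

end Core

/-! ### transport to the concrete shapes -/

section Concrete

open ModularCurve Fermat.Agent.S18.Spine33 Fermat.Agent.S18.Bridge28 Fermat.Agent.S18.LevelInst29

variable {A : ValuationSubring Kb} {ι : Type*} [Fintype ι] (S : Frame A ι)

/-- The lattice lemma for ANY presentation `(O', ρ')` of `(O A ∩ F', rho A)` on `F' = S.F`. -/
theorem lattice_of_frame (F' : IntermediateField Kb (LaurentSeries Kb)) (hF : S.F = F')
    (O' : ValuationSubring F') (ρ' : O' →+* LaurentSeries (kA A))
    (hO : ∀ y : F', y ∈ O' ↔ (y : LaurentSeries Kb) ∈ Bridge28.O A)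
    (hρ : ∀ (y : F') (hy : y ∈ O'),
      ρ' ⟨y, hy⟩ = rho A ⟨(y : LaurentSeries Kb), (hO y).1 hy⟩)
    (V : Submodule Kb F') (hV : Module.Finite Kb V) :
    ∃ (r : ℕ) (e : Fin r → F') (he : ∀ i, e i ∈ O'), r = Module.finrank Kb V ∧
      (∀ i, e i ∈ V) ∧ LinearIndependent (kA A) (fun i => ρ' ⟨e i, he i⟩) ∧
      ∀ z ∈ V, z ∈ O' → ∃ α : Fin r → Kb, (∀ i, α i ∈ A) ∧ z = ∑ i, α i • e i := by
  subst hF
  obtain ⟨r, e, he, hr, heV, hli, hgen⟩ := lattice_core S V
  have he' : ∀ i, e i ∈ O' := fun i => (hO _).2 ((S.mem_OF_iff _).1 (he i))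
  refine ⟨r, e, he', hr, heV, ?_, ?_⟩
  · have : (fun i => ρ' ⟨e i, he' i⟩) = fun i => S.rhoF ⟨e i, he i⟩ := by
      funext i
      rw [hρ, S.rhoF_apply]
    rw [this]
    exact hli
  · intro z hzV hzO
    exact hgen z hzV ((S.mem_OF_iff _).2 ((hO _).1 hzO))

/-- the lattice lemma for `(OF', rhoF')` of helper29's `LevelInst29` -/
theorem lattice_OF' (F' : IntermediateField Kb (LaurentSeries Kb)) (hF : S.F = F')
    (V : Submodule Kb F') (hV : Module.Finite Kb V) :
    ∃ (r : ℕ) (e : Fin r → F') (he : ∀ i, e i ∈ OF' S F' hF), r = Module.finrank Kb V ∧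
      (∀ i, e i ∈ V) ∧ LinearIndependent (kA A) (fun i => rhoF' S F' hF ⟨e i, he i⟩) ∧
      ∀ z ∈ V, z ∈ OF' S F' hF → ∃ α : Fin r → Kb, (∀ i, α i ∈ A) ∧ z = ∑ i, α i • e i :=
  lattice_of_frame S F' hF (OF' S F' hF) (rhoF' S F' hF) (fun _ => Iff.rfl) (fun _ _ => rfl) V hV

/-- **`LevelAsm29.LatticeProp` VERBATIM**: input (I4) of `nonempty_levelData_of_frame`. -/
theorem latticeProp (M : ℕ) [NeZero M] (A : ValuationSubring Kb) [IsAlgClosed (kA A)]
    {ι : Type*} [Fintype ι] (S : Frame A ι) (hF : S.F = modularFunctionFieldBar M) :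
    LevelAsm29.LatticeProp M A S hF :=
  fun V hV => lattice_OF' S (modularFunctionFieldBar M) hF V hV

/-- the lattice statement of helper73's `GaussDataInst73` for helper28's concrete bridge data -/
theorem latticeStmt_bridgeData (A : ValuationSubring Kb) (M : ℕ) [NeZero M]
    (hMk : (M : IsLocalRing.ResidueField A) ≠ 0) :
    GaussDataInst73.LatticeStmt (Bridge28.bridgeData A M hMk) :=
  fun V hV => lattice_of_frame (Bridge28.frame A M hMk) (modularFunctionFieldBar M) rfl
    (Bridge28.OW A M hMk) (Bridge28.rhoW A M hMk) (fun _ => Iff.rfl) (fun _ _ => rfl) V hV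

end Concrete

end Fermat.Agent.S18.LatticeFrame95
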