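/-
S18 / LD-ASSEMBLY (helper29), part 6: the frozen statement S18 from the THREE remaining inputs

* `LatticeAll`  : the lattice lemma for the concrete frame at every level (LD-LATTICE);
* `CSemiAll`    : (C-SEMI) at every level, given the lattice lemma (C-SEMI-INST);
* `CBaseFour`, `CBaseNine` : (C-BASE) at the base levels `4` and `9` (C-BASE-INST).

`Fermat/Agent/S18.lean` is then `LevelTop29.s18_of_inputs lattice csemi cbase4 cbase9 ...`.
-/
import Fermat.Agent.S18.GenusWire29
import Fermat.Agent.S18.SpineClosed20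

set_option autoImplicit false
set_option linter.unusedSectionVars false
set_option linter.unusedVariables false
set_option linter.style.haveILetI false
set_option synthInstance.maxHeartbeats 400000
set_option maxHeartbeats 1600000

open ModularCurve AlgebraicCurve HahnSeries IntermediateField Polynomial Module

noncomputable section

namespace Fermat.Agent.S18.LevelTop29

open Fermat.Agent.S18.Spine33 Fermat.Agent.S18.Bridge28 Fermat.Agent.S18.LevelAsm29
open Fermat.Agent.S18.LevelFinal29 Fermat.Agent.S18.GenusWire29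

/-- LD-LATTICE at all levels -/
def LatticeAll : Prop :=
  ∀ (A : ValuationSubring Kb) (M : ℕ) [NeZero M] (hMk : (M : kA A) ≠ 0), LatticeM A M hMk

/-- C-SEMI-INST at all levels -/
def CSemiAll : Prop :=
  ∀ (A : ValuationSubring Kb) [IsAlgClosed (kA A)] (M : ℕ) [NeZero M] (hMk : (M : kA A) ≠ 0),
    LatticeM A M hMk → CSemiProp A M hMk

/-- C-BASE-INST at level `4` -/
def CBaseFour : Prop :=
  ∀ (k : Type) [Field k] [IsAlgClosed k], (2 : k) ≠ 0 →
    haveI : NeZero 4 := ⟨by norm_num⟩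
    CBaseProp k 4

/-- C-BASE-INST at level `9` -/
def CBaseNine : Prop :=
  ∀ (k : Type) [Field k] [IsAlgClosed k], (3 : k) ≠ 0 →
    haveI : NeZero 9 := ⟨by norm_num⟩
    CBaseProp k 9

theorem two_ne_zero_of (A : ValuationSubring Kb) {ℓ : ℕ} [Fact ℓ.Prime] (hA : A.LiesOverPrime ℓ)
    (h2 : ℓ ≠ 2) : (2 : kA A) ≠ 0 := by
  have h : ¬ ℓ ∣ 2 := fun h =>
    h2 ((Nat.prime_dvd_prime_iff_eq (Fact.out : ℓ.Prime) Nat.prime_two).mp h)
  have := natCast_residueField_ne_zero A hA h
  simpa using this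

theorem three_ne_zero_of (A : ValuationSubring Kb) {ℓ : ℕ} [Fact ℓ.Prime]
    (hA : A.LiesOverPrime ℓ) (h2 : ℓ = 2) : (3 : kA A) ≠ 0 := by
  have h : ¬ ℓ ∣ 3 := by
    subst h2
    norm_num
  have := natCast_residueField_ne_zero A hA h
  simpa using this

/-- **`LevelData` at every good level.** -/
theorem nonempty_levelData (hlat : LatticeAll) (hsemi : CSemiAll) (h4 : CBaseFour)
    (h9 : CBaseNine) (M : ℕ) [NeZero M] (ℓ : ℕ) [Fact ℓ.Prime] (hℓM : ¬ ℓ ∣ M)
    (hgood : GoodLevel ℓ M) (A : ValuationSubring Kb) (hA : A.LiesOverPrime ℓ) :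
    Nonempty (Level33.LevelData A M) := by
  haveI := ValRing25.residueField_isAlgClosed A
  have hMk := natCast_residueField_ne_zero A hA hℓM
  have hL := hlat A M hMk
  have hS := hsemi A M hMk hL
  refine nonempty_levelData_of A M hMk ?_ hL
  rcases hgood with ⟨h2, hdvd⟩ | ⟨h2, hdvd⟩
  · haveI : NeZero 4 := ⟨by norm_num⟩
    exact genusProp_of A M hMk 4 (Or.inl rfl) hdvd (h4 (kA A) (two_ne_zero_of A hA h2)) hS
  · haveI : NeZero 9 := ⟨by norm_num⟩
    exact genusProp_of A M hMk 9 (Or.inr rfl) hdvd (h9 (kA A) (three_ne_zero_of A hA h2)) hS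

/-- **S18 from the three remaining inputs.** -/
theorem s18_of_inputs (hlat : LatticeAll) (hsemi : CSemiAll) (h4 : CBaseFour) (h9 : CBaseNine)
    (N : ℕ) [NeZero N] {ℓ : ℕ}
    [Fact ℓ.Prime] (hℓN : ¬ ℓ ∣ N) (A : ValuationSubring (AlgebraicClosure ℚ))
    (hA : A.LiesOverPrime ℓ)
    (h : ModularCurve.ReductionInputsModL A N) (m : ℕ) (hm : ¬ ℓ ∣ m) (z : ModularCurve.JZero N)
    (hmz : m • z = 0) (hz : ModularCurve.reductionModL A N z = 0) :
    z = 0 :=
  SpineClosed20.s18_of_levelData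
    (fun M _ ℓ _ hℓM hgood A hA => nonempty_levelData hlat hsemi h4 h9 M ℓ hℓM hgood A hA)
    N hℓN A hA h m hm z hmz hz

end Fermat.Agent.S18.LevelTop29
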