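/-
S18 / LD-ASSEMBLY (helper29), part 7: the lattice input is CLOSED (helper56's
`LatticeInst56.lattice_field` applied to `OF'`/`rhoF'` of the concrete frame), and the frozen
statement S18 follows from the TWO remaining inputs

* `CSemiOver`  : (C-SEMI) at every level `M` prime to `ℓ`, for `A` over `ℓ` (C-SEMI-INST);
* `CBaseFour`, `CBaseNine` : (C-BASE) at the base levels `4` and `9` (C-BASE-INST).
-/
import Fermat.Agent.S18.LevelTop29
import Fermat.Agent.S18.LatticeInst56

set_option autoImplicit false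
set_option linter.unusedSectionVars false
set_option linter.unusedVariables false
set_option linter.style.haveILetI false
set_option synthInstance.maxHeartbeats 400000
set_option maxHeartbeats 1600000

open ModularCurve AlgebraicCurve HahnSeries IntermediateField Polynomial Module

noncomputable section

namespace Fermat.Agent.S18.LevelDone29

open Fermat.Agent.S18.Spine33 Fermat.Agent.S18.Bridge28 Fermat.Agent.S18.LevelAsm29
open Fermat.Agent.S18.LevelFinal29 Fermat.Agent.S18.GenusWire29 Fermat.Agent.S18.LevelInst29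
open Fermat.Agent.S18.LevelTop29

/-- **LD-LATTICE, closed**: the lattice lemma for the concrete frame, at every level prime to
`ℓ`. -/
theorem latticeM (A : ValuationSubring Kb) {ℓ : ℕ} [Fact ℓ.Prime] (hA : A.LiesOverPrime ℓ)
    (M : ℕ) [NeZero M] (hM : ¬ ℓ ∣ M) :
    LatticeM A M (natCast_residueField_ne_zero A hA hM) := by
  intro V hV
  exact LatticeInst56.lattice_field hA hM
    (OF' (frame A M (natCast_residueField_ne_zero A hA hM)) (modularFunctionFieldBar M)
      (frame_F A M _))
    (rhoF' (frame A M (natCast_residueField_ne_zero A hA hM)) (modularFunctionFieldBar M)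
      (frame_F A M _))
    (ker_rhoF' _ _ _) (rhoF'_incl _ _ _) (const_mem_OF' _ _ _) (rhoF'_const _ _ _) V hV

/-- C-SEMI-INST at all levels prime to `ℓ` -/
def CSemiOver : Prop :=
  ∀ (A : ValuationSubring Kb) {ℓ : ℕ} [Fact ℓ.Prime] (hA : A.LiesOverPrime ℓ)
    (M : ℕ) [NeZero M] (hM : ¬ ℓ ∣ M),
    haveI := ValRing25.residueField_isAlgClosed A
    CSemiProp A M (natCast_residueField_ne_zero A hA hM)

/-- **`LevelData` at every good level** from (C-SEMI) and (C-BASE). -/
theorem nonempty_levelData' (hsemi : CSemiOver) (h4 : CBaseFour)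
    (h9 : CBaseNine) (M : ℕ) [NeZero M] (ℓ : ℕ) [Fact ℓ.Prime] (hℓM : ¬ ℓ ∣ M)
    (hgood : GoodLevel ℓ M) (A : ValuationSubring Kb) (hA : A.LiesOverPrime ℓ) :
    Nonempty (Level33.LevelData A M) := by
  haveI := ValRing25.residueField_isAlgClosed A
  have hMk := natCast_residueField_ne_zero A hA hℓM
  have hL := latticeM A hA M hℓM
  have hS := hsemi A hA M hℓM
  refine nonempty_levelData_of A M hMk ?_ hL
  rcases hgood with ⟨h2, hdvd⟩ | ⟨h2, hdvd⟩
  · haveI : NeZero 4 := ⟨by norm_num⟩
    exact genusProp_of A M hMk 4 (Or.inl rfl) hdvd (h4 (kA A) (two_ne_zero_of A hA h2)) hS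
  · haveI : NeZero 9 := ⟨by norm_num⟩
    exact genusProp_of A M hMk 9 (Or.inr rfl) hdvd (h9 (kA A) (three_ne_zero_of A hA h2)) hS

/-- **S18 from the two remaining inputs.** -/
theorem s18_of_csemi_cbase (hsemi : CSemiOver) (h4 : CBaseFour) (h9 : CBaseNine)
    (N : ℕ) [NeZero N] {ℓ : ℕ}
    [Fact ℓ.Prime] (hℓN : ¬ ℓ ∣ N) (A : ValuationSubring (AlgebraicClosure ℚ))
    (hA : A.LiesOverPrime ℓ)
    (h : ModularCurve.ReductionInputsModL A N) (m : ℕ) (hm : ¬ ℓ ∣ m) (z : ModularCurve.JZero N)
    (hmz : m • z = 0) (hz : ModularCurve.reductionModL A N z = 0) :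
    z = 0 :=
  SpineClosed20.s18_of_levelData
    (fun M _ ℓ _ hℓM hgood A hA => nonempty_levelData' hsemi h4 h9 M ℓ hℓM hgood A hA)
    N hℓN A hA h m hm z hmz hz

end Fermat.Agent.S18.LevelDone29
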