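/-
S18 / LD-ASSEMBLY (helper29), part 8: ALL inputs closed.

* `cbaseFour`, `cbaseNine` : (C-BASE) from helper81's `CuspBaseFinal81.cuspCount_le`;
* `csemiOver` : (C-SEMI) from helper80's `CuspSemi80.cInf_add_dwGenus_le_of_frame` applied to the
  concrete frame `Bridge28.frame A M hMk` (lattice input: `LevelDone29.latticeM`);
* `s18` : the frozen statement S18, binder for binder, with no hypotheses left.
-/
import Fermat.Agent.S18.LevelDone29
import Fermat.Agent.S18.CuspBaseFinal81
import Fermat.Agent.S18.CuspSemi80.Inst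

set_option autoImplicit false
set_option linter.unusedSectionVars false
set_option linter.unusedVariables false
set_option linter.style.haveILetI false
set_option synthInstance.maxHeartbeats 400000
set_option maxHeartbeats 1600000

open ModularCurve AlgebraicCurve HahnSeries IntermediateField Polynomial Module

noncomputable section

namespace Fermat.Agent.S18.LevelClosed29

open Fermat.Agent.S18.Spine33 Fermat.Agent.S18.Bridge28 Fermat.Agent.S18.LevelAsm29
open Fermat.Agent.S18.LevelFinal29 Fermat.Agent.S18.GenusWire29 Fermat.Agent.S18.LevelInst29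
open Fermat.Agent.S18.LevelTop29 Fermat.Agent.S18.LevelDone29

/-- (C-BASE) at level `4`. -/
theorem cbaseFour : CBaseFour := by
  intro k _ _ h2
  haveI : NeZero 4 := ⟨by norm_num⟩
  refine CuspBaseFinal81.cuspCount_le k 4 (Or.inl rfl) ?_
  intro h4
  apply h2
  have h : ((4 : ℕ) : k) = 2 * 2 := by norm_num
  rw [h] at h4
  exact (mul_self_eq_zero.mp h4)

/-- (C-BASE) at level `9`. -/
theorem cbaseNine : CBaseNine := by
  intro k _ _ h3
  haveI : NeZero 9 := ⟨by norm_num⟩
  refine CuspBaseFinal81.cuspCount_le k 9 (Or.inr rfl) ?_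
  intro h9
  apply h3
  have h : ((9 : ℕ) : k) = 3 * 3 := by norm_num
  rw [h] at h9
  exact (mul_self_eq_zero.mp h9)

/-- (C-SEMI) at every level prime to `ℓ`. -/
theorem csemiOver : CSemiOver := by
  intro A ℓ _ hA M _ hM
  haveI := ValRing25.residueField_isAlgClosed A
  have hMk := natCast_residueField_ne_zero A hA hM
  exact CuspSemi80.cInf_add_dwGenus_le_of_frame M A (frame A M hMk) (frame_F A M hMk)
    (hj_frame A M hMk) (ht_frame A M hMk) hMk (hrange_frame A M hMk) (degProp A M hMk)
    (latticeM A hA M hM)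

/-- **The frozen statement S18.** -/
theorem s18 (N : ℕ) [NeZero N] {ℓ : ℕ}
    [Fact ℓ.Prime] (hℓN : ¬ ℓ ∣ N) (A : ValuationSubring (AlgebraicClosure ℚ))
    (hA : A.LiesOverPrime ℓ)
    (h : ModularCurve.ReductionInputsModL A N) (m : ℕ) (hm : ¬ ℓ ∣ m) (z : ModularCurve.JZero N)
    (hmz : m • z = 0) (hz : ModularCurve.reductionModL A N z = 0) :
    z = 0 :=
  s18_of_csemi_cbase csemiOver cbaseFour cbaseNine N hℓN A hA h m hm z hmz hz

end Fermat.Agent.S18.LevelClosed29
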