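/-
S18 / LD-ASSEMBLY, second seat (helper25; (A8) of helper29's assembly split):
DEGREES OF THE SPECIAL FIBRE FROM A FRAME — no `KEY0` over `k` needed.

* generic (`L` any field, `A` any valuation subring, `S : BridgeKernel15.Frame A ι`):
  `relfinrank_le_card_of_inSpan`, `relfinrank_le_card_of_surj` : if every element of an
  intermediate field `Fbar ∋ t` of `k((q))/k` is a reduction `rhoF y`, then `[Fbar : k(t)] ≤ #ι`
  (the reductions of the frame span).
* concrete (`L = ℚ̄`, `A ∣ ℓ`, `ℓ ∤ M`, `S.F = modularFunctionFieldBar M`, `S.j = jqModC ℚ̄`, frame made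
  of integral monomials): `t_eq`, `exists_rhoF_eq_of_mem_fullC`, `mem_fullC_iff_exists_rhoF`
  (`rho (O ∩ F_M) = F̄_M`), and
  `relfinrank_fullC = ψ(M)`, `finrank_algRat_fullC = ψ(M)` (SepInst72 `RatFunc k`-instance, the
  `hn₁` / `hn₀` of `GenusField39`), `finrank_adjoin_xbar = ψ(M)` (S24 `IsFunctionFieldOver` shape).
-/
import Mathlib
import Fermat.Agent.S18.BridgeKernel15
import Fermat.Agent.S18.Bridge28.Frame
import Fermat.Agent.S18.Bridge28.Concrete
import Fermat.Agent.S18.SepInst72

set_option autoImplicit false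
set_option linter.unusedSectionVars false
set_option linter.style.haveILetI false

open ModularCurve HahnSeries Polynomial IntermediateField Module

noncomputable section

namespace Fermat.Agent.S18.LevelDeg25

open Fermat.Agent.S18.Bridge28 Fermat.Agent.S18.BridgeO15 Fermat.Agent.S18.BridgeGauss15
open Fermat.Agent.S18.BridgeKernel15

/-! ### Generic: the reductions of a frame span -/

section Generic

variable {L : Type*} [Field L] {A : ValuationSubring L} {ι : Type*} [Fintype ι] (S : Frame A ι)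

/-- If every element of `Fbar ∋ t` lies in the `k(t)`-span of the reductions of the frame, then
`[Fbar : k(t)] ≤ #ι`. -/
theorem relfinrank_le_card_of_inSpan
    (Fbar : IntermediateField (IsLocalRing.ResidueField A)
      (LaurentSeries (IsLocalRing.ResidueField A)))
    (htF : S.t ∈ Fbar) (hspan : ∀ z ∈ Fbar, S.InSpan z) :
    IntermediateField.relfinrank ((IsLocalRing.ResidueField A)⟮S.t⟯) Fbar ≤ Fintype.card ι := by
  have hle : (IsLocalRing.ResidueField A)⟮S.t⟯ ≤ Fbar := by
    rw [adjoin_simple_le_iff]; exact htF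
  rw [IntermediateField.relfinrank_eq_finrank_of_le hle]
  let W : Submodule ↥((IsLocalRing.ResidueField A)⟮S.t⟯)
      (LaurentSeries (IsLocalRing.ResidueField A)) :=
    Submodule.span _ (Set.range fun i => rho A (S.xO i))
  have hW : Subalgebra.toSubmodule (extendScalars hle).toSubalgebra ≤ W := by
    intro z hz
    have hz' : z ∈ Fbar := hz
    obtain ⟨g, hg, rfl⟩ := hspan z hz'
    refine Submodule.sum_mem _ fun i _ => ?_
    have h1 : g i * rho A (S.xO i) =
        (⟨g i, hg i⟩ : ↥((IsLocalRing.ResidueField A)⟮S.t⟯)) • rho A (S.xO i) := by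
      rw [IntermediateField.smul_def]; rfl
    rw [h1]
    exact Submodule.smul_mem _ _ (Submodule.subset_span ⟨i, rfl⟩)
  haveI : Module.Finite ↥((IsLocalRing.ResidueField A)⟮S.t⟯) W :=
    Module.Finite.span_of_finite _ (Set.finite_range _)
  calc finrank ↥((IsLocalRing.ResidueField A)⟮S.t⟯) ↥(extendScalars hle)
      = finrank ↥((IsLocalRing.ResidueField A)⟮S.t⟯)
          ↥(Subalgebra.toSubmodule (extendScalars hle).toSubalgebra) := rfl
    _ ≤ finrank ↥((IsLocalRing.ResidueField A)⟮S.t⟯) W := Submodule.finrank_mono hW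
    _ ≤ Fintype.card ι := finrank_range_le_card _

/-- If every element of `Fbar ∋ t` is a reduction, then `[Fbar : k(t)] ≤ #ι`. -/
theorem relfinrank_le_card_of_surj
    (Fbar : IntermediateField (IsLocalRing.ResidueField A)
      (LaurentSeries (IsLocalRing.ResidueField A)))
    (htF : S.t ∈ Fbar) (hsurj : ∀ z ∈ Fbar, ∃ y : S.OF, S.rhoF y = z) :
    IntermediateField.relfinrank ((IsLocalRing.ResidueField A)⟮S.t⟯) Fbar ≤ Fintype.card ι :=
  relfinrank_le_card_of_inSpan S Fbar htF fun z hz => by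
    obtain ⟨y, rfl⟩ := hsurj z hz
    exact S.rhoF_mem_span y

end Generic

/-! ### Concrete: `F_M` over `ℚ̄`, `A ∣ ℓ`, `ℓ ∤ M` -/

section Concrete

open Fermat.Agent.S28 Fermat.Agent.S28.KeyGlue Fermat.Agent.S20

/-- `ℚ̄` -/
local notation "Kb" => AlgebraicClosure ℚ

variable {A : ValuationSubring Kb} {M : ℕ} [NeZero M] {ι : Type*} [Fintype ι]
  (S : Frame A ι)

/-- the integral series `j(q^d)` -/
theorem rho_inclZ' (s : LaurentSeries ℤ) (h : coeffMap (Int.castRingHom Kb) s ∈ O A) :
    rho A ⟨coeffMap (Int.castRingHom Kb) s, h⟩ =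
      coeffMap (Int.castRingHom (IsLocalRing.ResidueField A)) s :=
  rho_inclZ A s

/-- `t = rho j = j̄` -/
theorem t_eq (hj : S.j = jqModC Kb) : S.t = jqModC (IsLocalRing.ResidueField A) := by
  have h1 : S.j = coeffMap (Int.castRingHom Kb) (jqModC ℤ) := by rw [hj, coeffMap_jqModC]
  have h2 : S.t = rho A ⟨coeffMap (Int.castRingHom Kb) (jqModC ℤ), inclZ_mem_O A _⟩ :=
    rho_congr A h1
  rw [h2, rho_inclZ, coeffMap_jqModC]

/-- integral series with image in `F` are reductions -/
theorem exists_rhoF_eq_coeffMap (s : LaurentSeries ℤ)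
    (hs : coeffMap (Int.castRingHom Kb) s ∈ S.F) :
    ∃ y : S.OF, S.rhoF y = coeffMap (Int.castRingHom (IsLocalRing.ResidueField A)) s := by
  refine ⟨⟨⟨_, hs⟩, ?_⟩, ?_⟩
  · rw [Frame.mem_OF_iff]
    exact inclZ_mem_O A s
  · rw [Frame.rhoF_apply]
    exact rho_inclZ A s

variable (hF : S.F = modularFunctionFieldBar M)
include hF

/-- every generator `j̄(q^d)`, `d ∣ M`, of `F̄_M` is a reduction -/
theorem exists_rhoF_eq_of_mem_divisorExpansionsC
    {g : LaurentSeries (IsLocalRing.ResidueField A)}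
    (hg : g ∈ divisorExpansionsC (IsLocalRing.ResidueField A) M) :
    ∃ y : S.OF, S.rhoF y = g := by
  obtain ⟨d, hd, hdM, rfl⟩ := hg
  have hmem : coeffMap (Int.castRingHom Kb) (qExpand ℤ d (jqModC ℤ)) ∈ S.F := by
    rw [hF, coeffMap_qExpand, coeffMap_jqModC, mem_modularFunctionFieldBar_iff]
    exact jqModCd_mem_full _ M hdM
  obtain ⟨y, hy⟩ := exists_rhoF_eq_coeffMap S _ hmem
  refine ⟨y, ?_⟩
  rw [hy, coeffMap_qExpand, coeffMap_jqModC]

variable (hj : S.j = jqModC Kb)
  (hx : ∀ i, ∃ xZ ∈ monomialsZ M, S.x i = coeffMap (Int.castRingHom Kb) xZ)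
include hj hx

theorem rho_xO_mem_fullC (i : ι) :
    rho A (S.xO i) ∈ modularFunctionFieldFullC (IsLocalRing.ResidueField A) M := by
  obtain ⟨xZ, hxZ, hxi⟩ := hx i
  have h2 : rho A (S.xO i) = rho A ⟨coeffMap (Int.castRingHom Kb) xZ, inclZ_mem_O A _⟩ :=
    rho_congr A hxi
  rw [h2, rho_inclZ]
  exact coeffMap_mem_fullC_of_mem_monomialsZ _ hxZ

/-- **`rho (O ∩ F_M) = F̄_M`.** -/
theorem mem_fullC_iff_exists_rhoF (z : LaurentSeries (IsLocalRing.ResidueField A)) :
    z ∈ modularFunctionFieldFullC (IsLocalRing.ResidueField A) M ↔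
      ∃ y : S.OF, S.rhoF y = z := by
  refine S.range_rhoF (modularFunctionFieldFullC (IsLocalRing.ResidueField A) M)
    (divisorExpansionsC (IsLocalRing.ResidueField A) M)
    (fun g hg => exists_rhoF_eq_of_mem_divisorExpansionsC S hF hg) rfl ?_
    (rho_xO_mem_fullC S hF hj hx) z
  rw [t_eq S hj]
  exact jqModC_mem_full _ M

/-- **upper bound** `[F̄_M : k(j̄)] ≤ #ι` from the frame -/
theorem relfinrank_fullC_le :
    IntermediateField.relfinrank
      ((IsLocalRing.ResidueField A)⟮jqModC (IsLocalRing.ResidueField A)⟯)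
      (modularFunctionFieldFullC (IsLocalRing.ResidueField A) M) ≤ Fintype.card ι := by
  have h := relfinrank_le_card_of_surj S
    (modularFunctionFieldFullC (IsLocalRing.ResidueField A) M)
    (by rw [t_eq S hj]; exact jqModC_mem_full _ M)
    (fun z hz => (mem_fullC_iff_exists_rhoF S hF hj hx z).mp hz)
  rwa [t_eq S hj] at h

end Concrete

/-! ### The degree `ψ(M)` -/

section Degree

open Fermat.Agent.S28 Fermat.Agent.S28.KeyGlue Fermat.Agent.S20

local notation "Kb" => AlgebraicClosure ℚ

variable {A : ValuationSubring Kb} {M : ℕ} [NeZero M]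
  (hMk : (M : IsLocalRing.ResidueField A) ≠ 0)
  (S : Frame A (Fin (dedekindPsi M))) (hF : S.F = modularFunctionFieldBar M)
  (hj : S.j = jqModC Kb)
  (hx : ∀ i, ∃ xZ ∈ monomialsZ M, S.x i = coeffMap (Int.castRingHom Kb) xZ)
include hMk hF hj hx

/-- **`[F̄_M : k(j̄)] = ψ(M)`**, `finrank (RatFunc k)` form in the `SepInst72` instance
(`hn₁`/`hn₀` of `GenusField39`), from ANY frame of integral monomials. -/
theorem finrank_algRat_fullC_of_frame :
    letI := T1Setup.algRat (SepInst72.transcendental_xbar (IsLocalRing.ResidueField A) M)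
    Module.finrank (RatFunc (IsLocalRing.ResidueField A))
      ↥(modularFunctionFieldFullC (IsLocalRing.ResidueField A) M) = dedekindPsi M := by
  letI := T1Setup.algRat (SepInst72.transcendental_xbar (IsLocalRing.ResidueField A) M)
  haveI : IsAlgClosed (IsLocalRing.ResidueField A) := ValRing25.residueField_isAlgClosed A
  apply le_antisymm
  · rw [SepInst72.finrank_algRat_eq_relfinrank]
    have h := relfinrank_fullC_le S hF hj hx
    rwa [Fintype.card_fin] at h
  · exact SepInst72.dedekindPsi_le_finrank_algRat _ M hMk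

/-- `relfinrank` form (S28 / BRIDGE shape) -/
theorem relfinrank_fullC_of_frame :
    IntermediateField.relfinrank
      ((IsLocalRing.ResidueField A)⟮jqModC (IsLocalRing.ResidueField A)⟯)
      (modularFunctionFieldFullC (IsLocalRing.ResidueField A) M) = dedekindPsi M := by
  rw [← SepInst72.finrank_algRat_eq_relfinrank]
  exact finrank_algRat_fullC_of_frame hMk S hF hj hx

/-- `finrank k⟮x̄⟯` form (S24 `IsFunctionFieldOver` / FFPlaces30 shape) -/
theorem finrank_adjoin_xbar_of_frame :
    Module.finrank ↥((IsLocalRing.ResidueField A)⟮SepInst72.xbar (IsLocalRing.ResidueField A) M⟯)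
      ↥(modularFunctionFieldFullC (IsLocalRing.ResidueField A) M) = dedekindPsi M := by
  rw [SepInst72.finrank_adjoin_xbar_eq_relfinrank]
  exact relfinrank_fullC_of_frame hMk S hF hj hx

end Degree

/-! ### Final form: helper28's concrete frame `Bridge28.frame A M hMk` -/

section Final

open Fermat.Agent.S28 Fermat.Agent.S28.KeyGlue Fermat.Agent.S20

local notation "Kb" => AlgebraicClosure ℚ

variable (A : ValuationSubring Kb) (M : ℕ) [NeZero M]
  (hMk : (M : IsLocalRing.ResidueField A) ≠ 0)
include hMk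

/-- **`finrank (RatFunc k) F̄_M = ψ(M)`** (SepInst72 instance): `hn₁`, `hn₀` of `GenusField39`. -/
theorem finrank_algRat_fullC :
    letI := T1Setup.algRat (SepInst72.transcendental_xbar (IsLocalRing.ResidueField A) M)
    Module.finrank (RatFunc (IsLocalRing.ResidueField A))
      ↥(modularFunctionFieldFullC (IsLocalRing.ResidueField A) M) = dedekindPsi M :=
  finrank_algRat_fullC_of_frame hMk (frame A M hMk) rfl rfl
    (fun i => ⟨xZ A M hMk i, xZ_mem A M hMk i, rfl⟩)

/-- **`[F̄_M : k(j̄)] = ψ(M)`** inside `k((q))`. -/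
theorem relfinrank_fullC :
    IntermediateField.relfinrank
      ((IsLocalRing.ResidueField A)⟮jqModC (IsLocalRing.ResidueField A)⟯)
      (modularFunctionFieldFullC (IsLocalRing.ResidueField A) M) = dedekindPsi M :=
  relfinrank_fullC_of_frame hMk (frame A M hMk) rfl rfl
    (fun i => ⟨xZ A M hMk i, xZ_mem A M hMk i, rfl⟩)

/-- **`finrank k⟮x̄⟯ F̄_M = ψ(M)`**. -/
theorem finrank_adjoin_xbar :
    Module.finrank ↥((IsLocalRing.ResidueField A)⟮SepInst72.xbar (IsLocalRing.ResidueField A) M⟯)
      ↥(modularFunctionFieldFullC (IsLocalRing.ResidueField A) M) = dedekindPsi M :=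
  finrank_adjoin_xbar_of_frame hMk (frame A M hMk) rfl rfl
    (fun i => ⟨xZ A M hMk i, xZ_mem A M hMk i, rfl⟩)

omit hMk in
/-- the same for `A ∣ ℓ`, `ℓ ∤ M` -/
theorem finrank_algRat_fullC_of_liesOver {ℓ : ℕ} [Fact ℓ.Prime] (hA : A.LiesOverPrime ℓ)
    (hM : ¬ ℓ ∣ M) :
    letI := T1Setup.algRat (SepInst72.transcendental_xbar (IsLocalRing.ResidueField A) M)
    Module.finrank (RatFunc (IsLocalRing.ResidueField A))
      ↥(modularFunctionFieldFullC (IsLocalRing.ResidueField A) M) = dedekindPsi M :=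
  finrank_algRat_fullC A M (natCast_residueField_ne_zero A hA hM)

end Final

end Fermat.Agent.S18.LevelDeg25
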