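/-
S18 moonshot (Spine33 `LevelStatement`), package [LEVEL]-END (helper73).

The CHARACTERISTIC-ZERO consumer end of (T), for any function field `F/K` (`K` algebraically closed
of characteristic `0`, `F` finite over `K(x)`), on top of the S24 place API:

* `isAlgebraic_of_ord_nonneg` : no poles ⇒ constant;
* `exists_root_of_mem`        : `m • D = div f`, `0 ≠ y ∈ L(-D)` ⇒ `f` is an `m`-th power;
* `exists_divisor_div`        : `m ∣ ord_P f` for all `P` ⇒ `D = (1/m) div f` exists, `deg D = 0`;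
* `exists_pole_zero_divisors` : `E = (x)_∞`, `E' = (x)_0` with `deg = [F : K(x)]`;
* `exists_root_of_gauss`      : the abstract `LevelStatement`: from a `KGauss73.GaussData`, an
  abstract special-fibre family `Pb`, Riemann's inequality for `F/K` and the special-fibre upper
  bound, a one-unit which is locally an `m`-th power is an `m`-th power.
-/
import Mathlib
import Fermat.Agent.S24.FFPlaces
import Fermat.Agent.S18.FFLSpace5
import Fermat.Agent.S18.KAdapter73b

set_option autoImplicit false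

namespace Fermat.Agent.S18.LevelEnd73

open AlgebraicCurve IntermediateField Module
open Fermat.Agent.S24.FFPlaces
open Fermat.Agent.S18.KGauss73 Fermat.Agent.S18.KDiv73

variable {K F : Type*} [Field K] [Field F] [Algebra K F] [CharZero K]

/-- A function without poles is algebraic over the constants. -/
theorem isAlgebraic_of_ord_nonneg (x : F) (hfin : FiniteDimensional K⟮x⟯ F) {g : F}
    (hg : ∀ v : Place K F, 0 ≤ v.ord g) : IsAlgebraic K g := by
  by_contra hna
  have htr : Transcendental K g := hna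
  have hfing := finiteDimensional_simple_of_transcendental hfin htr
  obtain ⟨Z, hZ, -, hsum⟩ := exists_finset_poles_of_transcendental g htr hfing
  have hZe : Z = ∅ := by
    ext w
    simp only [hZ, Finset.notMem_empty, iff_false, not_lt]
    exact hg w
  rw [hZe, Finset.sum_empty] at hsum
  have : 0 < Module.finrank K⟮g⟯ F := Module.finrank_pos
  omega

/-- If `m • D = div f` and `L(-D) ≠ 0` then `f` is an `m`-th power. -/
theorem exists_root_of_mem [IsAlgClosed K] (x : F) (hfin : FiniteDimensional K⟮x⟯ F) {m : ℕ}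
    (hm : 0 < m) {f : F} (hf : f ≠ 0) (D : Divisor K F)
    (hD : ∀ v : Place K F, v.ord f = (m : ℤ) * D v) {y : F} (hy0 : y ≠ 0)
    (hy : y ∈ riemannRochSpace (-D)) : ∃ u : F, u ^ m = f := by
  have hg : ∀ v : Place K F, 0 ≤ v.ord (y ^ m / f) := by
    intro v
    rw [div_eq_mul_inv, v.ord_mul (pow_ne_zero _ hy0) (inv_ne_zero hf), v.ord_inv,
      ← zpow_natCast, v.ord_zpow, hD v]
    have h1 := ((mem_riemannRochSpace_iff.mp hy) v).resolve_left hy0
    rw [Finsupp.neg_apply, neg_neg] at h1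
    have hm' : (0 : ℤ) ≤ (m : ℤ) := by positivity
    nlinarith
  have halg := isAlgebraic_of_ord_nonneg x hfin hg
  have hdeg : (minpoly K (y ^ m / f)).degree = 1 :=
    IsAlgClosed.degree_eq_one_of_irreducible K (minpoly.irreducible halg.isIntegral)
  obtain ⟨c, hc⟩ := minpoly.mem_range_of_degree_eq_one K (y ^ m / f) hdeg
  have hc0 : c ≠ 0 := by
    rintro rfl
    rw [map_zero] at hc
    exact div_ne_zero (pow_ne_zero _ hy0) hf hc.symm
  obtain ⟨c₀, hc₀⟩ := IsAlgClosed.exists_pow_nat_eq c hm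
  have hc₀0 : c₀ ≠ 0 := by
    rintro rfl
    rw [zero_pow hm.ne'] at hc₀
    exact hc0 hc₀.symm
  refine ⟨y / algebraMap K F c₀, ?_⟩
  have hne : algebraMap K F c₀ ≠ 0 := by
    rwa [Ne, map_eq_zero]
  rw [div_pow, ← map_pow, hc₀, hc]
  field_simp

variable [HasPrincipalDivisors K F]

omit [CharZero K] in
/-- `D = (1/m) div f` for `f` locally an `m`-th power. -/
theorem exists_divisor_div {m : ℕ} (hm : m ≠ 0) {f : F} (hf : f ≠ 0)
    (hloc : ∀ P : Place K F, (m : ℤ) ∣ P.ord f) :
    ∃ D : Divisor K F, (∀ v : Place K F, v.ord f = (m : ℤ) * D v) ∧ Divisor.degree D = 0 := by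
  obtain ⟨D₀, hD₀, hdeg⟩ := HasPrincipalDivisors.exists_divisor (K := K) f hf
  refine ⟨Finsupp.mapRange (fun n : ℤ => n / (m : ℤ)) (by simp) D₀, fun v => ?_, ?_⟩
  · rw [Finsupp.mapRange_apply, hD₀ v, Int.mul_ediv_cancel' (hloc v)]
  · have hm' : (m : ℤ) ≠ 0 := by exact_mod_cast hm
    have h1 : (m : ℤ) • Finsupp.mapRange (fun n : ℤ => n / (m : ℤ)) (by simp) D₀ = D₀ := by
      ext v
      rw [Finsupp.smul_apply, Finsupp.mapRange_apply, smul_eq_mul, hD₀ v,
        Int.mul_ediv_cancel' (hloc v)]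
    have h2 := congrArg Divisor.degree h1
    rw [map_zsmul, hdeg, smul_eq_mul] at h2
    rcases mul_eq_zero.mp h2 with h | h
    · exact absurd h hm'
    · exact h

omit [HasPrincipalDivisors K F] in
/-- The polar divisor and the zero divisor of a separating variable. -/
theorem exists_pole_zero_divisors (x : F) (hx : Transcendental K x)
    (hfin : FiniteDimensional K⟮x⟯ F) :
    ∃ E E' : Divisor K F, (∀ v : Place K F, E v = max 0 (-(v.ord x))) ∧
      (∀ v : Place K F, E' v = max 0 (v.ord x)) ∧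
      Divisor.degree E = (Module.finrank K⟮x⟯ F : ℤ) ∧
      Divisor.degree E' = (Module.finrank K⟮x⟯ F : ℤ) := by
  obtain ⟨Z0, hZ0, -, hsum0⟩ := exists_finset_zeros_of_transcendental x hx hfin
  obtain ⟨Zp, hZp, -, hsump⟩ := exists_finset_poles_of_transcendental x hx hfin
  have hsuppE : ∀ v : Place K F, max 0 (-(v.ord x)) ≠ 0 → v ∈ Zp := by
    intro v hv
    rw [hZp]
    by_contra hcon
    apply hv
    rw [max_eq_left]
    omega
  have hsuppE' : ∀ v : Place K F, max 0 (v.ord x) ≠ 0 → v ∈ Z0 := by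
    intro v hv
    rw [hZ0]
    by_contra hcon
    apply hv
    rw [max_eq_left]
    omega
  refine ⟨Finsupp.onFinset Zp (fun v => max 0 (-(v.ord x))) hsuppE,
    Finsupp.onFinset Z0 (fun v => max 0 (v.ord x)) hsuppE', fun v => rfl, fun v => rfl, ?_, ?_⟩
  · rw [degree_onFinset]
    have : ∑ v ∈ Zp, max 0 (-(v.ord x)) * (v.deg : ℤ) = ∑ v ∈ Zp, -(v.ord x * (v.deg : ℤ)) := by
      refine Finset.sum_congr rfl fun v hv => ?_
      have := (hZp v).mp hv
      rw [max_eq_right (by omega)]
      ring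
    rw [this, Finset.sum_neg_distrib, hsump, neg_neg]
  · rw [degree_onFinset]
    have : ∑ v ∈ Z0, max 0 (v.ord x) * (v.deg : ℤ) = ∑ v ∈ Z0, v.ord x * (v.deg : ℤ) := by
      refine Finset.sum_congr rfl fun v hv => ?_
      have := (hZ0 v).mp hv
      rw [max_eq_right (by omega)]
    rw [this, hsum0]

omit [HasPrincipalDivisors K F] in
/-- **Abstract `LevelStatement`.**  `F/K` a function field over an algebraically closed field of
characteristic `0`, `x` a separating variable, `w` a valuation of `F` with reduction data `G` (Gauss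
valuation), `Pb a b` an abstract model of `Lbar(a (xbar)_∞ + b (xbar)_0)` on the special fibre.  If
Riemann's inequality with constant `γ` holds on `F/K` and `dim Pb a b + γ ≤ (a+b) n + 1`
(`n = [F : K(x)]`), then every `f` with `w (f - 1) < 1` which is locally an `m`-th power
(`w m = 1`) is an `m`-th power. -/
theorem exists_root_of_gauss [IsAlgClosed K]
    {k Fb Γ₀ : Type*} [Field k] [Field Fb] [Algebra k Fb] [LinearOrderedCommGroupWithZero Γ₀]
    (x : F) (hx : Transcendental K x) (hfin : FiniteDimensional K⟮x⟯ F)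
    {w : Valuation F Γ₀} (G : GaussData (L := K) w k Fb)
    {Pb : ℕ → ℕ → Submodule k Fb} {m : ℕ} {f : F} (hf0 : f ≠ 0)
    (hloc : ∀ P : Place K F, (m : ℤ) ∣ P.ord f)
    (hone : ∀ a b : ℕ, (1 : Fb) ∈ Pb a b)
    (hroot : ∀ (a b : ℕ) (z : Fb), z ^ m ∈ Pb (m * a) (m * b) → z ∈ Pb a b)
    (hm : w (m : F) = 1) (hf : w (f - 1) < 1)
    (hval : ∀ y : F, y ≠ 0 → ∃ c : K, w (algebraMap K F c) = w y)
    (harch : ∀ z : F, w z < 1 → ∀ δ : K, δ ≠ 0 → ∃ n : ℕ, w z ^ n < w (algebraMap K F δ))
    (hint : ∀ (a b : ℕ) (y : F), y ≠ 0 →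
      (∀ v : Place K F, -((a : ℤ) * max 0 (-(v.ord x)) + (b : ℤ) * max 0 (v.ord x)) ≤ v.ord y) →
      w y ≤ 1 → G.redF y ∈ Pb a b)
    (hfinb : ∀ a b : ℕ, Module.Finite k (Pb a b))
    {c0 γ : ℕ}
    (hγ : ∀ H : Divisor K F,
      Divisor.degree H + 1 - (γ : ℤ) ≤ (Module.finrank K (riemannRochSpace H) : ℤ))
    (hupp : ∀ a b : ℕ, c0 ≤ a + b →
      Module.finrank k (Pb a b) + γ ≤ (a + b) * Module.finrank K⟮x⟯ F + 1)
    (hsplit : ∀ a' b' : ℕ, c0 ≤ a' → c0 ≤ b' →
      Pb a' b' ≤ Pb c0 c0 ⊔ Pb a' 0 ⊔ Pb 0 b') :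
    ∃ u : F, u ^ m = f := by
  have : HasPrincipalDivisors K F := hasPrincipalDivisors x hfin
  have hm0 : m ≠ 0 := by
    rintro rfl
    rw [Nat.cast_zero, map_zero] at hm
    exact zero_ne_one hm
  obtain ⟨D, hD, hDdeg⟩ := exists_divisor_div hm0 hf0 hloc
  obtain ⟨E, E', hE, hE', hEdeg, hE'deg⟩ := exists_pole_zero_divisors x hx hfin
  -- a place exists
  obtain ⟨v₀⟩ : Nonempty (Place K F) := by
    obtain ⟨Zp, -, -, hsump⟩ := exists_finset_poles_of_transcendental x hx hfin
    by_contra hne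
    rw [not_nonempty_iff] at hne
    have : Zp = ∅ := Finset.eq_empty_of_isEmpty Zp
    rw [this, Finset.sum_empty] at hsump
    have : 0 < Module.finrank K⟮x⟯ F := Module.finrank_pos
    omega
  have hres : ∀ v : Place K F, v.FiniteResidue := fun v => finiteResidue x hfin v
  have hEnn : ∀ v, 0 ≤ E v := fun v => by rw [hE v]; exact le_max_left _ _
  have hE'nn : ∀ v, 0 ≤ E' v := fun v => by rw [hE' v]; exact le_max_left _ _
  have hdisj : ∀ v, E v = 0 ∨ E' v = 0 := by
    intro v
    rw [hE v, hE' v]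
    rcases le_total 0 (v.ord x) with h | h
    · left; rw [max_eq_left]; omega
    · right; rw [max_eq_left]; omega
  have hintE : ∀ (a b : ℕ) (y : F), y ∈ P0 E E' a b → w y ≤ 1 → G.redF y ∈ Pb a b := by
    -- INTEGRALITY in the divisor-free form
    intro a b y hy hy1
    by_cases hy0 : y = 0
    · subst hy0
      have h0 : G.redF (0 : F) = 0 := (G.redF_eq_zero_iff (by rw [map_zero]; exact zero_le)).mpr
        (by rw [map_zero]; exact zero_lt_one)
      rw [h0]
      exact Submodule.zero_mem _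
    · refine hint a b y hy0 (fun v => ?_) hy1
      have h1 := ((mem_riemannRochSpace_iff.mp hy) v).resolve_left hy0
      rw [Finsupp.add_apply, Finsupp.smul_apply, Finsupp.smul_apply, smul_eq_mul, smul_eq_mul,
        hE v, hE' v] at h1
      exact h1
  have hfinP : ∀ a b : ℕ, Module.Finite K (P1 E E' D a b) := by
    intro a b
    exact FFLSpace5.finite_riemannRochSpace hres v₀ _
  have hlow : ∀ a b : ℕ, c0 ≤ a + b →
      (a + b) * Module.finrank K⟮x⟯ F + 1 ≤ Module.finrank K (P1 E E' D a b) + γ := by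
    intro a b _
    have h1 := hγ ((a : ℤ) • E + (b : ℤ) • E' - D)
    rw [map_sub, map_add, map_zsmul, map_zsmul, hEdeg, hE'deg, hDdeg, smul_eq_mul, smul_eq_mul]
      at h1
    have : (((a + b) * Module.finrank K⟮x⟯ F + 1 : ℕ) : ℤ) ≤
        ((Module.finrank K (P1 E E' D a b) + γ : ℕ) : ℤ) := by
      unfold P1
      push_cast
      linarith
    exact_mod_cast this
  obtain ⟨y, hy0, hy⟩ := KAdapter73b.exists_ne_zero_of_ineq G (E := E) (E' := E') (D := D)
    (Pb := Pb) (m := m) (f := f) (c0 := c0) (n := Module.finrank K⟮x⟯ F) (γ := γ)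
    hEnn hE'nn hdisj hone hroot hm hf hD hval harch hintE hfinP hfinb hlow hupp hsplit
  exact exists_root_of_mem x hfin (Nat.pos_of_ne_zero hm0) hf0 D hD hy0 hy

end Fermat.Agent.S18.LevelEnd73
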