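/-
S18 / `Level33.LevelData`, fields [FF0] + [RIEMANN0]  (helper12)  = L-INST (i), CHARACTERISTIC 0.

The concrete RatFunc-setting instance `(ℚ̄, F_M = modularFunctionFieldBar M, X ↦ j)` obtained from
`S24.Exports.isFunctionFieldOver_jF` through `S20.T1Setup` (`letI`, nothing global), and its
consequences IN EXACTLY THE SHAPE OF THE FIELDS OF `Level33.LevelData`:

* `hasPD M`      : `HasPrincipalDivisors Kb (FK M)`
* `deg_pos M`    : `∀ v, 0 < v.deg`                      (`deg_eq_one M` : all places have degree 1)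
* `const M`      : `y ≠ 0 → (∀ v, v.ord y = 0) → ∃ c, y = algebraMap Kb (FK M) c`
* `E M`, `E' M`  : pole / zero divisor of `j`, `E_apply`, `E'_apply`, `E_nonneg`, `E'_nonneg`,
                   `disj`, `deg_E`, `deg_E'` with `n M := dedekindPsi M`
* `γ M : ℤ`      : the Dedekind–Weber genus `DW63.dwGenus` of `F_M / ℚ̄(j)` (`γnat M : ℕ`)
* `rr_finite M`, `riemann M` : Riemann's inequality `deg G + 1 - γ ≤ dim L(G)` (Prelude spaces)
* `isRiemannGenus M` : `Riemann12.IsRiemannGenus Kb (FK M) (γ M)` (so `γ` is THE Riemann genus)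
* `two_mul_γ_sub_two M` : `2γ - 2 = -2ψ(M) + Dfin + Dinf` (in the `letI` instances `algRatFM`)
* `six_mul_two_mul_γ_sub_two M` : at a good level (`4 ∣ M ∨ 9 ∣ M`)
                   `6 (2γ - 2) = ψ(M) - 6 cuspCount M`   (INSTANCE-FREE numeric value of `γ`)
* `γ_eq_gR M` : `γ M = Riemann12.gR Kb (FK M)`; `γ_eq_dwGenus M` : `γ M = DW63.dwGenus Kb (FK M)`
  for EVERY separable RatFunc-setting instance chain on `F_M`; `γ_le_of_dwGenus_le`.
No sorry.
-/
import Fermat.Agent.S18.Level33
import Fermat.Agent.S18.LevelEnd73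
import Fermat.Agent.S18.DW63.Riemann
import Fermat.Agent.S18.Char0Diff39
import Fermat.Agent.S24.Exports
import Fermat.Agent.S20.T1Setup

set_option autoImplicit false
set_option linter.unusedSectionVars false
set_option linter.style.haveILetI false
set_option synthInstance.maxHeartbeats 400000
set_option maxHeartbeats 1600000

open Polynomial AlgebraicCurve IntermediateField Module ModularCurve
open scoped Classical

noncomputable section

namespace Fermat.Agent.S18.LevelFF12

open Fermat.Agent.S20 Fermat.Agent.S20.T1 Fermat.Agent.S24 Fermat.Agent.S24.PlaceDedekind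
open Fermat.Agent.S20.NormalBasis (Oinf)
open Fermat.Agent.S18.Spine33 (Kb FK)

variable (M : ℕ) [NeZero M]

/-! ### the RatFunc-setting instances (`letI` only) -/

theorem hF : IsFunctionFieldOver Kb (jF M) := Exports.isFunctionFieldOver_jF M

theorem htr : Transcendental Kb (jF M) := (hF M).transcendental

theorem hfin : FiniteDimensional Kb⟮jF M⟯ (FK M) := (hF M).finite

/-- `F_M` as a `RatFunc ℚ̄`-algebra, `X ↦ j`. -/
@[reducible] def algRatFM : Algebra (RatFunc Kb) (FK M) := T1Setup.algRat (htr M)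

/-- `F_M` as a `ℚ̄[X]`-algebra, `X ↦ j`. -/
@[reducible] def algPolyFM : Algebra Kb[X] (FK M) := T1Setup.algPoly (K := Kb) (jF M)

theorem towerK :
    letI := algRatFM M
    IsScalarTower Kb (RatFunc Kb) (FK M) := T1Setup.isScalarTower_K (htr M)

theorem towerPoly :
    letI := algRatFM M
    letI := algPolyFM M
    IsScalarTower Kb[X] (RatFunc Kb) (FK M) := T1Setup.isScalarTower_poly (htr M)

theorem finiteRat :
    letI := algRatFM M
    FiniteDimensional (RatFunc Kb) (FK M) := T1Setup.finiteDimensional_of (hF M)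

theorem sepRat :
    letI := algRatFM M
    Algebra.IsSeparable (RatFunc Kb) (FK M) := T1Setup.isSeparable_of (hF M)

theorem xF_eq :
    letI := algRatFM M
    xF Kb (FK M) = jF M := T1Setup.algebraMap_X (htr M)

theorem finrank_rat :
    letI := algRatFM M
    finrank (RatFunc Kb) (FK M) = dedekindPsi M := by
  letI := algRatFM M
  rw [T1Setup.finrank_eq_degOver (hF M), Exports.degOver_jF]

theorem finrank_adjoin : finrank Kb⟮jF M⟯ (FK M) = dedekindPsi M :=
  Exports.degOver_jF M

/-! ### [FF0] -/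

/-- principal divisors on `F_M` (characteristic `0`). -/
theorem hasPD : HasPrincipalDivisors Kb (FK M) :=
  FFPlaces.hasPrincipalDivisors (jF M) (hfin M)

theorem deg_eq_one (v : Place Kb (FK M)) : v.deg = 1 := by
  letI := algRatFM M
  letI := algPolyFM M
  haveI := towerK M
  haveI := towerPoly M
  haveI := finiteRat M
  haveI := sepRat M
  exact DW63.deg_eq_one Kb (FK M) v

theorem deg_pos (v : Place Kb (FK M)) : 0 < v.deg := by
  rw [deg_eq_one]
  exact one_pos

/-- a function without zeros and poles is constant. -/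
theorem const (y : FK M) (_hy : y ≠ 0) (h : ∀ v : Place Kb (FK M), v.ord y = 0) :
    ∃ c : Kb, y = algebraMap Kb (FK M) c := by
  have halg : IsAlgebraic Kb y :=
    LevelEnd73.isAlgebraic_of_ord_nonneg (jF M) (hfin M) (fun v => (h v).ge)
  have hdeg : (minpoly Kb y).degree = 1 :=
    IsAlgClosed.degree_eq_one_of_irreducible Kb (minpoly.irreducible halg.isIntegral)
  obtain ⟨c, hc⟩ := minpoly.mem_range_of_degree_eq_one Kb y hdeg
  exact ⟨c, hc.symm⟩

/-- a function without poles is constant. -/
theorem const_of_nonneg (y : FK M) (h : ∀ v : Place Kb (FK M), 0 ≤ v.ord y) :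
    ∃ c : Kb, y = algebraMap Kb (FK M) c := by
  have halg : IsAlgebraic Kb y := LevelEnd73.isAlgebraic_of_ord_nonneg (jF M) (hfin M) h
  have hdeg : (minpoly Kb y).degree = 1 :=
    IsAlgClosed.degree_eq_one_of_irreducible Kb (minpoly.irreducible halg.isIntegral)
  obtain ⟨c, hc⟩ := minpoly.mem_range_of_degree_eq_one Kb y hdeg
  exact ⟨c, hc.symm⟩

/-- the common degree of `(j)_∞` and `(j)_0`. -/
def n : ℕ := dedekindPsi M

theorem exists_E_E' :
    ∃ E E' : Divisor Kb (FK M), (∀ v : Place Kb (FK M), E v = max 0 (-(v.ord (jF M)))) ∧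
      (∀ v : Place Kb (FK M), E' v = max 0 (v.ord (jF M))) ∧
      Divisor.degree E = (n M : ℤ) ∧ Divisor.degree E' = (n M : ℤ) := by
  obtain ⟨E, E', h1, h2, h3, h4⟩ :=
    LevelEnd73.exists_pole_zero_divisors (jF M) (htr M) (hfin M)
  rw [finrank_adjoin] at h3 h4
  exact ⟨E, E', h1, h2, h3, h4⟩

/-- the pole divisor of `j`. -/
def E : Divisor Kb (FK M) := (exists_E_E' M).choose

/-- the zero divisor of `j`. -/
def E' : Divisor Kb (FK M) := (exists_E_E' M).choose_spec.choose

theorem E_apply (v : Place Kb (FK M)) : E M v = max 0 (-(v.ord (jF M))) :=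
  (exists_E_E' M).choose_spec.choose_spec.1 v

theorem E'_apply (v : Place Kb (FK M)) : E' M v = max 0 (v.ord (jF M)) :=
  (exists_E_E' M).choose_spec.choose_spec.2.1 v

theorem deg_E : Divisor.degree (E M) = (n M : ℤ) :=
  (exists_E_E' M).choose_spec.choose_spec.2.2.1

theorem deg_E' : Divisor.degree (E' M) = (n M : ℤ) :=
  (exists_E_E' M).choose_spec.choose_spec.2.2.2

theorem E_nonneg (v : Place Kb (FK M)) : 0 ≤ E M v := by
  rw [E_apply]; exact le_max_left _ _

theorem E'_nonneg (v : Place Kb (FK M)) : 0 ≤ E' M v := by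
  rw [E'_apply]; exact le_max_left _ _

theorem disj (v : Place Kb (FK M)) : E M v = 0 ∨ E' M v = 0 := by
  rw [E_apply, E'_apply]
  rcases le_total 0 (v.ord (jF M)) with h | h
  · left; rw [max_eq_left]; omega
  · right; rw [max_eq_left]; omega

/-- membership in `L(aE + bE')` in terms of `ord j` (for the [INT] owner). -/
theorem mem_rr_iff (a b : ℕ) (y : FK M) :
    y ∈ riemannRochSpace ((a : ℤ) • E M + (b : ℤ) • E' M) ↔
      ∀ v : Place Kb (FK M), y = 0 ∨
        -((a : ℤ) * max 0 (-(v.ord (jF M))) + (b : ℤ) * max 0 (v.ord (jF M))) ≤ v.ord y := by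
  rw [mem_riemannRochSpace_iff]
  refine forall_congr' fun v => or_congr Iff.rfl ?_
  rw [Finsupp.add_apply, Finsupp.smul_apply, Finsupp.smul_apply, smul_eq_mul, smul_eq_mul,
    E_apply, E'_apply]

/-! ### [RIEMANN0] -/

/-- the genus of `F_M` (Dedekind–Weber genus of `F_M / ℚ̄(j)`), as a natural number. -/
def γnat : ℕ :=
  letI := algRatFM M
  letI := algPolyFM M
  haveI := towerK M
  haveI := towerPoly M
  haveI := finiteRat M
  haveI := sepRat M
  DW63.dwGenus Kb (FK M)

/-- the genus of `F_M`, as the integer of `LevelData.γ`. -/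
def γ : ℤ := (γnat M : ℤ)

theorem γ_nonneg : 0 ≤ γ M := Int.natCast_nonneg _

theorem rr_finite (G : Divisor Kb (FK M)) : Module.Finite Kb (riemannRochSpace G) := by
  letI := algRatFM M
  letI := algPolyFM M
  haveI := towerK M
  haveI := towerPoly M
  haveI := finiteRat M
  haveI := sepRat M
  haveI := hasPD M
  exact DW63.finite_riemannRochSpace G

/-- **Riemann's inequality on `F_M`**. -/
theorem riemann (G : Divisor Kb (FK M)) :
    Divisor.degree G + 1 - γ M ≤ (finrank Kb (riemannRochSpace G) : ℤ) := by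
  letI := algRatFM M
  letI := algPolyFM M
  haveI := towerK M
  haveI := towerPoly M
  haveI := finiteRat M
  haveI := sepRat M
  haveI := hasPD M
  exact DW63.riemann_inequality G

/-- `γ M` is the Riemann genus of `F_M` in the sense of `Riemann12`. -/
theorem isRiemannGenus :
    haveI := hasPD M
    Riemann12.IsRiemannGenus Kb (FK M) (γ M) := by
  letI := algRatFM M
  letI := algPolyFM M
  haveI := towerK M
  haveI := towerPoly M
  haveI := finiteRat M
  haveI := sepRat M
  haveI := hasPD M
  exact DW63.isRiemannGenus_dwGenus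

/-- **Riemann's theorem on `F_M`**: equality for divisors of large degree. -/
theorem exists_riemann_equality :
    ∃ c : ℤ, ∀ G : Divisor Kb (FK M), c ≤ Divisor.degree G →
      (finrank Kb (riemannRochSpace G) : ℤ) = Divisor.degree G + 1 - γ M := by
  letI := algRatFM M
  letI := algPolyFM M
  haveI := towerK M
  haveI := towerPoly M
  haveI := finiteRat M
  haveI := sepRat M
  haveI := hasPD M
  exact DW63.exists_riemann_equality

/-! ### the value of `γ` -/

/-- `2γ - 2 = -2ψ + D_fin + D_∞` (different degrees of `F_M / ℚ̄(j)` in the `letI` instances). -/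
theorem two_mul_γ_sub_two :
    letI := algRatFM M
    letI := algPolyFM M
    haveI := towerK M
    haveI := towerPoly M
    haveI := finiteRat M
    haveI := sepRat M
    2 * γ M - 2 = -2 * (dedekindPsi M : ℤ) +
      (finrank Kb (Bfin Kb (FK M) ⧸ differentIdeal Kb[X] (Bfin Kb (FK M))) : ℤ) +
      (finrank Kb (Binf Kb (FK M) ⧸ differentIdeal (Oinf Kb) (Binf Kb (FK M))) : ℤ) := by
  letI := algRatFM M
  letI := algPolyFM M
  haveI := towerK M
  haveI := towerPoly M
  haveI := finiteRat M
  haveI := sepRat M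
  have h := DW63.two_mul_dwGenus_sub_two_finrank (K := Kb) (F := FK M)
  rw [finrank_rat M] at h
  exact h

/-- **the numeric value of `γ` at a good level**: `6 (2γ - 2) = ψ(M) - 6 c(M)`. -/
theorem six_mul_two_mul_γ_sub_two (hM : 4 ∣ M ∨ 9 ∣ M) :
    6 * (2 * γ M - 2) = (dedekindPsi M : ℤ) - 6 * cuspCount M := by
  letI := algRatFM M
  letI := algPolyFM M
  haveI := towerK M
  haveI := towerPoly M
  haveI := finiteRat M
  haveI := sepRat M
  have h1 := two_mul_γ_sub_two M
  have h2 := Char0Diff39.six_mul_gam2_FM M (xF_eq M) hM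
  rw [finrank_rat M] at h2
  linarith

/-- `12 γ = ψ(M) - 6 c(M) + 12` at a good level. -/
theorem twelve_mul_γ (hM : 4 ∣ M ∨ 9 ∣ M) :
    12 * γ M = (dedekindPsi M : ℤ) - 6 * cuspCount M + 12 := by
  have := six_mul_two_mul_γ_sub_two M hM
  linarith

/-! ### instance-independence of `γ` (so that ANY provider's `dwGenus` chain plugs in) -/

theorem n_pos : 0 < n M := by
  have h1 : finrank Kb⟮jF M⟯ (FK M) = dedekindPsi M := finrank_adjoin M
  haveI := hfin M
  have h : 0 < finrank Kb⟮jF M⟯ (FK M) := Module.finrank_pos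
  rw [h1] at h
  exact h

theorem deg_E_pos : 0 < Divisor.degree (E M) := by
  rw [deg_E]
  exact_mod_cast n_pos M

/-- `γ M` is the instance-free Riemann genus `Riemann12.gR`. -/
theorem γ_eq_gR : γ M = Riemann12.gR Kb (FK M) :=
  (Riemann12.IsRiemannGenus.gR_eq (deg_E_pos M) (isRiemannGenus M)).symm

/-- every Riemann genus of `F_M` equals `γ M`. -/
theorem eq_γ_of_isRiemannGenus {g : ℤ} (hg : Riemann12.IsRiemannGenus Kb (FK M) g) : g = γ M :=
  Riemann12.IsRiemannGenus.unique (deg_E_pos M) (isRiemannGenus M) hg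

/-- by definition `γ M` is `DW63.dwGenus` in the `T1Setup` chain `algRatFM` / `algPolyFM`. -/
theorem γ_eq_dwGenus_chain :
    letI := algRatFM M
    letI := algPolyFM M
    haveI := towerK M
    haveI := towerPoly M
    haveI := finiteRat M
    haveI := sepRat M
    γ M = (DW63.dwGenus Kb (FK M) : ℤ) := rfl

/-- **`γ M = dwGenus` for EVERY separable RatFunc-setting instance chain on `F_M`**
(whatever the `X ↦ x`). -/
theorem γ_eq_dwGenus [Algebra (RatFunc Kb) (FK M)] [IsScalarTower Kb (RatFunc Kb) (FK M)]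
    [Algebra Kb[X] (FK M)] [IsScalarTower Kb[X] (RatFunc Kb) (FK M)]
    [FiniteDimensional (RatFunc Kb) (FK M)] [Algebra.IsSeparable (RatFunc Kb) (FK M)] :
    γ M = (DW63.dwGenus Kb (FK M) : ℤ) := by
  haveI := hasPD M
  exact (eq_γ_of_isRiemannGenus M DW63.isRiemannGenus_dwGenus).symm

/-- The [GENUS] field of `LevelData` from a bound on `dwGenus` in ANY chain. -/
theorem γ_le_of_dwGenus_le [Algebra (RatFunc Kb) (FK M)] [IsScalarTower Kb (RatFunc Kb) (FK M)]
    [Algebra Kb[X] (FK M)] [IsScalarTower Kb[X] (RatFunc Kb) (FK M)]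
    [FiniteDimensional (RatFunc Kb) (FK M)] [Algebra.IsSeparable (RatFunc Kb) (FK M)]
    {g : ℤ} (h : (DW63.dwGenus Kb (FK M) : ℤ) ≤ g) : γ M ≤ g := by
  rw [γ_eq_dwGenus M]
  exact h

end Fermat.Agent.S18.LevelFF12
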