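/-
S18 moonshot (blueprints 14/15), leaf [BRIDGE]-MINATT (helper71).

"The minimum is attained": for a valuation `v` on a field `K ⊇ ℚ` which is of rank one and
discrete on `ℚ` (`v(ℚˣ) = x^ℤ`, e.g. any valuation subring of `ℚ̄` over a prime `ℓ`), every
family of elements of a finitely generated `ℤ`-submodule of `K` (e.g. the coefficients of a
`q`-series `∑ cᵢ • Mᵢ`, `Mᵢ ∈ ℤ((q))`) which is not identically zero has a member of MAXIMAL
valuation.  Reason: the values of a finite-dimensional `ℚ`-subspace meet only finitely many cosets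
of `x^ℤ` (elements with pairwise incommensurable values are `ℚ`-linearly independent).

This is step (O2) of the Gauss valuation on `F_M ⊂ ℚ̄((q))`: every nonzero element of
`ℚ̄[t_d : d ∣ M]` is `c • u` with `u ∈ A((q))` having a coefficient equal to `1`.
-/
import Mathlib
import Fermat.Agent.S18.ValRing25

set_option autoImplicit false

namespace Fermat.Agent.S18.MinAtt71

section Abstract

variable {K : Type*} [Field K] [Algebra ℚ K] {Γ₀ : Type*} [LinearOrderedCommGroupWithZero Γ₀]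
  (v : Valuation K Γ₀) (x : Γ₀)

/-- commensurability modulo `x^ℤ` -/
def Comm (γ γ' : Γ₀) : Prop := ∃ t : ℤ, γ = x ^ t * γ'

/-- the hypotheses: `v` is discrete on `ℚ` with uniformiser value `x < 1`, and of rank one. -/
structure Hyp : Prop where
  x_ne : x ≠ 0
  x_lt : x < 1
  rat : ∀ q : ℚ, q ≠ 0 → ∃ s : ℤ, v (algebraMap ℚ K q) = x ^ s
  rank : ∀ c : K, c ≠ 0 → ∃ n : ℕ, x ^ n < v c

variable {v x}

theorem Comm.refl (γ : Γ₀) : Comm x γ γ := ⟨0, by simp⟩

theorem val_smul (h : Hyp v x) {q : ℚ} (hq : q ≠ 0) (a : K) :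
    ∃ s : ℤ, v (q • a) = x ^ s * v a := by
  obtain ⟨s, hs⟩ := h.rat q hq
  exact ⟨s, by rw [Algebra.smul_def, map_mul, hs]⟩

/-- Elements with pairwise incommensurable values are `ℚ`-linearly independent. -/
theorem linearIndependent_of_incomm (h : Hyp v x) (S : Finset K) (h0 : ∀ a ∈ S, a ≠ 0)
    (hinc : ∀ a ∈ S, ∀ b ∈ S, a ≠ b → ¬ Comm x (v a) (v b)) :
    LinearIndependent ℚ (fun a : S => (a : K)) := by
  classical
  rw [linearIndependent_iff']
  intro s g hsum
  by_contra hcon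
  push Not at hcon
  obtain ⟨i₁, hi₁, hg₁⟩ := hcon
  set T := s.filter (fun i => g i ≠ 0) with hT
  have hTne : T.Nonempty := ⟨i₁, Finset.mem_filter.mpr ⟨hi₁, hg₁⟩⟩
  have hsumT : ∑ i ∈ T, g i • (i : K) = 0 := by
    rw [← hsum, hT, Finset.sum_filter]
    refine Finset.sum_congr rfl fun i _ => ?_
    by_cases hgi : g i = 0
    · simp [hgi]
    · simp [hgi]
  obtain ⟨i₀, hi₀, hmax⟩ := Finset.exists_max_image T (fun i => v (g i • (i : K))) hTne
  have hg₀ : g i₀ ≠ 0 := (Finset.mem_filter.mp hi₀).2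
  have hlt : ∀ i ∈ T \ {i₀}, v (g i • (i : K)) < v (g i₀ • (i₀ : K)) := by
    intro i hi
    obtain ⟨hiT, hne⟩ := Finset.mem_sdiff.mp hi
    have hne' : i ≠ i₀ := by simpa using hne
    have hgi : g i ≠ 0 := (Finset.mem_filter.mp hiT).2
    refine lt_of_le_of_ne (hmax i hiT) fun heq => ?_
    obtain ⟨s₁, hs₁⟩ := val_smul h hgi (i : K)
    obtain ⟨s₀, hs₀⟩ := val_smul h hg₀ (i₀ : K)
    rw [hs₁, hs₀] at heq
    apply hinc i i.2 i₀ i₀.2 (fun hh => hne' (Subtype.ext hh))
    refine ⟨s₀ - s₁, ?_⟩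
    have hx : x ^ s₁ ≠ 0 := zpow_ne_zero _ h.x_ne
    have h1 : v (i : K) = (x ^ s₁)⁻¹ * (x ^ s₁ * v (i : K)) := by
      rw [← mul_assoc, inv_mul_cancel₀ hx, one_mul]
    rw [h1, heq, ← mul_assoc, zpow_sub₀ h.x_ne, div_eq_mul_inv, mul_comm (x ^ s₀)]
  have hval := Valuation.map_sum_eq_of_lt v hi₀ hlt
  rw [hsumT, map_zero] at hval
  have hne0 : v (g i₀ • (i₀ : K)) ≠ 0 := by
    rw [Valuation.ne_zero_iff, Algebra.smul_def]
    refine mul_ne_zero ?_ (h0 _ i₀.2)
    rw [Ne, map_eq_zero_iff _ (algebraMap ℚ K).injective]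
    exact hg₀
  exact hne0 hval.symm

/-- card bound -/
theorem card_le_finrank_of_incomm (h : Hyp v x) (V : Submodule ℚ K) [FiniteDimensional ℚ V]
    (S : Finset K) (hS : ∀ a ∈ S, a ∈ V ∧ a ≠ 0)
    (hinc : ∀ a ∈ S, ∀ b ∈ S, a ≠ b → ¬ Comm x (v a) (v b)) :
    S.card ≤ Module.finrank ℚ V := by
  classical
  have hli := linearIndependent_of_incomm h S (fun a ha => (hS a ha).2) hinc
  have hli' : LinearIndependent ℚ (fun a : S => (⟨(a : K), (hS a a.2).1⟩ : V)) := by
    apply LinearIndependent.of_comp V.subtype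
    exact hli
  have := hli'.fintype_card_le_finrank
  simpa using this

/-- The values of a finite-dimensional `ℚ`-subspace meet finitely many cosets of `x^ℤ`. -/
theorem exists_finite_cosets (h : Hyp v x) (V : Submodule ℚ K) [FiniteDimensional ℚ V] :
    ∃ G : Finset K, (∀ a ∈ G, a ∈ V ∧ a ≠ 0) ∧
      ∀ z ∈ V, z ≠ 0 → ∃ a ∈ G, Comm x (v z) (v a) := by
  classical
  set r := Module.finrank ℚ V with hr
  set P : ℕ → Prop := fun n => ∃ S : Finset K, S.card = n ∧ (∀ a ∈ S, a ∈ V ∧ a ≠ 0) ∧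
    ∀ a ∈ S, ∀ b ∈ S, a ≠ b → ¬ Comm x (v a) (v b) with hP
  have hP0 : P 0 := ⟨∅, rfl, by simp, by simp⟩
  have hspec : P (Nat.findGreatest P r) := Nat.findGreatest_spec (Nat.zero_le r) hP0
  obtain ⟨S, hcard, hSV, hinc⟩ := hspec
  refine ⟨S, hSV, fun z hzV hz0 => ?_⟩
  by_contra hcon
  push Not at hcon
  have hzS : z ∉ S := fun hz => hcon z hz (Comm.refl _)
  -- the enlarged family
  have hP' : P (S.card + 1) := by
    refine ⟨insert z S, Finset.card_insert_of_notMem hzS, ?_, ?_⟩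
    · intro a ha
      rcases Finset.mem_insert.mp ha with rfl | ha
      · exact ⟨hzV, hz0⟩
      · exact hSV a ha
    · intro a ha b hb hab
      rcases Finset.mem_insert.mp ha with haz | haS <;>
        rcases Finset.mem_insert.mp hb with hbz | hbS
      · exact absurd (haz.trans hbz.symm) hab
      · rw [haz]; exact hcon b hbS
      · rw [hbz]
        intro hc
        obtain ⟨t, ht⟩ := hc
        apply hcon a haS
        refine ⟨-t, ?_⟩
        rw [ht, ← mul_assoc, ← zpow_add₀ h.x_ne, neg_add_cancel, zpow_zero, one_mul]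
      · exact hinc a haS b hbS hab
  obtain ⟨S', hcard', hS'V, hinc'⟩ := hP'
  have hle : S.card + 1 ≤ r := by
    rw [← hcard']
    exact card_le_finrank_of_incomm h V S' hS'V hinc'
  have := Nat.findGreatest_is_greatest (P := P) (n := r) (k := S.card + 1)
    (by rw [hcard]; exact Nat.lt_succ_self _) hle
  exact this ⟨S', hcard', hS'V, hinc'⟩

/-- exponents in a bounded coset are bounded below -/
theorem exists_exponent_bound (h : Hyp v x) {a B : K} (ha : a ≠ 0) (hB : B ≠ 0) :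
    ∃ n : ℕ, ∀ t : ℤ, x ^ t * v a ≤ v B → -(n : ℤ) ≤ t := by
  have hx0 : 0 < x := zero_lt_iff.mpr h.x_ne
  obtain ⟨n, hn⟩ := h.rank (a / B) (div_ne_zero ha hB)
  refine ⟨n, fun t ht => ?_⟩
  by_contra hcon
  push Not at hcon
  have hvB : v B ≠ 0 := (Valuation.ne_zero_iff v).mpr hB
  have hvB0 : 0 < v B := zero_lt_iff.mpr hvB
  -- `x^t ≥ x^(-n)`
  have h1 : x ^ (-(n : ℤ)) ≤ x ^ t := zpow_le_zpow_right_of_le_one₀ hx0 h.x_lt.le hcon.le
  -- `v B < x^(-n) * v a`
  have h2 : v B < x ^ (-(n : ℤ)) * v a := by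
    rw [map_div₀, lt_div_iff₀ hvB0] at hn
    rw [zpow_neg, zpow_natCast]
    have hxn : 0 < x ^ n := pow_pos hx0 n
    rw [lt_inv_mul_iff₀ hxn]
    exact hn
  have h3 : x ^ (-(n : ℤ)) * v a ≤ x ^ t * v a := mul_le_mul_left h1 _
  exact absurd (lt_of_lt_of_le h2 (le_trans h3 ht)) (lt_irrefl _)

/-- **best element in one coset** -/
theorem exists_max_in_coset (h : Hyp v x) {ι : Type*} (y : ι → K) {a B : K} (ha : a ≠ 0)
    (hB : B ≠ 0) (hbound : ∀ i, v (y i) ≤ v B)
    (hne : ∃ i, y i ≠ 0 ∧ Comm x (v (y i)) (v a)) :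
    ∃ i₀, y i₀ ≠ 0 ∧ Comm x (v (y i₀)) (v a) ∧
      ∀ j, y j ≠ 0 → Comm x (v (y j)) (v a) → v (y j) ≤ v (y i₀) := by
  have hx0 : 0 < x := zero_lt_iff.mpr h.x_ne
  obtain ⟨n, hn⟩ := exists_exponent_bound h ha hB
  set P : ℤ → Prop := fun t => ∃ i, y i ≠ 0 ∧ v (y i) = x ^ t * v a with hP
  have hbdd : ∃ b : ℤ, ∀ z, P z → b ≤ z := by
    refine ⟨-(n : ℤ), fun t ht => ?_⟩
    obtain ⟨i, -, hi⟩ := ht
    exact hn t (hi ▸ hbound i)
  have hinh : ∃ z, P z := by
    obtain ⟨i, hi0, t, ht⟩ := hne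
    exact ⟨t, i, hi0, ht⟩
  obtain ⟨t₀, ⟨i₀, hi₀, hv₀⟩, hleast⟩ := Int.exists_least_of_bdd hbdd hinh
  refine ⟨i₀, hi₀, ⟨t₀, hv₀⟩, fun j hj0 hj => ?_⟩
  obtain ⟨t, ht⟩ := hj
  have hle : t₀ ≤ t := hleast t ⟨j, hj0, ht⟩
  rw [ht, hv₀]
  exact mul_le_mul_left (zpow_le_zpow_right_of_le_one₀ hx0 h.x_lt.le hle) _

/-- **MINIMUM ATTAINED** (abstract form): a family of elements of a finite-dimensional
`ℚ`-subspace, bounded in valuation and not identically zero, has a member of maximal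
valuation. -/
theorem exists_max_val (h : Hyp v x) (V : Submodule ℚ K) [FiniteDimensional ℚ V]
    {ι : Type*} (y : ι → K) (hyV : ∀ i, y i ∈ V) {B : K} (hB : B ≠ 0)
    (hbound : ∀ i, v (y i) ≤ v B) (hne : ∃ i, y i ≠ 0) :
    ∃ i₀, y i₀ ≠ 0 ∧ ∀ i, v (y i) ≤ v (y i₀) := by
  classical
  obtain ⟨G, hG, hcos⟩ := exists_finite_cosets h V
  -- partial maxima over subsets of `G`
  have key : ∀ G' : Finset K, G' ⊆ G →
      (∃ i, y i ≠ 0 ∧ ∃ a ∈ G', Comm x (v (y i)) (v a)) →
      ∃ i₀, y i₀ ≠ 0 ∧ ∀ j, y j ≠ 0 → (∃ a ∈ G', Comm x (v (y j)) (v a)) →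
        v (y j) ≤ v (y i₀) := by
    intro G'
    induction G' using Finset.induction_on with
    | empty =>
      rintro - ⟨i, -, a, ha, -⟩
      exact absurd ha (Finset.notMem_empty a)
    | insert a G'' haG'' ih =>
      intro hsub hex
      have haG : a ∈ G := hsub (Finset.mem_insert_self a G'')
      have hsub'' : G'' ⊆ G := fun b hb => hsub (Finset.mem_insert_of_mem hb)
      by_cases hA : ∃ i, y i ≠ 0 ∧ Comm x (v (y i)) (v a)
      · obtain ⟨ia, hia0, -, hia⟩ := exists_max_in_coset h y (hG a haG).2 hB hbound hA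
        by_cases hBc : ∃ i, y i ≠ 0 ∧ ∃ b ∈ G'', Comm x (v (y i)) (v b)
        · obtain ⟨ib, hib0, hib⟩ := ih hsub'' hBc
          rcases le_total (v (y ia)) (v (y ib)) with hle | hle
          · refine ⟨ib, hib0, fun j hj0 hj => ?_⟩
            obtain ⟨b, hb, hjb⟩ := hj
            rcases Finset.mem_insert.mp hb with rfl | hb
            · exact (hia j hj0 hjb).trans hle
            · exact hib j hj0 ⟨b, hb, hjb⟩
          · refine ⟨ia, hia0, fun j hj0 hj => ?_⟩
            obtain ⟨b, hb, hjb⟩ := hj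
            rcases Finset.mem_insert.mp hb with rfl | hb
            · exact hia j hj0 hjb
            · exact (hib j hj0 ⟨b, hb, hjb⟩).trans hle
        · refine ⟨ia, hia0, fun j hj0 hj => ?_⟩
          obtain ⟨b, hb, hjb⟩ := hj
          rcases Finset.mem_insert.mp hb with rfl | hb
          · exact hia j hj0 hjb
          · exact absurd ⟨j, hj0, b, hb, hjb⟩ hBc
      · have hBc : ∃ i, y i ≠ 0 ∧ ∃ b ∈ G'', Comm x (v (y i)) (v b) := by
          obtain ⟨i, hi0, b, hb, hib⟩ := hex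
          rcases Finset.mem_insert.mp hb with rfl | hb
          · exact absurd ⟨i, hi0, hib⟩ hA
          · exact ⟨i, hi0, b, hb, hib⟩
        obtain ⟨ib, hib0, hib⟩ := ih hsub'' hBc
        refine ⟨ib, hib0, fun j hj0 hj => ?_⟩
        obtain ⟨b, hb, hjb⟩ := hj
        rcases Finset.mem_insert.mp hb with rfl | hb
        · exact absurd ⟨j, hj0, hjb⟩ hA
        · exact hib j hj0 ⟨b, hb, hjb⟩
  obtain ⟨i₁, hi₁⟩ := hne
  obtain ⟨i₀, hi₀, hmax⟩ := key G (Finset.Subset.refl G)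
    ⟨i₁, hi₁, hcos (y i₁) (hyV i₁) hi₁⟩
  refine ⟨i₀, hi₀, fun i => ?_⟩
  by_cases hi : y i = 0
  · rw [hi, map_zero]; exact zero_le
  · exact hmax i hi (hcos (y i) (hyV i) hi)

omit [Algebra ℚ K] in
theorem val_natCast_le_one (v : Valuation K Γ₀) (n : ℕ) : v (n : K) ≤ 1 := by
  induction n with
  | zero => simp
  | succ n ih =>
    rw [Nat.cast_succ]
    exact (v.map_add _ _).trans (max_le ih (by rw [map_one]))

omit [Algebra ℚ K] in
theorem val_intCast_le_one (v : Valuation K Γ₀) (a : ℤ) : v (a : K) ≤ 1 := by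
  rcases Int.natAbs_eq a with h | h
  · rw [h]; simpa using val_natCast_le_one v a.natAbs
  · rw [h]; simpa using val_natCast_le_one v a.natAbs

/-- **MINIMUM ATTAINED** for families in a finitely generated `ℤ`-submodule. -/
theorem exists_max_val_of_mem_span (h : Hyp v x) {r : ℕ} (c : Fin r → K) {ι : Type*}
    (y : ι → K) (hy : ∀ i, y i ∈ Submodule.span ℤ (Set.range c)) (hne : ∃ i, y i ≠ 0) :
    ∃ i₀, y i₀ ≠ 0 ∧ ∀ i, v (y i) ≤ v (y i₀) := by
  classical
  set V : Submodule ℚ K := Submodule.span ℚ (Set.range c) with hV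
  have : FiniteDimensional ℚ V := FiniteDimensional.span_of_finite ℚ (Set.finite_range c)
  -- `ℤ`-span inside `ℚ`-span
  have hZQ : ∀ z ∈ Submodule.span ℤ (Set.range c), z ∈ V := by
    intro z hz
    induction hz using Submodule.span_induction with
    | mem z hz => exact Submodule.subset_span hz
    | zero => exact V.zero_mem
    | add u w _ _ hu hw => exact V.add_mem hu hw
    | smul a u _ hu =>
      have : a • u = (a : ℚ) • u := by
        rw [Algebra.smul_def (a : ℚ) u, zsmul_eq_mul]; simp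
      rw [this]; exact V.smul_mem _ hu
  -- some generator is nonzero
  have hc : ∃ j, c j ≠ 0 := by
    by_contra hcon
    push Not at hcon
    obtain ⟨i, hi⟩ := hne
    apply hi
    have hbot : Submodule.span ℤ (Set.range c) = ⊥ := by
      rw [Submodule.span_eq_bot]
      rintro _ ⟨j, rfl⟩
      exact hcon j
    have := hy i
    rw [hbot, Submodule.mem_bot] at this
    exact this
  -- the generator of maximal value
  obtain ⟨j₀, -, hj₀⟩ := Finset.exists_max_image Finset.univ (fun j => v (c j))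
    (by obtain ⟨j, -⟩ := hc; exact ⟨j, Finset.mem_univ j⟩)
  have hB : c j₀ ≠ 0 := by
    obtain ⟨j, hj⟩ := hc
    intro h0
    have := hj₀ j (Finset.mem_univ j)
    rw [h0, map_zero] at this
    exact hj ((Valuation.zero_iff v).mp (le_antisymm this zero_le))
  have hbound : ∀ z ∈ Submodule.span ℤ (Set.range c), v z ≤ v (c j₀) := by
    intro z hz
    induction hz using Submodule.span_induction with
    | mem z hz =>
      obtain ⟨j, rfl⟩ := hz
      exact hj₀ j (Finset.mem_univ j)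
    | zero => rw [map_zero]; exact zero_le
    | add u w _ _ hu hw => exact (v.map_add _ _).trans (max_le hu hw)
    | smul a u _ hu =>
      rw [zsmul_eq_mul, map_mul]
      calc v (a : K) * v u ≤ 1 * v u := mul_le_mul_left (val_intCast_le_one v a) _
        _ = v u := one_mul _
        _ ≤ v (c j₀) := hu
  exact exists_max_val h V y (fun i => hZQ _ (hy i)) hB (fun i => hbound _ (hy i)) hne

/-- normalised form: a scalar multiple has all values `≤ 1` and one member equal to `1`. -/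
theorem exists_normalizer (h : Hyp v x) {r : ℕ} (c : Fin r → K) {ι : Type*}
    (y : ι → K) (hy : ∀ i, y i ∈ Submodule.span ℤ (Set.range c)) (hne : ∃ i, y i ≠ 0) :
    ∃ u : K, u ≠ 0 ∧ (∀ i, v (u * y i) ≤ 1) ∧ ∃ i₀, u * y i₀ = 1 := by
  obtain ⟨i₀, hi₀, hmax⟩ := exists_max_val_of_mem_span h c y hy hne
  refine ⟨(y i₀)⁻¹, inv_ne_zero hi₀, fun i => ?_, i₀, inv_mul_cancel₀ hi₀⟩
  have hv0 : v (y i₀) ≠ 0 := (Valuation.ne_zero_iff v).mpr hi₀
  rw [map_mul, map_inv₀, inv_mul_le_iff₀ (zero_lt_iff.mpr hv0), mul_one]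
  exact hmax i

end Abstract

/-! ### The case of a valuation subring of `ℚ̄` over `ℓ` -/

section QBar

variable {ℓ : ℕ} [Fact ℓ.Prime] (A : ValuationSubring (AlgebraicClosure ℚ))

theorem hyp_qbar (hA : A.LiesOverPrime ℓ) :
    Hyp A.valuation (A.valuation ((ℓ : ℕ) : AlgebraicClosure ℚ)) where
  x_ne := ValRing25.val_prime_ne_zero A
  x_lt := ValRing25.val_prime_lt_one A hA
  rat := fun q hq => ValRing25.val_ratCast A hA hq
  rank := fun c hc => by
    have hmem : ((ℓ : ℕ) : AlgebraicClosure ℚ) ∈ A.nonunits := by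
      rw [ValuationSubring.mem_nonunits_iff]
      exact ValRing25.val_prime_lt_one A hA
    obtain ⟨n, hn⟩ := ValRing25.rank_one A hA hmem hc
    exact ⟨n, hn⟩

/-- **(O2)** for `A ⊂ ℚ̄` over `ℓ`: a family in a finitely generated `ℤ`-submodule of `ℚ̄`, not
identically zero, can be scaled into `A` with one member equal to `1`. -/
theorem qbar_exists_normalizer (hA : A.LiesOverPrime ℓ) {r : ℕ} (c : Fin r → AlgebraicClosure ℚ)
    {ι : Type*} (y : ι → AlgebraicClosure ℚ)
    (hy : ∀ i, y i ∈ Submodule.span ℤ (Set.range c)) (hne : ∃ i, y i ≠ 0) :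
    ∃ u : AlgebraicClosure ℚ, u ≠ 0 ∧ (∀ i, u * y i ∈ A) ∧ ∃ i₀, u * y i₀ = 1 := by
  obtain ⟨u, hu, hint, hone⟩ := exists_normalizer (hyp_qbar A hA) c y hy hne
  exact ⟨u, hu, fun i => (A.valuation_le_one_iff _).mp (hint i), hone⟩

/-- Laurent-series form: a nonzero `Y ∈ ℚ̄((q))` all of whose coefficients lie in a finitely
generated `ℤ`-module is `u⁻¹ •` (a series with coefficients in `A`, one of them equal to `1`). -/
theorem qbar_exists_normalizer_hahn (hA : A.LiesOverPrime ℓ) {r : ℕ}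
    (c : Fin r → AlgebraicClosure ℚ) (Y : HahnSeries ℤ (AlgebraicClosure ℚ))
    (hY : ∀ n, Y.coeff n ∈ Submodule.span ℤ (Set.range c)) (hne : Y ≠ 0) :
    ∃ u : AlgebraicClosure ℚ, u ≠ 0 ∧ (∀ n, u * Y.coeff n ∈ A) ∧ ∃ n₀, u * Y.coeff n₀ = 1 := by
  refine qbar_exists_normalizer A hA c (fun n => Y.coeff n) hY ?_
  by_contra hcon
  push Not at hcon
  exact hne (HahnSeries.ext (funext hcon))

end QBar

end Fermat.Agent.S18.MinAtt71
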