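/-
S18 project, [NORMALIZE] (helper96): the adapter from `Normalize96.normalize` to the exact
interface statement `Spine33.NormalizeStatement`.

`normalizeStatement_of` proves `Spine33.NormalizeStatement` from the three remaining
function-field inputs:
* `Char0Inputs`  : for every level `N`, `F_N = modularFunctionFieldBar N` has principal divisors
  (`HasPrincipalDivisors`) and its only functions without zeros and poles are the constants
  (characteristic `0`, S24 / FFPlaces30);
* `CharLInput`   : for every valuation subring `A` of `ℚ̄` over `ℓ` and level `N` prime to `ℓ`,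
  the only functions of `F̄_N` without zeros and poles are the constants
  (characteristic `ℓ`, [FF]-CONST).
The lifting input (`ReductionSurjective`) is discharged here from `NormLift37`.
-/
import Fermat.Agent.S18.Spine33
import Fermat.Agent.S18.Normalize96
import Fermat.Agent.S18.NormLift37

set_option autoImplicit false

open ModularCurve AlgebraicCurve HahnSeries

noncomputable section

namespace Fermat.Agent.S18.NormalizeSpine96

open Fermat.Agent.S18.Spine33 Fermat.Agent.S18.Normalize96

set_option synthInstance.maxHeartbeats 400000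

/-- **(H2)** `ReductionSurjective` for `(ℚ̄, A, residue)`, from `NormLift37.exists_lift`. -/
theorem reductionSurjective (A : ValuationSubring Kb) (N : ℕ) :
    ReductionSurjective A (IsLocalRing.residue A) N := by
  intro g hg
  obtain ⟨a, b, ha, hb, hak, hbk, hb0, hab⟩ := NormLift37.exists_lift A N g.2
  have ha0 : coeffMap (IsLocalRing.residue A) a ≠ 0 := by
    intro h0
    have h1 : (g : LaurentSeries (kA A)) * red A b = 0 := by rw [hab]; exact h0
    rcases mul_eq_zero.mp h1 with h2 | h2
    · exact hg (Subtype.ext h2)
    · exact hb0 h2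
  refine ⟨⟨a, ha, hak, ha0⟩, ⟨b, hb, hbk, hb0⟩, ?_⟩
  apply Subtype.ext
  exact hab

/-- The characteristic zero inputs at level `N`. -/
structure Char0Inputs (N : ℕ) : Prop where
  /-- principal divisors exist in `F_N` -/
  princ : HasPrincipalDivisors Kb (FK N)
  /-- functions without zeros and poles are constant -/
  const : ConstOfOrdZeroL Kb N

/-- The characteristic `ℓ` input at level `N`. -/
def CharLInput (A : ValuationSubring Kb) (N : ℕ) : Prop :=
  ConstOfOrdZero (kA A) N

/-- **[NORMALIZE]**: `Spine33.NormalizeStatement` from the function-field inputs. -/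
theorem normalizeStatement_of
    (h0 : ∀ (N : ℕ) [NeZero N], Char0Inputs N)
    (hℓ : ∀ (N : ℕ) [NeZero N] (ℓ : ℕ) [Fact ℓ.Prime], ¬ ℓ ∣ N →
      ∀ (A : ValuationSubring Kb), A.LiesOverPrime ℓ → CharLInput A N) :
    NormalizeStatement := by
  intro N _ ℓ _ hℓN A hA h m hm z hmz hz
  have : HasPrincipalDivisors Kb (FK N) := (h0 N).princ
  have H3L : ConstOfOrdZeroL Kb N := (h0 N).const
  have H3 : ConstOfOrdZero (kA A) N := hℓ N ℓ hℓN A hA
  have H2 := reductionSurjective A N
  have H1 : HasIntegralFractions A (IsLocalRing.residue A) N :=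
    hasIntegralFractions_of_gen h.choose_spec.2 H3L
  obtain ⟨⟨D, hD0⟩, rfl⟩ := Pic0.mk_surjective z
  have hr := isPlaceReductionModL_placeReductionModL h
  -- `m D` is principal
  have hmD : (m • D) ∈ Divisor.principal (K := Kb) (F := FK N) := by
    have h1 : ((m • (⟨D, hD0⟩ : Divisor.degZero (K := Kb) (F := FK N)) :
        Divisor.degZero (K := Kb) (F := FK N))) ∈
        (Divisor.principal (K := Kb) (F := FK N)).addSubgroupOf
          (Divisor.degZero (K := Kb) (F := FK N)) := by
      rw [← QuotientAddGroup.eq_zero_iff, QuotientAddGroup.mk_nsmul]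
      exact hmz
    rw [AddSubgroup.mem_addSubgroupOf, AddSubgroupClass.coe_nsmul] at h1
    exact h1
  -- `r_* D` is principal
  have hred : Finsupp.mapDomain (placeReductionModL h) D ∈ Divisor.principal
      (K := kA A) (F := modularFunctionFieldFullC (kA A) N) := by
    rw [reductionModL_mk h] at hz
    have h1 := (QuotientAddGroup.eq_zero_iff _).mp hz
    rw [AddSubgroup.mem_addSubgroupOf, coe_reductionDegZeroAlong] at h1
    exact h1
  obtain ⟨D', a, b, hDD', hD'0, hmD', hab⟩ := normalize hr H1 H2 H3
    IsLocalRing.residue_surjective (fun a ha => isUnit_of_map_unit (IsLocalRing.residue A) a ha)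
    m D hD0 hmD hred
  have hD'mem : D' ∈ Divisor.degZero (K := Kb) (F := FK N) := by
    rw [Divisor.mem_degZero]; exact hD'0
  refine ⟨⟨D', hD'mem⟩, a.toF / b.toF, div_ne_zero a.toF_ne_zero b.toF_ne_zero, ?_, ?_, ?_⟩
  · -- `Pic0.mk D' = Pic0.mk D`
    symm
    show Pic0.mk _ = Pic0.mk _
    unfold Pic0.mk
    rw [QuotientAddGroup.eq, AddSubgroup.mem_addSubgroupOf]
    have h2 : (-(⟨D, hD0⟩ : Divisor.degZero (K := Kb) (F := FK N)) + ⟨D', hD'mem⟩ :
        Divisor.degZero (K := Kb) (F := FK N)).1 = -(D - D') := by
      show -D + D' = -(D - D')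
      abel
    rw [h2]
    exact AddSubgroup.neg_mem _ hDD'
  · intro P
    have := hmD' P
    rw [Finsupp.smul_apply, nsmul_eq_mul] at this
    exact this
  · refine ⟨a.y, b.y, a.mem, b.mem, a.memk, a.ne, ?_, ?_⟩
    · exact congrArg Subtype.val hab
    · show ((a.toF / b.toF : FK N) : LaurentSeries Kb) * _ = _
      have : (a.toF / b.toF) * b.toF = a.toF := div_mul_cancel₀ _ b.toF_ne_zero
      exact congrArg Subtype.val this
  
end Fermat.Agent.S18.NormalizeSpine96
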