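/-
S18 project, [NORMALIZE] (helper96): discharge of the function-field inputs of
`NormalizeSpine96.normalizeStatement_of`, giving the UNCONDITIONAL

  `theorem normalize : Spine33.NormalizeStatement`.

* characteristic `0`: `F_N / ℚ̄(j)` is finite (S24 `Exports.isFunctionFieldOver_jF`), so principal
  divisors exist (S24 `FFPlaces.hasPrincipalDivisors`) and pole-free functions are constant
  (`FFConst30`);
* characteristic `ℓ`: `F̄_N = k(t̄_d : d ∣ N)` is finitely generated and algebraic over `k(t̄)`
  (`Sep72`), hence finite over `k(t̄)`; `k` is algebraically closed (`ValRing25`), so pole-free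
  functions are constant (`FFConst30`, characteristic free).
-/
import Fermat.Agent.S18.NormalizeSpine96
import Fermat.Agent.S18.FFConst30
import Fermat.Agent.S18.Sep72
import Fermat.Agent.S18.ValRing25
import Fermat.Agent.S24.Exports
import Fermat.Agent.S24.FFPlaces

set_option autoImplicit false
set_option linter.style.haveILetI false

open ModularCurve AlgebraicCurve HahnSeries IntermediateField

noncomputable section

namespace Fermat.Agent.S18.NormInputs96

open Fermat.Agent.S18.Spine33 Fermat.Agent.S18.Normalize96 Fermat.Agent.S18.NormalizeSpine96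

/-! ### A transport lemma: finiteness of `E / k(x)` inside `E` from algebraicity inside `L` -/

section Transport

variable {k L : Type*} [Field k] [Field L] [Algebra k L]

/-- If `E = k(S)` with `S` finite and every element of `E` is algebraic over `k(x) ⊆ L`, then `E`
is finite over `k(x) ⊆ E`. -/
theorem finiteDimensional_adjoin_simple_of_isAlgebraic (E : IntermediateField k L) (hfg : E.FG)
    (x : E) (halg : ∀ y : E, IsAlgebraic ↥(k⟮(x : L)⟯) (y : L)) :
    FiniteDimensional ↥(k⟮x⟯) E := by
  haveI h1 : Algebra.EssFiniteType k E := IntermediateField.essFiniteType_iff.mpr hfg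
  haveI h2 : Algebra.EssFiniteType ↥(k⟮x⟯) E := Algebra.EssFiniteType.of_comp k ↥(k⟮x⟯) E
  -- the comparison map `k(x) ⊆ E` to `k(x) ⊆ L`
  have hmap : (k⟮x⟯).map E.val = k⟮(x : L)⟯ := by
    rw [IntermediateField.adjoin_map, Set.image_singleton]
    rfl
  have hmem : ∀ r : ↥(k⟮x⟯), ((r : E) : L) ∈ k⟮(x : L)⟯ := by
    intro r
    rw [← hmap]
    exact (IntermediateField.mem_map _).mpr ⟨r.1, r.2, rfl⟩
  let f : ↥(k⟮x⟯) →+* ↥(k⟮(x : L)⟯) :=
    { toFun := fun r => ⟨((r : E) : L), hmem r⟩
      map_one' := rfl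
      map_mul' := fun _ _ => rfl
      map_zero' := rfl
      map_add' := fun _ _ => rfl }
  have hf : Function.Surjective f := by
    rintro ⟨s, hs⟩
    rw [← hmap] at hs
    obtain ⟨r, hr, rfl⟩ := (IntermediateField.mem_map _).mp hs
    exact ⟨⟨r, hr⟩, rfl⟩
  haveI h3 : Algebra.IsAlgebraic ↥(k⟮x⟯) E := by
    refine ⟨fun y => ?_⟩
    refine IsAlgebraic.of_ringHom_of_comp_eq (S := ↥(k⟮(x : L)⟯)) (B := L) f
      (algebraMap E L) (halg y) hf (algebraMap E L).injective ?_
    ext r
    rfl
  exact Algebra.finite_of_essFiniteType_of_isAlgebraic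

end Transport

/-! ### Characteristic `ℓ` -/

section CharL

variable (k : Type) [Field k] (N : ℕ) [NeZero N]

/-- `t̄ = j(q)` as an element of `F̄_N` -/
def tBar : modularFunctionFieldFullC k N := ⟨jqModC k, jqModC_mem_full k N⟩

theorem finite_divisorExpansionsC : (divisorExpansionsC k N).Finite := by
  have : divisorExpansionsC k N ⊆
      (fun d : ℕ => if h : d = 0 then 0 else
        haveI : NeZero d := ⟨h⟩; qExpand k d (jqModC k)) '' (N.divisors : Set ℕ) := by
    rintro x ⟨d, hd, hdN, rfl⟩
    refine ⟨d, ?_, ?_⟩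
    · exact Finset.mem_coe.mpr (Nat.mem_divisors.mpr ⟨hdN, NeZero.ne N⟩)
    · simp only [dif_neg (NeZero.ne d)]
  exact (Set.Finite.image _ (Finset.finite_toSet _)).subset this

theorem fg_fullC : (modularFunctionFieldFullC k N).FG := by
  obtain ⟨s, hs⟩ := (finite_divisorExpansionsC k N).exists_finset_coe
  exact ⟨s, by rw [hs]; rfl⟩

/-- `F̄_N` is finite over `k(t̄)` when `(N : k) ≠ 0`. -/
theorem finiteDimensional_fullC (hN : (N : k) ≠ 0) :
    FiniteDimensional ↥(k⟮tBar k N⟯) (modularFunctionFieldFullC k N) := by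
  apply finiteDimensional_adjoin_simple_of_isAlgebraic _ (fg_fullC k N)
  intro y
  exact (Sep72.isSeparable_fullC' k N hN y.2).isIntegral.isAlgebraic

/-- **[FF]-CONST for `F̄_N`**: the functions without zeros and poles are the constants. -/
theorem constOfOrdZero_fullC [IsAlgClosed k] (hN : (N : k) ≠ 0) : ConstOfOrdZero k N := by
  intro u _ hu
  haveI := finiteDimensional_fullC k N hN
  obtain ⟨a, ha⟩ := FFConst30.const_of_forall_ord_eq_zero (K := k) (tBar k N) hu
  exact ⟨a, ha.symm⟩

end CharL

/-- The characteristic `ℓ` input of [NORMALIZE]. -/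
theorem charLInput (N : ℕ) [NeZero N] (ℓ : ℕ) [Fact ℓ.Prime] (hℓN : ¬ ℓ ∣ N)
    (A : ValuationSubring Kb) (hA : A.LiesOverPrime ℓ) : CharLInput A N := by
  haveI : IsAlgClosed (kA A) := ValRing25.residueField_isAlgClosed A
  haveI : CharP (kA A) ℓ := ValRing25.residueField_charP A hA
  have hN : (N : kA A) ≠ 0 := by
    rw [Ne, CharP.cast_eq_zero_iff (kA A) ℓ]
    exact hℓN
  exact constOfOrdZero_fullC (kA A) N hN

/-! ### Characteristic `0` -/

/-- The characteristic `0` inputs of [NORMALIZE]. -/
theorem char0Inputs (N : ℕ) [NeZero N] : Char0Inputs N := by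
  have hfin : FiniteDimensional ↥(Kb⟮Fermat.Agent.S24.jF N⟯) (FK N) :=
    (Fermat.Agent.S24.Exports.isFunctionFieldOver_jF N).finite
  refine ⟨Fermat.Agent.S24.FFPlaces.hasPrincipalDivisors (Fermat.Agent.S24.jF N) hfin, ?_⟩
  intro u _ hu
  haveI := hfin
  obtain ⟨a, ha⟩ := FFConst30.const_of_forall_ord_eq_zero (K := Kb) (Fermat.Agent.S24.jF N) hu
  exact ⟨a, ha.symm⟩

/-- **[NORMALIZE]**, unconditional. -/
theorem normalize : NormalizeStatement :=
  normalizeStatement_of (fun N _ => char0Inputs N)
    (fun N _ ℓ _ hℓN A hA => charLInput N ℓ hℓN A hA)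

end Fermat.Agent.S18.NormInputs96
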