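/-
S18 project, N-LIFT = input H2 of `Normalize96.normalize` / `NormAdapter20.normalize_of` (helper37):
`Normalize96.ReductionSurjective A (residue A) N` for every valuation subring `A` of `ℚ̄`,
from `NormLift37.exists_polyRing_lift`.
-/
import Fermat.Agent.S18.NormLift37
import Fermat.Agent.S18.Normalize96

set_option autoImplicit false
set_option synthInstance.maxHeartbeats 400000

open ModularCurve HahnSeries

noncomputable section

namespace Fermat.Agent.S18.NormSurj37

open Fermat.Agent.S18.Spine33 Fermat.Agent.S18.NormLift37

/-- an element of `A[t_d : d ∣ N]` with nonzero reduction is an `IntElt` -/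
def intEltOfPolyRing (A : ValuationSubring Kb) (N : ℕ) {y : LaurentSeries A}
    (hy : y ∈ polyRing A N) (hne : red A y ≠ 0) :
    Normalize96.IntElt A (IsLocalRing.residue A) N where
  y := y
  mem := incl_mem_bar A N hy
  memk := red_mem_fullC A N hy
  ne := hne

/-- **N-LIFT (H2)**: every nonzero element of `F̄_N` is `ā / b̄` with `a b : IntElt`. -/
theorem reductionSurjective (A : ValuationSubring Kb) (N : ℕ) :
    Normalize96.ReductionSurjective A (IsLocalRing.residue A) N := by
  intro g hg
  obtain ⟨a, ha, b, hb, hb0, hab⟩ := exists_polyRing_lift A N g.2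
  have ha0 : red A a ≠ 0 := by
    rw [← hab]
    exact mul_ne_zero (fun h => hg (Subtype.ext h)) hb0
  exact ⟨intEltOfPolyRing A N ha ha0, intEltOfPolyRing A N hb hb0, Subtype.ext hab⟩

end Fermat.Agent.S18.NormSurj37
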