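/-
S18 (helper37): numerics for the torsion-free auxiliary levels `M = lcm(4,N)` / `lcm(9,N)`.

* `nuTwo M = 0` if `4 ∣ M` or `3 ∣ M`;  `nuThree M = 0` if `2 ∣ M` or `9 ∣ M`;
* `genusFormula_of_nu_zero` : if `nuTwo M = nuThree M = 0` then
  `2 * genusFormula M - 2 = ψ(M) / 6 - cuspCount M`;
* the base levels: `ψ(4) = 6`, `cuspCount 4 = 3`, `genusFormula 4 = 0`,
  `ψ(9) = 12`, `cuspCount 9 = 4`, `genusFormula 9 = 0`.
Mathlib + Prelude `Def_ModularCurve_GenusNumerics` only.
-/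
import Mathlib
import Fermat.Prelude.Def_ModularCurve_GenusNumerics
import Fermat.Agent.S24.PsiArith

set_option autoImplicit false

namespace Fermat.Agent.S18.NuZero37

open ModularCurve

/-- a polynomial equation without solutions modulo a divisor `d` of `M` has no solutions
modulo `M`. -/
theorem isEmpty_of_dvd {M d : ℕ} (hd : d ∣ M) (P : ∀ n : ℕ, ZMod n → Prop)
    (hP : ∀ x : ZMod M, P M x → P d (ZMod.castHom hd (ZMod d) x))
    (hempty : ∀ y : ZMod d, ¬ P d y) : IsEmpty {x : ZMod M // P M x} :=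
  ⟨fun x => hempty _ (hP x.1 x.2)⟩

theorem nuTwo_eq_zero_of_dvd {M d : ℕ} (hd : d ∣ M)
    (hempty : ∀ y : ZMod d, y ^ 2 + 1 ≠ 0) : nuTwo M = 0 := by
  unfold nuTwo
  rw [Nat.card_eq_zero]
  left
  refine ⟨fun x => hempty (ZMod.castHom hd (ZMod d) x.1) ?_⟩
  have := congrArg (ZMod.castHom hd (ZMod d)) x.2
  rw [map_add, map_pow, map_one, map_zero] at this
  exact this

theorem nuThree_eq_zero_of_dvd {M d : ℕ} (hd : d ∣ M)
    (hempty : ∀ y : ZMod d, y ^ 2 + y + 1 ≠ 0) : nuThree M = 0 := by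
  unfold nuThree
  rw [Nat.card_eq_zero]
  left
  refine ⟨fun x => hempty (ZMod.castHom hd (ZMod d) x.1) ?_⟩
  have := congrArg (ZMod.castHom hd (ZMod d)) x.2
  rw [map_add, map_add, map_pow, map_one, map_zero] at this
  exact this

theorem nuTwo_eq_zero_of_four_dvd {M : ℕ} (h : 4 ∣ M) : nuTwo M = 0 :=
  nuTwo_eq_zero_of_dvd h (by decide)

theorem nuTwo_eq_zero_of_three_dvd {M : ℕ} (h : 3 ∣ M) : nuTwo M = 0 :=
  nuTwo_eq_zero_of_dvd h (by decide)

theorem nuThree_eq_zero_of_two_dvd {M : ℕ} (h : 2 ∣ M) : nuThree M = 0 :=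
  nuThree_eq_zero_of_dvd h (by decide)

theorem nuThree_eq_zero_of_nine_dvd {M : ℕ} (h : 9 ∣ M) : nuThree M = 0 :=
  nuThree_eq_zero_of_dvd h (by decide)

/-- both elliptic numbers vanish at levels divisible by `4`. -/
theorem nu_eq_zero_of_four_dvd {M : ℕ} (h : 4 ∣ M) : nuTwo M = 0 ∧ nuThree M = 0 :=
  ⟨nuTwo_eq_zero_of_four_dvd h, nuThree_eq_zero_of_two_dvd (dvd_trans (by norm_num) h)⟩

/-- both elliptic numbers vanish at levels divisible by `9`. -/
theorem nu_eq_zero_of_nine_dvd {M : ℕ} (h : 9 ∣ M) : nuTwo M = 0 ∧ nuThree M = 0 :=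
  ⟨nuTwo_eq_zero_of_three_dvd (dvd_trans (by norm_num) h), nuThree_eq_zero_of_nine_dvd h⟩

theorem genusFormula_of_nu_zero {M : ℕ} (h2 : nuTwo M = 0) (h3 : nuThree M = 0) :
    2 * genusFormula M - 2 = (dedekindPsi M : ℚ) / 6 - (cuspCount M : ℚ) := by
  unfold genusFormula
  rw [h2, h3]
  push_cast
  ring

theorem dedekindPsi_four : dedekindPsi 4 = 6 := by
  have := Fermat.Agent.S24.CosetCount.dedekindPsi_prime_pow (p := 2) (k := 2) Nat.prime_two (by norm_num)
  norm_num at this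
  exact this
theorem dedekindPsi_nine : dedekindPsi 9 = 12 := by
  have := Fermat.Agent.S24.CosetCount.dedekindPsi_prime_pow (p := 3) (k := 2) Nat.prime_three (by norm_num)
  norm_num at this
  exact this
theorem cuspCount_four : cuspCount 4 = 3 := by decide
theorem cuspCount_nine : cuspCount 9 = 4 := by decide

theorem genusFormula_four : genusFormula 4 = 0 := by
  have h := genusFormula_of_nu_zero (nu_eq_zero_of_four_dvd (dvd_refl 4)).1
    (nu_eq_zero_of_four_dvd (dvd_refl 4)).2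
  rw [dedekindPsi_four, cuspCount_four] at h
  norm_num at h
  linarith

theorem genusFormula_nine : genusFormula 9 = 0 := by
  have h := genusFormula_of_nu_zero (nu_eq_zero_of_nine_dvd (dvd_refl 9)).1
    (nu_eq_zero_of_nine_dvd (dvd_refl 9)).2
  rw [dedekindPsi_nine, cuspCount_nine] at h
  norm_num at h
  linarith

end Fermat.Agent.S18.NuZero37
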