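/-
S18 project (blueprint 14), package [CUSP-ORBIT] part 2 (helper78): the counting core, pure
combinatorics (Mathlib only).

`orbit_core`: a map `P : ι → α` (index of an embedding ↦ its place), a weight `e : α → ℤ`
(ramification index) with `∑_{Q ∈ S} e Q = card ι` (fundamental identity), classes `cls i ∋ i` on
which `P` is constant and with `e (P i) ≤ card (cls i)`, and `P` onto `S`.  Then the fibres of `P`
are exactly the classes and `e (P i) = card (cls i)`.

`orbitFinset ρ i`: the orbit of `i` under iteration of `ρ : ι → ι`, as a finset of cardinality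
`Function.minimalPeriod ρ i`.
-/
import Mathlib

set_option autoImplicit false

namespace Fermat.Agent.S18.OrbitCore78

section Core

variable {ι α : Type*} [Fintype ι] [DecidableEq ι] [DecidableEq α]

theorem orbit_core (P : ι → α) (e : α → ℤ) (cls : ι → Finset ι)
    (hcls : ∀ i, ∀ j ∈ cls i, P j = P i)
    (he : ∀ i, e (P i) ≤ (cls i).card)
    (S : Finset α) (hPS : ∀ i, P i ∈ S) (hall : ∀ Q ∈ S, ∃ i, P i = Q)
    (hsum : ∑ Q ∈ S, e Q = (Fintype.card ι : ℤ)) :
    (∀ i, cls i = Finset.univ.filter (fun j => P j = P i)) ∧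
      (∀ i, e (P i) = (cls i).card) := by
  classical
  set fib : α → Finset ι := fun Q => Finset.univ.filter (fun j => P j = Q) with hfib
  have hsub : ∀ i, cls i ⊆ fib (P i) := fun i j hj => by
    simp only [hfib, Finset.mem_filter, Finset.mem_univ, true_and]
    exact hcls i j hj
  have hcard : (Fintype.card ι : ℤ) = ∑ Q ∈ S, ((fib Q).card : ℤ) := by
    have h := Finset.card_eq_sum_card_fiberwise (f := P) (s := (Finset.univ : Finset ι)) (t := S)
      (fun i _ => hPS i)
    rw [Finset.card_univ] at h
    rw [h]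
    push_cast
    rfl
  have hle : ∀ Q ∈ S, e Q ≤ ((fib Q).card : ℤ) := fun Q hQ => by
    obtain ⟨i, rfl⟩ := hall Q hQ
    have h1 := he i
    have h2 : ((cls i).card : ℤ) ≤ ((fib (P i)).card : ℤ) := by
      exact_mod_cast Finset.card_le_card (hsub i)
    omega
  have heq : ∀ Q ∈ S, e Q = ((fib Q).card : ℤ) := by
    have h := (Finset.sum_eq_sum_iff_of_le hle).1 (by rw [hsum, hcard])
    exact h
  have hclscard : ∀ i, ((cls i).card : ℤ) = ((fib (P i)).card : ℤ) := fun i => by
    have h1 := he i
    have h2 : ((cls i).card : ℤ) ≤ ((fib (P i)).card : ℤ) := by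
      exact_mod_cast Finset.card_le_card (hsub i)
    have h3 := heq (P i) (hPS i)
    omega
  refine ⟨fun i => ?_, fun i => ?_⟩
  · exact Finset.eq_of_subset_of_card_le (hsub i) (by exact_mod_cast (hclscard i).ge)
  · rw [heq (P i) (hPS i), hclscard i]

/-- The number of values of `P` equals the number of classes. -/
theorem card_image_eq_card_image_cls (P : ι → α) (cls : ι → Finset ι)
    (h : ∀ i, cls i = Finset.univ.filter (fun j => P j = P i)) :
    (Finset.univ.image P).card = (Finset.univ.image cls).card := by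
  classical
  have hcomp : Finset.univ.image cls
      = (Finset.univ.image P).image (fun Q => Finset.univ.filter (fun j => P j = Q)) := by
    rw [Finset.image_image]
    refine Finset.image_congr fun i _ => ?_
    simp only [Function.comp_apply]
    exact h i
  rw [hcomp]
  symm
  apply Finset.card_image_of_injOn
  intro Q hQ Q' hQ' hQQ'
  simp only [Finset.coe_image, Finset.coe_univ, Set.image_univ, Set.mem_range] at hQ hQ'
  obtain ⟨i, rfl⟩ := hQ
  obtain ⟨i', rfl⟩ := hQ'
  simp only at hQQ'
  have hi : i ∈ Finset.univ.filter (fun j => P j = P i) := by simp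
  rw [hQQ'] at hi
  simpa using hi

end Core

section Orbit

variable {ι : Type*} [DecidableEq ι]

/-- The orbit of `i` under `ρ`, listed as `i, ρ i, …, ρ^(s-1) i`, `s` the minimal period. -/
noncomputable def orbitFinset (ρ : ι → ι) (i : ι) : Finset ι :=
  (Finset.range (Function.minimalPeriod ρ i)).image (fun k => ρ^[k] i)

theorem card_orbitFinset (ρ : ι → ι) (i : ι) :
    (orbitFinset ρ i).card = Function.minimalPeriod ρ i := by
  rw [orbitFinset, Finset.card_image_of_injOn, Finset.card_range]
  intro a ha b hb hab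
  exact Function.iterate_injOn_Iio_minimalPeriod (by simpa using ha) (by simpa using hb) hab

theorem mem_orbitFinset_iff {ρ : ι → ι} {i : ι} (hi : i ∈ Function.periodicPts ρ) (j : ι) :
    j ∈ orbitFinset ρ i ↔ ∃ k : ℕ, ρ^[k] i = j := by
  constructor
  · intro h
    obtain ⟨k, _, hk⟩ := Finset.mem_image.1 h
    exact ⟨k, hk⟩
  · rintro ⟨k, rfl⟩
    refine Finset.mem_image.2 ⟨k % Function.minimalPeriod ρ i, ?_, ?_⟩
    · exact Finset.mem_range.2 (Nat.mod_lt _ (Function.minimalPeriod_pos_of_mem_periodicPts hi))
    · exact Function.iterate_mod_minimalPeriod_eq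

theorem self_mem_orbitFinset {ρ : ι → ι} {i : ι} (hi : i ∈ Function.periodicPts ρ) :
    i ∈ orbitFinset ρ i :=
  (mem_orbitFinset_iff hi i).2 ⟨0, rfl⟩

end Orbit

end Fermat.Agent.S18.OrbitCore78
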