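import Mathlib
import Fermat.Agent.S20.RamCount
import Fermat.Agent.S20.QuotLen9

/-!
# S18 / [RH]-ALG (helper75): characteristic-free Riemann–Hurwitz bookkeeping for differents

Dedekind-level half of package [RH] of blueprint 14 (S18), in the style of `S20/RamCount` and
`S20/QuotLen9`, but WITHOUT any tameness / characteristic hypothesis.

Setting: `K0` a field, `A ⊆ B (⊆ C)` Dedekind domains, finite torsion-free, separable fraction
fields, `K0`-algebras in a tower, **all residue fields of `B` (and `C`) equal to `K0`**
(`hres : ∀ P maximal, Function.Surjective (algebraMap K0 (B ⧸ P))`).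

* `sub_one_le_count_differentIdeal` : exponent of the different at `P` is `≥ e(P|p) - 1`.
* `sum_count_le_card` : `∑_{P ∈ T} count P s ≤ card s`.
* `le_card_normalizedFactors_differentIdeal_add` (RC3≥):
  `#S * n ≤ deg 𝔇 + ∑_{p ∈ S} #{P ∣ p}` for ANY finite set `S` of nonzero maximal ideals of `A`.
* `card_normalizedFactors_map` : `deg (I C) = [C : B] * deg I`.
* `card_normalizedFactors_differentIdeal_tower` :
  `deg 𝔇(C/A) = deg 𝔇(C/B) + [C : B] * deg 𝔇(B/A)`.
* `finrank_quotient_differentIdeal_tower` (T1) and `le_finrank_quotient_differentIdeal_add` (T2):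
  the same two statements for `finrank K0 (C ⧸ 𝔇)`.
-/

set_option autoImplicit false

open Module UniqueFactorizationMonoid Ideal

namespace Fermat.Agent.S18.RH75

attribute [local instance] FractionRing.liftAlgebra FractionRing.isScalarTower_liftAlgebra
  Ideal.Quotient.field

section Multiset

/-- For a finset `T` of distinct elements, `∑_{a ∈ T} count a s ≤ card s`. -/
theorem sum_count_le_card {α : Type*} [DecidableEq α] (s : Multiset α) (T : Finset α) :
    ∑ a ∈ T, s.count a ≤ Multiset.card s := by
  classical
  have h1 : ∑ a ∈ T, s.count a = ∑ a ∈ T ∩ s.toFinset, s.count a := by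
    symm
    apply Finset.sum_subset Finset.inter_subset_left
    intro a haT ha
    rw [Finset.mem_inter, not_and] at ha
    have : a ∉ s := fun h => ha haT (Multiset.mem_toFinset.mpr h)
    exact Multiset.count_eq_zero_of_notMem this
  rw [h1, ← Multiset.toFinset_sum_count_eq s]
  exact Finset.sum_le_sum_of_subset Finset.inter_subset_right

end Multiset

section Exponent

variable (A : Type*) {B : Type*} [CommRing A] [CommRing B] [Algebra A B]
  [IsDedekindDomain A] [IsDedekindDomain B]
  [Module.IsTorsionFree A B] [Module.Finite A B]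

/-- **Dedekind's lower bound, exponent form (no tameness).**  For a nonzero prime `P` of `B` the
exponent of `P` in `differentIdeal A B` is at least `e(P | P ∩ A) - 1`. -/
theorem sub_one_le_count_differentIdeal
    [Algebra.IsSeparable (FractionRing A) (FractionRing B)]
    (P : Ideal B) [P.IsPrime] (hP : P ≠ ⊥) :
    Multiset.count P (normalizedFactors ((P.under A).map (algebraMap A B))) - 1 ≤
      Multiset.count P (normalizedFactors (differentIdeal A B)) := by
  have hp : P.under A ≠ ⊥ := mt Ideal.eq_bot_of_comap_eq_bot hP
  have hp' := (Ideal.map_eq_bot_iff_of_injective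
    (FaithfulSMul.algebraMap_injective A B)).not.mpr hp
  have hpmax : (P.under A).IsMaximal := Ideal.IsPrime.isMaximal inferInstance hp
  have hPmax : P.IsMaximal := Ideal.IsPrime.isMaximal inferInstance hP
  set e := Multiset.count P (normalizedFactors ((P.under A).map (algebraMap A B))) with he
  obtain ⟨Q, _, hmap⟩ := Ideal.eq_prime_pow_mul_coprime hp' P
  rw [← he] at hmap
  have h2 : P ^ (e - 1) ∣ differentIdeal A B :=
    pow_sub_one_dvd_differentIdeal A P e hp ⟨Q, hmap⟩
  have hD : differentIdeal A B ≠ ⊥ := differentIdeal_ne_bot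
  have hPprime : Prime P := Ideal.prime_of_isPrime hP inferInstance
  have h := emultiplicity_eq_count_normalizedFactors hPprime.irreducible hD
  rw [normalize_eq] at h
  have h3 := le_emultiplicity_of_pow_dvd h2
  rw [h] at h3
  exact_mod_cast h3

end Exponent

section Count

variable (K0 : Type*) [Field K0]
variable (A : Type*) (B : Type*) [CommRing A] [CommRing B] [Algebra A B]
  [Algebra K0 A] [Algebra K0 B] [IsScalarTower K0 A B]
  [IsDedekindDomain A] [IsDedekindDomain B] [Module.IsTorsionFree A B] [Module.Finite A B]
  [Algebra.IsSeparable (FractionRing A) (FractionRing B)]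

open Fermat.Agent.S20

omit [Algebra K0 A] [Algebra K0 B] [IsScalarTower K0 A B] in
/-- exponent of the different at a prime over `p` is `≥ e(P|p) - 1`, `primesOverFinset` form. -/
theorem sub_one_le_count_differentIdeal_of_mem (p : Ideal A) [p.IsMaximal] (hp0 : p ≠ ⊥)
    {P : Ideal B} (hP : P ∈ IsDedekindDomain.primesOverFinset p B) :
    (normalizedFactors (p.map (algebraMap A B))).count P - 1 ≤
      (normalizedFactors (differentIdeal A B)).count P := by
  classical
  rw [IsDedekindDomain.mem_primesOverFinset_iff hp0 B] at hP
  have hq1 : P.IsPrime := hP.1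
  have hq2 : P.LiesOver p := hP.2
  have hpB : p.map (algebraMap A B) ≠ ⊥ := map_ne_bot_of_ne_bot hp0
  have hq0 : P ≠ ⊥ := ne_bot_of_le_ne_bot hpB (map_le_of_le_comap (P.over_def p).le)
  have hpu : P.under A = p := (P.over_def p).symm
  have := sub_one_le_count_differentIdeal A P hq0
  rwa [hpu] at this

/-- **(RC3≥)** For ANY finite set `S` of nonzero maximal ideals of `A`:
`#S · n ≤ deg 𝔇 + ∑_{p ∈ S} #{P ∣ p}` (no tameness, no unramifiedness outside `S`). -/
theorem le_card_normalizedFactors_differentIdeal_add
    (hres : ∀ P : Ideal B, P.IsMaximal → Function.Surjective (algebraMap K0 (B ⧸ P)))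
    (S : Finset (Ideal A)) (hSmax : ∀ p ∈ S, p.IsMaximal ∧ p ≠ ⊥) :
    S.card * finrank A B ≤ Multiset.card (normalizedFactors (differentIdeal A B))
      + ∑ p ∈ S, (IsDedekindDomain.primesOverFinset p B).card := by
  classical
  set T : Finset (Ideal B) := S.biUnion (fun p => IsDedekindDomain.primesOverFinset p B) with hTdef
  have hdisj : (S : Set (Ideal A)).PairwiseDisjoint
      (fun p => IsDedekindDomain.primesOverFinset p B) := by
    intro p hp p' hp' hpp'
    rw [Function.onFun, Finset.disjoint_left]
    intro P hP hP'
    have := (hSmax p hp).1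
    have := (hSmax p' hp').1
    rw [IsDedekindDomain.mem_primesOverFinset_iff (hSmax p hp).2 B] at hP
    rw [IsDedekindDomain.mem_primesOverFinset_iff (hSmax p' hp').2 B] at hP'
    have h1 : P.LiesOver p := hP.2
    have h2 : P.LiesOver p' := hP'.2
    exact hpp' ((P.over_def p).trans (P.over_def p').symm)
  have hle := sum_count_le_card (normalizedFactors (differentIdeal A B)) T
  rw [hTdef, Finset.sum_biUnion hdisj] at hle
  have hsum : S.card * finrank A B =
      ∑ p ∈ S, (∑ P ∈ IsDedekindDomain.primesOverFinset p B,
        ((normalizedFactors (p.map (algebraMap A B))).count P - 1)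
        + (IsDedekindDomain.primesOverFinset p B).card) := by
    rw [Finset.card_eq_sum_ones, Finset.sum_mul]
    refine Finset.sum_congr rfl fun p hp => ?_
    have := (hSmax p hp).1
    rw [one_mul, RamCount.sum_count_sub_one_add_card K0 A B hres p (hSmax p hp).2]
  rw [hsum, Finset.sum_add_distrib]
  refine Nat.add_le_add_right (le_trans ?_ hle) _
  refine Finset.sum_le_sum fun p hp => ?_
  have := (hSmax p hp).1
  exact Finset.sum_le_sum fun P hP =>
    sub_one_le_count_differentIdeal_of_mem A B p (hSmax p hp).2 hP

end Count

section Map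

variable (K0 : Type*) [Field K0]
variable (B : Type*) (C : Type*) [CommRing B] [CommRing C] [Algebra B C]
  [Algebra K0 B] [Algebra K0 C] [IsScalarTower K0 B C]
  [IsDedekindDomain B] [IsDedekindDomain C] [Module.IsTorsionFree B C] [Module.Finite B C]

open Fermat.Agent.S20

/-- `deg (P C) = [C : B]` for a nonzero prime `P` of `B` (all residue fields of `C` equal `K0`). -/
theorem card_normalizedFactors_map_prime
    (hres : ∀ Q : Ideal C, Q.IsMaximal → Function.Surjective (algebraMap K0 (C ⧸ Q)))
    (P : Ideal B) [P.IsMaximal] (hP0 : P ≠ ⊥) :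
    Multiset.card (normalizedFactors (P.map (algebraMap B C))) = finrank B C := by
  classical
  rw [← RamCount.sum_count_primesOver K0 B C hres P hP0]
  show _ = ∑ Q ∈ (factors (P.map (algebraMap B C))).toFinset, _
  rw [factors_eq_normalizedFactors, Multiset.toFinset_sum_count_eq]

/-- **deg (I C) = [C : B] · deg I** for a nonzero ideal `I` of `B`. -/
theorem card_normalizedFactors_map
    (hres : ∀ Q : Ideal C, Q.IsMaximal → Function.Surjective (algebraMap K0 (C ⧸ Q)))
    (I : Ideal B) (hI : I ≠ ⊥) :
    Multiset.card (normalizedFactors (I.map (algebraMap B C))) =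
      finrank B C * Multiset.card (normalizedFactors I) := by
  classical
  have hinj : Function.Injective (algebraMap B C) := FaithfulSMul.algebraMap_injective B C
  induction I using UniqueFactorizationMonoid.induction_on_prime with
  | h₁ => exact absurd rfl hI
  | h₂ x hx =>
    rw [Ideal.isUnit_iff] at hx
    subst hx
    rw [Ideal.map_top, ← Ideal.one_eq_top, normalizedFactors_one, ← Ideal.one_eq_top,
      normalizedFactors_one]
    simp
  | h₃ J P hJ hP ih =>
    have hJ' : J ≠ ⊥ := hJ
    have hP0 : P ≠ ⊥ := hP.ne_zero
    have hPprime : P.IsPrime := (Ideal.prime_iff_isPrime hP0).mp hP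
    have hPmax : P.IsMaximal := hPprime.isMaximal hP0
    have hPC : P.map (algebraMap B C) ≠ ⊥ :=
      (Ideal.map_eq_bot_iff_of_injective hinj).not.mpr hP0
    have hJC : J.map (algebraMap B C) ≠ ⊥ :=
      (Ideal.map_eq_bot_iff_of_injective hinj).not.mpr hJ'
    rw [Ideal.map_mul, normalizedFactors_mul hPC hJC, Multiset.card_add, ih hJ',
      card_normalizedFactors_map_prime K0 B C hres P hP0,
      normalizedFactors_mul hP0 hJ', normalizedFactors_irreducible hP.irreducible,
      Multiset.card_add, Multiset.card_singleton]
    ring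

end Map

section Tower

variable (K0 : Type*) [Field K0]
variable (A : Type*) (B : Type*) (C : Type*) [CommRing A] [CommRing B] [CommRing C]
  [Algebra A B] [Algebra B C] [Algebra A C] [IsScalarTower A B C]
  [Algebra K0 B] [Algebra K0 C] [IsScalarTower K0 B C]
  [IsDedekindDomain A] [IsDedekindDomain B] [IsDedekindDomain C]
  [Module.IsTorsionFree A B] [Module.Finite A B]
  [Module.IsTorsionFree A C] [Module.Finite A C]
  [Module.IsTorsionFree B C] [Module.Finite B C]
  [Algebra.IsSeparable (FractionRing A) (FractionRing C)]

open Fermat.Agent.S20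

set_option linter.overlappingInstances false in
/-- **Transitivity of the degree of the different:**
`deg 𝔇(C/A) = deg 𝔇(C/B) + [C : B] · deg 𝔇(B/A)`. -/
theorem card_normalizedFactors_differentIdeal_tower
    (hres : ∀ Q : Ideal C, Q.IsMaximal → Function.Surjective (algebraMap K0 (C ⧸ Q))) :
    Multiset.card (normalizedFactors (differentIdeal A C)) =
      Multiset.card (normalizedFactors (differentIdeal B C)) +
        finrank B C * Multiset.card (normalizedFactors (differentIdeal A B)) := by
  classical
  have : Algebra.IsSeparable (FractionRing B) (FractionRing C) :=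
    Algebra.isSeparable_tower_top_of_isSeparable (FractionRing A) _ _
  have : Algebra.IsSeparable (FractionRing A) (FractionRing B) :=
    Algebra.isSeparable_tower_bot_of_isSeparable _ _ (FractionRing C)
  have hinj : Function.Injective (algebraMap B C) := FaithfulSMul.algebraMap_injective B C
  have hAB : differentIdeal A B ≠ ⊥ := differentIdeal_ne_bot
  have hBC : differentIdeal B C ≠ ⊥ := differentIdeal_ne_bot
  have hABC : (differentIdeal A B).map (algebraMap B C) ≠ ⊥ :=
    (Ideal.map_eq_bot_iff_of_injective hinj).not.mpr hAB
  rw [differentIdeal_eq_differentIdeal_mul_differentIdeal A B C,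
    normalizedFactors_mul hBC hABC, Multiset.card_add,
    card_normalizedFactors_map K0 B C hres _ hAB]

set_option linter.overlappingInstances false in
/-- **(T1)** `dim_{K0} C/𝔇(C/A) = dim_{K0} C/𝔇(C/B) + [C : B] · dim_{K0} B/𝔇(B/A)`. -/
theorem finrank_quotient_differentIdeal_tower
    (hresB : ∀ P : Ideal B, P.IsMaximal → Function.Surjective (algebraMap K0 (B ⧸ P)))
    (hresC : ∀ Q : Ideal C, Q.IsMaximal → Function.Surjective (algebraMap K0 (C ⧸ Q))) :
    finrank K0 (C ⧸ differentIdeal A C) =
      finrank K0 (C ⧸ differentIdeal B C) +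
        finrank B C * finrank K0 (B ⧸ differentIdeal A B) := by
  have : Algebra.IsSeparable (FractionRing B) (FractionRing C) :=
    Algebra.isSeparable_tower_top_of_isSeparable (FractionRing A) _ _
  have : Algebra.IsSeparable (FractionRing A) (FractionRing B) :=
    Algebra.isSeparable_tower_bot_of_isSeparable _ _ (FractionRing C)
  rw [QuotLen9.finrank_quotient_eq_card_normalizedFactors hresC
      (differentIdeal_ne_bot (A := A) (B := C)),
    QuotLen9.finrank_quotient_eq_card_normalizedFactors hresC
      (differentIdeal_ne_bot (A := B) (B := C)),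
    QuotLen9.finrank_quotient_eq_card_normalizedFactors hresB
      (differentIdeal_ne_bot (A := A) (B := B)),
    card_normalizedFactors_differentIdeal_tower K0 A B C hresC]

end Tower

section Lower

variable (K0 : Type*) [Field K0]
variable (B : Type*) (C : Type*) [CommRing B] [CommRing C] [Algebra B C]
  [Algebra K0 B] [Algebra K0 C] [IsScalarTower K0 B C]
  [IsDedekindDomain B] [IsDedekindDomain C] [Module.IsTorsionFree B C] [Module.Finite B C]
  [Algebra.IsSeparable (FractionRing B) (FractionRing C)]

open Fermat.Agent.S20

/-- **(T2)** For ANY finite set `S` of nonzero maximal ideals of `B`: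
`#S · [C : B] ≤ dim_{K0} C/𝔇(C/B) + ∑_{p ∈ S} #{Q ∣ p}`. -/
theorem le_finrank_quotient_differentIdeal_add
    (hres : ∀ Q : Ideal C, Q.IsMaximal → Function.Surjective (algebraMap K0 (C ⧸ Q)))
    (S : Finset (Ideal B)) (hSmax : ∀ p ∈ S, p.IsMaximal ∧ p ≠ ⊥) :
    S.card * finrank B C ≤ finrank K0 (C ⧸ differentIdeal B C)
      + ∑ p ∈ S, (IsDedekindDomain.primesOverFinset p C).card := by
  rw [QuotLen9.finrank_quotient_eq_card_normalizedFactors hres
      (differentIdeal_ne_bot (A := B) (B := C))]
  exact le_card_normalizedFactors_differentIdeal_add K0 B C hres S hSmax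

end Lower

end Fermat.Agent.S18.RH75
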