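/-
S18 moonshot, package [CUSP-LITE] (helper3), abstract half of (C-BASE):
embeddings of a simple extension `F = E ⊔ k(α)` into the ambient field from roots of the minimal
polynomial of `α` over `E`, and "all other roots of `Φ = (X - a) Ψ` are roots of the minimal
polynomial when `deg Ψ ≤ deg minpoly`".  Pure Mathlib; any characteristic.
-/
import Mathlib

set_option autoImplicit false

open Polynomial IntermediateField

namespace Fermat.Agent.S18.RootEmb3

/-! ### Embeddings of a simple extension from roots of the minimal polynomial -/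

section Abstract

variable {k L : Type*} [Field k] [Field L] [Algebra k L]

/-- the identity map `S.restrictScalars k → S` as a `k`-algebra hom. -/
def rsHom (E : IntermediateField k L) (S : IntermediateField E L) :
    (S.restrictScalars k : IntermediateField k L) →ₐ[k] S where
  toFun x := ⟨x.1, x.2⟩
  map_one' := rfl
  map_mul' _ _ := rfl
  map_zero' := rfl
  map_add' _ _ := rfl
  commutes' _ := rfl

/-- For every root `r` in `L` of the minimal polynomial of `α` over `E`, there is a `k`-embedding
of `E(α)` into `L` which is the identity on `E` and sends `α` to `r`. -/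
theorem exists_algHom_of_root
    (E : IntermediateField k L) (α : L) (hα : IsIntegral E α) (r : L)
    (hr : Polynomial.aeval r (minpoly E α) = 0) :
    ∃ σ : ((IntermediateField.adjoin E {α}).restrictScalars k : IntermediateField k L) →ₐ[k] L,
      (∀ x : ((IntermediateField.adjoin E {α}).restrictScalars k : IntermediateField k L),
        (x : L) ∈ E → σ x = x) ∧
      (∀ hα' : α ∈ ((IntermediateField.adjoin E {α}).restrictScalars k : IntermediateField k L),
        σ ⟨α, hα'⟩ = r) := by
  have hr' : r ∈ (minpoly E α).aroots L := by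
    rw [Polynomial.mem_aroots]
    exact ⟨minpoly.ne_zero hα, hr⟩
  let σ' : E⟮α⟯ →ₐ[E] L := (IntermediateField.algHomAdjoinIntegralEquiv E hα).symm ⟨r, hr'⟩
  have hgen : σ' (IntermediateField.AdjoinSimple.gen E α) = r :=
    IntermediateField.algHomAdjoinIntegralEquiv_symm_apply_gen E hα ⟨r, hr'⟩
  refine ⟨(σ'.restrictScalars k).comp (rsHom E E⟮α⟯), ?_, ?_⟩
  · intro x hx
    have h1 : rsHom E E⟮α⟯ x = algebraMap E E⟮α⟯ ⟨x.1, hx⟩ := Subtype.ext rfl
    rw [AlgHom.comp_apply, h1, AlgHom.restrictScalars_apply, σ'.commutes]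
    rfl
  · intro hα'
    have h1 : rsHom E E⟮α⟯ ⟨α, hα'⟩ = IntermediateField.AdjoinSimple.gen E α := Subtype.ext rfl
    rw [AlgHom.comp_apply, h1, AlgHom.restrictScalars_apply, hgen]

/-- Same, for an intermediate field `F = E ⊔ k(α)`. -/
theorem exists_algHom_of_root' (E F : IntermediateField k L) (α : L) (hF : F = E ⊔ k⟮α⟯)
    (hα : IsIntegral E α) (r : L) (hr : Polynomial.aeval r (minpoly E α) = 0) :
    ∃ σ : F →ₐ[k] L, (∀ x : F, (x : L) ∈ E → σ x = x) ∧ (∀ hα' : α ∈ F, σ ⟨α, hα'⟩ = r) := by
  have h1 : F = ((IntermediateField.adjoin E {α}).restrictScalars k : IntermediateField k L) := by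
    rw [hF, restrictScalars_adjoin_eq_sup]
  obtain ⟨σ, hσ1, hσ2⟩ := exists_algHom_of_root E α hα r hr
  refine ⟨σ.comp (IntermediateField.equivOfEq h1 : F →ₐ[k] _), ?_, ?_⟩
  · intro x hx
    rw [AlgHom.comp_apply]
    have := hσ1 ((IntermediateField.equivOfEq h1 : F →ₐ[k] _) x) hx
    rw [this]
    rfl
  · intro hα'
    rw [AlgHom.comp_apply]
    exact hσ2 (h1 ▸ hα')

/-- If `Φ` is monic of degree `n + 1` over `E` with a root `a ∈ E`, and `α ≠ a` is a root of `Φ`
whose minimal polynomial has degree `n`, then every root `r ≠ a` of `Φ` is a root of the minimal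
polynomial of `α`. -/
theorem aeval_minpoly_eq_zero_of_root {E : Type*} [Field E] [Algebra E L] {Φ : Polynomial E}
    (hΦ : Φ.Monic) {n : ℕ} (hdeg : Φ.natDegree = n + 1) (a : E) (ha : Φ.eval a = 0)
    (α : L) (hα : Polynomial.aeval α Φ = 0) (hαa : α ≠ algebraMap E L a)
    (hm : n ≤ (minpoly E α).natDegree) (r : L) (hr : Polynomial.aeval r Φ = 0)
    (hra : r ≠ algebraMap E L a) : Polynomial.aeval r (minpoly E α) = 0 := by
  have hint : IsIntegral E α := ⟨Φ, hΦ, hα⟩
  obtain ⟨Q, hQ⟩ : (X - Polynomial.C a) ∣ Φ := Polynomial.dvd_iff_isRoot.mpr ha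
  have hQmonic : Q.Monic := by
    have h1 : ((X - Polynomial.C a) * Q).Monic := hQ ▸ hΦ
    exact (Polynomial.monic_X_sub_C a).of_mul_monic_left h1
  have hQdeg : Q.natDegree = n := by
    have h1 := congrArg Polynomial.natDegree hQ
    rw [hdeg, Polynomial.natDegree_mul (Polynomial.X_sub_C_ne_zero a) hQmonic.ne_zero,
      Polynomial.natDegree_X_sub_C] at h1
    omega
  -- `α` is a root of `Q`
  have hαQ : Polynomial.aeval α Q = 0 := by
    have h1 : Polynomial.aeval α Φ = (α - algebraMap E L a) * Polynomial.aeval α Q := by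
      rw [hQ, map_mul, map_sub, Polynomial.aeval_X, Polynomial.aeval_C]
    rw [hα] at h1
    exact (mul_eq_zero.mp h1.symm).resolve_left (sub_ne_zero.mpr hαa)
  have hdvd : minpoly E α ∣ Q := minpoly.dvd E α hαQ
  have hQm : Q = minpoly E α := by
    apply Polynomial.eq_of_monic_of_dvd_of_natDegree_le (minpoly.monic hint) hQmonic hdvd
    rw [hQdeg]
    exact hm
  have h2 : Polynomial.aeval r Φ = (r - algebraMap E L a) * Polynomial.aeval r Q := by
    rw [hQ, map_mul, map_sub, Polynomial.aeval_X, Polynomial.aeval_C]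
  rw [hr] at h2
  rw [← hQm]
  exact (mul_eq_zero.mp h2.symm).resolve_left (sub_ne_zero.mpr hra)

end Abstract

end Fermat.Agent.S18.RootEmb3
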