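/-
S18 / [SEP] (helper64): separability of function fields in characteristic `p`.

Main results (Mathlib only):

* `exists_decomp_ratFunc` : `k` perfect of characteristic `p`: every `a : RatFunc k` is
  `∑ r < p, X ^ r * (b r) ^ p`.
* `isSeparable_of_indep` : `F` algebraic over `RatFunc k`, `x` the image of `X`; if
  `1, x, …, x^(p-1)` are linearly independent over `F ^ p`
  (`∑ r < p, x ^ r * (β r) ^ p = 0 → β r = 0`), then `F / RatFunc k` is separable.
* `indep_of_laurent` / `indep_of_valuation` : the independence from a ring hom into a Laurent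
  series field with `p ∤ order (σ x)`, resp. from a valuation with `v x ^ s` never a `p`-th power.
* `isSeparable_of_laurent`, `isSeparable_of_valuation` : the combined statements.
-/
import Mathlib

set_option autoImplicit false

open Polynomial

noncomputable section

namespace Fermat.Agent.S18.Sep64

/-! ### Step 1: `p`-basis decomposition in `k[X]` and `RatFunc k` -/

section Decomp

variable {k : Type*} [Field k] (p : ℕ) [hp : Fact p.Prime] [CharP k p] [PerfectField k]

/-- Every polynomial over a perfect field of characteristic `p` is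
`∑ r < p, X ^ r * (b r) ^ p`. -/
theorem exists_decomp_poly (a : k[X]) :
    ∃ b : ℕ → k[X], a = ∑ r ∈ Finset.range p, X ^ r * (b r) ^ p := by
  induction a using Polynomial.induction_on' with
  | add f g hf hg =>
    obtain ⟨b, hb⟩ := hf
    obtain ⟨c, hc⟩ := hg
    refine ⟨fun r => b r + c r, ?_⟩
    have : ∀ r, X ^ r * (b r + c r) ^ p = X ^ r * (b r) ^ p + X ^ r * (c r) ^ p := by
      intro r
      rw [add_pow_char, mul_add]
    simp only [this, Finset.sum_add_distrib]
    rw [← hb, ← hc]
  | monomial n c =>
    have hp0 : 0 < p := hp.out.pos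
    refine ⟨fun r => if r = n % p then C ((frobeniusEquiv k p).symm c) * X ^ (n / p) else 0, ?_⟩
    rw [Finset.sum_eq_single (n % p)]
    · simp only [if_true]
      rw [mul_pow, ← C_pow, frobeniusEquiv_symm_pow_p, ← pow_mul, mul_left_comm, ← pow_add,
        Nat.mod_add_div' , ← C_mul_X_pow_eq_monomial]
    · intro r _ hr
      simp [hr, hp0.ne']
    · intro h
      exact absurd (Finset.mem_range.2 (Nat.mod_lt n hp0)) h

/-- Every rational function over a perfect field of characteristic `p` is
`∑ r < p, X ^ r * (b r) ^ p`. -/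
theorem exists_decomp_ratFunc (a : RatFunc k) :
    ∃ b : ℕ → RatFunc k, a = ∑ r ∈ Finset.range p, RatFunc.X ^ r * (b r) ^ p := by
  induction a using RatFunc.induction_on with
  | f P Q hQ =>
    obtain ⟨b, hb⟩ := exists_decomp_poly p (P * Q ^ (p - 1))
    refine ⟨fun r => algebraMap k[X] (RatFunc k) (b r) / algebraMap k[X] (RatFunc k) Q, ?_⟩
    have hQ' : algebraMap k[X] (RatFunc k) Q ≠ 0 := by
      simpa using hQ
    have hp1 : p - 1 + 1 = p := Nat.sub_add_cancel hp.out.one_le
    have h1 : algebraMap k[X] (RatFunc k) P / algebraMap k[X] (RatFunc k) Q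
        = algebraMap k[X] (RatFunc k) (P * Q ^ (p - 1)) / (algebraMap k[X] (RatFunc k) Q) ^ p := by
      rw [map_mul, map_pow, div_eq_div_iff hQ' (pow_ne_zero _ hQ')]
      conv_lhs => rw [← hp1, pow_succ]
      ring
    rw [h1, hb, map_sum, Finset.sum_div]
    refine Finset.sum_congr rfl fun r _ => ?_
    rw [map_mul, map_pow, map_pow, RatFunc.algebraMap_X, div_pow, mul_div_assoc]

end Decomp

/-! ### Step 2: the core: independence of `1, x, …, x^(p-1)` over `F ^ p` gives separability -/

section Core

variable {k : Type*} [Field k] (p : ℕ) [hp : Fact p.Prime] [CharP k p] [PerfectField k]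
variable {F : Type*} [Field F] [Algebra (RatFunc k) F] [Algebra.IsAlgebraic (RatFunc k) F]

/-- **Core separability criterion.**  `k` perfect of characteristic `p`, `F` algebraic over
`RatFunc k`, `x` the image of `X` in `F`.  If `1, x, …, x^(p-1)` are linearly independent over the
`p`-th powers of `F`, then `F / RatFunc k` is separable. -/
theorem isSeparable_of_indep
    (hind : ∀ β : ℕ → F,
      ∑ r ∈ Finset.range p, (algebraMap (RatFunc k) F RatFunc.X) ^ r * (β r) ^ p = 0 →
        ∀ r ∈ Finset.range p, β r = 0) :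
    Algebra.IsSeparable (RatFunc k) F := by
  have : CharP (RatFunc k) p := charP_of_injective_algebraMap (algebraMap k (RatFunc k)).injective p
  have : CharP F p := charP_of_injective_algebraMap (algebraMap (RatFunc k) F).injective p
  refine ⟨fun α => ?_⟩
  have hint : IsIntegral (RatFunc k) α := Algebra.IsIntegral.isIntegral α
  rcases Polynomial.separable_or p (minpoly.irreducible hint) with h | ⟨-, g, hg, hgf⟩
  · exact h
  exfalso
  set x : F := algebraMap (RatFunc k) F RatFunc.X with hx
  -- degrees
  have hdeg : (minpoly (RatFunc k) α).natDegree = g.natDegree * p := by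
    rw [← hgf, natDegree_expand]
  have hgpos : 0 < g.natDegree := by
    have := minpoly.natDegree_pos hint
    rw [hdeg] at this
    exact Nat.pos_of_mul_pos_right this
  have hlt : g.natDegree < (minpoly (RatFunc k) α).natDegree := by
    rw [hdeg]
    have := hp.out.one_lt
    nlinarith
  -- decompose the coefficients of `g`
  choose b hb using fun i : ℕ => exists_decomp_ratFunc p (g.coeff i)
  let G : ℕ → (RatFunc k)[X] := fun r =>
    ∑ i ∈ Finset.range (g.natDegree + 1), monomial i (b i r)
  have hGdeg : ∀ r, (G r).natDegree ≤ g.natDegree := by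
    intro r
    refine natDegree_sum_le_of_forall_le _ _ ?_
    intro i hi
    exact (natDegree_monomial_le _).trans (Nat.lt_succ_iff.1 (Finset.mem_range.1 hi))
  have hGcoeff : ∀ r i, i ≤ g.natDegree → (G r).coeff i = b i r := by
    intro r i hi
    simp only [G, finsetSum_coeff, coeff_monomial]
    rw [Finset.sum_eq_single i]
    · simp
    · intro j _ hji
      simp [hji]
    · intro h
      exact absurd (Finset.mem_range.2 (Nat.lt_succ_iff.2 hi)) h
  have hGaeval : ∀ r, aeval α (G r)
      = ∑ i ∈ Finset.range (g.natDegree + 1), algebraMap (RatFunc k) F (b i r) * α ^ i := by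
    intro r
    simp only [G, map_sum, aeval_monomial]
  have key : ∑ r ∈ Finset.range p, x ^ r * (aeval α (G r)) ^ p = 0 := by
    have h0 : aeval α (minpoly (RatFunc k) α) = 0 := minpoly.aeval _ _
    rw [← hgf, expand_aeval, aeval_eq_sum_range] at h0
    rw [← h0]
    simp only [hGaeval, sum_pow_char p, mul_pow, Finset.mul_sum]
    rw [Finset.sum_comm]
    refine Finset.sum_congr rfl fun i _ => ?_
    rw [Algebra.smul_def]
    conv_rhs => rw [hb i, map_sum, Finset.sum_mul]
    refine Finset.sum_congr rfl fun r _ => ?_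
    rw [map_mul, map_pow, map_pow, ← pow_mul, ← pow_mul, mul_comm i p]
    ring
  have hall := hind (fun r => aeval α (G r)) key
  have hG0 : ∀ r ∈ Finset.range p, G r = 0 := by
    intro r hr
    by_contra hne
    have h1 := natDegree_le_natDegree (minpoly.degree_le_of_ne_zero (RatFunc k) α hne (hall r hr))
    exact absurd (h1.trans (hGdeg r)) (not_le.2 hlt)
  have hg0 : g = 0 := by
    ext i
    rw [coeff_zero]
    rcases le_or_gt i g.natDegree with hi | hi
    · rw [hb i]
      refine Finset.sum_eq_zero fun r hr => ?_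
      have h2 := hGcoeff r i hi
      rw [hG0 r hr, coeff_zero] at h2
      rw [← h2, zero_pow hp.out.ne_zero, mul_zero]
    · exact coeff_eq_zero_of_natDegree_lt hi
  exact hg.ne_zero hg0

end Core

/-! ### Step 3: the independence hypothesis from Laurent expansions / valuations -/

section Indep

/-- In a Laurent series ring over a domain, if `p ∤ order y` then `1, y, …, y^(p-1)` are linearly
independent over the `p`-th powers. -/
theorem laurent_indep {R : Type*} [CommRing R] [IsDomain R] (p : ℕ) [hp : Fact p.Prime]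
    (y : LaurentSeries R) (hy : ¬ (p : ℤ) ∣ y.order) (γ : ℕ → LaurentSeries R)
    (h : ∑ r ∈ Finset.range p, y ^ r * (γ r) ^ p = 0) : ∀ r ∈ Finset.range p, γ r = 0 := by
  classical
  have hy0 : y ≠ 0 := by
    rintro rfl
    exact hy (by simp)
  by_contra hcon
  push Not at hcon
  set S := (Finset.range p).filter fun r => γ r ≠ 0 with hS
  have hSne : S.Nonempty := by
    obtain ⟨r, hr, hr0⟩ := hcon
    exact ⟨r, Finset.mem_filter.2 ⟨hr, hr0⟩⟩
  set T : ℕ → LaurentSeries R := fun r => y ^ r * (γ r) ^ p with hT
  have hTne : ∀ r ∈ S, T r ≠ 0 := fun r hr =>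
    mul_ne_zero (pow_ne_zero _ hy0) (pow_ne_zero _ (Finset.mem_filter.1 hr).2)
  have hTord : ∀ r ∈ S, (T r).order = r * y.order + p * (γ r).order := by
    intro r hr
    have hγ : γ r ≠ 0 := (Finset.mem_filter.1 hr).2
    simp only [hT]
    rw [HahnSeries.order_mul (pow_ne_zero _ hy0) (pow_ne_zero _ hγ), HahnSeries.order_pow,
      HahnSeries.order_pow, nsmul_eq_mul, nsmul_eq_mul]
  have hinj : ∀ r ∈ S, ∀ r' ∈ S, (T r).order = (T r').order → r = r' := by
    intro r hr r' hr' hrr
    rw [hTord r hr, hTord r' hr'] at hrr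
    have hlt : r < p := Finset.mem_range.1 (Finset.mem_filter.1 hr).1
    have hlt' : r' < p := Finset.mem_range.1 (Finset.mem_filter.1 hr').1
    have hdvd : (p : ℤ) ∣ ((r : ℤ) - r') * y.order :=
      ⟨(γ r').order - (γ r).order, by linarith⟩
    have hpp : Prime (p : ℤ) := Nat.prime_iff_prime_int.1 hp.out
    rcases hpp.dvd_or_dvd hdvd with h1 | h1
    · have habs : |(r : ℤ) - r'| < p := by
        rw [abs_lt]; constructor <;> omega
      have := Int.eq_zero_of_abs_lt_dvd h1 habs
      omega
    · exact absurd h1 hy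
  obtain ⟨r0, hr0, hmin⟩ := Finset.exists_min_image S (fun r => (T r).order) hSne
  have hcoeff : (∑ r ∈ Finset.range p, T r).coeff (T r0).order = (T r0).coeff (T r0).order := by
    rw [HahnSeries.coeff_sum]
    refine Finset.sum_eq_single r0 ?_ ?_
    · intro r hr hne
      by_cases hrS : r ∈ S
      · refine HahnSeries.coeff_eq_zero_of_lt_order ?_
        refine lt_of_le_of_ne (hmin r hrS) ?_
        intro heq
        exact hne (hinj r hrS r0 hr0 heq.symm)
      · have : γ r = 0 := by
          by_contra h0
          exact hrS (Finset.mem_filter.2 ⟨hr, h0⟩)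
        simp [hT, this, hp.out.ne_zero]
    · intro hnot
      exact absurd (Finset.mem_filter.1 hr0).1 hnot
  rw [h, HahnSeries.coeff_zero] at hcoeff
  exact hTne r0 hr0 (HahnSeries.coeff_order_eq_zero.1 hcoeff.symm)

/-- Independence of `1, x, …, x^(p-1)` over `F ^ p` from a ring hom into Laurent series. -/
theorem indep_of_laurent {R : Type*} [CommRing R] [IsDomain R] (p : ℕ) [hp : Fact p.Prime]
    {F : Type*} [Field F] (σ : F →+* LaurentSeries R) (x : F) (hx : ¬ (p : ℤ) ∣ (σ x).order)
    (β : ℕ → F) (h : ∑ r ∈ Finset.range p, x ^ r * (β r) ^ p = 0) :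
    ∀ r ∈ Finset.range p, β r = 0 := by
  intro r hr
  have h' : ∑ r ∈ Finset.range p, (σ x) ^ r * (σ (β r)) ^ p = 0 := by
    have := congrArg σ h
    simpa [map_sum, map_mul, map_pow] using this
  have := laurent_indep p (σ x) hx (fun r => σ (β r)) h' r hr
  exact (map_eq_zero_iff σ σ.injective).1 this

/-- Independence of `1, x, …, x^(p-1)` over `F ^ p` from a valuation on `F` such that no
`v x ^ s`, `0 < s < p`, is a `p`-th power in the value group. -/
theorem indep_of_valuation {Γ₀ : Type*} [LinearOrderedCommGroupWithZero Γ₀] (p : ℕ)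
    {F : Type*} [Field F] (v : Valuation F Γ₀) (x : F)
    (hx : ∀ s : ℕ, 0 < s → s < p → ∀ γ : Γ₀, v x ^ s ≠ γ ^ p)
    (β : ℕ → F) (h : ∑ r ∈ Finset.range p, x ^ r * (β r) ^ p = 0) :
    ∀ r ∈ Finset.range p, β r = 0 := by
  classical
  by_contra hcon
  push Not at hcon
  obtain ⟨r1, hr1, hr1ne⟩ := hcon
  have hp2 : 1 < p := by
    by_contra hp1
    have : p = 1 := by
      have := Finset.mem_range.1 hr1
      omega
    subst this
    simp only [Finset.range_one, Finset.sum_singleton, pow_zero, one_mul, pow_one] at h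
    have : r1 = 0 := by simpa using hr1
    exact hr1ne (this ▸ h)
  have hvx : v x ≠ 0 := by
    have := hx 1 one_pos hp2 0
    rwa [pow_one, zero_pow (by omega)] at this
  set S := (Finset.range p).filter fun r => β r ≠ 0 with hS
  have hSne : S.Nonempty := ⟨r1, Finset.mem_filter.2 ⟨hr1, hr1ne⟩⟩
  set T : ℕ → F := fun r => x ^ r * (β r) ^ p with hT
  have hvT : ∀ r, v (T r) = v x ^ r * v (β r) ^ p := fun r => by
    simp only [hT, map_mul, map_pow]
  have hTne : ∀ r ∈ S, v (T r) ≠ 0 := fun r hr => by
    rw [hvT]
    exact mul_ne_zero (pow_ne_zero _ hvx)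
      (pow_ne_zero _ ((Valuation.ne_zero_iff v).2 (Finset.mem_filter.1 hr).2))
  -- injectivity of `r ↦ v (T r)` on `S`
  have hinj' : ∀ r ∈ S, ∀ r' ∈ S, r' < r → v (T r) ≠ v (T r') := by
    intro r hr r' hr' hlt heq
    have hrp : r < p := Finset.mem_range.1 (Finset.mem_filter.1 hr).1
    have hb : v (β r) ≠ 0 := (Valuation.ne_zero_iff v).2 (Finset.mem_filter.1 hr).2
    rw [hvT, hvT] at heq
    refine hx (r - r') (by omega) (by omega) (v (β r') / v (β r)) ?_
    rw [div_pow, eq_div_iff (pow_ne_zero _ hb)]
    have hpow : v x ^ r = v x ^ (r - r') * v x ^ r' := by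
      rw [← pow_add]
      congr 1
      omega
    have hcancel : v x ^ r' ≠ 0 := pow_ne_zero _ hvx
    rw [hpow, mul_right_comm, mul_comm (v x ^ r') (v (β r') ^ p)] at heq
    exact mul_right_cancel₀ hcancel heq
  have hinj : ∀ r ∈ S, ∀ r' ∈ S, v (T r) = v (T r') → r = r' := by
    intro r hr r' hr' heq
    rcases lt_trichotomy r r' with hlt | heq' | hgt
    · exact absurd heq.symm (hinj' r' hr' r hr hlt)
    · exact heq'
    · exact absurd heq (hinj' r hr r' hr' hgt)
  obtain ⟨r0, hr0, hmax⟩ := Finset.exists_max_image S (fun r => v (T r)) hSne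
  have hsum : v (∑ r ∈ Finset.range p, T r) = v (T r0) := by
    refine Valuation.map_sum_eq_of_lt v (Finset.mem_filter.1 hr0).1 ?_
    intro r hr
    rw [Finset.mem_sdiff, Finset.mem_singleton] at hr
    by_cases hrS : r ∈ S
    · refine lt_of_le_of_ne (hmax r hrS) ?_
      intro heq
      exact hr.2 (hinj r hrS r0 hr0 heq)
    · have : β r = 0 := by
        by_contra h0
        exact hrS (Finset.mem_filter.2 ⟨hr.1, h0⟩)
      have hT0 : T r = 0 := by
        simp only [hT, this, zero_pow (by omega : p ≠ 0), mul_zero]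
      rw [hT0, map_zero]
      exact zero_lt_iff.2 (hTne r0 hr0)
  rw [h, map_zero] at hsum
  exact hTne r0 hr0 hsum.symm

/-- Independence from a `ℤᵐ⁰`-valued valuation with `p ∤ log (v x)`. -/
theorem indep_of_valuation_int (p : ℕ) [hp : Fact p.Prime] {F : Type*} [Field F]
    (v : Valuation F (WithZero (Multiplicative ℤ))) (x : F) (hx0 : x ≠ 0)
    (hx : ¬ (p : ℤ) ∣ WithZero.log (v x))
    (β : ℕ → F) (h : ∑ r ∈ Finset.range p, x ^ r * (β r) ^ p = 0) :
    ∀ r ∈ Finset.range p, β r = 0 := by
  refine indep_of_valuation p v x ?_ β h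
  intro s hs hsp γ heq
  have hvx : v x ≠ 0 := (Valuation.ne_zero_iff v).2 hx0
  have hγ : γ ≠ 0 := by
    rintro rfl
    rw [zero_pow hp.out.ne_zero] at heq
    exact pow_ne_zero _ hvx heq
  have hlog := congrArg WithZero.log heq
  rw [WithZero.log_pow, WithZero.log_pow, nsmul_eq_mul, nsmul_eq_mul] at hlog
  have hdvd : (p : ℤ) ∣ (s : ℤ) * WithZero.log (v x) := ⟨WithZero.log γ, hlog⟩
  have hpp : Prime (p : ℤ) := Nat.prime_iff_prime_int.1 hp.out
  rcases hpp.dvd_or_dvd hdvd with h1 | h1
  · have := Int.le_of_dvd (by exact_mod_cast hs) h1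
    omega
  · exact hx h1

end Indep

/-! ### Step 4: combined statements -/

section Combined

variable {k : Type*} [Field k] (p : ℕ) [hp : Fact p.Prime] [CharP k p] [PerfectField k]
variable {F : Type*} [Field F] [Algebra (RatFunc k) F] [Algebra.IsAlgebraic (RatFunc k) F]

/-- **Separability from a Laurent expansion.**  `k` perfect of characteristic `p`, `F` algebraic
over `RatFunc k`.  If there is a ring homomorphism `σ` from `F` to a Laurent series ring (over any
domain) such that `p` does not divide the order of the image of `X`, then `F / RatFunc k` is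
separable. -/
theorem isSeparable_of_laurent {R : Type*} [CommRing R] [IsDomain R] (σ : F →+* LaurentSeries R)
    (hx : ¬ (p : ℤ) ∣ (σ (algebraMap (RatFunc k) F RatFunc.X)).order) :
    Algebra.IsSeparable (RatFunc k) F :=
  isSeparable_of_indep p (indep_of_laurent p σ _ hx)

/-- **Separability from a valuation** with `p ∤ log (v x)`, `x` the image of `X`. -/
theorem isSeparable_of_valuation_int (v : Valuation F (WithZero (Multiplicative ℤ)))
    (hx : ¬ (p : ℤ) ∣ WithZero.log (v (algebraMap (RatFunc k) F RatFunc.X))) :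
    Algebra.IsSeparable (RatFunc k) F := by
  refine isSeparable_of_indep p (indep_of_valuation_int p v _ ?_ hx)
  rw [Ne, map_eq_zero_iff _ (algebraMap (RatFunc k) F).injective]
  exact RatFunc.X_ne_zero

/-- The same for an intermediate field `E` of `k((q))` (with any `RatFunc k`-algebra structure):
if `p` does not divide the `q`-order of the image of `X`, then `E / RatFunc k` is separable. -/
theorem isSeparable_intermediateField (E : IntermediateField k (LaurentSeries k))
    [Algebra (RatFunc k) E] [Algebra.IsAlgebraic (RatFunc k) E]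
    (hx : ¬ (p : ℤ) ∣ ((algebraMap (RatFunc k) E RatFunc.X : E) : LaurentSeries k).order) :
    Algebra.IsSeparable (RatFunc k) E :=
  isSeparable_of_laurent p (algebraMap E (LaurentSeries k)) hx

end Combined

end Fermat.Agent.S18.Sep64
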