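/-
S18 / [SEP] (helper64): instance of `Sep64` for the special fibre
`F̄_M = modularFunctionFieldFullC k M ⊆ k((q))` over `k(t)`, `t = jqModC k` (`q`-order `-1`).
No hypothesis on `M` (in particular `(M : k) ≠ 0` is not needed), `k` perfect of characteristic `p`.
Spare / generalisation of `Sep72.algebra_isSeparable_ratFunc'` (which needs no perfectness but
`(M : k) ≠ 0` and `k : Type`).
-/
import Mathlib
import Fermat.Agent.S18.Sep64
import Fermat.Prelude.Def_ModularCurve_X0ModL

set_option autoImplicit false

open ModularCurve

namespace Fermat.Agent.S18.SepInst64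

variable (k : Type*) [Field k]

theorem order_jqModC : (jqModC k).order = -1 := by
  have hne : jqModC k ≠ 0 := jqModC_ne_zero_of_nontrivial k
  apply le_antisymm
  · exact HahnSeries.order_le_of_coeff_ne_zero (by rw [coeff_jqModC_neg_one]; exact one_ne_zero)
  · by_contra hlt
    push Not at hlt
    have h1 : (jqModC k).order < -1 := hlt
    have := coeff_jqModC_of_lt k h1
    exact hne (HahnSeries.coeff_order_eq_zero.1 this)


/-- **Separability of `F̄_M` over `k(t)`**, `RatFunc` form (same shape as
`Sep72.algebra_isSeparable_ratFunc'`): for any algebraic `RatFunc k`-algebra structure on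
`F̄_M = modularFunctionFieldFullC k M` sending `X` to `t = jqModC k`. -/
theorem algebra_isSeparable_fullC (p : ℕ) [hp : Fact p.Prime] [CharP k p] [PerfectField k] (M : ℕ)
    [Algebra (RatFunc k) ↥(modularFunctionFieldFullC k M)]
    [Algebra.IsAlgebraic (RatFunc k) ↥(modularFunctionFieldFullC k M)]
    (hX : ((algebraMap (RatFunc k) ↥(modularFunctionFieldFullC k M) RatFunc.X :
      ↥(modularFunctionFieldFullC k M)) : LaurentSeries k) = jqModC k) :
    Algebra.IsSeparable (RatFunc k) ↥(modularFunctionFieldFullC k M) := by
  refine Sep64.isSeparable_intermediateField p (modularFunctionFieldFullC k M) ?_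
  rw [hX, order_jqModC]
  intro h
  have h1 : (p : ℤ) ∣ 1 := (dvd_neg (a := (p : ℤ)) (b := 1)).1 h
  have h2 : p ∣ 1 := by exact_mod_cast h1
  exact hp.out.one_lt.ne' (Nat.dvd_one.1 h2)

end Fermat.Agent.S18.SepInst64
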