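/-
S18 moonshot (helper20): the spine with the four landed plugs P1, P3, P4, P5 inserted.

`s18_of_levelData` : the frozen statement S18 follows from ONE remaining input,
`Nonempty (Level33.LevelData A M)` at every good level `M` prime to `ℓ` (plug P2, rows LD-* of the
table `s18_status`).  Joint import of the five plug files = collision check of their closures.
`Fermat/Agent/S18.lean` is then `s18_of_levelData LevelInst29.nonempty_levelData`.
-/
import Fermat.Statements.S18
import Fermat.Agent.S18.Spine33
import Fermat.Agent.S18.Level33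
import Fermat.Agent.S18.P1Normalize20
import Fermat.Agent.S18.Descent26
import Fermat.Agent.S18.Transfer56
import Fermat.Agent.S18.CuspInfty56

set_option autoImplicit false
open ModularCurve

namespace Fermat.Agent.S18.SpineClosed20

open Fermat.Agent.S18

/-- The four closed plugs give `Spine33.LevelStatement → S18`. -/
theorem s18_of_level (hLevel : Spine33.LevelStatement)
    (N : ℕ) [NeZero N] {ℓ : ℕ}
    [Fact ℓ.Prime] (hℓN : ¬ ℓ ∣ N) (A : ValuationSubring (AlgebraicClosure ℚ)) (hA : A.LiesOverPrime ℓ)
    (h : ModularCurve.ReductionInputsModL A N) (m : ℕ) (hm : ¬ ℓ ∣ m) (z : ModularCurve.JZero N)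
    (hmz : m • z = 0) (hz : ModularCurve.reductionModL A N z = 0) :
    z = 0 :=
  Spine33.s18_of_spine P1Normalize20.normalize hLevel
    Descent26.descent Transfer56.transfer CuspInfty56.cuspInfty N hℓN A hA h m hm z hmz hz

/-- S18 from the level data at all good levels (the only open plug). -/
theorem s18_of_levelData
    (H : ∀ (M : ℕ) [NeZero M] (ℓ : ℕ) [Fact ℓ.Prime], ¬ ℓ ∣ M → Spine33.GoodLevel ℓ M →
      ∀ (A : ValuationSubring Spine33.Kb), A.LiesOverPrime ℓ → Nonempty (Level33.LevelData A M))
    (N : ℕ) [NeZero N] {ℓ : ℕ}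
    [Fact ℓ.Prime] (hℓN : ¬ ℓ ∣ N) (A : ValuationSubring (AlgebraicClosure ℚ)) (hA : A.LiesOverPrime ℓ)
    (h : ModularCurve.ReductionInputsModL A N) (m : ℕ) (hm : ¬ ℓ ∣ m) (z : ModularCurve.JZero N)
    (hmz : m • z = 0) (hz : ModularCurve.reductionModL A N z = 0) :
    z = 0 :=
  s18_of_level (Level33.levelStatement_of_data H) N hℓN A hA h m hm z hmz hz

end Fermat.Agent.S18.SpineClosed20
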