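import Mathlib

/-!
# S18 / [RH3] (helper79): exact exponent of the different in the TAME case, any characteristic

`A ⊆ B` Dedekind domains, `B` finite over `A`, separable fraction field extension, `p` a nonzero
maximal ideal of `A`, `P` a nonzero prime of `B` with `P^e ∥ pB`.

If `e * f ≠ 0` in the residue field `A ⧸ p` (`f = [B ⧸ P : A ⧸ p]`), then the exact power of `P`
dividing the different is `P^(e-1)`.  This generalises the landed `S20/TameDiff79` (which assumed
`CharZero (A ⧸ p)`); the only use of characteristic zero there was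
`trace_{(B/P^e)/(A/p)}(1) = dim_{A/p}(B/P^e) ≠ 0`.
-/

set_option autoImplicit false
set_option linter.deprecated false

open Algebra

namespace Fermat.Agent.S18.TameDiffP79

attribute [local instance] FractionRing.liftAlgebra FractionRing.isScalarTower_liftAlgebra
  Ideal.Quotient.field

variable (A : Type*) {B : Type*} [CommRing A] [CommRing B] [Algebra A B]
  [IsDedekindDomain A] [IsDedekindDomain B]
  [Module.IsTorsionFree A B] [Module.Finite A B]

/-- CORE.  If `pB = P' * Q` with `P'`, `Q` coprime, `P' ≠ ⊤` and the dimension of `B ⧸ P'` over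
`A ⧸ p` is nonzero in `A ⧸ p`, then `P'` does not divide the different. (`P'` need not be prime.)
The `A ⧸ p`-algebra structure on `B ⧸ P'` is the canonical one (`algebraQuotientOfLEComap`). -/
theorem not_dvd_differentIdeal_of_isCoprime_tame
    [Algebra.IsSeparable (FractionRing A) (FractionRing B)]
    {p : Ideal A} [p.IsMaximal] (P' Q : Ideal B) (hP' : P' ≠ ⊤)
    (hPQ : IsCoprime P' Q) (hP : P' * Q = Ideal.map (algebraMap A B) p)
    (hle : p ≤ Ideal.comap (algebraMap A B) P')
    (hfr : letI : Algebra (A ⧸ p) (B ⧸ P') := Ideal.Quotient.algebraQuotientOfLEComap hle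
      ((Module.finrank (A ⧸ p) (B ⧸ P') : ℕ) : A ⧸ p) ≠ 0) :
    ¬ P' ∣ differentIdeal A B := by
  let _ : Algebra (A ⧸ p) (B ⧸ Q) := Ideal.Quotient.algebraQuotientOfLEComap (by
      rw [← Ideal.map_le_iff_le_comap, ← hP]
      exact Ideal.mul_le_right)
  let _ : Algebra (A ⧸ p) (B ⧸ P') := Ideal.Quotient.algebraQuotientOfLEComap hle
  have : IsScalarTower A (A ⧸ p) (B ⧸ Q) := .of_algebraMap_eq' rfl
  have : IsScalarTower A (A ⧸ p) (B ⧸ P') := .of_algebraMap_eq' rfl
  have : Module.Finite (A ⧸ p) (B ⧸ Q) :=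
    Module.Finite.of_restrictScalars_finite A (A ⧸ p) (B ⧸ Q)
  have : Module.Finite (A ⧸ p) (B ⧸ P') :=
    Module.Finite.of_restrictScalars_finite A (A ⧸ p) (B ⧸ P')
  let e : (B ⧸ p.map (algebraMap A B)) ≃ₐ[A ⧸ p] ((B ⧸ P') × B ⧸ Q) :=
    { __ := (Ideal.quotEquivOfEq hP.symm).trans (Ideal.quotientMulEquivQuotientProd P' Q hPQ),
      commutes' := Quotient.ind fun _ ↦ rfl }
  have : Nontrivial (B ⧸ P') := Ideal.Quotient.nontrivial_iff.mpr hP'
  have htr : Algebra.trace (A ⧸ p) (B ⧸ P') 1 ≠ 0 := by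
    have h1 : (1 : B ⧸ P') = algebraMap (A ⧸ p) (B ⧸ P') 1 := (map_one _).symm
    rw [h1, Algebra.trace_algebraMap, nsmul_eq_mul, mul_one]
    exact hfr
  obtain ⟨y, hy⟩ := Ideal.Quotient.mk_surjective (e.symm (1, 0))
  refine not_dvd_differentIdeal_of_intTrace_not_mem A P' Q hP y ?_ ?_
  · have := congr((e $hy).2)
    simp at this
    simpa [e, Ideal.Quotient.eq_zero_iff_mem] using this
  · rw [← Ideal.Quotient.eq_zero_iff_mem, ← Algebra.trace_quotient_eq_of_isDedekindDomain,
      hy, Algebra.trace_eq_of_algEquiv, Algebra.trace_prod_apply]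
    simpa using htr


omit [IsDedekindDomain A] [IsDedekindDomain B] [Module.IsTorsionFree A B] [Module.Finite A B] in
/-- `P^e ∣ pB` gives `p ≤ comap (P^e)`. -/
theorem le_comap_pow_of_dvd {p : Ideal A} (P : Ideal B) {e : ℕ}
    (he1 : P ^ e ∣ p.map (algebraMap A B)) : p ≤ Ideal.comap (algebraMap A B) (P ^ e) := by
  rw [← Ideal.map_le_iff_le_comap]
  exact Ideal.le_of_dvd he1

/-- Tame ramification, instance-explicit form: if `P^e ∥ pB` (`e ≠ 0`) and
`dim_{A/p} (B/P^e) ≠ 0` in `A ⧸ p`, then `P^e` does not divide the different. -/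
theorem not_pow_dvd_differentIdeal_of_finrank
    [Algebra.IsSeparable (FractionRing A) (FractionRing B)]
    {p : Ideal A} [p.IsMaximal] (P : Ideal B) [P.IsPrime] (hPbot : P ≠ ⊥)
    {e : ℕ} (he0 : e ≠ 0) (he1 : P ^ e ∣ p.map (algebraMap A B))
    (he2 : ¬ P ^ (e + 1) ∣ p.map (algebraMap A B))
    (hfr : letI : Algebra (A ⧸ p) (B ⧸ P ^ e) :=
        Ideal.Quotient.algebraQuotientOfLEComap (le_comap_pow_of_dvd A P he1)
      ((Module.finrank (A ⧸ p) (B ⧸ P ^ e) : ℕ) : A ⧸ p) ≠ 0) :
    ¬ P ^ e ∣ differentIdeal A B := by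
  obtain ⟨Q, hQ⟩ := id he1
  have hPmax : P.IsMaximal := Ideal.IsPrime.isMaximal inferInstance hPbot
  have hPQ : ¬ P ∣ Q := by
    rintro ⟨Q', rfl⟩
    apply he2
    rw [hQ, pow_succ, ← mul_assoc]
    exact Dvd.intro _ rfl
  have hcop : IsCoprime P Q := by
    rw [Ideal.isCoprime_iff_sup_eq]
    by_contra h
    apply hPQ
    rw [Ideal.dvd_iff_le]
    have h1 : P ⊔ Q = P := by
      rcases hPmax.eq_of_le h le_sup_left with h2
      exact h2.symm
    rw [← h1]; exact le_sup_right
  refine not_dvd_differentIdeal_of_isCoprime_tame A (P ^ e) Q ?_ hcop.pow_left hQ.symm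
    (le_comap_pow_of_dvd A P he1) hfr
  intro htop
  have : P = ⊤ := by
    by_contra hne
    have hle : P ^ e ≤ P := Ideal.pow_le_self he0
    rw [htop] at hle
    exact hne (top_le_iff.mp hle)
  exact hPmax.ne_top this


omit [IsDedekindDomain A] [Module.IsTorsionFree A B] [Module.Finite A B] in
/-- `dim_{A/p} (B/P^e) = e * dim_{A/p} (B/P)` for `P^e ∥ pB` (canonical algebra structures). -/
theorem finrank_quotient_pow {p : Ideal A} [p.IsMaximal] (P : Ideal B) [P.IsPrime] [P.LiesOver p]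
    (hPbot : P ≠ ⊥) {e : ℕ} (he0 : e ≠ 0) (he1 : P ^ e ∣ p.map (algebraMap A B))
    (he2 : ¬ P ^ (e + 1) ∣ p.map (algebraMap A B)) :
    letI : Algebra (A ⧸ p) (B ⧸ P ^ e) :=
        Ideal.Quotient.algebraQuotientOfLEComap (le_comap_pow_of_dvd A P he1)
    Module.finrank (A ⧸ p) (B ⧸ P ^ e) = e * Module.finrank (A ⧸ p) (B ⧸ P) := by
  have hr : Ideal.ramificationIdx' p P = e :=
    Ideal.ramificationIdx'_spec (Ideal.le_of_dvd he1) (fun h => he2 (Ideal.dvd_iff_le.mpr h))
  subst hr
  exact Ideal.finrank_prime_pow_ramificationIdx p P hPbot he0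

/-- **Tame ramification, any characteristic**: if `P^e ∥ pB` (`e ≠ 0`) and `e * f ≠ 0` in `A ⧸ p`
(`f = [B ⧸ P : A ⧸ p]`), then `P^e` does not divide the different. -/
theorem not_pow_dvd_differentIdeal
    [Algebra.IsSeparable (FractionRing A) (FractionRing B)]
    {p : Ideal A} [p.IsMaximal] (P : Ideal B) [P.IsPrime] [P.LiesOver p] (hPbot : P ≠ ⊥)
    {e : ℕ} (he0 : e ≠ 0) (he1 : P ^ e ∣ p.map (algebraMap A B))
    (he2 : ¬ P ^ (e + 1) ∣ p.map (algebraMap A B))
    (htame : ((e * Module.finrank (A ⧸ p) (B ⧸ P) : ℕ) : A ⧸ p) ≠ 0) :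
    ¬ P ^ e ∣ differentIdeal A B := by
  refine not_pow_dvd_differentIdeal_of_finrank A P hPbot he0 he1 he2 ?_
  rw [finrank_quotient_pow A P hPbot he0 he1 he2]
  exact htame

/-- Tame ramification: the exact power of `P` in the different is `e - 1`. -/
theorem pow_dvd_differentIdeal_iff
    [Algebra.IsSeparable (FractionRing A) (FractionRing B)]
    {p : Ideal A} [p.IsMaximal] (hp : p ≠ ⊥)
    (P : Ideal B) [P.IsPrime] [P.LiesOver p] (hPbot : P ≠ ⊥)
    {e : ℕ} (he0 : e ≠ 0) (he1 : P ^ e ∣ p.map (algebraMap A B))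
    (he2 : ¬ P ^ (e + 1) ∣ p.map (algebraMap A B))
    (htame : ((e * Module.finrank (A ⧸ p) (B ⧸ P) : ℕ) : A ⧸ p) ≠ 0) (n : ℕ) :
    P ^ n ∣ differentIdeal A B ↔ n + 1 ≤ e := by
  constructor
  · intro h
    by_contra hlt
    have hle : e ≤ n := by omega
    exact not_pow_dvd_differentIdeal A P hPbot he0 he1 he2 htame ((pow_dvd_pow P hle).trans h)
  · intro h
    have h1 : P ^ (e - 1) ∣ differentIdeal A B := pow_sub_one_dvd_differentIdeal A P e hp he1
    exact (pow_dvd_pow P (by omega)).trans h1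

open UniqueFactorizationMonoid in
/-- Tame ramification: multiplicity of `P` in the different is exactly `e - 1`
(`normalizedFactors` form). -/
theorem count_normalizedFactors_differentIdeal
    [Algebra.IsSeparable (FractionRing A) (FractionRing B)]
    {p : Ideal A} [p.IsMaximal] (hp : p ≠ ⊥)
    (P : Ideal B) [P.IsPrime] [P.LiesOver p] (hPbot : P ≠ ⊥)
    {e : ℕ} (he0 : e ≠ 0) (he1 : P ^ e ∣ p.map (algebraMap A B))
    (he2 : ¬ P ^ (e + 1) ∣ p.map (algebraMap A B))
    (htame : ((e * Module.finrank (A ⧸ p) (B ⧸ P) : ℕ) : A ⧸ p) ≠ 0) :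
    (normalizedFactors (differentIdeal A B)).count P = e - 1 := by
  refine Ideal.count_normalizedFactors_eq ?_ ?_
  · rw [← Ideal.dvd_iff_le]
    exact pow_sub_one_dvd_differentIdeal A P e hp he1
  · rw [← Ideal.dvd_iff_le, Nat.sub_add_cancel (Nat.one_le_iff_ne_zero.mpr he0)]
    exact not_pow_dvd_differentIdeal A P hPbot he0 he1 he2 htame

open UniqueFactorizationMonoid in
/-- Same with `e` read off from the factorisation of `pB`:
`count P (different) = count P (pB) - 1` when `count P (pB) * f ≠ 0` in `A ⧸ p`. -/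
theorem count_normalizedFactors_differentIdeal'
    [Algebra.IsSeparable (FractionRing A) (FractionRing B)]
    {p : Ideal A} [p.IsMaximal] (hp : p ≠ ⊥)
    (P : Ideal B) [P.IsPrime] [P.LiesOver p] (hPbot : P ≠ ⊥)
    (htame : (((normalizedFactors (p.map (algebraMap A B))).count P *
      Module.finrank (A ⧸ p) (B ⧸ P) : ℕ) : A ⧸ p) ≠ 0) :
    (normalizedFactors (differentIdeal A B)).count P =
      (normalizedFactors (p.map (algebraMap A B))).count P - 1 := by
  have hmap : p.map (algebraMap A B) ≠ ⊥ := Ideal.map_ne_bot_of_ne_bot hp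
  have hPirr : Irreducible P := (Ideal.prime_of_isPrime hPbot inferInstance).irreducible
  have hmul : emultiplicity P (p.map (algebraMap A B)) =
      ((normalizedFactors (p.map (algebraMap A B))).count P : ℕ) := by
    rw [emultiplicity_eq_count_normalizedFactors hPirr hmap, normalize_eq]
  set e := (normalizedFactors (p.map (algebraMap A B))).count P with he
  have he1 : P ^ e ∣ p.map (algebraMap A B) :=
    pow_dvd_of_le_emultiplicity (le_of_eq hmul.symm)
  have he2 : ¬ P ^ (e + 1) ∣ p.map (algebraMap A B) := by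
    apply not_pow_dvd_of_emultiplicity_lt
    rw [hmul]
    exact_mod_cast Nat.lt_succ_self e
  have he0 : e ≠ 0 := by
    intro h0
    apply he2
    rw [h0, zero_add, pow_one, Ideal.dvd_iff_le, Ideal.map_le_iff_le_comap,
      ← Ideal.under_def, ← Ideal.over_def P p]
  exact count_normalizedFactors_differentIdeal A hp P hPbot he0 he1 he2 htame

omit [IsDedekindDomain A] in
/-- Over a base field: `(e : K) ≠ 0` gives `(e : A ⧸ p) ≠ 0`. -/
theorem natCast_quotient_ne_zero (K : Type*) [Field K] [Algebra K A] {p : Ideal A} [p.IsMaximal]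
    {e : ℕ} (he : (e : K) ≠ 0) : ((e : ℕ) : A ⧸ p) ≠ 0 := by
  have h : ((e : ℕ) : A ⧸ p) = algebraMap K (A ⧸ p) (e : K) := by simp
  rw [h]
  exact (map_ne_zero_iff _ (algebraMap K (A ⧸ p)).injective).mpr he

end Fermat.Agent.S18.TameDiffP79
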