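/-
S18 / tower plumbing for the RatFunc setting (helper39).

`K ⊆ F₀ ⊆ F₁` fields, `x₀ : F₀` transcendental over `K`.  With the `S20.T1Setup` structures
`algRat hx₀` on `F₀` and `algRat (transcendental_map hx₀)` on `F₁` (`X ↦ x₀`, resp. its image) the
tower `RatFunc K → F₀ → F₁` commutes, i.e. `IsScalarTower (RatFunc K) F₀ F₁` — the compatibility
required by `RH92.gam2_lower_bound` / `GenusEq39.genus_le_of_tower`.
Also the intermediate-field instance (`F₀ ≤ F₁` inside a common field `L`).
-/
import Fermat.Agent.S20.T1Setup

set_option autoImplicit false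
set_option linter.style.haveILetI false

open Polynomial IntermediateField

noncomputable section

namespace Fermat.Agent.S18.TowerInst39

open Fermat.Agent.S20.T1Setup

section General

variable {K F₀ F₁ : Type*} [Field K] [Field F₀] [Field F₁] [Algebra K F₀] [Algebra K F₁]
  [Algebra F₀ F₁] [IsScalarTower K F₀ F₁] {x₀ : F₀}

theorem transcendental_map (hx : Transcendental K x₀) :
    Transcendental K (algebraMap F₀ F₁ x₀) := by
  intro h
  apply hx
  exact (isAlgebraic_algebraMap_iff (algebraMap F₀ F₁).injective).mp h

/-- the two embeddings of `RatFunc K` are compatible -/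
theorem algebraMap_ratHom (hx : Transcendental K x₀) (r : RatFunc K) :
    algebraMap F₀ F₁ (ratHom hx r) = ratHom (transcendental_map (F₁ := F₁) hx) r := by
  have h : (algebraMap F₀ F₁).comp (ratHom hx).toRingHom =
      (ratHom (transcendental_map (F₁ := F₁) hx)).toRingHom := by
    apply IsLocalization.ringHom_ext (nonZeroDivisors K[X])
    ext p
    · simp only [RingHom.coe_comp, Function.comp_apply, AlgHom.toRingHom_eq_coe, RingHom.coe_coe]
      have h1 : algebraMap K[X] (RatFunc K) (C p) = algebraMap K (RatFunc K) p := by
        rw [← Polynomial.algebraMap_eq, ← IsScalarTower.algebraMap_apply]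
      rw [h1, AlgHom.commutes, AlgHom.commutes, ← IsScalarTower.algebraMap_apply]
    · simp only [RingHom.coe_comp, Function.comp_apply, AlgHom.toRingHom_eq_coe, RingHom.coe_coe]
      rw [ratHom_algebraMap, ratHom_algebraMap, aeval_X, aeval_X]
  exact congrArg (fun φ : RatFunc K →+* F₁ => φ r) h

theorem isScalarTower_rat (hx : Transcendental K x₀) :
    letI := algRat hx
    letI := algRat (transcendental_map (F₁ := F₁) hx)
    IsScalarTower (RatFunc K) F₀ F₁ := by
  letI := algRat hx
  letI := algRat (transcendental_map (F₁ := F₁) hx)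
  exact IsScalarTower.of_algebraMap_eq fun r => (algebraMap_ratHom hx r).symm

end General

section Intermediate

variable {K L : Type*} [Field K] [Field L] [Algebra K L] {F₀ F₁ : IntermediateField K L}

/-- `F₁` as an `F₀`-algebra for `F₀ ≤ F₁` (NOT an instance). -/
@[reducible] def algIncl (h : F₀ ≤ F₁) : Algebra F₀ F₁ :=
  (IntermediateField.inclusion h).toRingHom.toAlgebra

theorem isScalarTower_incl (h : F₀ ≤ F₁) :
    letI := algIncl h
    IsScalarTower K F₀ F₁ := by
  letI := algIncl h
  exact IsScalarTower.of_algebraMap_eq fun c => ((IntermediateField.inclusion h).commutes c).symm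

theorem algebraMap_incl_coe (h : F₀ ≤ F₁) (y : F₀) :
    letI := algIncl h
    ((algebraMap F₀ F₁ y : F₁) : L) = (y : L) := rfl

end Intermediate

end Fermat.Agent.S18.TowerInst39
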