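/-
S18 project (Spine33), package [TRANSFER]+[CUSPinf] (helper87):

* `transfer  : Spine33.TransferStatement`   (`σ_s : f(q) ↦ f(q^s)` maps `F_N` into `F_{sN}`,
  preserves `LocallyPower` and `IsOneUnit`);
* `cuspInfty : Spine33.CuspInftyStatement`  (the `q`-adic place of `F_N`).

Ingredients: S24 `GaloisPlaces.restrict` / `exists_ramIdx` (restriction of a place to a subfield over
which the big field is algebraic), S24 `Exports.isFunctionFieldOver_jF`, helper78's `embPlace`.
-/
import Fermat.Agent.S18.Spine33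
import Fermat.Agent.S18.EmbPlace78
import Fermat.Agent.S24.Exports
import Fermat.Agent.S24.GaloisPlacesBasic
import Fermat.Prelude.Def_ModularCurve_HeckeOperator

set_option autoImplicit false

open ModularCurve AlgebraicCurve HahnSeries IntermediateField

noncomputable section

universe u

namespace Fermat.Agent.S18.Transfer87

open Fermat.Agent.S18.Spine33

/-! ### Abstract part: restriction of places along an algebraic embedding -/

section Abstract

variable {K F₁ F₂ : Type*} [Field K] [Field F₁] [Field F₂] [Algebra K F₁] [Algebra K F₂]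

/-- Restriction of a place along an integral (= algebraic) `K`-embedding, with ramification
index. -/
theorem exists_restrict (τ : F₁ →ₐ[K] F₂) (hτ : (τ : F₁ →+* F₂).IsIntegral) (P' : Place K F₂) :
    ∃ (P : Place K F₁) (e : ℕ), 0 < e ∧ ∀ f : F₁, P'.ord (τ f) = e * P.ord f := by
  let _ : Algebra F₁ F₂ := (τ : F₁ →+* F₂).toAlgebra
  have : IsScalarTower K F₁ F₂ := IsScalarTower.of_algebraMap_eq fun a => (τ.commutes a).symm
  have : Algebra.IsIntegral F₁ F₂ := algebraMap_isIntegral_iff.mp hτ
  have : Algebra.IsAlgebraic F₁ F₂ := inferInstance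
  obtain ⟨e, he, h⟩ := Fermat.Agent.S24.GaloisPlaces.exists_ramIdx (K := K) (F := F₁) P'
  exact ⟨Fermat.Agent.S24.GaloisPlaces.restrict (F := F₁) P', e, he, h⟩

/-- exchange: if `E/K(x)` is algebraic and `y` is transcendental over `K`, then `E/K(y)` is
algebraic. -/
theorem isAlgebraic_adjoin_of_transcendental {E : Type u} [Field E] [Algebra K E]
    (x y : E) (halg : Algebra.IsAlgebraic K⟮x⟯ E) (hy : Transcendental K y) :
    Algebra.IsAlgebraic K⟮y⟯ E := by
  have h1 : Algebra.IsAlgebraic (Algebra.adjoin K ({x} : Set E)) E :=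
    IntermediateField.isAlgebraic_adjoin_iff_top.mp halg
  have htr : Algebra.trdeg K E ≤ 1 := by
    have := Algebra.IsAlgebraic.trdeg_le_cardinalMk K ({x} : Set E)
    simpa using this
  have hind : AlgebraicIndependent K (fun _ : PUnit.{u + 1} => y) :=
    (algebraicIndependent_unique_type_iff (ι := PUnit.{u + 1})).mpr hy
  have hb : IsTranscendenceBasis K (fun _ : PUnit.{u + 1} => y) :=
    hind.isTranscendenceBasis_of_trdeg_le_of_finite (by simpa using htr)
  have h2 := hb.isAlgebraic_field
  rwa [Set.range_const] at h2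

/-- an embedding of function fields is integral -/
theorem isIntegral_of_transcendental (τ : F₁ →ₐ[K] F₂) (x₂ : F₂)
    (halg₂ : Algebra.IsAlgebraic K⟮x₂⟯ F₂) (x₁ : F₁) (htr : Transcendental K x₁) :
    (τ : F₁ →+* F₂).IsIntegral := by
  have hy : Transcendental K (τ x₁) := fun h => htr ((isAlgebraic_algHom_iff τ τ.injective).mp h)
  have h3 : Algebra.IsAlgebraic K⟮τ x₁⟯ F₂ := isAlgebraic_adjoin_of_transcendental x₂ (τ x₁) halg₂ hy
  have hle : K⟮τ x₁⟯ ≤ τ.fieldRange := by
    rw [IntermediateField.adjoin_simple_le_iff]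
    exact ⟨x₁, rfl⟩
  let _ : Algebra F₁ F₂ := (τ : F₁ →+* F₂).toAlgebra
  intro z
  have hz : IsAlgebraic K⟮τ x₁⟯ z := h3.isAlgebraic z
  have hz' : IsAlgebraic τ.fieldRange z := by
    have := IsAlgebraic.tower_top_of_subalgebra_le
      (A := (K⟮τ x₁⟯).toSubalgebra) (B := τ.fieldRange.toSubalgebra) hle hz
    exact this
  have hz'' : IsAlgebraic F₁ z := by
    refine IsAlgebraic.of_ringHom_of_comp_eq (S := τ.fieldRange) (B := F₂) (R := F₁) (A := F₂)
      (f := (τ.rangeRestrict : F₁ →+* τ.range)) (g := RingHom.id F₂) (a := z) hz' ?_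
      Function.injective_id ?_
    · exact τ.rangeRestrict_surjective
    · rfl
  exact hz''.isIntegral

end Abstract

/-! ### The embedding `σ_s : F_N → F_{sN}` -/

section Sigma

variable (N s : ℕ) [NeZero N] [NeZero s]

omit [NeZero N] [NeZero s] in
theorem bar_mul_comm : modularFunctionFieldBar (N * s) = modularFunctionFieldBar (s * N) := by
  rw [Nat.mul_comm]

/-- `σ_s : F_N → F_{sN}`, `f(q) ↦ f(q^s)`, as a `ℚ̄`-algebra map. -/
def sigma : FK N →ₐ[Kb] FK (s * N) :=
  ((IntermediateField.equivOfEq (bar_mul_comm N s)) : FK (N * s) →ₐ[Kb] FK (s * N)).comp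
    (heckeBetaBar Kb N s)

omit [NeZero N] in
@[simp]
theorem coe_sigma (f : FK N) :
    ((sigma N s f : FK (s * N)) : LaurentSeries Kb) = qExpand Kb s (f : LaurentSeries Kb) :=
  rfl

omit [NeZero N] in
theorem qExpand_mem (f : FK N) :
    qExpand Kb s (f : LaurentSeries Kb) ∈ modularFunctionFieldBar (s * N) :=
  (sigma N s f).2

theorem sigma_isIntegral : ((sigma N s : FK N →ₐ[Kb] FK (s * N)) : FK N →+* FK (s * N)).IsIntegral := by
  have : NeZero (s * N) := ⟨Nat.mul_ne_zero (NeZero.ne s) (NeZero.ne N)⟩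
  have h2 := Fermat.Agent.S24.Exports.isFunctionFieldOver_jF (s * N)
  have h1 := Fermat.Agent.S24.Exports.isFunctionFieldOver_jF N
  have := h2.finite
  exact isIntegral_of_transcendental (sigma N s) (Fermat.Agent.S24.jF (s * N))
    (Algebra.IsAlgebraic.of_finite _ _) (Fermat.Agent.S24.jF N) h1.transcendental

/-- `LocallyPower` is preserved by `σ_s`. -/
theorem locallyPower_sigma (m : ℕ) (f : FK N) (hloc : LocallyPower N m f) :
    LocallyPower (s * N) m (sigma N s f) := by
  intro P'
  obtain ⟨P, e, _, h⟩ := exists_restrict (sigma N s) (sigma_isIntegral N s) P'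
  rw [h f]
  exact Dvd.dvd.mul_left (hloc P) _

end Sigma

/-! ### `IsOneUnit` is preserved by `σ_s` -/

section OneUnit

variable (N s : ℕ) [NeZero N] [NeZero s]

omit [NeZero N] in
theorem qExpand_memC (k : Type*) [Field k] {x : LaurentSeries k}
    (hx : x ∈ modularFunctionFieldFullC k N) :
    qExpand k s x ∈ modularFunctionFieldFullC k (s * N) := by
  have h := full_degeneracyC_map_le k N s
  rw [Nat.mul_comm]
  exact h ⟨x, hx, rfl⟩

omit [NeZero N] in
theorem qExpand_memBar {x : LaurentSeries Kb} (hx : x ∈ modularFunctionFieldBar N) :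
    qExpand Kb s x ∈ modularFunctionFieldBar (s * N) :=
  qExpand_mem N s ⟨x, hx⟩

omit [NeZero N] in
theorem isOneUnit_qExpand (A : ValuationSubring Kb) (f : LaurentSeries Kb)
    (h : IsOneUnit A N f) : IsOneUnit A (s * N) (qExpand Kb s f) := by
  obtain ⟨U, V, hU, hV, hUr, hU0, hUV, hf⟩ := h
  have hiU : incl A (qExpand A s U) = qExpand Kb s (incl A U) := coeffMap_qExpand _ s U
  have hiV : incl A (qExpand A s V) = qExpand Kb s (incl A V) := coeffMap_qExpand _ s V
  have hrU : red A (qExpand A s U) = qExpand (kA A) s (red A U) := coeffMap_qExpand _ s U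
  have hrV : red A (qExpand A s V) = qExpand (kA A) s (red A V) := coeffMap_qExpand _ s V
  refine ⟨qExpand A s U, qExpand A s V, ?_, ?_, ?_, ?_, ?_, ?_⟩
  · rw [hiU]; exact qExpand_memBar N s hU
  · rw [hiV]; exact qExpand_memBar N s hV
  · rw [hrU]; exact qExpand_memC N s (kA A) hUr
  · rw [hrU]
    intro h0
    apply hU0
    apply qExpand_injective (R := kA A) s
    rw [h0, map_zero]
  · rw [hrU, hrV, hUV]
  · rw [hiU, hiV, ← hf, map_mul]

end OneUnit

/-- **[TRANSFER]** -/
theorem transfer : TransferStatement := by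
  intro N s _ _ f
  refine ⟨qExpand_mem N s f, fun m hloc => ?_, fun A h => isOneUnit_qExpand N s A _ h⟩
  have h := locallyPower_sigma N s m f hloc
  exact h

/-! ### The cusp `∞` -/

section Cusp

variable (N : ℕ) [NeZero N]

theorem order_coeffEmb_jq : (coeffEmb Kb jq).order = -1 := by
  have hne : coeffEmb Kb jq ≠ 0 := by
    intro h
    have := congrArg (fun x : LaurentSeries Kb => x.coeff (-1)) h
    simp at this
  apply le_antisymm
  · apply HahnSeries.order_le_of_coeff_ne_zero
    simp
  · by_contra hlt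
    push Not at hlt
    have h1 : (coeffEmb Kb jq).coeff (coeffEmb Kb jq).order = 0 := by
      rw [coeffEmb_coeff, coeff_jq_of_lt hlt, map_zero]
    exact hne (HahnSeries.coeff_order_eq_zero.mp h1)

/-- **[CUSPinf]** -/
theorem cuspInfty : CuspInftyStatement := by
  intro N _ f hf
  let σ : FK N →ₐ[Kb] LaurentSeries Kb := (modularFunctionFieldBar N).val
  have hσ : ∀ x : FK N, σ x = (x : LaurentSeries Kb) := fun _ => rfl
  have hj : (σ (Fermat.Agent.S24.jF N)).order = -1 := order_coeffEmb_jq
  have h : ∃ x : FK N, (σ x).order < 0 := ⟨Fermat.Agent.S24.jF N, by rw [hj]; norm_num⟩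
  obtain ⟨g, hg, hgf⟩ := EmbPlace78.exists_order_eq_mul_ord σ h
  have hg1 : g = 1 := by
    have h1 := hgf (Fermat.Agent.S24.jF N)
    rw [hj] at h1
    have hdvd : g ∣ 1 := ⟨-(EmbPlace78.embPlace σ h).ord (Fermat.Agent.S24.jF N), by linarith⟩
    exact Int.eq_one_of_dvd_one hg.le hdvd
  refine ⟨EmbPlace78.embPlace σ h, ?_⟩
  rw [← hσ f, hgf f, hg1, one_mul]

end Cusp

end Fermat.Agent.S18.Transfer87
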