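/-
S18 head start, package [VALQBAR] (helper74).  Mathlib + Prelude `LiesOverPrime` only.

Facts about a valuation subring `A` of a field `L`
(later: `L = AlgebraicClosure ℚ`, `A.LiesOverPrime ℓ`):

* `residueField_isAlgClosed` : the residue field of `A` is algebraically closed (`L` alg. closed);
* `residueField_charP`       : it has characteristic `ℓ` when `A.LiesOverPrime ℓ`;
* `exists_pow_valuation_lt`, `exists_pow_not_dvd` : rank one (archimedean value group) when
  `L` is algebraic over `ℚ`;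
* `valuation_natCast_eq_one`, `isUnit_natCast`, `residue_natCast_ne_zero` : `m` is a unit of `A`
  when `ℓ ∤ m`;
* `exists_pow_eq_of_valuation_eq_one`, `exists_unit_pow_eq` : units of `A` have `m`-th roots in `A`.
-/
import Mathlib
import Fermat.Prelude.Def_FLTPrelim_Ramification

set_option autoImplicit false

namespace Fermat.Agent.S18.ValQbar74

open IsLocalRing Polynomial

variable {L : Type*} [Field L]


/-- An element of `L` that is a root of a monic polynomial over `A` lies in `A`. -/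
theorem mem_of_monic_root (A : ValuationSubring L) (p : A[X]) (hp : p.Monic) (x : L)
    (hx : (p.map A.subtype).eval x = 0) : x ∈ A := by
  have hint : IsIntegral A x := ⟨p, hp, by
    rw [← Polynomial.eval_map]; exact hx⟩
  obtain ⟨y, hy⟩ := (IsIntegrallyClosed.isIntegral_iff (R := A) (K := L)).1 hint
  rw [← hy]; exact y.2

/-- The residue field of a valuation subring of an algebraically closed field is algebraically
closed. -/
theorem residueField_isAlgClosed [IsAlgClosed L] (A : ValuationSubring L) :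
    IsAlgClosed (ResidueField A) := by
  refine IsAlgClosed.of_exists_root _ fun p hp hirr => ?_
  obtain ⟨q, hq, hqd, hqm⟩ := Polynomial.lifts_and_degree_eq_and_monic
    ((Polynomial.mem_lifts p).2 (Polynomial.map_surjective (residue A) residue_surjective p)) hp
  have hdeg : (q.map A.subtype).degree ≠ 0 := by
    rw [Polynomial.degree_map_eq_of_injective A.subtype_injective, hqd]
    exact (Polynomial.degree_pos_of_irreducible hirr).ne'
  obtain ⟨x, hx⟩ := IsAlgClosed.exists_root (q.map A.subtype) hdeg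
  have hxA : x ∈ A := mem_of_monic_root A q hqm x hx
  refine ⟨residue A ⟨x, hxA⟩, ?_⟩
  rw [← hq, Polynomial.eval_map, Polynomial.eval₂_hom]
  have : q.eval (⟨x, hxA⟩ : A) = 0 := by
    apply A.subtype_injective
    rw [map_zero, ← Polynomial.eval₂_hom, ← Polynomial.eval_map]
    exact hx
  rw [this, map_zero]



theorem valuation_intCast_le_one (A : ValuationSubring L) (a : ℤ) : A.valuation (a : L) ≤ 1 := by
  rw [A.valuation_le_one_iff]
  exact intCast_mem A a

theorem valuation_natCast_le_one (A : ValuationSubring L) (a : ℕ) : A.valuation (a : L) ≤ 1 := by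
  rw [A.valuation_le_one_iff]
  exact natCast_mem A a

/-- An integer prime to `ℓ` is a unit of `A`. -/
theorem valuation_intCast_eq_one (A : ValuationSubring L) {ℓ : ℕ} (hℓ : ℓ.Prime)
    (hA : A.LiesOverPrime ℓ) (a : ℤ) (ha : ¬ (ℓ : ℤ) ∣ a) : A.valuation (a : L) = 1 := by
  have hcop : IsCoprime (ℓ : ℤ) a :=
    (Nat.prime_iff_prime_int.1 hℓ).coprime_iff_not_dvd.2 ha
  obtain ⟨u, w, huw⟩ := hcop
  have h1 : (w : L) * (a : L) = 1 - (u : L) * (ℓ : L) := by
    have := congrArg (Int.cast : ℤ → L) huw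
    push_cast at this
    linear_combination this
  have hlt : A.valuation ((u : L) * (ℓ : L)) < 1 := by
    rw [map_mul]
    have h2 : A.valuation (ℓ : L) < 1 := (ValuationSubring.mem_nonunits_iff A).1 hA
    calc A.valuation (u : L) * A.valuation (ℓ : L) ≤ 1 * A.valuation (ℓ : L) := by
          gcongr; exact valuation_intCast_le_one A u
      _ < 1 := by rwa [one_mul]
  have h3 : A.valuation ((w : L) * (a : L)) = 1 := by
    rw [h1]; exact Valuation.map_one_sub_of_lt _ hlt
  rw [map_mul] at h3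
  refine le_antisymm (valuation_intCast_le_one A a) ?_
  calc (1 : A.ValueGroup) = A.valuation (w : L) * A.valuation (a : L) := h3.symm
    _ ≤ 1 * A.valuation (a : L) := by gcongr; exact valuation_intCast_le_one A w
    _ = _ := one_mul _




theorem valuation_aeval_int_le_one (A : ValuationSubring L) (c : L) (hc : A.valuation c ≤ 1)
    (q : ℤ[X]) : A.valuation (aeval c q) ≤ 1 := by
  rw [A.valuation_le_one_iff] at hc ⊢
  have h := Polynomial.aeval_algebraMap_apply L (⟨c, hc⟩ : A) q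
  have h' : algebraMap A L (⟨c, hc⟩ : A) = c := rfl
  rw [h'] at h
  rw [h]
  exact (aeval (⟨c, hc⟩ : A) q).2

/-- Step B: a nonzero element of `A` algebraic over `ℤ` divides a nonzero integer. -/
theorem exists_intCast_valuation_le (A : ValuationSubring L) (c : L) (hc : c ≠ 0)
    (hcA : A.valuation c ≤ 1) (halg : IsAlgebraic ℤ c) :
    ∃ a : ℤ, a ≠ 0 ∧ A.valuation (a : L) ≤ A.valuation c := by
  obtain ⟨p, hp0, hp⟩ := halg
  obtain ⟨q, hq0, hq⟩ : ∃ q : ℤ[X], q.coeff 0 ≠ 0 ∧ aeval c q = 0 := by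
    obtain ⟨q, hpq, hq⟩ := Polynomial.exists_eq_pow_rootMultiplicity_mul_and_not_dvd p hp0 0
    refine ⟨q, ?_, ?_⟩
    · intro h; apply hq; rw [C_0, sub_zero]; exact Polynomial.X_dvd_iff.2 h
    · rw [hpq, map_mul, map_pow, map_sub, aeval_X, aeval_C, map_zero, sub_zero] at hp
      exact (mul_eq_zero.1 hp).resolve_left (pow_ne_zero _ hc)
  refine ⟨q.coeff 0, hq0, ?_⟩
  have hdecomp := Polynomial.divX_mul_X_add q
  have h1 : aeval c q.divX * c + ((q.coeff 0 : ℤ) : L) = 0 := by
    rw [← hq]; conv_rhs => rw [← hdecomp]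
    simp
  have h2 : ((q.coeff 0 : ℤ) : L) = - (aeval c q.divX * c) := by linear_combination h1
  rw [h2, Valuation.map_neg, map_mul]
  calc A.valuation (aeval c q.divX) * A.valuation c ≤ 1 * A.valuation c := by
        gcongr; exact valuation_aeval_int_le_one A c hcA _
    _ = _ := one_mul _





theorem valuation_intCast_le_of_dvd (A : ValuationSubring L) {ℓ : ℕ} (a : ℤ) (ha : (ℓ : ℤ) ∣ a) :
    A.valuation (a : L) ≤ A.valuation (ℓ : L) := by
  obtain ⟨b, rfl⟩ := ha
  push_cast
  rw [map_mul]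
  calc A.valuation (ℓ : L) * A.valuation (b : L) ≤ A.valuation (ℓ : L) * 1 := by
        gcongr; exact valuation_intCast_le_one A b
    _ = _ := mul_one _

/-- Step A: a nonzero nonunit of `A` algebraic over `ℤ` has a power divisible by `ℓ`. -/
theorem exists_pow_valuation_le_prime [CharZero L] (A : ValuationSubring L) {ℓ : ℕ} (hℓ : ℓ.Prime)
    (hA : A.LiesOverPrime ℓ) (x : L) (hx0 : x ≠ 0) (hx : A.valuation x < 1)
    (halg : IsAlgebraic ℤ x) :
    ∃ e : ℕ, 0 < e ∧ A.valuation x ^ e ≤ A.valuation (ℓ : L) := by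
  classical
  by_contra hcon
  push Not at hcon
  set v := A.valuation with hv
  have hvx0 : v x ≠ 0 := (Valuation.ne_zero_iff _).2 hx0
  set y := x⁻¹ with hy
  have hxy : v x * v y = 1 := by
    rw [← map_mul, hy, mul_inv_cancel₀ hx0, map_one]
  have hvy : 1 < v y := by
    rw [hy, map_inv₀]
    exact (one_lt_inv₀ (zero_lt_iff.2 hvx0)).2 hx
  obtain ⟨p, hp0, hp⟩ := halg.inv
  set p' := p.primPart with hp'
  have hp'y : aeval y p' = 0 := Polynomial.aeval_primPart_eq_zero hp0 hp
  have hprim : p'.IsPrimitive := p.isPrimitive_primPart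
  set S : Finset ℕ := p'.support.filter (fun j => ¬ (ℓ : ℤ) ∣ p'.coeff j) with hS
  have hSne : S.Nonempty := by
    by_contra hempty
    rw [Finset.not_nonempty_iff_eq_empty] at hempty
    have hall : ∀ j, (ℓ : ℤ) ∣ p'.coeff j := by
      intro j
      by_cases hj : j ∈ p'.support
      · by_contra hnd
        have : j ∈ S := Finset.mem_filter.2 ⟨hj, hnd⟩
        rw [hempty] at this
        exact absurd this (Finset.notMem_empty _)
      · rw [Polynomial.notMem_support_iff.1 hj]; exact dvd_zero _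
    have hunit := hprim (ℓ : ℤ) ((Polynomial.C_dvd_iff_dvd_coeff _ _).2 hall)
    exact (Nat.prime_iff_prime_int.1 hℓ).not_isUnit hunit
  set i := S.max' hSne with hi
  have hiS : i ∈ S := Finset.max'_mem S hSne
  have hisupp : i ∈ p'.support := (Finset.mem_filter.1 hiS).1
  have hindvd : ¬ (ℓ : ℤ) ∣ p'.coeff i := (Finset.mem_filter.1 hiS).2
  have hsum : aeval y p' = ∑ j ∈ p'.support, ((p'.coeff j : ℤ) : L) * y ^ j := by
    rw [aeval_def, eval₂_eq_sum, Polynomial.sum_def]
    simp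
  rw [hsum, ← Finset.add_sum_erase _ _ hisupp] at hp'y
  have hTi : ((p'.coeff i : ℤ) : L) * y ^ i = - ∑ j ∈ p'.support.erase i, ((p'.coeff j : ℤ) : L) * y ^ j := by
    linear_combination hp'y
  have hvTi : v (((p'.coeff i : ℤ) : L) * y ^ i) = v y ^ i := by
    rw [map_mul, map_pow, valuation_intCast_eq_one A hℓ hA _ hindvd, one_mul]
  have hvy0 : v y ^ i ≠ 0 := pow_ne_zero _ (zero_lt_one.trans hvy).ne'
  have hlt : v (∑ j ∈ p'.support.erase i, ((p'.coeff j : ℤ) : L) * y ^ j) < v y ^ i := by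
    refine Valuation.map_sum_lt v hvy0 fun j hj => ?_
    obtain ⟨hji, hjs⟩ := Finset.mem_erase.1 hj
    rw [map_mul, map_pow]
    rcases lt_or_gt_of_ne hji with hlt | hgt
    · calc v ((p'.coeff j : ℤ) : L) * v y ^ j ≤ 1 * v y ^ j := by
            gcongr; exact valuation_intCast_le_one A _
        _ = v y ^ j := one_mul _
        _ < v y ^ i := pow_lt_pow_right₀ hvy hlt
    · have hjS : j ∉ S := fun hjS => absurd (Finset.le_max' S j hjS) (not_le.2 hgt)
      have hdvd : (ℓ : ℤ) ∣ p'.coeff j := by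
        by_contra hnd
        exact hjS (Finset.mem_filter.2 ⟨hjs, hnd⟩)
      have h1 : v ((p'.coeff j : ℤ) : L) < v x ^ (j - i) :=
        lt_of_le_of_lt (valuation_intCast_le_of_dvd A _ hdvd) (hcon (j - i) (Nat.sub_pos_of_lt hgt))
      have h2 : v y ^ j = v y ^ (j - i) * v y ^ i := by
        rw [← pow_add, Nat.sub_add_cancel hgt.le]
      have h3 : v x ^ (j - i) * v y ^ (j - i) = 1 := by
        rw [← mul_pow, hxy, one_pow]
      calc v ((p'.coeff j : ℤ) : L) * v y ^ j < v x ^ (j - i) * v y ^ j := by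
            apply mul_lt_mul_of_pos_right h1
            exact zero_lt_iff.2 (pow_ne_zero _ (zero_lt_one.trans hvy).ne')
        _ = v y ^ i := by rw [h2, ← mul_assoc, h3, one_mul]
  rw [hTi, Valuation.map_neg] at hvTi
  exact absurd hvTi hlt.ne


/-- A nonzero integer has valuation at least `v(ℓ)^k` for some `k`. -/
theorem exists_pow_le_valuation_intCast (A : ValuationSubring L) {ℓ : ℕ} (hℓ : ℓ.Prime)
    (hA : A.LiesOverPrime ℓ) (a : ℤ) (ha : a ≠ 0) :
    ∃ k : ℕ, A.valuation (ℓ : L) ^ k ≤ A.valuation (a : L) := by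
  have hfin : FiniteMultiplicity (ℓ : ℤ) a :=
    Int.finiteMultiplicity_iff.2 ⟨by simpa using hℓ.ne_one, ha⟩
  obtain ⟨c, hc, hnd⟩ := hfin.exists_eq_pow_mul_and_not_dvd
  refine ⟨multiplicity (ℓ : ℤ) a, ?_⟩
  have h1 : (a : L) = (ℓ : L) ^ multiplicity (ℓ : ℤ) a * (c : L) := by
    conv_lhs => rw [hc]
    push_cast; rfl
  rw [h1, map_mul, map_pow, valuation_intCast_eq_one A hℓ hA c hnd, mul_one]

/-- **Rank one** (valuation form).  If `L` is algebraic over `ℚ` (here: every element is algebraic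
over `ℤ`) and `A` lies over `ℓ`, then for every `x` with `v x < 1` and every `c ≠ 0` some power of
`x` has valuation `< v c`. -/
theorem exists_pow_valuation_lt' [CharZero L] (A : ValuationSubring L) {ℓ : ℕ} (hℓ : ℓ.Prime)
    (hA : A.LiesOverPrime ℓ) (halg : ∀ x : L, IsAlgebraic ℤ x)
    (x c : L) (hx : A.valuation x < 1) (hc : c ≠ 0) :
    ∃ n : ℕ, A.valuation x ^ n < A.valuation c := by
  set v := A.valuation with hv
  by_cases hx0 : x = 0
  · refine ⟨1, ?_⟩
    rw [hx0, map_zero, pow_one]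
    exact zero_lt_iff.2 ((Valuation.ne_zero_iff _).2 hc)
  rcases le_or_gt 1 (v c) with h1 | h1
  · exact ⟨1, by rw [pow_one]; exact lt_of_lt_of_le hx h1⟩
  obtain ⟨a, ha0, hac⟩ := exists_intCast_valuation_le A c hc h1.le (halg c)
  obtain ⟨k, hk⟩ := exists_pow_le_valuation_intCast A hℓ hA a ha0
  obtain ⟨e, he0, he⟩ := exists_pow_valuation_le_prime A hℓ hA x hx0 hx (halg x)
  have hℓ0 : v (ℓ : L) ≠ 0 :=
    (Valuation.ne_zero_iff _).2 (Nat.cast_ne_zero.2 hℓ.ne_zero)
  have hℓ1 : v (ℓ : L) < 1 := (ValuationSubring.mem_nonunits_iff A).1 hA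
  refine ⟨e * (k + 1), ?_⟩
  calc v x ^ (e * (k + 1)) = (v x ^ e) ^ (k + 1) := pow_mul _ _ _
    _ ≤ v (ℓ : L) ^ (k + 1) := pow_le_pow_left₀ zero_le he _
    _ < v (ℓ : L) ^ k := pow_lt_pow_right_of_lt_one₀ (zero_lt_iff.2 hℓ0) hℓ1 (Nat.lt_succ_self k)
    _ ≤ v (a : L) := hk
    _ ≤ v c := hac

theorem isAlgebraic_int_of_isAlgebraic_rat [Algebra ℚ L] [Algebra.IsAlgebraic ℚ L] (x : L) :
    IsAlgebraic ℤ x :=
  (IsFractionRing.isAlgebraic_iff ℤ ℚ L).2 (Algebra.IsAlgebraic.isAlgebraic x)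

/-- **Rank one** for valuation subrings of an algebraic extension of `ℚ` lying over `ℓ`. -/
theorem exists_pow_valuation_lt [Algebra ℚ L] [Algebra.IsAlgebraic ℚ L] (A : ValuationSubring L)
    {ℓ : ℕ} (hℓ : ℓ.Prime) (hA : A.LiesOverPrime ℓ) (x c : L) (hx : A.valuation x < 1)
    (hc : c ≠ 0) : ∃ n : ℕ, A.valuation x ^ n < A.valuation c :=
  haveI : CharZero L := charZero_of_injective_algebraMap (algebraMap ℚ L).injective
  exists_pow_valuation_lt' A hℓ hA isAlgebraic_int_of_isAlgebraic_rat x c hx hc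

/-- **Rank one**, ring form: no nonzero element of `A` is divisible by all powers of a
non-unit. -/
theorem exists_pow_not_dvd [Algebra ℚ L] [Algebra.IsAlgebraic ℚ L] (A : ValuationSubring L)
    {ℓ : ℕ} (hℓ : ℓ.Prime) (hA : A.LiesOverPrime ℓ) (π c : A) (hπ : π ∈ maximalIdeal A)
    (hc : c ≠ 0) : ∃ n : ℕ, ¬ π ^ n ∣ c := by
  have hπ' : A.valuation (π : L) < 1 := (A.valuation_lt_one_iff π).1 hπ
  have hc' : (c : L) ≠ 0 := fun h => hc (Subtype.ext h)
  obtain ⟨n, hn⟩ := exists_pow_valuation_lt A hℓ hA (π : L) (c : L) hπ' hc'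
  refine ⟨n, fun ⟨d, hd⟩ => ?_⟩
  have : A.valuation (c : L) ≤ A.valuation (π : L) ^ n := by
    rw [hd]; push_cast; rw [map_mul, map_pow]
    calc A.valuation (π : L) ^ n * A.valuation (d : L) ≤ A.valuation (π : L) ^ n * 1 := by
          gcongr; exact A.valuation_le_one d
      _ = _ := mul_one _
  exact absurd hn (not_lt.2 this)

/-- The maximal ideal of `A` is nonzero (it contains `ℓ ≠ 0`). -/
theorem maximalIdeal_ne_bot [CharZero L] (A : ValuationSubring L) {ℓ : ℕ} (hℓ : ℓ.Prime)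
    (hA : A.LiesOverPrime ℓ) : maximalIdeal A ≠ ⊥ := by
  obtain ⟨hmem, hmax⟩ := ValuationSubring.mem_nonunits_iff_exists_mem_maximalIdeal.1 hA
  intro hbot
  rw [hbot, Ideal.mem_bot] at hmax
  have : ((ℓ : L)) = 0 := congrArg Subtype.val hmax
  exact Nat.cast_ne_zero.2 hℓ.ne_zero this

/-- The residue field of `A` has characteristic `ℓ`. -/
theorem residueField_charP (A : ValuationSubring L) {ℓ : ℕ} (hℓ : ℓ.Prime)
    (hA : A.LiesOverPrime ℓ) : CharP (ResidueField A) ℓ := by
  obtain ⟨hmem, hmax⟩ := ValuationSubring.mem_nonunits_iff_exists_mem_maximalIdeal.1 hA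
  have h0 : ((ℓ : ℕ) : ResidueField A) = 0 := by
    have h1 : residue A (⟨(ℓ : L), hmem⟩ : A) = 0 := (residue_eq_zero_iff _).2 hmax
    have h2 : (⟨(ℓ : L), hmem⟩ : A) = ((ℓ : ℕ) : A) := Subtype.ext (by simp)
    rw [h2, map_natCast] at h1
    exact h1
  exact (CharP.charP_iff_prime_eq_zero hℓ).2 h0

/-- A natural number prime to `ℓ` has valuation one. -/
theorem valuation_natCast_eq_one (A : ValuationSubring L) {ℓ : ℕ} (hℓ : ℓ.Prime)
    (hA : A.LiesOverPrime ℓ) (m : ℕ) (hm : ¬ ℓ ∣ m) : A.valuation (m : L) = 1 := by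
  have := valuation_intCast_eq_one A hℓ hA (m : ℤ) (fun h => hm (Int.natCast_dvd_natCast.1 h))
  simpa using this

/-- A natural number prime to `ℓ` is a unit of `A`. -/
theorem isUnit_natCast (A : ValuationSubring L) {ℓ : ℕ} (hℓ : ℓ.Prime)
    (hA : A.LiesOverPrime ℓ) (m : ℕ) (hm : ¬ ℓ ∣ m) : IsUnit ((m : ℕ) : A) := by
  rw [A.valuation_eq_one_iff]
  simpa using valuation_natCast_eq_one A hℓ hA m hm

/-- A natural number prime to `ℓ` is nonzero in the residue field. -/
theorem residue_natCast_ne_zero (A : ValuationSubring L) {ℓ : ℕ} (hℓ : ℓ.Prime)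
    (hA : A.LiesOverPrime ℓ) (m : ℕ) (hm : ¬ ℓ ∣ m) : ((m : ℕ) : ResidueField A) ≠ 0 := by
  have h := isUnit_natCast A hℓ hA m hm
  have h2 : IsUnit (residue A ((m : ℕ) : A)) := h.map _
  rw [map_natCast] at h2
  exact h2.ne_zero

/-- The inverse of a natural number prime to `ℓ` lies in `A`. -/
theorem inv_natCast_mem (A : ValuationSubring L) {ℓ : ℕ} (hℓ : ℓ.Prime)
    (hA : A.LiesOverPrime ℓ) (m : ℕ) (hm : ¬ ℓ ∣ m) : ((m : L))⁻¹ ∈ A := by
  rw [← A.valuation_le_one_iff, map_inv₀, valuation_natCast_eq_one A hℓ hA m hm, inv_one]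

/-- Elements of valuation one have `m`-th roots of valuation one (`L` algebraically closed). -/
theorem exists_pow_eq_of_valuation_eq_one [IsAlgClosed L] (A : ValuationSubring L) (u : L)
    (hu : A.valuation u = 1) {m : ℕ} (hm : 0 < m) :
    ∃ w : L, A.valuation w = 1 ∧ w ^ m = u := by
  obtain ⟨w, hw⟩ := IsAlgClosed.exists_pow_nat_eq u hm
  refine ⟨w, ?_, hw⟩
  have h1 : A.valuation w ^ m = 1 := by rw [← map_pow, hw, hu]
  exact (pow_eq_one_iff_of_nonneg zero_le hm.ne').1 h1

/-- Units of `A` have `m`-th roots in `Aˣ` (`L` algebraically closed). -/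
theorem exists_unit_pow_eq [IsAlgClosed L] (A : ValuationSubring L) (u : Aˣ) {m : ℕ}
    (hm : 0 < m) : ∃ w : Aˣ, w ^ m = u := by
  have hu : A.valuation ((u : A) : L) = 1 := (A.valuation_eq_one_iff _).1 u.isUnit
  obtain ⟨w, hw1, hw⟩ := exists_pow_eq_of_valuation_eq_one A _ hu hm
  have hwA : w ∈ A := (A.valuation_le_one_iff w).1 hw1.le
  have hwu : IsUnit (⟨w, hwA⟩ : A) := (A.valuation_eq_one_iff _).2 hw1
  refine ⟨hwu.unit, ?_⟩
  apply Units.ext
  apply Subtype.ext
  simpa using hw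

/-! ### Specialisation to `AlgebraicClosure ℚ` (the shape used by the frozen statement S18) -/

section Qbar

variable (A : ValuationSubring (AlgebraicClosure ℚ)) {ℓ : ℕ}

theorem qbar_residueField_isAlgClosed : IsAlgClosed (ResidueField A) :=
  residueField_isAlgClosed A

theorem qbar_residueField_charP [Fact ℓ.Prime] (hA : A.LiesOverPrime ℓ) :
    CharP (ResidueField A) ℓ :=
  residueField_charP A Fact.out hA

theorem qbar_exists_pow_valuation_lt [Fact ℓ.Prime] (hA : A.LiesOverPrime ℓ)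
    (x c : AlgebraicClosure ℚ) (hx : A.valuation x < 1) (hc : c ≠ 0) :
    ∃ n : ℕ, A.valuation x ^ n < A.valuation c :=
  @exists_pow_valuation_lt _ _ (AlgebraicClosure.instAlgebra ℚ) (AlgebraicClosure.isAlgebraic ℚ)
    A ℓ Fact.out hA x c hx hc

theorem qbar_exists_pow_not_dvd [Fact ℓ.Prime] (hA : A.LiesOverPrime ℓ) (π c : A)
    (hπ : π ∈ maximalIdeal A) (hc : c ≠ 0) : ∃ n : ℕ, ¬ π ^ n ∣ c :=
  @exists_pow_not_dvd _ _ (AlgebraicClosure.instAlgebra ℚ) (AlgebraicClosure.isAlgebraic ℚ)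
    A ℓ Fact.out hA π c hπ hc

theorem qbar_maximalIdeal_ne_bot [Fact ℓ.Prime] (hA : A.LiesOverPrime ℓ) :
    maximalIdeal A ≠ ⊥ :=
  maximalIdeal_ne_bot A Fact.out hA

end Qbar

end Fermat.Agent.S18.ValQbar74
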